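/-
S37 (Eichler–Shimura congruence relation), block HI (Hecke inputs, characteristic 0) — INTERFACE FILE.

Shared definitions and statement-`Prop`s only; no proofs of the statements here.  Every work package
proves one (or a few) of the `hi_…Statement : Prop` definitions below in its own file
`Fermat/Agent/S37/HI<Package>.lean` (namespace `Fermat.Agent.S37`, package-unique name prefixes),
possibly assuming other statements as explicit hypotheses.

Conventions.  All types live in `Type`.  `K` is an algebraically closed field of characteristic zero,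
`F`, `F'` are function fields of one variable over `K` (`F` finite over `K(t)`, `t` transcendental),
`φ : F →ₐ[K] F'` a `K`-embedding along which `F'` is finite.  `Place K F`, `Place.ord`,
`Place.fiberAlong`, `Place.ramificationIndexAlong`, `Place.restrictAlong`, `FiniteAlong`,
`FundamentalIdentityAlong`, `NormFormulaAlong`, `HeckeInputsAlong`, `heckeAlphaBar`, `heckeBetaBar`
are the prelude's.  `ℚ̄ = AlgebraicClosure ℚ`, `F_M = ↥(modularFunctionFieldBar M)`.
-/
import Fermat.Statements.S37
import Fermat.Agent.S24.Interfaces

set_option autoImplicit false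

open AlgebraicCurve ModularCurve IntermediateField Polynomial

namespace Fermat.Agent.S37

noncomputable section

/-! ## Shared definitions -/

/-- `c : K` is the value of `x : F` at the place `v`: `x - c` lies in the maximal ideal of `v`
(`Place.ord 0 = 0` by convention, so the case `x = c` is listed separately). -/
def hi_IsValue {K F : Type} [Field K] [Field F] [Algebra K F] (v : Place K F) (x : F) (c : K) :
    Prop :=
  x - algebraMap K F c = 0 ∨ 0 < v.ord (x - algebraMap K F c)

/-- The characteristic polynomial of (multiplication by) `h : F'` over `F`, where `F'` is regarded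
as an `F`-algebra along `φ`. -/
def hi_charpolyAlong {K F F' : Type} [Field K] [Field F] [Field F'] [Algebra K F] [Algebra K F']
    (φ : F →ₐ[K] F') (hfin : FiniteAlong K φ) (h : F') : Polynomial F :=
  letI := algebraAlong φ
  haveI : Module.Finite F F' := hfin
  (LinearMap.mulLeft F h).charpoly

/-! ## General theorems on finite extensions of function fields -/

/-- (HI-FI) The fundamental identity `∑_{w ∣ v} e(w ∣ v) = [F' : F]` for a finite extension of
function fields of one variable over an algebraically closed field of characteristic zero (all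
places have degree one). -/
def hi_FIStatement : Prop :=
  ∀ (K F F' : Type) [Field K] [Field F] [Field F'] [Algebra K F] [Algebra K F'] [IsAlgClosed K]
    [CharZero K] [HasPrincipalDivisors K F'] (t : F),
    Transcendental K t → FiniteDimensional K⟮t⟯ F →
    ∀ (φ : F →ₐ[K] F') (hφ : φ.toRingHom.IsIntegral), FiniteAlong K φ →
      FundamentalIdentityAlong K φ hφ

/-- (HI-NF) The norm formula `ord_v (N f) = ∑_{w ∣ v} ord_w f` (inertia degrees are one), in the
prelude's form `Divisor.PushforwardNormFormula`. -/
def hi_NFStatement : Prop :=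
  ∀ (K F F' : Type) [Field K] [Field F] [Field F'] [Algebra K F] [Algebra K F'] [IsAlgClosed K]
    [CharZero K] (t : F),
    Transcendental K t → FiniteDimensional K⟮t⟯ F →
    ∀ (φ : F →ₐ[K] F') (hfin : FiniteAlong K φ), NormFormulaAlong K φ hfin

/-- (HI-Val) The VALUES LEMMA: if `h : F'` has the value `c w` at every place `w` of `F'` above the
place `v` of `F`, then every coefficient of the characteristic polynomial of `h` over `F` has a
value at `v`, namely the corresponding coefficient of `∏_{w ∣ v} (X - c w) ^ e(w ∣ v)`. -/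
def hi_ValuesStatement : Prop :=
  ∀ (K F F' : Type) [Field K] [Field F] [Field F'] [Algebra K F] [Algebra K F'] [IsAlgClosed K]
    [CharZero K] [HasPrincipalDivisors K F'] (t : F),
    Transcendental K t → FiniteDimensional K⟮t⟯ F →
    ∀ (φ : F →ₐ[K] F') (hφ : φ.toRingHom.IsIntegral) (hfin : FiniteAlong K φ) (v : Place K F)
      (h : F') (c : Place K F' → K),
      (∀ w ∈ Place.fiberAlong φ hφ v, hi_IsValue w h (c w)) →
      ∀ i : ℕ, hi_IsValue v ((hi_charpolyAlong φ hfin h).coeff i)
        ((∏ w ∈ Place.fiberAlong φ hφ v,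
          (X - C (c w)) ^ (w.ramificationIndexAlong φ)).coeff i)

/-! ## The modular function fields over `ℚ̄` -/

/-- (HI-Fin) The two degeneracy maps `α, β : F_N → F_{Nℓ}` are integral and finite. -/
def hi_FinStatement : Prop :=
  ∀ (N ℓ : ℕ) [NeZero N] [NeZero ℓ],
    HeckeAlphaBarIntegral (AlgebraicClosure ℚ) N ℓ ∧
    HeckeBetaBarIntegral (AlgebraicClosure ℚ) N ℓ ∧
    FiniteAlong (AlgebraicClosure ℚ) (heckeAlphaBar (AlgebraicClosure ℚ) N ℓ) ∧
    FiniteAlong (AlgebraicClosure ℚ) (heckeBetaBar (AlgebraicClosure ℚ) N ℓ)

/-- (HI-Princ) Principal divisors of `F_M` have finite support and degree zero. -/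
def hi_PrincipalStatement : Prop :=
  ∀ (M : ℕ) [NeZero M],
    HasPrincipalDivisors (AlgebraicClosure ℚ) ↥(modularFunctionFieldBar M)

/-- (HI-DegOne) Every place of `F_M` has degree one. -/
def hi_DegOneStatement : Prop :=
  ∀ (M : ℕ) [NeZero M] (P : Place (AlgebraicClosure ℚ) ↥(modularFunctionFieldBar M)), P.deg = 1

/-- (HI1) The Hecke inputs hold at every level and for every `ℓ ≥ 1`. -/
def hi_HeckeInputsStatement : Prop :=
  ∀ (N ℓ : ℕ) [NeZero N] [NeZero ℓ], HeckeInputsAlong (AlgebraicClosure ℚ) N ℓ

/-- (HI-Single) The Hecke correspondence on a single place: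
`T (P) = ∑_{Q ∣ P along β} e_β(Q) • (α_* Q)`. -/
def hi_HeckeDivSingleStatement : Prop :=
  ∀ (N ℓ : ℕ) [NeZero N] [NeZero ℓ]
    (hα : HeckeAlphaBarIntegral (AlgebraicClosure ℚ) N ℓ)
    (hβ : HeckeBetaBarIntegral (AlgebraicClosure ℚ) N ℓ)
    [HasPrincipalDivisors (AlgebraicClosure ℚ) ↥(modularFunctionFieldBar (N * ℓ))]
    (P : Place (AlgebraicClosure ℚ) ↥(modularFunctionFieldBar N)),
    heckeDivBar hα hβ (Finsupp.single P 1) =
      ∑ Q ∈ Place.fiberAlong (heckeBetaBar (AlgebraicClosure ℚ) N ℓ) hβ P,
        Finsupp.single (Q.restrictAlong (heckeAlphaBar (AlgebraicClosure ℚ) N ℓ) hα)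
          (Q.ramificationIndexAlong (heckeBetaBar (AlgebraicClosure ℚ) N ℓ) : ℤ)

end

end Fermat.Agent.S37
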