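/-
S37 (Eichler–Shimura congruence relation), block KR (the Kronecker congruence, characteristic 0
part) — INTERFACE FILE.

Statement-`Prop`s only; no proofs of the statements here.  Every work package proves one (or a
few) of the `kr_…Statement : Prop` definitions below in its own file
`Fermat/Agent/S37/KR<Package>.lean` (namespace `Fermat.Agent.S37`, package-unique name prefixes),
possibly assuming other statements as explicit hypotheses.

Notation.  `ℚ̄ = AlgebraicClosure ℚ`, `Ω = LaurentSeries ℚ̄ = ℚ̄((q))`, `j = jqModC ℚ̄ ∈ Ω` the formal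
`j`-series, `qExpand ℚ̄ m` the substitution `q ↦ q ^ m`, `scale c` the substitution `q ↦ c q`
(`Fermat.Agent.S28.scale`), `evalL x p = p(x)` (`Fermat.Agent.S28.evalL`), `coeffMap f` applies a ring
homomorphism to the coefficients.  `F_M = ↥(modularFunctionFieldBar M) = ℚ̄(j(q^d) : d ∣ M) ⊆ Ω`;
`α = heckeAlphaBar ℚ̄ N ℓ : F_N → F_{Nℓ}` is the inclusion, `β = heckeBetaBar ℚ̄ N ℓ` is `g(q) ↦ g(q^ℓ)`.
`hi_charpolyAlong β hfin h` is the characteristic polynomial of `h ∈ F_{Nℓ}` over `F_N` along `β`.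
-/
import Fermat.Agent.S37.HIInterfaces
import Fermat.Agent.S28.Interfaces

set_option autoImplicit false

open AlgebraicCurve ModularCurve IntermediateField Polynomial
open Fermat.Agent.S28 (scale evalL)

namespace Fermat.Agent.S37

noncomputable section

/-! ## The modular equation with integral coefficients -/

/-- (KR-ModEqInt) The modular equation of prime level `r` over `ℚ̄`: a polynomial `Φ ∈ ℚ̄[T][X]`,
monic of degree `r + 1` in `X`, all of whose coefficients are algebraic integers, with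
`Φ(X, j(q^r)) = (X - j(q^{r²})) ∏_{b<r} (X - j(ζ^b q))`; in particular `Φ(j(q), j(q^r)) = 0` and
`Φ(j(q^r), j(q)) = 0`. -/
def kr_ModEqIntStatement : Prop :=
  ∀ (r : ℕ) [NeZero r], r.Prime → ∀ ζ : AlgebraicClosure ℚ, IsPrimitiveRoot ζ r →
    ∃ Φ : Polynomial (Polynomial (AlgebraicClosure ℚ)), Φ.Monic ∧ Φ.natDegree = r + 1 ∧
      (∀ i j : ℕ, IsIntegral ℤ ((Φ.coeff i).coeff j)) ∧
      Φ.map (evalL (qExpand (AlgebraicClosure ℚ) r (jqModC (AlgebraicClosure ℚ)))) =
        (X - C (qExpand (AlgebraicClosure ℚ) (r * r) (jqModC (AlgebraicClosure ℚ)))) *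
          ∏ b ∈ Finset.range r, (X - C (scale (ζ ^ b) (jqModC (AlgebraicClosure ℚ)))) ∧
      (Φ.map (evalL (qExpand (AlgebraicClosure ℚ) r (jqModC (AlgebraicClosure ℚ))))).eval
        (jqModC (AlgebraicClosure ℚ)) = 0 ∧
      (Φ.map (evalL (jqModC (AlgebraicClosure ℚ)))).eval
        (qExpand (AlgebraicClosure ℚ) r (jqModC (AlgebraicClosure ℚ))) = 0

/-! ## KR1: the degree of `β` -/

/-- (KR-Psi) `[F_M : ℚ̄(j)] = ψ(M)` (from the S24 degree computation). -/
def kr_PsiDegStatement : Prop :=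
  ∀ (M : ℕ) [NeZero M],
    Transcendental (AlgebraicClosure ℚ) (Fermat.Agent.S24.jBar M) ∧
    FiniteDimensional (AlgebraicClosure ℚ)⟮Fermat.Agent.S24.jBar M⟯
      ↥(modularFunctionFieldBar M) ∧
    Module.finrank (AlgebraicClosure ℚ)⟮Fermat.Agent.S24.jBar M⟯ ↥(modularFunctionFieldBar M)
      = dedekindPsi M

/-- (KR-PrimeDeg) For a prime `ℓ`, the series `j(q)` has degree `ℓ + 1` over `ℚ̄(j(q^ℓ))`. -/
def kr_PrimeDegStatement : Prop :=
  ∀ (ℓ : ℕ) [NeZero ℓ], ℓ.Prime →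
    (minpoly ↥(IntermediateField.adjoin (AlgebraicClosure ℚ)
        {qExpand (AlgebraicClosure ℚ) ℓ (jqModC (AlgebraicClosure ℚ))})
      (jqModC (AlgebraicClosure ℚ))).natDegree = ℓ + 1

/-- (KR1) For a prime `ℓ ∤ N` the field `F_{Nℓ}` has degree `ℓ + 1` over `β(F_N)`. -/
def kr_FinrankStatement : Prop :=
  ∀ (N ℓ : ℕ) [NeZero N] [NeZero ℓ], ℓ.Prime → ¬ ℓ ∣ N →
    finrankAlong (AlgebraicClosure ℚ) (heckeBetaBar (AlgebraicClosure ℚ) N ℓ) = ℓ + 1

/-! ## KR2: the characteristic polynomial of `α(g)` along `β` -/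

/-- (KR2) For a prime `ℓ ∤ N`, a primitive `ℓ`-th root of unity `ζ` and `g ∈ F_N`, the
characteristic polynomial `χ_g ∈ F_N[X]` of `α(g)` along `β` satisfies, after applying `β`
(`q ↦ q^ℓ`) to its coefficients,
`χ_g^β = (X - g(q^{ℓ²})) ∏_{b<ℓ} (X - g(ζ^b q))` in `Ω[X]`. -/
def kr_CharpolyStatement : Prop :=
  ∀ (N ℓ : ℕ) [NeZero N] [NeZero ℓ], ℓ.Prime → ¬ ℓ ∣ N →
    ∀ (hfin : FiniteAlong (AlgebraicClosure ℚ) (heckeBetaBar (AlgebraicClosure ℚ) N ℓ))
      (ζ : AlgebraicClosure ℚ), IsPrimitiveRoot ζ ℓ →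
      ∀ g : ↥(modularFunctionFieldBar N),
        (hi_charpolyAlong (heckeBetaBar (AlgebraicClosure ℚ) N ℓ) hfin
            (heckeAlphaBar (AlgebraicClosure ℚ) N ℓ g)).map
          ((qExpand (AlgebraicClosure ℚ) ℓ).comp
            (algebraMap ↥(modularFunctionFieldBar N) (LaurentSeries (AlgebraicClosure ℚ)))) =
        (X - C (qExpand (AlgebraicClosure ℚ) (ℓ * ℓ) (g : LaurentSeries (AlgebraicClosure ℚ)))) *
          ∏ b ∈ Finset.range ℓ,
            (X - C (scale (ζ ^ b) (g : LaurentSeries (AlgebraicClosure ℚ))))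

/-! ## KR3: the integral form -/

/-- (KR3) Let `A` be a valuation subring of `ℚ̄` over the prime `ℓ ∤ N`, with residue field `k`
and Frobenius `φ` (`φ x = x ^ ℓ`).  If `g ∈ F_N` has `A`-integral `q`-expansion `y ∈ A((q))`, with
reduction `ȳ ∈ k((q))`, and `w ∈ k((q))` is the series with `φ(w) = ȳ` (coefficientwise), then every
coefficient of the characteristic polynomial `χ_g` of `α(g)` along `β` has an `A`-integral
`q`-expansion, and the reduction of `χ_g` is `(X - w^ℓ) (X^ℓ - φ(ȳ))`. -/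
def kr_IntegralStatement : Prop :=
  ∀ (N ℓ : ℕ) [NeZero N] [NeZero ℓ], ℓ.Prime → ¬ ℓ ∣ N →
    ∀ (hfin : FiniteAlong (AlgebraicClosure ℚ) (heckeBetaBar (AlgebraicClosure ℚ) N ℓ))
      (A : ValuationSubring (AlgebraicClosure ℚ)), A.LiesOverPrime ℓ →
    ∀ φ : IsLocalRing.ResidueField ↥A →+* IsLocalRing.ResidueField ↥A, (∀ x, φ x = x ^ ℓ) →
    ∀ (y : LaurentSeries ↥A) (hy : coeffMap A.subtype y ∈ modularFunctionFieldBar N)
      (w : LaurentSeries (IsLocalRing.ResidueField ↥A)),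
      coeffMap φ w = coeffMap (IsLocalRing.residue ↥A) y →
      ∀ i : ℕ, ∃ z : LaurentSeries ↥A,
        (((hi_charpolyAlong (heckeBetaBar (AlgebraicClosure ℚ) N ℓ) hfin
            (heckeAlphaBar (AlgebraicClosure ℚ) N ℓ
              (⟨coeffMap A.subtype y, hy⟩ : ↥(modularFunctionFieldBar N)))).coeff i :
            ↥(modularFunctionFieldBar N)) : LaurentSeries (AlgebraicClosure ℚ))
          = coeffMap A.subtype z ∧
        coeffMap (IsLocalRing.residue ↥A) z =
          ((X - C (w ^ ℓ)) *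
            (X ^ ℓ - C (coeffMap φ (coeffMap (IsLocalRing.residue ↥A) y)))).coeff i

end

end Fermat.Agent.S37
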