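/-
S37, block KR — SUPPLEMENTARY INTERFACE FILE (the pieces of KR2).

Statement-`Prop`s only.  See `KRInterfaces.lean` for the notation.
-/
import Fermat.Agent.S37.KRInterfaces

set_option autoImplicit false

open AlgebraicCurve ModularCurve IntermediateField Polynomial
open Fermat.Agent.S28 (scale evalL)

namespace Fermat.Agent.S37

noncomputable section

/-- (KR-Emb) General field theory: if the finite field extension `L / E` of degree `n` has `n`
distinct `E`-embeddings `σ i` into a field `Ω`, then the characteristic polynomial of (the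
multiplication by) any `h : L` over `E` becomes `∏ i, (X - σ i h)` over `Ω`. -/
def kr_EmbCharpolyStatement : Prop :=
  ∀ (E L Ω : Type) [Field E] [Field L] [Field Ω] [Algebra E L] [Algebra E Ω]
    [FiniteDimensional E L] (n : ℕ) (σ : Fin n → (L →ₐ[E] Ω)),
    Function.Injective σ → Module.finrank E L = n →
    ∀ h : L, (LinearMap.mulLeft E h).charpoly.map (algebraMap E Ω) = ∏ i, (X - C (σ i h))

/-- (KR-SInf) The extra embedding: for a prime `ℓ ∤ N` there is a ring homomorphism
`s : F_{Nℓ} → Ω` with `s (β f) = f(q^ℓ)` (it is a `β(F_N)`-embedding) and `s (α g) = g(q^{ℓ²})`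
for all `f, g ∈ F_N`. -/
def kr_SInfStatement : Prop :=
  ∀ (N ℓ : ℕ) [NeZero N] [NeZero ℓ], ℓ.Prime → ¬ ℓ ∣ N →
    ∃ s : ↥(modularFunctionFieldBar (N * ℓ)) →+* LaurentSeries (AlgebraicClosure ℚ),
      (∀ f : ↥(modularFunctionFieldBar N),
        s (heckeBetaBar (AlgebraicClosure ℚ) N ℓ f) =
          qExpand (AlgebraicClosure ℚ) ℓ (f : LaurentSeries (AlgebraicClosure ℚ))) ∧
      (∀ g : ↥(modularFunctionFieldBar N),
        s (heckeAlphaBar (AlgebraicClosure ℚ) N ℓ g) =
          qExpand (AlgebraicClosure ℚ) (ℓ * ℓ) (g : LaurentSeries (AlgebraicClosure ℚ)))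

end

end Fermat.Agent.S37
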