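/-
S37 (Eichler–Shimura congruence relation, `SpecializationExists` for `J₀(N)`) — SHARED TOP-LEVEL
INTERFACE FILE.  Shared definitions and statement-`Prop`s; the only proofs here are the small
well-definedness lemmas needed by the definitions.  Namespace `Fermat.Agent.S37`.

Setting.  `Qb = AlgebraicClosure ℚ`, `A` a valuation subring of `Qb` above the prime `ℓ ∤ N`,
`k = kA A` its residue field, `F = ↥(FL Qb N)` (`= modularFunctionFieldBar N`), `F_k = ↥(Fk k N)`.
ABSTRACT DATA (as in S18): a field `L` of characteristic `0`, `ι : L →+* Qb`, `W := dW A ι = A.comap ι`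
a discrete valuation ring, `res := dRes A ι : W → k`, a uniformiser `ϖ`, `BaseData N ℓ W res ϖ`; for
such data S18 provides the charts `chart W N S ⊆ F_L`, the Gauss ring `V = gaussV W res N ⊇ chart` and
reduction maps `ρ : V →+* k((q))` (`IsGaussRed`).  `dEmb N ι : F_L →+* F` is the coefficientwise
embedding.

The plan (DB row `S37plan`): construct a reduction map of places `r : Place Qb F → Place k F_k`
characterised by `Spec` (block R), prove (R1)–(R4) for every `r` satisfying `Spec` (blocks CN, GAL,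
VAL, with inputs HI, KR), and assemble (block ASM).
-/
import Fermat.Statements.S37
import Fermat.Agent.S18.SInterfaces
import Fermat.Agent.S18.EDescentT
import Fermat.Prelude.Thm_ModularCurve_coeffMap_qExpand

set_option autoImplicit false

open ModularCurve AlgebraicCurve

namespace Fermat.Agent.S37

open Fermat.Agent.S18

noncomputable section

/-- `Qbar`. -/
abbrev Qb : Type := AlgebraicClosure ℚ

/-- The residue field `k` of `A`. -/
abbrev kA (A : ValuationSubring Qb) : Type := IsLocalRing.ResidueField ↥A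

/-- VALUE convention: `s` has the value `c` at the place `P` iff `s - c` lies in the maximal ideal
of the valuation ring of `P`. -/
def HasValue {K F : Type} [Field K] [Field F] [Algebra K F] (P : Place K F) (s : F) (c : K) : Prop :=
  s - algebraMap K F c ∈ P.toValuationSubring.nonunits

/-! ## Abstract data -/

section Data

variable (A : ValuationSubring Qb) {L : Type} [Field L] (ι : L →+* Qb)

/-- `W = A ∩ L` (as `A.comap ι`), a valuation subring of `L`. -/
abbrev dW : ValuationSubring L := A.comap ι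

/-- The inclusion `W → A`. -/
def dIncl : ↥(dW A ι) →+* ↥A where
  toFun x := ⟨ι (x : L), x.2⟩
  map_one' := Subtype.ext (map_one ι)
  map_mul' _ _ := Subtype.ext (map_mul ι _ _)
  map_zero' := Subtype.ext (map_zero ι)
  map_add' _ _ := Subtype.ext (map_add ι _ _)

@[simp] theorem dIncl_coe (x : ↥(dW A ι)) : ((dIncl A ι x : ↥A) : Qb) = ι (x : L) := rfl

/-- The residue map `W → k`. -/
def dRes : ↥(dW A ι) →+* kA A := (IsLocalRing.residue ↥A).comp (dIncl A ι)

theorem dRes_apply (x : ↥(dW A ι)) : dRes A ι x = IsLocalRing.residue ↥A (dIncl A ι x) := rfl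

end Data

/-- The coefficientwise embedding `F_L → F = F_Qb`. -/
def dEmb (N : ℕ) [NeZero N] {L : Type} [Field L] [Algebra ℚ L] (ι : L →+* Qb) :
    ↥(FL L N) →+* ↥(FL Qb N) where
  toFun x := ⟨coeffMap ι (x : LaurentSeries L), e_descentT_iota N L ι _ x.2⟩
  map_one' := Subtype.ext (map_one (coeffMap ι))
  map_mul' _ _ := Subtype.ext (map_mul (coeffMap ι) _ _)
  map_zero' := Subtype.ext (map_zero (coeffMap ι))
  map_add' _ _ := Subtype.ext (map_add (coeffMap ι) _ _)

@[simp] theorem dEmb_coe (N : ℕ) [NeZero N] {L : Type} [Field L] [Algebra ℚ L] (ι : L →+* Qb)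
    (x : ↥(FL L N)) : ((dEmb N ι x : ↥(FL Qb N)) : LaurentSeries Qb) = coeffMap ι (x : LaurentSeries L) :=
  rfl

theorem dEmb_algebraMap (N : ℕ) [NeZero N] {L : Type} [Field L] [Algebra ℚ L] (ι : L →+* Qb)
    (c : L) : dEmb N ι (algebraMap L ↥(FL L N) c) = algebraMap Qb ↥(FL Qb N) (ι c) :=
  Subtype.ext (e_descentT_coeffMap_algebraMap ι c)

theorem dEmb_jF (N : ℕ) [NeZero N] {L : Type} [Field L] [Algebra ℚ L] (ι : L →+* Qb) :
    dEmb N ι (jF L N) = jF Qb N :=
  Subtype.ext (coeffMap_jqModC ι)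

/-! ## Coefficientwise automorphisms of `F_k` (Frobenius on places of `F_k`) -/

theorem coeffMap_mem_Fk_aux (k : Type) [Field k] (N : ℕ) [NeZero N] (τ : k →+* k)
    (x : LaurentSeries k)
    (hx' : x ∈ Subfield.closure (Set.range (algebraMap k (LaurentSeries k)) ∪
      divisorExpansionsC k N)) : coeffMap τ x ∈ Fk k N := by
  induction hx' using Subfield.closure_induction with
  | mem y hy =>
      rcases hy with ⟨a, rfl⟩ | ⟨d, hd0, hd, rfl⟩
      · rw [coeffMap_algebraMap]
        exact (Fk k N).algebraMap_mem _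
      · rw [coeffMap_qExpand, coeffMap_jqModC]
        exact jqModCd_mem_full k N hd
  | one => rw [map_one]; exact one_mem _
  | add x y _ _ hx hy => rw [map_add]; exact add_mem hx hy
  | neg x _ hx => rw [map_neg]; exact neg_mem hx
  | inv x _ hx => rw [map_inv₀]; exact inv_mem hx
  | mul x y _ _ hx hy => rw [map_mul]; exact mul_mem hx hy

theorem coeffMap_mem_Fk (k : Type) [Field k] (N : ℕ) [NeZero N] (τ : k →+* k)
    {x : LaurentSeries k} (hx : x ∈ Fk k N) : coeffMap τ x ∈ Fk k N :=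
  coeffMap_mem_Fk_aux k N τ x hx

/-- The ring automorphism of `F_k` acting by `τ` on the coefficients of `q`-expansions. -/
def coeffRingAut (k : Type) [Field k] (N : ℕ) [NeZero N] (τ : k ≃+* k) :
    ↥(Fk k N) ≃+* ↥(Fk k N) where
  toFun x := ⟨coeffMap (τ : k →+* k) (x : LaurentSeries k), coeffMap_mem_Fk k N _ x.2⟩
  invFun x := ⟨coeffMap (τ.symm : k →+* k) (x : LaurentSeries k), coeffMap_mem_Fk k N _ x.2⟩
  left_inv x := Subtype.ext <| by
    show coeffMap (τ.symm : k →+* k) (coeffMap (τ : k →+* k) (x : LaurentSeries k))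
      = (x : LaurentSeries k)
    rw [coeffMap_coeffMap,
      coeffMap_congr (g := RingHom.id k) (RingHom.ext fun a => τ.symm_apply_apply a)
        (x : LaurentSeries k), coeffMap_id]
  right_inv x := Subtype.ext <| by
    show coeffMap (τ : k →+* k) (coeffMap (τ.symm : k →+* k) (x : LaurentSeries k))
      = (x : LaurentSeries k)
    rw [coeffMap_coeffMap,
      coeffMap_congr (g := RingHom.id k) (RingHom.ext fun a => τ.apply_symm_apply a)
        (x : LaurentSeries k), coeffMap_id]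
  map_mul' x y :=
    Subtype.ext (map_mul (coeffMap (τ : k →+* k)) (x : LaurentSeries k) (y : LaurentSeries k))
  map_add' x y :=
    Subtype.ext (map_add (coeffMap (τ : k →+* k)) (x : LaurentSeries k) (y : LaurentSeries k))

@[simp] theorem coe_coeffRingAut_apply (k : Type) [Field k] (N : ℕ) [NeZero N] (τ : k ≃+* k)
    (x : ↥(Fk k N)) :
    ((coeffRingAut k N τ x : ↥(Fk k N)) : LaurentSeries k)
      = coeffMap (τ : k →+* k) (x : LaurentSeries k) := rfl

theorem coeffRingAut_algebraMap (k : Type) [Field k] (N : ℕ) [NeZero N] (τ : k ≃+* k) (a : k) :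
    coeffRingAut k N τ (algebraMap k ↥(Fk k N) a) = algebraMap k ↥(Fk k N) (τ a) :=
  Subtype.ext (coeffMap_algebraMap (τ : k →+* k) a)

/-- The semilinear automorphism of `F_k / k` acting by `τ` on coefficients.  For `τ` the Frobenius
`x ↦ x ^ ℓ`, `x ↦ coeffAut k N τ • x` is the Frobenius map `Φ` on the places of `F_k`. -/
def coeffAut (k : Type) [Field k] (N : ℕ) [NeZero N] (τ : k ≃+* k) :
    SemilinearAut k ↥(Fk k N) :=
  ⟨(coeffRingAut k N τ, τ), fun a => coeffRingAut_algebraMap k N τ a⟩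

@[simp] theorem toRingAut_coeffAut (k : Type) [Field k] (N : ℕ) [NeZero N] (τ : k ≃+* k) :
    SemilinearAut.toRingAut (coeffAut k N τ) = coeffRingAut k N τ := rfl

theorem coe_coeffAut_smul (k : Type) [Field k] (N : ℕ) [NeZero N] (τ : k ≃+* k) (x : ↥(Fk k N)) :
    ((coeffAut k N τ • x : ↥(Fk k N)) : LaurentSeries k)
      = coeffMap (τ : k →+* k) (x : LaurentSeries k) := rfl

/-! ## The reduction map of places and its specification -/

section Spec

set_option synthInstance.maxHeartbeats 400000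

variable (N ℓ : ℕ) [NeZero N] (A : ValuationSubring Qb)

/-- `P` lies in the first chart: `j` has a value in `A` at `P`. -/
def InChart1 (P : Place Qb ↥(FL Qb N)) : Prop :=
  ∃ c : Qb, c ∈ A ∧ HasValue P (jF Qb N) c

/-- `P` lies in the second chart only: `1/j` has a value in the maximal ideal of `A` at `P`
(exactly the complement of `InChart1`). -/
def InChart2 (P : Place Qb ↥(FL Qb N)) : Prop :=
  ∃ c : Qb, c ∈ A.nonunits ∧ HasValue P (jF Qb N)⁻¹ c

/-- SPEC(r): for all abstract data `(L, ι, ϖ)` and all reduction maps `ρ`, all places `P` of `F` and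
the chart `i = i(P)`: every `g` in the chart `A_i(W)` has a value `c ∈ A` at `P` (through `dEmb`),
and `ρ(g)` has the value `π(c)` at `r(P)`.  (This characterises `r(P)`: its valuation ring is the
discrete valuation ring `ρ((A_i)_m)`, `m = {g | π(g(P)) = 0}`.) -/
def Spec (r : Place Qb ↥(FL Qb N) → Place (kA A) ↥(Fk (kA A) N)) : Prop :=
  ∀ (L : Type) [Field L] [Algebra ℚ L] (ι : L →+* Qb) [IsDiscreteValuationRing ↥(dW A ι)]
    (ϖ : ↥(dW A ι)), BaseData N ℓ (dW A ι) (dRes A ι) ϖ →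
    ∀ ρ : ↥(gaussV (dW A ι) (dRes A ι) N) →+* LaurentSeries (kA A),
      IsGaussRed (dW A ι) (dRes A ι) N ϖ ρ →
    ∀ (P : Place Qb ↥(FL Qb N)) (S : Set ↥(FL L N)),
      ((S = {jF L N} ∧ InChart1 N A P) ∨ (S = {(jF L N)⁻¹} ∧ InChart2 N A P)) →
      ∀ g : ↥(FL L N), g ∈ chart (dW A ι) N S →
        ∀ (hV : g ∈ gaussV (dW A ι) (dRes A ι) N) (hk : ρ ⟨g, hV⟩ ∈ Fk (kA A) N),
          ∃ c : ↥A, HasValue P (dEmb N ι g) (c : Qb) ∧
            HasValue (r P) (⟨ρ ⟨g, hV⟩, hk⟩ : ↥(Fk (kA A) N)) (IsLocalRing.residue ↥A c)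

/-- (R1) Torsion: a degree-zero divisor `D` with `m • D` principal (`ℓ ∤ m`) and `r_* D = 0` is
principal. -/
def R1 (r : Place Qb ↥(FL Qb N) → Place (kA A) ↥(Fk (kA A) N)) : Prop :=
  ∀ m : ℕ, ¬ ℓ ∣ m → ∀ D : Divisor Qb ↥(FL Qb N),
    D ∈ Divisor.degZero (K := Qb) (F := ↥(FL Qb N)) →
    m • D ∈ Divisor.principal (K := Qb) (F := ↥(FL Qb N)) →
    Finsupp.mapDomain r D = 0 → D ∈ Divisor.principal (K := Qb) (F := ↥(FL Qb N))

/-- (R2) Galois: if `σ ∈ Gal(Qb/ℚ)` preserves `A` and induces `τ` on the residue field `k`, then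
`r(σ • P) = τ • r(P)` (`σ` acts on places through `arithmeticGalois`, `τ` through `coeffAut`). -/
def R2 (r : Place Qb ↥(FL Qb N) → Place (kA A) ↥(Fk (kA A) N)) : Prop :=
  ∀ (σ : Qb ≃ₐ[ℚ] Qb) (τ : kA A ≃+* kA A), (∀ a : Qb, a ∈ A ↔ σ a ∈ A) →
    (∀ a b : ↥A, (b : Qb) = σ (a : Qb) →
      τ (IsLocalRing.residue ↥A a) = IsLocalRing.residue ↥A b) →
    ∀ P : Place Qb ↥(FL Qb N),
      r (arithmeticGalois (modularFunctionFieldFull N) σ • P) = coeffAut (kA A) N τ • r P

/-- (R3) Hecke: for a prime `q` with `HeckeInputsAlong Qb N q`, the Hecke correspondence on divisors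
preserves the kernel of `r_*`. -/
def R3 (r : Place Qb ↥(FL Qb N) → Place (kA A) ↥(Fk (kA A) N)) : Prop :=
  ∀ (q : ℕ) [NeZero q], q.Prime → ∀ h : HeckeInputsAlong Qb N q,
    ∀ D : Divisor Qb ↥(FL Qb N), Finsupp.mapDomain r D = 0 →
      Finsupp.mapDomain r (haveI := h.snd.snd.fst; heckeDivBar h.fst h.snd.fst D) = 0

/-- (R4) Kronecker / Eichler–Shimura on points: `r_*(T_ℓ P) = Φ(r P) + ℓ • Φ⁻¹(r P)`, where `Φ` is
the action of the coefficientwise Frobenius `τ` of `F_k` on places. -/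
def R4 [NeZero ℓ] (r : Place Qb ↥(FL Qb N) → Place (kA A) ↥(Fk (kA A) N)) : Prop :=
  ∀ (h : HeckeInputsAlong Qb N ℓ) (τ : kA A ≃+* kA A), (∀ x : kA A, τ x = x ^ ℓ) →
    ∀ P : Place Qb ↥(FL Qb N),
      Finsupp.mapDomain r
          (haveI := h.snd.snd.fst; heckeDivBar h.fst h.snd.fst (Finsupp.single P (1 : ℤ)))
        = Finsupp.single (coeffAut (kA A) N τ • r P) (1 : ℤ)
          + Finsupp.single ((coeffAut (kA A) N τ)⁻¹ • r P) (ℓ : ℤ)

end Spec

/-! ## Block statements -/

set_option synthInstance.maxHeartbeats 400000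

/-- Block R: existence of a reduction map satisfying SPEC. -/
def RSpecStatement : Prop :=
  ∀ (N ℓ : ℕ) [NeZero N] [Fact ℓ.Prime], ¬ ℓ ∣ N →
    ∀ A : ValuationSubring Qb, A.LiesOverPrime ℓ →
      ∃ r : Place Qb ↥(FL Qb N) → Place (kA A) ↥(Fk (kA A) N), Spec N ℓ A r

/-- Block CN: (R1) for every `r` satisfying SPEC. -/
def R1Statement : Prop :=
  ∀ (N ℓ : ℕ) [NeZero N] [Fact ℓ.Prime], ¬ ℓ ∣ N →
    ∀ A : ValuationSubring Qb, A.LiesOverPrime ℓ →
      ∀ r : Place Qb ↥(FL Qb N) → Place (kA A) ↥(Fk (kA A) N), Spec N ℓ A r → R1 N ℓ A r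

/-- Block GAL: (R2) for every `r` satisfying SPEC. -/
def R2Statement : Prop :=
  ∀ (N ℓ : ℕ) [NeZero N] [Fact ℓ.Prime], ¬ ℓ ∣ N →
    ∀ A : ValuationSubring Qb, A.LiesOverPrime ℓ →
      ∀ r : Place Qb ↥(FL Qb N) → Place (kA A) ↥(Fk (kA A) N), Spec N ℓ A r → R2 N A r

/-- Block VAL: (R3) for every `r` satisfying SPEC. -/
def R3Statement : Prop :=
  ∀ (N ℓ : ℕ) [NeZero N] [Fact ℓ.Prime], ¬ ℓ ∣ N →
    ∀ A : ValuationSubring Qb, A.LiesOverPrime ℓ →
      ∀ r : Place Qb ↥(FL Qb N) → Place (kA A) ↥(Fk (kA A) N), Spec N ℓ A r → R3 N A r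

/-- Block VAL (with KR): (R4) for every `r` satisfying SPEC. -/
def R4Statement : Prop :=
  ∀ (N ℓ : ℕ) [NeZero N] [NeZero ℓ] [Fact ℓ.Prime], ¬ ℓ ∣ N →
    ∀ A : ValuationSubring Qb, A.LiesOverPrime ℓ →
      ∀ r : Place Qb ↥(FL Qb N) → Place (kA A) ↥(Fk (kA A) N), Spec N ℓ A r → R4 N ℓ A r

/-- Block HI: the inputs of the Hecke correspondence hold at every prime. -/
def HIStatement : Prop :=
  ∀ (N ℓ : ℕ) [NeZero N] [NeZero ℓ], ℓ.Prime → HeckeInputsAlong Qb N ℓ

/-- The statement S37 itself. -/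
def ResultStatement : Prop :=
  ∀ (N p : ℕ) [NeZero N] (_hcomm : ModularCurve.HeckeOperatorsCommuteBar N),
    letI := ModularCurve.heckeModuleBar N
    ∀ (_ : SMulCommClass (AlgebraicClosure ℚ ≃ₐ[ℚ] AlgebraicClosure ℚ) ModularCurve.HeckeAlg
        (ModularCurve.JZero N)),
      ModularCurve.SpecializationExists (K := ℚ) (L := AlgebraicClosure ℚ) N p
        (ModularCurve.JZero N)

end

end Fermat.Agent.S37
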