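/-
S37, block R (reduction map of places) — INTERFACE FILE: definitions and statement-`Prop`s of the
work packages of block R, and of the block-R OUTPUTS that the blocks CN, GAL, VAL may assume
(as explicit hypotheses, until the proofs land).  Namespace `Fermat.Agent.S37`, block prefix `r_`.

Notation as in `Interfaces.lean`.  "Datum level" statements are over an abstract datum
`(L, W, k, res, ϖ)` as in S18 (`BaseData`, plus the hypothesis `HorizAt L N` needed for smoothness);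
"`A`-level" statements are for `W = dW A ι`, `res = dRes A ι`, `k = kA A`.
-/
import Fermat.Agent.S37.Interfaces

set_option autoImplicit false

open ModularCurve AlgebraicCurve

namespace Fermat.Agent.S37

open Fermat.Agent.S18

noncomputable section

/-- `j̄ ∈ F_k`. -/
def jk (k : Type) [Field k] (N : ℕ) : ↥(Fk k N) := ⟨jqModC k, jqModC_mem_full k N⟩

@[simp] theorem coe_jk (k : Type) [Field k] (N : ℕ) :
    ((jk k N : ↥(Fk k N)) : LaurentSeries k) = jqModC k := rfl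

/-! ## Values and degrees (package `RV`) -/

/-- Every element of the valuation ring of a place of `F = F_Qb` has a value in `Qb`. -/
def ValQStatement : Prop :=
  ∀ (N : ℕ) [NeZero N] (P : Place Qb ↥(FL Qb N)) (s : ↥(FL Qb N)),
    s ∈ P.toValuationSubring → ∃ c : Qb, HasValue P s c

/-- Every element of the valuation ring of a place of `F_k` has a value in `k`
(`k` algebraically closed of characteristic `ℓ ∤ N`). -/
def ValKStatement : Prop :=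
  ∀ (N : ℕ) [NeZero N] (ℓ : ℕ) [Fact ℓ.Prime], ¬ ℓ ∣ N →
    ∀ (k : Type) [Field k] [CharP k ℓ] [IsAlgClosed k] (x : Place k ↥(Fk k N)) (s : ↥(Fk k N)),
      s ∈ x.toValuationSubring → ∃ c : k, HasValue x s c

/-- Places of `F = F_Qb` have degree one. -/
def DegQStatement : Prop :=
  ∀ (N : ℕ) [NeZero N] (P : Place Qb ↥(FL Qb N)), P.deg = 1

/-- Places of `F_k` have degree one. -/
def DegKStatement : Prop :=
  ∀ (N : ℕ) [NeZero N] (ℓ : ℕ) [Fact ℓ.Prime], ¬ ℓ ∣ N →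
    ∀ (k : Type) [Field k] [CharP k ℓ] [IsAlgClosed k] (x : Place k ↥(Fk k N)), x.deg = 1

/-- A discrete valuation ring of a function field is a maximal proper subring: two places with
comparable valuation rings are equal. -/
def PlaceMaxStatement : Prop :=
  ∀ (K F : Type) [Field K] [Field F] [Algebra K F] (x y : Place K F),
    x.toValuationSubring ≤ y.toValuationSubring → x = y

/-- Every place of `F` lies in exactly one of the two charts. -/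
def InChartStatement : Prop :=
  ∀ (N : ℕ) [NeZero N] (A : ValuationSubring Qb) (P : Place Qb ↥(FL Qb N)),
    (InChart1 N A P ∨ InChart2 N A P) ∧ ¬ (InChart1 N A P ∧ InChart2 N A P)

/-! ## Datum level: places of `F_k` and maximal ideals of the charts (packages `RCP`, `RCS`) -/

/-- (ChartPlace) For a maximal ideal `m ∋ ϖ` of the chart `A_i = chart W N S`, the image
`ρ((A_i)_m)` is the valuation ring of a place `x` of `F_k`, and for `g ∈ A_i`:
`ρ(g) ∈ m_x ↔ g ∈ m`. -/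
def ChartPlaceStatement : Prop :=
  ∀ (N : ℕ) [NeZero N] (ℓ : ℕ) [Fact ℓ.Prime] (L : Type) [Field L] [Algebra ℚ L]
    (W : ValuationSubring L) [IsDiscreteValuationRing ↥W] (k : Type) [Field k] [IsAlgClosed k]
    [CharP k ℓ] (res : ↥W →+* k) (ϖ : ↥W), BaseData N ℓ W res ϖ → HorizAt L N →
    ∀ ρ : ↥(gaussV W res N) →+* LaurentSeries k, IsGaussRed W res N ϖ ρ →
    ∀ S : Set ↥(FL L N), (S = {jF L N} ∨ S = {(jF L N)⁻¹}) →
    ∀ (m : Ideal ↥(chart W N S)) [m.IsMaximal] (ϖc : ↥(chart W N S)),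
      (ϖc : ↥(FL L N)) = cW W N ϖ → ϖc ∈ m →
      ∃ x : Place k ↥(Fk k N),
        (∀ z : ↥(Fk k N), z ∈ x.toValuationSubring ↔
          ∃ (g : ↥(FL L N)) (_ : g ∈ locSub (chart W N S) m) (hV : g ∈ gaussV W res N),
            ρ ⟨g, hV⟩ = (z : LaurentSeries k)) ∧
        (∀ (g : ↥(chart W N S)) (hV : (g : ↥(FL L N)) ∈ gaussV W res N)
          (hk : ρ ⟨(g : ↥(FL L N)), hV⟩ ∈ Fk k N),
            (⟨ρ ⟨(g : ↥(FL L N)), hV⟩, hk⟩ : ↥(Fk k N)) ∈ x.toValuationSubring.nonunits ↔ g ∈ m)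

/-- (ChartSurj) Every place `x` of `F_k` comes from a maximal ideal of a chart: if `j̄ ∈ O_x`
(chart `{j}`) resp. `1/j̄ ∈ O_x` (chart `{1/j}`), then `m := {g ∈ A_i | ρ(g) ∈ m_x}` is a maximal
ideal containing `ϖ`, `ρ(A_i) ⊆ O_x`, and `O_x = ρ((A_i)_m)`. -/
def ChartSurjStatement : Prop :=
  ∀ (N : ℕ) [NeZero N] (ℓ : ℕ) [Fact ℓ.Prime] (L : Type) [Field L] [Algebra ℚ L]
    (W : ValuationSubring L) [IsDiscreteValuationRing ↥W] (k : Type) [Field k] [IsAlgClosed k]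
    [CharP k ℓ] (res : ↥W →+* k) (ϖ : ↥W), BaseData N ℓ W res ϖ → HorizAt L N →
    ∀ ρ : ↥(gaussV W res N) →+* LaurentSeries k, IsGaussRed W res N ϖ ρ →
    ∀ (x : Place k ↥(Fk k N)) (S : Set ↥(FL L N)),
      ((S = {jF L N} ∧ jk k N ∈ x.toValuationSubring) ∨
        (S = {(jF L N)⁻¹} ∧ (jk k N)⁻¹ ∈ x.toValuationSubring)) →
      ∃ (m : Ideal ↥(chart W N S)) (hm : m.IsMaximal) (ϖc : ↥(chart W N S)),
        (ϖc : ↥(FL L N)) = cW W N ϖ ∧ ϖc ∈ m ∧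
        (∀ z : ↥(Fk k N), z ∈ x.toValuationSubring ↔
          ∃ (g : ↥(FL L N)) (_ : g ∈ @locSub _ _ (chart W N S) m hm.isPrime)
            (hV : g ∈ gaussV W res N), ρ ⟨g, hV⟩ = (z : LaurentSeries k)) ∧
        (∀ (g : ↥(chart W N S)) (hV : (g : ↥(FL L N)) ∈ gaussV W res N)
          (hk : ρ ⟨(g : ↥(FL L N)), hV⟩ ∈ Fk k N),
            ((⟨ρ ⟨(g : ↥(FL L N)), hV⟩, hk⟩ : ↥(Fk k N)) ∈ x.toValuationSubring) ∧
            ((⟨ρ ⟨(g : ↥(FL L N)), hV⟩, hk⟩ : ↥(Fk k N)) ∈ x.toValuationSubring.nonunits ↔ g ∈ m))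

/-! ## `A`-level -/

section ALevel

set_option synthInstance.maxHeartbeats 400000

variable (N : ℕ) [NeZero N] (A : ValuationSubring Qb) {L : Type} [Field L] [Algebra ℚ L]
  (ι : L →+* Qb)

/-- `S` is the chart of the place `P` (for a datum with field `L`). -/
def IsChartOf (S : Set ↥(FL L N)) (P : Place Qb ↥(FL Qb N)) : Prop :=
  (S = {jF L N} ∧ InChart1 N A P) ∨ (S = {(jF L N)⁻¹} ∧ InChart2 N A P)

/-- SPEC at one datum `(L, ι, ρ)`, one place `P` of `F` (with chart `S`) and one place `x` of `F_k`: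
every `g ∈ A_i` has a value `c ∈ A` at `P` and `ρ(g)` has the value `π(c)` at `x`. -/
def SpecAt (ρ : ↥(gaussV (dW A ι) (dRes A ι) N) →+* LaurentSeries (kA A))
    (S : Set ↥(FL L N)) (P : Place Qb ↥(FL Qb N)) (x : Place (kA A) ↥(Fk (kA A) N)) : Prop :=
  ∀ g : ↥(FL L N), g ∈ chart (dW A ι) N S →
    ∀ (hV : g ∈ gaussV (dW A ι) (dRes A ι) N) (hk : ρ ⟨g, hV⟩ ∈ Fk (kA A) N),
      ∃ c : ↥A, HasValue P (dEmb N ι g) (c : Qb) ∧
        HasValue x (⟨ρ ⟨g, hV⟩, hk⟩ : ↥(Fk (kA A) N)) (IsLocalRing.residue ↥A c)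

end ALevel

set_option synthInstance.maxHeartbeats 400000

/-- `Spec` in terms of `IsChartOf` and `SpecAt`. -/
theorem spec_iff (N ℓ : ℕ) [NeZero N] (A : ValuationSubring Qb)
    (r : Place Qb ↥(FL Qb N) → Place (kA A) ↥(Fk (kA A) N)) :
    Spec N ℓ A r ↔
      ∀ (L : Type) [Field L] [Algebra ℚ L] (ι : L →+* Qb) [IsDiscreteValuationRing ↥(dW A ι)]
        (ϖ : ↥(dW A ι)), BaseData N ℓ (dW A ι) (dRes A ι) ϖ →
        ∀ ρ : ↥(gaussV (dW A ι) (dRes A ι) N) →+* LaurentSeries (kA A),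
          IsGaussRed (dW A ι) (dRes A ι) N ϖ ρ →
        ∀ (P : Place Qb ↥(FL Qb N)) (S : Set ↥(FL L N)), IsChartOf N A S P →
          SpecAt N A ι ρ S P (r P) :=
  Iff.rfl

/-- (DatumExists) `k` is algebraically closed of characteristic `ℓ`, and every finite subset `T` of
`Qb` lies in (the image of) a datum; the datum comes with `HorizAt` and a reduction map `ρ`. -/
def DatumExistsStatement : Prop :=
  ∀ (N ℓ : ℕ) [NeZero N] [Fact ℓ.Prime], ¬ ℓ ∣ N →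
    ∀ A : ValuationSubring Qb, A.LiesOverPrime ℓ →
      IsAlgClosed (kA A) ∧ CharP (kA A) ℓ ∧
      ∀ T : Finset Qb, ∃ (L : Type) (_ : Field L) (_ : Algebra ℚ L) (ι : L →+* Qb)
        (_ : IsDiscreteValuationRing ↥(dW A ι)) (ϖ : ↥(dW A ι)),
        BaseData N ℓ (dW A ι) (dRes A ι) ϖ ∧ HorizAt L N ∧ (∀ s ∈ T, ∃ c : L, ι c = s) ∧
        ∃ ρ : ↥(gaussV (dW A ι) (dRes A ι) N) →+* LaurentSeries (kA A),
          IsGaussRed (dW A ι) (dRes A ι) N ϖ ρ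

/-- (ChartIdeal) For a datum, a place `P` of `F` and its chart `S`: every `g ∈ A_i` has a value in
`A` at `P`, and `m_P := {g ∈ A_i | the value of g at P lies in m_A}` is a maximal ideal
containing `ϖ`. -/
def ChartIdealStatement : Prop :=
  ∀ (N ℓ : ℕ) [NeZero N] [Fact ℓ.Prime], ¬ ℓ ∣ N →
    ∀ A : ValuationSubring Qb, A.LiesOverPrime ℓ →
    ∀ (L : Type) [Field L] [Algebra ℚ L] (ι : L →+* Qb) [IsDiscreteValuationRing ↥(dW A ι)]
      (ϖ : ↥(dW A ι)), BaseData N ℓ (dW A ι) (dRes A ι) ϖ →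
    ∀ (P : Place Qb ↥(FL Qb N)) (S : Set ↥(FL L N)), IsChartOf N A S P →
      (∀ g : ↥(FL L N), g ∈ chart (dW A ι) N S →
        ∃ c : ↥A, HasValue P (dEmb N ι g) (c : Qb)) ∧
      ∃ (m : Ideal ↥(chart (dW A ι) N S)) (_ : m.IsMaximal) (ϖc : ↥(chart (dW A ι) N S)),
        (ϖc : ↥(FL L N)) = cW (dW A ι) N ϖ ∧ ϖc ∈ m ∧
        ∀ g : ↥(chart (dW A ι) N S),
          g ∈ m ↔ ∃ c : Qb, c ∈ A.nonunits ∧ HasValue P (dEmb N ι (g : ↥(FL L N))) c

/-- (SpecAtExists) For every datum, place `P` and chart `S` of `P` there is a place `x` of `F_k`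
with `SpecAt`; its valuation ring is `ρ((A_i)_{m_P})`. -/
def SpecAtExistsStatement : Prop :=
  ∀ (N ℓ : ℕ) [NeZero N] [Fact ℓ.Prime], ¬ ℓ ∣ N →
    ∀ A : ValuationSubring Qb, A.LiesOverPrime ℓ →
    ∀ (L : Type) [Field L] [Algebra ℚ L] (ι : L →+* Qb) [IsDiscreteValuationRing ↥(dW A ι)]
      (ϖ : ↥(dW A ι)), BaseData N ℓ (dW A ι) (dRes A ι) ϖ → HorizAt L N →
    ∀ ρ : ↥(gaussV (dW A ι) (dRes A ι) N) →+* LaurentSeries (kA A),
      IsGaussRed (dW A ι) (dRes A ι) N ϖ ρ →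
    ∀ (P : Place Qb ↥(FL Qb N)) (S : Set ↥(FL L N)), IsChartOf N A S P →
      ∃ x : Place (kA A) ↥(Fk (kA A) N), SpecAt N A ι ρ S P x

/-- (SpecUnique) At one datum, the place `x` of `F_k` with `SpecAt` is unique. -/
def SpecUniqueStatement : Prop :=
  ∀ (N ℓ : ℕ) [NeZero N] [Fact ℓ.Prime], ¬ ℓ ∣ N →
    ∀ A : ValuationSubring Qb, A.LiesOverPrime ℓ →
    ∀ (L : Type) [Field L] [Algebra ℚ L] (ι : L →+* Qb) [IsDiscreteValuationRing ↥(dW A ι)]
      (ϖ : ↥(dW A ι)), BaseData N ℓ (dW A ι) (dRes A ι) ϖ → HorizAt L N →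
    ∀ ρ : ↥(gaussV (dW A ι) (dRes A ι) N) →+* LaurentSeries (kA A),
      IsGaussRed (dW A ι) (dRes A ι) N ϖ ρ →
    ∀ (P : Place Qb ↥(FL Qb N)) (S : Set ↥(FL L N)), IsChartOf N A S P →
      ∀ x y : Place (kA A) ↥(Fk (kA A) N),
        SpecAt N A ι ρ S P x → SpecAt N A ι ρ S P y → x = y

/-- (SpecRing) The valuation ring of a place `x` with `SpecAt` is `ρ((A_i)_{m_P})`: there is a
maximal ideal `m ∋ ϖ` of `A_i` with `g ∈ m ↔ g(P) ∈ m_A`, `O_x = ρ((A_i)_m)` and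
`ρ(g) ∈ m_x ↔ g ∈ m`. -/
def SpecRingStatement : Prop :=
  ∀ (N ℓ : ℕ) [NeZero N] [Fact ℓ.Prime], ¬ ℓ ∣ N →
    ∀ A : ValuationSubring Qb, A.LiesOverPrime ℓ →
    ∀ (L : Type) [Field L] [Algebra ℚ L] (ι : L →+* Qb) [IsDiscreteValuationRing ↥(dW A ι)]
      (ϖ : ↥(dW A ι)), BaseData N ℓ (dW A ι) (dRes A ι) ϖ → HorizAt L N →
    ∀ ρ : ↥(gaussV (dW A ι) (dRes A ι) N) →+* LaurentSeries (kA A),
      IsGaussRed (dW A ι) (dRes A ι) N ϖ ρ →
    ∀ (P : Place Qb ↥(FL Qb N)) (S : Set ↥(FL L N)), IsChartOf N A S P →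
      ∀ x : Place (kA A) ↥(Fk (kA A) N), SpecAt N A ι ρ S P x →
      ∃ (m : Ideal ↥(chart (dW A ι) N S)) (hm : m.IsMaximal) (ϖc : ↥(chart (dW A ι) N S)),
        (ϖc : ↥(FL L N)) = cW (dW A ι) N ϖ ∧ ϖc ∈ m ∧
        (∀ g : ↥(chart (dW A ι) N S),
          g ∈ m ↔ ∃ c : Qb, c ∈ A.nonunits ∧ HasValue P (dEmb N ι (g : ↥(FL L N))) c) ∧
        (∀ z : ↥(Fk (kA A) N), z ∈ x.toValuationSubring ↔
          ∃ (g : ↥(FL L N)) (_ : g ∈ @locSub _ _ (chart (dW A ι) N S) m hm.isPrime)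
            (hV : g ∈ gaussV (dW A ι) (dRes A ι) N), ρ ⟨g, hV⟩ = (z : LaurentSeries (kA A))) ∧
        (∀ (g : ↥(chart (dW A ι) N S)) (hV : (g : ↥(FL L N)) ∈ gaussV (dW A ι) (dRes A ι) N)
          (hk : ρ ⟨(g : ↥(FL L N)), hV⟩ ∈ Fk (kA A) N),
            (⟨ρ ⟨(g : ↥(FL L N)), hV⟩, hk⟩ : ↥(Fk (kA A) N)) ∈ x.toValuationSubring.nonunits ↔
              g ∈ m)

/-- (Chart of `r P`) For `r` with SPEC: `j̄ ∈ O_{r P}` if `P` is in chart 1, `1/j̄ ∈ m_{r P}` if `P`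
is in chart 2. -/
def SpecChartStatement : Prop :=
  ∀ (N ℓ : ℕ) [NeZero N] [Fact ℓ.Prime], ¬ ℓ ∣ N →
    ∀ A : ValuationSubring Qb, A.LiesOverPrime ℓ →
      ∀ r : Place Qb ↥(FL Qb N) → Place (kA A) ↥(Fk (kA A) N), Spec N ℓ A r →
        ∀ P : Place Qb ↥(FL Qb N),
          (InChart1 N A P → jk (kA A) N ∈ (r P).toValuationSubring) ∧
          (InChart2 N A P → (jk (kA A) N)⁻¹ ∈ (r P).toValuationSubring.nonunits)

end

end Fermat.Agent.S37
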