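/-
S37, block ASM (twin B): assembly of the statement S37 (`ResultStatement`) from the block
statements (R1)–(R4), the existence of the reduction map `r` (`RSpecStatement`), the Hecke inputs
(`HIStatement`) and the first two conjuncts of `DatumExistsStatement`.
Purely formal.  Prefix `asmb_`.
-/
import Fermat.Agent.S37.RInterfaces
import Fermat.Agent.Lib.FrobeniusExists

set_option autoImplicit false
set_option synthInstance.maxHeartbeats 400000

open ModularCurve AlgebraicCurve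

namespace Fermat.Agent.S37

open Fermat.Agent.S18

noncomputable section

/-! ## Abstract part: a map `r` from the places of `F` to an arbitrary type `X` -/

section Abstract

variable {N : ℕ} [NeZero N] {X : Type}

/-- The subgroup of `J₀(N)` of classes of degree-zero divisors killed by `r_*`. -/
def asmb_H (r : Place Qb ↥(FL Qb N) → X) : AddSubgroup (JZero N) where
  carrier := {x | ∃ (D : Divisor Qb ↥(FL Qb N))
    (hD : D ∈ Divisor.degZero (K := Qb) (F := ↥(FL Qb N))),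
      Finsupp.mapDomain r D = 0 ∧ Pic0.mk ⟨D, hD⟩ = x}
  zero_mem' := ⟨0, zero_mem _, Finsupp.mapDomain_zero, rfl⟩
  add_mem' := by
    rintro _ _ ⟨D, hD, h0, rfl⟩ ⟨E, hE, h0', rfl⟩
    exact ⟨D + E, add_mem hD hE, by rw [Finsupp.mapDomain_add, h0, h0', add_zero], rfl⟩
  neg_mem' := by
    rintro _ ⟨D, hD, h0, rfl⟩
    refine ⟨-D, neg_mem hD, ?_, rfl⟩
    have h := (Finsupp.mapDomain.addMonoidHom (M := ℤ) r).map_neg D
    have h0' : Finsupp.mapDomain.addMonoidHom (M := ℤ) r D = 0 := h0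
    rw [h0', neg_zero] at h
    exact h

omit [NeZero N] in
theorem asmb_mk_mem_H (r : Place Qb ↥(FL Qb N) → X) (D : Divisor Qb ↥(FL Qb N))
    (hD : D ∈ Divisor.degZero (K := Qb) (F := ↥(FL Qb N)))
    (h0 : Finsupp.mapDomain.addMonoidHom r D = 0) :
    (Pic0.mk ⟨D, hD⟩ : JZero N) ∈ asmb_H r :=
  ⟨D, hD, h0, rfl⟩

omit [NeZero N] in
/-- (d) A class in `H` killed by `m` is zero, if `r` satisfies (R1) for `m`. -/
theorem asmb_torsion (r : Place Qb ↥(FL Qb N) → X) (m : ℕ)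
    (h1 : ∀ D : Divisor Qb ↥(FL Qb N), D ∈ Divisor.degZero (K := Qb) (F := ↥(FL Qb N)) →
      m • D ∈ Divisor.principal (K := Qb) (F := ↥(FL Qb N)) →
      Finsupp.mapDomain r D = 0 → D ∈ Divisor.principal (K := Qb) (F := ↥(FL Qb N)))
    (x : JZero N) (hx : x ∈ asmb_H r) (hm : m • x = 0) : x = 0 := by
  obtain ⟨D, hD, h0, rfl⟩ := hx
  have hm' : m • D ∈ Divisor.principal (K := Qb) (F := ↥(FL Qb N)) := by
    have h : (QuotientAddGroup.mk (m • (⟨D, hD⟩ : Divisor.degZero (K := Qb) (F := ↥(FL Qb N)))) :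
        JZero N) = 0 := hm
    have h' := (QuotientAddGroup.eq_zero_iff _).mp h
    rw [AddSubgroup.mem_addSubgroupOf] at h'
    exact h'
  have h2 := h1 D hD hm' h0
  exact (QuotientAddGroup.eq_zero_iff _).mpr (AddSubgroup.mem_addSubgroupOf.mpr h2)

/-- The Hecke operator on the class of a divisor. -/
theorem asmb_heckeOperatorAlong_mk (q : ℕ) [NeZero q] (h : HeckeInputsAlong Qb N q)
    (D : Divisor Qb ↥(FL Qb N)) (hD : D ∈ Divisor.degZero (K := Qb) (F := ↥(FL Qb N))) :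
    ∃ hD' : (haveI := h.snd.snd.fst; heckeDivBar h.fst h.snd.fst D)
        ∈ Divisor.degZero (K := Qb) (F := ↥(FL Qb N)),
      heckeOperatorAlong Qb N q (Pic0.mk ⟨D, hD⟩ : JZero N) = Pic0.mk ⟨_, hD'⟩ := by
  have := h.snd.snd.fst
  refine ⟨Divisor.correspondence_mem_degZero _ _ h.snd.fst h.fst h.snd.snd.snd.snd.1 hD, ?_⟩
  rw [heckeOperatorAlong, dif_pos h]
  rfl

/-- (b) The Hecke operators preserve `H`, if `r` satisfies (R3). -/
theorem asmb_hecke_op (r : Place Qb ↥(FL Qb N) → X)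
    (h3 : ∀ (q : ℕ) [NeZero q], q.Prime → ∀ h : HeckeInputsAlong Qb N q,
      ∀ D : Divisor Qb ↥(FL Qb N), Finsupp.mapDomain r D = 0 →
        Finsupp.mapDomain r (haveI := h.snd.snd.fst; heckeDivBar h.fst h.snd.fst D) = 0)
    (q : Nat.Primes) (x : JZero N) (hx : x ∈ asmb_H r) : heckeOperatorBar N q x ∈ asmb_H r := by
  have : NeZero (q : ℕ) := ⟨q.2.ne_zero⟩
  obtain ⟨D, hD, h0, rfl⟩ := hx
  rw [heckeOperatorBar_apply]
  by_cases h : HeckeInputsAlong Qb N q
  · obtain ⟨hD', e⟩ := asmb_heckeOperatorAlong_mk (q : ℕ) h D hD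
    rw [e]
    exact asmb_mk_mem_H r _ hD' (h3 q q.2 h D h0)
  · rw [heckeOperatorAlong_of_not h]
    exact zero_mem _

/-- (b) The whole Hecke algebra preserves `H`. -/
theorem asmb_hecke_eval (r : Place Qb ↥(FL Qb N) → X)
    (h3 : ∀ (q : ℕ) [NeZero q], q.Prime → ∀ h : HeckeInputsAlong Qb N q,
      ∀ D : Divisor Qb ↥(FL Qb N), Finsupp.mapDomain r D = 0 →
        Finsupp.mapDomain r (haveI := h.snd.snd.fst; heckeDivBar h.fst h.snd.fst D) = 0)
    (hcomm : HeckeOperatorsCommuteBar N) (t : HeckeAlg) :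
    ∀ x : JZero N, x ∈ asmb_H r → heckeEvalBar hcomm t x ∈ asmb_H r := by
  induction t using MvPolynomial.induction_on with
  | C a =>
      intro x hx
      rw [heckeEvalBar_C, Module.End.intCast_apply]
      exact zsmul_mem hx a
  | add p q hp hq =>
      intro x hx
      rw [map_add, LinearMap.add_apply]
      exact add_mem (hp x hx) (hq x hx)
  | mul_X p q hp =>
      intro x hx
      rw [map_mul, Module.End.mul_apply]
      refine hp _ ?_
      have e : heckeEvalBar hcomm (MvPolynomial.X q) = heckeOperatorBar N q :=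
        heckeEvalBar_heckeGen hcomm q
      rw [e]
      exact asmb_hecke_op r h3 q x hx

omit [NeZero N] in
/-- The Galois action on the class of a divisor. -/
theorem asmb_galois_smul_mk (σ : Qb ≃ₐ[ℚ] Qb) (D : Divisor Qb ↥(FL Qb N))
    (hD : D ∈ Divisor.degZero (K := Qb) (F := ↥(FL Qb N))) :
    σ • (Pic0.mk ⟨D, hD⟩ : JZero N) =
      Pic0.mk ⟨arithmeticGalois (modularFunctionFieldFull N) σ • D,
        SemilinearAut.smul_mem_degZero _ hD⟩ :=
  rfl

omit [NeZero N] in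
/-- (c) If `r (σ • P) = φ (r P)` for all places, then `r_* (σ • D) = φ_* (r_* D)`. -/
theorem asmb_push_galois (r : Place Qb ↥(FL Qb N) → X) (σ : Qb ≃ₐ[ℚ] Qb) (φ : X → X)
    (hφ : ∀ P, r (arithmeticGalois (modularFunctionFieldFull N) σ • P) = φ (r P))
    (D : Divisor Qb ↥(FL Qb N)) :
    Finsupp.mapDomain.addMonoidHom r (arithmeticGalois (modularFunctionFieldFull N) σ • D)
      = Finsupp.mapDomain.addMonoidHom φ (Finsupp.mapDomain.addMonoidHom r D) := by
  show Finsupp.mapDomain r (arithmeticGalois (modularFunctionFieldFull N) σ • D)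
      = Finsupp.mapDomain φ (Finsupp.mapDomain r D)
  rw [SemilinearAut.divisor_smul_def, ← Finsupp.mapDomain_comp, ← Finsupp.mapDomain_comp]
  congr 1
  funext P
  exact hφ P

omit [NeZero N] in
/-- (c) Two Galois elements acting in the same way on `X` through `r` agree modulo `H`. -/
theorem asmb_galois_sub_mem (r : Place Qb ↥(FL Qb N) → X) (σ σ' : Qb ≃ₐ[ℚ] Qb) (φ : X → X)
    (hφ : ∀ P, r (arithmeticGalois (modularFunctionFieldFull N) σ • P) = φ (r P))
    (hφ' : ∀ P, r (arithmeticGalois (modularFunctionFieldFull N) σ' • P) = φ (r P))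
    (x : JZero N) : σ • x - σ' • x ∈ asmb_H r := by
  obtain ⟨⟨D, hD⟩, rfl⟩ := Pic0.mk_surjective x
  rw [asmb_galois_smul_mk, asmb_galois_smul_mk]
  refine asmb_mk_mem_H r
    (arithmeticGalois (modularFunctionFieldFull N) σ • D
      - arithmeticGalois (modularFunctionFieldFull N) σ' • D)
    (sub_mem (SemilinearAut.smul_mem_degZero _ hD) (SemilinearAut.smul_mem_degZero _ hD)) ?_
  rw [map_sub, asmb_push_galois r σ φ hφ, asmb_push_galois r σ' φ hφ', sub_self]

omit [NeZero N] in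
/-- (c) Inertia-like elements act trivially modulo `H`. -/
theorem asmb_galois_sub_self_mem (r : Place Qb ↥(FL Qb N) → X) (σ : Qb ≃ₐ[ℚ] Qb)
    (hφ : ∀ P, r (arithmeticGalois (modularFunctionFieldFull N) σ • P) = r P)
    (x : JZero N) : σ • x - x ∈ asmb_H r := by
  have h := asmb_galois_sub_mem r σ 1 id hφ (fun P => by rw [map_one, one_smul]; rfl) x
  rwa [one_smul] at h

omit [NeZero N] in
/-- (c) A Galois element acting on `X` through `r` preserves `H`. -/
theorem asmb_galois_mem (r : Place Qb ↥(FL Qb N) → X) (σ : Qb ≃ₐ[ℚ] Qb) (φ : X → X)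
    (hφ : ∀ P, r (arithmeticGalois (modularFunctionFieldFull N) σ • P) = φ (r P))
    (x : JZero N) (hx : x ∈ asmb_H r) : σ • x ∈ asmb_H r := by
  obtain ⟨D, hD, h0, rfl⟩ := hx
  rw [asmb_galois_smul_mk]
  refine asmb_mk_mem_H r _ _ ?_
  have h0' : Finsupp.mapDomain.addMonoidHom r D = 0 := h0
  rw [asmb_push_galois r σ φ hφ, h0', map_zero]

/-- (e) Extension of (R4) from single places to all divisors. -/
theorem asmb_push_hecke (r : Place Qb ↥(FL Qb N) → X) (ℓ : ℕ) [NeZero ℓ]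
    (Φ : Equiv.Perm X) (h : HeckeInputsAlong Qb N ℓ)
    (h4 : ∀ P : Place Qb ↥(FL Qb N),
      Finsupp.mapDomain r
          (haveI := h.snd.snd.fst; heckeDivBar h.fst h.snd.fst (Finsupp.single P (1 : ℤ)))
        = Finsupp.single (Φ (r P)) (1 : ℤ) + Finsupp.single (Φ.symm (r P)) (ℓ : ℤ))
    (D : Divisor Qb ↥(FL Qb N)) :
    Finsupp.mapDomain.addMonoidHom r (haveI := h.snd.snd.fst; heckeDivBar h.fst h.snd.fst D)
      = Finsupp.mapDomain.addMonoidHom Φ (Finsupp.mapDomain.addMonoidHom r D)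
        + ℓ • Finsupp.mapDomain.addMonoidHom Φ.symm (Finsupp.mapDomain.addMonoidHom r D) := by
  have := h.snd.snd.fst
  have key : (Finsupp.mapDomain.addMonoidHom r).comp (heckeDivBar h.fst h.snd.fst)
      = ((Finsupp.mapDomain.addMonoidHom (M := ℤ) Φ).comp (Finsupp.mapDomain.addMonoidHom r))
        + ℓ • ((Finsupp.mapDomain.addMonoidHom (M := ℤ) Φ.symm).comp
            (Finsupp.mapDomain.addMonoidHom r)) := by
    refine Finsupp.addHom_ext fun P n => ?_
    have hn : (Finsupp.single P n : Divisor Qb ↥(FL Qb N)) = n • Finsupp.single P (1 : ℤ) := by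
      rw [Finsupp.smul_single, smul_eq_mul, mul_one]
    rw [hn, map_zsmul, map_zsmul]
    congr 1
    show Finsupp.mapDomain r (heckeDivBar h.fst h.snd.fst (Finsupp.single P (1 : ℤ)))
      = Finsupp.mapDomain Φ (Finsupp.mapDomain r (Finsupp.single P (1 : ℤ)))
        + ℓ • Finsupp.mapDomain Φ.symm (Finsupp.mapDomain r (Finsupp.single P (1 : ℤ)))
    rw [h4 P, Finsupp.mapDomain_single, Finsupp.mapDomain_single, Finsupp.mapDomain_single,
      Finsupp.smul_single, nsmul_eq_mul, mul_one]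
  exact DFunLike.congr_fun key D

/-- (e) The Eichler–Shimura relation modulo `H`. -/
theorem asmb_special (r : Place Qb ↥(FL Qb N) → X) (ℓ : ℕ) [NeZero ℓ] (hℓ : ℓ.Prime)
    (σ₀ : Qb ≃ₐ[ℚ] Qb) (Φ : Equiv.Perm X)
    (hΦ : ∀ P, r (arithmeticGalois (modularFunctionFieldFull N) σ₀ • P) = Φ (r P))
    (h : HeckeInputsAlong Qb N ℓ)
    (h4 : ∀ P : Place Qb ↥(FL Qb N),
      Finsupp.mapDomain r
          (haveI := h.snd.snd.fst; heckeDivBar h.fst h.snd.fst (Finsupp.single P (1 : ℤ)))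
        = Finsupp.single (Φ (r P)) (1 : ℤ) + Finsupp.single (Φ.symm (r P)) (ℓ : ℤ))
    (x : JZero N) :
    σ₀ • σ₀ • x - heckeOperatorBar N ⟨ℓ, hℓ⟩ (σ₀ • x) + ℓ • x ∈ asmb_H r := by
  have := h.snd.snd.fst
  obtain ⟨⟨D, hD⟩, rfl⟩ := Pic0.mk_surjective x
  rw [asmb_galois_smul_mk, asmb_galois_smul_mk, heckeOperatorBar_apply]
  obtain ⟨hD', e⟩ := asmb_heckeOperatorAlong_mk ℓ h
    (arithmeticGalois (modularFunctionFieldFull N) σ₀ • D) (SemilinearAut.smul_mem_degZero _ hD)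
  rw [e]
  have hE : arithmeticGalois (modularFunctionFieldFull N) σ₀ •
        arithmeticGalois (modularFunctionFieldFull N) σ₀ • D
      - heckeDivBar h.fst h.snd.fst (arithmeticGalois (modularFunctionFieldFull N) σ₀ • D)
      + ℓ • D ∈ Divisor.degZero (K := Qb) (F := ↥(FL Qb N)) :=
    add_mem (sub_mem (SemilinearAut.smul_mem_degZero _ (SemilinearAut.smul_mem_degZero _ hD)) hD')
      (nsmul_mem hD ℓ)
  have hmem := asmb_mk_mem_H r _ hE (by
    rw [map_add, map_sub, map_nsmul, asmb_push_hecke r ℓ Φ h h4,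
      asmb_push_galois r σ₀ Φ hΦ, asmb_push_galois r σ₀ Φ hΦ]
    have hinv : Finsupp.mapDomain.addMonoidHom Φ.symm
        (Finsupp.mapDomain.addMonoidHom Φ (Finsupp.mapDomain.addMonoidHom r D))
        = Finsupp.mapDomain.addMonoidHom r D := by
      show Finsupp.mapDomain Φ.symm (Finsupp.mapDomain Φ (Finsupp.mapDomain r D))
        = Finsupp.mapDomain r D
      rw [← Finsupp.mapDomain_comp, Equiv.symm_comp_self, Finsupp.mapDomain_id]
    rw [hinv]
    abel)
  exact hmem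

end Abstract

/-! ## Quotients of modules by submodules stable under an additive map -/

section Quot

variable {R M : Type} [Ring R] [AddCommGroup M] [Module R M]

/-- The additive endomorphism of `M ⧸ Hm` induced by an additive endomorphism of `M` preserving
`Hm` (not assumed to be linear). -/
def asmb_quotMap (Hm : Submodule R M) (f : M →+ M) (hf : ∀ x ∈ Hm, f x ∈ Hm) :
    (M ⧸ Hm) →+ (M ⧸ Hm) :=
  QuotientAddGroup.map Hm.toAddSubgroup Hm.toAddSubgroup f hf

theorem asmb_quotMap_mk (Hm : Submodule R M) (f : M →+ M) (hf : ∀ x ∈ Hm, f x ∈ Hm) (x : M) :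
    asmb_quotMap Hm f hf (Submodule.Quotient.mk x) = Submodule.Quotient.mk (f x) :=
  rfl

end Quot

/-! ## The valuation ring `A`: decomposition group, inertia, Frobenius -/

section ALevel

open scoped Pointwise

theorem asmb_decomp_mem_iff (A : ValuationSubring Qb) (σ : Qb ≃ₐ[ℚ] Qb)
    (hσ : σ ∈ A.decompositionSubgroup ℚ) (a : Qb) : a ∈ A ↔ σ a ∈ A := by
  have h : σ • A = A := MulAction.mem_stabilizer_iff.mp hσ
  have h2 : σ • a ∈ σ • A ↔ a ∈ A := ValuationSubring.smul_mem_pointwise_smul_iff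
  rw [h] at h2
  exact h2.symm

theorem asmb_residue_smul (A : ValuationSubring Qb) (σ : Qb ≃ₐ[ℚ] Qb)
    (hσ : σ ∈ A.decompositionSubgroup ℚ) (a b : ↥A) (hab : (b : Qb) = σ (a : Qb)) :
    (⟨σ, hσ⟩ : A.decompositionSubgroup ℚ) • IsLocalRing.residue ↥A a
      = IsLocalRing.residue ↥A b := by
  rw [← IsLocalRing.ResidueField.residue_smul]
  congr 1
  exact Subtype.ext hab.symm

theorem asmb_coeffAut_refl (k : Type) [Field k] (N : ℕ) [NeZero N] :
    coeffAut k N (RingEquiv.refl k) = 1 := by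
  refine Subtype.ext (Prod.ext (RingEquiv.ext fun x => Subtype.ext ?_) rfl)
  show coeffMap ((RingEquiv.refl k : k ≃+* k) : k →+* k) (x : LaurentSeries k)
    = (x : LaurentSeries k)
  rw [show ((RingEquiv.refl k : k ≃+* k) : k →+* k) = RingHom.id k from rfl, coeffMap_id]

variable (N ℓ : ℕ) [NeZero N] (A : ValuationSubring Qb)

/-- Inertia acts trivially through `r`. -/
theorem asmb_r_inertia (r : Place Qb ↥(FL Qb N) → Place (kA A) ↥(Fk (kA A) N)) (h2 : R2 N A r)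
    (σ : Qb ≃ₐ[ℚ] Qb) (hσ : σ ∈ A.inertiaSubgroupIn ℚ) (P : Place Qb ↥(FL Qb N)) :
    r (arithmeticGalois (modularFunctionFieldFull N) σ • P) = r P := by
  obtain ⟨g, hg, rfl⟩ := hσ
  have hres : ∀ a b : ↥A, (b : Qb) = (g : Qb ≃ₐ[ℚ] Qb) (a : Qb) →
      (RingEquiv.refl (kA A)) (IsLocalRing.residue ↥A a) = IsLocalRing.residue ↥A b := by
    intro a b hab
    have h := asmb_residue_smul A g g.2 a b hab
    have hg' := DFunLike.congr_fun (MonoidHom.mem_ker.mp hg) (IsLocalRing.residue ↥A a)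
    rw [← h]
    exact hg'.symm
  have h := h2 (g : Qb ≃ₐ[ℚ] Qb) (RingEquiv.refl _) (asmb_decomp_mem_iff A _ g.2) hres P
  rw [asmb_coeffAut_refl, one_smul] at h
  exact h

/-- Frobenius elements act through `r` as the coefficientwise Frobenius. -/
theorem asmb_r_frob (r : Place Qb ↥(FL Qb N) → Place (kA A) ↥(Fk (kA A) N)) (h2 : R2 N A r)
    (τ₀ : kA A ≃+* kA A) (hτ₀ : ∀ x : kA A, τ₀ x = x ^ ℓ)
    (σ : Qb ≃ₐ[ℚ] Qb) (hσ : A.IsFrobeniusAt σ ℓ) (P : Place Qb ↥(FL Qb N)) :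
    r (arithmeticGalois (modularFunctionFieldFull N) σ • P) = coeffAut (kA A) N τ₀ • r P := by
  obtain ⟨hσ', hfr⟩ := hσ
  exact h2 σ τ₀ (asmb_decomp_mem_iff A σ hσ') (fun a b hab => by
    rw [hτ₀, ← hfr, asmb_residue_smul A σ hσ' a b hab]) P

end ALevel

/-! ## Assembly -/

section Assembly

attribute [local instance] ModularCurve.heckeModuleBar

/-- `H` as a submodule for the Hecke action on `J₀(N)`. -/
def asmb_Hm {N : ℕ} [NeZero N] {X : Type} (hcomm : HeckeOperatorsCommuteBar N)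
    (r : Place Qb ↥(FL Qb N) → X)
    (h3 : ∀ (q : ℕ) [NeZero q], q.Prime → ∀ h : HeckeInputsAlong Qb N q,
      ∀ D : Divisor Qb ↥(FL Qb N), Finsupp.mapDomain r D = 0 →
        Finsupp.mapDomain r (haveI := h.snd.snd.fst; heckeDivBar h.fst h.snd.fst D) = 0) :
    Submodule HeckeAlg (JZero N) :=
  { asmb_H r with
    smul_mem' := fun t x hx => by
      show t • x ∈ asmb_H r
      rw [heckeModuleBar_smul_def hcomm]
      exact asmb_hecke_eval r h3 hcomm t x hx }

theorem asmb_mem_Hm {N : ℕ} [NeZero N] {X : Type} (hcomm : HeckeOperatorsCommuteBar N)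
    (r : Place Qb ↥(FL Qb N) → X)
    (h3 : ∀ (q : ℕ) [NeZero q], q.Prime → ∀ h : HeckeInputsAlong Qb N q,
      ∀ D : Divisor Qb ↥(FL Qb N), Finsupp.mapDomain r D = 0 →
        Finsupp.mapDomain r (haveI := h.snd.snd.fst; heckeDivBar h.fst h.snd.fst D) = 0)
    (x : JZero N) : x ∈ asmb_Hm hcomm r h3 ↔ x ∈ asmb_H r :=
  Iff.rfl

/-- The assembly for given `r`, Frobenius element `σ₀` and Frobenius automorphism `τ₀` of the
residue field. -/
theorem asmb_core (N p : ℕ) [NeZero N] (hcomm : HeckeOperatorsCommuteBar N)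
    [SMulCommClass (Qb ≃ₐ[ℚ] Qb) HeckeAlg (JZero N)]
    (ℓ : ℕ) (hℓ : ℓ.Prime) [NeZero ℓ] (hp : ¬ ℓ ∣ p) (A : ValuationSubring Qb)
    (r : Place Qb ↥(FL Qb N) → Place (kA A) ↥(Fk (kA A) N))
    (h1 : R1 N ℓ A r) (h2 : R2 N A r) (h3 : R3 N A r) (h4 : R4 N ℓ A r)
    (hI : HeckeInputsAlong Qb N ℓ) (τ₀ : kA A ≃+* kA A) (hτ₀ : ∀ x : kA A, τ₀ x = x ^ ℓ)
    (σ₀ : Qb ≃ₐ[ℚ] Qb) (hσ₀ : A.IsFrobeniusAt σ₀ ℓ) :
    ∃ (J' : Type) (_ : AddCommGroup J') (_ : Module HeckeAlg J') (sp : JZero N →+ J')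
        (F : J' →+ J'),
        IsSpecialization (K := ℚ) p (JZero N) J' A ℓ sp F ∧ SpecialFibreRelation J' ℓ hℓ F := by
  have hΦ : ∀ (σ : Qb ≃ₐ[ℚ] Qb), A.IsFrobeniusAt σ ℓ → ∀ P : Place Qb ↥(FL Qb N),
      r (arithmeticGalois (modularFunctionFieldFull N) σ • P)
        = MulAction.toPerm (coeffAut (kA A) N τ₀) (r P) :=
    fun σ hσ P => asmb_r_frob N ℓ A r h2 τ₀ hτ₀ σ hσ P
  have hstab : ∀ x ∈ asmb_Hm hcomm r h3,
      DistribSMul.toAddMonoidHom (JZero N) σ₀ x ∈ asmb_Hm hcomm r h3 :=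
    fun x hx => asmb_galois_mem r σ₀ _ (hΦ σ₀ hσ₀) x hx
  refine ⟨JZero N ⧸ asmb_Hm hcomm r h3, inferInstance, inferInstance,
    (asmb_Hm hcomm r h3).mkQ.toAddMonoidHom,
    asmb_quotMap (asmb_Hm hcomm r h3) (DistribSMul.toAddMonoidHom (JZero N) σ₀) hstab,
    ⟨?_, ?_, ?_, ?_⟩, ?_⟩
  · intro T x
    rfl
  · intro σ hσ x
    exact (Submodule.Quotient.eq (asmb_Hm hcomm r h3)).mpr
      (asmb_galois_sub_self_mem r σ (asmb_r_inertia N A r h2 σ hσ) x)
  · intro σ hσ x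
    exact (Submodule.Quotient.eq (asmb_Hm hcomm r h3)).mpr
      (asmb_galois_sub_mem r σ σ₀ _ (hΦ σ hσ) (hΦ σ₀ hσ₀) x)
  · rintro x ⟨n, hn⟩ hx
    have hpn : ¬ ℓ ∣ p ^ n := fun h => hp (hℓ.dvd_of_dvd_pow h)
    exact asmb_torsion r (p ^ n) (h1 (p ^ n) hpn) x
      ((Submodule.Quotient.mk_eq_zero (asmb_Hm hcomm r h3)).mp hx) hn
  · intro y
    obtain ⟨x, rfl⟩ := Submodule.Quotient.mk_surjective (asmb_Hm hcomm r h3) y
    have hmem := asmb_special r ℓ hℓ σ₀ (MulAction.toPerm (coeffAut (kA A) N τ₀)) (hΦ σ₀ hσ₀) hI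
      (fun P => h4 hI τ₀ hτ₀ P) x
    rw [← heckeModuleBar_heckeGen_smul hcomm] at hmem
    exact (Submodule.Quotient.mk_eq_zero (asmb_Hm hcomm r h3)).mpr hmem

/-- **Assembly of S37** from the block statements. -/
theorem asmb_main : RSpecStatement → R1Statement → R2Statement → R3Statement → R4Statement →
    HIStatement → DatumExistsStatement → ResultStatement := by
  intro hR h1 h2 h3 h4 hI hDE N p _ hcomm _ ℓ hℓ hNp A hA
  have : Fact ℓ.Prime := ⟨hℓ⟩
  have : NeZero ℓ := ⟨hℓ.ne_zero⟩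
  have hN : ¬ ℓ ∣ N := fun h => hNp (Dvd.dvd.mul_right h p)
  have hp : ¬ ℓ ∣ p := fun h => hNp (Dvd.dvd.mul_left h N)
  obtain ⟨r, hS⟩ := hR N ℓ hN A hA
  obtain ⟨hac, hchar, -⟩ := hDE N ℓ hN A hA
  have := hac
  have := hchar
  have hsurj : Function.Surjective (frobenius (kA A) ℓ) := by
    intro y
    obtain ⟨z, hz⟩ := IsAlgClosed.exists_pow_nat_eq y hℓ.pos
    exact ⟨z, hz⟩
  obtain ⟨σ₀, hσ₀⟩ := Fermat.Agent.Lib.FrobeniusExists.exists_isFrobeniusAt ℓ hℓ A hA
  exact asmb_core N p hcomm ℓ hℓ hp A r (h1 N ℓ hN A hA r hS) (h2 N ℓ hN A hA r hS)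
    (h3 N ℓ hN A hA r hS) (h4 N ℓ hN A hA r hS) (hI N ℓ hℓ)
    (RingEquiv.ofBijective (frobenius (kA A) ℓ) ⟨frobenius_inj (kA A) ℓ, hsurj⟩)
    (fun x => rfl) σ₀ hσ₀

end Assembly

end

end Fermat.Agent.S37
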