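/-
S37, block CN (sub-lead helper22) — BLOCK INTERFACE FILE.

Goal of the block: `cn_main : R1Statement` (see `Fermat/Agent/S37/Interfaces.lean`), via
* (CN-b) `IsPlaceReductionAlong A π N r` for every `r` satisfying `Spec`  (`cn_IPRStatement`),
* (CN-a) `PrincipalGeneratedByIntegral A π N`                              (`cn_PGIStatement`),
* (CN-c) the induction on `m` from the S18 prime case                      (`cn_R1ofStatement`).

This file contains the shared definitions and the statement-`Prop`s of the work packages; proofs are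
in the files `Fermat/Agent/S37/CN<Package>.lean` (names carry the prefix `cn_`).

Notation (as in `Interfaces.lean`): `Qb = AlgebraicClosure ℚ`, `A` a valuation subring of `Qb` above
`ℓ ∤ N`, `k = kA A`, `F = ↥(FL Qb N)`, `F_k = ↥(Fk k N)`.  DATUM: `(L, ι : L →+* Qb, ϖ)` with
`W = dW A ι` a DVR, `res = dRes A ι`, `BaseData N ℓ W res ϖ`, a reduction map `ρ` (`IsGaussRed`);
`V = gaussV W res N`, `φ = dEmb N ι : F_L →+* F`, `ρ' = cn_red … ρ hρ : V →+* F_k`.
CHART DATA: `S = {j}` or `S = {j⁻¹}`, `m` a maximal ideal of `chart W N S` containing `ϖ`,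
`R = locSub (chart W N S) m ⊆ F_L` (a two-dimensional regular local ring; `ρ'(R)` is the valuation
ring of a place of `F_k`).
-/
import Fermat.Agent.S37.RInterfaces
import Fermat.Agent.S18.EEGMainDefs

set_option autoImplicit false

open ModularCurve AlgebraicCurve

namespace Fermat.Agent.S37

open Fermat.Agent.S18

noncomputable section

/-! ## Shared definitions -/

/-- The reduction map `ρ`, with values in `F_k`. -/
def cn_red {L : Type} [Field L] [Algebra ℚ L] (W : ValuationSubring L) {k : Type} [Field k]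
    (res : ↥W →+* k) (N : ℕ) [NeZero N] (ϖ : ↥W) (ρ : ↥(gaussV W res N) →+* LaurentSeries k)
    (hρ : IsGaussRed W res N ϖ ρ) : ↥(gaussV W res N) →+* ↥(Fk k N) where
  toFun x := ⟨ρ x, (hρ.range (ρ x)).2 ⟨x, rfl⟩⟩
  map_one' := Subtype.ext (map_one ρ)
  map_mul' x y := Subtype.ext (map_mul ρ x y)
  map_zero' := Subtype.ext (map_zero ρ)
  map_add' x y := Subtype.ext (map_add ρ x y)

@[simp] theorem cn_red_coe {L : Type} [Field L] [Algebra ℚ L] (W : ValuationSubring L) {k : Type}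
    [Field k] (res : ↥W →+* k) (N : ℕ) [NeZero N] (ϖ : ↥W)
    (ρ : ↥(gaussV W res N) →+* LaurentSeries k) (hρ : IsGaussRed W res N ϖ ρ)
    (x : ↥(gaussV W res N)) :
    ((cn_red W res N ϖ ρ hρ x : ↥(Fk k N)) : LaurentSeries k) = ρ x := rfl

/-- Local data of a subring `R ⊆ V ⊆ F` (`V` the Gauss valuation ring with uniformiser `ϖ`):
`R` is a noetherian local factorial ring with fraction field `F`, integrally closed, `ϖ` is a prime
element of `R`, `R ∩ ϖ V = ϖ R`, `R / ϖ` is a discrete valuation ring and `V = R_(ϖ)`. -/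
structure cn_LocData {F : Type} [Field F] (V R : Subring F) (ϖ : F) : Prop where
  vdata : e_egmain_VData V ϖ
  le : R ≤ V
  mem : ϖ ∈ R
  sat : ∀ x ∈ R, ϖ⁻¹ * x ∈ V → ϖ⁻¹ * x ∈ R
  isLocal : IsLocalRing ↥R
  noeth : IsNoetherianRing ↥R
  frac : e_IsFrac R
  dvrQuot : IsDVRQuot ↥R (⟨ϖ, mem⟩ : ↥R)
  ufd : UniqueFactorizationMonoid ↥R
  prime : Prime (⟨ϖ, mem⟩ : ↥R)
  closed : ∀ x : F, IsIntegral ↥R x → x ∈ R
  loc : ∀ x ∈ V, ∃ a ∈ R, ∃ b ∈ R, ϖ⁻¹ * b ∉ V ∧ x * b = a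

section Comp

set_option synthInstance.maxHeartbeats 400000

/-- COMPATIBILITY of the place `P` of `F` and the place `Q` of `F_k` on the subring `R ⊆ V` of `F_L`:
every `x ∈ R` has a value `c ∈ A` at `P` (through `dEmb`), and `ρ(x)` has the value `π(c)` at `Q`. -/
def cn_Comp (N : ℕ) [NeZero N] (A : ValuationSubring Qb) {L : Type} [Field L] [Algebra ℚ L]
    (ι : L →+* Qb) (ϖ : ↥(dW A ι))
    (ρ : ↥(gaussV (dW A ι) (dRes A ι) N) →+* LaurentSeries (kA A))
    (hρ : IsGaussRed (dW A ι) (dRes A ι) N ϖ ρ) (R : Subring ↥(FL L N))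
    (P : Place Qb ↥(FL Qb N)) (Q : Place (kA A) ↥(Fk (kA A) N)) : Prop :=
  ∀ x : ↥(gaussV (dW A ι) (dRes A ι) N), (x : ↥(FL L N)) ∈ R →
    ∃ c : ↥A, HasValue P (dEmb N ι (x : ↥(FL L N))) (c : Qb) ∧
      HasValue Q (cn_red (dW A ι) (dRes A ι) N ϖ ρ hρ x) (IsLocalRing.residue ↥A c)

/-- The place `P` of `F` is RATIONAL over `(L, ι)`: every element of `F_L` which is regular at `P`
has its value at `P` in `ι(L)`. -/
def cn_RatAt (N : ℕ) [NeZero N] {L : Type} [Field L] [Algebra ℚ L] (ι : L →+* Qb)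
    (P : Place Qb ↥(FL Qb N)) : Prop :=
  ∀ s : ↥(FL L N), dEmb N ι s ∈ P.toValuationSubring → ∃ c : L, HasValue P (dEmb N ι s) (ι c)

end Comp

/-- CHART DATA of a place `Q` of `F_k` (datum level): `S = {j}` if `j̄` is regular at `Q`, `S = {j⁻¹}`
(with `1/j̄` vanishing at `Q`) otherwise; `m` a prime ideal of `chart W N S` containing `ϖ`; with
`R = locSub (chart W N S) m`: `O_Q = ρ'(R)`, and the non-units of `O_Q` are the images of the
non-units of `R`. -/
structure cn_ChartAt {L : Type} [Field L] [Algebra ℚ L] (W : ValuationSubring L) {k : Type} [Field k]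
    (res : ↥W →+* k) (N : ℕ) [NeZero N] (ϖ : ↥W) (ρ : ↥(gaussV W res N) →+* LaurentSeries k)
    (hρ : IsGaussRed W res N ϖ ρ) (S : Set ↥(FL L N)) (m : Ideal ↥(chart W N S)) [m.IsPrime]
    (Q : Place k ↥(Fk k N)) : Prop where
  rule : (S = {jF L N} ∧ jk k N ∈ Q.toValuationSubring) ∨
    (S = {(jF L N)⁻¹} ∧ (jk k N)⁻¹ ∈ Q.toValuationSubring.nonunits)
  mem : ∀ ϖc : ↥(chart W N S), (ϖc : ↥(FL L N)) = cW W N ϖ → ϖc ∈ m
  ring : ∀ z : ↥(Fk k N), z ∈ Q.toValuationSubring ↔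
    ∃ x : ↥(gaussV W res N), (x : ↥(FL L N)) ∈ locSub (chart W N S) m ∧
      cn_red W res N ϖ ρ hρ x = z
  nonunits : ∀ x : ↥(gaussV W res N), (x : ↥(FL L N)) ∈ locSub (chart W N S) m →
    (cn_red W res N ϖ ρ hρ x ∈ Q.toValuationSubring.nonunits ↔
      ¬ ∃ h ∈ locSub (chart W N S) m, (x : ↥(FL L N)) * h = 1)

/-! ## Local structure of the charts (from S18) -/

/-- (Loc) The localisations of the two charts at the maximal ideals containing `ϖ` have the local
data `cn_LocData` (assembly of S18 results: smoothness, `LocalUFD`, `LSFact` with `y = 1`, …). -/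
def cn_LocStatement : Prop :=
  ∀ (N : ℕ) [NeZero N] (ℓ : ℕ) [Fact ℓ.Prime] (L : Type) [Field L] [Algebra ℚ L]
    (W : ValuationSubring L) [IsDiscreteValuationRing ↥W] (k : Type) [Field k] [IsAlgClosed k]
    [CharP k ℓ] (res : ↥W →+* k) (ϖ : ↥W), BaseData N ℓ W res ϖ → HorizAt L N →
    ∀ S : Set ↥(FL L N), (S = {jF L N} ∨ S = {(jF L N)⁻¹}) →
    ∀ (m : Ideal ↥(chart W N S)) [m.IsMaximal],
      (∀ ϖc : ↥(chart W N S), (ϖc : ↥(FL L N)) = cW W N ϖ → ϖc ∈ m) →
      cn_LocData (gaussV W res N) (locSub (chart W N S) m) (cW W N ϖ)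

/-- (ChartAt) Every place `Q` of `F_k` has chart data (from the block-R output
`ChartSurjStatement`). -/
def cn_ChartAtStatement : Prop :=
  ∀ (N : ℕ) [NeZero N] (ℓ : ℕ) [Fact ℓ.Prime] (L : Type) [Field L] [Algebra ℚ L]
    (W : ValuationSubring L) [IsDiscreteValuationRing ↥W] (k : Type) [Field k] [IsAlgClosed k]
    [CharP k ℓ] (res : ↥W →+* k) (ϖ : ↥W), BaseData N ℓ W res ϖ → HorizAt L N →
    ∀ (ρ : ↥(gaussV W res N) →+* LaurentSeries k) (hρ : IsGaussRed W res N ϖ ρ)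
      (Q : Place k ↥(Fk k N)),
      ∃ (S : Set ↥(FL L N)) (m : Ideal ↥(chart W N S)) (_ : m.IsMaximal),
        cn_ChartAt W res N ϖ ρ hρ S m Q

section Concrete

set_option synthInstance.maxHeartbeats 400000

/-- (Fibre) The fibre of `r` over `Q`: for chart data `(S, m)` of `Q`, `r P = Q` iff `P` and `Q` are
compatible on `R = locSub (chart W N S) m`. -/
def cn_FibreStatement : Prop :=
  ∀ (N ℓ : ℕ) [NeZero N] [Fact ℓ.Prime], ¬ ℓ ∣ N →
    ∀ A : ValuationSubring Qb, A.LiesOverPrime ℓ →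
    ∀ r : Place Qb ↥(FL Qb N) → Place (kA A) ↥(Fk (kA A) N), Spec N ℓ A r →
    ∀ (L : Type) [Field L] [Algebra ℚ L] (ι : L →+* Qb) [IsDiscreteValuationRing ↥(dW A ι)]
      (ϖ : ↥(dW A ι)), BaseData N ℓ (dW A ι) (dRes A ι) ϖ → HorizAt L N →
    ∀ (ρ : ↥(gaussV (dW A ι) (dRes A ι) N) →+* LaurentSeries (kA A))
      (hρ : IsGaussRed (dW A ι) (dRes A ι) N ϖ ρ)
      (Q : Place (kA A) ↥(Fk (kA A) N)) (S : Set ↥(FL L N))
      (m : Ideal ↥(chart (dW A ι) N S)) [m.IsMaximal],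
      cn_ChartAt (dW A ι) (dRes A ι) N ϖ ρ hρ S m Q →
      ∀ P : Place Qb ↥(FL Qb N),
        r P = Q ↔ cn_Comp N A ι ϖ ρ hρ (locSub (chart (dW A ι) N S) m) P Q

/-! ## Places of `F` above height-one primes; rationality -/

/-- (Span) `F = F_Qb` is spanned over `Qb` by the image of `F_L`. -/
def cn_SpanStatement : Prop :=
  ∀ (N : ℕ) [NeZero N] (L : Type) [Field L] [Algebra ℚ L] (ι : L →+* Qb) (f : ↥(FL Qb N)),
    ∃ (n : ℕ) (lam : Fin n → Qb) (s : Fin n → ↥(FL L N)),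
      f = ∑ i, algebraMap Qb ↥(FL Qb N) (lam i) * dEmb N ι (s i)

/-- (RatStab) For every place `P` of `F` there is a finite set `S ⊆ Qb` such that every
`σ ∈ Gal(Qb/ℚ)` fixing `S` pointwise fixes `P` (coefficientwise action, `arithmeticGalois`). -/
def cn_RatStabStatement : Prop :=
  ∀ (N : ℕ) [NeZero N] (P : Place Qb ↥(FL Qb N)), ∃ S : Finset Qb,
    ∀ σ : Qb ≃ₐ[ℚ] Qb, (∀ s ∈ S, σ s = s) →
      arithmeticGalois (modularFunctionFieldFull N) σ • P = P

/-- (RatGal) If every `σ ∈ Gal(Qb/ℚ)` fixing `ι(L)` pointwise fixes the place `P`, then `P` is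
rational over `(L, ι)`. -/
def cn_RatGalStatement : Prop :=
  ∀ (N : ℕ) [NeZero N] (P : Place Qb ↥(FL Qb N)) (L : Type) [Field L] [Algebra ℚ L]
    (ι : L →+* Qb),
    (∀ σ : Qb ≃ₐ[ℚ] Qb, (∀ c : L, σ (ι c) = ι c) →
      arithmeticGalois (modularFunctionFieldFull N) σ • P = P) →
    cn_RatAt N ι P

/-- (Rat) Rationality: for every place `P` of `F` there is a finite set `S ⊆ Qb` such that `P` is
rational over every `(L, ι)` with `S ⊆ ι(L)`. -/
def cn_RatStatement : Prop :=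
  ∀ (N : ℕ) [NeZero N] (P : Place Qb ↥(FL Qb N)), ∃ S : Finset Qb,
    ∀ (L : Type) [Field L] [Algebra ℚ L] (ι : L →+* Qb), (∀ s ∈ S, ∃ c : L, ι c = s) →
      cn_RatAt N ι P

/-- (PrimePlace) A prime element `g` of a factorial subring `R` of `F_L` with fraction field `F_L`,
such that `L ⊆ R_(g)`, is the centre of a place `P` of `F`: `φ⁻¹(O_P) = R_(g)`, `ord_P(φ g) = 1`. -/
def cn_PrimePlaceStatement : Prop :=
  ∀ (N : ℕ) [NeZero N] (L : Type) [Field L] [Algebra ℚ L] (ι : L →+* Qb)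
    (R : Subring ↥(FL L N)), e_IsFrac R → UniqueFactorizationMonoid ↥R → ∀ g : ↥R, Prime g →
    (∀ c : L, ∃ a b : ↥R, ¬ g ∣ b ∧
      algebraMap L ↥(FL L N) c * (b : ↥(FL L N)) = (a : ↥(FL L N))) →
    ∃ P : Place Qb ↥(FL Qb N),
      (∀ s : ↥(FL L N), dEmb N ι s ∈ P.toValuationSubring ↔
        ∃ a b : ↥R, ¬ g ∣ b ∧ s * (b : ↥(FL L N)) = (a : ↥(FL L N))) ∧
      (∀ x : ↥R, dEmb N ι (x : ↥(FL L N)) ∈ P.toValuationSubring.nonunits ↔ g ∣ x) ∧
      P.ord (dEmb N ι (g : ↥(FL L N))) = 1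

end Concrete

/-- (RatUniq) Abstract: `φ : E → F` a field embedding over `ι : L → K` (via `cE : L → E`), `F` spanned
over `K` by `φ(E)`; `P` a place of `F / K` which induces on `E` a discrete valuation with uniformiser
`t` and is rational over `L`.  Then every place `P'` of `F / K` with `φ⁻¹(O_P) ⊆ φ⁻¹(O_P')` equals
`P`. -/
def cn_RatUniqStatement : Prop :=
  ∀ (K F E L : Type) [Field K] [Field F] [Algebra K F] [Field E] [Field L] (ι : L →+* K)
    (φ : E →+* F) (cE : L →+* E), (∀ c : L, φ (cE c) = algebraMap K F (ι c)) →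
    (∀ f : F, ∃ (n : ℕ) (lam : Fin n → K) (s : Fin n → E),
      f = ∑ i, algebraMap K F (lam i) * φ (s i)) →
    ∀ (P P' : Place K F) (t : E), φ t ∈ P.toValuationSubring.nonunits →
      (∀ s : E, s ≠ 0 → ∃ (n : ℤ) (u : E), φ u ∈ P.toValuationSubring ∧
        φ u⁻¹ ∈ P.toValuationSubring ∧ s = t ^ n * u) →
      (∀ s : E, φ s ∈ P.toValuationSubring → ∃ c : L, HasValue P (φ s) (ι c)) →
      (∀ s : E, φ s ∈ P.toValuationSubring → φ s ∈ P'.toValuationSubring) →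
      P' = P

section Concrete2

set_option synthInstance.maxHeartbeats 400000

/-- (Local) The rational centre.  Chart data `(S, m)` of `Q`, `R = locSub (chart W N S) m`;
`g` a prime element of `R` not dividing `ϖ`; `P` a place of `F` with `φ⁻¹(O_P) = R_(g)` which is
rational over `(L, ι)`.  Then `ρ'(g)` is a uniformiser at `Q`, `P` and `Q` are compatible on `R`, and
`P` is the only place of `F` which is regular on `R` and at which `g` vanishes. -/
def cn_LocalStatement : Prop :=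
  ∀ (N ℓ : ℕ) [NeZero N] [Fact ℓ.Prime], ¬ ℓ ∣ N →
    ∀ A : ValuationSubring Qb, A.LiesOverPrime ℓ →
    ∀ (L : Type) [Field L] [Algebra ℚ L] (ι : L →+* Qb) [IsDiscreteValuationRing ↥(dW A ι)]
      (ϖ : ↥(dW A ι)), BaseData N ℓ (dW A ι) (dRes A ι) ϖ → HorizAt L N →
    ∀ (ρ : ↥(gaussV (dW A ι) (dRes A ι) N) →+* LaurentSeries (kA A))
      (hρ : IsGaussRed (dW A ι) (dRes A ι) N ϖ ρ)
      (Q : Place (kA A) ↥(Fk (kA A) N)) (S : Set ↥(FL L N))
      (m : Ideal ↥(chart (dW A ι) N S)) [m.IsMaximal],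
      cn_ChartAt (dW A ι) (dRes A ι) N ϖ ρ hρ S m Q →
      ∀ (g ϖR : ↥(locSub (chart (dW A ι) N S) m)), Prime g →
        (ϖR : ↥(FL L N)) = cW (dW A ι) N ϖ → ¬ g ∣ ϖR →
      ∀ P : Place Qb ↥(FL Qb N),
        (∀ s : ↥(FL L N), dEmb N ι s ∈ P.toValuationSubring ↔
          ∃ a b : ↥(locSub (chart (dW A ι) N S) m), ¬ g ∣ b ∧
            s * (b : ↥(FL L N)) = (a : ↥(FL L N))) →
        (∀ x : ↥(locSub (chart (dW A ι) N S) m),
          dEmb N ι (x : ↥(FL L N)) ∈ P.toValuationSubring.nonunits ↔ g ∣ x) →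
        cn_RatAt N ι P →
        (∀ gV : ↥(gaussV (dW A ι) (dRes A ι) N), (gV : ↥(FL L N)) = (g : ↥(FL L N)) →
          Q.ord (cn_red (dW A ι) (dRes A ι) N ϖ ρ hρ gV) = 1) ∧
        cn_Comp N A ι ϖ ρ hρ (locSub (chart (dW A ι) N S) m) P Q ∧
        ∀ P' : Place Qb ↥(FL Qb N),
          (∀ x : ↥(FL L N), x ∈ locSub (chart (dW A ι) N S) m →
            dEmb N ι x ∈ P'.toValuationSubring) →
          dEmb N ι (g : ↥(FL L N)) ∈ P'.toValuationSubring.nonunits → P' = P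

open Classical in
/-- (Count) The local count for a fixed datum: for a unit `y` of `V` and a finite set `T` of places
of `F` containing the support of the divisor of `φ(y)`, all of whose members in that support are
rational over `(L, ι)`:  `∑_{P ∈ T, r P = Q} ord_P(φ y) = ord_Q(ρ' y)`. -/
def cn_CountStatement : Prop :=
  ∀ (N ℓ : ℕ) [NeZero N] [Fact ℓ.Prime], ¬ ℓ ∣ N →
    ∀ A : ValuationSubring Qb, A.LiesOverPrime ℓ →
    ∀ r : Place Qb ↥(FL Qb N) → Place (kA A) ↥(Fk (kA A) N), Spec N ℓ A r →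
    ∀ (L : Type) [Field L] [Algebra ℚ L] (ι : L →+* Qb) [IsDiscreteValuationRing ↥(dW A ι)]
      (ϖ : ↥(dW A ι)), BaseData N ℓ (dW A ι) (dRes A ι) ϖ → HorizAt L N →
    ∀ (ρ : ↥(gaussV (dW A ι) (dRes A ι) N) →+* LaurentSeries (kA A))
      (hρ : IsGaussRed (dW A ι) (dRes A ι) N ϖ ρ)
      (y : ↥(gaussV (dW A ι) (dRes A ι) N)),
      cn_red (dW A ι) (dRes A ι) N ϖ ρ hρ y ≠ 0 →
      ∀ T : Finset (Place Qb ↥(FL Qb N)),
        (∀ P : Place Qb ↥(FL Qb N), P.ord (dEmb N ι (y : ↥(FL L N))) ≠ 0 → P ∈ T) →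
        (∀ P ∈ T, P.ord (dEmb N ι (y : ↥(FL L N))) ≠ 0 → cn_RatAt N ι P) →
        ∀ Q : Place (kA A) ↥(Fk (kA A) N),
          (∑ P ∈ T, if r P = Q then P.ord (dEmb N ι (y : ↥(FL L N))) else 0) =
            Q.ord (cn_red (dW A ι) (dRes A ι) N ϖ ρ hρ y)

/-! ## Top level of the block -/

/-- (CN-b) Every `r` satisfying `Spec` is a place reduction in the sense of the prelude. -/
def cn_IPRStatement : Prop :=
  ∀ (N ℓ : ℕ) [NeZero N] [Fact ℓ.Prime], ¬ ℓ ∣ N →
    ∀ A : ValuationSubring Qb, A.LiesOverPrime ℓ →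
    ∀ r : Place Qb ↥(FL Qb N) → Place (kA A) ↥(Fk (kA A) N), Spec N ℓ A r →
      IsPlaceReductionAlong A (IsLocalRing.residue ↥A) N r

/-- (CN-a) Principal divisors are generated by the divisors of `A`-integral functions with nonzero
reduction. -/
def cn_PGIStatement : Prop :=
  ∀ (N ℓ : ℕ) [NeZero N] [Fact ℓ.Prime], ¬ ℓ ∣ N →
    ∀ A : ValuationSubring Qb, A.LiesOverPrime ℓ →
      PrincipalGeneratedByIntegral A (IsLocalRing.residue ↥A) N

/-- (CN-c) (R1) for every place reduction `r` (induction on `m` from the S18 prime case). -/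
def cn_R1ofStatement : Prop :=
  ∀ (N ℓ : ℕ) [NeZero N] [Fact ℓ.Prime], ¬ ℓ ∣ N →
    ∀ A : ValuationSubring Qb, A.LiesOverPrime ℓ →
    ∀ r : Place Qb ↥(FL Qb N) → Place (kA A) ↥(Fk (kA A) N),
      IsPlaceReductionAlong A (IsLocalRing.residue ↥A) N r →
      PrincipalGeneratedByIntegral A (IsLocalRing.residue ↥A) N → R1 N ℓ A r

end Concrete2

end

end Fermat.Agent.S37
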