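/-
S37, block CN (sub-lead helper22): assembly of `R1Statement` from the package statements.
-/
import Fermat.Agent.S37.CNInterfaces

set_option autoImplicit false

open ModularCurve AlgebraicCurve

namespace Fermat.Agent.S37

open Fermat.Agent.S18

set_option synthInstance.maxHeartbeats 400000 in
/-- (R1) for every `r` satisfying `Spec`, from (CN-a), (CN-b), (CN-c). -/
theorem cn_assemble_top (hR1of : cn_R1ofStatement) (hPGI : cn_PGIStatement)
    (hIPR : cn_IPRStatement) : R1Statement := by
  intro N ℓ _ _ hℓN A hA r hSpec
  exact hR1of N ℓ hℓN A hA r (hIPR N ℓ hℓN A hA r hSpec) (hPGI N ℓ hℓN A hA)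

/-- The rationality lemma from its two halves. -/
theorem cn_assemble_rat (hStab : cn_RatStabStatement) (hGal : cn_RatGalStatement) :
    cn_RatStatement := by
  intro N _ P
  obtain ⟨S, hS⟩ := hStab N P
  refine ⟨S, fun L _ _ ι hι => hGal N P L ι fun σ hσ => hS σ fun s hs => ?_⟩
  obtain ⟨c, rfl⟩ := hι s hs
  exact hσ c

/-- Block CN from the package statements and the block-R outputs. -/
theorem cn_assemble (hR1of : cn_R1ofStatement) (hPGI : cn_PGIStatement)
    (hRat : cn_RatStatement)
    (hCount : cn_ChartAtStatement → cn_LocStatement → cn_FibreStatement → cn_PrimePlaceStatement →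
      cn_LocalStatement → cn_CountStatement)
    (hIPR : DegQStatement → DegKStatement → DatumExistsStatement → cn_RatStatement →
      cn_CountStatement → cn_IPRStatement)
    (hLoc : cn_LocStatement) (hChartAt : ChartSurjStatement → cn_ChartAtStatement)
    (hFibre : InChartStatement → SpecUniqueStatement → SpecChartStatement → cn_FibreStatement)
    (hPrimePlace : cn_PrimePlaceStatement)
    (hLocal : cn_LocStatement → cn_RatUniqStatement → cn_SpanStatement → cn_LocalStatement)
    (hRatUniq : cn_RatUniqStatement) (hSpan : cn_SpanStatement) :
    DegQStatement → DegKStatement → InChartStatement → ChartSurjStatement →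
      DatumExistsStatement → SpecUniqueStatement → SpecChartStatement → R1Statement := by
  intro hDegQ hDegK hInChart hChartSurj hDatum hSpecUnique hSpecChart
  exact cn_assemble_top hR1of hPGI
    (hIPR hDegQ hDegK hDatum hRat
      (hCount (hChartAt hChartSurj) hLoc (hFibre hInChart hSpecUnique hSpecChart) hPrimePlace
        (hLocal hLoc hRatUniq hSpan)))

end Fermat.Agent.S37
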