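/-
S37, block CN — package ChartAt: chart data of a place of `F_k`
(bridge from the block-R output `ChartSurjStatement`).
-/
import Fermat.Agent.S37.CNInterfaces
import Fermat.Agent.S18.GAMainChart

set_option autoImplicit false

open ModularCurve AlgebraicCurve

namespace Fermat.Agent.S37

open Fermat.Agent.S18

/-- If `x` is not in the valuation ring `O`, then `x⁻¹` is a non-unit of `O`. -/
theorem cn_chartat_inv_nonunits {K : Type*} [Field K] (O : ValuationSubring K) (x : K)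
    (hx : x ∉ O) : x⁻¹ ∈ O.nonunits := by
  rw [ValuationSubring.mem_nonunits_iff, map_inv₀]
  have h1 : 1 < O.valuation x := not_le.1 fun h => hx ((O.valuation_le_one_iff x).1 h)
  exact inv_lt_one_of_one_lt₀ h1

/-- If `x * s = a` with `s` a unit of the valuation ring `O`, then `x` is a non-unit iff `a` is. -/
theorem cn_chartat_nonunits_iff {K : Type*} [Field K] (O : ValuationSubring K) (x s a : K)
    (h : x * s = a) (hs : s ∈ O) (hs' : s ∉ O.nonunits) : x ∈ O.nonunits ↔ a ∈ O.nonunits := by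
  have h1 : O.valuation s = 1 :=
    le_antisymm ((O.valuation_le_one_iff s).2 hs)
      (not_lt.1 fun hlt => hs' (O.mem_nonunits_iff.2 hlt))
  rw [ValuationSubring.mem_nonunits_iff, ValuationSubring.mem_nonunits_iff, ← h, map_mul, h1,
    mul_one]

/-- Units of `locSub A P`, for an element `x = a / s` with `s ∉ P`. -/
theorem cn_chartat_unit_iff {F : Type*} [Field F] (A : Subring F) (P : Ideal ↥A) [hP : P.IsPrime]
    (x : F) (a s : ↥A) (hs : s ∉ P) (h : x * (s : F) = (a : F)) :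
    (∃ y ∈ locSub A P, x * y = 1) ↔ a ∉ P := by
  constructor
  · rintro ⟨y, ⟨a', s', hs', h'⟩, hxy⟩ ha
    have h2 : ((a * a' : ↥A) : F) = ((s * s' : ↥A) : F) := by
      push_cast
      rw [← h, ← h']
      linear_combination ((s : F) * (s' : F)) * hxy
    have h3 : a * a' = s * s' := Subtype.ext h2
    have h4 : s * s' ∈ P := h3 ▸ P.mul_mem_right a' ha
    exact (hP.mem_or_mem h4).elim hs hs'
  · intro ha
    have ha0 : (a : F) ≠ 0 := by
      intro h0
      apply ha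
      have : a = 0 := Subtype.ext h0
      rw [this]; exact P.zero_mem
    refine ⟨(s : F) / (a : F), ⟨s, a, ha, by field_simp⟩, ?_⟩
    rw [← mul_div_assoc, h, div_self ha0]

set_option synthInstance.maxHeartbeats 400000 in
/-- (ChartAt) Every place `Q` of `F_k` has chart data. -/
theorem cn_chartat_main : ChartSurjStatement → cn_ChartAtStatement := by
  intro hCS N _ ℓ _ L _ _ W _ k _ _ _ res ϖ hB hH ρ hρ Q
  obtain ⟨S, hS, hrule⟩ : ∃ S : Set ↥(FL L N), (S = {jF L N} ∨ S = {(jF L N)⁻¹}) ∧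
      ((S = {jF L N} ∧ jk k N ∈ Q.toValuationSubring) ∨
        (S = {(jF L N)⁻¹} ∧ (jk k N)⁻¹ ∈ Q.toValuationSubring.nonunits)) := by
    by_cases hj : jk k N ∈ Q.toValuationSubring
    · exact ⟨_, Or.inl rfl, Or.inl ⟨rfl, hj⟩⟩
    · exact ⟨_, Or.inr rfl, Or.inr ⟨rfl, cn_chartat_inv_nonunits _ _ hj⟩⟩
  have hrule' : (S = {jF L N} ∧ jk k N ∈ Q.toValuationSubring) ∨
      (S = {(jF L N)⁻¹} ∧ (jk k N)⁻¹ ∈ Q.toValuationSubring) :=
    hrule.imp id fun h => ⟨h.1, ValuationSubring.nonunits_subset h.2⟩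
  obtain ⟨m, hm, ϖc, hϖc, hϖm, hring, hchart⟩ := hCS N ℓ L W k res ϖ hB hH ρ hρ Q S hrule'
  have := hm
  have hle : chart W N S ≤ gaussV W res N :=
    (ga_chart N ℓ L W k res ϖ hB S (hS.elim Or.inl fun h => Or.inr (Or.inl h))).1
  refine ⟨S, m, hm, ⟨hrule, ?_, ?_, ?_⟩⟩
  · intro ϖc' h'
    have : ϖc' = ϖc := Subtype.ext (h'.trans hϖc.symm)
    rw [this]; exact hϖm
  · intro z
    rw [hring z]
    constructor
    · rintro ⟨g, hg, hV, e⟩
      exact ⟨⟨g, hV⟩, hg, Subtype.ext e⟩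
    · rintro ⟨x, hx, e⟩
      exact ⟨(x : ↥(FL L N)), hx, x.2, congrArg Subtype.val e⟩
  · intro x hx
    obtain ⟨a, s, hs, h⟩ := hx
    have hred : ∀ g : ↥(chart W N S),
        cn_red W res N ϖ ρ hρ ⟨(g : ↥(FL L N)), hle g.2⟩ ∈ Q.toValuationSubring ∧
        (cn_red W res N ϖ ρ hρ ⟨(g : ↥(FL L N)), hle g.2⟩ ∈ Q.toValuationSubring.nonunits ↔
          g ∈ m) := fun g =>
      hchart g (hle g.2) (cn_red W res N ϖ ρ hρ ⟨(g : ↥(FL L N)), hle g.2⟩).2
    have hxs : x * ⟨(s : ↥(FL L N)), hle s.2⟩ = ⟨(a : ↥(FL L N)), hle a.2⟩ := Subtype.ext h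
    have hmul := congrArg (cn_red W res N ϖ ρ hρ) hxs
    rw [map_mul] at hmul
    rw [cn_chartat_nonunits_iff _ _ _ _ hmul (hred s).1 (fun hh => hs ((hred s).2.1 hh)),
      (hred a).2, cn_chartat_unit_iff (chart W N S) m (x : ↥(FL L N)) a s hs h, not_not]

end Fermat.Agent.S37
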