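/-
S37 — toolkit: basic calculus of values at places (`HasValue`).  Namespace `Fermat.Agent.S37`,
prefix `hv_`.  General `K`, `F`, `P : Place K F`.
-/
import Fermat.Agent.S37.Interfaces

set_option autoImplicit false

open AlgebraicCurve

namespace Fermat.Agent.S37

section

variable {K F : Type} [Field K] [Field F] [Algebra K F] (P : Place K F)

theorem hv_nonunits_iff (x : F) :
    x ∈ P.toValuationSubring.nonunits ↔ P.toValuationSubring.valuation x < 1 :=
  ValuationSubring.mem_nonunits_iff _

theorem hv_nonunits_zero : (0 : F) ∈ P.toValuationSubring.nonunits := by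
  rw [hv_nonunits_iff, map_zero]; exact zero_lt_one

theorem hv_nonunits_add {x y : F} (hx : x ∈ P.toValuationSubring.nonunits)
    (hy : y ∈ P.toValuationSubring.nonunits) : x + y ∈ P.toValuationSubring.nonunits := by
  rw [hv_nonunits_iff] at *
  exact Valuation.map_add_lt _ hx hy

theorem hv_nonunits_neg {x : F} (hx : x ∈ P.toValuationSubring.nonunits) :
    -x ∈ P.toValuationSubring.nonunits := by
  rw [hv_nonunits_iff] at *
  rwa [Valuation.map_neg]

theorem hv_nonunits_sub {x y : F} (hx : x ∈ P.toValuationSubring.nonunits)
    (hy : y ∈ P.toValuationSubring.nonunits) : x - y ∈ P.toValuationSubring.nonunits := by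
  rw [sub_eq_add_neg]
  exact hv_nonunits_add P hx (hv_nonunits_neg P hy)

theorem hv_nonunits_mul_mem {x y : F} (hx : x ∈ P.toValuationSubring.nonunits)
    (hy : y ∈ P.toValuationSubring) : x * y ∈ P.toValuationSubring.nonunits := by
  rw [hv_nonunits_iff] at *
  rw [map_mul]
  have hy' : P.toValuationSubring.valuation y ≤ 1 :=
    (ValuationSubring.valuation_le_one_iff _ _).2 hy
  calc P.toValuationSubring.valuation x * P.toValuationSubring.valuation y
      ≤ P.toValuationSubring.valuation x * 1 := mul_le_mul_right hy' _
    _ = P.toValuationSubring.valuation x := mul_one _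
    _ < 1 := hx

theorem hv_nonunits_mem {x : F} (hx : x ∈ P.toValuationSubring.nonunits) :
    x ∈ P.toValuationSubring :=
  ValuationSubring.nonunits_subset hx

/-- A constant in the maximal ideal is zero. -/
theorem hv_const_nonunit {c : K} (h : algebraMap K F c ∈ P.toValuationSubring.nonunits) :
    c = 0 := by
  by_contra hc
  rw [hv_nonunits_iff] at h
  have h1 : P.toValuationSubring.valuation (algebraMap K F c⁻¹) ≤ 1 :=
    (ValuationSubring.valuation_le_one_iff _ _).2 (P.algebraMap_mem' _)
  have h2 : P.toValuationSubring.valuation (algebraMap K F c) *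
      P.toValuationSubring.valuation (algebraMap K F c⁻¹) = 1 := by
    rw [← map_mul, ← map_mul, mul_inv_cancel₀ hc, map_one, map_one]
  have h3 : P.toValuationSubring.valuation (algebraMap K F c) *
      P.toValuationSubring.valuation (algebraMap K F c⁻¹) < 1 := by
    calc _ ≤ P.toValuationSubring.valuation (algebraMap K F c) * 1 := mul_le_mul_right h1 _
      _ = _ := mul_one _
      _ < 1 := h
  exact absurd h2 (ne_of_lt h3)

variable {P}

theorem hv_mem {s : F} {c : K} (h : HasValue P s c) : s ∈ P.toValuationSubring := by
  have h1 := hv_nonunits_mem P h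
  have h2 := P.algebraMap_mem' c
  have : s = (s - algebraMap K F c) + algebraMap K F c := by ring
  rw [this]
  exact P.toValuationSubring.add_mem _ _ h1 h2

theorem hv_algebraMap (P : Place K F) (c : K) : HasValue P (algebraMap K F c) c := by
  unfold HasValue
  rw [sub_self]
  exact hv_nonunits_zero P

theorem hv_zero (P : Place K F) : HasValue P (0 : F) (0 : K) := by
  have := hv_algebraMap P (0 : K)
  rwa [map_zero] at this

theorem hv_one (P : Place K F) : HasValue P (1 : F) (1 : K) := by
  have := hv_algebraMap P (1 : K)
  rwa [map_one] at this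

theorem hv_zero_iff {s : F} : HasValue P s (0 : K) ↔ s ∈ P.toValuationSubring.nonunits := by
  unfold HasValue
  rw [map_zero, sub_zero]

theorem hv_add {s t : F} {c d : K} (hs : HasValue P s c) (ht : HasValue P t d) :
    HasValue P (s + t) (c + d) := by
  unfold HasValue at *
  have : s + t - algebraMap K F (c + d) = (s - algebraMap K F c) + (t - algebraMap K F d) := by
    rw [map_add]; ring
  rw [this]
  exact hv_nonunits_add P hs ht

theorem hv_neg {s : F} {c : K} (hs : HasValue P s c) : HasValue P (-s) (-c) := by
  unfold HasValue at *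
  have : -s - algebraMap K F (-c) = -(s - algebraMap K F c) := by
    rw [map_neg]; ring
  rw [this]
  exact hv_nonunits_neg P hs

theorem hv_sub {s t : F} {c d : K} (hs : HasValue P s c) (ht : HasValue P t d) :
    HasValue P (s - t) (c - d) := by
  rw [sub_eq_add_neg, sub_eq_add_neg]
  exact hv_add hs (hv_neg ht)

theorem hv_mul {s t : F} {c d : K} (hs : HasValue P s c) (ht : HasValue P t d) :
    HasValue P (s * t) (c * d) := by
  have htm := hv_mem ht
  unfold HasValue at *
  have : s * t - algebraMap K F (c * d)
      = (s - algebraMap K F c) * t + (t - algebraMap K F d) * algebraMap K F c := by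
    rw [map_mul]; ring
  rw [this]
  exact hv_nonunits_add P (hv_nonunits_mul_mem P hs htm)
    (hv_nonunits_mul_mem P ht (P.algebraMap_mem' c))

theorem hv_pow {s : F} {c : K} (hs : HasValue P s c) (n : ℕ) : HasValue P (s ^ n) (c ^ n) := by
  induction n with
  | zero => simpa using hv_one P
  | succ n ih => rw [pow_succ, pow_succ]; exact hv_mul ih hs

theorem hv_unique {s : F} {c d : K} (hc : HasValue P s c) (hd : HasValue P s d) : c = d := by
  have h := hv_sub hc hd
  rw [sub_self] at h
  have h0 : algebraMap K F (c - d) ∈ P.toValuationSubring.nonunits := by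
    unfold HasValue at h
    rw [zero_sub] at h
    have := hv_nonunits_neg P h
    rwa [neg_neg] at this
  exact sub_eq_zero.mp (hv_const_nonunit P h0)

theorem hv_sum {ι : Type} (t : Finset ι) (s : ι → F) (c : ι → K)
    (h : ∀ i ∈ t, HasValue P (s i) (c i)) : HasValue P (∑ i ∈ t, s i) (∑ i ∈ t, c i) := by
  classical
  induction t using Finset.induction_on with
  | empty => simpa using hv_zero P
  | insert a t ha ih =>
    rw [Finset.sum_insert ha, Finset.sum_insert ha]
    exact hv_add (h a (Finset.mem_insert_self a t))
      (ih fun i hi => h i (Finset.mem_insert_of_mem hi))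

theorem hv_prod {ι : Type} (t : Finset ι) (s : ι → F) (c : ι → K)
    (h : ∀ i ∈ t, HasValue P (s i) (c i)) : HasValue P (∏ i ∈ t, s i) (∏ i ∈ t, c i) := by
  classical
  induction t using Finset.induction_on with
  | empty => simpa using hv_one P
  | insert a t ha ih =>
    rw [Finset.prod_insert ha, Finset.prod_insert ha]
    exact hv_mul (h a (Finset.mem_insert_self a t))
      (ih fun i hi => h i (Finset.mem_insert_of_mem hi))

/-- Values commute with polynomial evaluation (coefficients in `K`). -/
theorem hv_aeval {s : F} {c : K} (hs : HasValue P s c) (p : Polynomial K) :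
    HasValue P (Polynomial.aeval s p) (Polynomial.eval c p) := by
  rw [Polynomial.aeval_eq_sum_range, Polynomial.eval_eq_sum_range]
  refine hv_sum _ _ _ fun i _ => ?_
  rw [Algebra.smul_def]
  exact hv_mul (hv_algebraMap P _) (hv_pow hs i)

/-- An element with a nonzero value is a unit of the valuation ring: its inverse has the inverse
value. -/
theorem hv_inv {s : F} {c : K} (hs : HasValue P s c) (hc : c ≠ 0) : HasValue P s⁻¹ c⁻¹ := by
  have hsm := hv_mem hs
  have hs0 : s ≠ 0 := by
    rintro rfl
    have := hv_unique hs (hv_zero P)
    exact hc this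
  -- `s` is a unit of the valuation ring
  have hvs : P.toValuationSubring.valuation s = 1 := by
    by_contra hne
    have hle : P.toValuationSubring.valuation s ≤ 1 :=
      (ValuationSubring.valuation_le_one_iff _ _).2 hsm
    have hlt : P.toValuationSubring.valuation s < 1 := lt_of_le_of_ne hle hne
    have : HasValue P s (0 : K) := hv_zero_iff.2 ((hv_nonunits_iff P s).2 hlt)
    exact hc (hv_unique hs this)
  have hsi : s⁻¹ ∈ P.toValuationSubring := by
    rw [← ValuationSubring.valuation_le_one_iff, map_inv₀, hvs, inv_one]
  unfold HasValue at *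
  have hc' : algebraMap K F c ≠ 0 := by
    intro h0
    exact hc ((map_eq_zero (algebraMap K F)).1 h0)
  have : s⁻¹ - algebraMap K F c⁻¹
      = -((s - algebraMap K F c) * (s⁻¹ * algebraMap K F c⁻¹)) := by
    rw [map_inv₀]
    field_simp
    ring
  rw [this]
  exact hv_nonunits_neg P (hv_nonunits_mul_mem P hs
    (P.toValuationSubring.mul_mem _ _ hsi (P.algebraMap_mem' _)))

/-- An element of the valuation ring with value `c ≠ 0` is not in the maximal ideal. -/
theorem hv_not_nonunit {s : F} {c : K} (hs : HasValue P s c) (hc : c ≠ 0) :
    s ∉ P.toValuationSubring.nonunits := fun h =>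
  hc (hv_unique hs (hv_zero_iff.2 h))

end

end Fermat.Agent.S37
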