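/-
S37, block CN, package Count (twin T): the local count
`∑_{P ∈ T, r P = Q} ord_P(φ y) = ord_Q(ρ' y)`.
`cn_countT_main : cn_ChartAtStatement → cn_LocStatement → cn_FibreStatement →
  cn_PrimePlaceStatement → cn_LocalStatement → cn_CountStatement`.
-/
import Fermat.Agent.S37.CNInterfaces
import Fermat.Agent.S37.HV
import Fermat.Agent.S18.EReduce

set_option autoImplicit false

open ModularCurve AlgebraicCurve

namespace Fermat.Agent.S37

open Fermat.Agent.S18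

noncomputable section

section Abs

variable {K F k G : Type} [Field K] [Field F] [Algebra K F] [Field k] [Field G] [Algebra k G]

theorem cn_countT_ord_unit (P : Place K F) {x : F} (hx : x ∈ P.toValuationSubring)
    (hx' : x⁻¹ ∈ P.toValuationSubring) : P.ord x = 0 := by
  rcases eq_or_ne x 0 with rfl | h0
  · simp
  · exact P.ord_coe_unit ⟨⟨x, hx⟩, ⟨x⁻¹, hx'⟩, Subtype.ext (mul_inv_cancel₀ h0),
      Subtype.ext (inv_mul_cancel₀ h0)⟩

theorem cn_countT_inv_mem_of_ord (P : Place K F) {x : F} (h0 : x ≠ 0) (h : P.ord x = 0) :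
    x⁻¹ ∈ P.toValuationSubring := by
  obtain ⟨π, hπ⟩ := IsDiscreteValuationRing.exists_irreducible P.toValuationSubring
  obtain ⟨u, hu⟩ := P.exists_unit_mul_zpow h0 hπ
  rw [h, zpow_zero, mul_one] at hu
  have h1 : (((u⁻¹ : (P.toValuationSubring)ˣ) : P.toValuationSubring) : F) * x = 1 := by
    rw [hu, ← MulMemClass.coe_mul, Units.inv_mul]
    rfl
  rw [← eq_inv_of_mul_eq_one_left h1]
  exact Subtype.mem _

theorem cn_countT_ord_ne_zero (P : Place K F) {x : F} (h0 : x ≠ 0)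
    (hx : x ∈ P.toValuationSubring.nonunits) : P.ord x ≠ 0 := by
  intro h
  have h2 := cn_countT_inv_mem_of_ord P h0 h
  rcases (ValuationSubring.mem_nonunits_iff_or _).1 hx with h1 | h1
  exacts [h0 h1, h1 h2]

theorem cn_countT_ord_of_not_nonunit (P : Place K F) {x : F} (hx : x ∈ P.toValuationSubring)
    (hx' : x ∉ P.toValuationSubring.nonunits) : P.ord x = 0 := by
  refine cn_countT_ord_unit P hx ?_
  by_contra h
  exact hx' ((ValuationSubring.mem_nonunits_iff_or _).2 (Or.inr h))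

/-- The abstract local count. -/
theorem cn_countT_abs {R : Type} [CommRing R] [IsDomain R] [UniqueFactorizationMonoid R]
    (φ : R →+* F) (hφ : Function.Injective φ) (ρ : R →+* G) (ϖ : R) (hϖ : Prime ϖ)
    (hker : ∀ x, ρ x = 0 ↔ ϖ ∣ x)
    (r : Place K F → Place k G) (Q : Place k G) [∀ P, Decidable (r P = Q)]
    (Rat : Place K F → Prop)
    (h0 : ∀ P, r P = Q → ∀ x : R, φ x ∈ P.toValuationSubring)
    (hQ : ∀ x : R, ρ x ∈ Q.toValuationSubring)
    (hprime : ∀ p : R, Prime p → ¬ p ∣ ϖ → ∃ P : Place K F,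
      (∀ x : R, φ x ∈ P.toValuationSubring) ∧
      (∀ x : R, φ x ∈ P.toValuationSubring.nonunits ↔ p ∣ x) ∧ P.ord (φ p) = 1 ∧
      (Rat P → Q.ord (ρ p) = 1 ∧ r P = Q ∧ ∀ P' : Place K F,
        (∀ x : R, φ x ∈ P'.toValuationSubring) → φ p ∈ P'.toValuationSubring.nonunits →
        P' = P))
    (yF : F) (yG : G) (hy : yG ≠ 0) (a b : R) (hb : ¬ ϖ ∣ b) (hF : yF * φ b = φ a)
    (hG : yG * ρ b = ρ a)
    (T : Finset (Place K F)) (hT1 : ∀ P, P.ord yF ≠ 0 → P ∈ T)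
    (hT2 : ∀ P ∈ T, P.ord yF ≠ 0 → Rat P) :
    (∑ P ∈ T, if r P = Q then P.ord yF else 0) = Q.ord yG := by
  have hφ0 : ∀ x : R, x ≠ 0 → φ x ≠ 0 := fun x hx h => hx (hφ (by rw [h, map_zero]))
  have hρ0 : ∀ x : R, ¬ ϖ ∣ x → ρ x ≠ 0 := fun x hx h => hx ((hker x).1 h)
  have hLmul : ∀ x x' : R, x ≠ 0 → x' ≠ 0 →
      (∑ P ∈ T, if r P = Q then P.ord (φ (x * x')) else 0) =
        (∑ P ∈ T, if r P = Q then P.ord (φ x) else 0) +
          ∑ P ∈ T, if r P = Q then P.ord (φ x') else 0 := by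
    intro x x' hx hx'
    rw [← Finset.sum_add_distrib]
    refine Finset.sum_congr rfl fun P _ => ?_
    split_ifs
    · rw [map_mul, P.ord_mul (hφ0 x hx) (hφ0 x' hx')]
    · simp
  have hLunit : ∀ u : R, IsUnit u → (∑ P ∈ T, if r P = Q then P.ord (φ u) else 0) = 0 := by
    intro u hu
    refine Finset.sum_eq_zero fun P _ => ?_
    split_ifs with h
    · obtain ⟨u, rfl⟩ := hu
      refine cn_countT_ord_unit P (h0 P h _) ?_
      have h1 : φ ((u⁻¹ : Rˣ) : R) * φ (u : R) = 1 := by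
        rw [← map_mul, Units.inv_mul, map_one]
      rw [← eq_inv_of_mul_eq_one_left h1]
      exact h0 P h _
    · rfl
  have hRunit : ∀ u : R, IsUnit u → Q.ord (ρ u) = 0 := by
    intro u hu
    obtain ⟨u, rfl⟩ := hu
    refine cn_countT_ord_unit Q (hQ _) ?_
    have h1 : ρ ((u⁻¹ : Rˣ) : R) * ρ (u : R) = 1 := by
      rw [← map_mul, Units.inv_mul, map_one]
    rw [← eq_inv_of_mul_eq_one_left h1]
    exact hQ _
  have key : ∀ a b : R, IsRelPrime a b → a ≠ 0 → ¬ ϖ ∣ a →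
      (∀ P, P.ord (φ a) ≠ P.ord (φ b) → P ∈ T ∧ Rat P) →
      (∑ P ∈ T, if r P = Q then P.ord (φ a) else 0) = Q.ord (ρ a) := by
    intro a b hab ha0 hϖa hT
    have hprime1 : ∀ p : R, Prime p → p ∣ a →
        (∑ P ∈ T, if r P = Q then P.ord (φ p) else 0) = 1 ∧ Q.ord (ρ p) = 1 := by
      intro p hp hpa
      have hpϖ : ¬ p ∣ ϖ := by
        intro h
        exact hϖa (((hp.dvd_prime_iff_associated hϖ).1 h).symm.dvd.trans hpa)
      obtain ⟨Pp, h1, h2, h3, h4⟩ := hprime p hp hpϖ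
      have hpb : ¬ p ∣ b := fun h => hp.not_isUnit (hab hpa h)
      have hordb : Pp.ord (φ b) = 0 :=
        cn_countT_ord_of_not_nonunit Pp (h1 b) (fun h => hpb ((h2 b).1 h))
      have horda : Pp.ord (φ a) ≠ 0 := cn_countT_ord_ne_zero Pp (hφ0 a ha0) ((h2 a).2 hpa)
      obtain ⟨hPT, hPrat⟩ := hT Pp (by rw [hordb]; exact horda)
      obtain ⟨h5, h6, h7⟩ := h4 hPrat
      refine ⟨?_, h5⟩
      rw [Finset.sum_eq_single Pp, if_pos h6, h3]
      · intro P _ hne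
        split_ifs with h
        · exact cn_countT_ord_of_not_nonunit P (h0 P h p) (fun hn => hne (h7 P (h0 P h) hn))
        · rfl
      · intro h
        exact absurd hPT h
    have ind : ∀ x : R, x ∣ a →
        (∑ P ∈ T, if r P = Q then P.ord (φ x) else 0) = Q.ord (ρ x) := by
      intro x
      refine UniqueFactorizationMonoid.induction_on_prime x ?_ ?_ ?_
      · intro h
        exact absurd (zero_dvd_iff.1 h) ha0
      · intro u hu _
        rw [hLunit u hu, hRunit u hu]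
      · intro x p hx0 hp ih hpx
        have hpa : p ∣ a := (dvd_mul_right p x).trans hpx
        have hxa : x ∣ a := (dvd_mul_left x p).trans hpx
        obtain ⟨e1, e2⟩ := hprime1 p hp hpa
        rw [hLmul p x hp.ne_zero hx0, map_mul,
          Q.ord_mul (hρ0 p fun h => hϖa (h.trans hpa)) (hρ0 x fun h => hϖa (h.trans hxa)),
          e1, e2, ih hxa]
    exact ind a dvd_rfl
  have ha : ¬ ϖ ∣ a := by
    intro h
    rw [(hker a).2 h] at hG
    exact mul_ne_zero hy (hρ0 b hb) hG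
  have ha0 : a ≠ 0 := by
    rintro rfl
    exact ha (dvd_zero _)
  obtain ⟨a', b', d, hrel, rfl, rfl⟩ := UniqueFactorizationMonoid.exists_reduced_factors a ha0 b
  have hd0 : d ≠ 0 := left_ne_zero_of_mul ha0
  have ha'0 : a' ≠ 0 := right_ne_zero_of_mul ha0
  have ha' : ¬ ϖ ∣ a' := fun h => ha (h.mul_left d)
  have hb' : ¬ ϖ ∣ b' := fun h => hb (h.mul_left d)
  have hb'0 : b' ≠ 0 := by
    rintro rfl
    exact hb' (dvd_zero _)
  have hd : ¬ ϖ ∣ d := fun h => ha (h.mul_right a')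
  have hF' : yF * φ b' = φ a' := by
    refine mul_left_cancel₀ (hφ0 d hd0) ?_
    rw [← map_mul, ← hF, map_mul]
    ring
  have hG' : yG * ρ b' = ρ a' := by
    refine mul_left_cancel₀ (hρ0 d hd) ?_
    rw [← map_mul, ← hG, map_mul]
    ring
  have hyF : yF ≠ 0 := by
    rintro rfl
    rw [zero_mul] at hF'
    exact hφ0 a' ha'0 hF'.symm
  have hord : ∀ P : Place K F, P.ord yF = P.ord (φ a') - P.ord (φ b') := by
    intro P
    rw [← hF', P.ord_mul hyF (hφ0 b' hb'0)]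
    ring
  have hT' : ∀ P, P.ord (φ a') ≠ P.ord (φ b') → P ∈ T ∧ Rat P := by
    intro P hP
    have h1 : P.ord yF ≠ 0 := by
      rw [hord P]
      exact sub_ne_zero.2 hP
    exact ⟨hT1 P h1, hT2 P (hT1 P h1) h1⟩
  have e1 := key a' b' hrel ha'0 ha' hT'
  have e2 := key b' a' hrel.symm hb'0 hb' (fun P h => hT' P h.symm)
  have e3 : Q.ord yG = Q.ord (ρ a') - Q.ord (ρ b') := by
    rw [← hG', Q.ord_mul hy (hρ0 b' hb')]
    ring
  rw [e3, ← e1, ← e2, ← Finset.sum_sub_distrib]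
  refine Finset.sum_congr rfl fun P _ => ?_
  split_ifs
  · exact hord P
  · simp

end Abs

section Concrete

set_option synthInstance.maxHeartbeats 400000

/-- The local count. -/
theorem cn_countT_main : cn_ChartAtStatement → cn_LocStatement → cn_FibreStatement →
    cn_PrimePlaceStatement → cn_LocalStatement → cn_CountStatement := by
  intro hChart hLocS hFibS hPP hLocal N ℓ _ _ hℓN A hA r hr L _ _ ι _ ϖ hBD hH ρ hρ y hy T hT1
    hT2 Q
  have : IsAlgClosed (kA A) := e_reduce_isAlgClosed A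
  have : CharP (kA A) ℓ := e_reduce_charP ℓ A hA
  obtain ⟨S, m, hm, hCA⟩ := hChart N ℓ L (dW A ι) (kA A) (dRes A ι) ϖ hBD hH ρ hρ Q
  have := hm
  have hS : S = {jF L N} ∨ S = {(jF L N)⁻¹} :=
    hCA.rule.elim (fun h => Or.inl h.1) (fun h => Or.inr h.1)
  have hLoc := hLocS N ℓ L (dW A ι) (kA A) (dRes A ι) ϖ hBD hH S hS m hCA.mem
  have hFib := hFibS N ℓ hℓN A hA r hr L ι ϖ hBD hH ρ hρ Q S m hCA
  have : UniqueFactorizationMonoid ↥(locSub (chart (dW A ι) N S) m) := hLoc.ufd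
  have hRV : locSub (chart (dW A ι) N S) m ≤ gaussV (dW A ι) (dRes A ι) N := hLoc.le
  have hϖ0 : cW (dW A ι) N ϖ ≠ 0 := hLoc.vdata.ne_zero
  -- the constants lie in `R`
  have hWR : ∀ w : ↥(dW A ι), cW (dW A ι) N w ∈ locSub (chart (dW A ι) N S) m := by
    intro w
    refine le_locSub _ m ((mem_chart_iff (dW A ι) N S _).2 ?_)
    have hw : cW (dW A ι) N w ∈ baseRing (dW A ι) N S :=
      Subring.subset_closure (Or.inl ⟨w, rfl⟩)
    exact isIntegral_algebraMap (x := (⟨_, hw⟩ : ↥(baseRing (dW A ι) N S)))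
  -- the data of the abstract count
  have hφinj : Function.Injective
      ((dEmb N ι).comp (locSub (chart (dW A ι) N S) m).subtype) :=
    (dEmb N ι).injective.comp Subtype.val_injective
  have hker : ∀ x : ↥(locSub (chart (dW A ι) N S) m),
      ((cn_red (dW A ι) (dRes A ι) N ϖ ρ hρ).comp (Subring.inclusion hRV)) x = 0 ↔
        (⟨cW (dW A ι) N ϖ, hLoc.mem⟩ : ↥(locSub (chart (dW A ι) N S) m)) ∣ x := by
    intro x
    constructor
    · intro h
      have h1 : ρ ⟨x, hRV x.2⟩ = 0 := congrArg Subtype.val h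
      obtain ⟨x', hx'⟩ := (hρ.ker _).1 h1
      have h2 : (cW (dW A ι) N ϖ)⁻¹ * (x : ↥(FL L N)) = x' := by
        rw [show ((x : ↥(FL L N))) = cW (dW A ι) N ϖ * (x' : ↥(FL L N)) from hx',
          inv_mul_cancel_left₀ hϖ0]
      have h3 := hLoc.sat x x.2 (by rw [h2]; exact x'.2)
      refine ⟨⟨_, h3⟩, Subtype.ext ?_⟩
      show (x : ↥(FL L N)) = cW (dW A ι) N ϖ * ((cW (dW A ι) N ϖ)⁻¹ * (x : ↥(FL L N)))
      rw [mul_inv_cancel_left₀ hϖ0]
    · rintro ⟨c, rfl⟩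
      refine Subtype.ext ?_
      exact (hρ.ker _).2 ⟨⟨c, hRV c.2⟩, rfl⟩
  have h0 : ∀ P : Place Qb ↥(FL Qb N), r P = Q → ∀ x : ↥(locSub (chart (dW A ι) N S) m),
      ((dEmb N ι).comp (locSub (chart (dW A ι) N S) m).subtype) x ∈ P.toValuationSubring := by
    intro P h x
    obtain ⟨c, hc, -⟩ := (hFib P).1 h ⟨x, hRV x.2⟩ x.2
    exact hv_mem hc
  have hQ : ∀ x : ↥(locSub (chart (dW A ι) N S) m),
      ((cn_red (dW A ι) (dRes A ι) N ϖ ρ hρ).comp (Subring.inclusion hRV)) x ∈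
        Q.toValuationSubring := by
    intro x
    exact (hCA.ring _).2 ⟨⟨x, hRV x.2⟩, x.2, rfl⟩
  have hprime : ∀ p : ↥(locSub (chart (dW A ι) N S) m), Prime p →
      ¬ p ∣ (⟨cW (dW A ι) N ϖ, hLoc.mem⟩ : ↥(locSub (chart (dW A ι) N S) m)) →
      ∃ P : Place Qb ↥(FL Qb N),
        (∀ x : ↥(locSub (chart (dW A ι) N S) m),
          ((dEmb N ι).comp (locSub (chart (dW A ι) N S) m).subtype) x ∈ P.toValuationSubring) ∧
        (∀ x : ↥(locSub (chart (dW A ι) N S) m),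
          ((dEmb N ι).comp (locSub (chart (dW A ι) N S) m).subtype) x ∈
            P.toValuationSubring.nonunits ↔ p ∣ x) ∧
        P.ord (((dEmb N ι).comp (locSub (chart (dW A ι) N S) m).subtype) p) = 1 ∧
        (cn_RatAt N ι P →
          Q.ord (((cn_red (dW A ι) (dRes A ι) N ϖ ρ hρ).comp (Subring.inclusion hRV)) p) = 1 ∧
          r P = Q ∧ ∀ P' : Place Qb ↥(FL Qb N),
            (∀ x : ↥(locSub (chart (dW A ι) N S) m),
              ((dEmb N ι).comp (locSub (chart (dW A ι) N S) m).subtype) x ∈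
                P'.toValuationSubring) →
            ((dEmb N ι).comp (locSub (chart (dW A ι) N S) m).subtype) p ∈
              P'.toValuationSubring.nonunits → P' = P) := by
    intro p hp hpϖ
    have hL : ∀ c : L, ∃ a b : ↥(locSub (chart (dW A ι) N S) m), ¬ p ∣ b ∧
        algebraMap L ↥(FL L N) c * (b : ↥(FL L N)) = (a : ↥(FL L N)) := by
      intro c
      by_cases hc : c ∈ dW A ι
      · exact ⟨⟨_, hWR ⟨c, hc⟩⟩, 1, hp.not_dvd_one, mul_one _⟩
      · have hc' : c⁻¹ ∈ dW A ι := ((dW A ι).mem_or_inv_mem c).resolve_left hc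
        have hc0 : c ≠ 0 := by
          rintro rfl
          exact hc (dW A ι).zero_mem
        have hw0 : (⟨c⁻¹, hc'⟩ : ↥(dW A ι)) ≠ 0 := by
          intro h
          exact inv_ne_zero hc0 (congrArg Subtype.val h)
        obtain ⟨n, u, hu⟩ :=
          IsDiscreteValuationRing.eq_unit_mul_pow_irreducible hw0 hBD.irreducible
        refine ⟨1, ⟨_, hWR ⟨c⁻¹, hc'⟩⟩, ?_, ?_⟩
        · have e1 : (⟨_, hWR ⟨c⁻¹, hc'⟩⟩ : ↥(locSub (chart (dW A ι) N S) m)) =
              ((cW (dW A ι) N).codRestrict (locSub (chart (dW A ι) N S) m) hWR) (u : ↥(dW A ι)) *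
                (⟨cW (dW A ι) N ϖ, hLoc.mem⟩ : ↥(locSub (chart (dW A ι) N S) m)) ^ n := by
            refine Subtype.ext ?_
            show cW (dW A ι) N ⟨c⁻¹, hc'⟩ = cW (dW A ι) N (u : ↥(dW A ι)) * cW (dW A ι) N ϖ ^ n
            rw [hu, map_mul, map_pow]
          rw [e1]
          intro hdvd
          rcases hp.dvd_or_dvd hdvd with h | h
          · exact hp.not_isUnit (isUnit_of_dvd_unit h (u.isUnit.map _))
          · exact hpϖ (hp.dvd_of_dvd_pow h)
        · show algebraMap L ↥(FL L N) c * algebraMap L ↥(FL L N) c⁻¹ = 1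
          rw [← map_mul, mul_inv_cancel₀ hc0, map_one]
    obtain ⟨P, h1, h2, h3⟩ := hPP N L ι (locSub (chart (dW A ι) N S) m) hLoc.frac hLoc.ufd p hp hL
    refine ⟨P, fun x => (h1 x).2 ⟨x, 1, hp.not_dvd_one, mul_one _⟩, h2, h3, fun hRat => ?_⟩
    obtain ⟨h5, h6, h7⟩ := hLocal N ℓ hℓN A hA L ι ϖ hBD hH ρ hρ Q S m hCA p
      ⟨cW (dW A ι) N ϖ, hLoc.mem⟩ hp rfl hpϖ P h1 h2 hRat
    exact ⟨h5 ⟨p, hRV p.2⟩ rfl, (hFib P).2 h6, fun P' hP' hp' => h7 P' (fun x hx => hP' ⟨x, hx⟩) hp'⟩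
  -- the fraction
  obtain ⟨a, haR, b, hbR, hbV, hyab⟩ := hLoc.loc y y.2
  have hb : ¬ (⟨cW (dW A ι) N ϖ, hLoc.mem⟩ : ↥(locSub (chart (dW A ι) N S) m)) ∣ ⟨b, hbR⟩ := by
    rintro ⟨c, hc⟩
    apply hbV
    have hc' : b = cW (dW A ι) N ϖ * (c : ↥(FL L N)) := congrArg Subtype.val hc
    rw [hc', inv_mul_cancel_left₀ hϖ0]
    exact hRV c.2
  have hF : dEmb N ι (y : ↥(FL L N)) *
      ((dEmb N ι).comp (locSub (chart (dW A ι) N S) m).subtype) ⟨b, hbR⟩ =
      ((dEmb N ι).comp (locSub (chart (dW A ι) N S) m).subtype) ⟨a, haR⟩ := by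
    show dEmb N ι (y : ↥(FL L N)) * dEmb N ι b = dEmb N ι a
    rw [← map_mul, hyab]
  have hG : cn_red (dW A ι) (dRes A ι) N ϖ ρ hρ y *
      ((cn_red (dW A ι) (dRes A ι) N ϖ ρ hρ).comp (Subring.inclusion hRV)) ⟨b, hbR⟩ =
      ((cn_red (dW A ι) (dRes A ι) N ϖ ρ hρ).comp (Subring.inclusion hRV)) ⟨a, haR⟩ := by
    show cn_red (dW A ι) (dRes A ι) N ϖ ρ hρ y *
      cn_red (dW A ι) (dRes A ι) N ϖ ρ hρ ⟨b, hRV hbR⟩ =
      cn_red (dW A ι) (dRes A ι) N ϖ ρ hρ ⟨a, hRV haR⟩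
    rw [← map_mul]
    exact congrArg _ (Subtype.ext hyab)
  classical
  exact cn_countT_abs (K := Qb) (k := kA A)
    ((dEmb N ι).comp (locSub (chart (dW A ι) N S) m).subtype) hφinj
    ((cn_red (dW A ι) (dRes A ι) N ϖ ρ hρ).comp (Subring.inclusion hRV))
    ⟨cW (dW A ι) N ϖ, hLoc.mem⟩ hLoc.prime hker r Q (cn_RatAt N ι) h0 hQ hprime
    (dEmb N ι (y : ↥(FL L N))) (cn_red (dW A ι) (dRes A ι) N ϖ ρ hρ y) hy ⟨a, haR⟩ ⟨b, hbR⟩ hb hF hG
    T hT1 hT2

end Concrete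

end

end Fermat.Agent.S37
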