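/-
S37, block CN — package Fibre (twin T): the fibre of `r` over a place `Q` of `F_k`.
Deliverable: `cn_fibreT_main : InChartStatement → SpecUniqueStatement → SpecChartStatement →
cn_FibreStatement`.
-/
import Fermat.Agent.S37.CNInterfaces
import Fermat.Agent.S37.HV
import Fermat.Agent.S18.GAMainChart
import Fermat.Agent.S18.EReduce

set_option autoImplicit false

open ModularCurve AlgebraicCurve

namespace Fermat.Agent.S37

open Fermat.Agent.S18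

noncomputable section

set_option synthInstance.maxHeartbeats 400000

/-! ## Small general facts -/

theorem cn_fibreT_jF_ne_zero (L : Type) [Field L] [Algebra ℚ L] (N : ℕ) [NeZero N] :
    jF L N ≠ 0 := fun h =>
  jqModC_ne_zero_of_nontrivial (R := L) (by rw [← coe_jF L N, h]; rfl)

theorem cn_fibreT_jk_ne_zero (k : Type) [Field k] (N : ℕ) : jk k N ≠ 0 := fun h =>
  jqModC_ne_zero_of_nontrivial (R := k) (by rw [← coe_jk k N, h]; rfl)

/-- A nonzero element of the valuation ring cannot have its inverse in the maximal ideal. -/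
theorem cn_fibreT_not_both {K F : Type} [Field K] [Field F] [Algebra K F] (P : Place K F) {x : F}
    (hx0 : x ≠ 0) (hx : x ∈ P.toValuationSubring) (hxi : x⁻¹ ∈ P.toValuationSubring.nonunits) :
    False := by
  have h := hv_nonunits_mul_mem P hxi hx
  rw [inv_mul_cancel₀ hx0, hv_nonunits_iff, map_one] at h
  exact lt_irrefl _ h

/-- Values of quotients. -/
theorem cn_fibreT_hv_div {K F : Type} [Field K] [Field F] [Algebra K F] {P : Place K F}
    {x a s : F} {ca cs : K} (ha : HasValue P a ca) (hs : HasValue P s cs) (hcs : cs ≠ 0)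
    (h : x * s = a) : HasValue P x (ca * cs⁻¹) := by
  have hs0 : s ≠ 0 := by
    rintro rfl
    exact hcs (hv_unique hs (hv_zero P))
  have e : x = a * s⁻¹ := by rw [← h, mul_assoc, mul_inv_cancel₀ hs0, mul_one]
  rw [e]
  exact hv_mul ha (hv_inv hs hcs)

section Datum

variable {L : Type} [Field L] [Algebra ℚ L] (W : ValuationSubring L) {k : Type} [Field k]
  (res : ↥W →+* k) (N : ℕ) [NeZero N]

omit [NeZero N] in
/-- The generators of a chart lie in the chart. -/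
theorem cn_fibreT_mem_chart (S : Set ↥(FL L N)) {t : ↥(FL L N)} (ht : t ∈ S) :
    t ∈ chart W N S := by
  rw [mem_chart_iff]
  have hb : t ∈ baseRing W N S := Subring.subset_closure (Or.inr ht)
  exact isIntegral_algebraMap (R := ↥(baseRing W N S)) (x := ⟨t, hb⟩)

/-- `ρ(j) = j̄`. -/
theorem cn_fibreT_red_j (ϖ : ↥W) (ρ : ↥(gaussV W res N) →+* LaurentSeries k)
    (hρ : IsGaussRed W res N ϖ ρ) (hV : jF L N ∈ gaussV W res N) :
    cn_red W res N ϖ ρ hρ ⟨jF L N, hV⟩ = jk k N := by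
  apply Subtype.ext
  rw [cn_red_coe, coe_jk]
  have hy : coeffMap W.subtype (jqModC ↥W) ∈ FL L N := by
    rw [coeffMap_jqModC]; exact jqModC_mem_FL L N
  have e : jF L N = ⟨coeffMap W.subtype (jqModC ↥W), hy⟩ :=
    Subtype.ext (coeffMap_jqModC _).symm
  have key : ∀ (z : ↥(FL L N)) (hz : z ∈ gaussV W res N),
      z = ⟨coeffMap W.subtype (jqModC ↥W), hy⟩ → ρ ⟨z, hz⟩ = jqModC k := by
    rintro z hz rfl
    rw [hρ.red (jqModC ↥W) hy hz, coeffMap_jqModC]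
  exact key _ hV e

/-- `ρ(j⁻¹) = j̄⁻¹`. -/
theorem cn_fibreT_red_jinv (ϖ : ↥W) (ρ : ↥(gaussV W res N) →+* LaurentSeries k)
    (hρ : IsGaussRed W res N ϖ ρ) (hV : jF L N ∈ gaussV W res N)
    (hV' : (jF L N)⁻¹ ∈ gaussV W res N) :
    cn_red W res N ϖ ρ hρ ⟨(jF L N)⁻¹, hV'⟩ = (jk k N)⁻¹ := by
  have h1 : (⟨(jF L N)⁻¹, hV'⟩ : ↥(gaussV W res N)) * ⟨jF L N, hV⟩ = 1 :=
    Subtype.ext (inv_mul_cancel₀ (cn_fibreT_jF_ne_zero L N))
  have h2 := congrArg (cn_red W res N ϖ ρ hρ) h1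
  rw [map_mul, map_one, cn_fibreT_red_j W res N ϖ ρ hρ hV] at h2
  exact eq_inv_of_mul_eq_one_left h2

end Datum

/-! ## The two directions -/

/-- (⟹) `P` and `r P` are compatible on `R = locSub (chart W N S) m` for chart data `(S, m)` of
`r P`. -/
theorem cn_fibreT_forward (hIC : InChartStatement) (hSC : SpecChartStatement)
    (N ℓ : ℕ) [NeZero N] [Fact ℓ.Prime] (hℓN : ¬ ℓ ∣ N) (A : ValuationSubring Qb)
    (hA : A.LiesOverPrime ℓ) (r : Place Qb ↥(FL Qb N) → Place (kA A) ↥(Fk (kA A) N))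
    (hr : Spec N ℓ A r) (L : Type) [Field L] [Algebra ℚ L] (ι : L →+* Qb)
    [IsDiscreteValuationRing ↥(dW A ι)] (ϖ : ↥(dW A ι))
    (hB : BaseData N ℓ (dW A ι) (dRes A ι) ϖ)
    (ρ : ↥(gaussV (dW A ι) (dRes A ι) N) →+* LaurentSeries (kA A))
    (hρ : IsGaussRed (dW A ι) (dRes A ι) N ϖ ρ) (S : Set ↥(FL L N))
    (m : Ideal ↥(chart (dW A ι) N S)) [m.IsMaximal] (P : Place Qb ↥(FL Qb N))
    (hC : cn_ChartAt (dW A ι) (dRes A ι) N ϖ ρ hρ S m (r P)) :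
    cn_Comp N A ι ϖ ρ hρ (locSub (chart (dW A ι) N S) m) P (r P) := by
  have : IsAlgClosed (kA A) := e_reduce_isAlgClosed A
  have : CharP (kA A) ℓ := e_reduce_charP ℓ A hA
  obtain ⟨hSC1, hSC2⟩ := hSC N ℓ hℓN A hA r hr P
  have hjk := cn_fibreT_jk_ne_zero (kA A) N
  -- `S` is the chart of `P`
  have hchart : IsChartOf N A S P := by
    rcases (hIC N A P).1 with h1 | h2
    · refine Or.inl ⟨?_, h1⟩
      rcases hC.rule with ⟨hS, _⟩ | ⟨_, hinv⟩
      · exact hS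
      · exact (cn_fibreT_not_both (r P) hjk (hSC1 h1) hinv).elim
    · refine Or.inr ⟨?_, h2⟩
      rcases hC.rule with ⟨_, hmem⟩ | ⟨hS, _⟩
      · exact (cn_fibreT_not_both (r P) hjk hmem (hSC2 h2)).elim
      · exact hS
  have hS : S = {jF L N} ∨ S = {(jF L N)⁻¹} ∨ S = {jF L N, (jF L N)⁻¹} := by
    rcases hchart with ⟨h, _⟩ | ⟨h, _⟩
    · exact Or.inl h
    · exact Or.inr (Or.inl h)
  have hle : chart (dW A ι) N S ≤ gaussV (dW A ι) (dRes A ι) N :=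
    (ga_chart N ℓ L (dW A ι) (kA A) (dRes A ι) ϖ hB S hS).1
  have hspec : SpecAt N A ι ρ S P (r P) := hr L ι ϖ hB ρ hρ P S hchart
  intro x hx
  obtain ⟨a, s, hs, hxs⟩ := (mem_locSub_iff _ _ _).1 hx
  obtain ⟨ca, hca, hca'⟩ := hspec a a.2 (hle a.2) ((hρ.range _).2 ⟨_, rfl⟩)
  obtain ⟨cs, hcs, hcs'⟩ := hspec s s.2 (hle s.2) ((hρ.range _).2 ⟨_, rfl⟩)
  have hca'' : HasValue (r P) (cn_red (dW A ι) (dRes A ι) N ϖ ρ hρ ⟨a, hle a.2⟩)
      (IsLocalRing.residue ↥A ca) := hca'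
  have hcs'' : HasValue (r P) (cn_red (dW A ι) (dRes A ι) N ϖ ρ hρ ⟨s, hle s.2⟩)
      (IsLocalRing.residue ↥A cs) := hcs'
  -- `s` is a unit of `R`
  have hs0 : (s : ↥(FL L N)) ≠ 0 := by
    intro h0
    apply hs
    have e : s = 0 := Subtype.ext h0
    rw [e]; exact m.zero_mem
  have hnu : cn_red (dW A ι) (dRes A ι) N ϖ ρ hρ ⟨s, hle s.2⟩ ∉
      (r P).toValuationSubring.nonunits := by
    rw [hC.nonunits ⟨s, hle s.2⟩ (le_locSub _ _ s.2), not_not]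
    refine ⟨(s : ↥(FL L N))⁻¹, (mem_locSub_iff _ _ _).2 ⟨1, s, hs, ?_⟩, mul_inv_cancel₀ hs0⟩
    rw [inv_mul_cancel₀ hs0]; rfl
  have hres : IsLocalRing.residue ↥A cs ≠ 0 := by
    intro h0
    rw [h0] at hcs''
    exact hnu (hv_zero_iff.1 hcs'')
  have hunit : IsUnit cs := by
    by_contra hnu'
    exact hres ((IsLocalRing.residue_eq_zero_iff _).2 ((IsLocalRing.mem_maximalIdeal _).2 hnu'))
  obtain ⟨u, rfl⟩ := hunit
  have hu1 : (((↑u⁻¹ : ↥A) : Qb)) * ((u : ↥A) : Qb) = 1 := by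
    have h : (↑u⁻¹ : ↥A) * (u : ↥A) = 1 := u.inv_mul
    exact congrArg Subtype.val h
  have hu0 : ((u : ↥A) : Qb) ≠ 0 := right_ne_zero_of_mul_eq_one hu1
  have huinv : (((↑u⁻¹ : ↥A) : Qb)) = ((u : ↥A) : Qb)⁻¹ := eq_inv_of_mul_eq_one_left hu1
  refine ⟨ca * ↑u⁻¹, ?_, ?_⟩
  · have h := cn_fibreT_hv_div (x := dEmb N ι (x : ↥(FL L N))) hca hcs hu0
      (by rw [← map_mul, hxs])
    have e : ((ca * ↑u⁻¹ : ↥A) : Qb) = (ca : Qb) * ((u : ↥A) : Qb)⁻¹ := by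
      rw [← huinv]; rfl
    rw [e]; exact h
  · have hmul : x * ⟨s, hle s.2⟩ = (⟨a, hle a.2⟩ : ↥(gaussV (dW A ι) (dRes A ι) N)) :=
      Subtype.ext hxs
    have h := cn_fibreT_hv_div (x := cn_red (dW A ι) (dRes A ι) N ϖ ρ hρ x) hca'' hcs'' hres
      (by rw [← map_mul, hmul])
    rw [map_mul, map_units_inv]
    exact h

/-- (⟸) A place `P` compatible with `Q` on `R` is mapped to `Q`. -/
theorem cn_fibreT_backward (hSU : SpecUniqueStatement)
    (N ℓ : ℕ) [NeZero N] [Fact ℓ.Prime] (hℓN : ¬ ℓ ∣ N) (A : ValuationSubring Qb)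
    (hA : A.LiesOverPrime ℓ) (r : Place Qb ↥(FL Qb N) → Place (kA A) ↥(Fk (kA A) N))
    (hr : Spec N ℓ A r) (L : Type) [Field L] [Algebra ℚ L] (ι : L →+* Qb)
    [IsDiscreteValuationRing ↥(dW A ι)] (ϖ : ↥(dW A ι))
    (hB : BaseData N ℓ (dW A ι) (dRes A ι) ϖ) (hH : HorizAt L N)
    (ρ : ↥(gaussV (dW A ι) (dRes A ι) N) →+* LaurentSeries (kA A))
    (hρ : IsGaussRed (dW A ι) (dRes A ι) N ϖ ρ) (Q : Place (kA A) ↥(Fk (kA A) N))
    (S : Set ↥(FL L N)) (m : Ideal ↥(chart (dW A ι) N S)) [m.IsMaximal]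
    (hC : cn_ChartAt (dW A ι) (dRes A ι) N ϖ ρ hρ S m Q) (P : Place Qb ↥(FL Qb N))
    (hcomp : cn_Comp N A ι ϖ ρ hρ (locSub (chart (dW A ι) N S) m) P Q) : r P = Q := by
  have : IsAlgClosed (kA A) := e_reduce_isAlgClosed A
  have : CharP (kA A) ℓ := e_reduce_charP ℓ A hA
  have hS : S = {jF L N} ∨ S = {(jF L N)⁻¹} ∨ S = {jF L N, (jF L N)⁻¹} :=
    hC.rule.elim (fun h => Or.inl h.1) (fun h => Or.inr (Or.inl h.1))
  have hle1 : chart (dW A ι) N {jF L N} ≤ gaussV (dW A ι) (dRes A ι) N :=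
    (ga_chart N ℓ L (dW A ι) (kA A) (dRes A ι) ϖ hB _ (Or.inl rfl)).1
  have hle : chart (dW A ι) N S ≤ gaussV (dW A ι) (dRes A ι) N :=
    (ga_chart N ℓ L (dW A ι) (kA A) (dRes A ι) ϖ hB S hS).1
  have hjV : jF L N ∈ gaussV (dW A ι) (dRes A ι) N :=
    hle1 (cn_fibreT_mem_chart _ _ _ (Set.mem_singleton _))
  have hspecQ : SpecAt N A ι ρ S P Q := by
    intro g hg hV hk
    exact hcomp ⟨g, hV⟩ (le_locSub _ _ hg)
  have hchart : IsChartOf N A S P := by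
    rcases hC.rule with ⟨hS1, _⟩ | ⟨hS2, hinv⟩
    · refine Or.inl ⟨hS1, ?_⟩
      have hg : jF L N ∈ chart (dW A ι) N S :=
        cn_fibreT_mem_chart _ _ _ (by rw [hS1]; exact Set.mem_singleton _)
      obtain ⟨c, hc, _⟩ := hcomp ⟨jF L N, hjV⟩ (le_locSub _ _ hg)
      have hc2 : HasValue P (dEmb N ι (jF L N)) (c : Qb) := hc
      rw [dEmb_jF] at hc2
      exact ⟨c, c.2, hc2⟩
    · refine Or.inr ⟨hS2, ?_⟩
      have hg : (jF L N)⁻¹ ∈ chart (dW A ι) N S :=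
        cn_fibreT_mem_chart _ _ _ (by rw [hS2]; exact Set.mem_singleton _)
      obtain ⟨c, hc, hc'⟩ := hcomp ⟨(jF L N)⁻¹, hle hg⟩ (le_locSub _ _ hg)
      rw [cn_fibreT_red_jinv (dW A ι) (dRes A ι) N ϖ ρ hρ hjV (hle hg)] at hc'
      have h0 : IsLocalRing.residue ↥A c = 0 := hv_unique hc' (hv_zero_iff.2 hinv)
      have hcm : c ∈ IsLocalRing.maximalIdeal ↥A := (IsLocalRing.residue_eq_zero_iff _).1 h0
      have hc2 : HasValue P (dEmb N ι (jF L N)⁻¹) (c : Qb) := hc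
      rw [map_inv₀, dEmb_jF] at hc2
      exact ⟨c, (ValuationSubring.coe_mem_nonunits_iff).2 hcm, hc2⟩
  exact hSU N ℓ hℓN A hA L ι ϖ hB hH ρ hρ P S hchart (r P) Q
    (hr L ι ϖ hB ρ hρ P S hchart) hspecQ

/-! ## Main theorem -/

/-- (Fibre) The fibre of `r` over `Q`. -/
theorem cn_fibreT_main :
    InChartStatement → SpecUniqueStatement → SpecChartStatement → cn_FibreStatement := by
  intro hIC hSU hSC N ℓ _ _ hℓN A hA r hr L _ _ ι _ ϖ hB hH ρ hρ Q S m _ hC P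
  constructor
  · intro h
    subst h
    exact cn_fibreT_forward hIC hSC N ℓ hℓN A hA r hr L ι ϖ hB ρ hρ S m P hC
  · intro hcomp
    exact cn_fibreT_backward hSU N ℓ hℓN A hA r hr L ι ϖ hB hH ρ hρ Q S m hC P hcomp

end

end Fermat.Agent.S37
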