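/-
S37, block CN, package IPR (twin T): every reduction map of places `r` satisfying `Spec` is a place
reduction in the sense of the prelude (`IsPlaceReductionAlong`), given the degree statements, the
existence of data, rationality of places and the local count.
-/
import Fermat.Agent.S37.CNInterfaces
import Fermat.Agent.S18.GAMainGauss
import Fermat.Agent.S18.ECoreT

set_option autoImplicit false

open ModularCurve AlgebraicCurve

namespace Fermat.Agent.S37

open Fermat.Agent.S18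

noncomputable section

/-- The reduction through a datum `(L, ι)` of a descended series agrees with the reduction of the
original series. -/
theorem cn_iprT_red (A : ValuationSubring Qb) {L : Type} [Field L] (ι : L →+* Qb)
    (yW : LaurentSeries ↥(dW A ι)) (y : LaurentSeries ↥A)
    (h : coeffMap ι (coeffMap (dW A ι).subtype yW) = coeffMap A.subtype y) :
    coeffMap (dRes A ι) yW = coeffMap (IsLocalRing.residue ↥A) y := by
  ext n
  rw [coeffMap_coeff, coeffMap_coeff]
  have h1 : ι ((yW.coeff n : ↥(dW A ι)) : L) = ((y.coeff n : ↥A) : Qb) :=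
    congrArg (fun z => z.coeff n) h
  have h2 : dIncl A ι (yW.coeff n) = y.coeff n := Subtype.ext h1
  rw [dRes_apply, h2]

set_option synthInstance.maxHeartbeats 400000 in
open Classical in
/-- The count at a fixed datum over which the series `y` is defined and the places of `T` are
rational. -/
theorem cn_iprT_datum (hCount : cn_CountStatement) (N ℓ : ℕ) [NeZero N] [Fact ℓ.Prime]
    (hℓN : ¬ ℓ ∣ N) (A : ValuationSubring Qb) (hA : A.LiesOverPrime ℓ)
    [IsAlgClosed (kA A)] [CharP (kA A) ℓ]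
    (r : Place Qb ↥(FL Qb N) → Place (kA A) ↥(Fk (kA A) N)) (hr : Spec N ℓ A r)
    (L : Type) [Field L] [Algebra ℚ L] (ι : L →+* Qb) [IsDiscreteValuationRing ↥(dW A ι)]
    (ϖ : ↥(dW A ι)) (hBD : BaseData N ℓ (dW A ι) (dRes A ι) ϖ) (hHoriz : HorizAt L N)
    (ρ : ↥(gaussV (dW A ι) (dRes A ι) N) →+* LaurentSeries (kA A))
    (hρ : IsGaussRed (dW A ι) (dRes A ι) N ϖ ρ)
    (y : LaurentSeries ↥A) (hy : coeffMap A.subtype y ∈ FL Qb N)
    (hyk : coeffMap (IsLocalRing.residue ↥A) y ∈ Fk (kA A) N)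
    (hne : coeffMap (IsLocalRing.residue ↥A) y ≠ 0)
    (yL : LaurentSeries L) (hyL : yL ∈ FL L N) (hyLy : coeffMap ι yL = coeffMap A.subtype y)
    (T : Finset (Place Qb ↥(FL Qb N)))
    (hT : ∀ P : Place Qb ↥(FL Qb N),
      P.ord (⟨coeffMap A.subtype y, hy⟩ : ↥(FL Qb N)) ≠ 0 → P ∈ T)
    (hrat : ∀ P ∈ T, cn_RatAt N ι P) (Q : Place (kA A) ↥(Fk (kA A) N)) :
    (∑ P ∈ T, if r P = Q then P.ord (⟨coeffMap A.subtype y, hy⟩ : ↥(FL Qb N)) else 0) =
      Q.ord (⟨coeffMap (IsLocalRing.residue ↥A) y, hyk⟩ : ↥(Fk (kA A) N)) := by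
  obtain ⟨yW, hyW⟩ := e_coreT_lift ι A yL y hyLy
  subst hyW
  have hV := (ga_gauss N ℓ L (dW A ι) (kA A) (dRes A ι) ϖ hBD).1 yW hyL
  have hemb : dEmb N ι (⟨coeffMap (dW A ι).subtype yW, hyL⟩ : ↥(FL L N)) =
      (⟨coeffMap A.subtype y, hy⟩ : ↥(FL Qb N)) := Subtype.ext hyLy
  have hred : cn_red (dW A ι) (dRes A ι) N ϖ ρ hρ ⟨⟨coeffMap (dW A ι).subtype yW, hyL⟩, hV⟩ =
      (⟨coeffMap (IsLocalRing.residue ↥A) y, hyk⟩ : ↥(Fk (kA A) N)) :=
    Subtype.ext ((hρ.red yW hyL hV).trans (cn_iprT_red A ι yW y hyLy))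
  have key := hCount N ℓ hℓN A hA r hr L ι ϖ hBD hHoriz ρ hρ
    ⟨⟨coeffMap (dW A ι).subtype yW, hyL⟩, hV⟩
    (by
      rw [hred]
      intro h
      exact hne (congrArg Subtype.val h))
    T
    (by
      intro P hP
      rw [hemb] at hP
      exact hT P hP)
    (fun P hP _ => hrat P hP) Q
  rw [hemb, hred] at key
  exact key

set_option synthInstance.maxHeartbeats 400000 in
theorem cn_iprT_main : DegQStatement → DegKStatement → DatumExistsStatement → cn_RatStatement →
    cn_CountStatement → cn_IPRStatement := by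
  intro hDegQ hDegK hDatum hRat hCount N ℓ _ _ hℓN A hA r hr
  obtain ⟨hAC, hCh, hDat⟩ := hDatum N ℓ hℓN A hA
  have := hAC
  have := hCh
  refine ⟨fun P => ?_, ?_⟩
  · rw [hDegQ N P, hDegK N ℓ hℓN (kA A) (r P)]
  · intro y hy hyk hne D hD Q
    classical
    choose SP hSP using hRat N
    obtain ⟨Sy, hSy⟩ := e_descentT_main N _ hy
    obtain ⟨L, iF, iA, ι, iDVR, ϖ, hBD, hHoriz, hT0, ρ, hρ⟩ :=
      hDat (Sy ∪ D.support.biUnion SP)
    obtain ⟨yL, hyL, hyLy⟩ := hSy L ι (fun s hs => hT0 s (Finset.mem_union_left _ hs))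
    have key := cn_iprT_datum hCount N ℓ hℓN A hA r hr L ι ϖ hBD hHoriz ρ hρ y hy hyk hne yL hyL
      hyLy D.support
      (fun P hP => Finsupp.mem_support_iff.2 (by rw [hD]; exact hP))
      (fun P hP => hSP P L ι (fun s hs =>
        hT0 s (Finset.mem_union_right _ (Finset.mem_biUnion.2 ⟨P, hP, hs⟩)))) Q
    rw [← key, Finsupp.mapDomain, Finsupp.sum, Finsupp.finsetSum_apply]
    refine Finset.sum_congr rfl fun P _ => ?_
    rw [Finsupp.single_apply, hD]

end

end Fermat.Agent.S37
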