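/-
S37, block CN, package Loc (helper500): local data of the localised charts
`locSub (chart W N S) m` — assembly of landed S18 results (Gauss valuation ring, chart
saturation, finiteness, smoothness, LocalUFD, LSFact with `y = 1`).  Prefix `cn_loc_`.
-/
import Fermat.Agent.S37.CNInterfaces
import Fermat.Agent.S18.EEGMainA
import Fermat.Agent.S18.EEGMainB
import Fermat.Agent.S18.EEGMainB3
import Fermat.Agent.S18.GAMainGauss
import Fermat.Agent.S18.GAMainChart
import Fermat.Agent.S18.GAMainFin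
import Fermat.Agent.S18.SmMain
import Fermat.Agent.S18.ELocalUFD
import Fermat.Agent.S18.ELSFactT
import Fermat.Agent.S18.EUFDLocT
import Fermat.Agent.S18.EUFDPowT
import Fermat.Agent.S18.EIntFinT

set_option autoImplicit false

open ModularCurve AlgebraicCurve

namespace Fermat.Agent.S37

open Fermat.Agent.S18

/-- Abstract form: local data of `locSub A m` from the Gauss data, saturation and smoothness. -/
theorem cn_loc_abstract {F : Type} [Field F] (ϖ : F) (V A : Subring F) (hV : e_egmain_VData V ϖ)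
    (hAV : A ≤ V) (hsatA : ∀ x ∈ A, ϖ⁻¹ * x ∈ V → ϖ⁻¹ * x ∈ A) (hNoe : IsNoetherianRing ↥A)
    (hFrac : e_IsFrac A)
    (hSm : ∀ (m : Ideal ↥A) [m.IsMaximal] (ϖc : ↥A), (ϖc : F) = ϖ → ϖc ∈ m →
      IsDVRQuot (Localization.AtPrime m) (algebraMap ↥A (Localization.AtPrime m) ϖc))
    (hϖ : ϖ ∈ A) (m : Ideal ↥A) [m.IsMaximal] (hm : (⟨ϖ, hϖ⟩ : ↥A) ∈ m) :
    cn_LocData V (locSub A m) ϖ := by
  obtain ⟨hle, hsat, hloc, hnoeth, hfrac, hdvr⟩ :=
    e_egmainB3_main F ϖ V A hV hAV hsatA hNoe hFrac hSm hϖ m hm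
  have hmem : ϖ ∈ locSub A m := le_locSub A m hϖ
  have := hloc
  have := hnoeth
  have hmax : (⟨ϖ, hmem⟩ : ↥(locSub A m)) ∈ IsLocalRing.maximalIdeal ↥(locSub A m) := by
    rw [IsLocalRing.mem_maximalIdeal, mem_nonunits_iff]
    intro hu
    obtain ⟨v, hv⟩ := hu.exists_right_inv
    have h1 : ϖ * (v : F) = 1 := congrArg Subtype.val hv
    apply hV.inv_not_mem
    rw [inv_eq_of_mul_eq_one_right h1]
    exact hle v.2
  obtain ⟨hufd, hprime⟩ := e_localufd_main ↥(locSub A m) ⟨ϖ, hmem⟩ hmax hdvr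
  have hne : (⟨ϖ, hmem⟩ : ↥(locSub A m)) ≠ 0 := fun h => hV.ne_zero (congrArg Subtype.val h)
  obtain ⟨hclosed, -, hlocz⟩ := e_lsfactT_main e_localufd_main e_ufdlocT_main e_ufdpowT_main
    F 2 1 ϖ V (locSub A m) Nat.prime_two one_ne_zero hV.total hV.ne_zero hV.inv_not_mem hV.max
    hle hmem hsat hloc hnoeth hfrac hdvr V.one_mem (by rw [inv_one]; exact V.one_mem)
    (fun O _ _ _ _ => ⟨1, one_ne_zero, by rw [one_pow, mul_one]; exact O.one_mem,
      by rw [one_pow, mul_one, inv_one]; exact O.one_mem⟩)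
  exact ⟨hV, hle, hmem, hsat, hloc, hnoeth, hfrac, hdvr, hufd, hprime hne, hclosed, hlocz⟩

/-- (Loc) local data of the localised charts. -/
theorem cn_loc_main : cn_LocStatement := by
  intro N _ ℓ _ L _ _ W _ k _ _ _ res ϖ hBD hHoriz S hS m _ hm
  obtain ⟨hV, -⟩ := e_egmainA_main ga_gauss N ℓ L W k res ϖ hBD
  obtain ⟨hcV, hcG⟩ := ga_chart N ℓ L W k res ϖ hBD S
    (hS.elim Or.inl (fun h => Or.inr (Or.inl h)))
  obtain ⟨hNoe, hFrac⟩ := e_egmainB_main ga_fin e_intfinT_main N L W S hS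
  have hSm : SmAt N W ϖ := sm_main N ℓ L W k res ϖ hBD hHoriz
  have hϖc : cW W N ϖ ∈ chart W N S :=
    isIntegral_algebraMap (R := ↥(baseRing W N S)) (A := ↥(FL L N))
      (x := ⟨cW W N ϖ, Subring.subset_closure (Or.inl ⟨ϖ, rfl⟩)⟩)
  exact cn_loc_abstract (cW W N ϖ) (gaussV W res N) (chart W N S) hV hcV hcG hNoe hFrac
    (fun m' _ ϖc h1 h2 => hSm S hS m' ϖc h1 h2) hϖc m (hm ⟨_, hϖc⟩ rfl)

end Fermat.Agent.S37
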