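/-
S37, block CN — package Local (the rational centre).  A rational place `P` of `F` centred at a
height-one prime `(g)` of `R = locSub (chart W N S) m`: `ρ'(g)` is a uniformiser at `Q`, `P` and `Q`
are compatible on `R`, and `P` is the only place of `F` regular on `R` at which `g` vanishes.
Deliverable: `cn_local_main`.  The steps are first proved for abstract fields and then instantiated.
-/
import Fermat.Agent.S37.CNInterfaces
import Fermat.Agent.S37.HV
import Fermat.Agent.S18.EReduce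
import Fermat.Agent.S28.DegMainAux

set_option autoImplicit false

open ModularCurve AlgebraicCurve

namespace Fermat.Agent.S37

open Fermat.Agent.S18

/-! ## Abstract steps -/

/-- Step 1: evaluation at `P` lands in `W`; every `x ∈ R` is a constant from `W` modulo `g`. -/
theorem cn_local_step1 {K F E L : Type} [Field K] [Field F] [Algebra K F] [Field E] [Field L]
    (ι : L →+* K) (φ : E →+* F) (cE : L →+* E) (hφc : ∀ c : L, φ (cE c) = algebraMap K F (ι c))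
    (W : ValuationSubring L) (ϖ : ↥W)
    (hW : ∀ w : ↥W, (∃ w' : ↥W, w = ϖ * w') ∨ (∃ w' : ↥W, w * w' = 1))
    (R : Subring E) (hloc : IsLocalRing ↥R) (hcR : ∀ w : ↥W, cE (w : L) ∈ R)
    (ϖR g : ↥R) (hϖR : (ϖR : E) = cE (ϖ : L)) (hϖnu : ¬ IsUnit ϖR) (hg : Prime g)
    (P : Place K F)
    (h2 : ∀ x : ↥R, φ (x : E) ∈ P.toValuationSubring.nonunits ↔ g ∣ x)
    (h3 : ∀ x : ↥R, ∃ c : L, HasValue P (φ (x : E)) (ι c)) (x : ↥R) :
    ∃ (w : ↥W) (a : ↥R), HasValue P (φ (x : E)) (ι (w : L)) ∧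
      x = ⟨cE (w : L), hcR w⟩ + g * a := by
  obtain ⟨c, hc⟩ := h3 x
  have hcW : c ∈ W := by
    by_contra hcW
    have hc0 : c ≠ 0 := fun h => hcW (h ▸ W.zero_mem)
    have hci : c⁻¹ ∈ W := (W.mem_or_inv_mem c).resolve_left hcW
    rcases hW ⟨c⁻¹, hci⟩ with ⟨w', hw'⟩ | ⟨w', hw'⟩
    · have hw'L : c⁻¹ = (ϖ : L) * (w' : L) := congrArg Subtype.val hw'
      have hzE : ((x * ϖR * ⟨cE (w' : L), hcR w'⟩ - 1 : ↥R) : E)
          = (x : E) * cE (ϖ : L) * cE (w' : L) - 1 := by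
        rw [← hϖR]; rfl
      have hzv : HasValue P (φ ((x * ϖR * ⟨cE (w' : L), hcR w'⟩ - 1 : ↥R) : E)) 0 := by
        have h1 : HasValue P (φ ((x : E) * cE (ϖ : L) * cE (w' : L) - 1))
            (ι c * ι (ϖ : L) * ι (w' : L) - 1) := by
          rw [map_sub, map_mul, map_mul, map_one, hφc, hφc]
          exact hv_sub (hv_mul (hv_mul hc (hv_algebraMap P _)) (hv_algebraMap P _)) (hv_one P)
        have h2' : ι c * ι (ϖ : L) * ι (w' : L) - 1 = 0 := by
          rw [mul_assoc, ← map_mul, ← map_mul, ← hw'L, mul_inv_cancel₀ hc0, map_one, sub_self]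
        rw [h2'] at h1
        rwa [hzE]
      have hgz : g ∣ x * ϖR * ⟨cE (w' : L), hcR w'⟩ - 1 := (h2 _).1 (hv_zero_iff.1 hzv)
      have hzu : IsUnit (x * ϖR * ⟨cE (w' : L), hcR w'⟩ - 1) := by
        have hnu : x * ϖR * ⟨cE (w' : L), hcR w'⟩ ∈ nonunits ↥R := by
          intro hu
          exact hϖnu (isUnit_of_mul_isUnit_right (isUnit_of_mul_isUnit_left hu))
        have := IsLocalRing.isUnit_one_sub_self_of_mem_nonunits _ hnu
        rw [← neg_sub]
        exact this.neg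
      exact hg.not_isUnit (isUnit_of_dvd_unit hgz hzu)
    · apply hcW
      have hw'L : c⁻¹ * (w' : L) = 1 := congrArg Subtype.val hw'
      have hwc : (w' : L) = c := by
        rw [← mul_one c, ← hw'L, ← mul_assoc, mul_inv_cancel₀ hc0, one_mul]
      rw [← hwc]
      exact w'.2
  have hv0 : HasValue P (φ ((x : E) - cE c)) 0 := by
    rw [map_sub, hφc]
    have := hv_sub hc (hv_algebraMap P (ι c))
    rwa [sub_self] at this
  have hd : g ∣ x - ⟨cE c, hcR ⟨c, hcW⟩⟩ := (h2 _).1 (hv_zero_iff.1 hv0)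
  obtain ⟨a, ha⟩ := hd
  exact ⟨⟨c, hcW⟩, a, hc, by rw [← ha]; ring⟩

/-- Step 2: the maximal ideal of `R` is `(ϖ, g)`. -/
theorem cn_local_step2 {E L : Type} [Field E] [Field L] (cE : L →+* E)
    (W : ValuationSubring L) (ϖ : ↥W)
    (hW : ∀ w : ↥W, (∃ w' : ↥W, w = ϖ * w') ∨ (∃ w' : ↥W, w * w' = 1))
    (R : Subring E) (hloc : IsLocalRing ↥R) (hcR : ∀ w : ↥W, cE (w : L) ∈ R)
    (ϖR g : ↥R) (hϖR : (ϖR : E) = cE (ϖ : L)) (hg : Prime g)
    (step1 : ∀ x : ↥R, ∃ (w : ↥W) (a : ↥R), x = ⟨cE (w : L), hcR w⟩ + g * a)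
    (x : ↥R) (hx : ¬ IsUnit x) : ∃ a b : ↥R, x = ϖR * b + g * a := by
  obtain ⟨w, a, hxa⟩ := step1 x
  rcases hW w with ⟨w', hw'⟩ | ⟨w', hw'⟩
  · refine ⟨a, ⟨cE (w' : L), hcR w'⟩, ?_⟩
    rw [hxa]
    congr 1
    apply Subtype.ext
    show cE (w : L) = (ϖR : E) * cE (w' : L)
    rw [hϖR, hw', ← map_mul]
    rfl
  · exfalso
    apply hx
    have hu : IsUnit (⟨cE (w : L), hcR w⟩ : ↥R) := by
      refine IsUnit.of_mul_eq_one ⟨cE (w' : L), hcR w'⟩ (Subtype.ext ?_)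
      show cE (w : L) * cE (w' : L) = 1
      rw [← map_mul, show (w : L) * (w' : L) = 1 from congrArg Subtype.val hw', map_one]
    have hga : g * a ∈ nonunits ↥R := fun h => hg.not_isUnit (isUnit_of_mul_isUnit_left h)
    by_contra hnu
    have h1 : x + -(g * a) ∈ nonunits ↥R :=
      IsLocalRing.nonunits_add hnu (by rwa [mem_nonunits_iff, IsUnit.neg_iff])
    have h2 : x + -(g * a) = ⟨cE (w : L), hcR w⟩ := by rw [hxa]; ring
    rw [h2] at h1
    exact h1 hu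

/-- Units of `R` and non-units of `O_Q`. -/
theorem cn_local_nonunits {k Fk E : Type} [Field k] [Field Fk] [Algebra k Fk] [Field E]
    (Q : Place k Fk) (V R : Subring E) (hRV : R ≤ V) (ρ' : ↥V →+* Fk)
    (hnon : ∀ x : ↥V, (x : E) ∈ R →
      (ρ' x ∈ Q.toValuationSubring.nonunits ↔ ¬ ∃ h ∈ R, (x : E) * h = 1)) (x : ↥R) :
    ρ' (Subring.inclusion hRV x) ∈ Q.toValuationSubring.nonunits ↔ ¬ IsUnit x := by
  rw [hnon _ x.2]
  constructor
  · intro h hu
    obtain ⟨y, hy⟩ := hu.exists_right_inv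
    exact h ⟨y, y.2, congrArg Subtype.val hy⟩
  · rintro h ⟨y, hy, hxy⟩
    exact h (IsUnit.of_mul_eq_one ⟨y, hy⟩ (Subtype.ext hxy))

/-- Step 3: `ρ'(g)` is a uniformiser at `Q`. -/
theorem cn_local_ord {k Fk E : Type} [Field k] [Field Fk] [Algebra k Fk] [Field E]
    (Q : Place k Fk) (V R : Subring E) (hRV : R ≤ V) (ρ' : ↥V →+* Fk)
    (hring : ∀ z : Fk, z ∈ Q.toValuationSubring ↔ ∃ x : ↥V, (x : E) ∈ R ∧ ρ' x = z)
    (hnon : ∀ x : ↥V, (x : E) ∈ R →
      (ρ' x ∈ Q.toValuationSubring.nonunits ↔ ¬ ∃ h ∈ R, (x : E) * h = 1))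
    (ϖR g : ↥R) (hϖ0 : ρ' (Subring.inclusion hRV ϖR) = 0) (hgnu : ¬ IsUnit g)
    (hm : ∀ x : ↥R, ¬ IsUnit x → ∃ a b : ↥R, x = ϖR * b + g * a) :
    Q.ord (ρ' (Subring.inclusion hRV g)) = 1 := by
  have hmemO : ∀ x : ↥R, ρ' (Subring.inclusion hRV x) ∈ Q.toValuationSubring :=
    fun x => (hring _).2 ⟨Subring.inclusion hRV x, x.2, rfl⟩
  have hunit := cn_local_nonunits Q V R hRV ρ' hnon
  have hgm : ρ' (Subring.inclusion hRV g) ∈ Q.toValuationSubring.nonunits := (hunit g).2 hgnu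
  have hmax : IsLocalRing.maximalIdeal ↥Q.toValuationSubring
      = Ideal.span {(⟨ρ' (Subring.inclusion hRV g), hmemO g⟩ : ↥Q.toValuationSubring)} := by
    apply le_antisymm
    · intro z hz
      have hz' : (z : Fk) ∈ Q.toValuationSubring.nonunits :=
        ValuationSubring.mem_nonunits_iff_exists_mem_maximalIdeal.2 ⟨z.2, hz⟩
      obtain ⟨x, hxR, hxz⟩ := (hring (z : Fk)).1 z.2
      have hxx : Subring.inclusion hRV (⟨(x : E), hxR⟩ : ↥R) = x := Subtype.ext rfl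
      have hxnu : ¬ IsUnit (⟨(x : E), hxR⟩ : ↥R) := (hunit _).1 (by rw [hxx, hxz]; exact hz')
      obtain ⟨a, b, hab⟩ := hm _ hxnu
      rw [Ideal.mem_span_singleton']
      refine ⟨⟨ρ' (Subring.inclusion hRV a), hmemO a⟩, Subtype.ext ?_⟩
      show ρ' (Subring.inclusion hRV a) * ρ' (Subring.inclusion hRV g) = (z : Fk)
      rw [← hxz, ← hxx, hab, map_add, map_mul, map_mul, map_add, map_mul, map_mul, hϖ0, zero_mul,
        zero_add, mul_comm]
    · rw [Ideal.span_singleton_le_iff_mem]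
      obtain ⟨ha, hmem⟩ := ValuationSubring.mem_nonunits_iff_exists_mem_maximalIdeal.1 hgm
      exact hmem
  have hirr : Irreducible (⟨ρ' (Subring.inclusion hRV g), hmemO g⟩ : ↥Q.toValuationSubring) :=
    (IsDiscreteValuationRing.irreducible_iff_uniformizer _).2 hmax
  exact Q.ord_coe_irreducible hirr

/-- Step 4: compatibility of `P` and `Q` on `R`. -/
theorem cn_local_comp {K F E L : Type} [Field K] [Field F] [Algebra K F] [Field E] [Field L]
    {k Fk : Type} [Field k] [Field Fk] [Algebra k Fk]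
    (ι : L →+* K) (φ : E →+* F) (cE : L →+* E) (W : ValuationSubring L)
    (V R : Subring E) (hRV : R ≤ V) (hcR : ∀ w : ↥W, cE (w : L) ∈ R) (g : ↥R)
    (P : Place K F) (Q : Place k Fk) (ρ' : ↥V →+* Fk)
    (step1 : ∀ x : ↥R, ∃ (w : ↥W) (a : ↥R), HasValue P (φ (x : E)) (ι (w : L)) ∧
      x = ⟨cE (w : L), hcR w⟩ + g * a)
    (resW : ↥W →+* k)
    (hρc : ∀ w : ↥W, ρ' (Subring.inclusion hRV ⟨cE (w : L), hcR w⟩) = algebraMap k Fk (resW w))
    (hring : ∀ z : Fk, z ∈ Q.toValuationSubring ↔ ∃ x : ↥V, (x : E) ∈ R ∧ ρ' x = z)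
    (hgm : ρ' (Subring.inclusion hRV g) ∈ Q.toValuationSubring.nonunits)
    (x : ↥V) (hx : (x : E) ∈ R) :
    ∃ w : ↥W, HasValue P (φ (x : E)) (ι (w : L)) ∧ HasValue Q (ρ' x) (resW w) := by
  obtain ⟨w, a, hv, hxa⟩ := step1 ⟨(x : E), hx⟩
  refine ⟨w, hv, ?_⟩
  have hxx : Subring.inclusion hRV (⟨(x : E), hx⟩ : ↥R) = x := Subtype.ext rfl
  have haO : ρ' (Subring.inclusion hRV a) ∈ Q.toValuationSubring :=
    (hring _).2 ⟨Subring.inclusion hRV a, a.2, rfl⟩
  unfold HasValue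
  rw [← hxx, hxa, map_add, map_mul, map_add, map_mul, hρc, add_sub_cancel_left]
  exact hv_nonunits_mul_mem Q hgm haO

/-- Step 5: uniqueness of the place centred at `(g)`. -/
theorem cn_local_uniq (hRU : cn_RatUniqStatement) {K F E L : Type} [Field K] [Field F]
    [Algebra K F] [Field E] [Field L]
    (ι : L →+* K) (φ : E →+* F) (cE : L →+* E) (hφc : ∀ c : L, φ (cE c) = algebraMap K F (ι c))
    (hspan : ∀ f : F, ∃ (n : ℕ) (lam : Fin n → K) (s : Fin n → E),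
      f = ∑ i, algebraMap K F (lam i) * φ (s i))
    (W : ValuationSubring L) (R : Subring E) (hcR : ∀ w : ↥W, cE (w : L) ∈ R)
    (hfrac : e_IsFrac R) (hufd : UniqueFactorizationMonoid ↥R)
    (g : ↥R) (hg : Prime g) (P : Place K F)
    (h1 : ∀ s : E, φ s ∈ P.toValuationSubring ↔ ∃ a b : ↥R, ¬ g ∣ b ∧ s * (b : E) = (a : E))
    (h2 : ∀ x : ↥R, φ (x : E) ∈ P.toValuationSubring.nonunits ↔ g ∣ x)
    (h3 : ∀ s : E, φ s ∈ P.toValuationSubring → ∃ c : L, HasValue P (φ s) (ι c))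
    (step1 : ∀ x : ↥R, ∃ (w : ↥W) (a : ↥R), x = ⟨cE (w : L), hcR w⟩ + g * a)
    (P' : Place K F) (hP'R : ∀ x : E, x ∈ R → φ x ∈ P'.toValuationSubring)
    (hP'g : φ (g : E) ∈ P'.toValuationSubring.nonunits) : P' = P := by
  have := hufd
  have hgE : (g : E) ≠ 0 := fun h => hg.ne_zero (Subtype.ext h)
  have hne : ∀ b : ↥R, ¬ g ∣ b → (b : E) ≠ 0 := by
    intro b hb h
    apply hb
    have : b = 0 := Subtype.ext h
    rw [this]
    exact dvd_zero g
  refine hRU K F E L ι φ cE hφc hspan P P' (g : E) ((h2 g).2 dvd_rfl) ?_ h3 ?_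
  · intro s hs
    obtain ⟨a, b, hb, hsb⟩ := hfrac s
    have hbE : (b : E) ≠ 0 := fun h => hb (Subtype.ext h)
    have ha : a ≠ 0 := by
      rintro rfl
      have : s * (b : E) = 0 := by rw [hsb]; rfl
      rcases mul_eq_zero.1 this with h | h
      · exact hs h
      · exact hbE h
    obtain ⟨i, a', ha', haa⟩ := WfDvdMonoid.max_power_factor ha hg.irreducible
    obtain ⟨j, b', hb', hbb⟩ := WfDvdMonoid.max_power_factor hb hg.irreducible
    have hb'E := hne b' hb'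
    have ha'E := hne a' ha'
    have e1 : (a : E) = (g : E) ^ i * (a' : E) := by rw [haa]; rfl
    have e2 : (b : E) = (g : E) ^ j * (b' : E) := by rw [hbb]; rfl
    refine ⟨(i : ℤ) - j, (a' : E) / (b' : E), ?_, ?_, ?_⟩
    · exact (h1 _).2 ⟨a', b', hb', div_mul_cancel₀ _ hb'E⟩
    · rw [inv_div]
      exact (h1 _).2 ⟨b', a', ha', div_mul_cancel₀ _ ha'E⟩
    · rw [zpow_sub₀ hgE, zpow_natCast, zpow_natCast, div_mul_div_comm,
        eq_div_iff (mul_ne_zero (pow_ne_zero _ hgE) hb'E), ← e1, ← e2]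
      exact hsb
  · intro s hs
    obtain ⟨a, b, hb, hsb⟩ := (h1 s).1 hs
    obtain ⟨w, a₁, hbw⟩ := step1 b
    have hw0 : (w : L) ≠ 0 := by
      intro h0
      apply hb
      refine ⟨a₁, ?_⟩
      rw [hbw]
      have : (⟨cE (w : L), hcR w⟩ : ↥R) = 0 := Subtype.ext (show cE (w : L) = 0 by rw [h0, map_zero])
      rw [this, zero_add]
    have hbv : HasValue P' (φ (b : E)) (ι (w : L)) := by
      unfold HasValue
      have : (b : E) = cE (w : L) + (g : E) * (a₁ : E) := by rw [hbw]; rfl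
      rw [this, map_add, map_mul, hφc, add_sub_cancel_left]
      exact hv_nonunits_mul_mem P' hP'g (hP'R _ a₁.2)
    have hbi : (φ (b : E))⁻¹ ∈ P'.toValuationSubring :=
      hv_mem (hv_inv hbv ((map_ne_zero ι).2 hw0))
    have hφb : φ (b : E) ≠ 0 := (map_ne_zero φ).2 (hne b hb)
    have hs' : φ s = φ (a : E) * (φ (b : E))⁻¹ := by
      rw [← hsb, map_mul, mul_assoc, mul_inv_cancel₀ hφb, mul_one]
    rw [hs']
    exact P'.toValuationSubring.mul_mem _ _ (hP'R _ a.2) hbi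

/-! ## Instantiation -/

section Concrete

set_option synthInstance.maxHeartbeats 400000

/-- The constants from `W` lie in every localisation of a chart. -/
theorem cn_local_const_mem {L : Type} [Field L] [Algebra ℚ L] (W : ValuationSubring L) (N : ℕ)
    (S : Set ↥(FL L N)) (m : Ideal ↥(chart W N S)) [m.IsPrime] (w : ↥W) :
    algebraMap L ↥(FL L N) (w : L) ∈ locSub (chart W N S) m := by
  apply le_locSub
  have hb : cW W N w ∈ baseRing W N S := Subring.subset_closure (Or.inl ⟨w, rfl⟩)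
  rw [mem_chart_iff]
  exact isIntegral_algebraMap (x := (⟨cW W N w, hb⟩ : ↥(baseRing W N S)))

/-- The reduction map on constants. -/
theorem cn_local_red_const {L : Type} [Field L] [Algebra ℚ L] (W : ValuationSubring L) {k : Type}
    [Field k] (res : ↥W →+* k) (N : ℕ) [NeZero N] (ϖ : ↥W)
    (ρ : ↥(gaussV W res N) →+* LaurentSeries k) (hρ : IsGaussRed W res N ϖ ρ) (w : ↥W)
    (x : ↥(gaussV W res N)) (hx : (x : ↥(FL L N)) = algebraMap L ↥(FL L N) (w : L)) :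
    cn_red W res N ϖ ρ hρ x = algebraMap k ↥(Fk k N) (res w) := by
  apply Subtype.ext
  rw [cn_red_coe]
  have key : ∀ (z : ↥(FL L N)) (hz : z ∈ gaussV W res N),
      (z : LaurentSeries L) = coeffMap W.subtype (HahnSeries.C w) →
      ρ ⟨z, hz⟩ = coeffMap res (HahnSeries.C w) := by
    intro z hz h
    obtain ⟨z, hzF⟩ := z
    change z = _ at h
    subst h
    exact hρ.red _ hzF hz
  have h1 : ((x : ↥(FL L N)) : LaurentSeries L) = coeffMap W.subtype (HahnSeries.C w) := by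
    rw [hx, Fermat.Agent.S28.degMain_coeffMap_C, ← Fermat.Agent.S28.degMain_algebraMap_eq_C]
    rfl
  have h2 := key (x : ↥(FL L N)) x.2 h1
  rw [show (⟨(x : ↥(FL L N)), x.2⟩ : ↥(gaussV W res N)) = x from rfl] at h2
  rw [h2, Fermat.Agent.S28.degMain_coeffMap_C, ← Fermat.Agent.S28.degMain_algebraMap_eq_C]
  rfl

theorem cn_local_main :
    cn_LocStatement → cn_RatUniqStatement → cn_SpanStatement → cn_LocalStatement := by
  intro hLocS hRU hSpan N ℓ _ _ hℓN A hA L _ _ ι _ ϖ hBD hHor ρ hρ Q S m _ hCA g ϖR hg hϖR hgϖ P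
    h1 h2 h3
  have : IsAlgClosed (kA A) := e_reduce_isAlgClosed A
  have : CharP (kA A) ℓ := e_reduce_charP ℓ A hA
  have hS : S = {jF L N} ∨ S = {(jF L N)⁻¹} :=
    hCA.rule.elim (fun h => Or.inl h.1) (fun h => Or.inr h.1)
  have hLoc := hLocS N ℓ L (dW A ι) (kA A) (dRes A ι) ϖ hBD hHor S hS m hCA.mem
  have hRV := hLoc.le
  have hloc : IsLocalRing ↥(locSub (chart (dW A ι) N S) m) := hLoc.isLocal
  have hW : ∀ w : ↥(dW A ι),
      (∃ w' : ↥(dW A ι), w = ϖ * w') ∨ (∃ w' : ↥(dW A ι), w * w' = 1) := by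
    intro w
    by_cases hw : w ∈ IsLocalRing.maximalIdeal ↥(dW A ι)
    · left
      rw [hBD.irreducible.maximalIdeal_eq, Ideal.mem_span_singleton'] at hw
      obtain ⟨a, ha⟩ := hw
      exact ⟨a, by rw [← ha, mul_comm]⟩
    · right
      have hu : IsUnit w := by
        by_contra h
        exact hw ((IsLocalRing.mem_maximalIdeal _).2 h)
      exact hu.exists_right_inv
  have hcR := cn_local_const_mem (dW A ι) N S m
  have hϖnu : ¬ IsUnit ϖR := by
    intro hu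
    obtain ⟨y, hy⟩ := hu.exists_right_inv
    apply hLoc.vdata.inv_not_mem
    have hy' : cW (dW A ι) N ϖ * (y : ↥(FL L N)) = 1 := by
      rw [← hϖR]
      exact congrArg Subtype.val hy
    rw [← eq_inv_of_mul_eq_one_right hy']
    exact hRV y.2
  have h1' : ∀ x : ↥(locSub (chart (dW A ι) N S) m),
      dEmb N ι (x : ↥(FL L N)) ∈ P.toValuationSubring := fun x =>
    (h1 x).2 ⟨x, 1, fun h => hg.not_isUnit (isUnit_of_dvd_one h), by simp⟩
  have step1 := cn_local_step1 ι (dEmb N ι) (algebraMap L ↥(FL L N)) (dEmb_algebraMap N ι)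
    (dW A ι) ϖ hW _ hloc hcR ϖR g hϖR hϖnu hg P h2 (fun x => h3 _ (h1' x))
  have step1' : ∀ x : ↥(locSub (chart (dW A ι) N S) m),
      ∃ (w : ↥(dW A ι)) (a : ↥(locSub (chart (dW A ι) N S) m)),
        x = ⟨algebraMap L ↥(FL L N) (w : L), hcR w⟩ + g * a := fun x => by
    obtain ⟨w, a, -, h⟩ := step1 x
    exact ⟨w, a, h⟩
  have step2 := cn_local_step2 (algebraMap L ↥(FL L N)) (dW A ι) ϖ hW _ hloc hcR ϖR g hϖR hg
    step1'
  have hϖ0 : cn_red (dW A ι) (dRes A ι) N ϖ ρ hρ (Subring.inclusion hRV ϖR) = 0 := by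
    apply Subtype.ext
    rw [cn_red_coe]
    show ρ _ = 0
    rw [hρ.ker]
    refine ⟨1, ?_⟩
    rw [show ((Subring.inclusion hRV ϖR : ↥(gaussV (dW A ι) (dRes A ι) N)) : ↥(FL L N))
      = (ϖR : ↥(FL L N)) from rfl, hϖR]
    simp
  refine ⟨?_, ?_, ?_⟩
  · intro gV hgV
    have hgV' : gV = Subring.inclusion hRV g := Subtype.ext hgV
    rw [hgV']
    exact cn_local_ord Q _ _ hRV (cn_red (dW A ι) (dRes A ι) N ϖ ρ hρ) hCA.ring hCA.nonunits
      ϖR g hϖ0 hg.not_isUnit step2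
  · intro x hx
    obtain ⟨w, hv1, hv2⟩ := cn_local_comp ι (dEmb N ι) (algebraMap L ↥(FL L N)) (dW A ι) _ _ hRV
      hcR g P Q (cn_red (dW A ι) (dRes A ι) N ϖ ρ hρ) step1 (dRes A ι)
      (fun w => cn_local_red_const _ _ N ϖ ρ hρ w _ rfl) hCA.ring
      ((cn_local_nonunits Q _ _ hRV _ hCA.nonunits g).2 hg.not_isUnit) x hx
    exact ⟨dIncl A ι w, hv1, hv2⟩
  · intro P' hP'R hP'g
    exact cn_local_uniq hRU ι (dEmb N ι) (algebraMap L ↥(FL L N)) (dEmb_algebraMap N ι)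
      (hSpan N L ι) (dW A ι) _ hcR hLoc.frac hLoc.ufd g hg P h1 h2 h3 step1' P' hP'R hP'g

end Concrete

end Fermat.Agent.S37
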