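/-
S37, block CN, package PGI (twin T): principal divisors of `F = F_Qb` are generated by the divisors
of `A`-integral functions with nonzero reduction (`cn_PGIStatement`).
-/
import Fermat.Agent.S37.CNInterfaces
import Fermat.Agent.S18.GAMainGauss
import Fermat.Agent.S18.EBaseRingT
import Fermat.Agent.S18.EUnramT
import Fermat.Agent.S18.EValFinT
import Fermat.Agent.S24.Places
import Fermat.Agent.S24.Zeros
import Fermat.Agent.S24.GalBPlaces

set_option autoImplicit false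

open ModularCurve AlgebraicCurve

namespace Fermat.Agent.S37

open Fermat.Agent.S18 Fermat.Agent.S28

noncomputable section

/-- Principal divisors of `F = F_Qb` have finite support. -/
theorem cn_pgiT_finite_support (N : ℕ) [NeZero N] (x : ↥(FL Qb N)) (hx : x ≠ 0) :
    {P : Place Qb ↥(FL Qb N) | P.ord x ≠ 0}.Finite := by
  obtain ⟨htr, hfin⟩ := ga_fin N Qb
  exact (Fermat.Agent.S24.Places.principalStatement Fermat.Agent.S24.Zeros.zerosStatement
    Fermat.Agent.S24.Zeros.polesStatement Qb ↥(FL Qb N) (jF Qb N) htr hfin x hx).1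

/-- The divisor of a nonzero function of `F`. -/
theorem cn_pgiT_exists_div (N : ℕ) [NeZero N] (x : ↥(FL Qb N)) (hx : x ≠ 0) :
    ∃ D : Divisor Qb ↥(FL Qb N), ∀ P, D P = P.ord x := by
  refine ⟨Finsupp.ofSupportFinite (fun P => P.ord x) (cn_pgiT_finite_support N x hx), ?_⟩
  intro P
  rfl

/-- The order of `c ^ n * a / b` for a nonzero constant `c`. -/
theorem cn_pgiT_ord_eq {K F : Type} [Field K] [Field F] [Algebra K F] (P : Place K F) (c : K)
    (hc : c ≠ 0) (n : ℤ) (a b : F) (ha : a ≠ 0) (hb : b ≠ 0) :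
    P.ord (algebraMap K F c ^ n * (a / b)) = P.ord a - P.ord b := by
  have hc' : algebraMap K F c ≠ 0 := (map_ne_zero _).mpr hc
  rw [P.ord_mul (zpow_ne_zero n hc') (div_ne_zero ha hb), P.ord_zpow,
    Fermat.Agent.S24.GalB.ord_algebraMap, mul_zero, zero_add,
    Fermat.Agent.S24.GalB.ord_div P ha hb]

/-- `W`-integral elements lie in `V`, and `ρ` is the coefficientwise reduction on them. -/
theorem cn_pgiT_red {L : Type} [Field L] [Algebra ℚ L] (W : ValuationSubring L) {k : Type}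
    [Field k] (res : ↥W →+* k) (N : ℕ) [NeZero N] (ϖ : ↥W)
    (ρ : ↥(gaussV W res N) →+* LaurentSeries k) (hρ : IsGaussRed W res N ϖ ρ)
    (hW : ∀ (y : LaurentSeries ↥W) (hy : coeffMap W.subtype y ∈ FL L N),
      (⟨coeffMap W.subtype y, hy⟩ : ↥(FL L N)) ∈ gaussV W res N)
    (x : ↥(FL L N)) (y : LaurentSeries ↥W)
    (hxy : coeffMap W.subtype y = (x : LaurentSeries L)) :
    ∃ hV : x ∈ gaussV W res N, ρ ⟨x, hV⟩ = coeffMap res y := by
  have hy : coeffMap W.subtype y ∈ FL L N := by rw [hxy]; exact x.2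
  obtain rfl : x = ⟨coeffMap W.subtype y, hy⟩ := Subtype.ext hxy.symm
  exact ⟨hW y hy, hρ.red y hy (hW y hy)⟩

section Concrete

set_option synthInstance.maxHeartbeats 400000

/-- The divisor of (the image in `F` of) a `W`-integral function with nonzero reduction in `F_k`
is an integral principal divisor. -/
theorem cn_pgiT_mem_integral (N : ℕ) [NeZero N] (A : ValuationSubring Qb) {L : Type} [Field L]
    [Algebra ℚ L] (ι : L →+* Qb) (x : ↥(FL L N)) (y : LaurentSeries ↥(dW A ι))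
    (hxy : coeffMap (dW A ι).subtype y = (x : LaurentSeries L))
    (hk : coeffMap (dRes A ι) y ∈ Fk (kA A) N) (h0 : coeffMap (dRes A ι) y ≠ 0)
    (D : Divisor Qb ↥(FL Qb N)) (hD : ∀ P, D P = P.ord (dEmb N ι x)) :
    D ∈ integralPrincipalDivisors A (IsLocalRing.residue ↥A) N := by
  have h1 : coeffMap A.subtype (coeffMap (dIncl A ι) y) = coeffMap ι (x : LaurentSeries L) := by
    rw [coeffMap_coeffMap, ← hxy, coeffMap_coeffMap]
    exact coeffMap_congr (RingHom.ext fun _ => rfl) y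
  have h2 : coeffMap (IsLocalRing.residue ↥A) (coeffMap (dIncl A ι) y) =
      coeffMap (dRes A ι) y := by
    rw [coeffMap_coeffMap]
    rfl
  have hmem : coeffMap A.subtype (coeffMap (dIncl A ι) y) ∈ FL Qb N := by
    rw [h1]
    exact (dEmb N ι x).2
  refine ⟨coeffMap (dIncl A ι) y, hmem, ?_, ?_, fun P => ?_⟩
  · rw [h2]; exact hk
  · rw [h2]; exact h0
  · rw [hD P]
    congr 1
    exact Subtype.ext h1.symm

/-- The core of the package, for a datum `(L, ι, ϖ)`: the divisor of (the image in `F` of) a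
nonzero function of `F_L` is a difference of two integral principal divisors. -/
theorem cn_pgiT_core (N ℓ : ℕ) [NeZero N] [Fact ℓ.Prime] (A : ValuationSubring Qb)
    [IsAlgClosed (kA A)] [CharP (kA A) ℓ]
    (L : Type) [Field L] [Algebra ℚ L] (ι : L →+* Qb) [IsDiscreteValuationRing ↥(dW A ι)]
    (ϖ : ↥(dW A ι)) (hBD : BaseData N ℓ (dW A ι) (dRes A ι) ϖ)
    (fL : ↥(FL L N)) (hfL : fL ≠ 0)
    (D : Divisor Qb ↥(FL Qb N)) (hD : ∀ P, D P = P.ord (dEmb N ι fL)) :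
    D ∈ AddSubgroup.closure (integralPrincipalDivisors A (IsLocalRing.residue ↥A) N) := by
  obtain ⟨hW, -, -, -, ρ, hρ⟩ := ga_gauss N ℓ L (dW A ι) (kA A) (dRes A ι) ϖ hBD
  obtain ⟨n, u, hfu, hu, hu'⟩ := ga_val N ℓ L (dW A ι) (kA A) (dRes A ι) ϖ hBD fL hfL
  have hMV := ga_meqV N ℓ L (dW A ι) (kA A) (dRes A ι) ϖ hBD
  have hVu : u ∈ gaussV (dW A ι) (dRes A ι) N := by rw [← hMV]; exact hu
  have hVu' : u⁻¹ ∈ gaussV (dW A ι) (dRes A ι) N := by rw [← hMV]; exact hu'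
  have hu0 : u ≠ 0 := by
    rintro rfl
    exact hfL (by rw [hfu, mul_zero])
  obtain ⟨g, hg, ya, hya⟩ := hu
  have hb0 : evW (dW A ι) N (jF L N) g ≠ 0 :=
    ga_evW_j_ne_zero (dW A ι) N (ga_ne_zero_of_map_ne_zero (dW A ι) (dRes A ι) hg)
  have hyb : coeffMap (dW A ι).subtype (evalL (jqModC ↥(dW A ι)) g) =
      ((evW (dW A ι) N (jF L N) g : ↥(FL L N)) : LaurentSeries L) :=
    (ga_coe_evW_j (dW A ι) N g).symm
  obtain ⟨hVa, hρa⟩ := cn_pgiT_red (dW A ι) (dRes A ι) N ϖ ρ hρ hW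
    (evW (dW A ι) N (jF L N) g * u) ya hya
  obtain ⟨hVb, hρb⟩ := cn_pgiT_red (dW A ι) (dRes A ι) N ϖ ρ hρ hW
    (evW (dW A ι) N (jF L N) g) _ hyb
  -- the reductions are nonzero
  have hρb0 : coeffMap (dRes A ι) (evalL (jqModC ↥(dW A ι)) g) ≠ 0 := by
    rw [degMain_coeffMap_evalL, coeffMap_jqModC]
    intro h
    exact hg (degMain_evalL_eq_zero _ h)
  have hρu0 : ρ ⟨u, hVu⟩ ≠ 0 := by
    intro h
    have h1 : ρ ⟨u, hVu⟩ * ρ ⟨u⁻¹, hVu'⟩ = 1 := by
      rw [← map_mul]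
      have h2 : (⟨u, hVu⟩ : ↥(gaussV (dW A ι) (dRes A ι) N)) * ⟨u⁻¹, hVu'⟩ = 1 :=
        Subtype.ext (mul_inv_cancel₀ hu0)
      rw [h2, map_one]
    rw [h, zero_mul] at h1
    exact zero_ne_one h1
  have hρa0 : coeffMap (dRes A ι) ya ≠ 0 := by
    rw [← hρa]
    have h2 : (⟨evW (dW A ι) N (jF L N) g * u, hVa⟩ : ↥(gaussV (dW A ι) (dRes A ι) N)) =
        ⟨evW (dW A ι) N (jF L N) g, hVb⟩ * ⟨u, hVu⟩ := rfl
    rw [h2, map_mul, hρb]
    exact mul_ne_zero hρb0 hρu0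
  have hka : coeffMap (dRes A ι) ya ∈ Fk (kA A) N := by
    rw [← hρa]
    exact (hρ.range _).2 ⟨_, rfl⟩
  have hkb : coeffMap (dRes A ι) (evalL (jqModC ↥(dW A ι)) g) ∈ Fk (kA A) N := by
    rw [← hρb]
    exact (hρ.range _).2 ⟨_, rfl⟩
  -- the two divisors
  have hinj : Function.Injective (dEmb N ι) := (dEmb N ι).injective
  have hea : dEmb N ι (evW (dW A ι) N (jF L N) g * u) ≠ 0 :=
    (map_ne_zero_iff _ hinj).mpr (mul_ne_zero hb0 hu0)
  have heb : dEmb N ι (evW (dW A ι) N (jF L N) g) ≠ 0 := (map_ne_zero_iff _ hinj).mpr hb0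
  obtain ⟨Da, hDa⟩ := cn_pgiT_exists_div N _ hea
  obtain ⟨Db, hDb⟩ := cn_pgiT_exists_div N _ heb
  have hmemA := cn_pgiT_mem_integral N A ι _ ya hya hka hρa0 Da hDa
  have hmemB := cn_pgiT_mem_integral N A ι _ _ hyb hkb hρb0 Db hDb
  have hϖ : ι ((ϖ : ↥(dW A ι)) : L) ≠ 0 := by
    rw [map_ne_zero]
    intro h
    exact hBD.irreducible.ne_zero (Subtype.ext h)
  have hfe : dEmb N ι fL = algebraMap Qb ↥(FL Qb N) (ι ((ϖ : ↥(dW A ι)) : L)) ^ n *
      (dEmb N ι (evW (dW A ι) N (jF L N) g * u) / dEmb N ι (evW (dW A ι) N (jF L N) g)) := by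
    rw [hfu, map_mul, map_zpow₀, ← map_div₀, mul_div_cancel_left₀ u hb0]
    congr 2
    exact dEmb_algebraMap N ι ((ϖ : ↥(dW A ι)) : L)
  have hDeq : D = Da - Db := by
    ext P
    rw [hD P, hfe, cn_pgiT_ord_eq P _ hϖ n _ _ hea heb, Finsupp.sub_apply, hDa, hDb]
  rw [hDeq]
  exact AddSubgroup.sub_mem _ (AddSubgroup.subset_closure hmemA)
    (AddSubgroup.subset_closure hmemB)

/-- (CN-a) Principal divisors are generated by the divisors of `A`-integral functions with nonzero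
reduction. -/
theorem cn_pgiT_main : cn_PGIStatement := by
  intro N ℓ _ _ hℓN A hA D hD
  obtain ⟨f, hf, hDf⟩ := hD
  obtain ⟨S, hS⟩ := e_descentT_main N (f : LaurentSeries Qb) f.2
  obtain ⟨hAC, hCh, hL⟩ := e_baseringT_main e_unramT_main' e_valfinT_main N ℓ hℓN A hA
  obtain ⟨L, hSL, hDVR, ϖ, hBD⟩ := hL S
  obtain ⟨xL, hxL, hx⟩ := hS ↥L (algebraMap ↥L Qb) (fun s hs => ⟨⟨s, hSL s hs⟩, rfl⟩)
  have := hAC
  have := hCh
  have : IsDiscreteValuationRing ↥(dW A (algebraMap ↥L Qb)) := hDVR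
  refine cn_pgiT_core N ℓ A ↥L (algebraMap ↥L Qb) ϖ hBD ⟨xL, hxL⟩ ?_ D ?_
  · intro h
    apply hf
    apply Subtype.ext
    have h1 : xL = 0 := congrArg Subtype.val h
    rw [← hx, h1, map_zero]
    rfl
  · intro P
    rw [hDf P]
    congr 1
    exact Subtype.ext hx.symm

end Concrete

end

end Fermat.Agent.S37
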