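/-
S37, block CN — package PrimePlace (twin T): the place of `F = F_Qb` above a prime element `g` of a
factorial model `R ⊆ F_L` with `L ⊆ R_(g)`.
-/
import Fermat.Agent.S37.CNInterfaces
import Fermat.Agent.S18.EUFDLocT
import Fermat.Agent.S18.HMain
import Fermat.Agent.S24.GalBPlaces

set_option autoImplicit false

open ModularCurve AlgebraicCurve

namespace Fermat.Agent.S37

open Fermat.Agent.S18

noncomputable section

/-- If `g` is a non-unit of the valuation ring of the place `v` dividing every nonzero non-unit of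
that ring, then `ord_v g = 1`. -/
theorem cn_primeplaceT_ord_eq_one {K F : Type} [Field K] [Field F] [Algebra K F] (v : Place K F)
    (g : F) (hg : g⁻¹ ∉ v.toValuationSubring)
    (h : ∀ z : F, z ≠ 0 → z ∈ v.toValuationSubring → z⁻¹ ∉ v.toValuationSubring →
      ∃ w ∈ v.toValuationSubring, z = g * w) : v.ord g = 1 := by
  have hgpos : 0 < v.ord g := (Fermat.Agent.S24.GalB.ord_pos_iff_inv_not_mem v g).2 hg
  have hg0 : g ≠ 0 := by
    rintro rfl
    simp at hgpos
  obtain ⟨π, hπ⟩ := IsDiscreteValuationRing.exists_irreducible v.toValuationSubring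
  have hπord : v.ord (π : F) = 1 := v.ord_coe_irreducible hπ
  have hπ0 : (π : F) ≠ 0 := by
    intro h0
    rw [h0] at hπord
    simp at hπord
  have hπinv : (π : F)⁻¹ ∉ v.toValuationSubring :=
    (Fermat.Agent.S24.GalB.ord_pos_iff_inv_not_mem v _).1 (by omega)
  obtain ⟨w, hw, hπw⟩ := h (π : F) hπ0 π.2 hπinv
  have hw0 : w ≠ 0 := by
    rintro rfl
    exact hπ0 (by rw [hπw, mul_zero])
  have hwnn : 0 ≤ v.ord w := (Fermat.Agent.S24.GalB.mem_iff_ord_nonneg v w).1 hw
  have hmul : v.ord (π : F) = v.ord g + v.ord w := by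
    rw [hπw, v.ord_mul hg0 hw0]
  omega

set_option synthInstance.maxHeartbeats 400000 in
theorem cn_primeplaceT_main : cn_PrimePlaceStatement := by
  intro N _ L _ _ ι R hfrac hufd g hg hL
  obtain ⟨O, hRO, hOtop, hPIR, hginv, hO⟩ := e_ufdlocT_main ↥(FL L N) R hfrac hufd g hg
  let P' : Place L ↥(FL L N) := ⟨O, fun c => (hO _).2 (hL c), hOtop, hPIR⟩
  have hP'O : ∀ z : ↥(FL L N), z ∈ P'.toValuationSubring ↔
      ∃ a b : ↥R, ¬ g ∣ b ∧ z * (b : ↥(FL L N)) = (a : ↥(FL L N)) := hO
  have hginv' : ((g : ↥(FL L N)))⁻¹ ∉ P'.toValuationSubring := hginv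
  have hRP' : ∀ x : ↥R, (x : ↥(FL L N)) ∈ P'.toValuationSubring := fun x => hRO x.2
  obtain ⟨P, hP⟩ := h_constExt N L ι P'
  have hord : ∀ x : ↥(FL L N), P.ord (dEmb N ι x) = P'.ord x := fun x => hP x _
  have hg0 : (g : ↥(FL L N)) ≠ 0 := by
    intro h0
    exact hg.ne_zero (Subtype.ext h0)
  refine ⟨P, ?_, ?_, ?_⟩
  · intro s
    rw [Fermat.Agent.S24.GalB.mem_iff_ord_nonneg, hord,
      ← Fermat.Agent.S24.GalB.mem_iff_ord_nonneg]
    exact hP'O s
  · intro x
    have h1 : dEmb N ι (x : ↥(FL L N)) ∈ P.toValuationSubring.nonunits ↔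
        (x : ↥(FL L N)) = 0 ∨ ((x : ↥(FL L N)))⁻¹ ∉ P'.toValuationSubring := by
      rw [ValuationSubring.mem_nonunits_iff_or, map_eq_zero,
        ← Fermat.Agent.S24.GalB.ord_pos_iff_inv_not_mem, hord,
        Fermat.Agent.S24.GalB.ord_pos_iff_inv_not_mem]
    rw [h1]
    constructor
    · rintro (h0 | hinv)
      · have : x = 0 := Subtype.ext h0
        rw [this]
        exact dvd_zero g
      · by_contra hgx
        apply hinv
        have hx0 : (x : ↥(FL L N)) ≠ 0 := by
          intro h0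
          apply hgx
          have : x = 0 := Subtype.ext h0
          rw [this]
          exact dvd_zero g
        refine (hP'O _).2 ⟨1, x, hgx, ?_⟩
        rw [inv_mul_cancel₀ hx0]
        rfl
    · rintro ⟨c, rfl⟩
      by_cases h0 : ((g * c : ↥R) : ↥(FL L N)) = 0
      · exact Or.inl h0
      · right
        intro hinv
        apply hginv'
        have hc0 : (c : ↥(FL L N)) ≠ 0 := by
          intro hc
          apply h0
          rw [Subring.coe_mul, hc, mul_zero]
        have : ((g : ↥(FL L N)))⁻¹ = (c : ↥(FL L N)) * (((g * c : ↥R) : ↥(FL L N)))⁻¹ := by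
          rw [Subring.coe_mul]
          field_simp
        rw [this]
        exact P'.toValuationSubring.mul_mem _ _ (hRP' c) hinv
  · rw [hord]
    apply cn_primeplaceT_ord_eq_one P' _ hginv'
    intro z hz0 hz hzinv
    obtain ⟨a, b, hb, hzb⟩ := (hP'O z).1 hz
    have hb0 : (b : ↥(FL L N)) ≠ 0 := by
      intro h0
      apply hb
      have : b = 0 := Subtype.ext h0
      rw [this]
      exact dvd_zero g
    have hga : g ∣ a := by
      by_contra hga
      apply hzinv
      refine (hP'O _).2 ⟨b, a, hga, ?_⟩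
      rw [← hzb, ← mul_assoc, inv_mul_cancel₀ hz0, one_mul]
    obtain ⟨a', rfl⟩ := hga
    refine ⟨(a' : ↥(FL L N)) * ((b : ↥(FL L N)))⁻¹, (hP'O _).2 ⟨a', b, hb, ?_⟩, ?_⟩
    · rw [mul_assoc, inv_mul_cancel₀ hb0, mul_one]
    · rw [Subring.coe_mul] at hzb
      rw [← mul_assoc, ← hzb, mul_assoc, mul_inv_cancel₀ hb0, mul_one]

end

end Fermat.Agent.S37
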