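/-
S37, block CN, package R1of (twin T): (R1) for every place reduction `r`, by induction on `m` from
the prime case of S18.
-/
import Fermat.Agent.S37.CNInterfaces
import Fermat.Agent.S18

set_option autoImplicit false

open ModularCurve AlgebraicCurve Fermat.Agent.S18

namespace Fermat.Agent.S37

set_option synthInstance.maxHeartbeats 400000 in
/-- The induction on `m`: if `m • D` (`ℓ ∤ m`) and the reduction of `D` are principal, then `D` is
principal. -/
theorem cn_r1ofT_principal (N ℓ : ℕ) [NeZero N] [Fact ℓ.Prime] (hℓN : ¬ ℓ ∣ N)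
    (A : ValuationSubring Qb) (hA : A.LiesOverPrime ℓ)
    (r : Place Qb ↥(FL Qb N) → Place (kA A) ↥(Fk (kA A) N))
    (hr : IsPlaceReductionAlong A (IsLocalRing.residue ↥A) N r)
    (hgen : PrincipalGeneratedByIntegral A (IsLocalRing.residue ↥A) N) :
    ∀ m : ℕ, ¬ ℓ ∣ m → ∀ D : Divisor Qb ↥(FL Qb N),
      m • D ∈ Divisor.principal (K := Qb) (F := ↥(FL Qb N)) →
      Finsupp.mapDomain r D ∈ Divisor.principal (K := kA A) (F := ↥(Fk (kA A) N)) →
      D ∈ Divisor.principal (K := Qb) (F := ↥(FL Qb N)) := by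
  have hchar : CharP (kA A) ℓ := e_reduce_charP ℓ A hA
  have hclosed : IsAlgClosed (kA A) := e_reduce_isAlgClosed A
  intro m
  induction m using Nat.strong_induction_on with
  | _ m ih =>
    intro hm D hmD hrD
    rcases Nat.eq_zero_or_pos m with rfl | hpos
    · exact absurd (dvd_zero ℓ) hm
    rcases eq_or_ne m 1 with rfl | hm1
    · rwa [one_nsmul] at hmD
    obtain ⟨p, hp, m', rfl⟩ := Nat.exists_prime_and_dvd hm1
    have hpℓ : p ≠ ℓ := fun hpl => hm (hpl ▸ dvd_mul_right p m')
    have hm' : ¬ ℓ ∣ m' := fun hd => hm (dvd_mul_of_dvd_right hd p)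
    have hm'pos : 0 < m' := Nat.pos_of_ne_zero fun h0 => by
      rw [h0, mul_zero] at hpos
      exact lt_irrefl _ hpos
    have hlt : m' < p * m' := by
      have := hp.one_lt
      nlinarith
    obtain ⟨q, rfl⟩ := Nat.exists_eq_succ_of_ne_zero hp.ne_zero
    have h1 : m' • D ∈ Divisor.principal (K := Qb) (F := ↥(FL Qb N)) := by
      refine e_reduce_prime_case hr hgen q (e_k1T_main ga_sep N ℓ hℓN (kA A))
        ((e_core_of e_endgame sm_main) N ℓ hℓN A hA (q + 1) hp hpℓ) (m' • D) ?_ ?_
      · rw [smul_smul]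
        exact hmD
      · rw [Finsupp.mapDomain_smul]
        exact AddSubgroup.nsmul_mem _ hrD m'
    exact ih m' hlt hm' D h1 hrD

set_option synthInstance.maxHeartbeats 400000 in
/-- (CN-c) (R1) for every place reduction `r`. -/
theorem cn_r1ofT_main : cn_R1ofStatement := by
  intro N ℓ _ _ hℓN A hA r hr hgen m hm D _ hmD hrD
  refine cn_r1ofT_principal N ℓ hℓN A hA r hr hgen m hm D hmD ?_
  rw [hrD]
  exact AddSubgroup.zero_mem _

end Fermat.Agent.S37
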