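/-
S37, block CN, package RatGal: Galois descent of values; the rationality lemma.

If every `σ ∈ Gal(Qb/ℚ)` fixing `ι(L)` pointwise fixes the place `P` of `F = F_Qb`, then every
element of `F_L` regular at `P` has its value at `P` in `ι(L)`.
-/
import Fermat.Agent.S37.CNInterfaces

set_option autoImplicit false

open ModularCurve AlgebraicCurve

namespace Fermat.Agent.S37

open Fermat.Agent.S18

open scoped Pointwise

noncomputable section

/-- `Qb / ℚ` is algebraic (for the default `ℚ`-algebra structure). -/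
theorem cn_ratgal_isAlgebraic : Algebra.IsAlgebraic ℚ Qb := by
  have h : (inferInstance : Algebra ℚ Qb) = AlgebraicClosure.instAlgebra ℚ :=
    Subsingleton.elim _ _
  show @Algebra.IsAlgebraic ℚ Qb _ _ inferInstance
  rw [h]
  infer_instance

/-- `Qb / ℚ` is Galois. -/
theorem cn_ratgal_isGalois : IsGalois ℚ Qb := by
  have h1 : Algebra.IsAlgebraic ℚ Qb := cn_ratgal_isAlgebraic
  have h2 : IsAlgClosure ℚ Qb := ⟨inferInstance, h1⟩
  exact IsAlgClosure.isGalois ℚ Qb

/-- Galois theory: an element of `Qb` fixed by every `σ ∈ Gal(Qb/ℚ)` which fixes `ι(L)` pointwise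
lies in `ι(L)`. -/
theorem cn_ratgal_fixed {L : Type} [Field L] [Algebra ℚ L] (ι : L →+* Qb) (c' : Qb)
    (h : ∀ σ : Qb ≃ₐ[ℚ] Qb, (∀ c : L, σ (ι c) = ι c) → σ c' = c') : ∃ c : L, ι c = c' := by
  let E : IntermediateField ℚ Qb := ι.toRatAlgHom.fieldRange
  have hE : ∀ x : Qb, x ∈ E ↔ ∃ c : L, ι c = x := fun x => Iff.rfl
  have : IsGalois ℚ Qb := cn_ratgal_isGalois
  have hfix : IntermediateField.fixedField E.fixingSubgroup = E :=
    InfiniteGalois.fixedField_fixingSubgroup E
  rw [← hE, ← hfix, IntermediateField.mem_fixedField_iff]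
  intro σ hσ
  rw [IntermediateField.mem_fixingSubgroup_iff] at hσ
  exact h σ (fun c => hσ (ι c) ((hE _).mpr ⟨c, rfl⟩))

/-- The non-units of `g • O` contain the images of the non-units of `O`. -/
theorem cn_ratgal_smul_nonunits {K F : Type} [Field K] [Field F] [Algebra K F]
    (g : SemilinearAut K F) (O : ValuationSubring F) (y : F) (hy : y ∈ O.nonunits) :
    g • y ∈ (g • O : ValuationSubring F).nonunits := by
  rw [ValuationSubring.mem_nonunits_iff_or] at hy ⊢
  rcases hy with rfl | hy
  · left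
    exact smul_zero g
  · right
    intro hmem
    apply hy
    have h1 : (g • y)⁻¹ = g • y⁻¹ := (map_inv₀ (SemilinearAut.toRingAut g) y).symm
    rw [h1, ValuationSubring.smul_mem_pointwise_smul_iff] at hmem
    exact hmem

/-- A constant which is a non-unit at a place is zero. -/
theorem cn_ratgal_const_nonunit {K F : Type} [Field K] [Field F] [Algebra K F] (P : Place K F)
    (d : K) (hd : algebraMap K F d ∈ P.toValuationSubring.nonunits) : d = 0 := by
  by_contra hne
  rw [ValuationSubring.mem_nonunits_iff_or] at hd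
  rcases hd with h0 | hinv
  · exact hne ((map_eq_zero (algebraMap K F)).mp h0)
  · apply hinv
    rw [← map_inv₀]
    exact P.algebraMap_mem' d⁻¹

/-- The difference of two non-units of a valuation subring is a non-unit. -/
theorem cn_ratgal_sub_nonunits {F : Type} [Field F] (O : ValuationSubring F) (a b : F)
    (ha : a ∈ O.nonunits) (hb : b ∈ O.nonunits) : a - b ∈ O.nonunits := by
  rw [ValuationSubring.mem_nonunits_iff] at ha hb ⊢
  exact lt_of_le_of_lt (Valuation.map_sub _ a b) (max_lt ha hb)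

section Concrete

set_option synthInstance.maxHeartbeats 400000

/-- The coefficientwise Galois action of `σ` fixes `dEmb N ι s` if `σ` fixes `ι(L)` pointwise. -/
theorem cn_ratgal_smul_dEmb (N : ℕ) [NeZero N] {L : Type} [Field L] [Algebra ℚ L] (ι : L →+* Qb)
    (σ : Qb ≃ₐ[ℚ] Qb) (hσ : ∀ c : L, σ (ι c) = ι c) (s : ↥(FL L N)) :
    arithmeticGalois (modularFunctionFieldFull N) σ • dEmb N ι s = dEmb N ι s := by
  apply Subtype.ext
  rw [coe_arithmeticGalois_smul, dEmb_coe, coeffMap_coeffMap]
  exact coeffMap_congr (RingHom.ext fun c => hσ c) _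

/-- (RatGal) -/
theorem cn_ratgal_main : ValQStatement → cn_RatGalStatement := by
  intro hVal N _ P L _ _ ι hP s hs
  obtain ⟨c', hc'⟩ := hVal N P (dEmb N ι s) hs
  have hfixed : ∀ σ : Qb ≃ₐ[ℚ] Qb, (∀ c : L, σ (ι c) = ι c) → σ c' = c' := by
    intro σ hσ
    have hPσ := hP σ hσ
    have h1 := cn_ratgal_smul_nonunits (arithmeticGalois (modularFunctionFieldFull N) σ)
      P.toValuationSubring _ hc'
    rw [← SemilinearAut.smul_toValuationSubring, hPσ, smul_sub, cn_ratgal_smul_dEmb N ι σ hσ,
      SemilinearAut.smul_algebraMap, baseAut_arithmeticGalois] at h1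
    have h2 := cn_ratgal_sub_nonunits P.toValuationSubring _ _ hc' h1
    have h3 : dEmb N ι s - algebraMap Qb ↥(FL Qb N) c' -
        (dEmb N ι s - algebraMap Qb ↥(FL Qb N) (σ.toRingEquiv c')) =
        algebraMap Qb ↥(FL Qb N) (σ c' - c') := by
      rw [map_sub]
      show _ - _ - (_ - algebraMap Qb ↥(FL Qb N) (σ c')) = _
      ring
    rw [h3] at h2
    exact sub_eq_zero.mp (cn_ratgal_const_nonunit P _ h2)
  obtain ⟨c, hc⟩ := cn_ratgal_fixed ι c' hfixed
  exact ⟨c, by rw [hc]; exact hc'⟩

/-- (Rat) -/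
theorem cn_ratgal_rat : ValQStatement → cn_RatStabStatement → cn_RatStatement := by
  intro hVal hStab N _ P
  obtain ⟨S, hS⟩ := hStab N P
  refine ⟨S, fun L _ _ ι hL => cn_ratgal_main hVal N P L ι ?_⟩
  intro σ hσ
  refine hS σ (fun s hs => ?_)
  obtain ⟨c, rfl⟩ := hL s hs
  exact hσ c

end Concrete

end

end Fermat.Agent.S37
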