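/-
S37, block CN, package RatStab (twin T): for every place `P` of `F = F_Qb` there is a finite set
`S ⊆ Qb` such that every `σ ∈ Gal(Qb/ℚ)` fixing `S` pointwise fixes `P` (coefficientwise action).
-/
import Fermat.Agent.S37.CNInterfaces
import Fermat.Agent.S18.EDescentT
import Fermat.Agent.S18.HQbar

set_option autoImplicit false

open ModularCurve AlgebraicCurve IntermediateField

namespace Fermat.Agent.S37

open Fermat.Agent.S18

noncomputable section

/-- Abstract core: a group-like family `act σ` of semilinear automorphisms; if the translates of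
`P` under the `σ` fixing a finite set `S₀` lie in a finite set `Z` of places, and every element of
`F` is fixed by all `σ` fixing a suitable finite set, then `P` is fixed by all `σ` fixing a
suitable finite set. -/
theorem cn_ratstabT_abstract {K F G : Type} [Field K] [Field F] [Algebra K F]
    (act : G → SemilinearAut K F) (fixes : G → K → Prop)
    (P : Place K F) (Z : Set (Place K F)) (hZ : Z.Finite) (S₀ : Finset K)
    (hS₀ : ∀ σ : G, (∀ s ∈ S₀, fixes σ s) → act σ • P ∈ Z)
    (hdesc : ∀ h : F, ∃ S : Finset K, ∀ σ : G, (∀ s ∈ S, fixes σ s) → act σ • h = h) :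
    ∃ S : Finset K, ∀ σ : G, (∀ s ∈ S, fixes σ s) → act σ • P = P := by
  classical
  have key : ∀ P' : Place K F, ∃ S : Finset K, P' ≠ P →
      ∀ σ : G, (∀ s ∈ S, fixes σ s) → act σ • P ≠ P' := by
    intro P'
    by_cases hPP : P' = P
    · exact ⟨∅, fun h => absurd hPP h⟩
    have hnle : ¬ P.toValuationSubring ≤ P'.toValuationSubring := fun hle =>
      hPP (Fermat.Agent.S24.GalB.eq_of_le hle).symm
    obtain ⟨h, hhP, hhP'⟩ := SetLike.not_le_iff_exists.mp hnle
    obtain ⟨S, hS⟩ := hdesc h
    refine ⟨S, fun _ σ hσ heq => hhP' ?_⟩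
    have h1 : act σ • h ∈ (act σ • P).toValuationSubring :=
      ValuationSubring.smul_mem_pointwise_smul (act σ) h P.toValuationSubring hhP
    rw [hS σ hσ, heq] at h1
    exact h1
  choose f hf using key
  refine ⟨S₀ ∪ hZ.toFinset.biUnion f, fun σ hσ => ?_⟩
  by_contra hne
  have hmemZ : act σ • P ∈ Z := hS₀ σ (fun s hs => hσ s (Finset.mem_union_left _ hs))
  refine hf (act σ • P) hne σ (fun s hs => hσ s (Finset.mem_union_right _ ?_)) rfl
  exact Finset.mem_biUnion.mpr ⟨act σ • P, hZ.mem_toFinset.mpr hmemZ, hs⟩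

/-- Every element of `F_Qb` is fixed by all `σ` fixing a suitable finite set. -/
theorem cn_ratstabT_desc (N : ℕ) [NeZero N] (h : ↥(FL Qb N)) :
    ∃ S : Finset Qb, ∀ σ : Qb ≃ₐ[ℚ] Qb, (∀ s ∈ S, σ s = s) →
      arithmeticGalois (modularFunctionFieldFull N) σ • h = h := by
  obtain ⟨S, hS⟩ := e_descentT_main N (h : LaurentSeries Qb) h.2
  refine ⟨S, fun σ hσ => ?_⟩
  obtain ⟨hL, -, hcoe⟩ := hS ↥(RingHom.eqLocusField (σ : Qb →+* Qb) (RingHom.id Qb))
    (RingHom.eqLocusField (σ : Qb →+* Qb) (RingHom.id Qb)).subtype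
    (fun s hs => ⟨⟨s, hσ s hs⟩, rfl⟩)
  apply Subtype.ext
  rw [coe_arithmeticGalois_smul, ← hcoe, coeffMap_coeffMap]
  exact coeffMap_congr (RingHom.ext fun c => c.2) hL

/-- The coefficientwise Galois action fixes `j`. -/
theorem cn_ratstabT_smul_jF (N : ℕ) [NeZero N] (σ : Qb ≃ₐ[ℚ] Qb) :
    arithmeticGalois (modularFunctionFieldFull N) σ • jF Qb N = jF Qb N := by
  apply Subtype.ext
  rw [coe_arithmeticGalois_smul]
  exact coeffMap_jqModC _

open Fermat.Agent.S24 Fermat.Agent.S24.GalB in
/-- The S24 place counts for `X₀(N)` over `ℚ̄` (assembly as in `h_qbar_main`). -/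
theorem cn_ratstabT_modelCounts : ModelCountsStatement := by
  have hZeros : ZerosStatement := Zeros.zerosStatement
  have hPoles : PolesStatement := Zeros.polesStatement
  have hG : GalStatement := GalB.galStatement hZeros hPoles
  have hQexp : QexpStatement := Qexp.qexpStatement
  have hJB : JBasicStatement := JLocal.jBasicStatement
  have hJO : JOrdersStatement := JLocal.jOrdersStatement
  have hJQ : JQexpStatement := FormalQ.jQexpStatement hQexp
  have hLP : LemmaPStatement := LemmaP.lemmaPStatement hJB hJQ hQexp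
  have hCj : ConjStatement := Conj.conjStatement hJB hJQ hQexp
  have hJS : JSurjStatement := JSurj.jSurjStatement hJB
  have hPV : PointValStatement := PointVal.pointValStatement
  have hPM : PreModelStatement :=
    PreModelBuild.preModelStatement hJB hJO hJS hJQ hQexp hLP hCj hPV
  have hMM : ModularModelStatement :=
    ModelAlg.modularModelStatement hPM Places.valuationPlaceStatement
  exact ModelCounts.modelCountsStatement hG hZeros hMM

/-- (RatStab), without hypotheses. -/
theorem cn_ratstabT_stab : cn_RatStabStatement := by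
  intro N _ P
  obtain ⟨htr, hfd, -⟩ := cn_ratstabT_modelCounts N
  rw [← h_qbar_jF_eq] at htr hfd
  by_cases hP : 0 ≤ P.ord (jF Qb N)
  · obtain ⟨c₀, hc₀⟩ := Fermat.Agent.S24.Places.centerStatement Qb ↥(FL Qb N) (jF Qb N) htr hfd
      P hP
    refine cn_ratstabT_abstract (fun σ => arithmeticGalois (modularFunctionFieldFull N) σ)
      (fun σ s => σ s = s) P _
      (Fermat.Agent.S24.Zeros.zerosStatement Qb ↥(FL Qb N) (jF Qb N) htr hfd c₀).1 {c₀}
      (fun σ hσ => ?_) (cn_ratstabT_desc N)
    have hfix : arithmeticGalois (modularFunctionFieldFull N) σ •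
        (jF Qb N - algebraMap Qb ↥(FL Qb N) c₀) = jF Qb N - algebraMap Qb ↥(FL Qb N) c₀ := by
      rw [smul_sub, cn_ratstabT_smul_jF, SemilinearAut.smul_algebraMap]
      congr 2
      exact hσ c₀ (Finset.mem_singleton_self c₀)
    show 0 < (arithmeticGalois (modularFunctionFieldFull N) σ • P).ord
      (jF Qb N - algebraMap Qb ↥(FL Qb N) c₀)
    rw [← hfix, SemilinearAut.ord_smul]
    exact hc₀
  · refine cn_ratstabT_abstract (fun σ => arithmeticGalois (modularFunctionFieldFull N) σ)
      (fun σ s => σ s = s) P _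
      (Fermat.Agent.S24.Zeros.polesStatement Qb ↥(FL Qb N) (jF Qb N) htr hfd).1 ∅
      (fun σ _ => ?_) (cn_ratstabT_desc N)
    show (arithmeticGalois (modularFunctionFieldFull N) σ • P).ord (jF Qb N) < 0
    rw [← cn_ratstabT_smul_jF N σ, SemilinearAut.ord_smul]
    exact not_le.mp hP

/-- (RatStab) For every place `P` of `F` there is a finite set `S ⊆ Qb` such that every
`σ ∈ Gal(Qb/ℚ)` fixing `S` pointwise fixes `P`. -/
theorem cn_ratstabT_main : ValQStatement → cn_RatStabStatement :=
  fun _ => cn_ratstabT_stab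

end

end Fermat.Agent.S37
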