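/-
S37, block CN, package Span (twin T): `F_Qb` is spanned over `Qb` by the image of `F_L` under the
coefficientwise embedding.
-/
import Fermat.Agent.S37.CNInterfaces

set_option autoImplicit false

open ModularCurve AlgebraicCurve

namespace Fermat.Agent.S37

/-- Abstract form: if `Ω` is a field which is an algebra over the fields `E` and `K`, and the
image of `K` in `Ω` is algebraic over `E`, then every element of the subfield generated by (the
images of) `E` and `K` is a finite sum of products `c * e`, `c ∈ K`, `e ∈ E`. -/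
theorem cn_spanT_abs {E K Ω : Type*} [Field E] [Field K] [Field Ω] [Algebra E Ω] [Algebra K Ω]
    (halg : ∀ c : K, IsAlgebraic E (algebraMap K Ω c)) (z : Ω)
    (hz : z ∈ IntermediateField.adjoin E (Set.range (algebraMap K Ω))) :
    ∃ (n : ℕ) (lam : Fin n → K) (s : Fin n → E),
      z = ∑ i, algebraMap K Ω (lam i) * algebraMap E Ω (s i) := by
  have h1 : (IntermediateField.adjoin E (Set.range (algebraMap K Ω))).toSubalgebra =
      Algebra.adjoin E (Set.range (algebraMap K Ω)) :=
    IntermediateField.adjoin_toSubalgebra_of_isAlgebraic (by rintro _ ⟨c, rfl⟩; exact halg c)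
  have h2 : z ∈ Algebra.adjoin E (Set.range (algebraMap K Ω)) := by
    rw [← h1]; exact hz
  have h3 : z ∈ Submodule.span E (Set.range (algebraMap K Ω)) := by
    have h4 : z ∈ Subalgebra.toSubmodule (Algebra.adjoin E (Set.range (algebraMap K Ω))) := h2
    rw [Algebra.adjoin_eq_span] at h4
    have h5 : (Submonoid.closure (Set.range (algebraMap K Ω)) : Set Ω) =
        Set.range (algebraMap K Ω) := by
      have h6 := (MonoidHom.mrange ((algebraMap K Ω : K →+* Ω) : K →* Ω)).closure_eq
      have h7 : ((MonoidHom.mrange ((algebraMap K Ω : K →+* Ω) : K →* Ω) : Submonoid Ω) : Set Ω) =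
          Set.range (algebraMap K Ω) := rfl
      rw [← h7, h6]
    rwa [h5] at h4
  obtain ⟨n, f, g, rfl⟩ := Submodule.mem_span_set'.1 h3
  choose lam hlam using fun i => (g i).2
  refine ⟨n, lam, f, Finset.sum_congr rfl fun i _ => ?_⟩
  rw [hlam, Algebra.smul_def, mul_comm]

/-- General form of (Span): for an algebraic extension `K` of `ℚ` and `ι : L →+* K`, every element
of `laurentBaseChange K F₀` is a finite `K`-linear combination of coefficientwise images of
elements of `laurentBaseChange L F₀`. -/
theorem cn_spanT_gen (L K : Type) [Field L] [Algebra ℚ L] [Field K] [Algebra ℚ K]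
    [Algebra.IsAlgebraic ℚ K] (ι : L →+* K) (F₀ : IntermediateField ℚ (LaurentSeries ℚ))
    (x : LaurentSeries K) (hx : x ∈ laurentBaseChange K F₀) :
    ∃ (n : ℕ) (lam : Fin n → K) (s : Fin n → ↥(laurentBaseChange L F₀)),
      x = ∑ i, algebraMap K (LaurentSeries K) (lam i) * coeffMap ι (s i : LaurentSeries L) := by
  let φ : ↥(laurentBaseChange L F₀) →+* LaurentSeries K :=
    (coeffMap ι).comp (algebraMap ↥(laurentBaseChange L F₀) (LaurentSeries L))
  let _ : Algebra ↥(laurentBaseChange L F₀) (LaurentSeries K) := φ.toAlgebra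
  have halg : ∀ c : K,
      IsAlgebraic ↥(laurentBaseChange L F₀) (algebraMap K (LaurentSeries K) c) := by
    intro c
    obtain ⟨p, hp0, hp⟩ := Algebra.IsAlgebraic.isAlgebraic (R := ℚ) c
    let ψ : ℚ →+* ↥(laurentBaseChange L F₀) :=
      (algebraMap L ↥(laurentBaseChange L F₀)).comp (algebraMap ℚ L)
    refine ⟨p.map ψ, (Polynomial.map_ne_zero_iff ψ.injective).2 hp0, ?_⟩
    rw [Polynomial.aeval_def, Polynomial.eval₂_map]
    have hcomp : (algebraMap ↥(laurentBaseChange L F₀) (LaurentSeries K)).comp ψ =
        (algebraMap K (LaurentSeries K)).comp (algebraMap ℚ K) := Subsingleton.elim _ _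
    rw [hcomp, ← Polynomial.hom_eval₂, ← Polynomial.aeval_def, hp, map_zero]
  have hmem : x ∈ IntermediateField.adjoin ↥(laurentBaseChange L F₀)
      (Set.range (algebraMap K (LaurentSeries K))) := by
    rw [mem_laurentBaseChange_iff] at hx
    have hle : Subfield.closure (Set.range (algebraMap K (LaurentSeries K)) ∪
        (⇑(coeffEmb K) '' (F₀ : Set (LaurentSeries ℚ)))) ≤
        (IntermediateField.adjoin ↥(laurentBaseChange L F₀)
          (Set.range (algebraMap K (LaurentSeries K)))).toSubfield := by
      rw [Subfield.closure_le]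
      rintro y (hy | ⟨z, hz, rfl⟩)
      · exact IntermediateField.subset_adjoin _ _ hy
      · have hz' : coeffEmb K z = algebraMap ↥(laurentBaseChange L F₀) (LaurentSeries K)
            ⟨coeffEmb L z, coeffEmb_mem_laurentBaseChange L hz⟩ :=
          (Fermat.Agent.S18.e_descentT_coeffMap_coeffEmb ι z).symm
        rw [hz']
        exact IntermediateField.algebraMap_mem _ _
    exact hle hx
  obtain ⟨n, lam, s, hs⟩ := cn_spanT_abs halg x hmem
  exact ⟨n, lam, s, hs⟩

/-- (Span) `F = F_Qb` is spanned over `Qb` by the image of `F_L`. -/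
theorem cn_spanT_main : cn_SpanStatement := by
  intro N _ L _ _ ι f
  have hQ : Algebra.IsAlgebraic ℚ Qb := ⟨fun a => by
    obtain ⟨p, hp0, hp⟩ := (AlgebraicClosure.isAlgebraic ℚ).isAlgebraic a
    refine ⟨p, hp0, ?_⟩
    rw [Polynomial.aeval_def] at hp ⊢
    rw [← hp]
    exact congrArg (fun g : ℚ →+* Qb => Polynomial.eval₂ g a p) (Subsingleton.elim _ _)⟩
  obtain ⟨n, lam, s, hs⟩ :=
    cn_spanT_gen L Qb ι (modularFunctionFieldFull N) (f : LaurentSeries Qb) f.2
  refine ⟨n, lam, s, Subtype.ext ?_⟩
  rw [hs, AddSubmonoidClass.coe_finsetSum]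
  rfl

end Fermat.Agent.S37
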