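/-
S37, block R, package RCI (ChartIdeal), twin B.  Prefix `rcib_`.

For a datum `(L, ι, ϖ)` at `A`, a place `P` of `F = F_Qb` and its chart `S`: every element `g` of the
chart `A_i = chart (dW A ι) N S` has (through `dEmb`) a value in `A` at `P`, and the set `m_P` of
chart elements whose value lies in the maximal ideal of `A` is a maximal ideal containing `ϖ`.

Organisation: for a general place `P : Place K F` and a valuation subring `A` of `K`,
`rcib_valSub P A` is the subring of `F` of the elements having a value in `A` at `P`; it is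
integrally closed in `F` as soon as all elements of `O_P` have a value (`rcib_intClosed`); the value
is a ring homomorphism `rcib_ev : rcib_valSub P A →+* A`, and `m_P` is the kernel of a surjective
ring homomorphism from the chart to the residue field of `A`.
-/
import Fermat.Agent.S37.RInterfaces
import Fermat.Agent.S37.HV

set_option autoImplicit false
set_option synthInstance.maxHeartbeats 400000

open ModularCurve AlgebraicCurve

namespace Fermat.Agent.S37

open Fermat.Agent.S18

noncomputable section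

/-! ## General places: the subring of elements with a value in `A` -/

section General

variable {K F : Type} [Field K] [Field F] [Algebra K F] (P : Place K F) (A : ValuationSubring K)

/-- The subring of `F` of the elements having a value in `A` at `P`. -/
def rcib_valSub : Subring F where
  carrier := {s | ∃ c : K, c ∈ A ∧ HasValue P s c}
  mul_mem' := by
    rintro s t ⟨c, hc, hs⟩ ⟨d, hd, ht⟩
    exact ⟨c * d, A.mul_mem _ _ hc hd, hv_mul hs ht⟩
  one_mem' := ⟨1, A.one_mem, hv_one P⟩
  add_mem' := by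
    rintro s t ⟨c, hc, hs⟩ ⟨d, hd, ht⟩
    exact ⟨c + d, A.add_mem _ _ hc hd, hv_add hs ht⟩
  zero_mem' := ⟨0, A.zero_mem, hv_zero P⟩
  neg_mem' := by
    rintro s ⟨c, hc, hs⟩
    exact ⟨-c, A.neg_mem _ hc, hv_neg hs⟩

theorem rcib_mem_valSub (s : F) :
    s ∈ rcib_valSub P A ↔ ∃ c : K, c ∈ A ∧ HasValue P s c := Iff.rfl

theorem rcib_valSub_le : rcib_valSub P A ≤ P.toValuationSubring.toSubring := by
  rintro s ⟨c, -, hs⟩
  exact hv_mem hs

/-- The value at `P` of an element of `rcib_valSub P A`, as an element of `A`. -/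
def rcib_evFun (b : ↥(rcib_valSub P A)) : ↥A :=
  ⟨Classical.choose b.2, (Classical.choose_spec b.2).1⟩

theorem rcib_evFun_spec (b : ↥(rcib_valSub P A)) :
    HasValue P (b : F) ((rcib_evFun P A b : ↥A) : K) :=
  (Classical.choose_spec b.2).2

theorem rcib_evFun_eq (b : ↥(rcib_valSub P A)) {c : K} (h : HasValue P (b : F) c) :
    ((rcib_evFun P A b : ↥A) : K) = c :=
  hv_unique (rcib_evFun_spec P A b) h

/-- The value at `P`, as a ring homomorphism `rcib_valSub P A →+* A`. -/
def rcib_ev : ↥(rcib_valSub P A) →+* ↥A where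
  toFun := rcib_evFun P A
  map_one' := Subtype.ext (rcib_evFun_eq P A 1 (hv_one P))
  map_mul' x y := Subtype.ext
    (rcib_evFun_eq P A (x * y) (hv_mul (rcib_evFun_spec P A x) (rcib_evFun_spec P A y)))
  map_zero' := Subtype.ext (rcib_evFun_eq P A 0 (hv_zero P))
  map_add' x y := Subtype.ext
    (rcib_evFun_eq P A (x + y) (hv_add (rcib_evFun_spec P A x) (rcib_evFun_spec P A y)))

theorem rcib_ev_spec (b : ↥(rcib_valSub P A)) :
    HasValue P (b : F) ((rcib_ev P A b : ↥A) : K) :=
  rcib_evFun_spec P A b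

theorem rcib_ev_eq (b : ↥(rcib_valSub P A)) {c : K} (h : HasValue P (b : F) c) :
    ((rcib_ev P A b : ↥A) : K) = c :=
  rcib_evFun_eq P A b h

/-- The valuation ring of a place is integrally closed in `F`. -/
theorem rcib_mem_of_isIntegral {s : F} (hs : IsIntegral ↥P.toValuationSubring s) :
    s ∈ P.toValuationSubring := by
  obtain ⟨y, hy⟩ := IsIntegrallyClosed.isIntegral_iff.mp hs
  rw [← hy]
  exact y.2

/-- A valuation subring of `K` is integrally closed in `K`. -/
theorem rcib_mem_of_isIntegral' {c : K} (hc : IsIntegral ↥A c) : c ∈ A := by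
  obtain ⟨y, hy⟩ := IsIntegrallyClosed.isIntegral_iff.mp hc
  rw [← hy]
  exact y.2

/-- Values commute with the evaluation of polynomials with coefficients in `rcib_valSub P A`. -/
theorem rcib_hv_eval₂ {s : F} {c : K} (hs : HasValue P s c) (p : Polynomial ↥(rcib_valSub P A)) :
    HasValue P (Polynomial.eval₂ (rcib_valSub P A).subtype s p)
      (Polynomial.eval₂ (A.subtype.comp (rcib_ev P A)) c p) := by
  rw [Polynomial.eval₂_eq_sum_range, Polynomial.eval₂_eq_sum_range]
  refine hv_sum _ _ _ fun i _ => ?_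
  exact hv_mul (rcib_ev_spec P A _) (hv_pow hs i)

/-- If every element of `O_P` has a value, `rcib_valSub P A` is integrally closed in `F`. -/
theorem rcib_intClosed (hval : ∀ s : F, s ∈ P.toValuationSubring → ∃ c : K, HasValue P s c)
    {s : F} (hs : IsIntegral ↥(rcib_valSub P A) s) : s ∈ rcib_valSub P A := by
  obtain ⟨p, hpm, hp⟩ := hs
  have hp' : Polynomial.eval₂ (rcib_valSub P A).subtype s p = 0 := hp
  -- `s ∈ O_P`
  have hsO : s ∈ P.toValuationSubring := by
    apply rcib_mem_of_isIntegral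
    refine ⟨p.map (Subring.inclusion (rcib_valSub_le P A)), hpm.map _, ?_⟩
    rw [Polynomial.eval₂_map]
    exact hp'
  obtain ⟨c, hc⟩ := hval s hsO
  refine ⟨c, ?_, hc⟩
  apply rcib_mem_of_isIntegral'
  refine ⟨p.map (rcib_ev P A), hpm.map _, ?_⟩
  rw [Polynomial.eval₂_map]
  have h1 := rcib_hv_eval₂ P A hc p
  rw [hp'] at h1
  exact hv_unique h1 (hv_zero P)

end General

/-! ## Transfer along a ring homomorphism `φ : E →+* F` -/

section Transfer

variable {K E F : Type} [Field K] [Field E] [Field F] [Algebra K F] (φ : E →+* F)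

/-- If `φ` maps the subring `R` into the subring `B`, and `B` is integrally closed in `F`, then `φ`
maps the integral closure of `R` into `B`. -/
theorem rcib_map_integral (R : Subring E) (B : Subring F) (hRB : ∀ x ∈ R, φ x ∈ B)
    (hB : ∀ s : F, IsIntegral ↥B s → s ∈ B) {g : E} (hg : IsIntegral ↥R g) : φ g ∈ B := by
  apply hB
  obtain ⟨p, hpm, hp⟩ := hg
  have hp' : Polynomial.eval₂ R.subtype g p = 0 := hp
  refine ⟨p.map ((φ.comp R.subtype).codRestrict B (fun x => hRB x x.2)), hpm.map _, ?_⟩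
  rw [Polynomial.eval₂_map]
  have h2 : (algebraMap ↥B F).comp ((φ.comp R.subtype).codRestrict B (fun x => hRB x x.2))
      = φ.comp R.subtype := RingHom.ext fun x => rfl
  rw [h2, ← Polynomial.hom_eval₂, hp', map_zero]

variable (P : Place K F) (A : ValuationSubring K)

/-- "Value at `P` modulo the maximal ideal of `A`" on a subring `C` of `E` mapped by `φ` into
`rcib_valSub P A`. -/
def rcib_chi (C : Subring E) (h : ∀ g ∈ C, φ g ∈ rcib_valSub P A) :
    ↥C →+* IsLocalRing.ResidueField ↥A :=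
  (IsLocalRing.residue ↥A).comp
    ((rcib_ev P A).comp
      ((φ.comp C.subtype).codRestrict (rcib_valSub P A) (fun g => h g g.2)))

theorem rcib_chi_apply (C : Subring E) (h : ∀ g ∈ C, φ g ∈ rcib_valSub P A) (g : ↥C) :
    rcib_chi φ P A C h g
      = IsLocalRing.residue ↥A (rcib_ev P A ⟨φ (g : E), h g g.2⟩) := rfl

theorem rcib_chi_eq (C : Subring E) (h : ∀ g ∈ C, φ g ∈ rcib_valSub P A) (g : ↥C) (c : ↥A)
    (hc : HasValue P (φ (g : E)) (c : K)) :
    rcib_chi φ P A C h g = IsLocalRing.residue ↥A c := by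
  rw [rcib_chi_apply]
  congr 1
  exact Subtype.ext (rcib_ev_eq P A ⟨φ (g : E), h g g.2⟩ hc)

theorem rcib_mem_ker_chi (C : Subring E) (h : ∀ g ∈ C, φ g ∈ rcib_valSub P A) (g : ↥C) :
    g ∈ RingHom.ker (rcib_chi φ P A C h)
      ↔ ∃ c : K, c ∈ A.nonunits ∧ HasValue P (φ (g : E)) c := by
  rw [RingHom.mem_ker]
  constructor
  · intro h0
    rw [rcib_chi_apply, IsLocalRing.residue_eq_zero_iff] at h0
    exact ⟨((rcib_ev P A ⟨φ (g : E), h g g.2⟩ : ↥A) : K),
      ValuationSubring.mem_nonunits_iff_exists_mem_maximalIdeal.2 ⟨Subtype.property _, h0⟩,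
      rcib_ev_spec P A ⟨φ (g : E), h g g.2⟩⟩
  · rintro ⟨c, hc, hv⟩
    obtain ⟨hcA, hcm⟩ := ValuationSubring.mem_nonunits_iff_exists_mem_maximalIdeal.1 hc
    rw [rcib_chi_eq φ P A C h g ⟨c, hcA⟩ hv, IsLocalRing.residue_eq_zero_iff]
    exact hcm

end Transfer

/-! ## The charts -/

section ALevel

variable (N : ℕ) [NeZero N] (A : ValuationSubring Qb) {L : Type} [Field L] [Algebra ℚ L]
  (ι : L →+* Qb)

theorem rcib_dEmb_cW (w : ↥(dW A ι)) :
    dEmb N ι (cW (dW A ι) N w) = algebraMap Qb ↥(FL Qb N) (ι (w : L)) :=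
  dEmb_algebraMap N ι (w : L)

theorem rcib_hv_cW (P : Place Qb ↥(FL Qb N)) (w : ↥(dW A ι)) :
    HasValue P (dEmb N ι (cW (dW A ι) N w)) (ι (w : L)) := by
  rw [rcib_dEmb_cW]
  exact hv_algebraMap P _

theorem rcib_cW_mem_valSub (P : Place Qb ↥(FL Qb N)) (w : ↥(dW A ι)) :
    dEmb N ι (cW (dW A ι) N w) ∈ rcib_valSub P A :=
  ⟨ι (w : L), w.2, rcib_hv_cW N A ι P w⟩

/-- `φ(W[S]) ⊆ B` for the chart `S` of `P`. -/
theorem rcib_baseRing_le (P : Place Qb ↥(FL Qb N)) (S : Set ↥(FL L N))
    (hS : IsChartOf N A S P) :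
    ∀ x ∈ baseRing (dW A ι) N S, dEmb N ι x ∈ rcib_valSub P A := by
  have hle : baseRing (dW A ι) N S ≤ (rcib_valSub P A).comap (dEmb N ι) := by
    refine (Subring.closure_le).2 ?_
    rintro x (⟨w, rfl⟩ | hx)
    · exact rcib_cW_mem_valSub N A ι P w
    · rcases hS with ⟨rfl, c, hc, hv⟩ | ⟨rfl, c, hc, hv⟩
      · rw [Set.mem_singleton_iff] at hx
        subst hx
        show dEmb N ι (jF L N) ∈ rcib_valSub P A
        rw [dEmb_jF]
        exact ⟨c, hc, hv⟩
      · rw [Set.mem_singleton_iff] at hx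
        subst hx
        show dEmb N ι (jF L N)⁻¹ ∈ rcib_valSub P A
        rw [map_inv₀, dEmb_jF]
        exact ⟨c, A.nonunits_subset hc, hv⟩
  exact fun x hx => hle hx

/-- Every element of the chart of `P` has a value in `A` at `P`. -/
theorem rcib_chart_le (hval : ValQStatement) (P : Place Qb ↥(FL Qb N)) (S : Set ↥(FL L N))
    (hS : IsChartOf N A S P) :
    ∀ g ∈ chart (dW A ι) N S, dEmb N ι g ∈ rcib_valSub P A := fun _ hg =>
  rcib_map_integral (dEmb N ι) _ _ (rcib_baseRing_le N A ι P S hS)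
    (fun _ hs => rcib_intClosed P A (hval N P) hs) hg

omit [NeZero N] in
/-- The constants of `W` lie in every chart. -/
theorem rcib_cW_mem_chart (S : Set ↥(FL L N)) (w : ↥(dW A ι)) :
    cW (dW A ι) N w ∈ chart (dW A ι) N S := by
  rw [mem_chart_iff]
  have hmem : cW (dW A ι) N w ∈ baseRing (dW A ι) N S :=
    Subring.subset_closure (Or.inl ⟨w, rfl⟩)
  exact isIntegral_algebraMap (x := (⟨cW (dW A ι) N w, hmem⟩ : ↥(baseRing (dW A ι) N S)))

end ALevel

/-- (ChartIdeal), from (ValQ). -/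
theorem rcib_main : ValQStatement → ChartIdealStatement := by
  intro hval N ℓ _ _ _ A _ L _ _ ι _ ϖ hD P S hS
  have hch := rcib_chart_le N A ι hval P S hS
  refine ⟨fun g hg => ?_, ?_⟩
  · obtain ⟨c, hc, hv⟩ := hch g hg
    exact ⟨⟨c, hc⟩, hv⟩
  · have hχ : ∀ w : ↥(dW A ι),
        rcib_chi (dEmb N ι) P A (chart (dW A ι) N S) hch
          ⟨cW (dW A ι) N w, rcib_cW_mem_chart N A ι S w⟩ = dRes A ι w := fun w =>
      rcib_chi_eq (dEmb N ι) P A (chart (dW A ι) N S) hch
        ⟨cW (dW A ι) N w, rcib_cW_mem_chart N A ι S w⟩ (dIncl A ι w) (rcib_hv_cW N A ι P w)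
    have hsurj : Function.Surjective (rcib_chi (dEmb N ι) P A (chart (dW A ι) N S) hch) := by
      intro x
      obtain ⟨w, rfl⟩ := hD.res_surjective x
      exact ⟨_, hχ w⟩
    refine ⟨RingHom.ker (rcib_chi (dEmb N ι) P A (chart (dW A ι) N S) hch),
      RingHom.ker_isMaximal_of_surjective _ hsurj,
      ⟨cW (dW A ι) N ϖ, rcib_cW_mem_chart N A ι S ϖ⟩, rfl, ?_,
      fun g => rcib_mem_ker_chi (dEmb N ι) P A (chart (dW A ι) N S) hch g⟩
    rw [RingHom.mem_ker, hχ]
    have hϖ : ϖ ∈ RingHom.ker (dRes A ι) := by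
      rw [hD.ker_res]
      exact Ideal.mem_span_singleton_self ϖ
    exact hϖ

end

end Fermat.Agent.S37
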