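/-
S37, block R — package RCP (ChartPlace), part 1: the ABSTRACT theorem.
A local subring `R` of a valuation ring `V ⊆ F` with `R ∩ ϖ V = ϖ R`, `R / ϖ` a discrete valuation
ring and `V = R_(ϖ)`, together with a surjective `ρ : V →+* E` with kernel `ϖ V`, gives the
valuation subring `ρ(R)` of the field `E`.  Prefix `rcp_`.
-/
import Fermat.Agent.S37.RInterfaces
import Fermat.Agent.S18.EInterfaces4
import Fermat.Agent.S18.LocSubB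
import Fermat.Agent.S18.EEGMainTDefs

set_option autoImplicit false

namespace Fermat.Agent.S37

open Fermat.Agent.S18

/-- The restriction of `ρ : V →+* E` to the subring `R ≤ V`. -/
noncomputable def rcp_psi {F E : Type} [Field F] [Field E] (V R : Subring F) (hRV : R ≤ V)
    (ρ : ↥V →+* E) : ↥R →+* E := ρ.comp (Subring.inclusion hRV)

theorem rcp_psi_apply {F E : Type} [Field F] [Field E] (V R : Subring F) (hRV : R ≤ V)
    (ρ : ↥V →+* E) (r : ↥R) : rcp_psi V R hRV ρ r = ρ ⟨(r : F), hRV r.2⟩ := rfl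

/-- The kernel of `ρ|R` is `ϖ R` (saturation). -/
theorem rcp_psi_eq_zero_iff {F E : Type} [Field F] [Field E] (V R : Subring F) (ϖ : F)
    (hRV : R ≤ V) (hϖ0 : ϖ ≠ 0) (hϖR : ϖ ∈ R)
    (hsat : ∀ x ∈ R, ϖ⁻¹ * x ∈ V → ϖ⁻¹ * x ∈ R) (ρ : ↥V →+* E)
    (hker : ∀ x : ↥V, ρ x = 0 ↔ ∃ x' : ↥V, (x : F) = ϖ * (x' : F)) (r : ↥R) :
    rcp_psi V R hRV ρ r = 0 ↔ r ∈ Ideal.span {(⟨ϖ, hϖR⟩ : ↥R)} := by
  rw [rcp_psi_apply, hker, Ideal.mem_span_singleton']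
  constructor
  · rintro ⟨x', hx'⟩
    have hx'' : (r : F) = ϖ * (x' : F) := hx'
    have h1 : ϖ⁻¹ * (r : F) = (x' : F) := by
      rw [hx'', ← mul_assoc, inv_mul_cancel₀ hϖ0, one_mul]
    have h2 : ϖ⁻¹ * (r : F) ∈ R := hsat _ r.2 (by rw [h1]; exact x'.2)
    refine ⟨⟨ϖ⁻¹ * (r : F), h2⟩, Subtype.ext ?_⟩
    show ϖ⁻¹ * (r : F) * ϖ = (r : F)
    rw [mul_comm, ← mul_assoc, mul_inv_cancel₀ hϖ0, one_mul]
  · rintro ⟨a, ha⟩
    refine ⟨⟨(a : F), hRV a.2⟩, ?_⟩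
    show (r : F) = ϖ * (a : F)
    rw [← ha]
    show (a : F) * ϖ = ϖ * (a : F)
    exact mul_comm _ _

/-- Two elements of `R` with the same class modulo `ϖ` have the same image. -/
theorem rcp_psi_eq_of_mk_eq {F E : Type} [Field F] [Field E] (V R : Subring F) (ϖ : F)
    (hRV : R ≤ V) (hϖ0 : ϖ ≠ 0) (hϖR : ϖ ∈ R)
    (hsat : ∀ x ∈ R, ϖ⁻¹ * x ∈ V → ϖ⁻¹ * x ∈ R) (ρ : ↥V →+* E)
    (hker : ∀ x : ↥V, ρ x = 0 ↔ ∃ x' : ↥V, (x : F) = ϖ * (x' : F)) (a b : ↥R)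
    (h : Ideal.Quotient.mk (Ideal.span {(⟨ϖ, hϖR⟩ : ↥R)}) a =
      Ideal.Quotient.mk (Ideal.span {(⟨ϖ, hϖR⟩ : ↥R)}) b) :
    rcp_psi V R hRV ρ a = rcp_psi V R hRV ρ b := by
  rw [Ideal.Quotient.eq, ← rcp_psi_eq_zero_iff V R ϖ hRV hϖ0 hϖR hsat ρ hker, map_sub,
    sub_eq_zero] at h
  exact h

/-- `ρ(R)` is a valuation ring of `E`. -/
theorem rcp_total {F E : Type} [Field F] [Field E] (V R : Subring F) (ϖ : F)
    (hRV : R ≤ V) (hϖ0 : ϖ ≠ 0) (hϖR : ϖ ∈ R)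
    (hsat : ∀ x ∈ R, ϖ⁻¹ * x ∈ V → ϖ⁻¹ * x ∈ R)
    (hdvr : IsDVRQuot ↥R (⟨ϖ, hϖR⟩ : ↥R))
    (hden : ∀ x ∈ V, ∃ a ∈ R, ∃ b ∈ R, ϖ⁻¹ * b ∉ V ∧ x * b = a)
    (ρ : ↥V →+* E) (hker : ∀ x : ↥V, ρ x = 0 ↔ ∃ x' : ↥V, (x : F) = ϖ * (x' : F))
    (hsurj : Function.Surjective ρ) (z : E) :
    z ∈ (rcp_psi V R hRV ρ).range ∨ z⁻¹ ∈ (rcp_psi V R hRV ρ).range := by
  obtain ⟨hdom, hdvr'⟩ := hdvr
  obtain ⟨v, rfl⟩ := hsurj z
  obtain ⟨a, ha, b, hb, hbV, hab⟩ := hden (v : F) v.2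
  have hψb : rcp_psi V R hRV ρ ⟨b, hb⟩ ≠ 0 := by
    intro h0
    rw [rcp_psi_apply, hker] at h0
    obtain ⟨x', hx'⟩ := h0
    apply hbV
    have hx'' : b = ϖ * (x' : F) := hx'
    rw [hx'', ← mul_assoc, inv_mul_cancel₀ hϖ0, one_mul]
    exact x'.2
  have hmul : ρ v * rcp_psi V R hRV ρ ⟨b, hb⟩ = rcp_psi V R hRV ρ ⟨a, ha⟩ := by
    rw [rcp_psi_apply, rcp_psi_apply, ← map_mul]
    congr 1
    exact Subtype.ext hab
  obtain ⟨c, hc⟩ := PreValuationRing.cond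
    (Ideal.Quotient.mk (Ideal.span {(⟨ϖ, hϖR⟩ : ↥R)}) ⟨a, ha⟩)
    (Ideal.Quotient.mk (Ideal.span {(⟨ϖ, hϖR⟩ : ↥R)}) ⟨b, hb⟩)
  obtain ⟨c, rfl⟩ := Ideal.Quotient.mk_surjective c
  rcases hc with hc | hc
  · -- `a c ≡ b`: `z⁻¹ = ρ c`
    right
    rw [← map_mul] at hc
    have h1 := rcp_psi_eq_of_mk_eq V R ϖ hRV hϖ0 hϖR hsat ρ hker _ _ hc
    rw [map_mul] at h1
    refine ⟨c, ?_⟩
    have ha0 : rcp_psi V R hRV ρ ⟨a, ha⟩ ≠ 0 := by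
      intro h0
      rw [h0, zero_mul] at h1
      exact hψb h1.symm
    have hv0 : ρ v ≠ 0 := by
      intro h0
      rw [h0, zero_mul] at hmul
      exact ha0 hmul.symm
    rw [← hmul, mul_assoc] at h1
    -- h1 : ρ v * (ψ b * ψ c) = ψ b
    have h2 : ρ v * rcp_psi V R hRV ρ c = 1 := by
      have h3 : rcp_psi V R hRV ρ ⟨b, hb⟩ * (ρ v * rcp_psi V R hRV ρ c) =
          rcp_psi V R hRV ρ ⟨b, hb⟩ * 1 := by
        rw [mul_one]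
        calc rcp_psi V R hRV ρ ⟨b, hb⟩ * (ρ v * rcp_psi V R hRV ρ c)
            = ρ v * (rcp_psi V R hRV ρ ⟨b, hb⟩ * rcp_psi V R hRV ρ c) := by ring
          _ = rcp_psi V R hRV ρ ⟨b, hb⟩ := h1
      exact mul_left_cancel₀ hψb h3
    exact (inv_eq_of_mul_eq_one_right h2).symm
  · -- `b c ≡ a`: `z = ρ c`
    left
    rw [← map_mul] at hc
    have h1 := rcp_psi_eq_of_mk_eq V R ϖ hRV hϖ0 hϖR hsat ρ hker _ _ hc
    rw [map_mul, ← hmul] at h1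
    refine ⟨c, ?_⟩
    have h3 : rcp_psi V R hRV ρ ⟨b, hb⟩ * rcp_psi V R hRV ρ c =
        rcp_psi V R hRV ρ ⟨b, hb⟩ * ρ v := by
      rw [h1, mul_comm]
    exact mul_left_cancel₀ hψb h3

/-- The valuation subring `ρ(R)` of `E`. -/
noncomputable def rcp_O {F E : Type} [Field F] [Field E] (V R : Subring F) (hRV : R ≤ V)
    (ρ : ↥V →+* E)
    (htot : ∀ z : E, z ∈ (rcp_psi V R hRV ρ).range ∨ z⁻¹ ∈ (rcp_psi V R hRV ρ).range) :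
    ValuationSubring E :=
  { (rcp_psi V R hRV ρ).range with mem_or_inv_mem' := htot }

theorem rcp_mem_O_iff {F E : Type} [Field F] [Field E] (V R : Subring F) (hRV : R ≤ V)
    (ρ : ↥V →+* E)
    (htot : ∀ z : E, z ∈ (rcp_psi V R hRV ρ).range ∨ z⁻¹ ∈ (rcp_psi V R hRV ρ).range) (z : E) :
    z ∈ rcp_O V R hRV ρ htot ↔ ∃ (g : F) (hR : g ∈ R), ρ ⟨g, hRV hR⟩ = z := by
  constructor
  · rintro ⟨r, hr⟩
    exact ⟨(r : F), r.2, hr⟩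
  · rintro ⟨g, hR, hg⟩
    exact ⟨⟨g, hR⟩, hg⟩

/-- `ρ|R` as a ring homomorphism onto the valuation subring `ρ(R)`. -/
noncomputable def rcp_psiO {F E : Type} [Field F] [Field E] (V R : Subring F) (hRV : R ≤ V)
    (ρ : ↥V →+* E)
    (htot : ∀ z : E, z ∈ (rcp_psi V R hRV ρ).range ∨ z⁻¹ ∈ (rcp_psi V R hRV ρ).range) :
    ↥R →+* ↥(rcp_O V R hRV ρ htot) where
  toFun r := ⟨rcp_psi V R hRV ρ r, ⟨r, rfl⟩⟩
  map_one' := Subtype.ext (map_one (rcp_psi V R hRV ρ))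
  map_mul' _ _ := Subtype.ext (map_mul (rcp_psi V R hRV ρ) _ _)
  map_zero' := Subtype.ext (map_zero (rcp_psi V R hRV ρ))
  map_add' _ _ := Subtype.ext (map_add (rcp_psi V R hRV ρ) _ _)

theorem rcp_psiO_coe {F E : Type} [Field F] [Field E] (V R : Subring F) (hRV : R ≤ V)
    (ρ : ↥V →+* E)
    (htot : ∀ z : E, z ∈ (rcp_psi V R hRV ρ).range ∨ z⁻¹ ∈ (rcp_psi V R hRV ρ).range) (r : ↥R) :
    ((rcp_psiO V R hRV ρ htot r : ↥(rcp_O V R hRV ρ htot)) : E) = rcp_psi V R hRV ρ r := rfl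

theorem rcp_psiO_surjective {F E : Type} [Field F] [Field E] (V R : Subring F) (hRV : R ≤ V)
    (ρ : ↥V →+* E)
    (htot : ∀ z : E, z ∈ (rcp_psi V R hRV ρ).range ∨ z⁻¹ ∈ (rcp_psi V R hRV ρ).range) :
    Function.Surjective (rcp_psiO V R hRV ρ htot) := by
  rintro ⟨z, r, hr⟩
  exact ⟨r, Subtype.ext hr⟩

/-- The abstract ChartPlace theorem. -/
theorem rcp_abstract {F E : Type} [Field F] [Field E] (V R : Subring F) (ϖ : F)
    (hVD : e_egmainT_VData V ϖ) (hRV : R ≤ V) (hϖR : ϖ ∈ R)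
    (hsat : ∀ x ∈ R, ϖ⁻¹ * x ∈ V → ϖ⁻¹ * x ∈ R)
    (hloc : IsLocalRing ↥R) (hdvr : IsDVRQuot ↥R (⟨ϖ, hϖR⟩ : ↥R))
    (hden : ∀ x ∈ V, ∃ a ∈ R, ∃ b ∈ R, ϖ⁻¹ * b ∉ V ∧ x * b = a)
    (ρ : ↥V →+* E) (hker : ∀ x : ↥V, ρ x = 0 ↔ ∃ x' : ↥V, (x : F) = ϖ * (x' : F))
    (hsurj : Function.Surjective ρ) :
    ∃ O : ValuationSubring E,
      (∀ z : E, z ∈ O ↔ ∃ (g : F) (hR : g ∈ R), ρ ⟨g, hRV hR⟩ = z) ∧
      O ≠ ⊤ ∧ IsPrincipalIdealRing ↥O ∧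
      (∀ (g : F) (hR : g ∈ R), ρ ⟨g, hRV hR⟩ ∈ O.nonunits ↔ ¬ IsUnit (⟨g, hR⟩ : ↥R)) := by
  obtain ⟨-, hϖ0, hϖV, -⟩ := hVD
  have htot := rcp_total V R ϖ hRV hϖ0 hϖR hsat hdvr hden ρ hker hsurj
  have hkerψ := rcp_psi_eq_zero_iff V R ϖ hRV hϖ0 hϖR hsat ρ hker
  obtain ⟨hdom, hdvr'⟩ := hdvr
  -- `ϖ` is not a unit of `R`
  have hϖnu : ¬ IsUnit (⟨ϖ, hϖR⟩ : ↥R) := by
    intro hu
    obtain ⟨w, hw⟩ := isUnit_iff_exists_inv.1 hu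
    apply hϖV
    have h1 : ϖ * (w : F) = 1 := congrArg Subtype.val hw
    rw [inv_eq_of_mul_eq_one_right h1]
    exact hRV w.2
  -- units of `ρ(R)` come from units of `R`
  have hunit : ∀ r s : ↥R, rcp_psi V R hRV ρ r * rcp_psi V R hRV ρ s = 1 → IsUnit r := by
    intro r s hrs
    have h0 : rcp_psi V R hRV ρ (r * s - 1) = 0 := by
      rw [map_sub, map_mul, map_one, hrs, sub_self]
    rw [hkerψ, Ideal.mem_span_singleton'] at h0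
    obtain ⟨a, ha⟩ := h0
    have hadd : r * s + (-(a * ⟨ϖ, hϖR⟩)) = 1 := by
      rw [ha]; ring
    rcases IsLocalRing.isUnit_or_isUnit_of_add_one hadd with h | h
    · exact isUnit_of_mul_isUnit_left h
    · exfalso
      rw [IsUnit.neg_iff] at h
      exact hϖnu (isUnit_of_mul_isUnit_right h)
  refine ⟨rcp_O V R hRV ρ htot, rcp_mem_O_iff V R hRV ρ htot, ?_, ?_, ?_⟩
  · -- `O ≠ ⊤`
    intro htop
    obtain ⟨t, ht⟩ := IsDiscreteValuationRing.exists_irreducible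
      (↥R ⧸ Ideal.span {(⟨ϖ, hϖR⟩ : ↥R)})
    obtain ⟨t, rfl⟩ := Ideal.Quotient.mk_surjective t
    have ht0 : rcp_psi V R hRV ρ t ≠ 0 := by
      intro h0
      rw [hkerψ, ← Ideal.Quotient.eq_zero_iff_mem] at h0
      exact ht.ne_zero h0
    have hmem : (rcp_psi V R hRV ρ t)⁻¹ ∈ rcp_O V R hRV ρ htot := by
      rw [htop]; exact ValuationSubring.mem_top _
    obtain ⟨s, hs⟩ := hmem
    have hts : rcp_psi V R hRV ρ t * rcp_psi V R hRV ρ s = 1 := by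
      rw [hs, mul_inv_cancel₀ ht0]
    exact ht.not_isUnit ((hunit t s hts).map _)
  · -- principal ideal ring
    have hle : ∀ a ∈ Ideal.span {(⟨ϖ, hϖR⟩ : ↥R)}, rcp_psiO V R hRV ρ htot a = 0 := by
      intro a ha
      exact Subtype.ext ((hkerψ a).2 ha)
    have hsurj' : Function.Surjective (Ideal.Quotient.lift (Ideal.span {(⟨ϖ, hϖR⟩ : ↥R)})
        (rcp_psiO V R hRV ρ htot) hle) :=
      Ideal.Quotient.lift_surjective_of_surjective _ hle (rcp_psiO_surjective V R hRV ρ htot)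
    exact IsPrincipalIdealRing.of_surjective _ hsurj'
  · -- nonunits
    intro g hR
    rw [ValuationSubring.mem_nonunits_iff_exists_mem_maximalIdeal]
    constructor
    · rintro ⟨hmem, hmax⟩ hu
      rw [IsLocalRing.mem_maximalIdeal, mem_nonunits_iff] at hmax
      apply hmax
      exact hu.map (rcp_psiO V R hRV ρ htot)
    · intro hnu
      have hmem : ρ ⟨g, hRV hR⟩ ∈ rcp_O V R hRV ρ htot :=
        (rcp_mem_O_iff V R hRV ρ htot _).2 ⟨g, hR, rfl⟩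
      refine ⟨hmem, ?_⟩
      rw [IsLocalRing.mem_maximalIdeal, mem_nonunits_iff]
      intro hu
      obtain ⟨w, hw⟩ := isUnit_iff_exists_inv.1 hu
      obtain ⟨s, rfl⟩ := rcp_psiO_surjective V R hRV ρ htot w
      apply hnu
      refine hunit ⟨g, hR⟩ s ?_
      have := congrArg Subtype.val hw
      exact this

end Fermat.Agent.S37
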