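/-
S37, block R — package RCP (ChartPlace), part 2: instantiation of the abstract theorem
`rcp_abstract` at a maximal ideal `m ∋ ϖ` of a chart.  Prefix `rcp_`.
-/
import Fermat.Agent.S37.RCP
import Fermat.Agent.S18.EEGMainTA
import Fermat.Agent.S18.EEGMainTLG
import Fermat.Agent.S18.EEGMainTBAlt

set_option autoImplicit false
set_option synthInstance.maxHeartbeats 400000

open ModularCurve AlgebraicCurve

namespace Fermat.Agent.S37

open Fermat.Agent.S18

noncomputable section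

/-- The corestriction of a reduction map `ρ` to `F_k`. -/
def rcp_rho {L : Type} [Field L] [Algebra ℚ L] (W : ValuationSubring L) {k : Type} [Field k]
    (res : ↥W →+* k) (N : ℕ) [NeZero N] (ϖ : ↥W) (ρ : ↥(gaussV W res N) →+* LaurentSeries k)
    (hρ : IsGaussRed W res N ϖ ρ) : ↥(gaussV W res N) →+* ↥(Fk k N) where
  toFun x := ⟨ρ x, (hρ.range _).2 ⟨x, rfl⟩⟩
  map_one' := Subtype.ext (map_one ρ)
  map_mul' _ _ := Subtype.ext (map_mul ρ _ _)
  map_zero' := Subtype.ext (map_zero ρ)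
  map_add' _ _ := Subtype.ext (map_add ρ _ _)

theorem rcp_rho_coe {L : Type} [Field L] [Algebra ℚ L] (W : ValuationSubring L) {k : Type}
    [Field k] (res : ↥W →+* k) (N : ℕ) [NeZero N] (ϖ : ↥W)
    (ρ : ↥(gaussV W res N) →+* LaurentSeries k) (hρ : IsGaussRed W res N ϖ ρ)
    (x : ↥(gaussV W res N)) :
    ((rcp_rho W res N ϖ ρ hρ x : ↥(Fk k N)) : LaurentSeries k) = ρ x := rfl

/-- Constants of `W` lie in every chart. -/
theorem rcp_cW_mem_chart {L : Type} [Field L] [Algebra ℚ L] (W : ValuationSubring L) (N : ℕ)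
    (S : Set ↥(FL L N)) (w : ↥W) : cW W N w ∈ chart W N S := by
  have hx : cW W N w ∈ baseRing W N S := Subring.subset_closure (Or.inl ⟨w, rfl⟩)
  exact isIntegral_algebraMap (R := ↥(baseRing W N S)) (A := ↥(FL L N)) (x := ⟨cW W N w, hx⟩)

/-- `ρ` maps the constant `w ∈ W` to the constant `res w`. -/
theorem rcp_rho_cW {L : Type} [Field L] [Algebra ℚ L] (W : ValuationSubring L) {k : Type}
    [Field k] (res : ↥W →+* k) (N : ℕ) [NeZero N] (ϖ : ↥W)
    (ρ : ↥(gaussV W res N) →+* LaurentSeries k) (hρ : IsGaussRed W res N ϖ ρ) (w : ↥W)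
    (hV : cW W N w ∈ gaussV W res N) :
    ρ ⟨cW W N w, hV⟩ = algebraMap k (LaurentSeries k) (res w) := by
  have h1 : coeffMap W.subtype (HahnSeries.single 0 w) =
      algebraMap L (LaurentSeries L) (w : L) := by
    rw [coeffMap_single, algebraMap_laurentSeries_eq_single]
    rfl
  have h2 : coeffMap W.subtype (HahnSeries.single 0 w) ∈ FL L N := by
    rw [h1]
    exact (FL L N).algebraMap_mem _
  have h4 : (⟨coeffMap W.subtype (HahnSeries.single 0 w), h2⟩ : ↥(FL L N)) = cW W N w := by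
    apply Subtype.ext
    exact h1
  have h3 : (⟨coeffMap W.subtype (HahnSeries.single 0 w), h2⟩ : ↥(FL L N)) ∈ gaussV W res N := by
    rw [h4]; exact hV
  have h5 := hρ.red (HahnSeries.single 0 w) h2 h3
  have h6 : coeffMap res (HahnSeries.single 0 w) = algebraMap k (LaurentSeries k) (res w) := by
    rw [coeffMap_single, algebraMap_laurentSeries_eq_single]
  rw [← h6, ← h5]
  congr 1
  exact Subtype.ext h4.symm

/-- An element of the chart lies in `m` iff it is not a unit of the localisation at `m`. -/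
theorem rcp_not_isUnit_iff {F : Type} [Field F] (A : Subring F) (m : Ideal ↥A) [hm : m.IsPrime]
    (g : ↥A) : ¬ IsUnit (⟨(g : F), le_locSub A m g.2⟩ : ↥(locSub A m)) ↔ g ∈ m := by
  rw [locSubB_isUnit_iff]
  constructor
  · intro h
    by_contra hg
    exact h ⟨g, 1, hg, fun h1 => hm.ne_top ((Ideal.eq_top_iff_one m).2 h1), by simp⟩
  · rintro hg ⟨a, s, ha, hs, h⟩
    apply ha
    have : a = g * s := Subtype.ext (by rw [← h]; rfl)
    rw [this]
    exact m.mul_mem_right s hg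

set_option maxHeartbeats 1000000 in
/-- (ChartPlace) -/
theorem rcp_main : SmStatement → GaussStatement → ChartGaussStatement → FinLStatement →
    e_IntFinStatement → e_LSFactStatement → ChartPlaceStatement := by
  intro hSm hG hCG hFin hIF hLS N _ ℓ _ L _ _ W _ k _ _ _ res ϖ hD hH ρ hρ S hS m _ ϖc hϖc hϖm
  -- the `V`-data
  obtain ⟨-, hval, hϖV, -, -⟩ := hG N ℓ L W k res ϖ hD
  have hrange : ∀ x : ↥(gaussV W res N), ρ x ≠ 0 → ∃ x' : ↥(gaussV W res N), ρ x' = (ρ x)⁻¹ := by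
    intro x _
    have h1 : ρ x ∈ Fk k N := (hρ.range _).2 ⟨x, rfl⟩
    exact (hρ.range _).1 ((Fk k N).inv_mem h1)
  have hVD := e_egmainTA_nonunit (gaussV W res N) (cW W N ϖ) hval hϖV ρ hρ.ker hrange
  -- the chart
  have hS3 : S = {jF L N} ∨ S = {(jF L N)⁻¹} ∨ S = {jF L N, (jF L N)⁻¹} := by
    rcases hS with h | h
    · exact Or.inl h
    · exact Or.inr (Or.inl h)
  obtain ⟨hAV, hsatA⟩ := hCG N ℓ L W k res ϖ hD S hS3
  have hϖA : cW W N ϖ ∈ chart W N S := rcp_cW_mem_chart W N S ϖ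
  have hϖm' : (⟨cW W N ϖ, hϖA⟩ : ↥(chart W N S)) ∈ m := by
    have : (⟨cW W N ϖ, hϖA⟩ : ↥(chart W N S)) = ϖc := Subtype.ext hϖc.symm
    rw [this]; exact hϖm
  have hRV : locSub (chart W N S) m ≤ gaussV W res N :=
    e_egmainTLG_locSub_le (cW W N ϖ) (gaussV W res N) (chart W N S) hVD hAV hϖA hsatA m hϖm'
  have hϖR : cW W N ϖ ∈ locSub (chart W N S) m := le_locSub _ m hϖA
  have hsatR := e_egmainTLG_locSub_sat (cW W N ϖ) (gaussV W res N) (chart W N S) hAV hsatA m
  -- noetherian, fraction field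
  have hNF : IsNoetherianRing ↥(chart W N S) ∧ e_IsFrac (chart W N S) := by
    rcases hS with h | h
    · rw [h]
      exact (e_egmainT_balt_main hFin hIF N L W (jF L N) (Or.inl rfl)).2.2.2
    · rw [h]
      exact (e_egmainT_balt_main hFin hIF N L W (jF L N)⁻¹ (Or.inr rfl)).2.2.2
  obtain ⟨hnoeth, hfrac⟩ := hNF
  -- smoothness
  have hdvr : IsDVRQuot ↥(locSub (chart W N S) m) ⟨cW W N ϖ, hϖR⟩ :=
    (locSubB_main _ (chart W N S) m ⟨cW W N ϖ, hϖA⟩ hϖR).1
      (hSm N ℓ L W k res ϖ hD hH S hS m ⟨cW W N ϖ, hϖA⟩ rfl hϖm')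
  have hlocR : IsLocalRing ↥(locSub (chart W N S) m) := locSubB_isLocalRing _ m
  -- `V = R_(ϖ)`
  obtain ⟨-, -, hden⟩ := hLS ↥(FL L N) 2 1 (cW W N ϖ) (gaussV W res N) (locSub (chart W N S) m)
    Nat.prime_two one_ne_zero hVD.1 hVD.2.1 hVD.2.2.1 hVD.2.2.2 hRV hϖR hsatR hlocR
    (locSubB_isNoetherianRing _ m) (e_egmainTLG_locSub_isFrac _ hfrac m) hdvr
    (one_mem _) (by rw [inv_one]; exact one_mem _)
    (fun O _ _ _ _ => ⟨1, one_ne_zero, by rw [one_pow, mul_one]; exact one_mem _,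
      by rw [one_pow, mul_one, inv_one]; exact one_mem _⟩)
  -- the abstract theorem
  have hker' : ∀ x : ↥(gaussV W res N), rcp_rho W res N ϖ ρ hρ x = 0 ↔
      ∃ x' : ↥(gaussV W res N), (x : ↥(FL L N)) = cW W N ϖ * (x' : ↥(FL L N)) := by
    intro x
    rw [← hρ.ker x]
    constructor
    · intro h
      exact congrArg Subtype.val h
    · intro h
      exact Subtype.ext h
  have hsurj : Function.Surjective (rcp_rho W res N ϖ ρ hρ) := by
    intro z
    obtain ⟨x, hx⟩ := (hρ.range _).1 z.2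
    exact ⟨x, Subtype.ext hx⟩
  obtain ⟨O, hO1, hOtop, hOpir, hO4⟩ := rcp_abstract (gaussV W res N) (locSub (chart W N S) m)
    (cW W N ϖ) hVD hRV hϖR hsatR hlocR hdvr hden (rcp_rho W res N ϖ ρ hρ) hker' hsurj
  refine ⟨⟨O, ?_, hOtop, hOpir⟩, ?_, ?_⟩
  · -- constants
    intro a
    obtain ⟨w, rfl⟩ := hD.res_surjective a
    rw [hO1]
    refine ⟨cW W N w, le_locSub _ m (rcp_cW_mem_chart W N S w), Subtype.ext ?_⟩
    rw [rcp_rho_coe, rcp_rho_cW W res N ϖ ρ hρ w]
    rfl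
  · intro z
    show z ∈ O ↔ _
    rw [hO1]
    constructor
    · rintro ⟨g, hR, h⟩
      exact ⟨g, hR, hRV hR, congrArg Subtype.val h⟩
    · rintro ⟨g, hR, hV, h⟩
      exact ⟨g, hR, Subtype.ext h⟩
  · intro g hV hk
    have h1 := hO4 (g : ↥(FL L N)) (le_locSub _ m g.2)
    rw [rcp_not_isUnit_iff (chart W N S) m g] at h1
    exact h1

end

end Fermat.Agent.S37
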