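/-
S37, block R, package RCS (ChartSurj): every place `x` of `F_k` comes from a maximal ideal of a
chart.  Namespace `Fermat.Agent.S37`, prefix `rcsb_`.

Main result: `rcsb_main : ChartPlaceStatement → ValKStatement → PlaceMaxStatement → GaussStatement →
ChartGaussStatement → ChartSurjStatement`.

Proof.  `ρ` maps the base ring `W[S]` into `O_x` (constants go to constants, `j ↦ j̄`,
`1/j ↦ 1/j̄`), hence the chart `A_i` (integral closure; `O_x` is integrally closed) into `O_x`.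
The ideal `m = {g ∈ A_i | ρ(g) ∈ m_x}` is maximal (every element of `O_x` has a value in `k`, and
constants lift), it contains `ϖ`, and `ρ((A_i)_m) ⊆ O_x`; the place `x'` with valuation ring
`ρ((A_i)_m)` given by ChartPlace is then equal to `x` by maximality of discrete valuation rings.
-/
import Fermat.Agent.S37.RInterfaces
import Fermat.Agent.S37.HV

set_option autoImplicit false
set_option synthInstance.maxHeartbeats 400000

open ModularCurve AlgebraicCurve

namespace Fermat.Agent.S37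

open Fermat.Agent.S18

/-! ## Abstract part: a ring homomorphism on a subring `V` of a field, and a place -/

section Abstract

variable {F : Type} [Field F] {K E : Type} [Field K] [Field E] [Algebra K E]

/-- If `ρ` maps `B` into the valuation ring `O`, it maps every element integral over `B` into
`O`. -/
theorem rcsb_integral_mem (V B : Subring F) (hBV : B ≤ V) (ρ : ↥V →+* E) (O : ValuationSubring E)
    (hB : ∀ b : ↥B, ρ ⟨(b : F), hBV b.2⟩ ∈ O) (g : ↥V) (hg : IsIntegral ↥B (g : F)) :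
    ρ g ∈ O := by
  obtain ⟨p, hp, hpg⟩ := hg
  let φB : ↥B →+* ↥O := (ρ.comp (Subring.inclusion hBV)).codRestrict O (fun b => hB b)
  have h1 : Polynomial.eval₂ (Subring.inclusion hBV) g p = 0 := by
    apply Subtype.ext
    have h := Polynomial.hom_eval₂ p (Subring.inclusion hBV) V.subtype g
    exact h.trans hpg
  have h2 : Polynomial.eval₂ (ρ.comp (Subring.inclusion hBV)) (ρ g) p = 0 := by
    rw [← Polynomial.hom_eval₂, h1, map_zero]
  have h3 : IsIntegral ↥O (ρ g) := by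
    refine ⟨p.map φB, hp.map _, ?_⟩
    rw [Polynomial.eval₂_map]
    exact h2
  obtain ⟨y, hy⟩ := IsIntegrallyClosed.isIntegral_iff.1 h3
  rw [← hy]
  exact y.2

/-- The ideal `{a ∈ A | ρ a ∈ m_x}` is maximal, provided every element of `O_x` has a value and
the constants lift to `A`. -/
theorem rcsb_exists_ideal (V A : Subring F) (hAV : A ≤ V) (ρ : ↥V →+* E) (x : Place K E)
    (hA : ∀ a : ↥A, ρ ⟨(a : F), hAV a.2⟩ ∈ x.toValuationSubring)
    (hval : ∀ s : E, s ∈ x.toValuationSubring → ∃ c : K, HasValue x s c)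
    (hconst : ∀ c : K, ∃ a : ↥A, ρ ⟨(a : F), hAV a.2⟩ = algebraMap K E c) :
    ∃ m : Ideal ↥A, m.IsMaximal ∧
      ∀ a : ↥A, a ∈ m ↔ ρ ⟨(a : F), hAV a.2⟩ ∈ x.toValuationSubring.nonunits := by
  let φ : ↥A →+* ↥x.toValuationSubring :=
    (ρ.comp (Subring.inclusion hAV)).codRestrict x.toValuationSubring (fun a => hA a)
  let m : Ideal ↥A := (IsLocalRing.maximalIdeal ↥x.toValuationSubring).comap φ
  have hm : ∀ a : ↥A, a ∈ m ↔ ρ ⟨(a : F), hAV a.2⟩ ∈ x.toValuationSubring.nonunits := by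
    intro a
    rw [ValuationSubring.mem_nonunits_iff_exists_mem_maximalIdeal]
    constructor
    · intro h
      exact ⟨hA a, h⟩
    · rintro ⟨_, h⟩
      exact h
  refine ⟨m, ?_, hm⟩
  rw [Ideal.isMaximal_iff]
  refine ⟨?_, ?_⟩
  · intro h1
    rw [hm] at h1
    have h2 : ρ ⟨((1 : ↥A) : F), hAV (1 : ↥A).2⟩ = 1 := map_one ρ
    rw [h2] at h1
    exact hv_not_nonunit (hv_one x) one_ne_zero h1
  · intro J g hmJ hg hgJ
    obtain ⟨c, hc⟩ := hval _ (hA g)
    have hc0 : c ≠ 0 := by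
      rintro rfl
      exact hg ((hm g).2 (hv_zero_iff.1 hc))
    obtain ⟨a, ha⟩ := hconst c⁻¹
    have h1 : g * a - 1 ∈ m := by
      rw [hm]
      have h2 : ρ ⟨((g * a - 1 : ↥A) : F), hAV (g * a - 1 : ↥A).2⟩
          = ρ ⟨(g : F), hAV g.2⟩ * ρ ⟨(a : F), hAV a.2⟩ - 1 := by
        rw [← map_mul, ← map_one ρ, ← map_sub]
        rfl
      rw [h2, ha]
      have h3 := hv_sub (hv_mul hc (hv_algebraMap x c⁻¹)) (hv_one x)
      rw [mul_inv_cancel₀ hc0, sub_self] at h3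
      exact hv_zero_iff.1 h3
    have h4 : (1 : ↥A) = g * a - (g * a - 1) := by ring
    rw [h4]
    exact J.sub_mem (J.mul_mem_right _ hgJ) (hmJ h1)

/-- `ρ` maps the localisation of `A` at `m = {a | ρ a ∈ m_x}` into `O_x`. -/
theorem rcsb_loc_mem (V A : Subring F) (hAV : A ≤ V) (ρ : ↥V →+* E) (x : Place K E)
    (hA : ∀ a : ↥A, ρ ⟨(a : F), hAV a.2⟩ ∈ x.toValuationSubring)
    (m : Ideal ↥A) [m.IsPrime]
    (hm : ∀ a : ↥A, a ∈ m ↔ ρ ⟨(a : F), hAV a.2⟩ ∈ x.toValuationSubring.nonunits)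
    (g : ↥V) (hg : (g : F) ∈ locSub A m) : ρ g ∈ x.toValuationSubring := by
  obtain ⟨a, s, hs, h⟩ := hg
  have h1 : g * ⟨(s : F), hAV s.2⟩ = ⟨(a : F), hAV a.2⟩ := Subtype.ext h
  have h2 : ρ g * ρ ⟨(s : F), hAV s.2⟩ = ρ ⟨(a : F), hAV a.2⟩ := by
    rw [← map_mul, h1]
  have hs1 : ρ ⟨(s : F), hAV s.2⟩ ∈ x.toValuationSubring := hA s
  have hs2 : ρ ⟨(s : F), hAV s.2⟩ ∉ x.toValuationSubring.nonunits := fun h' => hs ((hm s).2 h')
  have ha1 : ρ ⟨(a : F), hAV a.2⟩ ∈ x.toValuationSubring := hA a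
  rw [← ValuationSubring.valuation_le_one_iff] at hs1 ha1 ⊢
  rw [ValuationSubring.mem_nonunits_iff, not_lt] at hs2
  have hs3 : x.toValuationSubring.valuation (ρ ⟨(s : F), hAV s.2⟩) = 1 := le_antisymm hs1 hs2
  rw [← h2, map_mul, hs3, mul_one] at ha1
  exact ha1

end Abstract

/-! ## Facts on the reduction map `ρ` -/

section Rho

variable {L : Type} [Field L] [Algebra ℚ L] (W : ValuationSubring L) {k : Type} [Field k]
  (res : ↥W →+* k) (N : ℕ)

theorem rcsb_const_eq (w : ↥W) :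
    coeffMap W.subtype (HahnSeries.single 0 w) = ((cW W N w : ↥(FL L N)) : LaurentSeries L) := by
  rw [coeffMap_single]
  exact (algebraMap_laurentSeries_eq_single L (w : L)).symm

theorem rcsb_const_mem (w : ↥W) : coeffMap W.subtype (HahnSeries.single 0 w) ∈ FL L N := by
  rw [rcsb_const_eq W N w]
  exact (cW W N w).2

variable [NeZero N] (ϖ : ↥W) (ρ : ↥(gaussV W res N) →+* LaurentSeries k)

/-- `ρ` is `res` on constants. -/
theorem rcsb_rho_const (hρ : IsGaussRed W res N ϖ ρ) (w : ↥W) (hV : cW W N w ∈ gaussV W res N) :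
    ρ ⟨cW W N w, hV⟩ = algebraMap k (LaurentSeries k) (res w) := by
  have key : (⟨coeffMap W.subtype (HahnSeries.single 0 w), rcsb_const_mem W N w⟩ : ↥(FL L N))
      = cW W N w := Subtype.ext (rcsb_const_eq W N w)
  have hV0 : (⟨coeffMap W.subtype (HahnSeries.single 0 w), rcsb_const_mem W N w⟩ : ↥(FL L N))
      ∈ gaussV W res N := by rw [key]; exact hV
  have h2 : (⟨⟨coeffMap W.subtype (HahnSeries.single 0 w), rcsb_const_mem W N w⟩, hV0⟩ :
      ↥(gaussV W res N)) = ⟨cW W N w, hV⟩ := Subtype.ext key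
  rw [← h2, hρ.red, coeffMap_single, algebraMap_laurentSeries_eq_single]

theorem rcsb_j_mem : coeffMap W.subtype (jqModC ↥W) ∈ FL L N := by
  rw [coeffMap_jqModC]
  exact (jF L N).2

theorem rcsb_j_eq :
    (⟨coeffMap W.subtype (jqModC ↥W), rcsb_j_mem W N⟩ : ↥(FL L N)) = jF L N :=
  Subtype.ext (coeffMap_jqModC _)

/-- `j ∈ V`, from the first clause of `GaussStatement`. -/
theorem rcsb_jF_mem_gaussV
    (h : ∀ (y : LaurentSeries ↥W) (hy : coeffMap W.subtype y ∈ FL L N),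
      (⟨coeffMap W.subtype y, hy⟩ : ↥(FL L N)) ∈ gaussV W res N) :
    jF L N ∈ gaussV W res N := by
  rw [← rcsb_j_eq W N]
  exact h _ _

/-- `ρ(j) = j̄`. -/
theorem rcsb_rho_j (hρ : IsGaussRed W res N ϖ ρ) (hV : jF L N ∈ gaussV W res N) :
    ρ ⟨jF L N, hV⟩ = jqModC k := by
  have key := rcsb_j_eq W (L := L) N
  have hV0 : (⟨coeffMap W.subtype (jqModC ↥W), rcsb_j_mem W N⟩ : ↥(FL L N))
      ∈ gaussV W res N := by rw [key]; exact hV
  have h2 : (⟨⟨coeffMap W.subtype (jqModC ↥W), rcsb_j_mem W N⟩, hV0⟩ :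
      ↥(gaussV W res N)) = ⟨jF L N, hV⟩ := Subtype.ext key
  rw [← h2, hρ.red, coeffMap_jqModC]

theorem rcsb_jF_ne_zero : jF L N ≠ 0 := by
  intro h
  have h1 : ((jF L N : ↥(FL L N)) : LaurentSeries L) = 0 := by rw [h]; rfl
  rw [coe_jF] at h1
  exact jqModC_ne_zero_of_nontrivial L h1

/-- `ρ(1/j) = 1/j̄`. -/
theorem rcsb_rho_j_inv (hρ : IsGaussRed W res N ϖ ρ) (hV : jF L N ∈ gaussV W res N)
    (hV' : (jF L N)⁻¹ ∈ gaussV W res N) :
    ρ ⟨(jF L N)⁻¹, hV'⟩ = (jqModC k)⁻¹ := by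
  have h1 : (⟨(jF L N)⁻¹, hV'⟩ : ↥(gaussV W res N)) * ⟨jF L N, hV⟩ = 1 :=
    Subtype.ext (inv_mul_cancel₀ (rcsb_jF_ne_zero N))
  have h2 : ρ ⟨(jF L N)⁻¹, hV'⟩ * ρ ⟨jF L N, hV⟩ = 1 := by
    rw [← map_mul, h1, map_one]
  rw [rcsb_rho_j W res N ϖ ρ hρ hV] at h2
  exact eq_inv_of_mul_eq_one_left h2

end Rho

/-! ## The main theorem -/

/-- (ChartSurj) Every place `x` of `F_k` comes from a maximal ideal of a chart. -/
theorem rcsb_main : ChartPlaceStatement → ValKStatement → PlaceMaxStatement → GaussStatement →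
    ChartGaussStatement → ChartSurjStatement := by
  intro hCP hValK hPM hG hCG N _ ℓ _ L _ _ W _ k _ _ _ res ϖ hD hH ρ hρ x S hS
  have hS' : S = {jF L N} ∨ S = {(jF L N)⁻¹} :=
    hS.elim (fun h => Or.inl h.1) (fun h => Or.inr h.1)
  have hAV : chart W N S ≤ gaussV W res N :=
    (hCG N ℓ L W k res ϖ hD S (hS'.elim Or.inl (fun h => Or.inr (Or.inl h)))).1
  have hBA : baseRing W N S ≤ chart W N S := by
    intro b hb
    rw [mem_chart_iff]
    exact isIntegral_algebraMap (R := ↥(baseRing W N S)) (x := ⟨b, hb⟩)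
  have hBV : baseRing W N S ≤ gaussV W res N := hBA.trans hAV
  have hjV : jF L N ∈ gaussV W res N :=
    rcsb_jF_mem_gaussV W res N (hG N ℓ L W k res ϖ hD).1
  -- `ρ` lands in `F_k`
  have hρk : ∀ v : ↥(gaussV W res N), ρ v ∈ Fk k N := fun v => (hρ.range _).2 ⟨v, rfl⟩
  let ρk : ↥(gaussV W res N) →+* ↥(Fk k N) := ρ.codRestrict (Fk k N) hρk
  -- constants
  have hcB : ∀ w : ↥W, cW W N w ∈ baseRing W N S :=
    fun w => Subring.subset_closure (Or.inl ⟨w, rfl⟩)
  have hck : ∀ (w : ↥W) (hV : cW W N w ∈ gaussV W res N),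
      ρk ⟨cW W N w, hV⟩ = algebraMap k ↥(Fk k N) (res w) :=
    fun w hV => Subtype.ext (rcsb_rho_const W res N ϖ ρ hρ w hV)
  -- step 0: `ρ` maps the base ring into `O_x`
  have hB : ∀ b : ↥(baseRing W N S),
      ρk ⟨(b : ↥(FL L N)), hBV b.2⟩ ∈ x.toValuationSubring := by
    have hle : baseRing W N S
        ≤ (x.toValuationSubring.toSubring.comap ρk).map (gaussV W res N).subtype := by
      refine Subring.closure_le.2 ?_
      rintro b (⟨w, rfl⟩ | hb)
      · refine ⟨⟨cW W N w, hBV (hcB w)⟩, ?_, rfl⟩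
        show ρk _ ∈ x.toValuationSubring
        rw [hck]
        exact x.algebraMap_mem' _
      · rcases hS with ⟨rfl, hj⟩ | ⟨rfl, hj⟩
        · rw [Set.mem_singleton_iff] at hb
          subst hb
          refine ⟨⟨jF L N, hjV⟩, ?_, rfl⟩
          show ρk _ ∈ x.toValuationSubring
          have h1 : ρk ⟨jF L N, hjV⟩ = jk k N :=
            Subtype.ext (rcsb_rho_j W res N ϖ ρ hρ hjV)
          rw [h1]
          exact hj
        · rw [Set.mem_singleton_iff] at hb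
          subst hb
          have hjiV : (jF L N)⁻¹ ∈ gaussV W res N :=
            hBV (Subring.subset_closure (Or.inr rfl))
          refine ⟨⟨(jF L N)⁻¹, hjiV⟩, ?_, rfl⟩
          show ρk _ ∈ x.toValuationSubring
          have h1 : ρk ⟨(jF L N)⁻¹, hjiV⟩ = (jk k N)⁻¹ :=
            Subtype.ext (rcsb_rho_j_inv W res N ϖ ρ hρ hjV hjiV)
          rw [h1]
          exact hj
    intro b
    obtain ⟨v, hv, hvb⟩ := hle b.2
    have hvb' : v = ⟨(b : ↥(FL L N)), hBV b.2⟩ := Subtype.ext hvb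
    rw [← hvb']
    exact hv
  -- step 1: `ρ` maps the chart into `O_x`
  have hA : ∀ a : ↥(chart W N S),
      ρk ⟨(a : ↥(FL L N)), hAV a.2⟩ ∈ x.toValuationSubring := fun a =>
    rcsb_integral_mem (gaussV W res N) (baseRing W N S) hBV ρk x.toValuationSubring hB
      ⟨(a : ↥(FL L N)), hAV a.2⟩ a.2
  -- step 2: the maximal ideal
  have hconst : ∀ c : k, ∃ a : ↥(chart W N S),
      ρk ⟨(a : ↥(FL L N)), hAV a.2⟩ = algebraMap k ↥(Fk k N) c := by
    intro c
    obtain ⟨w, rfl⟩ := hD.res_surjective c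
    exact ⟨⟨cW W N w, hBA (hcB w)⟩, hck w _⟩
  obtain ⟨m, hm, hmem⟩ := rcsb_exists_ideal (gaussV W res N) (chart W N S) hAV ρk x hA
    (fun s hs => hValK N ℓ hD.not_dvd k x s hs) hconst
  have := hm
  have hresϖ : res ϖ = 0 := by
    have h1 : ϖ ∈ RingHom.ker res := by
      rw [hD.ker_res]
      exact Ideal.mem_span_singleton_self ϖ
    exact h1
  have hϖm : (⟨cW W N ϖ, hBA (hcB ϖ)⟩ : ↥(chart W N S)) ∈ m := by
    rw [hmem]
    have h1 : ρk ⟨cW W N ϖ, hAV (hBA (hcB ϖ))⟩ = 0 := by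
      rw [hck ϖ, hresϖ, map_zero]
    rw [h1]
    exact hv_nonunits_zero x
  -- step 3: the place of ChartPlace is `x`
  obtain ⟨x', hx'1, -⟩ := hCP N ℓ L W k res ϖ hD hH ρ hρ S hS' m ⟨cW W N ϖ, hBA (hcB ϖ)⟩ rfl hϖm
  have hle : x'.toValuationSubring ≤ x.toValuationSubring := by
    intro z hz
    obtain ⟨g, hg, hV, hgz⟩ := (hx'1 z).1 hz
    have h1 := rcsb_loc_mem (gaussV W res N) (chart W N S) hAV ρk x hA m hmem ⟨g, hV⟩ hg
    have hz' : ρk ⟨g, hV⟩ = z := Subtype.ext hgz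
    rwa [hz'] at h1
  have hxx : x' = x := hPM k ↥(Fk k N) x' x hle
  rw [hxx] at hx'1
  refine ⟨m, hm, ⟨cW W N ϖ, hBA (hcB ϖ)⟩, rfl, hϖm, hx'1, ?_⟩
  intro g hV hk
  exact ⟨hA g, (hmem g).symm⟩

end Fermat.Agent.S37
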