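/-
S37, block R — INTERFACE FILE, part 2: the minimal datum and the transfer of SPEC to a sub-datum
(independence of the reduction map of places from the datum).  Namespace `Fermat.Agent.S37`.
-/
import Fermat.Agent.S37.RInterfaces

set_option autoImplicit false

open ModularCurve AlgebraicCurve

namespace Fermat.Agent.S37

open Fermat.Agent.S18

noncomputable section

set_option synthInstance.maxHeartbeats 400000

/-- (MinDatum) There is a datum `(L₀, ι₀, ϖ₀)` (with `HorizAt` and a reduction map `ρ₀`) that embeds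
into every datum: for every datum `(L, ι, ϖ)` there is `e : L₀ →+* L` with `ι ∘ e = ι₀`.
(`L₀` = the field generated by the roots of unity of order prime to `ℓ`.) -/
def MinDatumStatement : Prop :=
  ∀ (N ℓ : ℕ) [NeZero N] [Fact ℓ.Prime], ¬ ℓ ∣ N →
    ∀ A : ValuationSubring Qb, A.LiesOverPrime ℓ →
      ∃ (L₀ : Type) (_ : Field L₀) (_ : Algebra ℚ L₀) (ι₀ : L₀ →+* Qb)
        (_ : IsDiscreteValuationRing ↥(dW A ι₀)) (ϖ₀ : ↥(dW A ι₀)),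
        BaseData N ℓ (dW A ι₀) (dRes A ι₀) ϖ₀ ∧ HorizAt L₀ N ∧
        (∃ ρ₀ : ↥(gaussV (dW A ι₀) (dRes A ι₀) N) →+* LaurentSeries (kA A),
          IsGaussRed (dW A ι₀) (dRes A ι₀) N ϖ₀ ρ₀) ∧
        ∀ (L : Type) [Field L] [Algebra ℚ L] (ι : L →+* Qb) [IsDiscreteValuationRing ↥(dW A ι)]
          (ϖ : ↥(dW A ι)), BaseData N ℓ (dW A ι) (dRes A ι) ϖ →
          ∃ e : L₀ →+* L, ∀ a : L₀, ι (e a) = ι₀ a

/-- (Transfer) SPEC passes to a sub-datum: for data `(L₀, ι₀, ϖ₀, ρ₀)` and `(L, ι, ϖ, ρ)` and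
`e : L₀ →+* L` with `ι ∘ e = ι₀`, a place `x` of `F_k` with `SpecAt` for the datum `(L, ι, ρ)` at `P`
(chart `i`) has `SpecAt` for `(L₀, ι₀, ρ₀)` at `P` (same chart `i`). -/
def TransferStatement : Prop :=
  ∀ (N ℓ : ℕ) [NeZero N] [Fact ℓ.Prime], ¬ ℓ ∣ N →
    ∀ A : ValuationSubring Qb, A.LiesOverPrime ℓ →
    ∀ (L₀ : Type) [Field L₀] [Algebra ℚ L₀] (ι₀ : L₀ →+* Qb)
      [IsDiscreteValuationRing ↥(dW A ι₀)] (ϖ₀ : ↥(dW A ι₀)),
      BaseData N ℓ (dW A ι₀) (dRes A ι₀) ϖ₀ →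
    ∀ ρ₀ : ↥(gaussV (dW A ι₀) (dRes A ι₀) N) →+* LaurentSeries (kA A),
      IsGaussRed (dW A ι₀) (dRes A ι₀) N ϖ₀ ρ₀ →
    ∀ (L : Type) [Field L] [Algebra ℚ L] (ι : L →+* Qb) [IsDiscreteValuationRing ↥(dW A ι)]
      (ϖ : ↥(dW A ι)), BaseData N ℓ (dW A ι) (dRes A ι) ϖ →
    ∀ ρ : ↥(gaussV (dW A ι) (dRes A ι) N) →+* LaurentSeries (kA A),
      IsGaussRed (dW A ι) (dRes A ι) N ϖ ρ →
    ∀ e : L₀ →+* L, (∀ a : L₀, ι (e a) = ι₀ a) →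
    ∀ (P : Place Qb ↥(FL Qb N)) (x : Place (kA A) ↥(Fk (kA A) N)),
      (SpecAt N A ι ρ {jF L N} P x → SpecAt N A ι₀ ρ₀ {jF L₀ N} P x) ∧
      (SpecAt N A ι ρ {(jF L N)⁻¹} P x → SpecAt N A ι₀ ρ₀ {(jF L₀ N)⁻¹} P x)

end

end Fermat.Agent.S37
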