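/-
S37, block R, package RDE (part 1): `rde_datum : e_BaseRingStatement → GaussStatement →
h_HorizAbsStatement → DatumExistsStatement`.
-/
import Fermat.Agent.S37.RInterfaces2
import Fermat.Agent.S18.EBaseRingT
import Fermat.Agent.S18.EInterfaces3

set_option autoImplicit false

open ModularCurve AlgebraicCurve

namespace Fermat.Agent.S37

open Fermat.Agent.S18

set_option synthInstance.maxHeartbeats 400000

/-- (DatumExists) from the S18 base ring statement, the Gauss statement and the abstract
horizontal ramification statement. -/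
theorem rde_datum :
    e_BaseRingStatement → GaussStatement → h_HorizAbsStatement → DatumExistsStatement := by
  intro hB hG hH N ℓ _ _ hN A hA
  obtain ⟨hac, hcp, hT⟩ := hB N ℓ hN A hA
  refine ⟨hac, hcp, ?_⟩
  intro T
  obtain ⟨L₀, hTL, hdvr, ϖ, hbd⟩ := hT T
  have := hac
  have := hcp
  refine ⟨↥L₀, inferInstance, inferInstance, algebraMap ↥L₀ Qb, hdvr, ϖ, hbd,
    hH N ↥L₀ (algebraMap ↥L₀ Qb), ?_, ?_⟩
  · intro s hs
    exact ⟨⟨s, hTL s hs⟩, rfl⟩
  · exact (hG N ℓ ↥L₀ (e_WL A L₀) (kA A) (e_res A L₀) ϖ hbd).2.2.2.2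

end Fermat.Agent.S37
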