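/-
S37, block R, package RDE (part 2): `rde_min : e_UnramStatement' → GaussStatement →
h_HorizAbsStatement → MinDatumStatement`.

The minimal datum is the field `L₁` generated (inside `Qb`) by all roots of unity of order prime
to `ℓ`; it is discretely valued with uniformiser `ℓ` (`e_baseringT_L1`), and it embeds into every
datum because a datum contains primitive `m`-th roots of unity for all `m` prime to `ℓ`.
-/
import Fermat.Agent.S37.RInterfaces2
import Fermat.Agent.S18.EBaseRingT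
import Fermat.Agent.S18.EInterfaces3

set_option autoImplicit false

open ModularCurve AlgebraicCurve

namespace Fermat.Agent.S37

open Fermat.Agent.S18

set_option synthInstance.maxHeartbeats 400000

/-- The subfield of `Qb` generated by the roots of unity of order prime to `ℓ`, as an
intermediate field of `Qb / ℚ`. -/
noncomputable def rde_L1 (ℓ : ℕ) : IntermediateField ℚ Qb :=
  Subfield.toIntermediateField (Subfield.closure {ζ : Qb | ∃ m : ℕ, ¬ ℓ ∣ m ∧ ζ ^ m = 1})
    (fun x => by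
      rw [eq_ratCast]
      exact SubfieldClass.ratCast_mem _ x)

theorem rde_mem_L1 (ℓ : ℕ) (x : Qb) :
    x ∈ rde_L1 ℓ ↔ x ∈ Subfield.closure {ζ : Qb | ∃ m : ℕ, ¬ ℓ ∣ m ∧ ζ ^ m = 1} :=
  Iff.rfl

/-- The roots of unity of order prime to `ℓ` lie in the image of every datum. -/
theorem rde_L1_le_range (N ℓ : ℕ) {L : Type} [Field L] (W : ValuationSubring L) {k : Type}
    [Field k] (res : ↥W →+* k) (ϖ : ↥W) (hbd : BaseData N ℓ W res ϖ) (ι : L →+* Qb) (x : Qb)
    (hx : x ∈ rde_L1 ℓ) : ∃ c : L, ι c = x := by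
  have hle : Subfield.closure {ζ : Qb | ∃ m : ℕ, ¬ ℓ ∣ m ∧ ζ ^ m = 1} ≤ ι.fieldRange := by
    rw [Subfield.closure_le]
    rintro ζ ⟨m, hm, hζ⟩
    obtain ⟨ζ₀, hζ₀⟩ := hbd.roots m hm
    have hm0 : m ≠ 0 := by rintro rfl; exact hm (dvd_zero _)
    have hprim : IsPrimitiveRoot (ι (ζ₀ : L)) m := hζ₀.map_of_injective ι.injective
    have : NeZero m := ⟨hm0⟩
    obtain ⟨i, _, rfl⟩ := hprim.eq_pow_of_pow_eq_one hζ
    exact ⟨(ζ₀ : L) ^ i, by rw [map_pow]⟩
  exact hle ((rde_mem_L1 ℓ x).mp hx)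

/-- A ring homomorphism `K →+* L` lifting `j : K →+* Ω` through an injective `ι : L →+* Ω` whose
image contains the image of `j`. -/
theorem rde_lift {K L Ω : Type} [Field K] [Field L] [Field Ω] (j : K →+* Ω) (ι : L →+* Ω)
    (h : ∀ a : K, ∃ c : L, ι c = j a) : ∃ e : K →+* L, ∀ a : K, ι (e a) = j a := by
  choose f hf using h
  refine ⟨{ toFun := f, map_one' := ?_, map_mul' := ?_, map_zero' := ?_, map_add' := ?_ }, hf⟩
  · exact ι.injective (by rw [hf, map_one, map_one])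
  · intro a b
    exact ι.injective (by rw [hf, map_mul, map_mul, hf, hf])
  · exact ι.injective (by rw [hf, map_zero, map_zero])
  · intro a b
    exact ι.injective (by rw [hf, map_add, map_add, hf, hf])

/-- (MinDatum) from the (corrected) unramified-extension statement, the Gauss statement and the
abstract horizontal ramification statement. -/
theorem rde_min :
    e_UnramStatement' → GaussStatement → h_HorizAbsStatement → MinDatumStatement := by
  intro hU hG hH N ℓ _ _ hN A hA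
  have hℓ : ℓ.Prime := Fact.out
  have hA' : (ℓ : Qb) ∈ A.nonunits := hA
  obtain ⟨hac, hcp⟩ := e_baseringTA_main ℓ A hA'
  have hℓ0 : (ℓ : Qb) ≠ 0 := by exact_mod_cast hℓ.ne_zero
  obtain ⟨hdvr, ϖ, hbd⟩ := e_baseringT_core N ℓ hN A hA' (rde_L1 ℓ)
    (fun m ζ hm hζ => Subfield.subset_closure ⟨m, hm, hζ⟩)
    (ℓ : Qb) (natCast_mem _ ℓ) hℓ0 hA' (e_baseringT_L1 hU ℓ A hA')
  refine ⟨↥(rde_L1 ℓ), inferInstance, inferInstance, algebraMap ↥(rde_L1 ℓ) Qb, hdvr, ϖ, hbd,
    hH N ↥(rde_L1 ℓ) (algebraMap ↥(rde_L1 ℓ) Qb),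
    (hG N ℓ ↥(rde_L1 ℓ) (e_WL A (rde_L1 ℓ)) (kA A) (e_res A (rde_L1 ℓ)) ϖ hbd).2.2.2.2, ?_⟩
  intro L _ _ ι _ ϖ' hbd'
  exact rde_lift (algebraMap ↥(rde_L1 ℓ) Qb) ι
    (fun a => rde_L1_le_range N ℓ (dW A ι) (dRes A ι) ϖ' hbd' ι _ a.2)

end Fermat.Agent.S37
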