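/-
S37, block R, package RMIN (twin B): existence of the reduction map of places `r` with SPEC
(assembly of block R).  From the minimal datum `D₀ = (L₀, ι₀, ϖ₀, ρ₀)` (`MinDatumStatement`), the
place `r P` is chosen with `SpecAt` at `D₀` for the chart of `P` (`SpecAtExistsStatement`,
`InChartStatement`); for an arbitrary datum the place with `SpecAt` there is transferred to `D₀`
(`TransferStatement`) and therefore equals `r P` (`SpecUniqueStatement`).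
Namespace `Fermat.Agent.S37`, prefix `rminb_`.
-/
import Fermat.Agent.S37.RInterfaces2
import Fermat.Agent.S18.EInterfaces

set_option autoImplicit false

open ModularCurve AlgebraicCurve

namespace Fermat.Agent.S37

open Fermat.Agent.S18

noncomputable section

set_option synthInstance.maxHeartbeats 400000

/-- The chart of the place `P` for a datum with field `L`: `{j}` if `P` lies in the first chart,
`{1/j}` otherwise. -/
def rminb_chartSet (N : ℕ) [NeZero N] (A : ValuationSubring Qb) (L : Type) [Field L] [Algebra ℚ L]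
    (P : Place Qb ↥(FL Qb N)) : Set ↥(FL L N) :=
  open Classical in if InChart1 N A P then {jF L N} else {(jF L N)⁻¹}

theorem rminb_chartSet_pos (N : ℕ) [NeZero N] (A : ValuationSubring Qb) (L : Type) [Field L]
    [Algebra ℚ L] (P : Place Qb ↥(FL Qb N)) (h : InChart1 N A P) :
    rminb_chartSet N A L P = {jF L N} := by
  classical
  exact if_pos h

theorem rminb_chartSet_neg (N : ℕ) [NeZero N] (A : ValuationSubring Qb) (L : Type) [Field L]
    [Algebra ℚ L] (P : Place Qb ↥(FL Qb N)) (h : ¬ InChart1 N A P) :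
    rminb_chartSet N A L P = {(jF L N)⁻¹} := by
  classical
  exact if_neg h

/-- `rminb_chartSet` is the chart of `P`. -/
theorem rminb_isChartOf (hC : InChartStatement) (N : ℕ) [NeZero N] (A : ValuationSubring Qb)
    (L : Type) [Field L] [Algebra ℚ L] (P : Place Qb ↥(FL Qb N)) :
    IsChartOf N A (rminb_chartSet N A L P) P := by
  by_cases h1 : InChart1 N A P
  · exact Or.inl ⟨rminb_chartSet_pos N A L P h1, h1⟩
  · exact Or.inr ⟨rminb_chartSet_neg N A L P h1, ((hC N A P).1).resolve_left h1⟩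

/-- A chart `S` of `P` for the datum field `L`, transferred along `Transfer`, is the chart
`rminb_chartSet` at the minimal datum: `SpecAt` at `(L, ι, ρ)` for `S` gives `SpecAt` at
`(L₀, ι₀, ρ₀)` for `rminb_chartSet N A L₀ P`. -/
theorem rminb_transfer (hT : TransferStatement) (hC : InChartStatement)
    (N ℓ : ℕ) [NeZero N] [Fact ℓ.Prime] (hN : ¬ ℓ ∣ N) (A : ValuationSubring Qb)
    (hA : A.LiesOverPrime ℓ)
    (L₀ : Type) [Field L₀] [Algebra ℚ L₀] (ι₀ : L₀ →+* Qb)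
    [IsDiscreteValuationRing ↥(dW A ι₀)] (ϖ₀ : ↥(dW A ι₀))
    (hD₀ : BaseData N ℓ (dW A ι₀) (dRes A ι₀) ϖ₀)
    (ρ₀ : ↥(gaussV (dW A ι₀) (dRes A ι₀) N) →+* LaurentSeries (kA A))
    (hρ₀ : IsGaussRed (dW A ι₀) (dRes A ι₀) N ϖ₀ ρ₀)
    (L : Type) [Field L] [Algebra ℚ L] (ι : L →+* Qb) [IsDiscreteValuationRing ↥(dW A ι)]
    (ϖ : ↥(dW A ι)) (hD : BaseData N ℓ (dW A ι) (dRes A ι) ϖ)
    (ρ : ↥(gaussV (dW A ι) (dRes A ι) N) →+* LaurentSeries (kA A))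
    (hρ : IsGaussRed (dW A ι) (dRes A ι) N ϖ ρ)
    (e : L₀ →+* L) (he : ∀ a : L₀, ι (e a) = ι₀ a)
    (P : Place Qb ↥(FL Qb N)) (S : Set ↥(FL L N)) (hS : IsChartOf N A S P)
    (y : Place (kA A) ↥(Fk (kA A) N)) (hy : SpecAt N A ι ρ S P y) :
    SpecAt N A ι₀ ρ₀ (rminb_chartSet N A L₀ P) P y := by
  have hTr := hT N ℓ hN A hA L₀ ι₀ ϖ₀ hD₀ ρ₀ hρ₀ L ι ϖ hD ρ hρ e he P y
  rcases hS with ⟨hS1, h1⟩ | ⟨hS2, h2⟩
  · rw [rminb_chartSet_pos N A L₀ P h1]
    rw [hS1] at hy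
    exact hTr.1 hy
  · have h1 : ¬ InChart1 N A P := fun h1 => (hC N A P).2 ⟨h1, h2⟩
    rw [rminb_chartSet_neg N A L₀ P h1]
    rw [hS2] at hy
    exact hTr.2 hy

/-- The assembly with the minimal datum given as explicit arguments. -/
theorem rminb_aux (hH : h_HorizAbsStatement) (hT : TransferStatement)
    (hE : SpecAtExistsStatement) (hU : SpecUniqueStatement) (hC : InChartStatement)
    (N ℓ : ℕ) [NeZero N] [Fact ℓ.Prime] (hN : ¬ ℓ ∣ N) (A : ValuationSubring Qb)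
    (hA : A.LiesOverPrime ℓ)
    (L₀ : Type) [Field L₀] [Algebra ℚ L₀] (ι₀ : L₀ →+* Qb)
    [IsDiscreteValuationRing ↥(dW A ι₀)] (ϖ₀ : ↥(dW A ι₀))
    (hD₀ : BaseData N ℓ (dW A ι₀) (dRes A ι₀) ϖ₀) (hHor₀ : HorizAt L₀ N)
    (ρ₀ : ↥(gaussV (dW A ι₀) (dRes A ι₀) N) →+* LaurentSeries (kA A))
    (hρ₀ : IsGaussRed (dW A ι₀) (dRes A ι₀) N ϖ₀ ρ₀)
    (hemb : ∀ (L : Type) [Field L] [Algebra ℚ L] (ι : L →+* Qb)
      [IsDiscreteValuationRing ↥(dW A ι)] (ϖ : ↥(dW A ι)),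
      BaseData N ℓ (dW A ι) (dRes A ι) ϖ → ∃ e : L₀ →+* L, ∀ a : L₀, ι (e a) = ι₀ a) :
    ∃ r : Place Qb ↥(FL Qb N) → Place (kA A) ↥(Fk (kA A) N), Spec N ℓ A r := by
  have hex : ∀ P : Place Qb ↥(FL Qb N), ∃ x : Place (kA A) ↥(Fk (kA A) N),
      SpecAt N A ι₀ ρ₀ (rminb_chartSet N A L₀ P) P x := fun P =>
    hE N ℓ hN A hA L₀ ι₀ ϖ₀ hD₀ hHor₀ ρ₀ hρ₀ P _ (rminb_isChartOf hC N A L₀ P)
  refine ⟨fun P => Classical.choose (hex P), (spec_iff N ℓ A _).mpr ?_⟩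
  intro L _ _ ι _ ϖ hD ρ hρ P S hS
  have hHor : HorizAt L N := hH N L ι
  obtain ⟨y, hy⟩ := hE N ℓ hN A hA L ι ϖ hD hHor ρ hρ P S hS
  obtain ⟨e, he⟩ := hemb L ι ϖ hD
  have hy₀ : SpecAt N A ι₀ ρ₀ (rminb_chartSet N A L₀ P) P y :=
    rminb_transfer hT hC N ℓ hN A hA L₀ ι₀ ϖ₀ hD₀ ρ₀ hρ₀ L ι ϖ hD ρ hρ e he P S hS y hy
  have key : y = Classical.choose (hex P) :=
    hU N ℓ hN A hA L₀ ι₀ ϖ₀ hD₀ hHor₀ ρ₀ hρ₀ P _ (rminb_isChartOf hC N A L₀ P) y _ hy₀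
      (Classical.choose_spec (hex P))
  rw [← key]
  exact hy

/-- Block R assembly: existence of a reduction map of places satisfying SPEC. -/
theorem rminb_main : h_HorizAbsStatement → MinDatumStatement → TransferStatement →
    SpecAtExistsStatement → SpecUniqueStatement → InChartStatement → RSpecStatement := by
  intro hH hM hT hE hU hC N ℓ _ _ hN A hA
  obtain ⟨L₀, iF, iA, ι₀, iD, ϖ₀, hD₀, hHor₀, ⟨ρ₀, hρ₀⟩, hemb⟩ := hM N ℓ hN A hA
  exact @rminb_aux hH hT hE hU hC N ℓ _ _ hN A hA L₀ iF iA ι₀ iD ϖ₀ hD₀ hHor₀ ρ₀ hρ₀ hemb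

end

end Fermat.Agent.S37
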