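/-
S37, block R, package RSE (twin B) — SPEC at one datum: existence, uniqueness, the ring, the chart
of `r P`.  Namespace `Fermat.Agent.S37`, prefix `rseb_`.

Main results: `rseb_exists`, `rseb_unique`, `rseb_ring`, `rseb_chart`.
-/
import Fermat.Agent.S37.RInterfaces
import Fermat.Agent.S37.HV

set_option autoImplicit false
set_option synthInstance.maxHeartbeats 400000

open ModularCurve AlgebraicCurve

namespace Fermat.Agent.S37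

open Fermat.Agent.S18

noncomputable section

/-! ## Facts on `ρ` and on the charts at an abstract datum -/

section Datum

variable {L : Type} [Field L] [Algebra ℚ L] (W : ValuationSubring L) {k : Type} [Field k]
  (res : ↥W →+* k) (N : ℕ)

theorem rseb_coe_cW (w : ↥W) :
    ((cW W N w : ↥(FL L N)) : LaurentSeries L) = coeffMap W.subtype (HahnSeries.single 0 w) := by
  rw [coeffMap_single]
  show algebraMap L (LaurentSeries L) (w : L) = _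
  rw [algebraMap_laurentSeries_eq_single]
  rfl

theorem rseb_baseRing_le_chart (S : Set ↥(FL L N)) : baseRing W N S ≤ chart W N S := by
  intro x hx
  rw [mem_chart_iff]
  exact isIntegral_algebraMap (x := (⟨x, hx⟩ : ↥(baseRing W N S)))

theorem rseb_cW_mem_chart (S : Set ↥(FL L N)) (w : ↥W) : cW W N w ∈ chart W N S :=
  rseb_baseRing_le_chart W N S (Subring.subset_closure (Or.inl ⟨w, rfl⟩))

theorem rseb_mem_chart_of_mem (S : Set ↥(FL L N)) {g : ↥(FL L N)} (hg : g ∈ S) :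
    g ∈ chart W N S :=
  rseb_baseRing_le_chart W N S (Subring.subset_closure (Or.inr hg))

variable [NeZero N]

/-- `ρ` is the coefficientwise reduction on elements with coefficients in `W`. -/
theorem rseb_rho_red {ϖ : ↥W} {ρ : ↥(gaussV W res N) →+* LaurentSeries k}
    (hρ : IsGaussRed W res N ϖ ρ) (g : ↥(FL L N)) (hV : g ∈ gaussV W res N)
    (y : LaurentSeries ↥W) (h : (g : LaurentSeries L) = coeffMap W.subtype y) :
    ρ ⟨g, hV⟩ = coeffMap res y := by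
  obtain ⟨g, hg⟩ := g
  simp only at h
  subst h
  exact hρ.red y hg hV

/-- `ρ` on constants. -/
theorem rseb_rho_cW {ϖ : ↥W} {ρ : ↥(gaussV W res N) →+* LaurentSeries k}
    (hρ : IsGaussRed W res N ϖ ρ) (w : ↥W) (hV : cW W N w ∈ gaussV W res N) :
    ρ ⟨cW W N w, hV⟩ = algebraMap k (LaurentSeries k) (res w) := by
  rw [rseb_rho_red W res N hρ (cW W N w) hV _ (rseb_coe_cW W N w), coeffMap_single,
    algebraMap_laurentSeries_eq_single]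

/-- `ρ(j) = j̄`. -/
theorem rseb_rho_j {ϖ : ↥W} {ρ : ↥(gaussV W res N) →+* LaurentSeries k}
    (hρ : IsGaussRed W res N ϖ ρ) (hV : jF L N ∈ gaussV W res N) :
    ρ ⟨jF L N, hV⟩ = jqModC k := by
  rw [rseb_rho_red W res N hρ (jF L N) hV (jqModC ↥W) (by rw [coeffMap_jqModC]; rfl),
    coeffMap_jqModC]

/-- `ρ` takes values in `F_k`. -/
theorem rseb_rho_mem {ϖ : ↥W} {ρ : ↥(gaussV W res N) →+* LaurentSeries k}
    (hρ : IsGaussRed W res N ϖ ρ) (x : ↥(gaussV W res N)) : ρ x ∈ Fk k N :=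
  (hρ.range (ρ x)).2 ⟨x, rfl⟩

theorem rseb_jF_ne_zero : jF L N ≠ 0 := by
  intro h
  have h' : ((jF L N : ↥(FL L N)) : LaurentSeries L) = 0 := by rw [h]; rfl
  exact jqModC_ne_zero_of_nontrivial L h'

/-- `ρ(1/j) = 1/j̄`. -/
theorem rseb_rho_jinv {ϖ : ↥W} {ρ : ↥(gaussV W res N) →+* LaurentSeries k}
    (hρ : IsGaussRed W res N ϖ ρ) (hV : jF L N ∈ gaussV W res N)
    (hV' : (jF L N)⁻¹ ∈ gaussV W res N) :
    ρ ⟨(jF L N)⁻¹, hV'⟩ = (jqModC k)⁻¹ := by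
  have h1 : ρ ⟨jF L N, hV⟩ * ρ ⟨(jF L N)⁻¹, hV'⟩ = 1 := by
    rw [← map_mul, ← map_one ρ]
    congr 1
    exact Subtype.ext (mul_inv_cancel₀ (rseb_jF_ne_zero N))
  rw [rseb_rho_j W res N hρ hV] at h1
  exact eq_inv_of_mul_eq_one_right h1

end Datum

/-! ## `A`-level -/

theorem rseb_residue_eq_zero_iff (A : ValuationSubring Qb) (c : ↥A) :
    IsLocalRing.residue ↥A c = 0 ↔ (c : Qb) ∈ A.nonunits := by
  rw [IsLocalRing.residue_eq_zero_iff, ValuationSubring.mem_nonunits_iff_exists_mem_maximalIdeal]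
  exact ⟨fun h => ⟨c.2, h⟩, fun ⟨_, h⟩ => h⟩

section ALevel

variable (N : ℕ) [NeZero N] (A : ValuationSubring Qb) {L : Type} [Field L] [Algebra ℚ L]
  (ι : L →+* Qb)

/-- A place `x` of `F_k` with `ρ(g) ∈ m_x ↔ g ∈ m_P` (for `g ∈ A_i`) satisfies `SpecAt`. -/
theorem rseb_specAt_of_place {ϖ : ↥(dW A ι)}
    (hsurj : Function.Surjective (dRes A ι))
    {ρ : ↥(gaussV (dW A ι) (dRes A ι) N) →+* LaurentSeries (kA A)}
    (hρ : IsGaussRed (dW A ι) (dRes A ι) N ϖ ρ)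
    (P : Place Qb ↥(FL Qb N)) (S : Set ↥(FL L N))
    (hcg : chart (dW A ι) N S ≤ gaussV (dW A ι) (dRes A ι) N)
    (hval : ∀ g : ↥(FL L N), g ∈ chart (dW A ι) N S →
      ∃ c : ↥A, HasValue P (dEmb N ι g) (c : Qb))
    (m : Ideal ↥(chart (dW A ι) N S))
    (hm : ∀ g : ↥(chart (dW A ι) N S),
      g ∈ m ↔ ∃ c : Qb, c ∈ A.nonunits ∧ HasValue P (dEmb N ι (g : ↥(FL L N))) c)
    (x : Place (kA A) ↥(Fk (kA A) N))
    (hx : ∀ (g : ↥(chart (dW A ι) N S)) (hV : (g : ↥(FL L N)) ∈ gaussV (dW A ι) (dRes A ι) N)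
      (hk : ρ ⟨(g : ↥(FL L N)), hV⟩ ∈ Fk (kA A) N),
        (⟨ρ ⟨(g : ↥(FL L N)), hV⟩, hk⟩ : ↥(Fk (kA A) N)) ∈ x.toValuationSubring.nonunits ↔
          g ∈ m) :
    SpecAt N A ι ρ S P x := by
  intro g hg hV hk
  obtain ⟨c, hc⟩ := hval g hg
  refine ⟨c, hc, ?_⟩
  obtain ⟨w, hw⟩ := hsurj (IsLocalRing.residue ↥A c)
  have hcw : cW (dW A ι) N w ∈ chart (dW A ι) N S := rseb_cW_mem_chart _ N S w
  have hg' : g - cW (dW A ι) N w ∈ chart (dW A ι) N S := Subring.sub_mem _ hg hcw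
  have hval' : HasValue P (dEmb N ι (g - cW (dW A ι) N w)) ((c : Qb) - ι (w : L)) := by
    rw [map_sub]
    refine hv_sub hc ?_
    have h1 : dEmb N ι (cW (dW A ι) N w) = algebraMap Qb ↥(FL Qb N) (ι (w : L)) :=
      dEmb_algebraMap N ι (w : L)
    rw [h1]
    exact hv_algebraMap P _
  have hnu : (c : Qb) - ι (w : L) ∈ A.nonunits := by
    have h1 : ((c - dIncl A ι w : ↥A) : Qb) = (c : Qb) - ι (w : L) := rfl
    rw [← h1, ← rseb_residue_eq_zero_iff, map_sub, ← dRes_apply, hw, sub_self]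
  have hmem : (⟨g - cW (dW A ι) N w, hg'⟩ : ↥(chart (dW A ι) N S)) ∈ m :=
    (hm _).2 ⟨_, hnu, hval'⟩
  have hVw := hcg hcw
  have hV' := hcg hg'
  have hk' := rseb_rho_mem _ _ N hρ ⟨g - cW (dW A ι) N w, hV'⟩
  have h1 := (hx ⟨g - cW (dW A ι) N w, hg'⟩ hV' hk').2 hmem
  have h2 : (⟨ρ ⟨g, hV⟩, hk⟩ : ↥(Fk (kA A) N))
      - algebraMap (kA A) ↥(Fk (kA A) N) (IsLocalRing.residue ↥A c)
      = ⟨ρ ⟨g - cW (dW A ι) N w, hV'⟩, hk'⟩ := by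
    apply Subtype.ext
    show ρ ⟨g, hV⟩ - algebraMap (kA A) (LaurentSeries (kA A)) (IsLocalRing.residue ↥A c)
      = ρ ⟨g - cW (dW A ι) N w, hV'⟩
    have h3 : (⟨g - cW (dW A ι) N w, hV'⟩ : ↥(gaussV (dW A ι) (dRes A ι) N))
        = ⟨g, hV⟩ - ⟨cW (dW A ι) N w, hVw⟩ := rfl
    rw [h3, map_sub, rseb_rho_cW _ _ N hρ w hVw, hw]
  unfold HasValue
  rw [h2]
  exact h1

/-- The ring `ρ((A_i)_{m_P})` is contained in the valuation ring of every place with `SpecAt`. -/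
theorem rseb_le_of_specAt {ϖ : ↥(dW A ι)}
    {ρ : ↥(gaussV (dW A ι) (dRes A ι) N) →+* LaurentSeries (kA A)}
    (hρ : IsGaussRed (dW A ι) (dRes A ι) N ϖ ρ)
    (P : Place Qb ↥(FL Qb N)) (S : Set ↥(FL L N))
    (hcg : chart (dW A ι) N S ≤ gaussV (dW A ι) (dRes A ι) N)
    (m : Ideal ↥(chart (dW A ι) N S)) [m.IsPrime]
    (hm : ∀ g : ↥(chart (dW A ι) N S),
      g ∈ m ↔ ∃ c : Qb, c ∈ A.nonunits ∧ HasValue P (dEmb N ι (g : ↥(FL L N))) c)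
    (x₀ x : Place (kA A) ↥(Fk (kA A) N))
    (hx₀ : ∀ z : ↥(Fk (kA A) N), z ∈ x₀.toValuationSubring →
      ∃ (g : ↥(FL L N)) (_ : g ∈ locSub (chart (dW A ι) N S) m)
        (hV : g ∈ gaussV (dW A ι) (dRes A ι) N), ρ ⟨g, hV⟩ = (z : LaurentSeries (kA A)))
    (hx : SpecAt N A ι ρ S P x) :
    x₀.toValuationSubring ≤ x.toValuationSubring := by
  intro z hz
  obtain ⟨g, hgloc, hV, hgz⟩ := hx₀ z hz
  obtain ⟨a, s, hs, has⟩ := hgloc
  have hVa := hcg a.2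
  have hVs := hcg s.2
  have hka := rseb_rho_mem _ _ N hρ ⟨(a : ↥(FL L N)), hVa⟩
  have hks := rseb_rho_mem _ _ N hρ ⟨(s : ↥(FL L N)), hVs⟩
  obtain ⟨ca, -, hca'⟩ := hx a a.2 hVa hka
  obtain ⟨cs, hcs, hcs'⟩ := hx s s.2 hVs hks
  have hcs0 : IsLocalRing.residue ↥A cs ≠ 0 := by
    intro h0
    rw [rseb_residue_eq_zero_iff] at h0
    exact hs ((hm s).2 ⟨_, h0, hcs⟩)
  have h1 := hv_mem hca'
  have h2 := hv_mem (hv_inv hcs' hcs0)
  have hs0 : (⟨ρ ⟨(s : ↥(FL L N)), hVs⟩, hks⟩ : ↥(Fk (kA A) N)) ≠ 0 := by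
    intro h0
    rw [h0] at hcs'
    exact hcs0 (hv_unique hcs' (hv_zero x))
  have h3 : z = ⟨ρ ⟨(a : ↥(FL L N)), hVa⟩, hka⟩
      * (⟨ρ ⟨(s : ↥(FL L N)), hVs⟩, hks⟩ : ↥(Fk (kA A) N))⁻¹ := by
    rw [eq_mul_inv_iff_mul_eq₀ hs0]
    apply Subtype.ext
    show (z : LaurentSeries (kA A)) * ρ ⟨(s : ↥(FL L N)), hVs⟩ = ρ ⟨(a : ↥(FL L N)), hVa⟩
    rw [← hgz, ← map_mul]
    congr 1
    exact Subtype.ext has
  rw [h3]
  exact x.toValuationSubring.mul_mem _ _ h1 h2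

end ALevel

/-! ## The deliverables -/

/-- (SpecAtExists). -/
theorem rseb_exists : ChartPlaceStatement → ChartIdealStatement → DatumExistsStatement →
    GaussStatement → ChartGaussStatement → SpecAtExistsStatement := by
  intro hCP hCI hDE _ hCG N ℓ _ _ hN A hA L _ _ ι _ ϖ hD hH ρ hρ P S hS
  obtain ⟨hac, hcp, -⟩ := hDE N ℓ hN A hA
  obtain ⟨hval, m, hm, ϖc, hϖc, hϖm, hmem⟩ := hCI N ℓ hN A hA L ι ϖ hD P S hS
  have hS' : S = {jF L N} ∨ S = {(jF L N)⁻¹} :=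
    hS.elim (fun h => Or.inl h.1) (fun h => Or.inr h.1)
  obtain ⟨x₀, -, hx₀'⟩ :=
    hCP N ℓ L (dW A ι) (kA A) (dRes A ι) ϖ hD hH ρ hρ S hS' m ϖc hϖc hϖm
  have hcg := (hCG N ℓ L (dW A ι) (kA A) (dRes A ι) ϖ hD S
    (hS'.elim Or.inl (fun h => Or.inr (Or.inl h)))).1
  exact ⟨x₀, rseb_specAt_of_place N A ι hD.res_surjective hρ P S hcg hval m hmem x₀ hx₀'⟩

/-- (SpecUnique). -/
theorem rseb_unique : ChartPlaceStatement → ChartIdealStatement → PlaceMaxStatement →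
    DatumExistsStatement → GaussStatement → ChartGaussStatement → SpecUniqueStatement := by
  intro hCP hCI hPM hDE _ hCG N ℓ _ _ hN A hA L _ _ ι _ ϖ hD hH ρ hρ P S hS x y hx hy
  obtain ⟨hac, hcp, -⟩ := hDE N ℓ hN A hA
  obtain ⟨-, m, hm, ϖc, hϖc, hϖm, hmem⟩ := hCI N ℓ hN A hA L ι ϖ hD P S hS
  have hS' : S = {jF L N} ∨ S = {(jF L N)⁻¹} :=
    hS.elim (fun h => Or.inl h.1) (fun h => Or.inr h.1)
  obtain ⟨x₀, hx₀, -⟩ :=
    hCP N ℓ L (dW A ι) (kA A) (dRes A ι) ϖ hD hH ρ hρ S hS' m ϖc hϖc hϖm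
  have hcg := (hCG N ℓ L (dW A ι) (kA A) (dRes A ι) ϖ hD S
    (hS'.elim Or.inl (fun h => Or.inr (Or.inl h)))).1
  have h1 : x₀ = x := hPM _ _ x₀ x
    (rseb_le_of_specAt N A ι hρ P S hcg m hmem x₀ x (fun z => (hx₀ z).1) hx)
  have h2 : x₀ = y := hPM _ _ x₀ y
    (rseb_le_of_specAt N A ι hρ P S hcg m hmem x₀ y (fun z => (hx₀ z).1) hy)
  rw [← h1, ← h2]

/-- (SpecRing). -/
theorem rseb_ring : ChartPlaceStatement → ChartIdealStatement → PlaceMaxStatement →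
    DatumExistsStatement → GaussStatement → ChartGaussStatement → SpecRingStatement := by
  intro hCP hCI hPM hDE _ hCG N ℓ _ _ hN A hA L _ _ ι _ ϖ hD hH ρ hρ P S hS x hx
  obtain ⟨hac, hcp, -⟩ := hDE N ℓ hN A hA
  obtain ⟨-, m, hm, ϖc, hϖc, hϖm, hmem⟩ := hCI N ℓ hN A hA L ι ϖ hD P S hS
  have hS' : S = {jF L N} ∨ S = {(jF L N)⁻¹} :=
    hS.elim (fun h => Or.inl h.1) (fun h => Or.inr h.1)
  obtain ⟨x₀, hx₀, hx₀'⟩ :=
    hCP N ℓ L (dW A ι) (kA A) (dRes A ι) ϖ hD hH ρ hρ S hS' m ϖc hϖc hϖm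
  have hcg := (hCG N ℓ L (dW A ι) (kA A) (dRes A ι) ϖ hD S
    (hS'.elim Or.inl (fun h => Or.inr (Or.inl h)))).1
  have h1 : x₀ = x := hPM _ _ x₀ x
    (rseb_le_of_specAt N A ι hρ P S hcg m hmem x₀ x (fun z => (hx₀ z).1) hx)
  subst h1
  exact ⟨m, hm, ϖc, hϖc, hϖm, hmem, hx₀, hx₀'⟩

/-- (Chart of `r P`). -/
theorem rseb_chart : DatumExistsStatement → GaussStatement → ChartGaussStatement →
    SpecChartStatement := by
  intro hDE hG hCG N ℓ _ _ hN A hA r hr P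
  obtain ⟨hac, hcp, hdat⟩ := hDE N ℓ hN A hA
  obtain ⟨L, _, _, ι, _, ϖ, hD, -, -, ρ, hρ⟩ := hdat ∅
  have hjV : jF L N ∈ gaussV (dW A ι) (dRes A ι) N := by
    have h1 := (hG N ℓ L (dW A ι) (kA A) (dRes A ι) ϖ hD).1 (jqModC ↥(dW A ι))
      (by rw [coeffMap_jqModC]; exact jqModC_mem_FL L N)
    have h2 : jF L N = ⟨coeffMap (dW A ι).subtype (jqModC ↥(dW A ι)),
        (by rw [coeffMap_jqModC]; exact jqModC_mem_FL L N)⟩ :=
      Subtype.ext (coeffMap_jqModC _).symm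
    rw [h2]
    exact h1
  have hρj : ρ ⟨jF L N, hjV⟩ = jqModC (kA A) := rseb_rho_j _ _ N hρ hjV
  rw [spec_iff] at hr
  refine ⟨fun h1 => ?_, fun h2 => ?_⟩
  · have hs := hr L ι ϖ hD ρ hρ P {jF L N} (Or.inl ⟨rfl, h1⟩)
    have hk : ρ ⟨jF L N, hjV⟩ ∈ Fk (kA A) N := rseb_rho_mem _ _ N hρ _
    obtain ⟨c, -, hc⟩ := hs (jF L N) (rseb_mem_chart_of_mem _ N _ rfl) hjV hk
    have h3 : (⟨ρ ⟨jF L N, hjV⟩, hk⟩ : ↥(Fk (kA A) N)) = jk (kA A) N := Subtype.ext hρj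
    rw [h3] at hc
    exact hv_mem hc
  · have hs := hr L ι ϖ hD ρ hρ P {(jF L N)⁻¹} (Or.inr ⟨rfl, h2⟩)
    have hjiV : (jF L N)⁻¹ ∈ gaussV (dW A ι) (dRes A ι) N :=
      (hCG N ℓ L (dW A ι) (kA A) (dRes A ι) ϖ hD {(jF L N)⁻¹} (Or.inr (Or.inl rfl))).1
        (rseb_mem_chart_of_mem _ N _ rfl)
    have hρji : ρ ⟨(jF L N)⁻¹, hjiV⟩ = (jqModC (kA A))⁻¹ := rseb_rho_jinv _ _ N hρ hjV hjiV
    have hk : ρ ⟨(jF L N)⁻¹, hjiV⟩ ∈ Fk (kA A) N := rseb_rho_mem _ _ N hρ _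
    obtain ⟨c, hc1, hc⟩ := hs (jF L N)⁻¹ (rseb_mem_chart_of_mem _ N _ rfl) hjiV hk
    obtain ⟨c', hc'n, hc'⟩ := h2
    rw [map_inv₀, dEmb_jF] at hc1
    have hcc : (c : Qb) = c' := hv_unique hc1 hc'
    have hπ : IsLocalRing.residue ↥A c = 0 := by
      rw [rseb_residue_eq_zero_iff, hcc]
      exact hc'n
    rw [hπ] at hc
    have h3 : (⟨ρ ⟨(jF L N)⁻¹, hjiV⟩, hk⟩ : ↥(Fk (kA A) N)) = (jk (kA A) N)⁻¹ :=
      Subtype.ext hρji
    rw [h3] at hc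
    exact hv_zero_iff.1 hc

end

end Fermat.Agent.S37
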