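/-
S37, block R, package RT (twin B): transfer of SPEC to a sub-datum — ABSTRACT PART.
Two data `(L₀, W₀, res₀)`, `(L, W, res)` with the same residue field `k` and a ring homomorphism
`e : L₀ →+* L` mapping `W₀` into `W` compatibly with the residue maps.  The coefficientwise map
`Ê : F_{L₀} → F_L` maps charts into charts, the Gauss ring into the Gauss ring, and commutes with
the reduction maps.  Namespace `Fermat.Agent.S37`, prefix `rtb_`.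
-/
import Fermat.Agent.S37.RInterfaces2
import Fermat.Agent.S37.HV
import Fermat.Agent.S18.GAInterfaces
import Fermat.Agent.S18.EDescentT

set_option autoImplicit false

open ModularCurve AlgebraicCurve

namespace Fermat.Agent.S37

open Fermat.Agent.S18 Fermat.Agent.S28

noncomputable section

/-- The restriction `W₀ → W` of a ring homomorphism `e : L₀ → L` mapping `W₀` into `W`. -/
def rtb_eW {L₀ L : Type} [Field L₀] [Field L] (W₀ : ValuationSubring L₀) (W : ValuationSubring L)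
    (e : L₀ →+* L) (hW : ∀ a : L₀, a ∈ W₀ → e a ∈ W) : ↥W₀ →+* ↥W where
  toFun w := ⟨e (w : L₀), hW _ w.2⟩
  map_one' := Subtype.ext (map_one e)
  map_mul' _ _ := Subtype.ext (map_mul e _ _)
  map_zero' := Subtype.ext (map_zero e)
  map_add' _ _ := Subtype.ext (map_add e _ _)

theorem rtb_eW_coe {L₀ L : Type} [Field L₀] [Field L] (W₀ : ValuationSubring L₀)
    (W : ValuationSubring L) (e : L₀ →+* L) (hW : ∀ a : L₀, a ∈ W₀ → e a ∈ W) (w : ↥W₀) :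
    ((rtb_eW W₀ W e hW w : ↥W) : L) = e (w : L₀) := rfl

theorem rtb_subtype_comp_eW {L₀ L : Type} [Field L₀] [Field L] (W₀ : ValuationSubring L₀)
    (W : ValuationSubring L) (e : L₀ →+* L) (hW : ∀ a : L₀, a ∈ W₀ → e a ∈ W) :
    W.subtype.comp (rtb_eW W₀ W e hW) = e.comp W₀.subtype :=
  RingHom.ext fun _ => rfl

theorem rtb_res_comp_eW {L₀ L : Type} [Field L₀] [Field L] (W₀ : ValuationSubring L₀)
    (W : ValuationSubring L) (e : L₀ →+* L) (hW : ∀ a : L₀, a ∈ W₀ → e a ∈ W)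
    {k : Type} [Field k] (res₀ : ↥W₀ →+* k) (res : ↥W →+* k)
    (hres : ∀ w : ↥W₀, res (rtb_eW W₀ W e hW w) = res₀ w) :
    res.comp (rtb_eW W₀ W e hW) = res₀ := RingHom.ext hres

/-- The coefficientwise map `Ê : F_{L₀} → F_L` induced by `e : L₀ → L`. -/
def rtb_E {L₀ L : Type} [Field L₀] [Field L] [Algebra ℚ L₀] [Algebra ℚ L] (N : ℕ)
    (e : L₀ →+* L) : ↥(FL L₀ N) →+* ↥(FL L N) where
  toFun x := ⟨coeffMap e (x : LaurentSeries L₀), e_descentT_iota_gen e _ x.2⟩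
  map_one' := Subtype.ext (map_one (coeffMap e))
  map_mul' _ _ := Subtype.ext (map_mul (coeffMap e) _ _)
  map_zero' := Subtype.ext (map_zero (coeffMap e))
  map_add' _ _ := Subtype.ext (map_add (coeffMap e) _ _)

section Abs

variable {L₀ L : Type} [Field L₀] [Field L] [Algebra ℚ L₀] [Algebra ℚ L]

theorem rtb_E_coe (N : ℕ) (e : L₀ →+* L) (x : ↥(FL L₀ N)) :
    ((rtb_E N e x : ↥(FL L N)) : LaurentSeries L) = coeffMap e (x : LaurentSeries L₀) := rfl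

theorem rtb_E_jF (N : ℕ) [NeZero N] (e : L₀ →+* L) : rtb_E N e (jF L₀ N) = jF L N :=
  Subtype.ext (coeffMap_jqModC e)

theorem rtb_E_jF_inv (N : ℕ) [NeZero N] (e : L₀ →+* L) :
    rtb_E N e (jF L₀ N)⁻¹ = (jF L N)⁻¹ := by
  rw [map_inv₀, rtb_E_jF]

theorem rtb_E_cW (W₀ : ValuationSubring L₀) (W : ValuationSubring L) (N : ℕ) (e : L₀ →+* L)
    (hW : ∀ a : L₀, a ∈ W₀ → e a ∈ W) (w : ↥W₀) :
    rtb_E N e (cW W₀ N w) = cW W N (rtb_eW W₀ W e hW w) :=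
  Subtype.ext (e_descentT_coeffMap_algebraMap e (w : L₀))

theorem rtb_E_comp_cW (W₀ : ValuationSubring L₀) (W : ValuationSubring L) (N : ℕ) (e : L₀ →+* L)
    (hW : ∀ a : L₀, a ∈ W₀ → e a ∈ W) :
    (rtb_E N e).comp (cW W₀ N) = (cW W N).comp (rtb_eW W₀ W e hW) :=
  RingHom.ext fun w => rtb_E_cW W₀ W N e hW w

theorem rtb_E_evW (W₀ : ValuationSubring L₀) (W : ValuationSubring L) (N : ℕ) (e : L₀ →+* L)
    (hW : ∀ a : L₀, a ∈ W₀ → e a ∈ W) (t : ↥(FL L₀ N)) (g : Polynomial ↥W₀) :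
    rtb_E N e (evW W₀ N t g) = evW W N (rtb_E N e t) (g.map (rtb_eW W₀ W e hW)) := by
  show rtb_E N e (Polynomial.eval₂ (cW W₀ N) t g)
    = Polynomial.eval₂ (cW W N) (rtb_E N e t) (g.map (rtb_eW W₀ W e hW))
  rw [Polynomial.hom_eval₂, Polynomial.eval₂_map, rtb_E_comp_cW W₀ W N e hW]

/-! ### Charts -/

theorem rtb_baseRing_le (W₀ : ValuationSubring L₀) (W : ValuationSubring L) (N : ℕ)
    (e : L₀ →+* L) (hW : ∀ a : L₀, a ∈ W₀ → e a ∈ W) (S₀ : Set ↥(FL L₀ N)) (S : Set ↥(FL L N))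
    (hS : ∀ s ∈ S₀, rtb_E N e s ∈ S) :
    baseRing W₀ N S₀ ≤ (baseRing W N S).comap (rtb_E N e) := by
  refine Subring.closure_le.mpr ?_
  rintro x (⟨w, rfl⟩ | hx)
  · show rtb_E N e (cW W₀ N w) ∈ baseRing W N S
    rw [rtb_E_cW W₀ W N e hW]
    exact Subring.subset_closure (Or.inl ⟨_, rfl⟩)
  · exact Subring.subset_closure (Or.inr (hS x hx))

/-- `Ê` maps the chart `chart W₀ N S₀` into `chart W N S` when `Ê(S₀) ⊆ S`. -/
theorem rtb_chart_mem (W₀ : ValuationSubring L₀) (W : ValuationSubring L) (N : ℕ)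
    (e : L₀ →+* L) (hW : ∀ a : L₀, a ∈ W₀ → e a ∈ W) (S₀ : Set ↥(FL L₀ N)) (S : Set ↥(FL L N))
    (hS : ∀ s ∈ S₀, rtb_E N e s ∈ S) {x : ↥(FL L₀ N)} (hx : x ∈ chart W₀ N S₀) :
    rtb_E N e x ∈ chart W N S := by
  rw [mem_chart_iff] at hx ⊢
  have hle := rtb_baseRing_le W₀ W N e hW S₀ S hS
  exact hx.map_of_comp_eq
    (((rtb_E N e).comp (baseRing W₀ N S₀).subtype).codRestrict (baseRing W N S)
      (fun y => hle y.2)) (rtb_E N e) (by ext; rfl)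

/-! ### Gauss rings and reductions -/

/-- `Ê` maps `M'(W₀)` into `M'(W)`. -/
theorem rtb_M_mem (W₀ : ValuationSubring L₀) (W : ValuationSubring L) (N : ℕ) [NeZero N]
    (e : L₀ →+* L) (hW : ∀ a : L₀, a ∈ W₀ → e a ∈ W)
    {k : Type} [Field k] (res₀ : ↥W₀ →+* k) (res : ↥W →+* k)
    (hres : ∀ w : ↥W₀, res (rtb_eW W₀ W e hW w) = res₀ w)
    {x : ↥(FL L₀ N)} (hx : x ∈ ga_M W₀ res₀ N) : rtb_E N e x ∈ ga_M W res N := by
  obtain ⟨g, hg, y, hy⟩ := hx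
  refine ⟨g.map (rtb_eW W₀ W e hW), ?_, coeffMap (rtb_eW W₀ W e hW) y, ?_⟩
  · rw [Polynomial.map_map, rtb_res_comp_eW W₀ W e hW res₀ res hres]
    exact hg
  · rw [coeffMap_coeffMap, rtb_subtype_comp_eW, ← coeffMap_coeffMap, hy, ← rtb_E_jF (L₀ := L₀) N e,
      ← rtb_E_evW W₀ W N e hW, ← map_mul]
    rfl

/-- `ρ` on an element of `V` with coefficients in `W` is the coefficientwise reduction. -/
theorem rtb_red_of_WInt (W : ValuationSubring L) (N : ℕ) [NeZero N] {k : Type} [Field k]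
    (res : ↥W →+* k) {ϖ : ↥W} {ρ : ↥(gaussV W res N) →+* LaurentSeries k}
    (hρ : IsGaussRed W res N ϖ ρ) (z : ↥(FL L N)) (hV : z ∈ gaussV W res N)
    (y : LaurentSeries ↥W) (hy : coeffMap W.subtype y = (z : LaurentSeries L)) :
    ρ ⟨z, hV⟩ = coeffMap res y := by
  obtain ⟨z, hz⟩ := z
  have hy' : coeffMap W.subtype y = z := hy
  subst hy'
  exact hρ.red y hz hV

theorem rtb_evW_mem_gaussV (W : ValuationSubring L) (N : ℕ) [NeZero N] {k : Type} [Field k]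
    (res : ↥W →+* k) (h : Polynomial ↥W) : evW W N (jF L N) h ∈ gaussV W res N :=
  ga_gaussO_le_gaussV W res N (ga_evW_mem_gaussO W res N h)

/-- `ρ(h(j)) = h̄(j̄)`. -/
theorem rtb_red_evW (W : ValuationSubring L) (N : ℕ) [NeZero N] {k : Type} [Field k]
    (res : ↥W →+* k) {ϖ : ↥W} {ρ : ↥(gaussV W res N) →+* LaurentSeries k}
    (hρ : IsGaussRed W res N ϖ ρ) (h : Polynomial ↥W) :
    ρ ⟨evW W N (jF L N) h, rtb_evW_mem_gaussV W N res h⟩ = evalL (jqModC k) (h.map res) := by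
  rw [rtb_red_of_WInt W N res hρ _ _ (evalL (jqModC ↥W) h) (ga_coe_evW_j W N h).symm,
    degMain_coeffMap_evalL, coeffMap_jqModC]

/-- The characteristic property of `ρ`: `ρ x * ḡ(j̄) = red y` whenever `g(j) * x = ι y`. -/
theorem rtb_red_mul (W : ValuationSubring L) (N : ℕ) [NeZero N] {k : Type} [Field k]
    (res : ↥W →+* k) {ϖ : ↥W} {ρ : ↥(gaussV W res N) →+* LaurentSeries k}
    (hρ : IsGaussRed W res N ϖ ρ) (x : ↥(FL L N)) (hV : x ∈ gaussV W res N)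
    (g : Polynomial ↥W) (y : LaurentSeries ↥W)
    (hy : coeffMap W.subtype y =
      ((evW W N (jF L N) g * x : ↥(FL L N)) : LaurentSeries L)) :
    ρ ⟨x, hV⟩ * evalL (jqModC k) (g.map res) = coeffMap res y := by
  have hmul : evW W N (jF L N) g * x ∈ gaussV W res N :=
    (gaussV W res N).mul_mem (rtb_evW_mem_gaussV W N res g) hV
  have h1 := rtb_red_of_WInt W N res hρ _ hmul y hy
  have h2 : (⟨evW W N (jF L N) g * x, hmul⟩ : ↥(gaussV W res N))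
      = ⟨evW W N (jF L N) g, rtb_evW_mem_gaussV W N res g⟩ * ⟨x, hV⟩ := rfl
  rw [h2, map_mul, rtb_red_evW W N res hρ g] at h1
  rw [mul_comm]
  exact h1

/-- `ρ ∘ Ê = ρ₀` on `V₀ ∩ M'(W₀)`. -/
theorem rtb_red_eq (W₀ : ValuationSubring L₀) (W : ValuationSubring L) (N : ℕ) [NeZero N]
    (e : L₀ →+* L) (hW : ∀ a : L₀, a ∈ W₀ → e a ∈ W)
    {k : Type} [Field k] (res₀ : ↥W₀ →+* k) (res : ↥W →+* k)
    (hres : ∀ w : ↥W₀, res (rtb_eW W₀ W e hW w) = res₀ w)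
    {ϖ₀ : ↥W₀} {ρ₀ : ↥(gaussV W₀ res₀ N) →+* LaurentSeries k}
    (hρ₀ : IsGaussRed W₀ res₀ N ϖ₀ ρ₀) {ϖ : ↥W} {ρ : ↥(gaussV W res N) →+* LaurentSeries k}
    (hρ : IsGaussRed W res N ϖ ρ) (x : ↥(FL L₀ N)) (hV₀ : x ∈ gaussV W₀ res₀ N)
    (hM₀ : x ∈ ga_M W₀ res₀ N) (hV : rtb_E N e x ∈ gaussV W res N) :
    ρ ⟨rtb_E N e x, hV⟩ = ρ₀ ⟨x, hV₀⟩ := by
  obtain ⟨g, hg, y, hy⟩ := hM₀
  have hcomp := rtb_res_comp_eW W₀ W e hW res₀ res hres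
  have h0 := rtb_red_mul W₀ N res₀ hρ₀ x hV₀ g y hy
  have hy' : coeffMap W.subtype (coeffMap (rtb_eW W₀ W e hW) y) =
      ((evW W N (jF L N) (g.map (rtb_eW W₀ W e hW)) * rtb_E N e x : ↥(FL L N)) :
        LaurentSeries L) := by
    rw [coeffMap_coeffMap, rtb_subtype_comp_eW, ← coeffMap_coeffMap, hy, ← rtb_E_jF (L₀ := L₀) N e,
      ← rtb_E_evW W₀ W N e hW, ← map_mul]
    rfl
  have h1 := rtb_red_mul W N res hρ (rtb_E N e x) hV (g.map (rtb_eW W₀ W e hW))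
    (coeffMap (rtb_eW W₀ W e hW) y) hy'
  rw [Polynomial.map_map, coeffMap_coeffMap, hcomp] at h1
  have hne : evalL (jqModC k) (g.map res₀) ≠ 0 := fun h => hg (degMain_evalL_eq_zero _ h)
  exact mul_right_cancel₀ hne (h1.trans h0.symm)

/-- `Ê` maps `V₀` into `V` and `ρ ∘ Ê = ρ₀` on `V₀` (using `M' = V` for both data). -/
theorem rtb_key (hMV : ga_MeqVStatement) (N : ℕ) [NeZero N] (ℓ : ℕ) [Fact ℓ.Prime]
    (W₀ : ValuationSubring L₀) [IsDiscreteValuationRing ↥W₀] (W : ValuationSubring L)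
    [IsDiscreteValuationRing ↥W] (e : L₀ →+* L) (hW : ∀ a : L₀, a ∈ W₀ → e a ∈ W)
    {k : Type} [Field k] [IsAlgClosed k] [CharP k ℓ] (res₀ : ↥W₀ →+* k) (res : ↥W →+* k)
    (hres : ∀ w : ↥W₀, res (rtb_eW W₀ W e hW w) = res₀ w)
    {ϖ₀ : ↥W₀} (hD₀ : BaseData N ℓ W₀ res₀ ϖ₀)
    {ρ₀ : ↥(gaussV W₀ res₀ N) →+* LaurentSeries k} (hρ₀ : IsGaussRed W₀ res₀ N ϖ₀ ρ₀)
    {ϖ : ↥W} (hD : BaseData N ℓ W res ϖ)
    {ρ : ↥(gaussV W res N) →+* LaurentSeries k} (hρ : IsGaussRed W res N ϖ ρ)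
    (x : ↥(FL L₀ N)) (hV₀ : x ∈ gaussV W₀ res₀ N) :
    ∃ hV : rtb_E N e x ∈ gaussV W res N, ρ ⟨rtb_E N e x, hV⟩ = ρ₀ ⟨x, hV₀⟩ := by
  have hM₀ : x ∈ ga_M W₀ res₀ N := by
    rw [hMV N ℓ L₀ W₀ k res₀ ϖ₀ hD₀]
    exact hV₀
  have hV : rtb_E N e x ∈ gaussV W res N := by
    rw [← hMV N ℓ L W k res ϖ hD]
    exact rtb_M_mem W₀ W N e hW res₀ res hres hM₀
  exact ⟨hV, rtb_red_eq W₀ W N e hW res₀ res hres hρ₀ hρ x hV₀ hM₀ hV⟩

/-- `dEmb ∘ Ê = dEmb`. -/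
theorem rtb_dEmb_E (N : ℕ) [NeZero N] (ι₀ : L₀ →+* Qb) (ι : L →+* Qb) (e : L₀ →+* L)
    (he : ∀ a : L₀, ι (e a) = ι₀ a) (x : ↥(FL L₀ N)) :
    dEmb N ι (rtb_E N e x) = dEmb N ι₀ x := by
  apply Subtype.ext
  show coeffMap ι (coeffMap e (x : LaurentSeries L₀)) = coeffMap ι₀ (x : LaurentSeries L₀)
  rw [coeffMap_coeffMap]
  exact coeffMap_congr (RingHom.ext he) _

end Abs

/-! ### The `A`-level -/

set_option synthInstance.maxHeartbeats 400000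

section ALevel

variable {L₀ L : Type} [Field L₀] [Field L] [Algebra ℚ L₀] [Algebra ℚ L]

omit [Algebra ℚ L₀] [Algebra ℚ L] in
theorem rtb_hW (A : ValuationSubring Qb) (ι₀ : L₀ →+* Qb) (ι : L →+* Qb) (e : L₀ →+* L)
    (he : ∀ a : L₀, ι (e a) = ι₀ a) : ∀ a : L₀, a ∈ dW A ι₀ → e a ∈ dW A ι := by
  intro a ha
  show ι (e a) ∈ A
  rw [he a]
  exact ha

omit [Algebra ℚ L₀] [Algebra ℚ L] in
theorem rtb_hres (A : ValuationSubring Qb) (ι₀ : L₀ →+* Qb) (ι : L →+* Qb) (e : L₀ →+* L)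
    (he : ∀ a : L₀, ι (e a) = ι₀ a) (w : ↥(dW A ι₀)) :
    dRes A ι (rtb_eW (dW A ι₀) (dW A ι) e (rtb_hW A ι₀ ι e he) w) = dRes A ι₀ w := by
  rw [dRes_apply, dRes_apply]
  exact congrArg (IsLocalRing.residue ↥A) (Subtype.ext (he (w : L₀)))

/-- Transfer of `SpecAt` along `e`, for a pair of charts `S₀`, `S` with `Ê(S₀) ⊆ S`. -/
theorem rtb_specAt (hMV : ga_MeqVStatement) (N ℓ : ℕ) [NeZero N] [Fact ℓ.Prime]
    (A : ValuationSubring Qb) [IsAlgClosed (kA A)] [CharP (kA A) ℓ]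
    (ι₀ : L₀ →+* Qb) [IsDiscreteValuationRing ↥(dW A ι₀)] (ϖ₀ : ↥(dW A ι₀))
    (hD₀ : BaseData N ℓ (dW A ι₀) (dRes A ι₀) ϖ₀)
    (ρ₀ : ↥(gaussV (dW A ι₀) (dRes A ι₀) N) →+* LaurentSeries (kA A))
    (hρ₀ : IsGaussRed (dW A ι₀) (dRes A ι₀) N ϖ₀ ρ₀)
    (ι : L →+* Qb) [IsDiscreteValuationRing ↥(dW A ι)] (ϖ : ↥(dW A ι))
    (hD : BaseData N ℓ (dW A ι) (dRes A ι) ϖ)
    (ρ : ↥(gaussV (dW A ι) (dRes A ι) N) →+* LaurentSeries (kA A))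
    (hρ : IsGaussRed (dW A ι) (dRes A ι) N ϖ ρ)
    (e : L₀ →+* L) (he : ∀ a : L₀, ι (e a) = ι₀ a)
    (P : Place Qb ↥(FL Qb N)) (x : Place (kA A) ↥(Fk (kA A) N))
    (S₀ : Set ↥(FL L₀ N)) (S : Set ↥(FL L N)) (hS : ∀ s ∈ S₀, rtb_E N e s ∈ S) :
    SpecAt N A ι ρ S P x → SpecAt N A ι₀ ρ₀ S₀ P x := by
  intro h g₀ hg₀ hV₀ hk₀
  obtain ⟨hV, hρeq⟩ := rtb_key hMV N ℓ (dW A ι₀) (dW A ι) e (rtb_hW A ι₀ ι e he)
    (dRes A ι₀) (dRes A ι) (rtb_hres A ι₀ ι e he) hD₀ hρ₀ hD hρ g₀ hV₀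
  have hk : ρ ⟨rtb_E N e g₀, hV⟩ ∈ Fk (kA A) N := by
    rw [hρeq]
    exact hk₀
  obtain ⟨c, hc1, hc2⟩ := h (rtb_E N e g₀)
    (rtb_chart_mem (dW A ι₀) (dW A ι) N e (rtb_hW A ι₀ ι e he) S₀ S hS hg₀) hV hk
  refine ⟨c, ?_, ?_⟩
  · rw [← rtb_dEmb_E N ι₀ ι e he g₀]
    exact hc1
  · have hsub : (⟨ρ₀ ⟨g₀, hV₀⟩, hk₀⟩ : ↥(Fk (kA A) N)) = ⟨ρ ⟨rtb_E N e g₀, hV⟩, hk⟩ :=
      Subtype.ext hρeq.symm
    rw [hsub]
    exact hc2

end ALevel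

/-- (Transfer) SPEC passes to a sub-datum. -/
theorem rtb_main : ga_MeqVStatement → GaussStatement → ChartGaussStatement →
    DatumExistsStatement → TransferStatement := by
  intro hMV _ _ hDE N ℓ _ _ hℓN A hA L₀ _ _ ι₀ _ ϖ₀ hD₀ ρ₀ hρ₀ L _ _ ι _ ϖ hD ρ hρ e he P x
  obtain ⟨hAC, hCP, -⟩ := hDE N ℓ hℓN A hA
  have := hAC
  have := hCP
  refine ⟨?_, ?_⟩
  · refine rtb_specAt hMV N ℓ A ι₀ ϖ₀ hD₀ ρ₀ hρ₀ ι ϖ hD ρ hρ e he P x _ _ ?_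
    intro s hs
    rw [Set.mem_singleton_iff] at hs ⊢
    rw [hs, rtb_E_jF]
  · refine rtb_specAt hMV N ℓ A ι₀ ϖ₀ hD₀ ρ₀ hρ₀ ι ϖ hD ρ hρ e he P x _ _ ?_
    intro s hs
    rw [Set.mem_singleton_iff] at hs ⊢
    rw [hs, rtb_E_jF_inv]

end

end Fermat.Agent.S37
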