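/-
S37, block R, package RV: values and degrees of places of `F = F_Qb` and of `F_k`, maximality of
discrete valuation rings of a function field, the chart dichotomy, and transport of values under
semilinear automorphisms.  Namespace `Fermat.Agent.S37`, prefix `rv_`.
-/
import Fermat.Agent.S37.RInterfaces
import Fermat.Agent.S37.HV
import Fermat.Agent.S24.Places
import Fermat.Agent.S18.EK1T

set_option autoImplicit false
set_option synthInstance.maxHeartbeats 400000

open ModularCurve AlgebraicCurve IntermediateField

namespace Fermat.Agent.S37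

open Fermat.Agent.S18

/-! ## Maximality of discrete valuation rings -/

/-- A discrete valuation ring of a function field is a maximal proper subring: two places with
comparable valuation rings are equal. -/
theorem rv_placeMax : PlaceMaxStatement := by
  intro K F _ _ _ x y hxy
  exact Place.ext (ValuationSubring.eq_of_le_of_ne_top _ hxy y.ne_top')

/-! ## Values and degrees: the general statements -/

/-- Over an algebraically closed constant field, every element of the valuation ring of a place
of a function field of one variable has a value. -/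
theorem rv_exists_value {K F : Type} [Field K] [Field F] [Algebra K F] [IsAlgClosed K] {t : F}
    (ht : Transcendental K t) (hfin : FiniteDimensional K⟮t⟯ F) (w : Place K F) (s : F)
    (hs : s ∈ w.toValuationSubring) : ∃ c : K, HasValue w s c := by
  obtain ⟨c, hc⟩ := Fermat.Agent.S24.Places.exists_residue_eq w ht hfin ⟨s, hs⟩
  refine ⟨c, ?_⟩
  unfold HasValue
  have hmem' : s - algebraMap K F c ∈ w.toValuationSubring :=
    sub_mem hs (w.algebraMap_mem' c)
  rw [ValuationSubring.mem_nonunits_iff_exists_mem_maximalIdeal]
  refine ⟨hmem', ?_⟩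
  rw [← IsLocalRing.residue_eq_zero_iff]
  have h1 : (⟨s - algebraMap K F c, hmem'⟩ : w.toValuationSubring)
      = ⟨s, hs⟩ - algebraMap K w.toValuationSubring c := rfl
  rw [h1, map_sub, ← hc]
  exact sub_self _

/-- Over an algebraically closed constant field, every place of a function field of one variable
has degree one. -/
theorem rv_deg_eq_one {K F : Type} [Field K] [Field F] [Algebra K F] [IsAlgClosed K] {t : F}
    (ht : Transcendental K t) (hfin : FiniteDimensional K⟮t⟯ F) (w : Place K F) : w.deg = 1 := by
  have hsurj : Function.Surjective (algebraMap K w.ResidueField) := by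
    intro x
    obtain ⟨a, rfl⟩ := IsLocalRing.residue_surjective x
    exact Fermat.Agent.S24.Places.exists_residue_eq w ht hfin a
  have hinj : Function.Injective (algebraMap K w.ResidueField) :=
    (algebraMap K w.ResidueField).injective
  let e : K ≃ₗ[K] w.ResidueField :=
    LinearEquiv.ofBijective (Algebra.linearMap K w.ResidueField) ⟨hinj, hsurj⟩
  unfold Place.deg
  rw [← e.finrank_eq, Module.finrank_self]

/-! ## Characteristic zero: `F = F_Qb` -/

/-- Every element of the valuation ring of a place of `F = F_Qb` has a value in `Qb`. -/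
theorem rv_valQ : FinLStatement → ValQStatement := by
  intro hfin N _ P s hs
  obtain ⟨ht, hf⟩ := hfin N Qb
  exact rv_exists_value ht hf P s hs

/-- Places of `F = F_Qb` have degree one. -/
theorem rv_degQ : FinLStatement → DegQStatement := by
  intro hfin N _ P
  obtain ⟨ht, hf⟩ := hfin N Qb
  exact rv_deg_eq_one ht hf P

/-! ## Characteristic `ℓ`: `F_k` -/

/-- `F_k` is finite over `k(j̄)`. -/
theorem rv_finK (hsep : FkSepStatement) (N : ℕ) [NeZero N] (ℓ : ℕ) [Fact ℓ.Prime] (hℓ : ¬ ℓ ∣ N)
    (k : Type) [Field k] [CharP k ℓ] [IsAlgClosed k] :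
    FiniteDimensional
      ↥(IntermediateField.adjoin k {(⟨jqModC k, jqModC_mem_full k N⟩ : ↥(Fk k N))})
      ↥(Fk k N) := by
  have hsepF : ∀ x : ↥(Fk k N), IsSeparable
      ↥(IntermediateField.adjoin k {(⟨jqModC k, jqModC_mem_full k N⟩ : ↥(Fk k N))}) x := fun x =>
    e_k1T_isSeparable_transport k (LaurentSeries k) (Fk k N) _ x (hsep N ℓ hℓ k x.1 x.2)
  exact e_k1T_finiteDimensional_aux k ↥(Fk k N) _ _
      ((e_k1T_finite_gens k N).preimage Subtype.val_injective.injOn)
      (e_k1T_adjoin_top k (LaurentSeries k) (divisorExpansionsC k N))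
      (fun x => (hsepF x).isIntegral)

/-- Every element of the valuation ring of a place of `F_k` has a value in `k`. -/
theorem rv_valK : FkSepStatement → ValKStatement := by
  intro hsep N _ ℓ _ hℓ k _ _ _ x s hs
  exact rv_exists_value (e_k1T_transc k N) (rv_finK hsep N ℓ hℓ k) x s hs

/-- Places of `F_k` have degree one. -/
theorem rv_degK : FkSepStatement → DegKStatement := by
  intro hsep N _ ℓ _ hℓ k _ _ _ x
  exact rv_deg_eq_one (e_k1T_transc k N) (rv_finK hsep N ℓ hℓ k) x

/-! ## The chart dichotomy -/

theorem rv_jF_ne_zero (N : ℕ) [NeZero N] : jF Qb N ≠ 0 := by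
  intro h
  have h1 : ((jF Qb N : ↥(FL Qb N)) : LaurentSeries Qb) = 0 := by rw [h]; rfl
  rw [coe_jF] at h1
  exact jqModC_ne_zero_of_nontrivial Qb h1

/-- Every place of `F` lies in exactly one of the two charts. -/
theorem rv_inChart : ValQStatement → InChartStatement := by
  intro hval N _ A P
  constructor
  · by_cases hj : jF Qb N ∈ P.toValuationSubring
    · obtain ⟨c, hc⟩ := hval N P _ hj
      by_cases hcA : c ∈ A
      · exact Or.inl ⟨c, hcA, hc⟩
      · right
        have hc0 : c ≠ 0 := fun h => hcA (h ▸ A.zero_mem)
        refine ⟨c⁻¹, ?_, hv_inv hc hc0⟩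
        rw [ValuationSubring.inv_mem_nonunits_iff]
        exact Or.inr hcA
    · right
      refine ⟨0, A.nonunits.zero_mem, ?_⟩
      rw [hv_zero_iff, ValuationSubring.inv_mem_nonunits_iff]
      exact Or.inr hj
  · rintro ⟨⟨c, hcA, hc⟩, ⟨d, hdA, hd⟩⟩
    have h1 : HasValue P (jF Qb N * (jF Qb N)⁻¹) (c * d) := hv_mul hc hd
    rw [mul_inv_cancel₀ (rv_jF_ne_zero N)] at h1
    have h2 : c * d = 1 := hv_unique h1 (hv_one P)
    have h3 : A.valuation (c * d) < 1 := by
      rw [map_mul]
      have hc1 : A.valuation c ≤ 1 := (ValuationSubring.valuation_le_one_iff _ _).2 hcA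
      have hd1 : A.valuation d < 1 := (ValuationSubring.mem_nonunits_iff _).1 hdA
      calc A.valuation c * A.valuation d ≤ 1 * A.valuation d := mul_le_mul_left hc1 _
        _ = A.valuation d := one_mul _
        _ < 1 := hd1
    rw [h2, map_one] at h3
    exact lt_irrefl _ h3

/-! ## Transport of values under semilinear automorphisms -/

open scoped Pointwise in
/-- Transport of values under a semilinear automorphism (prelude `AlgebraicCurve.SemilinearAut`,
acting on `F` and on places). -/
theorem rv_smul {K F : Type} [Field K] [Field F] [Algebra K F] (g : SemilinearAut K F)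
    (P : Place K F) (s : F) (c : K) :
    HasValue (g • P) (g • s) (SemilinearAut.baseAut g c) ↔ HasValue P s c := by
  unfold HasValue
  rw [SemilinearAut.smul_toValuationSubring, ← SemilinearAut.smul_algebraMap, ← smul_sub,
    ValuationSubring.mem_nonunits_iff_or, ValuationSubring.mem_nonunits_iff_or,
    smul_eq_zero_iff_eq, ← smul_inv'', ValuationSubring.smul_mem_pointwise_smul_iff]

end Fermat.Agent.S37
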