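/-
S37, block R — ASSEMBLY: hypothesis-free proofs of the block-R output statements
(`Fermat/Agent/S37/RInterfaces.lean`, `RInterfaces2.lean`), instantiating the package theorems with
the landed S18 results.  Namespace `Fermat.Agent.S37`, prefix `r_`.
-/
import Fermat.Agent.S18.EMain
import Fermat.Agent.S18.HMain
import Fermat.Agent.S18.SmMain
import Fermat.Agent.S18.GAMainGauss
import Fermat.Agent.S18.GAMainChart
import Fermat.Agent.S18.GAMainFin
import Fermat.Agent.S18.GAMainSep
import Fermat.Agent.S18.ELSFactT
import Fermat.Agent.S18.ELocalUFD
import Fermat.Agent.S18.EUFDLocT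
import Fermat.Agent.S18.EUFDPowT
import Fermat.Agent.S18.EIntFinT
import Fermat.Agent.S37.RV
import Fermat.Agent.S37.RCP2
import Fermat.Agent.S37.RCIB
import Fermat.Agent.S37.RCSB
import Fermat.Agent.S37.RSEB
import Fermat.Agent.S37.RDE
import Fermat.Agent.S37.RDE2
import Fermat.Agent.S37.RTB
import Fermat.Agent.S37.RMINB

set_option autoImplicit false

namespace Fermat.Agent.S37

open Fermat.Agent.S18

/-- `HorizAt L N` for every field `L` of characteristic zero that embeds into `Qb`. -/
theorem r_horizAbs : h_HorizAbsStatement :=
  h_horiz_abs h_qbar_main h_constExt e_descentT_iota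

/-- (LSFact), hypothesis-free. -/
theorem r_lsFact : e_LSFactStatement :=
  e_lsfactT_main e_localufd_main e_ufdlocT_main e_ufdpowT_main

theorem r_placeMax : PlaceMaxStatement := rv_placeMax

theorem r_valQ : ValQStatement := rv_valQ ga_fin

theorem r_degQ : DegQStatement := rv_degQ ga_fin

theorem r_valK : ValKStatement := rv_valK ga_sep

theorem r_degK : DegKStatement := rv_degK ga_sep

theorem r_inChart : InChartStatement := rv_inChart r_valQ

/-- (DatumExists), hypothesis-free. -/
theorem r_datumExists : DatumExistsStatement :=
  rde_datum e_baseRing ga_gauss r_horizAbs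

/-- (MinDatum), hypothesis-free. -/
theorem r_minDatum : MinDatumStatement :=
  rde_min e_unramT_main' ga_gauss r_horizAbs

/-- (ChartPlace), hypothesis-free. -/
theorem r_chartPlace : ChartPlaceStatement :=
  rcp_main sm_main ga_gauss ga_chart ga_fin e_intfinT_main r_lsFact

/-- (ChartSurj), hypothesis-free. -/
theorem r_chartSurj : ChartSurjStatement :=
  rcsb_main r_chartPlace r_valK r_placeMax ga_gauss ga_chart

/-- (ChartIdeal), hypothesis-free. -/
theorem r_chartIdeal : ChartIdealStatement := rcib_main r_valQ

theorem r_specAtExists : SpecAtExistsStatement :=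
  rseb_exists r_chartPlace r_chartIdeal r_datumExists ga_gauss ga_chart

theorem r_specUnique : SpecUniqueStatement :=
  rseb_unique r_chartPlace r_chartIdeal r_placeMax r_datumExists ga_gauss ga_chart

theorem r_specRing : SpecRingStatement :=
  rseb_ring r_chartPlace r_chartIdeal r_placeMax r_datumExists ga_gauss ga_chart

theorem r_specChart : SpecChartStatement :=
  rseb_chart r_datumExists ga_gauss ga_chart

theorem r_transfer : TransferStatement :=
  rtb_main ga_meqV ga_gauss ga_chart r_datumExists

/-- Block R: the reduction map of places exists. -/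
theorem r_spec : RSpecStatement :=
  rminb_main r_horizAbs r_minDatum r_transfer r_specAtExists r_specUnique r_inChart

end Fermat.Agent.S37
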