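/-
S37, block CN (sub-lead helper22): hypothesis-free results of the block.

* `cn_ipr  : cn_IPRStatement`  — every `r` satisfying `Spec` is a place reduction (`IsPlaceReductionAlong`);
* `cn_pgi  : cn_PGIStatement`  — principal divisors are generated by integral ones;
* `cn_main : R1Statement`      — (R1) for every `r` satisfying `Spec`.
-/
import Fermat.Agent.S37.CNAssemble
import Fermat.Agent.S37.CNChartAt
import Fermat.Agent.S37.CNFibreT
import Fermat.Agent.S37.CNPrimePlaceT
import Fermat.Agent.S37.CNRatGal
import Fermat.Agent.S37.CNRatStabT
import Fermat.Agent.S37.CNRatUniqT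
import Fermat.Agent.S37.CNSpanT
import Fermat.Agent.S37.CNCountT
import Fermat.Agent.S37.CNLocal
import Fermat.Agent.S37.CNLoc
import Fermat.Agent.S37.CNPGIT
import Fermat.Agent.S37.CNIPRT
import Fermat.Agent.S37.CNR1ofT
import Fermat.Agent.S37.RMain

set_option autoImplicit false

namespace Fermat.Agent.S37

open Fermat.Agent.S18

/-- The rationality lemma. -/
theorem cn_rat : cn_RatStatement := cn_ratgal_rat r_valQ cn_ratstabT_stab

/-- The local count. -/
theorem cn_count : cn_CountStatement :=
  cn_countT_main (cn_chartat_main r_chartSurj) cn_loc_main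
    (cn_fibreT_main r_inChart r_specUnique r_specChart) cn_primeplaceT_main
    (cn_local_main cn_loc_main cn_ratuniqT_main cn_spanT_main)

/-- (CN-b) Every `r` satisfying `Spec` is a place reduction in the sense of the prelude. -/
theorem cn_ipr : cn_IPRStatement := cn_iprT_main r_degQ r_degK r_datumExists cn_rat cn_count

/-- (CN-a) Principal divisors are generated by integral ones. -/
theorem cn_pgi : cn_PGIStatement := cn_pgiT_main

/-- Block CN: (R1) for every `r` satisfying `Spec`. -/
theorem cn_main : R1Statement := cn_assemble_top cn_r1ofT_main cn_pgi cn_ipr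

end Fermat.Agent.S37
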