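/-
S37, block GAL (package GAL/B): (R2), the compatibility of the reduction map of places with Galois.
Namespace `Fermat.Agent.S37`, prefix `galb_`.

Main result:
`galb_main : SpecUniqueStatement → DatumExistsStatement → InChartStatement → R2Statement`.

Proof.  Let `r` satisfy SPEC, `σ ∈ Gal(Qb/ℚ)` preserving `A` and inducing `τ` on `k`, `G` the
semilinear automorphism of `F` attached to `σ`, `T` the one of `F_k` attached to `τ`, `P` a place
of `F` with chart `S`.  Take a datum `(L, ι, ϖ, ρ)`.  The twisted datum `(L, σ ∘ ι, ϖ, coeffMap τ ∘ ρ)`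
has the same valuation ring `W`, the same charts and the same Gauss ring.  SPEC for the twisted
datum at `G • P` says that `T⁻¹ • r (G • P)` satisfies `SpecAt` for the original datum at `P`;
so does `r P`; by uniqueness `T⁻¹ • r (G • P) = r P`.
-/
import Fermat.Agent.S37.RInterfaces2
import Fermat.Agent.S37.HV

set_option autoImplicit false

open ModularCurve AlgebraicCurve

namespace Fermat.Agent.S37

open Fermat.Agent.S18

open scoped Pointwise

noncomputable section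

set_option synthInstance.maxHeartbeats 400000

/-! ## Transport of values along semilinear automorphisms -/

section Transport

variable {K F : Type} [Field K] [Field F] [Algebra K F]

theorem galb_nonunits_smul (g : SemilinearAut K F) (P : Place K F) (x : F) :
    g • x ∈ (g • P).toValuationSubring.nonunits ↔ x ∈ P.toValuationSubring.nonunits := by
  rw [SemilinearAut.smul_toValuationSubring, ValuationSubring.mem_nonunits_iff_or,
    ValuationSubring.mem_nonunits_iff_or, ← smul_inv'', ValuationSubring.smul_mem_pointwise_smul_iff,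
    smul_eq_zero_iff_eq]

/-- Transport of values: `g • s` has the value `g c` at `g • P` iff `s` has the value `c` at `P`. -/
theorem galb_smul (g : SemilinearAut K F) (P : Place K F) (s : F) (c : K) :
    HasValue (g • P) (g • s) (SemilinearAut.baseAut g c) ↔ HasValue P s c := by
  unfold HasValue
  rw [← SemilinearAut.smul_algebraMap, ← smul_sub]
  exact galb_nonunits_smul g P _

/-- Transport of values, inverse form. -/
theorem galb_smul_inv (g : SemilinearAut K F) (x : Place K F) (s : F) (c : K) :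
    HasValue x (g • s) (SemilinearAut.baseAut g c) ↔ HasValue (g⁻¹ • x) s c := by
  have h := galb_smul g (g⁻¹ • x) s c
  rwa [smul_inv_smul] at h

end Transport

/-! ## The twisted datum -/

section Twist

theorem galb_baseData (N : ℕ) {L : Type} [Field L] (W : ValuationSubring L)
    {k : Type} [Field k] (res : ↥W →+* k) (τ : k ≃+* k) (ℓ : ℕ) (ϖ : ↥W)
    (hD : BaseData N ℓ W res ϖ) :
    BaseData N ℓ W ((τ : k →+* k).comp res) ϖ where
  not_dvd := hD.not_dvd
  irreducible := hD.irreducible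
  res_surjective := τ.surjective.comp hD.res_surjective
  ker_res := by
    rw [← hD.ker_res]
    ext x
    simp only [RingHom.mem_ker, RingHom.comp_apply]
    exact map_eq_zero_iff (τ : k →+* k) τ.injective
  roots := hD.roots

variable (N : ℕ) [NeZero N] {L : Type} [Field L] [Algebra ℚ L] (W : ValuationSubring L)
  {k : Type} [Field k] (res : ↥W →+* k) (τ : k ≃+* k)

theorem galb_gaussSet : gaussSet W ((τ : k →+* k).comp res) N = gaussSet W res N := by
  ext c
  refine exists_congr fun f => exists_congr fun g => and_congr_left fun _ => ?_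
  rw [← Polynomial.map_map, Polynomial.map_ne_zero_iff (f := (τ : k →+* k)) τ.injective]

theorem galb_gaussV : gaussV W ((τ : k →+* k).comp res) N = gaussV W res N := by
  unfold gaussV gaussO
  rw [galb_gaussSet]

theorem galb_coeffMap_injective : Function.Injective (coeffMap (τ : k →+* k)) :=
  (coeffMap (τ : k →+* k)).injective

theorem galb_coeffMap_symm (z : LaurentSeries k) :
    coeffMap (τ : k →+* k) (coeffMap (τ.symm : k →+* k) z) = z := by
  rw [coeffMap_coeffMap,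
    coeffMap_congr (g := RingHom.id k) (RingHom.ext fun a => τ.apply_symm_apply a) z, coeffMap_id]

/-- The twisted reduction map `coeffMap τ ∘ ρ`. -/
def galb_rho (ρ : ↥(gaussV W res N) →+* LaurentSeries k) :
    ↥(gaussV W ((τ : k →+* k).comp res) N) →+* LaurentSeries k :=
  (coeffMap (τ : k →+* k)).comp (ρ.comp (Subring.inclusion (le_of_eq (galb_gaussV N W res τ))))

theorem galb_rho_apply (ρ : ↥(gaussV W res N) →+* LaurentSeries k) (g : ↥(FL L N))
    (hV : g ∈ gaussV W res N) (hV' : g ∈ gaussV W ((τ : k →+* k).comp res) N) :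
    galb_rho N W res τ ρ ⟨g, hV'⟩ = coeffMap (τ : k →+* k) (ρ ⟨g, hV⟩) := rfl

theorem galb_isGaussRed (ϖ : ↥W) (ρ : ↥(gaussV W res N) →+* LaurentSeries k)
    (hρ : IsGaussRed W res N ϖ ρ) :
    IsGaussRed W ((τ : k →+* k).comp res) N ϖ (galb_rho N W res τ ρ) where
  red := by
    intro y hy hV'
    have hV : (⟨coeffMap W.subtype y, hy⟩ : ↥(FL L N)) ∈ gaussV W res N :=
      galb_gaussV N W res τ ▸ hV'
    rw [galb_rho_apply N W res τ ρ _ hV hV', hρ.red y hy hV, coeffMap_coeffMap]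
  ker := by
    rintro ⟨x, hx'⟩
    have hx : x ∈ gaussV W res N := galb_gaussV N W res τ ▸ hx'
    rw [galb_rho_apply N W res τ ρ x hx hx', map_eq_zero_iff _ (galb_coeffMap_injective τ),
      hρ.ker ⟨x, hx⟩]
    constructor
    · rintro ⟨⟨x', hx'1⟩, h⟩
      exact ⟨⟨x', (galb_gaussV N W res τ).symm ▸ hx'1⟩, h⟩
    · rintro ⟨⟨x', hx'1⟩, h⟩
      exact ⟨⟨x', galb_gaussV N W res τ ▸ hx'1⟩, h⟩
  range := by
    intro z
    constructor
    · intro hz
      have hz' : coeffMap (τ.symm : k →+* k) z ∈ Fk k N := coeffMap_mem_Fk k N _ hz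
      obtain ⟨⟨x, hx⟩, hxz⟩ := (hρ.range _).1 hz'
      have hx' : x ∈ gaussV W ((τ : k →+* k).comp res) N := (galb_gaussV N W res τ).symm ▸ hx
      refine ⟨⟨x, hx'⟩, ?_⟩
      rw [galb_rho_apply N W res τ ρ x hx hx', hxz, galb_coeffMap_symm]
    · rintro ⟨⟨x, hx'⟩, rfl⟩
      have hx : x ∈ gaussV W res N := galb_gaussV N W res τ ▸ hx'
      rw [galb_rho_apply N W res τ ρ x hx hx']
      exact coeffMap_mem_Fk k N _ ((hρ.range _).2 ⟨⟨x, hx⟩, rfl⟩)

/-- The twisted datum: if `W' = W` and `res' = τ ∘ res`, then a datum `(W, res, ϖ, ρ)` gives a datum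
`(W', res', ϖ', ρ')` with the same charts and `ρ' = coeffMap τ ∘ ρ`. -/
theorem galb_twist (ℓ : ℕ) (W' : ValuationSubring L) (hW : W' = W) (res' : ↥W' →+* k)
    (hres : ∀ (x : L) (hx : x ∈ W) (hx' : x ∈ W'), res' ⟨x, hx'⟩ = τ (res ⟨x, hx⟩))
    [IsDiscreteValuationRing ↥W] (ϖ : ↥W) (hD : BaseData N ℓ W res ϖ)
    (ρ : ↥(gaussV W res N) →+* LaurentSeries k) (hρ : IsGaussRed W res N ϖ ρ) :
    ∃ (_ : IsDiscreteValuationRing ↥W') (ϖ' : ↥W'), BaseData N ℓ W' res' ϖ' ∧
      ∃ ρ' : ↥(gaussV W' res' N) →+* LaurentSeries k, IsGaussRed W' res' N ϖ' ρ' ∧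
        (∀ (S : Set ↥(FL L N)) (g : ↥(FL L N)), g ∈ chart W N S → g ∈ chart W' N S) ∧
        ∀ (g : ↥(FL L N)) (hV : g ∈ gaussV W res N), ∃ hV' : g ∈ gaussV W' res' N,
          ρ' ⟨g, hV'⟩ = coeffMap (τ : k →+* k) (ρ ⟨g, hV⟩) := by
  subst hW
  have hres' : res' = (τ : k →+* k).comp res := RingHom.ext fun x => hres x.1 x.2 x.2
  subst hres'
  refine ⟨inferInstance, ϖ, galb_baseData N W' res τ ℓ ϖ hD, galb_rho N W' res τ ρ,
    galb_isGaussRed N W' res τ ϖ ρ hρ, fun S g hg => hg, fun g hV => ?_⟩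
  exact ⟨(galb_gaussV N W' res τ).symm ▸ hV, rfl⟩

end Twist

/-! ## `A`-level -/

section ALevel

variable (N : ℕ) [NeZero N] (A : ValuationSubring Qb)

/-- `G • j = j`. -/
theorem galb_smul_jF (σ : Qb ≃ₐ[ℚ] Qb) :
    arithmeticGalois (modularFunctionFieldFull N) σ • jF Qb N = jF Qb N :=
  Subtype.ext (coeffMap_jqModC _)

theorem galb_nonunits_sigma (σ : Qb ≃ₐ[ℚ] Qb) (hσ : ∀ a : Qb, a ∈ A ↔ σ a ∈ A) (c : Qb)
    (hc : c ∈ A.nonunits) : σ c ∈ A.nonunits := by
  rw [ValuationSubring.mem_nonunits_iff_or] at hc ⊢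
  rcases hc with rfl | hc
  · left; exact map_zero σ
  · right; rw [← map_inv₀]; exact fun h => hc ((hσ _).2 h)

theorem galb_inChart1 (σ : Qb ≃ₐ[ℚ] Qb) (hσ : ∀ a : Qb, a ∈ A ↔ σ a ∈ A)
    (P : Place Qb ↥(FL Qb N)) (h : InChart1 N A P) :
    InChart1 N A (arithmeticGalois (modularFunctionFieldFull N) σ • P) := by
  obtain ⟨c, hc, hv⟩ := h
  refine ⟨σ c, (hσ c).1 hc, ?_⟩
  have := (galb_smul (arithmeticGalois (modularFunctionFieldFull N) σ) P (jF Qb N) c).2 hv
  rw [galb_smul_jF] at this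
  exact this

theorem galb_inChart2 (σ : Qb ≃ₐ[ℚ] Qb) (hσ : ∀ a : Qb, a ∈ A ↔ σ a ∈ A)
    (P : Place Qb ↥(FL Qb N)) (h : InChart2 N A P) :
    InChart2 N A (arithmeticGalois (modularFunctionFieldFull N) σ • P) := by
  obtain ⟨c, hc, hv⟩ := h
  refine ⟨σ c, galb_nonunits_sigma A σ hσ c hc, ?_⟩
  have := (galb_smul (arithmeticGalois (modularFunctionFieldFull N) σ) P (jF Qb N)⁻¹ c).2 hv
  rw [smul_inv'', galb_smul_jF] at this
  exact this

/-- The chart of `G • P` is the chart of `P`. -/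
theorem galb_isChartOf {L : Type} [Field L] [Algebra ℚ L] (σ : Qb ≃ₐ[ℚ] Qb)
    (hσ : ∀ a : Qb, a ∈ A ↔ σ a ∈ A) (S : Set ↥(FL L N))
    (P : Place Qb ↥(FL Qb N)) (h : IsChartOf N A S P) :
    IsChartOf N A S (arithmeticGalois (modularFunctionFieldFull N) σ • P) := by
  rcases h with ⟨hS, h⟩ | ⟨hS, h⟩
  · exact Or.inl ⟨hS, galb_inChart1 N A σ hσ P h⟩
  · exact Or.inr ⟨hS, galb_inChart2 N A σ hσ P h⟩

theorem galb_dEmb_comp {L : Type} [Field L] [Algebra ℚ L] (ι : L →+* Qb) (σ : Qb ≃ₐ[ℚ] Qb)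
    (g : ↥(FL L N)) :
    dEmb N ((σ : Qb →+* Qb).comp ι) g
      = arithmeticGalois (modularFunctionFieldFull N) σ • dEmb N ι g :=
  Subtype.ext (coeffMap_coeffMap _ _ _).symm

theorem galb_dW {L : Type} [Field L] (ι : L →+* Qb) (σ : Qb ≃ₐ[ℚ] Qb)
    (hσ : ∀ a : Qb, a ∈ A ↔ σ a ∈ A) : dW A ((σ : Qb →+* Qb).comp ι) = dW A ι :=
  SetLike.ext fun x => (hσ (ι x)).symm

theorem galb_dRes {L : Type} [Field L] (ι : L →+* Qb) (σ : Qb ≃ₐ[ℚ] Qb) (τ : kA A ≃+* kA A)
    (hτ : ∀ a b : ↥A, (b : Qb) = σ (a : Qb) →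
      τ (IsLocalRing.residue ↥A a) = IsLocalRing.residue ↥A b)
    (x : L) (hx : x ∈ dW A ι) (hx' : x ∈ dW A ((σ : Qb →+* Qb).comp ι)) :
    dRes A ((σ : Qb →+* Qb).comp ι) ⟨x, hx'⟩ = τ (dRes A ι ⟨x, hx⟩) :=
  (hτ ⟨ι x, hx⟩ ⟨σ (ι x), hx'⟩ rfl).symm

end ALevel

/-! ## The main theorem -/

set_option maxHeartbeats 1000000 in
/-- (R2) for every `r` satisfying SPEC. -/
theorem galb_main :
    SpecUniqueStatement → DatumExistsStatement → InChartStatement → R2Statement := by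
  intro hSU hDE hIC N ℓ _ _ hN A hA r hSpec σ τ hσ hτ P
  obtain ⟨hAC, hCP, hex⟩ := hDE N ℓ hN A hA
  obtain ⟨L, iF, iAlg, ι, iDVR, ϖ, hD, hH, -, ρ, hρ⟩ := hex ∅
  -- the twisted datum
  obtain ⟨iDVR', ϖ', hD', ρ', hρ', hchart, hρρ'⟩ :=
    galb_twist N (dW A ι) (dRes A ι) τ ℓ (dW A ((σ : Qb →+* Qb).comp ι)) (galb_dW A ι σ hσ)
      (dRes A ((σ : Qb →+* Qb).comp ι)) (galb_dRes A ι σ τ hτ) ϖ hD ρ hρ
  -- the chart of `P`
  obtain ⟨S, hS⟩ : ∃ S : Set ↥(FL L N), IsChartOf N A S P := by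
    rcases (hIC N A P).1 with h | h
    · exact ⟨_, Or.inl ⟨rfl, h⟩⟩
    · exact ⟨_, Or.inr ⟨rfl, h⟩⟩
  have hS' : IsChartOf N A S (arithmeticGalois (modularFunctionFieldFull N) σ • P) :=
    galb_isChartOf N A σ hσ S P hS
  -- SPEC at the datum and at the twisted datum
  have h1 : SpecAt N A ι ρ S P (r P) := (spec_iff N ℓ A r).1 hSpec L ι ϖ hD ρ hρ P S hS
  have h2 : SpecAt N A ((σ : Qb →+* Qb).comp ι) ρ' S
      (arithmeticGalois (modularFunctionFieldFull N) σ • P)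
      (r (arithmeticGalois (modularFunctionFieldFull N) σ • P)) :=
    (spec_iff N ℓ A r).1 hSpec L ((σ : Qb →+* Qb).comp ι) ϖ' hD' ρ' hρ' _ S hS'
  -- `T⁻¹ • r (G • P)` satisfies `SpecAt` for the original datum at `P`
  have h3 : SpecAt N A ι ρ S P
      ((coeffAut (kA A) N τ)⁻¹ • r (arithmeticGalois (modularFunctionFieldFull N) σ • P)) := by
    intro g hg hV hk
    obtain ⟨hV', hρg⟩ := hρρ' g hV
    have hk' : ρ' ⟨g, hV'⟩ ∈ Fk (kA A) N := by
      rw [hρg]; exact coeffMap_mem_Fk _ N _ hk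
    obtain ⟨c', hc'1, hc'2⟩ := h2 g (hchart S g hg) hV' hk'
    have hcA : σ.symm (c' : Qb) ∈ A :=
      (hσ _).2 (by rw [AlgEquiv.apply_symm_apply]; exact c'.2)
    refine ⟨⟨σ.symm (c' : Qb), hcA⟩, ?_, ?_⟩
    · rw [galb_dEmb_comp] at hc'1
      refine (galb_smul (arithmeticGalois (modularFunctionFieldFull N) σ) P (dEmb N ι g)
        (σ.symm (c' : Qb))).1 ?_
      have hcc : SemilinearAut.baseAut (arithmeticGalois (modularFunctionFieldFull N) σ)
          (σ.symm (c' : Qb)) = (c' : Qb) := σ.apply_symm_apply _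
      rw [hcc]
      exact hc'1
    · have hπ : τ (IsLocalRing.residue ↥A ⟨σ.symm (c' : Qb), hcA⟩) = IsLocalRing.residue ↥A c' :=
        hτ _ _ (σ.apply_symm_apply _).symm
      have heq : (⟨ρ' ⟨g, hV'⟩, hk'⟩ : ↥(Fk (kA A) N))
          = coeffAut (kA A) N τ • (⟨ρ ⟨g, hV⟩, hk⟩ : ↥(Fk (kA A) N)) := Subtype.ext hρg
      rw [← hπ, heq] at hc'2
      exact (galb_smul_inv (coeffAut (kA A) N τ) _ _ _).1 hc'2
  -- uniqueness
  have h4 := hSU N ℓ hN A hA L ι ϖ hD hH ρ hρ P S hS _ _ h3 h1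
  exact inv_smul_eq_iff.1 h4

end

end Fermat.Agent.S37
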