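/-
S37, block HI, work package `HIAsm`: assembly of the Hecke inputs.

* `hias_inputs`: the Hecke inputs `HeckeInputsAlong ℚ̄ N ℓ` from the fundamental identity, the norm
  formula, finiteness of the two degeneracy maps and principal divisors of `F_{Nℓ}`;
* `hias_single`: the Hecke correspondence on a single place, from "all places have degree one".
-/
import Fermat.Agent.S37.HIInterfaces
import Fermat.Agent.S28.CMain

set_option autoImplicit false

open AlgebraicCurve ModularCurve IntermediateField

namespace Fermat.Agent.S37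

/-- A place of degree one has inertia degree one along any integral embedding. -/
theorem hias_inertiaDegAlong_eq_one {K F F' : Type} [Field K] [Field F] [Field F']
    [Algebra K F] [Algebra K F'] (φ : F →ₐ[K] F') (hφ : φ.toRingHom.IsIntegral)
    (w : Place K F') (hw : w.deg = 1) : w.inertiaDegAlong φ hφ = 1 := by
  let _ := algebraAlong φ
  have := isScalarTower_along φ
  have := isIntegral_along φ hφ
  have h : (w.restrict F).deg * w.inertiaDeg F = w.deg := w.deg_restrict_mul_inertiaDeg
  rw [hw] at h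
  exact Nat.eq_one_of_mul_eq_one_left h

/-- (HI1) Assembly of the Hecke inputs. -/
theorem hias_inputs : hi_FIStatement → hi_NFStatement → hi_FinStatement →
    hi_PrincipalStatement → hi_HeckeInputsStatement := by
  intro hFI hNF hFin hPr N ℓ _ _
  obtain ⟨hα, hβ, hfinα, hfinβ⟩ := hFin N ℓ
  have : HasPrincipalDivisors (AlgebraicClosure ℚ) ↥(modularFunctionFieldBar (N * ℓ)) :=
    hPr (N * ℓ)
  obtain ⟨htr, hfd, -⟩ := Fermat.Agent.S28.c_modelCounts N
  exact ModularCurve.heckeInputsAlong_intro hα hβ
    (hFI (AlgebraicClosure ℚ) ↥(modularFunctionFieldBar N) ↥(modularFunctionFieldBar (N * ℓ))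
      (Fermat.Agent.S24.jBar N) htr hfd (heckeBetaBar (AlgebraicClosure ℚ) N ℓ) hβ hfinβ)
    hfinα
    (hNF (AlgebraicClosure ℚ) ↥(modularFunctionFieldBar N) ↥(modularFunctionFieldBar (N * ℓ))
      (Fermat.Agent.S24.jBar N) htr hfd (heckeAlphaBar (AlgebraicClosure ℚ) N ℓ) hfinα)

/-- (HI-Single) The Hecke correspondence on a single place. -/
theorem hias_single : hi_DegOneStatement → hi_HeckeDivSingleStatement := by
  intro hdeg N ℓ _ _ hα hβ _ P
  have hα' : (heckeAlphaBar (AlgebraicClosure ℚ) N ℓ).toRingHom.IsIntegral := hα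
  have hβ' : (heckeBetaBar (AlgebraicClosure ℚ) N ℓ).toRingHom.IsIntegral := hβ
  show Divisor.pushforwardAlong (heckeAlphaBar (AlgebraicClosure ℚ) N ℓ) hα'
      (Divisor.pullbackAlong (heckeBetaBar (AlgebraicClosure ℚ) N ℓ) hβ'
        (Finsupp.single P 1)) =
    ∑ Q ∈ Place.fiberAlong (heckeBetaBar (AlgebraicClosure ℚ) N ℓ) hβ' P,
      Finsupp.single (Q.restrictAlong (heckeAlphaBar (AlgebraicClosure ℚ) N ℓ) hα')
        (Q.ramificationIndexAlong (heckeBetaBar (AlgebraicClosure ℚ) N ℓ) : ℤ)
  rw [Divisor.pullbackAlong_single, map_sum]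
  refine Finset.sum_congr rfl fun Q _ => ?_
  rw [Divisor.pushforwardAlong_single,
    hias_inertiaDegAlong_eq_one (heckeAlphaBar (AlgebraicClosure ℚ) N ℓ) hα' Q
      (hdeg (N * ℓ) Q),
    one_mul, Nat.cast_one, mul_one]

end Fermat.Agent.S37
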