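/-
S37, block HI, package HIFi (variant A): the fundamental identity
`∑_{w ∣ v} e(w ∣ v) · deg w = [F' : F] · deg v` for a finite extension `F'/F` of function fields of
one variable over an algebraically closed field `K` of characteristic zero.

Method (local dictionary at `v`): let `A = O_v` (a discrete valuation ring with fraction field `F`)
and `B` the integral closure of `A` in `F'`, a Dedekind domain, finite and flat over `A`, with
fraction field `F'`.  The places of `F'` above `v` are exactly the places attached to the primes of
`B` over the maximal ideal `(π)` of `A`; the ramification index of such a place is the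
ramification index of the prime, all inertia degrees are `1` (`K` is algebraically closed and the
residue field of `v` is `K`), and `∑ e f = rank_A B = [F' : F]`.  All places have degree one.
-/
import Fermat.Agent.S37.HIInterfaces
import Fermat.Agent.S24.Zeros
import Fermat.Agent.S24.Places

set_option autoImplicit false

open AlgebraicCurve IsDedekindDomain IntermediateField

namespace Fermat.Agent.S37

section hifa

variable {K F F' : Type} [Field K] [Field F] [Field F'] [Algebra K F] [Algebra K F']
  [Algebra F F'] [IsScalarTower K F F']

/-- The valuation ring of a place of `F`, as a ring between `K` and `F'`. -/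
theorem hifa_isScalarTower (v : Place K F) : IsScalarTower K v.toValuationSubring F' :=
  IsScalarTower.of_algebraMap_eq fun k => by
    rw [IsScalarTower.algebraMap_apply K F F']
    rfl

theorem hifa_transcendental {t : F} (ht : Transcendental K t) :
    Transcendental K (algebraMap F F' t) :=
  (transcendental_algebraMap_iff (algebraMap F F').injective).mpr ht

/-- `F'` is finite over `K(t)` for the image `t` of the transcendental element of `F`. -/
theorem hifa_finiteDimensional [Module.Finite F F'] (t : F) (hfin : FiniteDimensional K⟮t⟯ F) :
    FiniteDimensional K⟮algebraMap F F' t⟯ F' := by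
  have : Module.Finite K⟮t⟯ F' := Module.Finite.trans F F'
  have hmem : ∀ e : K⟮t⟯, algebraMap K⟮t⟯ F' e ∈ K⟮algebraMap F F' t⟯ := by
    intro e
    have h1 : (K⟮t⟯).map (IsScalarTower.toAlgHom K F F') = K⟮algebraMap F F' t⟯ := by
      rw [IntermediateField.adjoin_map, Set.image_singleton]
      rfl
    rw [← h1]
    exact ⟨e, e.2, rfl⟩
  let ψ : K⟮t⟯ →+* K⟮algebraMap F F' t⟯ := (algebraMap K⟮t⟯ F').codRestrict _ hmem
  let : Algebra K⟮t⟯ K⟮algebraMap F F' t⟯ := ψ.toAlgebra
  have : IsScalarTower K⟮t⟯ K⟮algebraMap F F' t⟯ F' := IsScalarTower.of_algebraMap_eq fun _ => rfl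
  exact Module.Finite.of_restrictScalars_finite K⟮t⟯ K⟮algebraMap F F' t⟯ F'

/-- The fundamental identity at the place `v`, for an extension given by an `Algebra` instance. -/
theorem hifa_sum [IsAlgClosed K] [CharZero K] [Algebra.IsIntegral F F']
    [HasPrincipalDivisors K F'] [Module.Finite F F'] (t : F) (ht : Transcendental K t)
    (hfin : FiniteDimensional K⟮t⟯ F) (v : Place K F) :
    ∑ w ∈ v.fiber F', (w.ramificationIndex F : ℤ) * (w.deg : ℤ)
      = (Module.finrank F F' : ℤ) * (v.deg : ℤ) := by
  -- all places have degree one
  have hdegv : v.deg = 1 := Fermat.Agent.S24.Places.degOneStatement K F t ht hfin v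
  have hdegw : ∀ w : Place K F', w.deg = 1 := fun w =>
    Fermat.Agent.S24.Places.degOneStatement K F' (algebraMap F F' t) (hifa_transcendental ht)
      (hifa_finiteDimensional t hfin) w
  -- the local rings
  have : IsScalarTower K v.toValuationSubring F' := hifa_isScalarTower v
  have : CharZero F := charZero_of_injective_algebraMap (algebraMap K F).injective
  have : Algebra.IsSeparable F F' := inferInstance
  let B := integralClosure v.toValuationSubring F'
  have : IsDedekindDomain B := IsIntegralClosure.isDedekindDomain v.toValuationSubring F F' B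
  have : IsFractionRing B F' := integralClosure.isFractionRing_of_finite_extension F F'
  have : Module.Finite v.toValuationSubring B :=
    IsIntegralClosure.finite v.toValuationSubring F F' B
  have : Module.Flat v.toValuationSubring B := inferInstance
  -- a uniformiser
  obtain ⟨π, hπ⟩ := IsDiscreteValuationRing.exists_irreducible v.toValuationSubring
  have hπF : algebraMap v.toValuationSubring F' π = algebraMap F F' (π : F) := rfl
  have hπ0 : (π : F) ≠ 0 := by
    simpa [ne_eq, ZeroMemClass.coe_eq_zero] using hπ.ne_zero
  have ha : algebraMap v.toValuationSubring B π ≠ 0 := by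
    intro h
    have h1 := congrArg (algebraMap B F') h
    rw [← IsScalarTower.algebraMap_apply v.toValuationSubring B F', map_zero, hπF] at h1
    exact hπ0 ((algebraMap F F').injective (by rw [h1, map_zero]))
  have hmaxeq : IsLocalRing.maximalIdeal v.toValuationSubring = Ideal.span {π} :=
    hπ.maximalIdeal_eq
  have hmax : (Ideal.span {π}).IsMaximal := PrincipalIdealRing.isMaximal_of_irreducible hπ
  have hK : ∀ x : v.toValuationSubring,
      ∃ k : K, x - algebraMap K v.toValuationSubring k ∈ Ideal.span {π} := by
    intro x
    obtain ⟨c, hc⟩ := Fermat.Agent.S24.Places.exists_residue_eq v ht hfin x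
    refine ⟨c, ?_⟩
    rw [← hmaxeq, ← IsLocalRing.residue_eq_zero_iff, map_sub, ← hc]
    exact sub_self _
  -- the places over `v` are the places attached to the primes over `(π)`
  have hrestrict : ∀ q : (Ideal.span {π}).primesOver B,
      (Fermat.Agent.S24.Zeros.placeOver K F' π ha q).restrict F = v := by
    intro q
    symm
    apply Fermat.Agent.S24.Dict.ext_of_le
    intro x hx
    rw [Place.mem_restrict_iff]
    apply Fermat.Agent.S24.Dict.mem_of_ord_nonneg
    exact Fermat.Agent.S24.Dict.ord_ofHeightOneSpectrum_nonneg (K := K) (F := F')
      (Fermat.Agent.S24.Zeros.primeOver π ha q) (algebraMap v.toValuationSubring B ⟨x, hx⟩)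
  have hordπ : ∀ w : Place K F', w.restrict F = v →
      w.ord (algebraMap v.toValuationSubring F' π) = (w.ramificationIndex F : ℤ) := by
    intro w hw
    rw [hπF, w.ord_restrict (π : F), hw, v.ord_coe_irreducible hπ, mul_one]
  have hsurj : ∀ w : Place K F', w.restrict F = v →
      ∃ q : (Ideal.span {π}).primesOver B,
        Fermat.Agent.S24.Zeros.placeOver K F' π ha q = w := by
    intro w hw
    have hpos : 0 < w.ord (algebraMap v.toValuationSubring F' π) := by
      rw [hordπ w hw]
      exact_mod_cast w.ramificationIndex_pos (F := F)
    have hA : ∀ x : v.toValuationSubring, 0 ≤ w.ord (algebraMap v.toValuationSubring F' x) := by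
      intro x
      apply Fermat.Agent.S24.Dict.ord_nonneg_of_mem
      have hx : (x : F) ∈ (w.restrict F).toValuationSubring := by
        rw [hw]
        exact x.2
      exact (Place.mem_restrict_iff w).mp hx
    have hB : ∀ b : B, 0 ≤ w.ord (algebraMap B F' b) := by
      intro b
      exact Fermat.Agent.S24.Dict.ord_nonneg_of_isIntegral w hA b.2
    obtain ⟨P, hP, hmem⟩ := Fermat.Agent.S24.Dict.exists_eq_ofHeightOneSpectrum w hB
      ⟨algebraMap v.toValuationSubring B π, ha, by
        rw [← IsScalarTower.algebraMap_apply v.toValuationSubring B F']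
        exact hpos⟩
    have hav : algebraMap v.toValuationSubring B π ∈ P.asIdeal :=
      (hmem _ ha).mpr (by
        rw [← IsScalarTower.algebraMap_apply v.toValuationSubring B F']
        exact hpos)
    have hle : Ideal.span {π} ≤ P.asIdeal.under v.toValuationSubring := by
      rw [Ideal.span_le, Set.singleton_subset_iff]
      exact hav
    have hover : P.asIdeal.LiesOver (Ideal.span {π}) :=
      ⟨hmax.eq_of_le (Ideal.IsPrime.under v.toValuationSubring P.asIdeal).ne_top hle⟩
    refine ⟨⟨P.asIdeal, P.isPrime, hover⟩, ?_⟩
    rw [hP]
    rfl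
  -- the sum
  have hfinite : Finite ((Ideal.span {π}).primesOver B) :=
    (Algebra.QuasiFinite.finite_primesOver (Ideal.span {π})).to_subtype
  have := Fintype.ofFinite ((Ideal.span {π}).primesOver B)
  have hsum := Ideal.sum_ramification_inertia_eq_finrank (Ideal.span {π}) B
  have hrank : Module.finrank F F' = Module.finrank v.toValuationSubring B :=
    IsFractionRing.finrank_eq v.toValuationSubring F B F'
  rw [hdegv, hrank, ← hsum, Nat.cast_sum, Nat.cast_one, mul_one]
  symm
  refine Finset.sum_bij (fun q _ => Fermat.Agent.S24.Zeros.placeOver K F' π ha q) ?_ ?_ ?_ ?_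
  · intro q _
    exact Place.mem_fiber.mpr (hrestrict q)
  · intro q _ q' _ h
    exact Fermat.Agent.S24.Zeros.placeOver_injective π ha h
  · intro w hw
    obtain ⟨q, hq⟩ := hsurj w (Place.mem_fiber.mp hw)
    exact ⟨q, Finset.mem_univ _, hq⟩
  · intro q _
    have h1 := Fermat.Agent.S24.Zeros.ord_placeOver (K := K) (F := F') π ha q
    rw [hordπ _ (hrestrict q)] at h1
    have h2 : q.1.inertiaDeg v.toValuationSubring = 1 :=
      have : q.1.IsPrime := q.2.1
      have : q.1.LiesOver (Ideal.span {π}) := q.2.2
      Fermat.Agent.S24.Zeros.inertiaDeg_eq_one (K := K) π hmax hK q.1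
    rw [hdegw, h1, h2]
    push_cast
    ring

/-- The fundamental identity for an extension given by an `Algebra` instance. -/
theorem hifa_fundamentalIdentity [IsAlgClosed K] [CharZero K] [Algebra.IsIntegral F F']
    [HasPrincipalDivisors K F'] [Module.Finite F F'] (t : F) (ht : Transcendental K t)
    (hfin : FiniteDimensional K⟮t⟯ F) : FundamentalIdentity K F F' :=
  ⟨fun v => hifa_sum t ht hfin v⟩

end hifa

/-- (HI-FI) The fundamental identity `∑_{w ∣ v} e(w ∣ v) = [F' : F]`. -/
theorem hifa_main : hi_FIStatement := by
  intro K F F' _ _ _ _ _ _ _ _ t ht hfin φ hφ hfinφ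
  let := algebraAlong φ
  have := isScalarTower_along φ
  have := isIntegral_along φ hφ
  have : Module.Finite F F' := hfinφ
  exact hifa_fundamentalIdentity t ht hfin

end Fermat.Agent.S37
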