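/-
S37 (Eichler–Shimura congruence relation), block HI, package `HIFin`:
finiteness facts for the modular function fields `F_M = ℚ̄(X₀(M))`.

* `hifn_fin : hi_FinStatement` — the two degeneracy maps `α, β : F_N → F_{Nℓ}` are integral and
  finite;
* `hifn_principal : hi_PrincipalStatement` — principal divisors of `F_M` have finite support and
  degree zero (`HasPrincipalDivisors`);
* `hifn_degOne : hi_DegOneStatement` — every place of `F_M` has degree one.

Everything is deduced from the S24 degree computation (`F_M` is finite over `ℚ̄(j)`, `j`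
transcendental) and the S24 theory of places of function fields of one variable.
-/
import Fermat.Agent.S37.HIInterfaces
import Fermat.Agent.S24.Places
import Fermat.Agent.S24.Zeros
import Fermat.Agent.S28.CMain

set_option autoImplicit false

open AlgebraicCurve ModularCurve IntermediateField

namespace Fermat.Agent.S37

/-! ### General facts on `FiniteAlong` -/

/-- If `F'` is finite over `K(φ t)` for some `t : F`, then `F'` is finite along `φ : F → F'`. -/
theorem hifn_finiteAlong_of_adjoin {K F F' : Type} [Field K] [Field F] [Field F'] [Algebra K F]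
    [Algebra K F'] (φ : F →ₐ[K] F') (t : F) (h : FiniteDimensional K⟮φ t⟯ F') :
    FiniteAlong K φ := by
  let _ : Algebra F F' := algebraAlong φ
  show Module.Finite F F'
  obtain ⟨S, hS⟩ := h.fg_top
  have hle : K⟮φ t⟯ ≤ φ.fieldRange := adjoin_simple_le_iff.mpr ⟨t, rfl⟩
  have key : ∀ x : F', x ∈ Submodule.span K⟮φ t⟯ (S : Set F') →
      x ∈ Submodule.span F (S : Set F') := by
    intro x hx
    induction hx using Submodule.span_induction with
    | mem y hy => exact Submodule.subset_span hy
    | zero => exact zero_mem _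
    | add y z _ _ hy hz => exact add_mem hy hz
    | smul c y _ hy =>
      obtain ⟨d, hd⟩ := hle c.2
      have e : c • y = d • y := by
        show (c : F') * y = φ.toRingHom d * y
        rw [hd]
      rw [e]
      exact Submodule.smul_mem _ d hy
  refine ⟨⟨S, ?_⟩⟩
  rw [eq_top_iff]
  intro x _
  exact key x (by rw [hS]; exact Submodule.mem_top)

/-- A finite embedding is integral. -/
theorem hifn_isIntegral_of_finiteAlong {K F F' : Type} [Field K] [Field F] [Field F']
    [Algebra K F] [Algebra K F'] (φ : F →ₐ[K] F') (h : FiniteAlong K φ) :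
    φ.toRingHom.IsIntegral := by
  let _ : Algebra F F' := algebraAlong φ
  have : Module.Finite F F' := h
  intro x
  exact Algebra.IsIntegral.isIntegral (R := F) x

/-! ### The modular function fields -/

/-- The inclusion `α : F_N → F_{Nℓ}` maps `j` to `j`. -/
theorem hifn_alpha_jBar (N ℓ : ℕ) [NeZero N] [NeZero ℓ] :
    heckeAlphaBar (AlgebraicClosure ℚ) N ℓ (Fermat.Agent.S24.jBar N)
      = Fermat.Agent.S24.jBar (N * ℓ) :=
  Subtype.ext (by rw [coe_heckeAlphaBar]; rfl)

/-- (HI-DegOne) Every place of `F_M` has degree one. -/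
theorem hifn_degOne : hi_DegOneStatement := by
  intro M _ P
  obtain ⟨htr, hfin, -⟩ := Fermat.Agent.S28.c_modelCounts M
  exact Fermat.Agent.S24.Places.degOneStatement _ _ (Fermat.Agent.S24.jBar M) htr hfin P

/-- (HI-Princ) Principal divisors of `F_M` have finite support and degree zero. -/
theorem hifn_principal : hi_PrincipalStatement := by
  intro M _
  obtain ⟨htr, hfin, -⟩ := Fermat.Agent.S28.c_modelCounts M
  have hPr := Fermat.Agent.S24.Places.principalStatement Fermat.Agent.S24.Zeros.zerosStatement
    Fermat.Agent.S24.Zeros.polesStatement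
  refine ⟨fun f hf => ?_⟩
  obtain ⟨hsupp, hsum⟩ := hPr _ _ (Fermat.Agent.S24.jBar M) htr hfin f hf
  have hdeg1 : ∀ w : Place (AlgebraicClosure ℚ) ↥(modularFunctionFieldBar M), w.deg = 1 :=
    fun w => Fermat.Agent.S24.Places.degOneStatement _ _ (Fermat.Agent.S24.jBar M) htr hfin w
  let D : Divisor (AlgebraicClosure ℚ) ↥(modularFunctionFieldBar M) :=
    Finsupp.ofSupportFinite (fun v => v.ord f) hsupp
  have hD : ∀ v : Place (AlgebraicClosure ℚ) ↥(modularFunctionFieldBar M), D v = v.ord f :=
    fun v => rfl
  refine ⟨D, hD, ?_⟩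
  have hdeg : Divisor.degree D = ∑ᶠ w, D w := by
    rw [finsum_eq_sum_of_support_subset _ (Finsupp.fun_support_eq D).subset,
      Divisor.degree, Finsupp.liftAddHom_apply, Finsupp.sum]
    refine Finset.sum_congr rfl (fun w _ => ?_)
    rw [AddMonoidHom.mulRight_apply, hdeg1 w]
    simp
  rw [hdeg, finsum_congr hD, hsum]

/-- (HI-Fin) The two degeneracy maps `α, β : F_N → F_{Nℓ}` are integral and finite. -/
theorem hifn_fin : hi_FinStatement := by
  intro N ℓ _ _
  obtain ⟨htrN, -, -⟩ := Fermat.Agent.S28.c_modelCounts N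
  obtain ⟨htr, hfin, -⟩ := Fermat.Agent.S28.c_modelCounts (N * ℓ)
  have hα : FiniteAlong (AlgebraicClosure ℚ) (heckeAlphaBar (AlgebraicClosure ℚ) N ℓ) := by
    apply hifn_finiteAlong_of_adjoin _ (Fermat.Agent.S24.jBar N)
    rw [hifn_alpha_jBar]
    exact hfin
  have hβtr : Transcendental (AlgebraicClosure ℚ)
      (heckeBetaBar (AlgebraicClosure ℚ) N ℓ (Fermat.Agent.S24.jBar N)) :=
    fun h => htrN ((isAlgebraic_algHom_iff _
      (heckeBetaBar (AlgebraicClosure ℚ) N ℓ).toRingHom.injective).mp h)
  have hβ : FiniteAlong (AlgebraicClosure ℚ) (heckeBetaBar (AlgebraicClosure ℚ) N ℓ) :=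
    hifn_finiteAlong_of_adjoin _ (Fermat.Agent.S24.jBar N)
      (Fermat.Agent.S24.Places.finiteDimensional_adjoin_of_transcendental htr hfin hβtr)
  exact ⟨hifn_isIntegral_of_finiteAlong _ hα, hifn_isIntegral_of_finiteAlong _ hβ, hα, hβ⟩

end Fermat.Agent.S37
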