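/-
S37, block HI, package HINf: the norm formula `ord_v (N f) = ∑_{w ∣ v} ord_w f` for a finite
extension `F'/F` of function fields of one variable over an algebraically closed field of
characteristic zero, in the prelude's form `Divisor.PushforwardNormFormula`.

Proof.  Fix a place `v` of `F`, let `A` be its valuation ring (a discrete valuation ring with
fraction field `F` and uniformiser `π`) and `B` the integral closure of `A` in `F'`: a Dedekind
domain, finite over `A`, with fraction field `F'`.  The places of `F'` above `v` are exactly the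
places attached to the nonzero primes `P` of `B`; these primes are finitely many, all lie over
`(π)` and have inertia degree one (the residue field of `v` is `K`, which is algebraically closed).
Hence, for `b ∈ B` nonzero, `(N b) = relNorm (b) = ∏ relNorm (P) ^ n_P = (π) ^ ∑ n_P` with
`n_P = ord_{w_P} b`.  Both sides of the formula are additive in `f`, and `F' = Frac B`.
-/
import Fermat.Agent.S37.HIInterfaces
import Fermat.Agent.S24.Zeros
import Fermat.Agent.S24.Places

set_option autoImplicit false

open AlgebraicCurve IsDedekindDomain IntermediateField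
open Fermat.Agent.S24

namespace Fermat.Agent.S37

/-- Transport of finite-dimensionality over `K(t)` along a finite embedding. -/
theorem hina_finiteDimensional_map {K F F' : Type} [Field K] [Field F] [Field F'] [Algebra K F]
    [Algebra K F'] (φ : F →ₐ[K] F') (hfin : FiniteAlong K φ) (t : F)
    (h : FiniteDimensional K⟮t⟯ F) : FiniteDimensional K⟮φ t⟯ F' := by
  let _ := algebraAlong φ
  have : Module.Finite F F' := hfin
  have : Module.Finite K⟮t⟯ F' := Module.Finite.trans F F'
  have hmap : K⟮t⟯.map φ = K⟮φ t⟯ := by
    rw [IntermediateField.adjoin_map, Set.image_singleton]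
  let e₁ : K⟮t⟯ ≃ₐ[K] K⟮φ t⟯ :=
    (IntermediateField.equivMap K⟮t⟯ φ).trans (IntermediateField.equivOfEq hmap)
  exact Module.Finite.of_equiv_equiv e₁.toRingEquiv (RingEquiv.refl F') (by ext x; rfl)

/-- The order at `v` of an element `a` of the valuation ring with `(a) = (π) ^ s`. -/
theorem hina_ord_of_span_eq_pow {K F : Type} [Field K] [Field F] [Algebra K F] (v : Place K F)
    {π : ↥v.toValuationSubring} (hπ : Irreducible π) (a : ↥v.toValuationSubring) (s : ℕ)
    (h : Ideal.span {a} = Ideal.span {π} ^ s) : v.ord (a : F) = s := by
  rw [Ideal.span_singleton_pow, Ideal.span_singleton_eq_span_singleton] at h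
  obtain ⟨u, hu⟩ := h.symm
  have h1 : (a : F) = ((u : ↥v.toValuationSubring) : F) * (π : F) ^ (s : ℤ) := by
    rw [← hu, zpow_natCast]
    push_cast
    ring
  rw [h1, v.ord_unit_smul_zpow u hπ]

/-- The ideal generated by the norm of `b`, when all the primes of `B` lie over the maximal ideal
`p` of `A` with inertia degree one. -/
theorem hina_span_intNorm {A B : Type} [CommRing A] [CommRing B]
    [IsDedekindDomain A] [IsDedekindDomain B] [Algebra A B] [Module.Finite A B]
    [Module.IsTorsionFree A B] [PerfectField (FractionRing A)] [Fintype (HeightOneSpectrum B)]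
    (p : Ideal A) [p.IsMaximal]
    (hover : ∀ P : HeightOneSpectrum B, P.asIdeal.LiesOver p)
    (hdeg : ∀ P : HeightOneSpectrum B, P.asIdeal.inertiaDeg A = 1)
    (b : B) (hb : b ≠ 0) :
    Ideal.span {Algebra.intNorm A B b} =
      p ^ ∑ P : HeightOneSpectrum B,
        (Associates.mk P.asIdeal).count (Associates.mk (Ideal.span {b})).factors := by
  have hI : Ideal.span {b} ≠ 0 := by
    rw [Ne, Ideal.zero_eq_bot, Ideal.span_singleton_eq_bot]
    exact hb
  have hfact := Ideal.finprod_heightOneSpectrum_factorization hI
  rw [finprod_eq_prod_of_fintype] at hfact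
  rw [← Ideal.relNorm_singleton, ← hfact, map_prod, ← Finset.prod_pow_eq_pow_sum]
  refine Finset.prod_congr rfl fun P _ => ?_
  have := hover P
  have : P.asIdeal.IsMaximal := P.isMaximal
  rw [HeightOneSpectrum.maxPowDividing, map_pow, Ideal.relNorm_eq_pow_of_isMaximal P.asIdeal p,
    hdeg P, pow_one]
  congr 2
  rw [hfact]

/-- The local norm formula at a place `v` of `F` whose residue field is `K`: the places of `F'`
above `v` form a finite set `s`, and `ord_v (N f) = ∑_{w ∈ s} ord_w f`. -/
theorem hina_local {K F F' : Type} [Field K] [Field F] [Field F'] [Algebra K F] [Algebra K F']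
    [Algebra F F'] [IsScalarTower K F F'] [Module.Finite F F'] [IsAlgClosed K] [CharZero K]
    (v : Place K F)
    (hres : ∀ x : ↥v.toValuationSubring,
      ∃ c : K, algebraMap K v.ResidueField c = IsLocalRing.residue ↥v.toValuationSubring x) :
    ∃ s : Finset (Place K F'), (∀ w : Place K F', w ∈ s ↔ w.restrict F = v) ∧
      ∀ f : F', f ≠ 0 → v.ord (Algebra.norm F f) = ∑ w ∈ s, w.ord f := by
  classical
  have : CharZero F := charZero_of_injective_algebraMap (algebraMap K F).injective
  have : Algebra.IsSeparable F F' := inferInstance
  have : IsScalarTower K ↥v.toValuationSubring F' :=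
    IsScalarTower.of_algebraMap_eq (fun k => by
      rw [IsScalarTower.algebraMap_apply K F F']
      rfl)
  have : IsScalarTower K ↥(integralClosure ↥v.toValuationSubring F') F' :=
    IsScalarTower.of_algebraMap_eq (fun _ => rfl)
  have : IsDedekindDomain ↥(integralClosure ↥v.toValuationSubring F') :=
    IsIntegralClosure.isDedekindDomain ↥v.toValuationSubring F F' _
  have : IsFractionRing ↥(integralClosure ↥v.toValuationSubring F') F' :=
    integralClosure.isFractionRing_of_finite_extension F F'
  have : Module.Finite ↥v.toValuationSubring ↥(integralClosure ↥v.toValuationSubring F') :=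
    IsIntegralClosure.finite ↥v.toValuationSubring F F' _
  have : PerfectField (FractionRing ↥v.toValuationSubring) := inferInstance
  obtain ⟨π, hπ⟩ := IsDiscreteValuationRing.exists_irreducible ↥v.toValuationSubring
  have hmax : (Ideal.span {π}).IsMaximal := PrincipalIdealRing.isMaximal_of_irreducible hπ
  have hπF : algebraMap ↥(integralClosure ↥v.toValuationSubring F') F'
      (algebraMap ↥v.toValuationSubring ↥(integralClosure ↥v.toValuationSubring F') π) =
      algebraMap F F' (π : F) := rfl
  have hπB0 : algebraMap ↥v.toValuationSubring ↥(integralClosure ↥v.toValuationSubring F') π ≠ 0 := by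
    intro h
    have h1 := congrArg (algebraMap ↥(integralClosure ↥v.toValuationSubring F') F') h
    rw [hπF, map_zero, map_eq_zero] at h1
    exact hπ.ne_zero (Subtype.ext h1)
  -- the places attached to the primes of `B`
  have hWinj : Function.Injective (fun P : HeightOneSpectrum
      ↥(integralClosure ↥v.toValuationSubring F') =>
        Place.ofHeightOneSpectrum (K := K) (F := F') P) :=
    Dict.ofHeightOneSpectrum_injective (K := K) (F := F')
  have hWres : ∀ P : HeightOneSpectrum ↥(integralClosure ↥v.toValuationSubring F'),
      (Place.ofHeightOneSpectrum (K := K) (F := F') P).restrict F = v := by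
    intro P
    symm
    apply Dict.ext_of_le
    intro x hx
    change algebraMap F F' x ∈ (P.valuation F').valuationSubring
    exact P.valuation_le_one (algebraMap ↥v.toValuationSubring
      ↥(integralClosure ↥v.toValuationSubring F') ⟨x, hx⟩)
  have hWrange : ∀ w : Place K F', w.restrict F = v →
      ∃ P : HeightOneSpectrum ↥(integralClosure ↥v.toValuationSubring F'),
        Place.ofHeightOneSpectrum (K := K) (F := F') P = w := by
    intro w hw
    have hA : ∀ a : ↥v.toValuationSubring,
        0 ≤ w.ord (algebraMap ↥v.toValuationSubring F' a) := by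
      intro a
      apply Dict.ord_nonneg_of_mem
      have ha : (a : F) ∈ (w.restrict F).toValuationSubring := by
        rw [hw]
        exact a.2
      exact ha
    have hB : ∀ b : ↥(integralClosure ↥v.toValuationSubring F'),
        0 ≤ w.ord (algebraMap ↥(integralClosure ↥v.toValuationSubring F') F' b) := by
      intro b
      exact Dict.ord_nonneg_of_isIntegral w hA b.2
    have hπw : 0 < w.ord (algebraMap ↥(integralClosure ↥v.toValuationSubring F') F'
        (algebraMap ↥v.toValuationSubring ↥(integralClosure ↥v.toValuationSubring F') π)) := by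
      rw [hπF, w.ord_restrict, hw, v.ord_coe_irreducible hπ, mul_one]
      exact_mod_cast w.ramificationIndex_pos (F := F)
    obtain ⟨P, hP, -⟩ := Dict.exists_eq_ofHeightOneSpectrum w hB ⟨_, hπB0, hπw⟩
    exact ⟨P, hP.symm⟩
  -- `π` lies in every nonzero prime of `B`
  have hπP : ∀ P : HeightOneSpectrum ↥(integralClosure ↥v.toValuationSubring F'),
      algebraMap ↥v.toValuationSubring ↥(integralClosure ↥v.toValuationSubring F') π ∈
        P.asIdeal := by
    intro P
    rw [Dict.mem_asIdeal_iff_ord_pos (K := K) (F := F') P hπB0, hπF, Place.ord_restrict,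
      hWres P, v.ord_coe_irreducible hπ, mul_one]
    exact_mod_cast (Place.ofHeightOneSpectrum (K := K) (F := F') P).ramificationIndex_pos (F := F)
  -- hence `B` has finitely many nonzero primes
  have hfinite : Finite (HeightOneSpectrum ↥(integralClosure ↥v.toValuationSubring F')) := by
    have hI : Ideal.span {algebraMap ↥v.toValuationSubring
        ↥(integralClosure ↥v.toValuationSubring F') π} ≠ 0 := by
      rw [Ne, Ideal.zero_eq_bot, Ideal.span_singleton_eq_bot]
      exact hπB0
    have h := Ideal.finite_factors hI
    have huniv : {P : HeightOneSpectrum ↥(integralClosure ↥v.toValuationSubring F') |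
        P.asIdeal ∣ Ideal.span {algebraMap ↥v.toValuationSubring
          ↥(integralClosure ↥v.toValuationSubring F') π}} = Set.univ := by
      ext P
      simp only [Set.mem_ofPred_eq, Set.mem_univ, iff_true]
      rw [Ideal.dvd_span_singleton]
      exact hπP P
    rw [huniv] at h
    exact Set.finite_univ_iff.mp h
  let _ := Fintype.ofFinite (HeightOneSpectrum ↥(integralClosure ↥v.toValuationSubring F'))
  -- all of them lie over `(π)` with inertia degree one
  have hover : ∀ P : HeightOneSpectrum ↥(integralClosure ↥v.toValuationSubring F'),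
      P.asIdeal.LiesOver (Ideal.span {π}) := by
    intro P
    have hle : Ideal.span {π} ≤ P.asIdeal.under ↥v.toValuationSubring := by
      rw [Ideal.span_le, Set.singleton_subset_iff]
      exact hπP P
    exact ⟨hmax.eq_of_le (Ideal.IsPrime.under _ P.asIdeal).ne_top hle⟩
  have hK : ∀ x : ↥v.toValuationSubring,
      ∃ k : K, x - algebraMap K ↥v.toValuationSubring k ∈ Ideal.span {π} := by
    intro x
    obtain ⟨c, hc⟩ := hres x
    refine ⟨c, ?_⟩
    rw [← hπ.maximalIdeal_eq, ← IsLocalRing.residue_eq_zero_iff, map_sub, ← hc]
    exact sub_self _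
  have hdeg : ∀ P : HeightOneSpectrum ↥(integralClosure ↥v.toValuationSubring F'),
      P.asIdeal.inertiaDeg ↥v.toValuationSubring = 1 := by
    intro P
    have := hover P
    exact Zeros.inertiaDeg_eq_one (K := K) π hmax hK P.asIdeal
  -- the formula for the elements of `B`
  have hB : ∀ b : ↥(integralClosure ↥v.toValuationSubring F'), b ≠ 0 →
      v.ord (Algebra.norm F (algebraMap ↥(integralClosure ↥v.toValuationSubring F') F' b)) =
        ∑ P : HeightOneSpectrum ↥(integralClosure ↥v.toValuationSubring F'),
          (Place.ofHeightOneSpectrum (K := K) (F := F') P).ord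
            (algebraMap ↥(integralClosure ↥v.toValuationSubring F') F' b) := by
    intro b hb
    have h1 := hina_span_intNorm (Ideal.span {π}) hover hdeg b hb
    have h2 := hina_ord_of_span_eq_pow v hπ _ _ h1
    have h3 : ((Algebra.intNorm ↥v.toValuationSubring
        ↥(integralClosure ↥v.toValuationSubring F') b : ↥v.toValuationSubring) : F) =
        Algebra.norm F (algebraMap ↥(integralClosure ↥v.toValuationSubring F') F' b) :=
      Algebra.algebraMap_intNorm (A := ↥v.toValuationSubring) (K := F) (L := F')
        (B := ↥(integralClosure ↥v.toValuationSubring F')) b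
    have hsr : Ideal.span {b} ≠ 0 := by
      rw [Ne, Ideal.zero_eq_bot, Ideal.span_singleton_eq_bot]
      exact hb
    rw [← h3, h2]
    push_cast
    refine Finset.sum_congr rfl fun P _ => ?_
    rw [Dict.ord_ofHeightOneSpectrum_algebraMap_eq_count (K := K) (F := F') P hb,
      Ideal.count_associates_factors_eq hsr P.isPrime P.ne_bot]
  refine ⟨Finset.univ.image (fun P : HeightOneSpectrum
      ↥(integralClosure ↥v.toValuationSubring F') =>
        Place.ofHeightOneSpectrum (K := K) (F := F') P), ?_, ?_⟩
  · intro w
    simp only [Finset.mem_image, Finset.mem_univ, true_and]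
    constructor
    · rintro ⟨P, rfl⟩
      exact hWres P
    · exact hWrange w
  · intro f hf
    rw [Finset.sum_image (fun P _ Q _ h => hWinj h)]
    obtain ⟨b₁, b₂, hb₂, hf'⟩ :=
      IsFractionRing.div_surjective (A := ↥(integralClosure ↥v.toValuationSubring F')) f
    have hb₂0 : b₂ ≠ 0 := nonZeroDivisors.ne_zero hb₂
    have hx₂ : algebraMap ↥(integralClosure ↥v.toValuationSubring F') F' b₂ ≠ 0 := by
      simpa using (IsFractionRing.injective
        ↥(integralClosure ↥v.toValuationSubring F') F').ne hb₂0
    have hmul : f * algebraMap ↥(integralClosure ↥v.toValuationSubring F') F' b₂ =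
        algebraMap ↥(integralClosure ↥v.toValuationSubring F') F' b₁ := by
      rw [← hf', div_mul_cancel₀ _ hx₂]
    have hb₁0 : b₁ ≠ 0 := by
      rintro rfl
      rw [map_zero] at hmul
      exact mul_ne_zero hf hx₂ hmul
    have hN : v.ord (Algebra.norm F f) +
        v.ord (Algebra.norm F (algebraMap ↥(integralClosure ↥v.toValuationSubring F') F' b₂)) =
        v.ord (Algebra.norm F (algebraMap ↥(integralClosure ↥v.toValuationSubring F') F' b₁)) := by
      rw [← hmul, map_mul, v.ord_mul (Algebra.norm_ne_zero_iff.mpr hf)
        (Algebra.norm_ne_zero_iff.mpr hx₂)]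
    have hS : ∑ P : HeightOneSpectrum ↥(integralClosure ↥v.toValuationSubring F'),
          (Place.ofHeightOneSpectrum (K := K) (F := F') P).ord f +
        ∑ P : HeightOneSpectrum ↥(integralClosure ↥v.toValuationSubring F'),
          (Place.ofHeightOneSpectrum (K := K) (F := F') P).ord
            (algebraMap ↥(integralClosure ↥v.toValuationSubring F') F' b₂) =
        ∑ P : HeightOneSpectrum ↥(integralClosure ↥v.toValuationSubring F'),
          (Place.ofHeightOneSpectrum (K := K) (F := F') P).ord
            (algebraMap ↥(integralClosure ↥v.toValuationSubring F') F' b₁) := by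
      rw [← Finset.sum_add_distrib]
      refine Finset.sum_congr rfl fun P _ => ?_
      rw [← hmul, Place.ord_mul _ hf hx₂]
    have e₁ := hB b₁ hb₁0
    have e₂ := hB b₂ hb₂0
    omega

/-- (HI-NF) The norm formula. -/
theorem hina_main : hi_NFStatement := by
  intro K F F' _ _ _ _ _ _ _ t ht hfinF φ hfin
  let _ := algebraAlong φ
  have := isScalarTower_along φ
  have : Module.Finite F F' := hfin
  have ht' : Transcendental K (φ t) := fun h =>
    ht ((isAlgebraic_algHom_iff φ φ.toRingHom.injective).mp h)
  have hfinF' : FiniteDimensional K⟮φ t⟯ F' := hina_finiteDimensional_map φ hfin t hfinF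
  have hdegF : ∀ u : Place K F, u.deg = 1 :=
    Places.degOneStatement K F t ht hfinF
  have hdegF' : ∀ w : Place K F', w.deg = 1 :=
    Places.degOneStatement K F' (φ t) ht' hfinF'
  intro f hf D hD v
  classical
  obtain ⟨s, hs, hsum⟩ := hina_local (F' := F') v
    (fun x => Places.exists_residue_eq v ht hfinF x)
  have hin : ∀ w : Place K F', (w.inertiaDeg F : ℤ) = 1 := by
    intro w
    have h := w.deg_restrict_mul_inertiaDeg (F := F)
    rw [hdegF, hdegF', one_mul] at h
    exact_mod_cast h
  rw [Divisor.pushforward_apply, hsum f hf, ← Finset.sum_filter]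
  have hcongr : ∑ w ∈ D.support with w.restrict F = v, D w * (w.inertiaDeg F : ℤ) =
      ∑ w ∈ D.support with w.restrict F = v, w.ord f :=
    Finset.sum_congr rfl fun w _ => by rw [hin w, mul_one, hD w]
  rw [hcongr]
  apply Finset.sum_subset
  · intro w hw
    rw [Finset.mem_filter] at hw
    exact (hs w).mpr hw.2
  · intro w hw hw'
    rw [Finset.mem_filter, not_and] at hw'
    have h1 : w ∉ D.support := fun h => hw' h ((hs w).mp hw)
    rw [Finsupp.notMem_support_iff, hD w] at h1
    exact h1

end Fermat.Agent.S37
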