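/-
S37, block HI — hypothesis-free deliverables (assembly of the work packages), part 1:
the Hecke inputs, finiteness, degree one, the Hecke correspondence on a single place.
-/
import Fermat.Agent.S37.Interfaces
import Fermat.Agent.S37.HIFiA
import Fermat.Agent.S37.HINfA
import Fermat.Agent.S37.HIFinA
import Fermat.Agent.S37.HIAsm

set_option autoImplicit false

open ModularCurve AlgebraicCurve

namespace Fermat.Agent.S37

/-- (HI-FI), hypothesis-free. -/
theorem hi_fi : hi_FIStatement := hifa_main

/-- (HI-NF), hypothesis-free. -/
theorem hi_nf : hi_NFStatement := hina_main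

/-- (HI-Fin), hypothesis-free. -/
theorem hi_fin : hi_FinStatement := hifn_fin

/-- (HI-Princ), hypothesis-free. -/
theorem hi_principal : hi_PrincipalStatement := hifn_principal

/-- (HI-DegOne), hypothesis-free. -/
theorem hi_degOne : hi_DegOneStatement := hifn_degOne

/-- (HI1), hypothesis-free. -/
theorem hi_heckeInputs : hi_HeckeInputsStatement := hias_inputs hi_fi hi_nf hi_fin hi_principal

/-- (HI-Single), hypothesis-free. -/
theorem hi_heckeDivSingle : hi_HeckeDivSingleStatement := hias_single hi_degOne

/-- Block HI: the inputs of the Hecke correspondence hold at every prime. -/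
theorem hi_main : HIStatement := fun N ℓ _ _ _ => hi_heckeInputs N ℓ

end Fermat.Agent.S37
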