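/-
S37, block HI, package `HIValDirect`: the VALUES LEMMA `hi_ValuesStatement` (free route).

Setting: `K` algebraically closed of characteristic zero, `F'` a finite extension of the function
field `F` of one variable over `K`, `v` a place of `F`, and `h : F'` with value `c w : K` at every
place `w` of `F'` above `v`.  Then the `i`-th coefficient of the characteristic polynomial of `h`
over `F` has the value "`i`-th coefficient of `∏_{w ∣ v} (X - c w) ^ e(w ∣ v)`" at `v`.

Proof.  Let `A` be the valuation ring of `v` (a discrete valuation ring with uniformiser `π` and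
residue field `K`) and `B` the integral closure of `A` in `F'`: a Dedekind domain, finite and free
over `A`, whose nonzero primes `P` correspond to the places `w_P` above `v` (dictionary of
`Fermat.Agent.S24.Dict`), with `ord_{w_P} π = e(w_P ∣ v)`; the fundamental identity
`∑_P e_P = rank_A B` comes from Mathlib (`Ideal.sum_ramification_inertia_eq_finrank`) and the
triviality of the residue extensions.  Then `h ∈ B`, the characteristic polynomial of `h` over `F`
is the image of the characteristic polynomial `χ` of the multiplication by `h` on the free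
`A`-module `B` (`hivd_charpoly_localization`), and the reduction of `χ` modulo `π` is computed in
`hivd_core`: `B` is a principal ideal domain, `P = (ϖ_P)`, `π = ϖ_P ^ e_P * y_P`, and the classes
modulo `π B` of the elements `ϖ_P ^ i * y_P` (`i < e_P`) are linearly independent generalized
eigenvectors, with eigenvalue `c_P`, of the multiplication by `h` on `B ⧸ π B`; there are
`∑ e_P = dim (B ⧸ π B)` of them, so that the characteristic polynomial is `∏_P (X - c_P) ^ e_P`
(`hivd_charpoly_of_genEigenvectors`).
-/
import Fermat.Agent.S37.HIInterfaces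
import Fermat.Agent.S24.Zeros
import Fermat.Agent.S24.Places

set_option autoImplicit false

open AlgebraicCurve IsDedekindDomain IntermediateField Polynomial

namespace Fermat.Agent.S37

open Fermat.Agent.S24

/-- Abstract linear algebra: if a finite-dimensional space has a linearly independent family of
at least `finrank` many generalized eigenvectors `Z j` (with eigenvalues `μ j`) of the
endomorphism `T`, then the characteristic polynomial of `T` is `∏ j, (X - C (μ j))`. -/
theorem hivd_charpoly_of_genEigenvectors {κ V J : Type} [Field κ] [AddCommGroup V] [Module κ V]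
    [Module.Finite κ V] [Fintype J] (T : Module.End κ V) (Z : J → V) (μ : J → κ)
    (hZ : LinearIndependent κ Z) (hμ : ∀ j, Z j ∈ T.maxGenEigenspace (μ j))
    (hcard : Module.finrank κ V ≤ Fintype.card J) :
    T.charpoly = ∏ j, (X - C (μ j)) := by
  classical
  set s : Multiset κ := (Finset.univ : Finset J).val.map μ with hs
  have hg : (∏ j, (X - C (μ j))) = (s.map fun a => X - C a).prod := by
    rw [hs, Multiset.map_map]
    rfl
  have hχ0 : T.charpoly ≠ 0 := T.charpoly_monic.ne_zero
  have hle : s ≤ T.charpoly.roots := by
    rw [Multiset.le_iff_count]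
    intro a
    rw [Polynomial.count_roots, ← LinearMap.finrank_maxGenEigenspace_eq, hs, Multiset.count_map]
    have h1 : Multiset.card (Multiset.filter (fun j => a = μ j) (Finset.univ : Finset J).val)
        = Fintype.card {j : J // a = μ j} := by
      rw [Fintype.card_subtype]
      rfl
    rw [h1]
    let Z' : {j : J // a = μ j} → T.maxGenEigenspace a := fun j => ⟨Z j.1, by
      have := hμ j.1
      rw [← j.2] at this
      exact this⟩
    have hZ' : LinearIndependent κ Z' := by
      apply LinearIndependent.of_comp (T.maxGenEigenspace a).subtype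
      exact hZ.comp Subtype.val Subtype.val_injective
    exact hZ'.fintype_card_le_finrank
  have hdvd : (s.map fun a => X - C a).prod ∣ T.charpoly :=
    (Multiset.prod_X_sub_C_dvd_iff_le_roots hχ0 s).mpr hle
  have hmonic : ((s.map fun a => X - C a).prod).Monic :=
    monic_multiset_prod_of_monic _ _ (fun a _ => monic_X_sub_C a)
  have hdeg : ((s.map fun a => X - C a).prod).natDegree = Fintype.card J := by
    rw [natDegree_multiset_prod_X_sub_C_eq_card, hs, Multiset.card_map]
    rfl
  rw [hg]
  exact Polynomial.eq_of_monic_of_dvd_of_natDegree_le hmonic T.charpoly_monic hdvd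
    (by rw [LinearMap.charpoly_natDegree, hdeg]; exact hcard)

/-- Local uniformisers in a Dedekind domain with finitely many primes: elements `ϖ P` generating
the primes, and elements `y P` with `πB = ϖ P ^ e P * y P`, where `exp (- e P)` is the `P`-adic
valuation of `πB`; consequently the elements `ϖ P ^ i * y P` have prescribed valuations. -/
theorem hivd_exists_local_elements {B : Type} [CommRing B] [IsDedekindDomain B]
    [Fintype (HeightOneSpectrum B)] (πB : B) (e : HeightOneSpectrum B → ℕ)
    (he : ∀ P : HeightOneSpectrum B, P.intValuation πB = WithZero.exp (-(e P : ℤ))) :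
    ∃ ϖ y : HeightOneSpectrum B → B,
      (∀ P : HeightOneSpectrum B, P.asIdeal = Ideal.span {ϖ P}) ∧
      (∀ P : HeightOneSpectrum B, πB = ϖ P ^ e P * y P) ∧
      (∀ (P : HeightOneSpectrum B) (i : ℕ), ϖ P ^ i * y P ∈ P.asIdeal ^ i) ∧
      (∀ (P : HeightOneSpectrum B) (i : ℕ), ϖ P ^ i * y P ∉ P.asIdeal ^ (i + 1)) ∧
      (∀ (P Q : HeightOneSpectrum B) (i : ℕ), Q ≠ P → ϖ Q ^ i * y Q ∈ P.asIdeal ^ e P) := by
  classical
  -- `B` is a principal ideal domain
  have hfin : {I : Ideal B | I.IsPrime}.Finite := by
    refine Set.Finite.subset ((Set.finite_singleton (⊥ : Ideal B)).union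
      (Set.finite_range (fun P : HeightOneSpectrum B => P.asIdeal))) ?_
    intro I hI
    by_cases hbot : I = ⊥
    · exact Or.inl hbot
    · exact Or.inr ⟨⟨I, hI, hbot⟩, rfl⟩
  have : IsPrincipalIdealRing B := IsPrincipalIdealRing.of_finite_primes hfin
  have hgen : ∀ P : HeightOneSpectrum B, ∃ ϖ : B, P.asIdeal = Ideal.span {ϖ} := fun P =>
    (IsPrincipalIdealRing.principal P.asIdeal).principal
  choose ϖ hϖ using hgen
  have hϖ0 : ∀ P, ϖ P ≠ 0 := by
    intro P h0
    apply P.ne_bot
    rw [hϖ P, h0]
    exact Ideal.span_singleton_eq_bot.mpr rfl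
  have hvP : ∀ P : HeightOneSpectrum B, P.intValuation (ϖ P) = WithZero.exp (-1 : ℤ) := fun P =>
    P.intValuation_singleton (hϖ0 P) (hϖ P)
  have hvQ : ∀ P Q : HeightOneSpectrum B, Q ≠ P → P.intValuation (ϖ Q) = 1 := by
    intro P Q hQP
    rw [HeightOneSpectrum.intValuation_eq_one_iff]
    intro hmem
    apply hQP
    have hle : Q.asIdeal ≤ P.asIdeal := by
      rw [hϖ Q, Ideal.span_le, Set.singleton_subset_iff]
      exact hmem
    exact HeightOneSpectrum.ext (Q.isMaximal.eq_of_le P.isPrime.ne_top hle)
  -- the cofactors `y P`
  have hy : ∀ P : HeightOneSpectrum B, ∃ y : B, πB = ϖ P ^ e P * y := by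
    intro P
    have h1 : πB ∈ P.asIdeal ^ e P := (P.intValuation_le_pow_iff_mem πB (e P)).mp (he P).le
    rw [hϖ P, Ideal.span_singleton_pow, Ideal.mem_span_singleton] at h1
    exact h1
  choose y hy using hy
  have hpow : ∀ (P Q : HeightOneSpectrum B) (i : ℕ),
      P.intValuation (ϖ Q ^ i) = if Q = P then WithZero.exp (-(i : ℤ)) else 1 := by
    intro P Q i
    split_ifs with h
    · subst h
      rw [map_pow, hvP, ← WithZero.exp_nsmul]
      congr 1
      simp
    · rw [map_pow, hvQ P Q h, one_pow]
  have hyP : ∀ P : HeightOneSpectrum B, P.intValuation (y P) = 1 := by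
    intro P
    have h1 := congrArg P.intValuation (hy P)
    rw [he P, map_mul, hpow P P (e P), if_pos rfl] at h1
    have h2 : WithZero.exp (-(e P : ℤ)) * 1 = WithZero.exp (-(e P : ℤ)) * P.intValuation (y P) := by
      rw [mul_one]
      exact h1
    exact (mul_left_cancel₀ WithZero.exp_ne_zero h2).symm
  have hyQ : ∀ P Q : HeightOneSpectrum B, Q ≠ P →
      P.intValuation (y Q) = WithZero.exp (-(e P : ℤ)) := by
    intro P Q hQP
    have h1 := congrArg P.intValuation (hy Q)
    rw [he P, map_mul, hpow P Q (e Q), if_neg hQP, one_mul] at h1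
    exact h1.symm
  refine ⟨ϖ, y, hϖ, hy, ?_, ?_, ?_⟩
  · intro P i
    rw [← HeightOneSpectrum.intValuation_le_pow_iff_mem, map_mul, hpow P P i, if_pos rfl, hyP P,
      mul_one]
  · intro P i
    rw [← HeightOneSpectrum.intValuation_le_pow_iff_mem, map_mul, hpow P P i, if_pos rfl, hyP P,
      mul_one, WithZero.exp_le_exp]
    push_cast
    omega
  · intro P Q i hQP
    rw [← HeightOneSpectrum.intValuation_le_pow_iff_mem, map_mul, hpow P Q i, if_neg hQP, one_mul,
      hyQ P Q hQP]

/-- The abstract core: `A` a local domain with principal maximal ideal `(π)`, `B` a Dedekind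
domain, finite and free over `A`, with finitely many primes `P`, `e P` the exponent of `P` in
`π`, and `∑ e P ≥ rank`.  If `hB - c P ∈ P` for all `P`, then the characteristic polynomial of
the multiplication by `hB` on `B` reduces modulo `π` to `∏ (X - c P) ^ e P`. -/
theorem hivd_core {A B : Type} [CommRing A] [IsDomain A] [IsLocalRing A]
    [CommRing B] [IsDedekindDomain B] [Algebra A B] [Module.Free A B] [Module.Finite A B]
    [Fintype (HeightOneSpectrum B)]
    (π : A) (hπ : IsLocalRing.maximalIdeal A = Ideal.span {π})
    (e : HeightOneSpectrum B → ℕ)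
    (he : ∀ P : HeightOneSpectrum B,
      P.intValuation (algebraMap A B π) = WithZero.exp (-(e P : ℤ)))
    (hFI : Module.finrank A B ≤ ∑ P, e P)
    (hB : B) (c : HeightOneSpectrum B → A)
    (hc : ∀ P : HeightOneSpectrum B, hB - algebraMap A B (c P) ∈ P.asIdeal) :
    (LinearMap.mulLeft A hB).charpoly.map (IsLocalRing.residue A) =
      ∏ P, (X - C (IsLocalRing.residue A (c P))) ^ e P := by
  classical
  obtain ⟨ϖ, y, hϖ, hy, hz1, hz2, hz3⟩ := hivd_exists_local_elements (algebraMap A B π) e he
  have hπmem : ∀ P : HeightOneSpectrum B, algebraMap A B π ∈ P.asIdeal ^ e P := fun P =>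
    (P.intValuation_le_pow_iff_mem _ (e P)).mp (he P).le
  -- basis, matrix, reduction
  let ι := Module.Free.ChooseBasisIndex A B
  let b : Module.Basis ι A B := Module.Free.chooseBasis A B
  let κ := IsLocalRing.ResidueField A
  let res : A →+* κ := IsLocalRing.residue A
  let M : Matrix ι ι A := LinearMap.toMatrix b b (LinearMap.mulLeft A hB)
  let T : Module.End κ (ι → κ) := Matrix.toLin' (M.map res)
  have hT : T.charpoly = (LinearMap.mulLeft A hB).charpoly.map res := by
    rw [Matrix.charpoly_toLin', Matrix.charpoly_map]
    rfl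
  let red : B →ₗ[A] (ι → κ) := ((Algebra.linearMap A κ).compLeft ι).comp b.equivFun.toLinearMap
  have hred_apply : ∀ (x : B) (i : ι), red x i = res (b.repr x i) := fun x i => rfl
  have hred_smul : ∀ (a : A) (x : B), red (a • x) = res a • red x := by
    intro a x
    ext i
    rw [hred_apply, map_smul, Finsupp.smul_apply, smul_eq_mul, map_mul, Pi.smul_apply,
      hred_apply, smul_eq_mul]
  have hred_mul : ∀ x : B, red (hB * x) = T (red x) := by
    intro x
    ext i
    have h1 := congrFun (LinearMap.toMatrix_mulVec_repr b b (LinearMap.mulLeft A hB) x) i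
    rw [LinearMap.mulLeft_apply] at h1
    rw [hred_apply, ← h1]
    simp only [T, Matrix.toLin'_apply, Matrix.mulVec, dotProduct, Matrix.map_apply, map_sum,
      map_mul, hred_apply]
    rfl
  have hred_zero : ∀ x : B, red (algebraMap A B π * x) = 0 := by
    intro x
    rw [← Algebra.smul_def, hred_smul]
    have : res π = 0 := by
      rw [IsLocalRing.residue_eq_zero_iff, hπ]
      exact Ideal.subset_span rfl
    rw [this, zero_smul]
  have hred_ker : ∀ x : B, red x = 0 → ∃ s : B, x = algebraMap A B π * s := by
    intro x hx
    have h1 : ∀ i : ι, ∃ a : A, b.repr x i = π * a := by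
      intro i
      have h2 : res (b.repr x i) = 0 := by
        rw [← hred_apply, hx]
        rfl
      rw [IsLocalRing.residue_eq_zero_iff, hπ, Ideal.mem_span_singleton] at h2
      exact h2
    choose a ha using h1
    refine ⟨∑ i, a i • b i, ?_⟩
    rw [← Algebra.smul_def, Finset.smul_sum]
    conv_lhs => rw [← b.sum_repr x]
    refine Finset.sum_congr rfl fun i _ => ?_
    rw [ha i, mul_smul]
  -- the family of generalized eigenvectors
  let J := Σ P : HeightOneSpectrum B, Fin (e P)
  let z : J → B := fun j => ϖ j.1 ^ (j.2 : ℕ) * y j.1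
  have hindep : LinearIndependent κ (fun j : J => red (z j)) := by
    rw [Fintype.linearIndependent_iff]
    intro g hg
    have hsurj := IsLocalRing.residue_surjective (R := A)
    choose a ha using fun j => hsurj (g j)
    have hS : red (∑ j, a j • z j) = 0 := by
      rw [map_sum, ← hg]
      refine Finset.sum_congr rfl fun j _ => ?_
      rw [hred_smul, ha]
    obtain ⟨s', hs'⟩ := hred_ker _ hS
    have key : ∀ (P : HeightOneSpectrum B) (n : ℕ) (hn : n < e P),
        a ⟨P, ⟨n, hn⟩⟩ ∈ IsLocalRing.maximalIdeal A := by
      intro P n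
      induction n using Nat.strong_induction_on with
      | _ n ih =>
        intro hn
        by_contra hnot
        have hunit : IsUnit (a ⟨P, ⟨n, hn⟩⟩) := IsLocalRing.notMem_maximalIdeal.mp hnot
        have hother : ∀ j ∈ (Finset.univ : Finset J).erase ⟨P, ⟨n, hn⟩⟩,
            a j • z j ∈ P.asIdeal ^ (n + 1) := by
          rintro ⟨Q, i⟩ hj
          rw [Finset.mem_erase] at hj
          rw [Algebra.smul_def]
          by_cases hQ : Q = P
          · subst hQ
            rcases lt_trichotomy (i : ℕ) n with hlt | heq | hgt
            · have hm := ih i hlt i.2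
              rw [hπ, Ideal.mem_span_singleton] at hm
              obtain ⟨a', ha'⟩ := hm
              have h3 : algebraMap A B (a ⟨Q, i⟩) ∈ Q.asIdeal ^ (n + 1) := by
                have h4 : a ⟨Q, i⟩ = a ⟨Q, ⟨i, i.2⟩⟩ := rfl
                rw [h4, ha', map_mul]
                exact Ideal.mul_mem_right _ _ (Ideal.pow_le_pow_right (by omega) (hπmem Q))
              exact Ideal.mul_mem_right _ _ h3
            · exfalso
              apply hj.1
              have : i = ⟨n, hn⟩ := Fin.ext heq
              rw [this]
            · exact Ideal.mul_mem_left _ _ (Ideal.pow_le_pow_right (by omega) (hz1 Q i))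
          · exact Ideal.mul_mem_left _ _
              (Ideal.pow_le_pow_right (by omega) (hz3 P Q i hQ))
        have hS' : ∑ j, a j • z j ∈ P.asIdeal ^ (n + 1) := by
          rw [hs']
          exact Ideal.mul_mem_right _ _ (Ideal.pow_le_pow_right (by omega) (hπmem P))
        have hterm : a ⟨P, ⟨n, hn⟩⟩ • z ⟨P, ⟨n, hn⟩⟩ ∈ P.asIdeal ^ (n + 1) := by
          have h1 := Finset.add_sum_erase Finset.univ (fun j => a j • z j)
            (Finset.mem_univ (⟨P, ⟨n, hn⟩⟩ : J))
          have h2 : a ⟨P, ⟨n, hn⟩⟩ • z ⟨P, ⟨n, hn⟩⟩ = ∑ j, a j • z j -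
              ∑ j ∈ (Finset.univ : Finset J).erase ⟨P, ⟨n, hn⟩⟩, a j • z j := by
            rw [← h1, add_sub_cancel_right]
          rw [h2]
          exact Ideal.sub_mem _ hS' (Ideal.sum_mem _ hother)
        obtain ⟨u, hu⟩ := hunit
        have h3 := Ideal.mul_mem_left (P.asIdeal ^ (n + 1)) (algebraMap A B (↑u⁻¹ : A)) hterm
        rw [Algebra.smul_def, ← mul_assoc, ← map_mul, ← hu, Units.inv_mul, map_one, one_mul] at h3
        exact hz2 P n h3
    rintro ⟨P, ⟨n, hn⟩⟩
    rw [← ha]
    exact (IsLocalRing.residue_eq_zero_iff _).mpr (key P n hn)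
  have hpow : ∀ (P : HeightOneSpectrum B) (k : ℕ) (x : B),
      ((T - res (c P) • (1 : Module.End κ (ι → κ))) ^ k) (red x)
        = red ((hB - algebraMap A B (c P)) ^ k * x) := by
    intro P k
    induction k with
    | zero =>
      intro x
      rw [pow_zero, pow_zero, one_mul, Module.End.one_apply]
    | succ k ih =>
      intro x
      have h1 : (T - res (c P) • (1 : Module.End κ (ι → κ))) (red x)
          = red ((hB - algebraMap A B (c P)) * x) := by
        rw [LinearMap.sub_apply, LinearMap.smul_apply, Module.End.one_apply, ← hred_mul,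
          ← hred_smul, ← map_sub, sub_mul, Algebra.smul_def]
      rw [pow_succ, Module.End.mul_apply, h1, ih, pow_succ, mul_assoc]
  have hgen : ∀ j : J, red (z j) ∈ T.maxGenEigenspace (res (c j.1)) := by
    rintro ⟨P, i⟩
    rw [Module.End.mem_maxGenEigenspace]
    refine ⟨e P, ?_⟩
    rw [hpow]
    obtain ⟨d, hd⟩ : ϖ P ∣ hB - algebraMap A B (c P) := by
      have h1 := hc P
      rwa [hϖ P, Ideal.mem_span_singleton] at h1
    have h2 : (hB - algebraMap A B (c P)) ^ e P * z ⟨P, i⟩
        = algebraMap A B π * (d ^ e P * ϖ P ^ (i : ℕ)) := by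
      rw [hd]
      conv_rhs => rw [hy P]
      show (ϖ P * d) ^ e P * (ϖ P ^ (i : ℕ) * y P) = _
      ring
    rw [h2, hred_zero]
  have hcard : Module.finrank κ (ι → κ) ≤ Fintype.card J := by
    rw [Module.finrank_fintype_fun_eq_card, Fintype.card_sigma]
    simp only [Fintype.card_fin]
    rw [← Module.finrank_eq_card_chooseBasisIndex]
    exact hFI
  have hfinal := hivd_charpoly_of_genEigenvectors T (fun j => red (z j))
    (fun j => res (c j.1)) hindep hgen hcard
  rw [← hT, hfinal, Fintype.prod_sigma]
  refine Finset.prod_congr rfl fun P _ => ?_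
  show ∏ _i : Fin (e P), (X - C (res (c P))) = (X - C (res (c P))) ^ e P
  rw [Finset.prod_const, Finset.card_univ, Fintype.card_fin]


/-- The characteristic polynomial of the multiplication by an element of `B` on the fraction
field of `B` over the fraction field of `A` is the image of its characteristic polynomial on the
free `A`-module `B`. -/
theorem hivd_charpoly_localization {A F B F' : Type} [CommRing A] [Field F] [Algebra A F]
    [IsFractionRing A F] [CommRing B] [Algebra A B] [Field F'] [Algebra B F'] [Algebra F F']
    [Algebra A F'] [IsScalarTower A F F'] [IsScalarTower A B F']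
    [IsLocalization (Algebra.algebraMapSubmonoid B (nonZeroDivisors A)) F']
    [Module.Free A B] [Module.Finite A B] [Module.Finite F F'] (hB : B) :
    (LinearMap.mulLeft F (algebraMap B F' hB)).charpoly
      = ((LinearMap.mulLeft A hB).charpoly).map (algebraMap A F) := by
  classical
  let b := Module.Free.chooseBasis A B
  let b' := b.localizationLocalization F (nonZeroDivisors A) F'
  rw [← LinearMap.charpoly_toMatrix (LinearMap.mulLeft F (algebraMap B F' hB)) b',
    ← LinearMap.charpoly_toMatrix (LinearMap.mulLeft A hB) b, ← Matrix.charpoly_map]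
  congr 1
  exact (Algebra.map_leftMulMatrix_localization A (nonZeroDivisors A) (Rₘ := F) (Sₘ := F')
    b hB).symm

section FI

variable {K F A B : Type} [Field K] [Field F] [Algebra K F]
  [CommRing A] [Algebra K A] [Algebra A F] [IsScalarTower K A F]
  [CommRing B] [IsDedekindDomain B] [Algebra K B] [Algebra A B] [Algebra B F]
  [IsScalarTower K A B] [IsScalarTower A B F] [IsScalarTower K B F] [IsFractionRing B F]

/-- The fundamental identity over a maximal principal ideal `(π)` of `A` with residue field `K`,
when every height-one prime of `B` contains `π`: the orders of `π` at the places of the primes of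
`B` add up to the rank of `B` over `A`. -/
theorem hivd_sum_ord_eq_finrank [IsAlgClosed K] [IsDomain A] [Module.Finite A B]
    [Module.Flat A B] [Fintype (HeightOneSpectrum B)] (π : A) (hπB : algebraMap A B π ≠ 0)
    (hmax : (Ideal.span {π}).IsMaximal)
    (hK : ∀ x : A, ∃ k : K, x - algebraMap K A k ∈ Ideal.span {π})
    (hmem : ∀ P : HeightOneSpectrum B, algebraMap A B π ∈ P.asIdeal) :
    ∑ P : HeightOneSpectrum B,
        (Place.ofHeightOneSpectrum (K := K) (F := F) P).ord (algebraMap A F π)
      = (Module.finrank A B : ℤ) := by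
  classical
  have := hmax
  have hfin : Finite ((Ideal.span {π}).primesOver B) :=
    (Algebra.QuasiFinite.finite_primesOver (Ideal.span {π})).to_subtype
  have := Fintype.ofFinite ((Ideal.span {π}).primesOver B)
  have hinj : Function.Injective (Zeros.primeOver π hπB) := by
    intro q q' hqq
    exact Subtype.ext (congrArg HeightOneSpectrum.asIdeal hqq)
  have hsurj : Function.Surjective (Zeros.primeOver π hπB) := by
    intro P
    have hle : Ideal.span {π} ≤ P.asIdeal.under A := by
      rw [Ideal.span_le, Set.singleton_subset_iff]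
      exact hmem P
    have hover : P.asIdeal.LiesOver (Ideal.span {π}) :=
      ⟨hmax.eq_of_le (Ideal.IsPrime.under A P.asIdeal).ne_top hle⟩
    exact ⟨⟨P.asIdeal, P.isPrime, hover⟩, HeightOneSpectrum.ext rfl⟩
  rw [← Ideal.sum_ramification_inertia_eq_finrank (Ideal.span {π}) B, Nat.cast_sum,
    ← (Equiv.ofBijective _ ⟨hinj, hsurj⟩).sum_comp]
  refine Finset.sum_congr rfl fun q _ => ?_
  have h1 := Zeros.ord_placeOver (K := K) (F := F) π hπB q
  have : q.1.IsPrime := q.2.1
  have : q.1.LiesOver (Ideal.span {π}) := q.2.2
  rw [Zeros.inertiaDeg_eq_one (K := K) π hmax hK q.1, mul_one, ← h1]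
  rfl

end FI


/-- The values lemma, for an extension given by an `Algebra` instance. -/
theorem hivd_values {K F F' : Type} [Field K] [Field F] [Field F'] [Algebra K F] [Algebra K F']
    [Algebra F F'] [IsScalarTower K F F'] [Algebra.IsIntegral F F'] [Module.Finite F F']
    [IsAlgClosed K] [CharZero K] [HasPrincipalDivisors K F'] (t : F)
    (ht : Transcendental K t) (htfin : FiniteDimensional K⟮t⟯ F) (v : Place K F) (h : F')
    (c : Place K F' → K) (hval : ∀ w ∈ Place.fiber F' v, hi_IsValue w h (c w)) (i : ℕ) :
    hi_IsValue v ((LinearMap.mulLeft F h).charpoly.coeff i)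
      ((∏ w ∈ Place.fiber F' v, (X - C (c w)) ^ (w.ramificationIndex F)).coeff i) := by
  classical
  let A := v.toValuationSubring
  let _ : Algebra A F' := ((algebraMap F F').comp (algebraMap A F)).toAlgebra
  have : IsScalarTower A F F' := IsScalarTower.of_algebraMap_eq (fun _ => rfl)
  have : IsScalarTower K A F' := IsScalarTower.of_algebraMap_eq (fun k => by
    rw [IsScalarTower.algebraMap_apply K F F']
    rfl)
  have : CharZero F := charZero_of_injective_algebraMap (algebraMap K F).injective
  have : Algebra.IsSeparable F F' := inferInstance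
  let B := integralClosure A F'
  have : IsDedekindDomain B := IsIntegralClosure.isDedekindDomain A F F' B
  have : IsFractionRing B F' := integralClosure.isFractionRing_of_finite_extension F F'
  have : Module.Finite A B := IsIntegralClosure.finite A F F' B
  have : Module.IsTorsionFree A F' := .trans_faithfulSMul A F F'
  have : Module.IsTorsionFree A B := IsIntegralClosure.isTorsionFree A F'
  have : Module.Free A B := inferInstance
  have : Module.Flat A B := inferInstance
  have : IsScalarTower K A B := IsScalarTower.of_algebraMap_eq (fun k => by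
    apply Subtype.ext
    exact IsScalarTower.algebraMap_apply K A F' k)
  have : IsScalarTower K B F' := IsScalarTower.of_algebraMap_eq (fun k => rfl)
  have : IsLocalization (Algebra.algebraMapSubmonoid B (nonZeroDivisors A)) F' :=
    IsIntegralClosure.isLocalization A F F' B
  -- a uniformiser of `A`
  obtain ⟨π, hπ⟩ := IsDiscreteValuationRing.exists_irreducible A
  have hπmax : IsLocalRing.maximalIdeal A = Ideal.span {π} := hπ.maximalIdeal_eq
  have hordπ : v.ord (π : F) = 1 := v.ord_coe_irreducible hπ
  have hπB : algebraMap A B π ≠ 0 := by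
    intro h0
    apply hπ.ne_zero
    have h1 : algebraMap A F' π = 0 := by
      rw [IsScalarTower.algebraMap_apply A B F', h0, map_zero]
    have h2 : algebraMap F F' (π : F) = 0 := h1
    rw [map_eq_zero] at h2
    exact Subtype.ext h2
  -- the places of `F'` attached to the primes of `B` are the places above `v`
  let W : HeightOneSpectrum B → Place K F' := fun P =>
    Place.ofHeightOneSpectrum (K := K) (F := F') P
  have hW_restrict : ∀ P, (W P).restrict F = v := by
    intro P
    symm
    apply Dict.ext_of_le
    intro x hx
    have h1 : algebraMap F F' x = algebraMap B F' (algebraMap A B ⟨x, hx⟩) := rfl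
    show algebraMap F F' x ∈ (W P).toValuationSubring
    rw [h1]
    exact P.valuation_le_one _
  have hW_mem : ∀ P, W P ∈ Place.fiber F' v := fun P => Place.mem_fiber.mpr (hW_restrict P)
  have hW_inj : Function.Injective W := Dict.ofHeightOneSpectrum_injective (K := K) (F := F')
  have hW_surj : ∀ w ∈ Place.fiber F' v, ∃ P, W P = w := by
    intro w hw
    rw [Place.mem_fiber] at hw
    have hA : ∀ a : A, 0 ≤ w.ord (algebraMap A F' a) := by
      intro a
      apply Dict.ord_nonneg_of_mem
      have h1 : (a : F) ∈ (w.restrict F).toValuationSubring := by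
        rw [hw]
        exact a.2
      exact h1
    have h1 : ∀ b : B, 0 ≤ w.ord (algebraMap B F' b) := fun b =>
      Dict.ord_nonneg_of_isIntegral w hA b.2
    have h2 : ∃ b : B, b ≠ 0 ∧ 0 < w.ord (algebraMap B F' b) := by
      refine ⟨algebraMap A B π, hπB, ?_⟩
      show 0 < w.ord (algebraMap F F' (π : F))
      rw [w.ord_restrict, hw, hordπ, mul_one]
      exact_mod_cast w.ramificationIndex_pos (F := F)
    obtain ⟨P, hP, -⟩ := Dict.exists_eq_ofHeightOneSpectrum w h1 h2
    exact ⟨P, hP.symm⟩
  have : Finite (HeightOneSpectrum B) :=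
    Finite.of_injective (fun P => (⟨W P, hW_mem P⟩ : {w // w ∈ Place.fiber F' v}))
      (fun P Q hPQ => hW_inj (congrArg Subtype.val hPQ))
  let _ : Fintype (HeightOneSpectrum B) := Fintype.ofFinite _
  have hfiber : Place.fiber F' v = Finset.univ.image W := by
    ext w
    rw [Finset.mem_image]
    constructor
    · intro hw
      obtain ⟨P, hP⟩ := hW_surj w hw
      exact ⟨P, Finset.mem_univ _, hP⟩
    · rintro ⟨P, -, rfl⟩
      exact hW_mem P
  -- ramification indices
  let e : HeightOneSpectrum B → ℕ := fun P => (W P).ramificationIndex F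
  have hordW : ∀ P, (W P).ord (algebraMap A F' π) = (e P : ℤ) := by
    intro P
    show (W P).ord (algebraMap F F' (π : F)) = _
    rw [(W P).ord_restrict, hW_restrict P, hordπ, mul_one]
  have he : ∀ P : HeightOneSpectrum B,
      P.intValuation (algebraMap A B π) = WithZero.exp (-(e P : ℤ)) := by
    intro P
    have hne : algebraMap B F' (algebraMap A B π) ≠ 0 := by
      simpa using (IsFractionRing.injective B F').ne hπB
    rw [← HeightOneSpectrum.valuation_of_algebraMap (K := F'),
      Dict.valuation_eq_exp_neg_ord (K := K) P hne, ← IsScalarTower.algebraMap_apply A B F']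
    congr 2
    exact hordW P
  have hepos : ∀ P, 0 < e P := fun P => (W P).ramificationIndex_pos (F := F)
  have hmemP : ∀ P : HeightOneSpectrum B, algebraMap A B π ∈ P.asIdeal := by
    intro P
    rw [← HeightOneSpectrum.intValuation_lt_one_iff_mem, he P, ← WithZero.exp_zero,
      WithZero.exp_lt_exp]
    have := hepos P
    omega
  -- the fundamental identity
  have hmax : (Ideal.span {π}).IsMaximal := hπmax ▸ IsLocalRing.maximalIdeal.isMaximal A
  have hK : ∀ x : A, ∃ k : K, x - algebraMap K A k ∈ Ideal.span {π} := by
    intro x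
    obtain ⟨k, hk⟩ := Places.exists_residue_eq v ht htfin x
    refine ⟨k, ?_⟩
    rw [← hπmax, ← IsLocalRing.residue_eq_zero_iff, map_sub, ← hk]
    exact sub_self _
  have hFI : Module.finrank A B ≤ ∑ P, e P := by
    have h1 := hivd_sum_ord_eq_finrank (K := K) (F := F') (A := A) (B := B) π hπB hmax hK hmemP
    have h2 : ∑ P : HeightOneSpectrum B, (e P : ℤ) = (Module.finrank A B : ℤ) := by
      rw [← h1]
      exact Finset.sum_congr rfl fun P _ => (hordW P).symm
    have h3 : ((∑ P, e P : ℕ) : ℤ) = (Module.finrank A B : ℤ) := by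
      rw [Nat.cast_sum]
      exact h2
    exact le_of_eq (by exact_mod_cast h3.symm)
  -- `h` lies in `B`, with the prescribed residues
  have hvalP : ∀ P : HeightOneSpectrum B,
      P.valuation F' (h - algebraMap K F' (c (W P))) < 1 := by
    intro P
    rcases hval (W P) (hW_mem P) with h0 | hpos
    · rw [h0, map_zero]
      exact zero_lt_one
    · have hne : h - algebraMap K F' (c (W P)) ≠ 0 := by
        intro h0
        rw [h0, Place.ord_zero] at hpos
        exact lt_irrefl _ hpos
      rw [Dict.valuation_eq_exp_neg_ord (K := K) P hne, ← WithZero.exp_zero, WithZero.exp_lt_exp]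
      have h3 : 0 < (Place.ofHeightOneSpectrum (K := K) (F := F') P).ord
          (h - algebraMap K F' (c (W P))) := hpos
      omega
  have hhmem : h ∈ (algebraMap B F').range := by
    apply HeightOneSpectrum.mem_integers_of_valuation_le_one F' h
    intro P
    have h1 : h = (h - algebraMap K F' (c (W P)))
        + algebraMap B F' (algebraMap K B (c (W P))) := by
      rw [← IsScalarTower.algebraMap_apply K B F']
      ring
    rw [h1]
    exact Valuation.map_add_le _ (hvalP P).le (P.valuation_le_one _)
  obtain ⟨hB, hhB⟩ := hhmem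
  let c' : HeightOneSpectrum B → A := fun P => algebraMap K A (c (W P))
  have hc : ∀ P : HeightOneSpectrum B, hB - algebraMap A B (c' P) ∈ P.asIdeal := by
    intro P
    have h1 : algebraMap B F' (hB - algebraMap A B (c' P)) = h - algebraMap K F' (c (W P)) := by
      rw [map_sub, hhB, ← IsScalarTower.algebraMap_apply A B F',
        ← IsScalarTower.algebraMap_apply K A F']
    rw [← P.valuation_lt_one_iff_mem (K := F')]
    show P.valuation F' (algebraMap B F' (hB - algebraMap A B (c' P))) < 1
    rw [h1]
    exact hvalP P
  -- the characteristic polynomial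
  have hcore := hivd_core π hπmax e he hFI hB c' hc
  have hχ := hivd_charpoly_localization (A := A) (F := F) (B := B) (F' := F') hB
  rw [hhB] at hχ
  have hG : ((∏ w ∈ Place.fiber F' v, (X - C (c w)) ^ (w.ramificationIndex F)).map
      (algebraMap K A)).map (IsLocalRing.residue A)
        = ∏ P, (X - C (IsLocalRing.residue A (c' P))) ^ e P := by
    rw [hfiber, Finset.prod_image (fun P _ Q _ hPQ => hW_inj hPQ)]
    simp only [Polynomial.map_prod, Polynomial.map_pow, Polynomial.map_sub, Polynomial.map_X,
      Polynomial.map_C]
    rfl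
  have hcoeff : IsLocalRing.residue A ((LinearMap.mulLeft A hB).charpoly.coeff i
      - algebraMap K A ((∏ w ∈ Place.fiber F' v,
          (X - C (c w)) ^ (w.ramificationIndex F)).coeff i)) = 0 := by
    have h1 := congrArg (fun p => p.coeff i) (hcore.trans hG.symm)
    simp only [Polynomial.coeff_map] at h1
    rw [map_sub, h1, sub_self]
  rw [IsLocalRing.residue_eq_zero_iff] at hcoeff
  set d : A := (LinearMap.mulLeft A hB).charpoly.coeff i
      - algebraMap K A ((∏ w ∈ Place.fiber F' v,
          (X - C (c w)) ^ (w.ramificationIndex F)).coeff i) with hd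
  have hdF : (LinearMap.mulLeft F h).charpoly.coeff i
      - algebraMap K F ((∏ w ∈ Place.fiber F' v,
          (X - C (c w)) ^ (w.ramificationIndex F)).coeff i) = (d : F) := by
    rw [hχ, Polynomial.coeff_map]
    rfl
  show _ = 0 ∨ 0 < v.ord _
  rw [hdF]
  by_cases hd0 : d = 0
  · left
    rw [hd0]
    rfl
  · right
    exact (Dict.ord_pos_iff_mem_maximalIdeal v d).mpr ⟨hd0, hcoeff⟩

/-- (HI-Val) The values lemma. -/
theorem hivd_main : hi_ValuesStatement := by
  intro K F F' _ _ _ _ _ _ _ _ t ht htfin φ hφ hfin v h c hval i
  let _ := algebraAlong φ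
  have := isScalarTower_along φ
  have := isIntegral_along φ hφ
  have : Module.Finite F F' := hfin
  exact hivd_values t ht htfin v h c hval i

end Fermat.Agent.S37
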