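/-
S37, block KR, package KRCharAsm (KR2 from its pieces).

`krca_main : kr_EmbCharpolyStatement → kr_SInfStatement → kr_FinrankStatement → kr_CharpolyStatement`.

For a prime `ℓ ∤ N` the field `L = F_{Nℓ}` has degree `ℓ + 1` over `E = F_N` (through `β`), and we
exhibit `ℓ + 1` pairwise distinct `E`-embeddings of `L` into `Ω = ℚ̄((q))` (where `Ω` is an
`E`-algebra through `f ↦ f(q^ℓ)`): the substitutions `x ↦ x(ζ^b q)` for `b < ℓ`, and the extra
embedding of `kr_SInfStatement`.  They are separated by the coefficient of `q⁻¹` of their value at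
`j`.  The general statement `kr_EmbCharpolyStatement` then gives the characteristic polynomial.
-/
import Fermat.Agent.S37.KRInterfaces2
import Fermat.Agent.S28.Subst
import Fermat.Agent.S18.Interfaces

set_option autoImplicit false

open AlgebraicCurve ModularCurve IntermediateField Polynomial
open Fermat.Agent.S28 (scale evalL)

namespace Fermat.Agent.S37

noncomputable section

/-- The abstract form: `E → L` a finite field extension (through `β`) of degree `n`, with `n`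
distinct ring homomorphisms `s i : L → Ω` all restricting to `ι` on `E`.  Then the characteristic
polynomial of `h : L` over `E`, mapped through `ι`, is `∏ i, (X - s i h)`. -/
theorem krca_abstract (hEmb : kr_EmbCharpolyStatement)
    {E L Ω : Type} [Field E] [Field L] [Field Ω] (β : E →+* L) (ι : E →+* Ω)
    (hfin : letI := β.toAlgebra; Module.Finite E L)
    (n : ℕ) (s : Fin n → (L →+* Ω)) (hs : ∀ i e, s i (β e) = ι e) (hinj : Function.Injective s)
    (hrank : letI := β.toAlgebra; Module.finrank E L = n) (h : L) :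
    letI := β.toAlgebra
    haveI : Module.Finite E L := hfin
    ((LinearMap.mulLeft E h).charpoly).map ι = ∏ i, (X - C (s i h)) := by
  let _ : Algebra E L := β.toAlgebra
  let _ : Algebra E Ω := ι.toAlgebra
  have _ : Module.Finite E L := hfin
  let σ : Fin n → (L →ₐ[E] Ω) := fun i => { s i with commutes' := fun e => hs i e }
  have hσ : Function.Injective σ := by
    intro i j hij
    apply hinj
    ext x
    exact congrArg (fun f : L →ₐ[E] Ω => f x) hij
  exact hEmb E L Ω n σ hσ hrank h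

/-- The embedding `x ↦ x(c q)` of `F_M` into `Ω = ℚ̄((q))`. -/
def krca_sb (M : ℕ) (c : AlgebraicClosure ℚ) (hc : c ≠ 0) :
    ↥(modularFunctionFieldBar M) →+* LaurentSeries (AlgebraicClosure ℚ) :=
  (Fermat.Agent.S28.subst_scaleHom c hc).comp
    (algebraMap ↥(modularFunctionFieldBar M) (LaurentSeries (AlgebraicClosure ℚ)))

theorem krca_sb_apply (M : ℕ) (c : AlgebraicClosure ℚ) (hc : c ≠ 0)
    (x : ↥(modularFunctionFieldBar M)) :
    krca_sb M c hc x = scale c (x : LaurentSeries (AlgebraicClosure ℚ)) := rfl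

/-- The family of `ℓ + 1` ring homomorphisms `F_M → Ω`: the substitutions `q ↦ ζ^i q` for `i < ℓ`,
and a given extra one in the last position. -/
def krca_fam (M ℓ : ℕ) (ζ : AlgebraicClosure ℚ) (hζ0 : ζ ≠ 0)
    (sInf : ↥(modularFunctionFieldBar M) →+* LaurentSeries (AlgebraicClosure ℚ))
    (i : Fin (ℓ + 1)) :
    ↥(modularFunctionFieldBar M) →+* LaurentSeries (AlgebraicClosure ℚ) :=
  if (i : ℕ) < ℓ then krca_sb M (ζ ^ (i : ℕ)) (pow_ne_zero _ hζ0) else sInf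

theorem krca_fam_of_lt (M ℓ : ℕ) (ζ : AlgebraicClosure ℚ) (hζ0 : ζ ≠ 0)
    (sInf : ↥(modularFunctionFieldBar M) →+* LaurentSeries (AlgebraicClosure ℚ))
    (i : Fin (ℓ + 1)) (hi : (i : ℕ) < ℓ) (x : ↥(modularFunctionFieldBar M)) :
    krca_fam M ℓ ζ hζ0 sInf i x =
      scale (ζ ^ (i : ℕ)) (x : LaurentSeries (AlgebraicClosure ℚ)) := by
  unfold krca_fam
  rw [if_pos hi]
  rfl

theorem krca_fam_of_not_lt (M ℓ : ℕ) (ζ : AlgebraicClosure ℚ) (hζ0 : ζ ≠ 0)
    (sInf : ↥(modularFunctionFieldBar M) →+* LaurentSeries (AlgebraicClosure ℚ))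
    (i : Fin (ℓ + 1)) (hi : ¬ (i : ℕ) < ℓ) (x : ↥(modularFunctionFieldBar M)) :
    krca_fam M ℓ ζ hζ0 sInf i x = sInf x := by
  unfold krca_fam
  rw [if_neg hi]

/-- The series `j` as an element of `F_M`. -/
def krca_j (M : ℕ) [NeZero M] : ↥(modularFunctionFieldBar M) :=
  ⟨jqModC (AlgebraicClosure ℚ), Fermat.Agent.S18.jqModC_mem_FL (AlgebraicClosure ℚ) M⟩

theorem krca_coe_j (M : ℕ) [NeZero M] :
    ((krca_j M : ↥(modularFunctionFieldBar M)) : LaurentSeries (AlgebraicClosure ℚ)) =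
      jqModC (AlgebraicClosure ℚ) := rfl

/-- All members of the family restrict to `f ↦ f(q^ℓ)` along `β`. -/
theorem krca_fam_beta (N ℓ : ℕ) [NeZero N] [NeZero ℓ] (ζ : AlgebraicClosure ℚ)
    (hζ : IsPrimitiveRoot ζ ℓ) (hζ0 : ζ ≠ 0)
    (sInf : ↥(modularFunctionFieldBar (N * ℓ)) →+* LaurentSeries (AlgebraicClosure ℚ))
    (hsβ : ∀ f : ↥(modularFunctionFieldBar N),
      sInf (heckeBetaBar (AlgebraicClosure ℚ) N ℓ f) =
        qExpand (AlgebraicClosure ℚ) ℓ (f : LaurentSeries (AlgebraicClosure ℚ)))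
    (i : Fin (ℓ + 1)) (e : ↥(modularFunctionFieldBar N)) :
    krca_fam (N * ℓ) ℓ ζ hζ0 sInf i (heckeBetaBar (AlgebraicClosure ℚ) N ℓ e) =
      qExpand (AlgebraicClosure ℚ) ℓ (e : LaurentSeries (AlgebraicClosure ℚ)) := by
  by_cases hi : (i : ℕ) < ℓ
  · rw [krca_fam_of_lt _ _ _ _ _ _ hi, coe_heckeBetaBar, Fermat.Agent.S28.subst_scale_qExpand,
      pow_right_comm, hζ.pow_eq_one, one_pow, Fermat.Agent.S28.subst_scale_one]
  · rw [krca_fam_of_not_lt _ _ _ _ _ _ hi, hsβ]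

/-- The members of the family are pairwise distinct: they are separated by the coefficient of
`q⁻¹` of their value at `j`. -/
theorem krca_fam_injective (N ℓ : ℕ) [NeZero N] [NeZero ℓ] (hℓ : ℓ.Prime)
    (ζ : AlgebraicClosure ℚ) (hζ : IsPrimitiveRoot ζ ℓ) (hζ0 : ζ ≠ 0)
    (sInf : ↥(modularFunctionFieldBar (N * ℓ)) →+* LaurentSeries (AlgebraicClosure ℚ))
    (hsα : ∀ g : ↥(modularFunctionFieldBar N),
      sInf (heckeAlphaBar (AlgebraicClosure ℚ) N ℓ g) =
        qExpand (AlgebraicClosure ℚ) (ℓ * ℓ) (g : LaurentSeries (AlgebraicClosure ℚ))) :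
    Function.Injective (krca_fam (N * ℓ) ℓ ζ hζ0 sInf) := by
  have hlt : ∀ i : Fin (ℓ + 1), (i : ℕ) < ℓ →
      (krca_fam (N * ℓ) ℓ ζ hζ0 sInf i (krca_j (N * ℓ))).coeff (-1) = (ζ ^ (i : ℕ))⁻¹ := by
    intro i hi
    rw [krca_fam_of_lt _ _ _ _ _ _ hi, krca_coe_j, Fermat.Agent.S28.scale_coeff,
      coeff_jqModC_neg_one, mul_one, zpow_neg_one]
  have hnlt : ∀ i : Fin (ℓ + 1), ¬ (i : ℕ) < ℓ →
      (krca_fam (N * ℓ) ℓ ζ hζ0 sInf i (krca_j (N * ℓ))).coeff (-1) = 0 := by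
    intro i hi
    have e : krca_j (N * ℓ) = heckeAlphaBar (AlgebraicClosure ℚ) N ℓ (krca_j N) :=
      Subtype.ext (by rw [coe_heckeAlphaBar, krca_coe_j, krca_coe_j])
    rw [krca_fam_of_not_lt _ _ _ _ _ _ hi, e, hsα, krca_coe_j]
    apply qExpand_coeff_of_not_dvd
    intro hdvd
    have h1 : ((ℓ * ℓ : ℕ) : ℤ) ∣ ((1 : ℕ) : ℤ) := by
      rw [Nat.cast_one]
      exact (dvd_neg.mp hdvd)
    have h2 : ℓ * ℓ = 1 := Nat.dvd_one.mp (Int.natCast_dvd_natCast.mp h1)
    have h3 := hℓ.two_le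
    nlinarith
  intro i j hij
  have h1 : (krca_fam (N * ℓ) ℓ ζ hζ0 sInf i (krca_j (N * ℓ))).coeff (-1) =
      (krca_fam (N * ℓ) ℓ ζ hζ0 sInf j (krca_j (N * ℓ))).coeff (-1) := by rw [hij]
  by_cases hi : (i : ℕ) < ℓ
  · by_cases hj : (j : ℕ) < ℓ
    · rw [hlt i hi, hlt j hj] at h1
      exact Fin.ext (hζ.pow_inj hi hj (inv_injective h1))
    · rw [hlt i hi, hnlt j hj] at h1
      exact absurd h1 (inv_ne_zero (pow_ne_zero _ hζ0))
  · by_cases hj : (j : ℕ) < ℓ
    · rw [hnlt i hi, hlt j hj] at h1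
      exact absurd h1.symm (inv_ne_zero (pow_ne_zero _ hζ0))
    · apply Fin.ext
      have h3 := i.isLt
      have h4 := j.isLt
      omega

/-- (KR2) from its pieces. -/
theorem krca_main : kr_EmbCharpolyStatement → kr_SInfStatement → kr_FinrankStatement →
    kr_CharpolyStatement := by
  intro hEmb hSInf hFin N ℓ _ _ hℓ hℓN hfin ζ hζ g
  obtain ⟨sInf, hsβ, hsα⟩ := hSInf N ℓ hℓ hℓN
  have hζ0 : ζ ≠ 0 := hζ.ne_zero (NeZero.ne ℓ)
  have key := krca_abstract hEmb (heckeBetaBar (AlgebraicClosure ℚ) N ℓ).toRingHom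
    ((qExpand (AlgebraicClosure ℚ) ℓ).comp
      (algebraMap ↥(modularFunctionFieldBar N) (LaurentSeries (AlgebraicClosure ℚ))))
    hfin (ℓ + 1) (krca_fam (N * ℓ) ℓ ζ hζ0 sInf)
    (fun i e => krca_fam_beta N ℓ ζ hζ hζ0 sInf hsβ i e)
    (krca_fam_injective N ℓ hℓ ζ hζ hζ0 sInf hsα) (hFin N ℓ hℓ hℓN)
    (heckeAlphaBar (AlgebraicClosure ℚ) N ℓ g)
  have hlast : ¬ ((Fin.last ℓ : Fin (ℓ + 1)) : ℕ) < ℓ := by
    rw [Fin.val_last]
    exact lt_irrefl ℓ
  have e1 : krca_fam (N * ℓ) ℓ ζ hζ0 sInf (Fin.last ℓ)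
      (heckeAlphaBar (AlgebraicClosure ℚ) N ℓ g) =
        qExpand (AlgebraicClosure ℚ) (ℓ * ℓ) (g : LaurentSeries (AlgebraicClosure ℚ)) := by
    rw [krca_fam_of_not_lt _ _ _ _ _ _ hlast, hsα]
  have e2 : ∀ i : Fin ℓ, krca_fam (N * ℓ) ℓ ζ hζ0 sInf (Fin.castSucc i)
      (heckeAlphaBar (AlgebraicClosure ℚ) N ℓ g) =
        scale (ζ ^ (i : ℕ)) (g : LaurentSeries (AlgebraicClosure ℚ)) := by
    intro i
    have hcs : ((Fin.castSucc i : Fin (ℓ + 1)) : ℕ) < ℓ := by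
      rw [Fin.val_castSucc]
      exact i.isLt
    rw [krca_fam_of_lt _ _ _ _ _ _ hcs, coe_heckeAlphaBar, Fin.val_castSucc]
  have e3 : ∏ i : Fin ℓ, (X - C (krca_fam (N * ℓ) ℓ ζ hζ0 sInf (Fin.castSucc i)
      (heckeAlphaBar (AlgebraicClosure ℚ) N ℓ g))) =
        ∏ b ∈ Finset.range ℓ,
          (X - C (scale (ζ ^ b) (g : LaurentSeries (AlgebraicClosure ℚ)))) := by
    rw [Finset.prod_range]
    exact Finset.prod_congr rfl fun i _ => by rw [e2 i]
  refine key.trans ?_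
  rw [Fin.prod_univ_castSucc, e1, e3]
  exact mul_comm _ _

end

end Fermat.Agent.S37
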