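/-
S37, block KR, work package `KREmb` (general field theory): if a finite field extension `L / E`
of degree `n` has `n` distinct `E`-embeddings `σ i` into a field `Ω`, then the characteristic
polynomial of the multiplication by `h : L` over `E` becomes `∏ i, (X - σ i h)` over `Ω`.

Proof: for an `E`-basis `b` of `L` the matrix `M = (σ i (b j))` is invertible by Dedekind's
lemma, and `diag (σ i h) * M = M * H`, where `H` is the matrix of the multiplication by `h`.
-/
import Fermat.Agent.S37.KRInterfaces2

set_option autoImplicit false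

open Polynomial

namespace Fermat.Agent.S37

/-- The matrix `(σ i (b j))` of the values of distinct embeddings on a basis has nonzero
determinant (Dedekind's lemma). -/
theorem krem_det_ne_zero (E L Ω : Type) [Field E] [Field L] [Field Ω] [Algebra E L]
    [Algebra E Ω] (n : ℕ) (σ : Fin n → (L →ₐ[E] Ω)) (hσ : Function.Injective σ)
    (b : Module.Basis (Fin n) E L) :
    (Matrix.of fun i j => σ i (b j) : Matrix (Fin n) (Fin n) Ω).det ≠ 0 := by
  intro hdet
  obtain ⟨v, hv0, hv⟩ := Matrix.exists_vecMul_eq_zero_iff.mpr hdet
  have hli : LinearIndependent Ω (fun i : Fin n => (σ i).toLinearMap) :=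
    (linearIndependent_algHom_toLinearMap E L Ω).comp σ hσ
  have hsum : ∑ i, v i • (σ i).toLinearMap = 0 := by
    refine b.ext fun j => ?_
    have hj := congrFun hv j
    simp only [Matrix.vecMul, dotProduct, Matrix.of_apply, Pi.zero_apply] at hj
    simpa [LinearMap.sum_apply, LinearMap.smul_apply, smul_eq_mul] using hj
  exact hv0 (funext fun i => Fintype.linearIndependent_iff.mp hli v hsum i)

/-- The intertwining relation `diag (σ i h) * M = M * H`. -/
theorem krem_intertwine (E L Ω : Type) [Field E] [Field L] [Field Ω] [Algebra E L]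
    [Algebra E Ω] (n : ℕ) (σ : Fin n → (L →ₐ[E] Ω)) (b : Module.Basis (Fin n) E L) (h : L) :
    Matrix.diagonal (fun i => σ i h) * (Matrix.of fun i j => σ i (b j) : Matrix (Fin n) (Fin n) Ω)
      = (Matrix.of fun i j => σ i (b j) : Matrix (Fin n) (Fin n) Ω) *
        (Algebra.leftMulMatrix b h).map (algebraMap E Ω) := by
  ext i j
  rw [Matrix.diagonal_mul, Matrix.mul_apply]
  simp only [Matrix.of_apply, Matrix.map_apply, Algebra.leftMulMatrix_eq_repr_mul]
  have h1 : h * b j = ∑ k, b.repr (h * b j) k • b k := (b.sum_repr (h * b j)).symm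
  calc σ i h * σ i (b j) = σ i (h * b j) := (map_mul (σ i) h (b j)).symm
    _ = σ i (∑ k, b.repr (h * b j) k • b k) := by rw [← h1]
    _ = ∑ k, σ i (b k) * algebraMap E Ω (b.repr (h * b j) k) := by
        rw [map_sum]
        refine Finset.sum_congr rfl fun k _ => ?_
        rw [map_smul, Algebra.smul_def, mul_comm]

/-- WP `KREmb`. -/
theorem krem_main : kr_EmbCharpolyStatement := by
  intro E L Ω _ _ _ _ _ _ n σ hσ hn h
  classical
  let b : Module.Basis (Fin n) E L := Module.finBasisOfFinrankEq E L hn
  have hdet := krem_det_ne_zero E L Ω n σ hσ b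
  have hint := krem_intertwine E L Ω n σ b h
  set M : Matrix (Fin n) (Fin n) Ω := Matrix.of fun i j => σ i (b j) with hM
  have hunit : IsUnit M.det := isUnit_iff_ne_zero.mpr hdet
  have hconj : (Algebra.leftMulMatrix b h).map (algebraMap E Ω) =
      M⁻¹ * Matrix.diagonal (fun i => σ i h) * M := by
    rw [Matrix.mul_assoc, hint, ← Matrix.mul_assoc, Matrix.nonsing_inv_mul M hunit,
      Matrix.one_mul]
  have hcp : ((Algebra.leftMulMatrix b h).map (algebraMap E Ω)).charpoly =
      ∏ i, (X - C (σ i h)) := by
    rw [hconj]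
    have := Matrix.charpoly_units_conj' (Matrix.nonsingInvUnit M hunit)
      (Matrix.diagonal (fun i => σ i h))
    rw [Matrix.charpoly_diagonal] at this
    exact this
  rw [← LinearMap.charpoly_toMatrix (LinearMap.mulLeft E h) b, Algebra.toMatrix_lmul_eq,
    ← Matrix.charpoly_map]
  exact hcp

end Fermat.Agent.S37
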