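/-
S37, block KR, package KRFinrank (KR1): for a prime `ℓ ∤ N` the field `F_{Nℓ}` has degree `ℓ + 1`
over `β(F_N)`, where `β : g(q) ↦ g(q^ℓ)`.

All fields are regarded as intermediate fields of `Ω = ℚ̄((q))` over `ℚ̄`, and degrees are
expressed through `IntermediateField.relfinrank`.  With `j = j(q)`, `j' = j(q^ℓ)`, `E = ℚ̄(j, j')`:
`[F_M : ℚ̄(j)] = ψ(M)`, `E = F_ℓ`, `[E : ℚ̄(j)] = [E : ℚ̄(j')] = ℓ + 1`, hence
`[F_{Nℓ} : ℚ̄(j')] = [F_{Nℓ} : ℚ̄(j)] = ψ(N) (ℓ + 1)`; and `[β(F_N) : ℚ̄(j')] = [F_N : ℚ̄(j)] = ψ(N)`.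
-/
import Fermat.Agent.S37.KRInterfaces
import Fermat.Agent.S18.GBFin
import Fermat.Agent.S28.TAStep

set_option autoImplicit false

open AlgebraicCurve ModularCurve IntermediateField Polynomial

namespace Fermat.Agent.S37

noncomputable section

/-! ### Arithmetic of `ψ` -/

/-- `ψ(ℓ) = ℓ + 1` for a prime `ℓ`. -/
theorem krfr_psi_prime {ℓ : ℕ} (hℓ : ℓ.Prime) : dedekindPsi ℓ = ℓ + 1 := by
  have h := Fermat.Agent.S28.ta_step_psi_prime_pow hℓ 0
  simpa using h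

/-- `ψ(N ℓ) = ψ(N) (ℓ + 1)` for a prime `ℓ ∤ N`. -/
theorem krfr_psi_mul_prime {N ℓ : ℕ} (hℓ : ℓ.Prime) (hN : ¬ ℓ ∣ N) :
    dedekindPsi (N * ℓ) = dedekindPsi N * (ℓ + 1) := by
  have hcop : N.Coprime ℓ := ((Nat.Prime.coprime_iff_not_dvd hℓ).mpr hN).symm
  rw [Fermat.Agent.S28.ta_step_psi_mul hcop, krfr_psi_prime hℓ]

/-! ### Abstract field theory -/

section Abstract

variable {K Ω : Type} [Field K] [Field Ω] [Algebra K Ω]

/-- `[K(y, x) : K(y)]` is the degree of the minimal polynomial of `x` over `K(y)`. -/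
theorem krfr_relfinrank_adjoin (x y : Ω) (hx : IsIntegral K⟮y⟯ x) :
    relfinrank K⟮y⟯ K⟮y, x⟯ = (minpoly K⟮y⟯ x).natDegree := by
  have h : K⟮y⟯ ≤ K⟮y, x⟯ := adjoin.mono K _ _ (by simp)
  rw [relfinrank_eq_finrank_of_le h]
  have e : extendScalars h = K⟮y⟯⟮x⟯ := by
    ext z
    rw [mem_extendScalars, ← adjoin_simple_adjoin_simple, mem_restrictScalars]
  rw [e, adjoin.finrank hx]

/-- The degree along an embedding `β' : A → T` of intermediate fields which is induced by an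
endomorphism `β` of the ambient field is the relative degree of `T` over `β(A)`. -/
theorem krfr_finrankAlong_eq (A T : IntermediateField K Ω) (β : Ω →ₐ[K] Ω) (β' : A →ₐ[K] T)
    (h : ∀ x : A, ((β' x : T) : Ω) = β (x : Ω)) :
    finrankAlong K β' = relfinrank (A.map β) T := by
  have h1 : finrankAlong K β' = Module.finrank ↥β'.fieldRange ↥T := by
    let _ := algebraAlong β'
    show Module.finrank ↥A ↥T = Module.finrank ↥β'.fieldRange ↥T
    refine Algebra.finrank_eq_of_equiv_equiv (AlgEquiv.ofInjectiveField β').toRingEquiv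
      (RingEquiv.refl ↥T) ?_
    ext x
    rfl
  have h2 : β'.fieldRange = (A.map β).comap T.val := by
    ext y
    rw [AlgHom.mem_fieldRange]
    show _ ↔ T.val y ∈ A.map β
    rw [IntermediateField.mem_map]
    constructor
    · rintro ⟨x, rfl⟩
      exact ⟨(x : Ω), x.2, (h x).symm⟩
    · rintro ⟨x, hx, hxy⟩
      exact ⟨⟨x, hx⟩, Subtype.ext ((h ⟨x, hx⟩).trans hxy)⟩
  rw [h1, h2, IntermediateField.finrank_comap, fieldRange_val]

/-- The degree computation: if `[A : K(j)] = a`, `[T : K(j)] = a d`,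
`[K(j, j') : K(j)] = [K(j, j') : K(j')] = d` and `β(j) = j'`, `β(A) ⊆ T`, then `[T : β(A)] = d`. -/
theorem krfr_abstract (j j' : Ω) (β : Ω →ₐ[K] Ω) (hβ : β j = j') (A T : IntermediateField K Ω)
    (hjA : j ∈ A) (hjT : j ∈ T) (hj'T : j' ∈ T) (hβT : A.map β ≤ T) (a d : ℕ) (ha : 0 < a)
    (hd : 0 < d) (h1 : relfinrank K⟮j⟯ A = a) (h2 : relfinrank K⟮j⟯ T = a * d)
    (h3 : relfinrank K⟮j⟯ K⟮j, j'⟯ = d) (h4 : relfinrank K⟮j'⟯ K⟮j, j'⟯ = d) :
    relfinrank (A.map β) T = d := by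
  have hjE : K⟮j⟯ ≤ K⟮j, j'⟯ := adjoin.mono K _ _ (by simp)
  have hj'E : K⟮j'⟯ ≤ K⟮j, j'⟯ := adjoin.mono K _ _ (by simp)
  have hET : K⟮j, j'⟯ ≤ T := by
    rw [adjoin_le_iff]
    rintro x (rfl | rfl)
    · exact hjT
    · exact hj'T
  have hjA' : K⟮j⟯ ≤ A := by
    rw [adjoin_le_iff]
    rintro x rfl
    exact hjA
  have hmap : K⟮j⟯.map β = K⟮j'⟯ := by
    rw [adjoin_map, Set.image_singleton, hβ]
  have hj'βA : K⟮j'⟯ ≤ A.map β := by
    rw [← hmap]
    exact IntermediateField.map_mono β hjA'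
  have t1 := relfinrank_mul_relfinrank hjE hET
  have t2 := relfinrank_mul_relfinrank hj'E hET
  have t3 := relfinrank_mul_relfinrank hj'βA hβT
  have m : relfinrank K⟮j'⟯ (A.map β) = a := by
    rw [← hmap, relfinrank_map_map, h1]
  rw [h3, h2] at t1
  rw [h4] at t2
  rw [m] at t3
  have hE : relfinrank K⟮j, j'⟯ T = a := by
    have : d * relfinrank K⟮j, j'⟯ T = d * a := by rw [t1, mul_comm]
    exact Nat.eq_of_mul_eq_mul_left hd this
  rw [hE] at t2
  have : a * relfinrank (A.map β) T = a * d := by rw [t3, ← t2, mul_comm]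
  exact Nat.eq_of_mul_eq_mul_left ha this

end Abstract

/-! ### The modular function fields -/

/-- The element `jBar M` of `F_M` is the series `j`. -/
theorem krfr_coe_jBar (M : ℕ) [NeZero M] :
    ((Fermat.Agent.S24.jBar M : ↥(modularFunctionFieldBar M)) :
      LaurentSeries (AlgebraicClosure ℚ)) = jqModC (AlgebraicClosure ℚ) := by
  show coeffEmb (AlgebraicClosure ℚ) jq = jqModC (AlgebraicClosure ℚ)
  rw [coeffEmb, ← jqModC_rat, coeffMap_jqModC]

/-- `[F_M : ℚ̄(j)] = ψ(M)`, as a relative degree of subfields of `ℚ̄((q))`. -/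
theorem krfr_relfinrank_bar (hpsi : kr_PsiDegStatement) (M : ℕ) [NeZero M] :
    relfinrank (AlgebraicClosure ℚ)⟮jqModC (AlgebraicClosure ℚ)⟯ (modularFunctionFieldBar M) =
      dedekindPsi M := by
  obtain ⟨-, -, h⟩ := hpsi M
  have h1 := relfinrank_map_map (AlgebraicClosure ℚ)⟮Fermat.Agent.S24.jBar M⟯ ⊤
    (modularFunctionFieldBar M).val
  have e : (modularFunctionFieldBar M).val (Fermat.Agent.S24.jBar M) =
      jqModC (AlgebraicClosure ℚ) := krfr_coe_jBar M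
  rw [relfinrank_top_right, h, adjoin_map, Set.image_singleton, ← AlgHom.fieldRange_eq_map,
    fieldRange_val, e] at h1
  exact h1

/-- For a prime `ℓ`, `F_ℓ = ℚ̄(j, j(q^ℓ))`. -/
theorem krfr_bar_prime {ℓ : ℕ} [NeZero ℓ] (hℓ : ℓ.Prime) :
    modularFunctionFieldBar ℓ =
      (AlgebraicClosure ℚ)⟮jqModC (AlgebraicClosure ℚ),
        qExpand (AlgebraicClosure ℚ) ℓ (jqModC (AlgebraicClosure ℚ))⟯ := by
  have h := Fermat.Agent.S18.gb_finl_FL_eq ℓ (AlgebraicClosure ℚ)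
  have h2 : divisorExpansionsC (AlgebraicClosure ℚ) ℓ =
      {jqModC (AlgebraicClosure ℚ),
        qExpand (AlgebraicClosure ℚ) ℓ (jqModC (AlgebraicClosure ℚ))} := by
    ext x
    constructor
    · rintro ⟨d, hd0, hd, rfl⟩
      rcases (Nat.dvd_prime hℓ).mp hd with rfl | rfl
      · left
        exact qExpand_one_apply _
      · right
        rfl
    · rintro (rfl | rfl)
      · exact ⟨1, inferInstance, one_dvd ℓ, (qExpand_one_apply _).symm⟩
      · exact ⟨ℓ, inferInstance, dvd_rfl, rfl⟩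
  show Fermat.Agent.S18.FL (AlgebraicClosure ℚ) ℓ = _
  rw [h, modularFunctionFieldFullC, h2]

/-- (KR1) For a prime `ℓ ∤ N` the field `F_{Nℓ}` has degree `ℓ + 1` over `β(F_N)`. -/
theorem krfr_main : kr_PsiDegStatement → kr_PrimeDegStatement → kr_FinrankStatement := by
  intro hpsi hprime N ℓ _ _ hℓ hN
  have h1 := krfr_relfinrank_bar hpsi N
  have h2 := krfr_relfinrank_bar hpsi (N * ℓ)
  rw [krfr_psi_mul_prime hℓ hN] at h2
  have h3 := krfr_relfinrank_bar hpsi ℓ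
  rw [krfr_psi_prime hℓ, krfr_bar_prime hℓ] at h3
  have h4 : relfinrank
      (AlgebraicClosure ℚ)⟮qExpand (AlgebraicClosure ℚ) ℓ (jqModC (AlgebraicClosure ℚ))⟯
      (AlgebraicClosure ℚ)⟮jqModC (AlgebraicClosure ℚ),
        qExpand (AlgebraicClosure ℚ) ℓ (jqModC (AlgebraicClosure ℚ))⟯ = ℓ + 1 := by
    have hp := hprime ℓ hℓ
    have hint : IsIntegral
        ↥(AlgebraicClosure ℚ)⟮qExpand (AlgebraicClosure ℚ) ℓ (jqModC (AlgebraicClosure ℚ))⟯
        (jqModC (AlgebraicClosure ℚ)) := by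
      by_contra hcon
      rw [minpoly.eq_zero hcon, natDegree_zero] at hp
      omega
    rw [Set.pair_comm, krfr_relfinrank_adjoin _ _ hint, hp]
  have hpos : 0 < dedekindPsi N := by
    obtain ⟨-, hfin, h⟩ := hpsi N
    rw [← h]
    exact Module.finrank_pos
  have hjmem : ∀ (M : ℕ) [NeZero M], jqModC (AlgebraicClosure ℚ) ∈ modularFunctionFieldBar M := by
    intro M _
    rw [← krfr_coe_jBar M]
    exact (Fermat.Agent.S24.jBar M).2
  rw [krfr_finrankAlong_eq (modularFunctionFieldBar N) (modularFunctionFieldBar (N * ℓ))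
    (qExpandAlgHomC (AlgebraicClosure ℚ) ℓ) (heckeBetaBar (AlgebraicClosure ℚ) N ℓ)
    (fun x => rfl)]
  refine krfr_abstract (jqModC (AlgebraicClosure ℚ))
    (qExpand (AlgebraicClosure ℚ) ℓ (jqModC (AlgebraicClosure ℚ)))
    (qExpandAlgHomC (AlgebraicClosure ℚ) ℓ) rfl _ _ ?_ ?_ ?_ ?_ (dedekindPsi N) (ℓ + 1) hpos
    (Nat.succ_pos ℓ) h1 h2 h3 h4
  · exact hjmem N
  · exact hjmem (N * ℓ)
  · have h5 := (heckeBetaBar (AlgebraicClosure ℚ) N ℓ (Fermat.Agent.S24.jBar N)).2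
    rw [coe_heckeBetaBar, krfr_coe_jBar] at h5
    exact h5
  · rintro _ ⟨x, hx, rfl⟩
    exact (heckeBetaBar (AlgebraicClosure ℚ) N ℓ ⟨x, hx⟩).2

end

end Fermat.Agent.S37
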