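/-
S37, block KR, package `KRModEqInt` (file A): the modular equation of prime level over `ℚ̄` with
integral coefficients.

`krme_main : kr_ModEqIntStatement`.

The polynomial `Φ` is the one produced by the S28 library (`c_modEq`).  Its coefficients (in the
variable `T`) are algebraic integers by the triangular argument (`ctri_main`, part (2)) applied to
the inclusion of the ring of algebraic integers `integralClosure ℤ ℚ̄` (which contains `ζ` as a
unit): each coefficient of the right-hand side of the product identity is a Laurent series with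
algebraic integer coefficients.  The two vanishing statements follow from the product identity
(the factor `b = 0` of the product, resp. `subst_modEq_swap`).
-/
import Fermat.Agent.S37.KRInterfaces
import Fermat.Agent.S28.CMain
import Fermat.Agent.S28.Subst

set_option autoImplicit false

open ModularCurve Polynomial
open Fermat.Agent.S28 (scale evalL)

namespace Fermat.Agent.S37

/-- Integrality of the coefficients of any polynomial satisfying the product identity of the
modular equation over `ℚ̄`. -/
theorem krme_integral (r : ℕ) [NeZero r] (ζ : AlgebraicClosure ℚ) (hζ : IsPrimitiveRoot ζ r)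
    (Φ : Polynomial (Polynomial (AlgebraicClosure ℚ)))
    (heq : Φ.map (evalL (qExpand (AlgebraicClosure ℚ) r (jqModC (AlgebraicClosure ℚ)))) =
      (X - C (qExpand (AlgebraicClosure ℚ) (r * r) (jqModC (AlgebraicClosure ℚ)))) *
        ∏ b ∈ Finset.range r, (X - C (scale (ζ ^ b) (jqModC (AlgebraicClosure ℚ)))))
    (i j : ℕ) : IsIntegral ℤ ((Φ.coeff i).coeff j) := by
  have hζint : IsIntegral ℤ ζ := hζ.isIntegral (NeZero.pos r)
  have hz : (⟨ζ, hζint⟩ : ↥(integralClosure ℤ (AlgebraicClosure ℚ))) ^ r = 1 :=
    Subtype.ext hζ.pow_eq_one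
  have hιu : (algebraMap ↥(integralClosure ℤ (AlgebraicClosure ℚ)) (AlgebraicClosure ℚ))
      ((Units.ofPowEqOne (⟨ζ, hζint⟩ : ↥(integralClosure ℤ (AlgebraicClosure ℚ))) r hz
        (NeZero.ne r) : (↥(integralClosure ℤ (AlgebraicClosure ℚ)))ˣ) :
          ↥(integralClosure ℤ (AlgebraicClosure ℚ))) = ζ := by
    rw [Units.val_ofPowEqOne]
    rfl
  have hι : Function.Injective
      (algebraMap ↥(integralClosure ℤ (AlgebraicClosure ℚ)) (AlgebraicClosure ℚ)) :=
    Subtype.val_injective
  have hR := Fermat.Agent.S28.cmedt_rhs_map r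
    (Units.ofPowEqOne (⟨ζ, hζint⟩ : ↥(integralClosure ℤ (AlgebraicClosure ℚ))) r hz (NeZero.ne r))
    (algebraMap ↥(integralClosure ℤ (AlgebraicClosure ℚ)) (AlgebraicClosure ℚ))
  rw [hιu] at hR
  obtain ⟨p₀, hp₀, -⟩ := Fermat.Agent.S28.ctri_main.2
    ↥(integralClosure ℤ (AlgebraicClosure ℚ)) (AlgebraicClosure ℚ)
    (algebraMap ↥(integralClosure ℤ (AlgebraicClosure ℚ)) (AlgebraicClosure ℚ)) hι r
    ((Fermat.Agent.S28.cmedt_rhs r
      (Units.ofPowEqOne (⟨ζ, hζint⟩ : ↥(integralClosure ℤ (AlgebraicClosure ℚ))) r hz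
        (NeZero.ne r))).coeff i) (Φ.coeff i) (by
      rw [← Polynomial.coeff_map, ← Polynomial.coeff_map, hR, heq])
  rw [← hp₀, Polynomial.coeff_map]
  exact (p₀.coeff j).2

/-- (KR-ModEqInt) The modular equation of prime level over `ℚ̄` with integral coefficients. -/
theorem krme_main : kr_ModEqIntStatement := by
  intro r _ hr ζ hζ
  obtain ⟨Φ, hmon, hdeg, heq⟩ := Fermat.Agent.S28.c_modEq (AlgebraicClosure ℚ) r hr ζ hζ
  refine ⟨Φ, hmon, hdeg, krme_integral r ζ hζ Φ heq, heq, ?_, ?_⟩
  · rw [heq, Polynomial.eval_mul, Polynomial.eval_prod,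
      Finset.prod_eq_zero (Finset.mem_range.mpr (NeZero.pos r)) (by
        rw [pow_zero, Fermat.Agent.S28.subst_scale_one, Polynomial.eval_sub, Polynomial.eval_X,
          Polynomial.eval_C, sub_self]), mul_zero]
  · exact Fermat.Agent.S28.subst_modEq_swap (AlgebraicClosure ℚ) r ζ Φ heq

end Fermat.Agent.S37
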