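/-
S37, block KR, package `KRPrimeDeg` (twin A).

Deliverable: `krpd_main : kr_PsiDegStatement → kr_ModEqIntStatement → kr_PrimeDegStatement`:
for a prime `ℓ`, the series `j(q)` has degree `ℓ + 1` over `ℚ̄(j(q^ℓ))`.

Sketch.  Let `F = F_ℓ = ℚ̄(j, j(q^ℓ)) ⊆ ℚ̄((q))`, `t = j`, `u = j(q^ℓ)`.  By `kr_PsiDegStatement`,
`[F : ℚ̄(t)] = ψ(ℓ) = ℓ + 1`, so the minimal polynomial of `u` over `ℚ̄(t)` has degree `ℓ + 1`; it
divides the monic polynomial `Φ(X, t)` of degree `ℓ + 1` (`Φ` the modular equation), hence is equal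
to it, and `Φ(X, t)` is irreducible over `ℚ̄(t)`.  The substitution `q ↦ q ^ ℓ` maps `ℚ̄(t)`
isomorphically onto `ℚ̄(u)` and `Φ(X, t)` to `Φ(X, u)`, which is therefore irreducible over `ℚ̄(u)`;
it is monic of degree `ℓ + 1` and vanishes at `j`, so it is the minimal polynomial of `j` over
`ℚ̄(u)`.
-/
import Fermat.Agent.S37.KRInterfaces
import Fermat.Agent.S28.Subst

set_option autoImplicit false

open AlgebraicCurve ModularCurve IntermediateField Polynomial
open Fermat.Agent.S28 (scale evalL)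

namespace Fermat.Agent.S37

/-! ## The abstract core -/

/-- Abstract core of the degree computation.  Let `F = K(t, u)` be a field of degree `n` over
`K(t)`, let `Φ ∈ K[T][X]` be monic of degree `n` in `X` with `Φ(u, t) = 0`, and let `g : F → Ω` be
a `K`-embedding with `Φ(y, g t) = 0` for some `y : Ω`.  Then `y` has degree `n` over `K(g t)`. -/
theorem krpd_core {K F Ω : Type} [Field K] [Field F] [Field Ω] [Algebra K F] [Algebra K Ω]
    (t u : F) (g : F →ₐ[K] Ω) (t' y : Ω) (ht' : g t = t') (n : ℕ)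
    (Φ : Polynomial (Polynomial K)) (hmonic : Φ.Monic) (hdeg : Φ.natDegree = n)
    (hfin : FiniteDimensional K⟮t⟯ F) (hrank : Module.finrank K⟮t⟯ F = n)
    (hgen : K⟮t, u⟯ = ⊤)
    (h1 : (Φ.map (Polynomial.aeval t : Polynomial K →ₐ[K] F).toRingHom).eval u = 0)
    (h2 : (Φ.map (Polynomial.aeval t' : Polynomial K →ₐ[K] Ω).toRingHom).eval y = 0) :
    (minpoly K⟮t'⟯ y).natDegree = n := by
  subst ht'
  -- the polynomial `P = Φ(X, t)` over `K(t)`
  have hfinA : Module.Finite K⟮t⟯ F := hfin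
  have hP1 : (Φ.map (Polynomial.aeval (AdjoinSimple.gen K t) :
      Polynomial K →ₐ[K] K⟮t⟯).toRingHom).Monic := hmonic.map _
  have hP2 : (Φ.map (Polynomial.aeval (AdjoinSimple.gen K t) :
      Polynomial K →ₐ[K] K⟮t⟯).toRingHom).natDegree = n := by
    rw [hmonic.natDegree_map, hdeg]
  have hcomp1 : (algebraMap K⟮t⟯ F).comp
      (Polynomial.aeval (AdjoinSimple.gen K t) : Polynomial K →ₐ[K] K⟮t⟯).toRingHom =
      (Polynomial.aeval t : Polynomial K →ₐ[K] F).toRingHom := by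
    refine Polynomial.ringHom_ext (fun a => ?_) ?_
    · simp only [AlgHom.toRingHom_eq_coe, RingHom.coe_comp, RingHom.coe_coe, Function.comp_apply,
        aeval_C, IntermediateField.algebraMap_apply, SubalgebraClass.coe_algebraMap]
    · simp only [AlgHom.toRingHom_eq_coe, RingHom.coe_comp, RingHom.coe_coe, Function.comp_apply,
        aeval_X, IntermediateField.algebraMap_apply, AdjoinSimple.coe_gen]
  have hP3 : Polynomial.aeval u (Φ.map (Polynomial.aeval (AdjoinSimple.gen K t) :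
      Polynomial K →ₐ[K] K⟮t⟯).toRingHom) = 0 := by
    rw [Polynomial.aeval_def, Polynomial.eval₂_map, hcomp1, ← Polynomial.eval_map]
    exact h1
  -- `K(t)(u) = F`, so the minimal polynomial of `u` over `K(t)` has degree `n`
  have htop : K⟮t⟯⟮u⟯ = ⊤ :=
    restrictScalars_eq_top_iff.mp ((adjoin_simple_adjoin_simple K t u).trans hgen)
  have hu : IsIntegral K⟮t⟯ u := IsIntegral.of_finite K⟮t⟯ u
  have hmin : (minpoly K⟮t⟯ u).natDegree = n := by
    have h := adjoin.finrank hu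
    rw [htop, finrank_top'] at h
    rw [← h, hrank]
  -- hence `P` is that minimal polynomial, and is irreducible
  have hPeq := Polynomial.eq_of_monic_of_dvd_of_natDegree_le (minpoly.monic hu) hP1
    (minpoly.dvd K⟮t⟯ u hP3) (by rw [hP2, hmin])
  have hPirr : Irreducible (Φ.map (Polynomial.aeval (AdjoinSimple.gen K t) :
      Polynomial K →ₐ[K] K⟮t⟯).toRingHom) := by
    rw [hPeq]
    exact minpoly.irreducible hu
  -- transport along `g : K(t) ≃ K(g t)`
  have hmap : K⟮t⟯.map g = K⟮g t⟯ := by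
    rw [adjoin_map, Set.image_singleton]
  let ψ : K⟮t⟯ ≃ₐ[K] K⟮g t⟯ := (equivMap K⟮t⟯ g).trans (equivOfEq hmap)
  have hQirr : Irreducible ((Φ.map (Polynomial.aeval (AdjoinSimple.gen K t) :
      Polynomial K →ₐ[K] K⟮t⟯).toRingHom).map (ψ.toRingEquiv : K⟮t⟯ →+* K⟮g t⟯)) :=
    (MulEquiv.irreducible_iff (Polynomial.mapEquiv ψ.toRingEquiv)).mpr hPirr
  have hQmonic : ((Φ.map (Polynomial.aeval (AdjoinSimple.gen K t) :
      Polynomial K →ₐ[K] K⟮t⟯).toRingHom).map (ψ.toRingEquiv : K⟮t⟯ →+* K⟮g t⟯)).Monic :=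
    hP1.map _
  have hQdeg : ((Φ.map (Polynomial.aeval (AdjoinSimple.gen K t) :
      Polynomial K →ₐ[K] K⟮t⟯).toRingHom).map
        (ψ.toRingEquiv : K⟮t⟯ →+* K⟮g t⟯)).natDegree = n := by
    rw [hP1.natDegree_map, hP2]
  have hcomp2 : ((algebraMap K⟮g t⟯ Ω).comp (ψ.toRingEquiv : K⟮t⟯ →+* K⟮g t⟯)).comp
      (Polynomial.aeval (AdjoinSimple.gen K t) : Polynomial K →ₐ[K] K⟮t⟯).toRingHom =
      (Polynomial.aeval (g t) : Polynomial K →ₐ[K] Ω).toRingHom := by
    refine Polynomial.ringHom_ext (fun a => ?_) ?_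
    · simp only [AlgEquiv.toRingEquiv_toRingHom, AlgHom.toRingHom_eq_coe, RingHom.coe_comp,
        RingHom.coe_coe, Function.comp_apply, aeval_C, AlgEquiv.commutes,
        IntermediateField.algebraMap_apply, SubalgebraClass.coe_algebraMap]
    · simp only [AlgEquiv.toRingEquiv_toRingHom, AlgHom.toRingHom_eq_coe, RingHom.coe_comp,
        RingHom.coe_coe, Function.comp_apply, aeval_X, IntermediateField.algebraMap_apply]
      rfl
  have hQy : Polynomial.aeval y ((Φ.map (Polynomial.aeval (AdjoinSimple.gen K t) :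
      Polynomial K →ₐ[K] K⟮t⟯).toRingHom).map (ψ.toRingEquiv : K⟮t⟯ →+* K⟮g t⟯)) = 0 := by
    rw [Polynomial.aeval_def, Polynomial.eval₂_map, Polynomial.eval₂_map, hcomp2,
      ← Polynomial.eval_map]
    exact h2
  rw [← minpoly.eq_of_irreducible_of_monic hQirr hQy hQmonic, hQdeg]

/-! ## Concrete inputs -/

/-- `ψ(ℓ) = ℓ + 1` for a prime `ℓ`. -/
theorem krpd_dedekindPsi_prime (ℓ : ℕ) (hℓ : ℓ.Prime) : dedekindPsi ℓ = ℓ + 1 := by
  have hsq : ∀ d ∈ ({1, ℓ} : Finset ℕ), Squarefree d := by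
    intro d hd
    rcases Finset.mem_insert.mp hd with rfl | hd
    · exact squarefree_one
    · rw [Finset.mem_singleton.mp hd]
      exact hℓ.prime.squarefree
  rw [dedekindPsi, hℓ.divisors, Finset.filter_true_of_mem hsq, Finset.sum_pair hℓ.one_lt.ne,
    Nat.div_one, Nat.div_self hℓ.pos]

/-- `evalL x` is evaluation at `x` in the `K`-algebra `K((q))`. -/
theorem krpd_evalL_eq {K : Type} [Field K] (x : LaurentSeries K) :
    evalL x = (Polynomial.aeval x : Polynomial K →ₐ[K] LaurentSeries K).toRingHom := by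
  refine Polynomial.ringHom_ext (fun a => ?_) ?_
  · rw [Fermat.Agent.S28.subst_evalL_C]
    simp only [AlgHom.toRingHom_eq_coe, RingHom.coe_coe, aeval_C]
    rw [algebraMap_laurentSeries_eq_single, HahnSeries.C_apply]
  · rw [Fermat.Agent.S28.subst_evalL_X]
    simp only [AlgHom.toRingHom_eq_coe, RingHom.coe_coe, aeval_X]

/-- `coeffEmb L j = j`. -/
theorem krpd_coeffEmb_jq (L : Type) [Field L] [Algebra ℚ L] : coeffEmb L jq = jqModC L := by
  rw [coeffEmb, ← jqModC_rat, coeffMap_jqModC]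

/-- `coeffEmb L (j(q^d)) = j(q^d)`. -/
theorem krpd_coeffEmb_qExpand (L : Type) [Field L] [Algebra ℚ L] (d : ℕ) [NeZero d] :
    coeffEmb L (qExpand ℚ d jq) = qExpand L d (jqModC L) := by
  rw [coeffEmb, coeffMap_qExpand, ← jqModC_rat, coeffMap_jqModC]

/-- `coeffEmb L` maps constants to constants. -/
theorem krpd_coeffEmb_algebraMap (L : Type) [Field L] [Algebra ℚ L] (c : ℚ) :
    coeffEmb L (algebraMap ℚ (LaurentSeries ℚ) c) =
      algebraMap L (LaurentSeries L) (algebraMap ℚ L c) := by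
  rw [algebraMap_laurentSeries_eq_single, algebraMap_laurentSeries_eq_single, coeffEmb,
    coeffMap_single]

/-- For a prime `ℓ`, `coeffEmb L` maps `ℚ(j(q^d) : d ∣ ℓ)` into every intermediate field of
`L((q)) / L` containing `j` and `j(q^ℓ)`. -/
theorem krpd_coeffEmb_mem (ℓ : ℕ) [NeZero ℓ] (hℓ : ℓ.Prime) (L : Type) [Field L] [Algebra ℚ L]
    (C : IntermediateField L (LaurentSeries L)) (h1 : jqModC L ∈ C)
    (h2 : qExpand L ℓ (jqModC L) ∈ C)
    (x : LaurentSeries ℚ) (hx : x ∈ IntermediateField.adjoin ℚ (divisorExpansions ℓ)) :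
    coeffEmb L x ∈ C := by
  induction hx using IntermediateField.adjoin_induction with
  | mem y hy =>
    obtain ⟨d, hd0, hd, rfl⟩ := hy
    have := hd0
    rw [krpd_coeffEmb_qExpand]
    rcases (Nat.dvd_prime hℓ).mp hd with h | h
    · subst h
      rw [qExpand_one_apply]
      exact h1
    · subst h
      exact h2
  | algebraMap c =>
    rw [krpd_coeffEmb_algebraMap]
    exact C.algebraMap_mem _
  | add y z _ _ hy hz => rw [map_add]; exact add_mem hy hz
  | inv y _ hy => rw [map_inv₀]; exact inv_mem hy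
  | mul y z _ _ hy hz => rw [map_mul]; exact mul_mem hy hz

/-- For a prime `ℓ`, the field `F_ℓ` is contained in every intermediate field of `ℚ̄((q)) / ℚ̄`
containing `j` and `j(q^ℓ)`. -/
theorem krpd_le (ℓ : ℕ) [NeZero ℓ] (hℓ : ℓ.Prime)
    (C : IntermediateField (AlgebraicClosure ℚ) (LaurentSeries (AlgebraicClosure ℚ)))
    (h1 : jqModC (AlgebraicClosure ℚ) ∈ C)
    (h2 : qExpand (AlgebraicClosure ℚ) ℓ (jqModC (AlgebraicClosure ℚ)) ∈ C) :
    modularFunctionFieldBar ℓ ≤ C := by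
  rw [modularFunctionFieldBar, laurentBaseChange, IntermediateField.adjoin_le_iff]
  rintro _ ⟨x, hx, rfl⟩
  exact krpd_coeffEmb_mem ℓ hℓ (AlgebraicClosure ℚ) C h1 h2 x hx

/-! ## The main theorem -/

/-- (KR-PrimeDeg) For a prime `ℓ`, the series `j(q)` has degree `ℓ + 1` over `ℚ̄(j(q^ℓ))`. -/
theorem krpd_main : kr_PsiDegStatement → kr_ModEqIntStatement → kr_PrimeDegStatement := by
  intro hPsi hMod ℓ _ hℓ
  obtain ⟨ζ, hζ⟩ := HasEnoughRootsOfUnity.exists_primitiveRoot (AlgebraicClosure ℚ) ℓ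
  obtain ⟨Φ, hmonic, hdeg, -, -, h5, h6⟩ := hMod ℓ hℓ ζ hζ
  obtain ⟨-, hfin, hrank⟩ := hPsi ℓ
  rw [krpd_dedekindPsi_prime ℓ hℓ] at hrank
  -- `j(q^ℓ)` as an element of `F_ℓ`
  have hj' : qExpand (AlgebraicClosure ℚ) ℓ (jqModC (AlgebraicClosure ℚ)) ∈
      modularFunctionFieldBar ℓ := by
    rw [← krpd_coeffEmb_qExpand]
    exact coeffEmb_mem_laurentBaseChange _ (jqd_mem_full ℓ dvd_rfl)
  refine krpd_core (K := AlgebraicClosure ℚ) (F := ↥(modularFunctionFieldBar ℓ))
    (Ω := LaurentSeries (AlgebraicClosure ℚ)) (Fermat.Agent.S24.jBar ℓ) ⟨_, hj'⟩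
    ((qExpandAlgHomC (AlgebraicClosure ℚ) ℓ).comp (modularFunctionFieldBar ℓ).val)
    (qExpand (AlgebraicClosure ℚ) ℓ (jqModC (AlgebraicClosure ℚ)))
    (jqModC (AlgebraicClosure ℚ)) ?_ (ℓ + 1) Φ hmonic hdeg hfin hrank ?_ ?_ ?_
  · -- `g t = t'`
    show qExpand (AlgebraicClosure ℚ) ℓ (coeffEmb (AlgebraicClosure ℚ) jq) = _
    rw [krpd_coeffEmb_jq]
  · -- `F_ℓ = ℚ̄(j, j(q^ℓ))`
    rw [eq_top_iff]
    intro x _
    refine (IntermediateField.mem_lift x).mp ?_
    rw [IntermediateField.lift_adjoin]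
    refine krpd_le ℓ hℓ _ ?_ ?_ x.2
    · exact subset_adjoin _ _ ⟨Fermat.Agent.S24.jBar ℓ, Set.mem_insert _ _,
        krpd_coeffEmb_jq _⟩
    · exact subset_adjoin _ _ ⟨⟨_, hj'⟩, Set.mem_insert_of_mem _ rfl, rfl⟩
  · -- `Φ(j(q^ℓ), j) = 0` in `F_ℓ`
    have hcomp : (algebraMap ↥(modularFunctionFieldBar ℓ)
        (LaurentSeries (AlgebraicClosure ℚ))).comp
        (Polynomial.aeval (Fermat.Agent.S24.jBar ℓ) : Polynomial (AlgebraicClosure ℚ) →ₐ[_]
          ↥(modularFunctionFieldBar ℓ)).toRingHom = evalL (jqModC (AlgebraicClosure ℚ)) := by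
      rw [krpd_evalL_eq]
      refine Polynomial.ringHom_ext (fun a => ?_) ?_
      · simp only [AlgHom.toRingHom_eq_coe, RingHom.coe_comp, RingHom.coe_coe,
          Function.comp_apply, aeval_C]
        rfl
      · simp only [AlgHom.toRingHom_eq_coe, RingHom.coe_comp, RingHom.coe_coe,
          Function.comp_apply, aeval_X]
        exact krpd_coeffEmb_jq _
    have h := Polynomial.eval₂_at_apply
      (p := Φ.map (Polynomial.aeval (Fermat.Agent.S24.jBar ℓ) :
        Polynomial (AlgebraicClosure ℚ) →ₐ[_] ↥(modularFunctionFieldBar ℓ)).toRingHom)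
      (algebraMap ↥(modularFunctionFieldBar ℓ) (LaurentSeries (AlgebraicClosure ℚ)))
      ⟨_, hj'⟩
    rw [← Polynomial.eval_map, Polynomial.map_map, hcomp] at h
    apply Subtype.ext
    exact h.symm.trans h6
  · -- `Φ(j, j(q^ℓ)) = 0`
    rw [← krpd_evalL_eq]
    exact h5

end Fermat.Agent.S37
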