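/-
S37, block KR, work package `KRPsi`: the degree `[F_M : ℚ̄(j)] = ψ(M)` of the function field of
`X₀(M)` over `ℚ̄(j)` (a direct combination of the S24 degree computation `c_modelCounts` with the
index formula `[SL(2, ℤ) : Γ₀(M)] = ψ(M)`), and two elementary facts on the Dedekind `ψ` function.
-/
import Fermat.Agent.S37.KRInterfaces
import Fermat.Agent.S28.CMain
import Fermat.Agent.S24.CombIndex

set_option autoImplicit false

namespace Fermat.Agent.S37

/-- (KR-Psi) `[F_M : ℚ̄(j)] = ψ(M)`. -/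
theorem krps_main : kr_PsiDegStatement := by
  intro M _
  obtain ⟨h1, h2, h3, -⟩ := Fermat.Agent.S28.c_modelCounts M
  exact ⟨h1, h2, h3.trans (Fermat.Agent.S24.CombIndex.combIndexStatement M)⟩

/-- `ψ(ℓ) = ℓ + 1` for a prime `ℓ`. -/
theorem krps_psi_prime (ℓ : ℕ) (hℓ : ℓ.Prime) : ModularCurve.dedekindPsi ℓ = ℓ + 1 := by
  have h := Fermat.Agent.S24.CombIndex.dedekindPsi_prime_pow hℓ 0
  rw [zero_add, pow_one, pow_zero] at h
  exact h

/-- `ψ(N ℓ) = ψ(N) (ℓ + 1)` for a prime `ℓ ∤ N`. -/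
theorem krps_psi_mul_prime (N ℓ : ℕ) [NeZero N] (hℓ : ℓ.Prime) (h : ¬ ℓ ∣ N) :
    ModularCurve.dedekindPsi (N * ℓ) = ModularCurve.dedekindPsi N * (ℓ + 1) := by
  have hcop : N.Coprime ℓ := ((Nat.Prime.coprime_iff_not_dvd hℓ).mpr h).symm
  rw [Fermat.Agent.S24.CombIndex.dedekindPsi_mul hcop, krps_psi_prime ℓ hℓ]

end Fermat.Agent.S37
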