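/-
S37, block KR, package KRSInf (twin B): the extra embedding `s_∞`.

For a prime `ℓ ∤ N` there is a ring homomorphism `s : F_{Nℓ} → ℚ̄((q))` with `s (β f) = f(q^ℓ)` and
`s (α g) = g(q^{ℓ²})` for all `f, g ∈ F_N`.

Structure.  `krsj_abstract` is pure field theory: a finite extension `L / E` of degree `ℓ + 1`
with `ℓ` embeddings `s b` into a field `Ω`, and an element `x₁` whose minimal polynomial has the
`ℓ + 1` roots `y₁`, `s b x₁` in `Ω`, has a further embedding `t` with `t x₁ = y₁`; moreover `t` is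
determined on every other element `x` satisfying a polynomial with roots `y`, `s b x`.
`krsj_abstract'` is the same statement for ring homomorphisms (no algebra instances).
`krsj_data` supplies the polynomials from the modular equation, `krsj_main` assembles.
-/
import Fermat.Agent.S37.KRInterfaces2
import Fermat.Agent.S28.Subst
import Fermat.Agent.S18.GBFin

set_option autoImplicit false

open AlgebraicCurve ModularCurve IntermediateField Polynomial
open Fermat.Agent.S28 (scale evalL jsub)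

namespace Fermat.Agent.S37

noncomputable section

/-! ## Field theory -/

/-- If the `s b x`, `b < ℓ`, are pairwise distinct and `[L : E] = ℓ + 1` with `ℓ ≥ 2`, then `x`
generates `L` over `E`. -/
theorem krsj_adjoin_eq_top {E L Ω : Type} [Field E] [Field L] [Field Ω] [Algebra E L]
    [Algebra E Ω] (ℓ : ℕ) (hℓ : 2 ≤ ℓ) (hfr : Module.finrank E L = ℓ + 1)
    (s : ℕ → (L →ₐ[E] Ω)) (x : L)
    (hinj : ∀ b < ℓ, ∀ b' < ℓ, s b x = s b' x → b = b') :
    (minpoly E x).natDegree = ℓ + 1 ∧ E⟮x⟯ = ⊤ := by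
  classical
  have : FiniteDimensional E L := Module.finite_of_finrank_pos (by rw [hfr]; omega)
  have hint : IsIntegral E x := IsIntegral.of_finite E x
  have hm0 : (minpoly E x).map (algebraMap E Ω) ≠ 0 :=
    (Polynomial.map_ne_zero_iff (algebraMap E Ω).injective).mpr (minpoly.ne_zero hint)
  have hroot : ∀ b : ℕ, s b x ∈ ((minpoly E x).map (algebraMap E Ω)).roots := by
    intro b
    rw [Polynomial.mem_roots hm0, Polynomial.IsRoot.def, Polynomial.eval_map_algebraMap,
      Polynomial.aeval_algHom_apply, minpoly.aeval, map_zero]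
  have hcard : ((Finset.range ℓ).image fun b => s b x).card = ℓ := by
    rw [Finset.card_image_of_injOn, Finset.card_range]
    intro b hb b' hb' h
    exact hinj b (Finset.mem_range.mp hb) b' (Finset.mem_range.mp hb') h
  have hle : ℓ ≤ (minpoly E x).natDegree := by
    have h1 := Polynomial.card_le_degree_of_subset_roots
      (p := (minpoly E x).map (algebraMap E Ω)) (Z := (Finset.range ℓ).image fun b => s b x)
      (by
        intro y hy
        obtain ⟨b, -, rfl⟩ := Finset.mem_image.mp (Finset.mem_def.mpr hy)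
        exact hroot b)
    rw [hcard, Polynomial.natDegree_map] at h1
    exact h1
  have hdvd : (minpoly E x).natDegree ∣ ℓ + 1 := hfr ▸ minpoly.degree_dvd hint
  have hdeg : (minpoly E x).natDegree = ℓ + 1 := by
    have h1 : (minpoly E x).natDegree ≤ ℓ + 1 := Nat.le_of_dvd (Nat.succ_pos ℓ) hdvd
    rcases Nat.lt_or_ge (minpoly E x).natDegree (ℓ + 1) with h2 | h2
    · exfalso
      have h3 : (minpoly E x).natDegree = ℓ := by omega
      rw [h3] at hdvd
      have h4 : ℓ ∣ 1 := (Nat.dvd_add_right (dvd_refl ℓ)).mp hdvd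
      have h5 : ℓ = 1 := Nat.dvd_one.mp h4
      omega
    · omega
  refine ⟨hdeg, ?_⟩
  rw [Field.primitive_element_iff_minpoly_natDegree_eq, hdeg, hfr]

/-- Two embeddings which agree on a generator agree. -/
theorem krsj_algHom_ext {E L Ω : Type} [Field E] [Field L] [Field Ω] [Algebra E L]
    [Algebra E Ω] (x : L) (hx : E⟮x⟯ = ⊤) (t t' : L →ₐ[E] Ω) (h : t x = t' x) : t = t' := by
  refine AlgHom.ext fun z => ?_
  have hz : z ∈ IntermediateField.adjoin E {x} := by rw [hx]; exact IntermediateField.mem_top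
  induction hz using IntermediateField.adjoin_induction with
  | mem y hy =>
    rw [Set.mem_singleton_iff.mp hy]
    exact h
  | algebraMap c => rw [AlgHom.commutes, AlgHom.commutes]
  | add y z _ _ hy hz => rw [map_add, map_add, hy, hz]
  | inv y _ hy => rw [map_inv₀, map_inv₀, hy]
  | mul y z _ _ hy hz => rw [map_mul, map_mul, hy, hz]

/-- The extra embedding, abstractly. -/
theorem krsj_abstract {E L Ω : Type} [Field E] [Field L] [Field Ω] [Algebra E L]
    [Algebra E Ω] (ℓ : ℕ) (hℓ : 2 ≤ ℓ) (hfr : Module.finrank E L = ℓ + 1)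
    (s : ℕ → (L →ₐ[E] Ω))
    (x₁ : L) (y₁ : Ω) (P₁ : E[X]) (hP₁m : P₁.Monic) (hP₁d : P₁.natDegree = ℓ + 1)
    (hP₁x : aeval x₁ P₁ = 0)
    (hP₁ : P₁.map (algebraMap E Ω) = (X - C y₁) * ∏ b ∈ Finset.range ℓ, (X - C (s b x₁)))
    (hinj₁ : ∀ b < ℓ, ∀ b' < ℓ, s b x₁ = s b' x₁ → b = b')
    (hy₁ : ∀ b < ℓ, y₁ ≠ s b x₁) :
    ∃ t : L →ₐ[E] Ω, t x₁ = y₁ ∧
      ∀ (x : L) (y : Ω) (P : E[X]), aeval x P = 0 →
        P.map (algebraMap E Ω) = (X - C y) * ∏ b ∈ Finset.range ℓ, (X - C (s b x)) →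
        (∀ b < ℓ, ∀ b' < ℓ, s b x = s b' x → b = b') → t x = y := by
  have : FiniteDimensional E L := Module.finite_of_finrank_pos (by rw [hfr]; omega)
  have hint : IsIntegral E x₁ := IsIntegral.of_finite E x₁
  obtain ⟨hdeg, htop⟩ := krsj_adjoin_eq_top ℓ hℓ hfr s x₁ hinj₁
  -- the minimal polynomial of `x₁` is `P₁`
  have hmin : P₁ = minpoly E x₁ :=
    Polynomial.eq_of_monic_of_dvd_of_natDegree_le (minpoly.monic hint) hP₁m
      (minpoly.dvd E x₁ hP₁x) (by rw [hP₁d, hdeg])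
  have hsplit : ((minpoly E x₁).map (algebraMap E Ω)).Splits := by
    rw [← hmin, hP₁]
    exact (Polynomial.Splits.X_sub_C _).mul
      (Polynomial.Splits.prod fun b _ => Polynomial.Splits.X_sub_C _)
  have hy : aeval y₁ (minpoly E x₁) = 0 := by
    rw [← hmin, ← Polynomial.eval_map_algebraMap, hP₁, Polynomial.eval_mul, Polynomial.eval_sub,
      Polynomial.eval_X, Polynomial.eval_C, sub_self, zero_mul]
  obtain ⟨t, ht⟩ := IntermediateField.exists_algHom_of_adjoin_splits_of_aeval (S := {x₁})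
    (fun z hz => by
      rw [Set.mem_singleton_iff.mp hz]
      exact ⟨hint, hsplit⟩) htop hy
  refine ⟨t, ht, ?_⟩
  intro x y P hPx hP hinj
  have h1 : Polynomial.eval (t x) (P.map (algebraMap E Ω)) = 0 := by
    rw [Polynomial.eval_map_algebraMap, Polynomial.aeval_algHom_apply, hPx, map_zero]
  rw [hP, Polynomial.eval_mul, Polynomial.eval_sub, Polynomial.eval_X, Polynomial.eval_C,
    Polynomial.eval_prod, mul_eq_zero, Finset.prod_eq_zero_iff] at h1
  rcases h1 with h1 | ⟨b, hb, h1⟩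
  · exact sub_eq_zero.mp h1
  · exfalso
    rw [Polynomial.eval_sub, Polynomial.eval_X, Polynomial.eval_C, sub_eq_zero] at h1
    have h2 : t = s b := krsj_algHom_ext x (krsj_adjoin_eq_top ℓ hℓ hfr s x hinj).2 t (s b) h1
    apply hy₁ b (Finset.mem_range.mp hb)
    rw [← ht, h2]

/-- The extra embedding, abstractly, for ring homomorphisms: `L` is an `E`-algebra along `β`,
`Ω` is an `E`-algebra along `ι`. -/
theorem krsj_abstract' {E L Ω : Type} [Field E] [Field L] [Field Ω] (β : E →+* L) (ι : E →+* Ω)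
    (ℓ : ℕ) (hℓ : 2 ≤ ℓ) (hfr : @Module.finrank E L _ _ β.toAlgebra.toModule = ℓ + 1)
    (s : ℕ → (L →+* Ω)) (hs : ∀ b, (s b).comp β = ι)
    (x₁ : L) (y₁ : Ω) (P₁ : E[X]) (hP₁m : P₁.Monic) (hP₁d : P₁.natDegree = ℓ + 1)
    (hP₁x : P₁.eval₂ β x₁ = 0)
    (hP₁ : P₁.map ι = (X - C y₁) * ∏ b ∈ Finset.range ℓ, (X - C (s b x₁)))
    (hinj₁ : ∀ b < ℓ, ∀ b' < ℓ, s b x₁ = s b' x₁ → b = b')
    (hy₁ : ∀ b < ℓ, y₁ ≠ s b x₁) :
    ∃ t : L →+* Ω, t.comp β = ι ∧ t x₁ = y₁ ∧
      ∀ (x : L) (y : Ω) (P : E[X]), P.eval₂ β x = 0 →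
        P.map ι = (X - C y) * ∏ b ∈ Finset.range ℓ, (X - C (s b x)) →
        (∀ b < ℓ, ∀ b' < ℓ, s b x = s b' x → b = b') → t x = y := by
  let _ : Algebra E L := β.toAlgebra
  let _ : Algebra E Ω := ι.toAlgebra
  obtain ⟨t, ht, htx⟩ := krsj_abstract (E := E) (L := L) (Ω := Ω) ℓ hℓ hfr
    (fun b => { toRingHom := s b, commutes' := fun e => RingHom.congr_fun (hs b) e })
    x₁ y₁ P₁ hP₁m hP₁d hP₁x hP₁ hinj₁ hy₁
  refine ⟨t.toRingHom, ?_, ht, ?_⟩
  · ext e
    exact t.commutes e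
  · intro x y P hPx hP hinj
    exact htx x y P hPx hP hinj

/-! ## The concrete data -/

/-- The embedding `x ↦ x(c q)` of a subfield of `K((q))` into `K((q))`. -/
def krsj_s {K : Type} [Field K] (F : IntermediateField K (LaurentSeries K)) (c : K) (hc : c ≠ 0) :
    ↥F →+* LaurentSeries K :=
  (Fermat.Agent.S28.subst_scaleHom c hc).comp (algebraMap ↥F (LaurentSeries K))

theorem krsj_s_apply {K : Type} [Field K] (F : IntermediateField K (LaurentSeries K)) (c : K)
    (hc : c ≠ 0) (x : ↥F) : krsj_s F c hc x = scale c (x : LaurentSeries K) := rfl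

/-- `j(q^{ab}) = (j(q^a))(q^b)`. -/
theorem krsj_jsub_one_mul (K : Type) [Field K] (a b : ℕ) [NeZero a] [NeZero b] :
    jsub K 1 (a * b) = qExpand K b (qExpand K a (jqModC K)) := by
  rw [← Fermat.Agent.S28.subst_qExpand_jsub, Fermat.Agent.S28.subst_jsub_one]

/-- `j(c^a q^a) = (j(q^a))(c q)`. -/
theorem krsj_jsub_pow (K : Type) [Field K] (c : K) (a : ℕ) [NeZero a] :
    jsub K (c ^ a) a = scale c (qExpand K a (jqModC K)) := by
  rw [jsub, ← Fermat.Agent.S28.subst_scale_qExpand]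

/-- `j(q^{ℓ²}) ≠ j(c q)`. -/
theorem krsj_ne (K : Type) [Field K] (ℓ : ℕ) [NeZero ℓ] (hℓ : 2 ≤ ℓ) (c : K) (hc : c ≠ 0) :
    qExpand K (ℓ * ℓ) (qExpand K 1 (jqModC K)) ≠ scale c (qExpand K 1 (jqModC K)) := by
  intro h
  rw [qExpand_one_apply, ← Fermat.Agent.S28.subst_jsub_one] at h
  have h2 : scale c (jqModC K) = jsub K c 1 := by rw [jsub, qExpand_one_apply]
  rw [h2] at h
  have h3 := (Fermat.Agent.S28.subst_jsub_eq_iff K 1 c one_ne_zero hc (ℓ * ℓ) 1 h).1
  nlinarith

/-- The polynomial `P_d`: the modular polynomial with `T` evaluated at `g = j(q^d) ∈ F_N`. -/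
theorem krsj_data (K : Type) [Field K] [Algebra ℚ K] (N ℓ : ℕ) [NeZero N] [NeZero ℓ]
    (ζ : K) (hζ : IsPrimitiveRoot ζ ℓ) (hζ0 : ζ ≠ 0) (d : ℕ) [NeZero d] (hdℓ : d.Coprime ℓ)
    (hmod : Fermat.Agent.S28.ModEqAt K ℓ (ζ ^ d))
    (g : ↥(laurentBaseChange K (modularFunctionFieldFull N)))
    (hg : (g : LaurentSeries K) = qExpand K d (jqModC K)) :
    ∃ P : Polynomial ↥(laurentBaseChange K (modularFunctionFieldFull N)),
      P.Monic ∧ P.natDegree = ℓ + 1 ∧
      P.eval₂ (heckeBetaBar K N ℓ).toRingHom (heckeAlphaBar K N ℓ g) = 0 ∧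
      P.map ((qExpand K ℓ).comp
          (algebraMap ↥(laurentBaseChange K (modularFunctionFieldFull N)) (LaurentSeries K))) =
        (X - C (qExpand K (ℓ * ℓ) (g : LaurentSeries K))) *
          ∏ b ∈ Finset.range ℓ,
            (X - C (krsj_s _ (ζ ^ b) (pow_ne_zero b hζ0) (heckeAlphaBar K N ℓ g))) ∧
      (∀ b < ℓ, ∀ b' < ℓ,
        krsj_s _ (ζ ^ b) (pow_ne_zero b hζ0) (heckeAlphaBar K N ℓ g) =
          krsj_s _ (ζ ^ b') (pow_ne_zero b' hζ0) (heckeAlphaBar K N ℓ g) → b = b') := by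
  obtain ⟨Φ, hΦm, hΦd, hΦ⟩ := hmod
  have hsx : ∀ b : ℕ, krsj_s _ (ζ ^ b) (pow_ne_zero b hζ0) (heckeAlphaBar K N ℓ g) =
      scale (ζ ^ b) (g : LaurentSeries K) := by
    intro b
    rw [krsj_s_apply, coe_heckeAlphaBar]
  -- the modular equation after `q ↦ q^d`
  have hsub := Fermat.Agent.S28.subst_modEq K ℓ (ζ ^ d) Φ hΦ 1 one_ne_zero d
  rw [one_pow, one_pow, krsj_jsub_one_mul, krsj_jsub_one_mul, ← hg] at hsub
  have hfac : ∀ b : ℕ, jsub K ((ζ ^ d) ^ b * 1) d = scale (ζ ^ b) (g : LaurentSeries K) := by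
    intro b
    rw [mul_one, ← pow_mul, mul_comm d b, pow_mul, krsj_jsub_pow, hg]
  rw [Finset.prod_congr rfl (fun b _ => by rw [hfac b])] at hsub
  -- evaluation of `T` at `g`
  obtain ⟨ev, hev⟩ : ∃ ev : Polynomial K →+* ↥(laurentBaseChange K (modularFunctionFieldFull N)),
      ((qExpand K ℓ).comp
        (algebraMap ↥(laurentBaseChange K (modularFunctionFieldFull N)) (LaurentSeries K))).comp ev =
        evalL (qExpand K ℓ (g : LaurentSeries K)) := by
    refine ⟨Polynomial.eval₂RingHom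
      (algebraMap K ↥(laurentBaseChange K (modularFunctionFieldFull N))) g, ?_⟩
    refine Polynomial.ringHom_ext (fun a => ?_) ?_
    · rw [Fermat.Agent.S28.subst_evalL_C, RingHom.comp_apply, Polynomial.coe_eval₂RingHom,
        Polynomial.eval₂_C, RingHom.comp_apply]
      show qExpand K ℓ (algebraMap K (LaurentSeries K) a) = HahnSeries.C a
      rw [algebraMap_laurentSeries_eq_single, qExpand_single, mul_zero, HahnSeries.C_apply]
    · rw [Fermat.Agent.S28.subst_evalL_X, RingHom.comp_apply, Polynomial.coe_eval₂RingHom,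
        Polynomial.eval₂_X, RingHom.comp_apply]
      rfl
  have hmap : (Φ.map ev).map ((qExpand K ℓ).comp
      (algebraMap ↥(laurentBaseChange K (modularFunctionFieldFull N)) (LaurentSeries K))) =
      (X - C (qExpand K (ℓ * ℓ) (g : LaurentSeries K))) *
        ∏ b ∈ Finset.range ℓ, (X - C (scale (ζ ^ b) (g : LaurentSeries K))) := by
    rw [Polynomial.map_map, hev, hsub]
  refine ⟨Φ.map ev, hΦm.map ev, (hΦm.natDegree_map ev).trans hΦd, ?_, ?_, ?_⟩
  · -- `P_d (x_d) = 0`
    have hβ : (algebraMap ↥(laurentBaseChange K (modularFunctionFieldFull (N * ℓ)))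
        (LaurentSeries K)).comp (heckeBetaBar K N ℓ).toRingHom =
        (qExpand K ℓ).comp
          (algebraMap ↥(laurentBaseChange K (modularFunctionFieldFull N)) (LaurentSeries K)) :=
      RingHom.ext fun f => rfl
    have h0 : algebraMap ↥(laurentBaseChange K (modularFunctionFieldFull (N * ℓ)))
        (LaurentSeries K)
        ((Φ.map ev).eval₂ (heckeBetaBar K N ℓ).toRingHom (heckeAlphaBar K N ℓ g)) = 0 := by
      rw [Polynomial.hom_eval₂, hβ, ← Polynomial.eval_map, hmap, Polynomial.eval_mul,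
        Polynomial.eval_prod]
      have hx : algebraMap ↥(laurentBaseChange K (modularFunctionFieldFull (N * ℓ)))
          (LaurentSeries K) (heckeAlphaBar K N ℓ g) = (g : LaurentSeries K) :=
        coe_heckeAlphaBar N ℓ g
      rw [Finset.prod_eq_zero (Finset.mem_range.mpr (NeZero.pos ℓ)) (by
        rw [pow_zero, Fermat.Agent.S28.subst_scale_one, Polynomial.eval_sub, Polynomial.eval_X,
          Polynomial.eval_C, hx, sub_self]), mul_zero]
    exact (algebraMap ↥(laurentBaseChange K (modularFunctionFieldFull (N * ℓ)))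
      (LaurentSeries K)).injective (h0.trans (map_zero _).symm)
  · rw [hmap]
    refine congrArg _ (Finset.prod_congr rfl fun b _ => ?_)
    rw [hsx b]
  · intro b hb b' hb' h
    rw [hsx b, hsx b', hg, ← krsj_jsub_pow, ← krsj_jsub_pow] at h
    have h2 := (Fermat.Agent.S28.subst_jsub_eq_iff K _ _ (pow_ne_zero d (pow_ne_zero b hζ0))
      (pow_ne_zero d (pow_ne_zero b' hζ0)) d d h).2
    rw [← pow_mul, ← pow_mul, mul_comm b d, mul_comm b' d, pow_mul, pow_mul] at h2
    exact (hζ.pow_of_coprime d hdℓ).pow_inj hb hb' h2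

/-! ## Assembly -/

/-- The extra embedding over a field `K` with a primitive `ℓ`-th root of unity, given the degree
of `β` and the modular equation. -/
theorem krsj_exists (K : Type) [Field K] [Algebra ℚ K] (N ℓ : ℕ) [NeZero N] [NeZero ℓ]
    (hℓ : ℓ.Prime) (hℓN : ¬ ℓ ∣ N)
    (hfr : finrankAlong K (heckeBetaBar K N ℓ) = ℓ + 1)
    (ζ : K) (hζ : IsPrimitiveRoot ζ ℓ)
    (hmod : ∀ d : ℕ, d.Coprime ℓ → Fermat.Agent.S28.ModEqAt K ℓ (ζ ^ d)) :
    ∃ s : ↥(laurentBaseChange K (modularFunctionFieldFull (N * ℓ))) →+* LaurentSeries K,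
      (∀ f : ↥(laurentBaseChange K (modularFunctionFieldFull N)),
        s (heckeBetaBar K N ℓ f) = qExpand K ℓ (f : LaurentSeries K)) ∧
      (∀ g : ↥(laurentBaseChange K (modularFunctionFieldFull N)),
        s (heckeAlphaBar K N ℓ g) = qExpand K (ℓ * ℓ) (g : LaurentSeries K)) := by
  have hℓ2 : 2 ≤ ℓ := hℓ.two_le
  have hζ0 : ζ ≠ 0 := hζ.ne_zero (NeZero.ne ℓ)
  have hcop : ∀ d : ℕ, d ∣ N → d.Coprime ℓ := by
    intro d hd
    exact Nat.Coprime.symm ((Nat.Prime.coprime_iff_not_dvd hℓ).mpr fun h => hℓN (h.trans hd))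
  have hFeq : laurentBaseChange K (modularFunctionFieldFull N) =
      IntermediateField.adjoin K (divisorExpansionsC K N) :=
    Fermat.Agent.S18.gb_finl_FL_eq N K
  -- the generators `j(q^d)` of `F_N`
  have hgen : ∀ (d : ℕ) [NeZero d], d ∣ N →
      qExpand K d (jqModC K) ∈ laurentBaseChange K (modularFunctionFieldFull N) := by
    intro d _ hd
    rw [hFeq]
    exact IntermediateField.subset_adjoin K _ (mem_divisorExpansionsC K N hd)
  -- the embeddings `s_b` are embeddings over `β`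
  have hs : ∀ b : ℕ,
      (krsj_s (laurentBaseChange K (modularFunctionFieldFull (N * ℓ))) (ζ ^ b)
        (pow_ne_zero b hζ0)).comp (heckeBetaBar K N ℓ).toRingHom =
      (qExpand K ℓ).comp
        (algebraMap ↥(laurentBaseChange K (modularFunctionFieldFull N)) (LaurentSeries K)) := by
    intro b
    refine RingHom.ext fun f => ?_
    show scale (ζ ^ b) (qExpand K ℓ (f : LaurentSeries K)) = qExpand K ℓ (f : LaurentSeries K)
    rw [Fermat.Agent.S28.subst_scale_qExpand, ← pow_mul, mul_comm b ℓ, pow_mul, hζ.pow_eq_one,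
      one_pow, Fermat.Agent.S28.subst_scale_one]
  -- the data for `d = 1`
  obtain ⟨P₁, hP₁m, hP₁d, hP₁x, hP₁, hinj₁⟩ := krsj_data K N ℓ ζ hζ hζ0 1 (hcop 1 (one_dvd N))
    (hmod 1 (hcop 1 (one_dvd N))) ⟨qExpand K 1 (jqModC K), hgen 1 (one_dvd N)⟩ rfl
  obtain ⟨t, htβ, -, ht⟩ := krsj_abstract' (heckeBetaBar K N ℓ).toRingHom
    ((qExpand K ℓ).comp
      (algebraMap ↥(laurentBaseChange K (modularFunctionFieldFull N)) (LaurentSeries K)))
    ℓ hℓ2 hfr
    (fun b => krsj_s (laurentBaseChange K (modularFunctionFieldFull (N * ℓ))) (ζ ^ b)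
      (pow_ne_zero b hζ0)) hs
    (heckeAlphaBar K N ℓ ⟨qExpand K 1 (jqModC K), hgen 1 (one_dvd N)⟩)
    (qExpand K (ℓ * ℓ) (qExpand K 1 (jqModC K))) P₁ hP₁m hP₁d hP₁x hP₁ hinj₁
    (fun b _ => by
      rw [krsj_s_apply, coe_heckeAlphaBar]
      exact krsj_ne K ℓ hℓ2 (ζ ^ b) (pow_ne_zero b hζ0))
  refine ⟨t, fun f => RingHom.congr_fun htβ f, ?_⟩
  -- `t ∘ α` and `q ↦ q^{ℓ²}` are `K`-algebra homomorphisms which agree on the generators
  have hcomm : ∀ c : K, t (heckeAlphaBar K N ℓ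
      (algebraMap K ↥(laurentBaseChange K (modularFunctionFieldFull N)) c)) =
      algebraMap K (LaurentSeries K) c := by
    intro c
    rw [(heckeAlphaBar K N ℓ).commutes c, ← (heckeBetaBar K N ℓ).commutes c]
    have h1 := RingHom.congr_fun htβ
      (algebraMap K ↥(laurentBaseChange K (modularFunctionFieldFull N)) c)
    rw [RingHom.comp_apply] at h1
    refine h1.trans ?_
    show qExpand K ℓ (algebraMap K (LaurentSeries K) c) = algebraMap K (LaurentSeries K) c
    rw [algebraMap_laurentSeries_eq_single, qExpand_single, mul_zero]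
  have key : ({ toRingHom := t.comp (heckeAlphaBar K N ℓ).toRingHom, commutes' := hcomm } :
      ↥(laurentBaseChange K (modularFunctionFieldFull N)) →ₐ[K] LaurentSeries K) =
      (qExpandAlgHomC K (ℓ * ℓ)).comp (laurentBaseChange K (modularFunctionFieldFull N)).val := by
    refine IntermediateField.algHom_ext_of_eq_adjoin K hFeq ?_
    rintro x ⟨d, hd0, hd, rfl⟩
    have := hd0
    obtain ⟨P, -, -, hPx, hP, hinj⟩ := krsj_data K N ℓ ζ hζ hζ0 d (hcop d hd) (hmod d (hcop d hd))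
      ⟨qExpand K d (jqModC K), hgen d hd⟩ rfl
    exact ht _ _ P hPx hP hinj
  intro g
  exact AlgHom.congr_fun key g

/-- (KR-SInf) The extra embedding `s_∞`. -/
theorem krsj_main : kr_FinrankStatement → kr_ModEqIntStatement → kr_SInfStatement := by
  intro hF hM N ℓ _ _ hℓ hℓN
  obtain ⟨ζ, hζ⟩ := HasEnoughRootsOfUnity.exists_primitiveRoot (AlgebraicClosure ℚ) ℓ
  refine krsj_exists (AlgebraicClosure ℚ) N ℓ hℓ hℓN (hF N ℓ hℓ hℓN) ζ hζ ?_
  intro d hd
  obtain ⟨Φ, h1, h2, -, h3, -⟩ := hM ℓ hℓ (ζ ^ d) (hζ.pow_of_coprime d hd)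
  exact ⟨Φ, h1, h2, h3⟩

end

end Fermat.Agent.S37
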