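/-
S37, block KR — hypothesis-free deliverables (assembly of the work packages).
-/
import Fermat.Agent.S37.KRModEqIntA
import Fermat.Agent.S37.KRPsiA
import Fermat.Agent.S37.KRPrimeDegA
import Fermat.Agent.S37.KRFinrankA
import Fermat.Agent.S37.KREmbA
import Fermat.Agent.S37.KRSInfB
import Fermat.Agent.S37.KRCharAsmA

set_option autoImplicit false

namespace Fermat.Agent.S37

/-- (KR-ModEqInt), hypothesis-free. -/
theorem kr_modEqInt : kr_ModEqIntStatement := krme_main

/-- (KR-Psi), hypothesis-free. -/
theorem kr_psiDeg : kr_PsiDegStatement := krps_main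

/-- (KR-PrimeDeg), hypothesis-free. -/
theorem kr_primeDeg : kr_PrimeDegStatement := krpd_main kr_psiDeg kr_modEqInt

/-- (KR1), hypothesis-free. -/
theorem kr_finrank : kr_FinrankStatement := krfr_main kr_psiDeg kr_primeDeg

/-- (KR-Emb), hypothesis-free. -/
theorem kr_embCharpoly : kr_EmbCharpolyStatement := krem_main

/-- (KR-SInf), hypothesis-free. -/
theorem kr_sInf : kr_SInfStatement := krsj_main kr_finrank kr_modEqInt

/-- (KR2), hypothesis-free. -/
theorem kr_charpoly : kr_CharpolyStatement := krca_main kr_embCharpoly kr_sInf kr_finrank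

end Fermat.Agent.S37
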