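/-
S37, block HI — SUPPLEMENTARY INTERFACE FILE (the norm form of the values lemma).

Statement-`Prop`s only.  See `HIInterfaces.lean` for the conventions.
-/
import Fermat.Agent.S37.HIInterfaces

set_option autoImplicit false

open AlgebraicCurve ModularCurve IntermediateField Polynomial

namespace Fermat.Agent.S37

noncomputable section

/-- The norm of `b : F'` over `F`, where `F'` is regarded as an `F`-algebra along `φ`. -/
def hi_normAlong {K F F' : Type} [Field K] [Field F] [Field F'] [Algebra K F] [Algebra K F']
    (φ : F →ₐ[K] F') (b : F') : F :=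
  letI := algebraAlong φ
  Algebra.norm F b

/-- (HI-NormValue) The norm form of the values lemma: if `b : F'` has the value `d w` at every
place `w` of `F'` above the place `v` of `F`, then the norm of `b` has the value
`∏_{w ∣ v} (d w) ^ e(w ∣ v)` at `v`. -/
def hi_NormValueStatement : Prop :=
  ∀ (K F F' : Type) [Field K] [Field F] [Field F'] [Algebra K F] [Algebra K F'] [IsAlgClosed K]
    [CharZero K] [HasPrincipalDivisors K F'] (t : F),
    Transcendental K t → FiniteDimensional K⟮t⟯ F →
    ∀ (φ : F →ₐ[K] F') (hφ : φ.toRingHom.IsIntegral), FiniteAlong K φ →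
    ∀ (v : Place K F) (b : F') (d : Place K F' → K),
      (∀ w ∈ Place.fiberAlong φ hφ v, hi_IsValue w b (d w)) →
      hi_IsValue v (hi_normAlong φ b)
        (∏ w ∈ Place.fiberAlong φ hφ v, d w ^ (w.ramificationIndexAlong φ))

end

end Fermat.Agent.S37
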