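/-
S37, block VAL (the Hecke correspondence and the reduction map of places: (R3), (R4)) — INTERFACE
FILE.  Definitions and statement-`Prop`s only.  Namespace `Fermat.Agent.S37`, block prefix `val_`.

Notation as in `Interfaces.lean`, `RInterfaces.lean`, `HIInterfaces.lean`, `KRInterfaces.lean`:
`Qb = AlgebraicClosure ℚ`, `A` a valuation subring of `Qb` above `ℓ ∤ N`, `k = kA A`, `π = residue`,
`F = ↥(FL Qb N)`, `F_k = ↥(Fk k N)`, `r : Place Qb F → Place k F_k` a map satisfying `Spec`.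
For a prime `q`: `α = heckeAlphaBar Qb N q` (inclusion `F_N ⊆ F_{Nq}`), `β = heckeBetaBar Qb N q`
(`g(q) ↦ g(q^q)`), `χ_g = hi_charpolyAlong β hfin (α g)`.

The two charts are indexed by `i : Bool`: `true` = chart of `j`, `false` = chart of `1/j`.
-/
import Fermat.Agent.S37.RInterfaces
import Fermat.Agent.S37.KRInterfaces2
import Fermat.Agent.S37.HIInterfaces2

set_option autoImplicit false

open ModularCurve AlgebraicCurve Polynomial

namespace Fermat.Agent.S37

open Fermat.Agent.S18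

noncomputable section

set_option synthInstance.maxHeartbeats 400000

/-! ## Shared definitions -/

/-- The generator of the chart `i` over the field `L`: `j` (`i = true`) or `1/j` (`i = false`). -/
def val_t (i : Bool) (L : Type) [Field L] [Algebra ℚ L] (N : ℕ) [NeZero N] : ↥(FL L N) :=
  if i = true then jF L N else (jF L N)⁻¹

/-- The place `P` of `F` lies in the chart `i`. -/
def val_InChart (i : Bool) (N : ℕ) [NeZero N] (A : ValuationSubring Qb)
    (P : Place Qb ↥(FL Qb N)) : Prop :=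
  (i = true ∧ InChart1 N A P) ∨ (i = false ∧ InChart2 N A P)

/-- The place `y` of `F_k` lies in the chart `i`: `j̄ ∈ O_y` (`i = true`) resp. `1/j̄ ∈ m_y`
(`i = false`). -/
def val_InChartK (i : Bool) (k : Type) [Field k] (N : ℕ) (y : Place k ↥(Fk k N)) : Prop :=
  (i = true ∧ jk k N ∈ y.toValuationSubring) ∨
    (i = false ∧ (jk k N)⁻¹ ∈ y.toValuationSubring.nonunits)

/-- `A[t] ⊆ F`. -/
def val_baseRing (N : ℕ) (A : ValuationSubring Qb) (t : ↥(FL Qb N)) : Subring ↥(FL Qb N) :=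
  Subring.closure (Set.range ((algebraMap Qb ↥(FL Qb N)).comp A.subtype) ∪ {t})

/-- The `A`-level chart: the integral closure of `A[t]` in `F`. -/
def val_chart (N : ℕ) (A : ValuationSubring Qb) (t : ↥(FL Qb N)) : Subring ↥(FL Qb N) :=
  (integralClosure ↥(val_baseRing N A t) ↥(FL Qb N)).toSubring

theorem val_mem_chart_iff (N : ℕ) (A : ValuationSubring Qb) (t x : ↥(FL Qb N)) :
    x ∈ val_chart N A t ↔ IsIntegral ↥(val_baseRing N A t) x := Iff.rfl

/-- `a` lies in the local ring of the `A`-level chart of `t` at the place `P`: `a = b / s` with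
`b, s` in the chart and `s` having a value in `A^×` at `P`. -/
def val_InLoc (N : ℕ) (A : ValuationSubring Qb) (t : ↥(FL Qb N)) (P : Place Qb ↥(FL Qb N))
    (a : ↥(FL Qb N)) : Prop :=
  ∃ b s : ↥(FL Qb N), b ∈ val_chart N A t ∧ s ∈ val_chart N A t ∧ s * a = b ∧
    ∃ c : Qb, c ∈ A ∧ c ∉ A.nonunits ∧ HasValue P s c

/-- GAUSS-LOCAL REDUCTION of `q`-expansions (relational form): `z ∈ k((q))` is the reduction of
`a ∈ Qb((q))` iff `a = u / w` with `u, w ∈ A((q))`, `w̄ ≠ 0` and `z = ū / w̄`.  (For a given `a`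
there is at most one such `z`.) -/
def val_Red (A : ValuationSubring Qb) (a : LaurentSeries Qb) (z : LaurentSeries (kA A)) : Prop :=
  ∃ u w : LaurentSeries ↥A, coeffMap (IsLocalRing.residue ↥A) w ≠ 0 ∧
    a * coeffMap A.subtype w = coeffMap A.subtype u ∧
    z * coeffMap (IsLocalRing.residue ↥A) w = coeffMap (IsLocalRing.residue ↥A) u

/-- The multiset `r_*(T_q P)`: `∑_{Q ∣ P along β} e_β(Q) • [r(α_* Q)]` as an `ℕ`-valued finitely
supported function on the places of `F_k`. -/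
def val_heckeMult (N q : ℕ) [NeZero N] [NeZero q] (A : ValuationSubring Qb)
    (r : Place Qb ↥(FL Qb N) → Place (kA A) ↥(Fk (kA A) N))
    (hα : HeckeAlphaBarIntegral Qb N q) (hβ : HeckeBetaBarIntegral Qb N q)
    [HasPrincipalDivisors Qb ↥(FL Qb (N * q))] (P : Place Qb ↥(FL Qb N)) :
    Place (kA A) ↥(Fk (kA A) N) →₀ ℕ :=
  ∑ Q ∈ Place.fiberAlong (heckeBetaBar Qb N q) hβ P,
    Finsupp.single (r (Q.restrictAlong (heckeAlphaBar Qb N q) hα))
      (Q.ramificationIndexAlong (heckeBetaBar Qb N q))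

/-! ## Inputs from block RA (proved by helper26's team) -/

/-- (RA1) `A`-level SPEC for the local rings of the `A`-level charts: if `r` satisfies `Spec`, `P`
lies in the chart `i` and `a` lies in the local ring at `P`, then `a` has a value `c ∈ A` at `P`,
`a` has a Gauss-local reduction `z ∈ F_k`, and `z` has the value `π(c)` at `r(P)`. -/
def val_SpecAStatement : Prop :=
  ∀ (N ℓ : ℕ) [NeZero N] [Fact ℓ.Prime], ¬ ℓ ∣ N →
    ∀ A : ValuationSubring Qb, A.LiesOverPrime ℓ →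
    ∀ r : Place Qb ↥(FL Qb N) → Place (kA A) ↥(Fk (kA A) N), Spec N ℓ A r →
    ∀ (i : Bool) (P : Place Qb ↥(FL Qb N)), val_InChart i N A P →
    ∀ a : ↥(FL Qb N), val_InLoc N A (val_t i Qb N) P a →
      ∃ (c : ↥A) (z : ↥(Fk (kA A) N)), HasValue P a (c : Qb) ∧
        HasValue (r P) z (IsLocalRing.residue ↥A c) ∧
        val_Red A (a : LaurentSeries Qb) (z : LaurentSeries (kA A))

/-- (RA2) On the Gauss ring `V` of a datum, `ρ` is the Gauss-local reduction. -/
def val_RedRhoStatement : Prop :=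
  ∀ (N ℓ : ℕ) [NeZero N] [Fact ℓ.Prime], ¬ ℓ ∣ N →
    ∀ A : ValuationSubring Qb, A.LiesOverPrime ℓ →
    ∀ (L : Type) [Field L] [Algebra ℚ L] (ι : L →+* Qb) [IsDiscreteValuationRing ↥(dW A ι)]
      (ϖ : ↥(dW A ι)), BaseData N ℓ (dW A ι) (dRes A ι) ϖ →
    ∀ ρ : ↥(gaussV (dW A ι) (dRes A ι) N) →+* LaurentSeries (kA A),
      IsGaussRed (dW A ι) (dRes A ι) N ϖ ρ →
    ∀ (g : ↥(FL L N)) (hV : g ∈ gaussV (dW A ι) (dRes A ι) N),
      val_Red A (coeffMap ι (g : LaurentSeries L)) (ρ ⟨g, hV⟩)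

/-! ## Work packages of block VAL -/

/-- (VAL-Red) Calculus of the Gauss-local reduction: uniqueness, ring operations, constants,
substitutions `q ↦ q^m`. -/
def val_RedCalcStatement : Prop :=
  ∀ A : ValuationSubring Qb,
    (∀ (a : LaurentSeries Qb) (z z' : LaurentSeries (kA A)),
      val_Red A a z → val_Red A a z' → z = z') ∧
    (∀ (a a' : LaurentSeries Qb) (z z' : LaurentSeries (kA A)),
      val_Red A a z → val_Red A a' z' → val_Red A (a + a') (z + z')) ∧
    (∀ (a a' : LaurentSeries Qb) (z z' : LaurentSeries (kA A)),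
      val_Red A a z → val_Red A a' z' → val_Red A (a * a') (z * z')) ∧
    (∀ (a : LaurentSeries Qb) (z : LaurentSeries (kA A)), val_Red A a z → val_Red A (-a) (-z)) ∧
    (∀ y : LaurentSeries ↥A,
      val_Red A (coeffMap A.subtype y) (coeffMap (IsLocalRing.residue ↥A) y)) ∧
    (∀ (m : ℕ) [NeZero m] (a : LaurentSeries Qb) (z : LaurentSeries (kA A)),
      val_Red A a z → val_Red A (qExpand Qb m a) (qExpand (kA A) m z))

/-- (VAL-ChartPres, (V1)) For `Q` a place of `F_{Nq}`: the place `β_* Q` lies in the chart `i` iff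
`α_* Q` does. -/
def val_ChartPresStatement : Prop :=
  ∀ (N q : ℕ) [NeZero N] [NeZero q], q.Prime → ∀ (A : ValuationSubring Qb)
    (hα : HeckeAlphaBarIntegral Qb N q) (hβ : HeckeBetaBarIntegral Qb N q)
    (Q : Place Qb ↥(FL Qb (N * q))) (i : Bool),
    val_InChart i N A (Q.restrictAlong (heckeBetaBar Qb N q) hβ) ↔
      val_InChart i N A (Q.restrictAlong (heckeAlphaBar Qb N q) hα)

/-- (VAL-CharpolyInt) General: if `x : F'` is integral over `φ(R)`, `R` a subring of `F`, then the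
coefficients of the characteristic polynomial of `x` along `φ` are integral over `R`. -/
def val_CharpolyIntegralStatement : Prop :=
  ∀ (K F F' : Type) [Field K] [Field F] [Field F'] [Algebra K F] [Algebra K F'] [CharZero K]
    (φ : F →ₐ[K] F') (hfin : FiniteAlong K φ) (R : Subring F) (x : F'),
    IsIntegral ↥(R.map (φ : F →+* F')) x →
    ∀ n : ℕ, IsIntegral ↥R ((hi_charpolyAlong φ hfin x).coeff n)

/-- (VAL-Integrality, (V2)) For `g` in the `A`-level chart `i` and `P` a place in the chart `i`,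
the coefficients of `χ_g` lie in the local ring of the chart at `P`. -/
def val_IntegralityStatement : Prop :=
  ∀ (N q : ℕ) [NeZero N] [NeZero q], q.Prime → ∀ (A : ValuationSubring Qb)
    (hfin : FiniteAlong Qb (heckeBetaBar Qb N q)) (i : Bool) (P : Place Qb ↥(FL Qb N)),
    val_InChart i N A P → ∀ g : ↥(FL Qb N), g ∈ val_chart N A (val_t i Qb N) → ∀ n : ℕ,
      val_InLoc N A (val_t i Qb N) P
        ((hi_charpolyAlong (heckeBetaBar Qb N q) hfin (heckeAlphaBar Qb N q g)).coeff n)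

/-- (VAL-ChartA) The chart of a datum maps into the `A`-level chart. -/
def val_ChartAStatement : Prop :=
  ∀ (N : ℕ) [NeZero N] (A : ValuationSubring Qb) (i : Bool) (L : Type) [Field L] [Algebra ℚ L]
    (ι : L →+* Qb) (g : ↥(FL L N)),
    g ∈ chart (dW A ι) N {val_t i L N} → dEmb N ι g ∈ val_chart N A (val_t i Qb N)

/-- (VAL-ValuesMod) The values lemma for `β : F_N → F_{Nq}` in `HasValue` form. -/
def val_ValuesModStatement : Prop :=
  ∀ (N q : ℕ) [NeZero N] [NeZero q]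
    (hβ : HeckeBetaBarIntegral Qb N q) (hfin : FiniteAlong Qb (heckeBetaBar Qb N q))
    [HasPrincipalDivisors Qb ↥(FL Qb (N * q))]
    (P : Place Qb ↥(FL Qb N)) (h : ↥(FL Qb (N * q))) (c : Place Qb ↥(FL Qb (N * q)) → Qb),
    (∀ Q ∈ Place.fiberAlong (heckeBetaBar Qb N q) hβ P, HasValue Q h (c Q)) →
    ∀ n : ℕ, HasValue P ((hi_charpolyAlong (heckeBetaBar Qb N q) hfin h).coeff n)
      ((∏ Q ∈ Place.fiberAlong (heckeBetaBar Qb N q) hβ P,
        (X - C (c Q)) ^ (Q.ramificationIndexAlong (heckeBetaBar Qb N q))).coeff n)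

/-- (VAL-Key, (V3)) For `g` in the chart `i` of a datum, `P` in the chart `i` and `v y` the value
of `ρ(g)` at the places `y` in the support of `r_*(T_q P)`: the `n`-th coefficient of `χ_g` has a
value `c ∈ A` at `P`, and `π(c)` is the `n`-th coefficient of `∏_y (X - v y)^{mult y}`. -/
def val_KeyStatement : Prop :=
  ∀ (N ℓ : ℕ) [NeZero N] [Fact ℓ.Prime], ¬ ℓ ∣ N →
    ∀ A : ValuationSubring Qb, A.LiesOverPrime ℓ →
    ∀ r : Place Qb ↥(FL Qb N) → Place (kA A) ↥(Fk (kA A) N), Spec N ℓ A r →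
    ∀ (q : ℕ) [NeZero q], q.Prime →
    ∀ (hα : HeckeAlphaBarIntegral Qb N q) (hβ : HeckeBetaBarIntegral Qb N q)
      [HasPrincipalDivisors Qb ↥(FL Qb (N * q))]
      (hfin : FiniteAlong Qb (heckeBetaBar Qb N q))
      (i : Bool) (P : Place Qb ↥(FL Qb N)), val_InChart i N A P →
    ∀ (L : Type) [Field L] [Algebra ℚ L] (ι : L →+* Qb) [IsDiscreteValuationRing ↥(dW A ι)]
      (ϖ : ↥(dW A ι)), BaseData N ℓ (dW A ι) (dRes A ι) ϖ →
    ∀ ρ : ↥(gaussV (dW A ι) (dRes A ι) N) →+* LaurentSeries (kA A),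
      IsGaussRed (dW A ι) (dRes A ι) N ϖ ρ →
    ∀ (g : ↥(FL L N)), g ∈ chart (dW A ι) N {val_t i L N} →
    ∀ (hV : g ∈ gaussV (dW A ι) (dRes A ι) N) (hk : ρ ⟨g, hV⟩ ∈ Fk (kA A) N)
      (v : Place (kA A) ↥(Fk (kA A) N) → kA A),
      (∀ y ∈ (val_heckeMult N q A r hα hβ P).support,
        HasValue y (⟨ρ ⟨g, hV⟩, hk⟩ : ↥(Fk (kA A) N)) (v y)) →
      ∀ n : ℕ, ∃ c : ↥A,
        HasValue P ((hi_charpolyAlong (heckeBetaBar Qb N q) hfin
          (heckeAlphaBar Qb N q (dEmb N ι g))).coeff n) (c : Qb) ∧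
        IsLocalRing.residue ↥A c =
          (∏ y ∈ (val_heckeMult N q A r hα hβ P).support,
            (X - C (v y)) ^ (val_heckeMult N q A r hα hβ P y)).coeff n

/-- (VAL-Multiset, (V4)) Two finite multisets `M`, `M'` of places of `F_k` in the chart `i` with
`∏_y (X - ḡ(y))^{M y} = ∏_y (X - ḡ(y))^{M' y}` for every `g` in the chart `i` of one datum are
equal. -/
def val_MultisetStatement : Prop :=
  ∀ (N ℓ : ℕ) [NeZero N] [Fact ℓ.Prime], ¬ ℓ ∣ N →
    ∀ A : ValuationSubring Qb, A.LiesOverPrime ℓ →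
    ∀ (L : Type) [Field L] [Algebra ℚ L] (ι : L →+* Qb) [IsDiscreteValuationRing ↥(dW A ι)]
      (ϖ : ↥(dW A ι)), BaseData N ℓ (dW A ι) (dRes A ι) ϖ → HorizAt L N →
    ∀ ρ : ↥(gaussV (dW A ι) (dRes A ι) N) →+* LaurentSeries (kA A),
      IsGaussRed (dW A ι) (dRes A ι) N ϖ ρ →
    ∀ (i : Bool) (M M' : Place (kA A) ↥(Fk (kA A) N) →₀ ℕ),
      (∀ y, (y ∈ M.support ∨ y ∈ M'.support) → val_InChartK i (kA A) N y) →
      (∀ (g : ↥(FL L N)), g ∈ chart (dW A ι) N {val_t i L N} →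
        ∀ (hV : g ∈ gaussV (dW A ι) (dRes A ι) N) (hk : ρ ⟨g, hV⟩ ∈ Fk (kA A) N)
          (v : Place (kA A) ↥(Fk (kA A) N) → kA A),
          (∀ y, (y ∈ M.support ∨ y ∈ M'.support) →
            HasValue y (⟨ρ ⟨g, hV⟩, hk⟩ : ↥(Fk (kA A) N)) (v y)) →
          ∏ y ∈ M.support, (X - C (v y)) ^ M y = ∏ y ∈ M'.support, (X - C (v y)) ^ M' y) →
      M = M'

/-- (VAL-Twist) Values and charts under the coefficientwise automorphism `τ` of `F_k`. -/
def val_TwistStatement : Prop :=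
  ∀ (k : Type) [Field k] (N : ℕ) [NeZero N] (τ : k ≃+* k) (y : Place k ↥(Fk k N)),
    (∀ (h : ↥(Fk k N)) (c : k), HasValue y h c →
      HasValue (coeffAut k N τ • y) (coeffRingAut k N τ h) (τ c)) ∧
    (∀ i : Bool, val_InChartK i k N y → val_InChartK i k N (coeffAut k N τ • y)) ∧
    (coeffAut k N τ)⁻¹ = coeffAut k N τ.symm

/-- (VAL-Kernel) Pure algebra: an additive endomorphism `T` of divisors such that `r_*(T [P])`
only depends on `r P` preserves the kernel of `r_*`. -/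
def val_KernelStatement : Prop :=
  ∀ (X Y : Type) (r : X → Y) (T : (X →₀ ℤ) →+ (X →₀ ℤ)),
    (∀ P P' : X, r P = r P' →
      Finsupp.mapDomain r (T (Finsupp.single P 1)) = Finsupp.mapDomain r (T (Finsupp.single P' 1))) →
    ∀ D : X →₀ ℤ, Finsupp.mapDomain r D = 0 → Finsupp.mapDomain r (T D) = 0

/-- (VAL-KR3, Kronecker congruence in Gauss-local form) For a prime `ℓ ∤ N`, `τ` the Frobenius of
`k`, `g ∈ F_N` with Gauss-local reduction `ḡ`: for every `n`, the series `c_n(q^ℓ)`, `c_n` the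
`n`-th coefficient of `χ_g`, has the Gauss-local reduction `R_n(q^ℓ)`, where
`R = (X - (τ⁻¹ ḡ)^ℓ) (X^ℓ - τ ḡ)` (`τ` acting on coefficients). -/
def val_KR3Statement : Prop :=
  ∀ (N ℓ : ℕ) [NeZero N] [NeZero ℓ], ℓ.Prime → ¬ ℓ ∣ N →
    ∀ (hfin : FiniteAlong Qb (heckeBetaBar Qb N ℓ))
      (A : ValuationSubring Qb), A.LiesOverPrime ℓ →
    ∀ τ : kA A ≃+* kA A, (∀ x, τ x = x ^ ℓ) →
    ∀ (g : ↥(FL Qb N)) (gbar : LaurentSeries (kA A)),
      val_Red A (g : LaurentSeries Qb) gbar →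
      ∀ n : ℕ, val_Red A
        (qExpand Qb ℓ (((hi_charpolyAlong (heckeBetaBar Qb N ℓ) hfin
          (heckeAlphaBar Qb N ℓ g)).coeff n : ↥(FL Qb N)) : LaurentSeries Qb))
        (qExpand (kA A) ℓ
          (((X - C ((coeffMap (τ.symm : kA A →+* kA A) gbar) ^ ℓ)) *
            (X ^ ℓ - C (coeffMap (τ : kA A →+* kA A) gbar))).coeff n))

/-! ## The outputs -/

/-- (VAL-R3-core) For `r` with SPEC and a prime `q` with Hecke inputs: `r_*(T_q P)` only depends
on `r P`. -/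
def val_R3CoreStatement : Prop :=
  ∀ (N ℓ : ℕ) [NeZero N] [Fact ℓ.Prime], ¬ ℓ ∣ N →
    ∀ A : ValuationSubring Qb, A.LiesOverPrime ℓ →
    ∀ r : Place Qb ↥(FL Qb N) → Place (kA A) ↥(Fk (kA A) N), Spec N ℓ A r →
    ∀ (q : ℕ) [NeZero q], q.Prime →
    ∀ (hα : HeckeAlphaBarIntegral Qb N q) (hβ : HeckeBetaBarIntegral Qb N q)
      [HasPrincipalDivisors Qb ↥(FL Qb (N * q))] (P P' : Place Qb ↥(FL Qb N)),
      r P = r P' → val_heckeMult N q A r hα hβ P = val_heckeMult N q A r hα hβ P'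

/-- (VAL-R4-core) For `r` with SPEC: `r_*(T_ℓ P) = [Φ(r P)] + ℓ [Φ⁻¹(r P)]`. -/
def val_R4CoreStatement : Prop :=
  ∀ (N ℓ : ℕ) [NeZero N] [NeZero ℓ] [Fact ℓ.Prime], ¬ ℓ ∣ N →
    ∀ A : ValuationSubring Qb, A.LiesOverPrime ℓ →
    ∀ r : Place Qb ↥(FL Qb N) → Place (kA A) ↥(Fk (kA A) N), Spec N ℓ A r →
    ∀ (hα : HeckeAlphaBarIntegral Qb N ℓ) (hβ : HeckeBetaBarIntegral Qb N ℓ)
      [HasPrincipalDivisors Qb ↥(FL Qb (N * ℓ))] (τ : kA A ≃+* kA A), (∀ x : kA A, τ x = x ^ ℓ) →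
    ∀ P : Place Qb ↥(FL Qb N),
      val_heckeMult N ℓ A r hα hβ P =
        Finsupp.single (coeffAut (kA A) N τ • r P) 1 +
          Finsupp.single ((coeffAut (kA A) N τ)⁻¹ • r P) ℓ

end

end Fermat.Agent.S37
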