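/-
S37, block RA (`A`-level SPEC for block VAL) — INTERFACE FILE.  The statements (RA1)
`val_SpecAStatement` and (RA2) `val_RedRhoStatement` are in `VALInterfaces.lean`; here: the bridge
from the `A`-level charts to the charts of data.  Namespace `Fermat.Agent.S37`.
-/
import Fermat.Agent.S37.VALInterfaces

set_option autoImplicit false

open ModularCurve AlgebraicCurve

namespace Fermat.Agent.S37

open Fermat.Agent.S18

noncomputable section

/-- (Bridge) Every element `b` of the `A`-level chart `val_chart N A t` (`t = j` or `1/j`) descends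
to the chart of every datum `(L, ι)` whose field contains a suitable finite set `T` (depending on
`b`): `b = dEmb N ι g` with `g ∈ chart (dW A ι) N {t_L}`. -/
def BridgeStatement : Prop :=
  ∀ (N : ℕ) [NeZero N] (A : ValuationSubring Qb) (i : Bool) (b : ↥(FL Qb N)),
    b ∈ val_chart N A (val_t i Qb N) →
    ∃ T : Finset Qb, ∀ (L : Type) [Field L] [Algebra ℚ L] (ι : L →+* Qb),
      (∀ s ∈ T, ∃ c : L, ι c = s) →
      ∃ g : ↥(FL L N), g ∈ chart (dW A ι) N {val_t i L N} ∧ dEmb N ι g = b

end

end Fermat.Agent.S37
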