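/-
S37, block RA, package RA1 (twin A) — the `A`-level SPEC (`val_SpecAStatement`).
Namespace `Fermat.Agent.S37`, prefix `ra1_`.

Main result: `ra1_main`.
-/
import Fermat.Agent.S37.RAInterfaces
import Fermat.Agent.S37.HV

set_option autoImplicit false
set_option synthInstance.maxHeartbeats 400000

open ModularCurve AlgebraicCurve

namespace Fermat.Agent.S37

open Fermat.Agent.S18

noncomputable section

theorem ra1_residue_eq_zero_iff (A : ValuationSubring Qb) (c : ↥A) :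
    IsLocalRing.residue ↥A c = 0 ↔ (c : Qb) ∈ A.nonunits := by
  rw [IsLocalRing.residue_eq_zero_iff, ValuationSubring.mem_nonunits_iff_exists_mem_maximalIdeal]
  exact ⟨fun h => ⟨c.2, h⟩, fun ⟨_, h⟩ => h⟩

/-- Gauss-local reduction of a quotient. -/
theorem ra1_red_div (A : ValuationSubring Qb) {a b s : LaurentSeries Qb}
    {zb zs : LaurentSeries (kA A)} (hsa : s * a = b) (hb : val_Red A b zb)
    (hs : val_Red A s zs) (hzs : zs ≠ 0) : val_Red A a (zb * zs⁻¹) := by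
  subst hsa
  obtain ⟨ub, wb, hwb, hb1, hb2⟩ := hb
  obtain ⟨us, ws, hws, hs1, hs2⟩ := hs
  refine ⟨ub * ws, wb * us, ?_, ?_, ?_⟩
  · rw [map_mul, ← hs2]
    exact mul_ne_zero hwb (mul_ne_zero hzs hws)
  · rw [map_mul, map_mul, ← hs1, ← hb1]
    ring
  · rw [map_mul, map_mul, ← hs2, ← hb2]
    have h1 : zb * zs⁻¹ * (coeffMap (IsLocalRing.residue ↥A) wb
          * (zs * coeffMap (IsLocalRing.residue ↥A) ws))
        = zb * coeffMap (IsLocalRing.residue ↥A) wb * coeffMap (IsLocalRing.residue ↥A) ws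
          * (zs⁻¹ * zs) := by ring
    rw [h1, inv_mul_cancel₀ hzs, mul_one]

/-- `ρ` takes values in `F_k`. -/
theorem ra1_rho_mem {L : Type} [Field L] [Algebra ℚ L] (W : ValuationSubring L) {k : Type}
    [Field k] (res : ↥W →+* k) (N : ℕ) [NeZero N] {ϖ : ↥W}
    {ρ : ↥(gaussV W res N) →+* LaurentSeries k}
    (hρ : IsGaussRed W res N ϖ ρ) (x : ↥(gaussV W res N)) : ρ x ∈ Fk k N :=
  (hρ.range (ρ x)).2 ⟨x, rfl⟩

/-- The chart of `P` for a datum with field `L`. -/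
theorem ra1_isChartOf (N : ℕ) [NeZero N] (A : ValuationSubring Qb) (L : Type) [Field L]
    [Algebra ℚ L] (i : Bool) (P : Place Qb ↥(FL Qb N)) (hP : val_InChart i N A P) :
    IsChartOf N A ({val_t i L N} : Set ↥(FL L N)) P := by
  rcases hP with ⟨rfl, h1⟩ | ⟨rfl, h2⟩
  · exact Or.inl ⟨by simp [val_t], h1⟩
  · exact Or.inr ⟨by simp [val_t], h2⟩

theorem ra1_chart_cases (N : ℕ) [NeZero N] (L : Type) [Field L] [Algebra ℚ L] (i : Bool) :
    ({val_t i L N} : Set ↥(FL L N)) = {jF L N} ∨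
      ({val_t i L N} : Set ↥(FL L N)) = {(jF L N)⁻¹} ∨
      ({val_t i L N} : Set ↥(FL L N)) = {jF L N, (jF L N)⁻¹} := by
  cases i
  · exact Or.inr (Or.inl (by simp [val_t]))
  · exact Or.inl (by simp [val_t])

/-- The core of (RA1) at one datum. -/
theorem ra1_core (N : ℕ) [NeZero N] (A : ValuationSubring Qb) {L : Type} [Field L] [Algebra ℚ L]
    (ι : L →+* Qb) {ϖ : ↥(dW A ι)}
    {ρ : ↥(gaussV (dW A ι) (dRes A ι) N) →+* LaurentSeries (kA A)}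
    (hρ : IsGaussRed (dW A ι) (dRes A ι) N ϖ ρ)
    (P : Place Qb ↥(FL Qb N)) (S : Set ↥(FL L N))
    (hcg : chart (dW A ι) N S ≤ gaussV (dW A ι) (dRes A ι) N)
    (x : Place (kA A) ↥(Fk (kA A) N)) (hx : SpecAt N A ι ρ S P x)
    (hred : ∀ (g : ↥(FL L N)) (hV : g ∈ gaussV (dW A ι) (dRes A ι) N),
      val_Red A (coeffMap ι (g : LaurentSeries L)) (ρ ⟨g, hV⟩))
    (a : ↥(FL Qb N)) (gb gs : ↥(FL L N)) (hgb : gb ∈ chart (dW A ι) N S)
    (hgs : gs ∈ chart (dW A ι) N S) (hsa : dEmb N ι gs * a = dEmb N ι gb)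
    (cs : Qb) (hcsnu : cs ∉ A.nonunits) (hcs : HasValue P (dEmb N ι gs) cs) :
    ∃ (c : ↥A) (z : ↥(Fk (kA A) N)), HasValue P a (c : Qb) ∧
      HasValue x z (IsLocalRing.residue ↥A c) ∧
      val_Red A (a : LaurentSeries Qb) (z : LaurentSeries (kA A)) := by
  have hVb := hcg hgb
  have hVs := hcg hgs
  have hkb := ra1_rho_mem _ _ N hρ ⟨gb, hVb⟩
  have hks := ra1_rho_mem _ _ N hρ ⟨gs, hVs⟩
  obtain ⟨cb, hcb, hcb'⟩ := hx gb hgb hVb hkb
  obtain ⟨cs', hcs1, hcs'⟩ := hx gs hgs hVs hks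
  have hcc : (cs' : Qb) = cs := hv_unique hcs1 hcs
  have hπ : IsLocalRing.residue ↥A cs' ≠ 0 := by
    intro h0
    rw [ra1_residue_eq_zero_iff, hcc] at h0
    exact hcsnu h0
  obtain ⟨d, hd⟩ := isUnit_iff_exists_inv.1 ((IsLocalRing.residue_ne_zero_iff_isUnit cs').1 hπ)
  have hdQ : (cs' : Qb) * (d : Qb) = 1 := congrArg Subtype.val hd
  have hcs0 : (cs' : Qb) ≠ 0 := left_ne_zero_of_mul_eq_one hdQ
  have hdinv : (d : Qb) = (cs' : Qb)⁻¹ := eq_inv_of_mul_eq_one_right hdQ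
  have hπd : IsLocalRing.residue ↥A d = (IsLocalRing.residue ↥A cs')⁻¹ := by
    apply eq_inv_of_mul_eq_one_right
    rw [← map_mul, hd, map_one]
  have hs0 : dEmb N ι gs ≠ 0 := by
    intro h0
    rw [h0] at hcs1
    exact hcs0 (hv_unique hcs1 (hv_zero P))
  have ha : a = dEmb N ι gb * (dEmb N ι gs)⁻¹ := by
    rw [eq_mul_inv_iff_mul_eq₀ hs0, mul_comm]
    exact hsa
  have hzs0 : (⟨ρ ⟨gs, hVs⟩, hks⟩ : ↥(Fk (kA A) N)) ≠ 0 := by
    intro h0
    rw [h0] at hcs'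
    exact hπ (hv_unique hcs' (hv_zero x))
  have hzs0' : ρ ⟨gs, hVs⟩ ≠ 0 := fun h0 => hzs0 (Subtype.ext h0)
  refine ⟨cb * d, ⟨ρ ⟨gb, hVb⟩, hkb⟩ * (⟨ρ ⟨gs, hVs⟩, hks⟩ : ↥(Fk (kA A) N))⁻¹, ?_, ?_, ?_⟩
  · have h1 : ((cb * d : ↥A) : Qb) = (cb : Qb) * (cs' : Qb)⁻¹ := by
      rw [← hdinv]
      rfl
    rw [h1, ha]
    exact hv_mul hcb (hv_inv hcs1 hcs0)
  · rw [map_mul, hπd]
    exact hv_mul hcb' (hv_inv hcs' hπ)
  · exact ra1_red_div A (congrArg Subtype.val hsa) (hred gb hVb) (hred gs hVs) hzs0'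

/-- (RA1) The `A`-level SPEC for the local rings of the `A`-level charts. -/
theorem ra1_main : BridgeStatement → DatumExistsStatement → val_RedRhoStatement →
    ChartGaussStatement → val_SpecAStatement := by
  classical
  intro hB hDE hRR hCG N ℓ _ _ hN A hA r hr i P hP a ha
  obtain ⟨b, s, hb, hs, hsa, cs, -, hcsnu, hcs⟩ := ha
  obtain ⟨Tb, hTb⟩ := hB N A i b hb
  obtain ⟨Ts, hTs⟩ := hB N A i s hs
  obtain ⟨hac, hcp, hdat⟩ := hDE N ℓ hN A hA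
  obtain ⟨L, _, _, ι, _, ϖ, hD, -, hT, ρ, hρ⟩ := hdat (Tb ∪ Ts)
  obtain ⟨gb, hgb, hgb'⟩ := hTb L ι (fun t ht => hT t (Finset.mem_union_left _ ht))
  obtain ⟨gs, hgs, hgs'⟩ := hTs L ι (fun t ht => hT t (Finset.mem_union_right _ ht))
  have hcg := (hCG N ℓ L (dW A ι) (kA A) (dRes A ι) ϖ hD {val_t i L N}
    (ra1_chart_cases N L i)).1
  have hx : SpecAt N A ι ρ {val_t i L N} P (r P) :=
    (spec_iff N ℓ A r).1 hr L ι ϖ hD ρ hρ P {val_t i L N} (ra1_isChartOf N A L i P hP)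
  subst hgb' hgs'
  exact ra1_core N A ι hρ P {val_t i L N} hcg (r P) hx
    (fun g hV => hRR N ℓ hN A hA L ι ϖ hD ρ hρ g hV) a gb gs hgb hgs hsa cs hcsnu hcs

end

end Fermat.Agent.S37
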