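/-
S37, block RA, package RA2 (twin B) — RedRho: on the Gauss ring `V` of a datum, the reduction map
`ρ` is the Gauss-local reduction of `q`-expansions (`val_Red`).
Namespace `Fermat.Agent.S37`, prefix `ra2b_`.

For `g ∈ V = M'` there are `s ∈ W[T]` with `s̄ ≠ 0` and `y ∈ W((q))` with `s(j) * g = y`.  With
`w₀ = s(j_W) ∈ W((q))`, the witnesses of `val_Red A (coeffMap ι g) (ρ g)` are the images of `y` and
`w₀` in `A((q))`.
-/
import Fermat.Agent.S37.RAInterfaces
import Fermat.Agent.S37.HV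
import Fermat.Agent.S18.GAInterfaces
import Fermat.Agent.S37.RTB

set_option autoImplicit false
set_option synthInstance.maxHeartbeats 400000

open ModularCurve AlgebraicCurve

namespace Fermat.Agent.S37

open Fermat.Agent.S18 Fermat.Agent.S28

noncomputable section

section

variable (N : ℕ) [NeZero N] (A : ValuationSubring Qb) {L : Type} [Field L] [Algebra ℚ L]
  (ι : L →+* Qb)

omit [Algebra ℚ L] in
/-- `A.subtype ∘ dIncl = ι ∘ W.subtype`. -/
theorem ra2b_subtype_comp_dIncl :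
    A.subtype.comp (dIncl A ι) = ι.comp (dW A ι).subtype :=
  RingHom.ext fun _ => rfl

omit [Algebra ℚ L] in
/-- `π ∘ dIncl = res`. -/
theorem ra2b_residue_comp_dIncl :
    (IsLocalRing.residue ↥A).comp (dIncl A ι) = dRes A ι := rfl

omit [Algebra ℚ L] in
/-- The image in `Qb((q))` of a `W`-series, through `A((q))`. -/
theorem ra2b_coeffMap_subtype_dIncl (y : LaurentSeries ↥(dW A ι)) :
    coeffMap A.subtype (coeffMap (dIncl A ι) y) = coeffMap ι (coeffMap (dW A ι).subtype y) := by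
  rw [coeffMap_coeffMap, coeffMap_coeffMap, ra2b_subtype_comp_dIncl]

omit [Algebra ℚ L] in
/-- The reduction in `k((q))` of a `W`-series, through `A((q))`. -/
theorem ra2b_coeffMap_residue_dIncl (y : LaurentSeries ↥(dW A ι)) :
    coeffMap (IsLocalRing.residue ↥A) (coeffMap (dIncl A ι) y) = coeffMap (dRes A ι) y := by
  rw [coeffMap_coeffMap, ra2b_residue_comp_dIncl]

/-- An element of `V ∩ M'` has the Gauss-local reduction `ρ`. -/
theorem ra2b_red_of_mem_M {ϖ : ↥(dW A ι)}
    {ρ : ↥(gaussV (dW A ι) (dRes A ι) N) →+* LaurentSeries (kA A)}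
    (hρ : IsGaussRed (dW A ι) (dRes A ι) N ϖ ρ) (g : ↥(FL L N))
    (hV : g ∈ gaussV (dW A ι) (dRes A ι) N) (hM : g ∈ ga_M (dW A ι) (dRes A ι) N) :
    val_Red A (coeffMap ι (g : LaurentSeries L)) (ρ ⟨g, hV⟩) := by
  obtain ⟨s, hs, y, hy⟩ := hM
  have hw : coeffMap (IsLocalRing.residue ↥A)
      (coeffMap (dIncl A ι) (evalL (jqModC ↥(dW A ι)) s)) =
        evalL (jqModC (kA A)) (s.map (dRes A ι)) := by
    rw [ra2b_coeffMap_residue_dIncl, degMain_coeffMap_evalL, coeffMap_jqModC]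
  refine ⟨coeffMap (dIncl A ι) y, coeffMap (dIncl A ι) (evalL (jqModC ↥(dW A ι)) s), ?_, ?_, ?_⟩
  · rw [hw]
    exact fun h0 => hs (degMain_evalL_eq_zero _ h0)
  · rw [ra2b_coeffMap_subtype_dIncl, ra2b_coeffMap_subtype_dIncl, hy,
      ← ga_coe_evW_j (dW A ι) N s, ← map_mul]
    congr 1
    exact mul_comm _ _
  · rw [hw, ra2b_coeffMap_residue_dIncl]
    exact rtb_red_mul (dW A ι) N (dRes A ι) hρ g hV s y hy

end

/-- (RA2) On the Gauss ring `V` of a datum, `ρ` is the Gauss-local reduction (only `M' = V` and the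
instances from `DatumExistsStatement` are needed). -/
theorem ra2b_main' : ga_MeqVStatement → DatumExistsStatement → val_RedRhoStatement := by
  intro hMV hDE N ℓ _ _ hℓN A hA L _ _ ι _ ϖ hD ρ hρ g hV
  obtain ⟨hAC, hCP, -⟩ := hDE N ℓ hℓN A hA
  have hM : g ∈ ga_M (dW A ι) (dRes A ι) N := by
    rw [hMV N ℓ L (dW A ι) (kA A) (dRes A ι) ϖ hD]
    exact hV
  exact ra2b_red_of_mem_M N A ι hρ g hV hM

/-- (RA2) On the Gauss ring `V` of a datum, `ρ` is the Gauss-local reduction. -/
theorem ra2b_main : ga_MeqVStatement → GaussStatement → DatumExistsStatement →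
    val_RedRhoStatement :=
  fun hMV _ hDE => ra2b_main' hMV hDE

end

end Fermat.Agent.S37
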