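/-
S37, block RA, package RAB (Bridge): `rab_main : BridgeStatement`.

Every element `b` of the `A`-level chart `val_chart N A t` (`t = j` or `1/j`) descends to the chart
of every datum `(L, ι)` whose field contains a suitable finite set: the coefficients of an
integral equation of `b` over `A[t]` involve finitely many elements of `A`, and `b` itself descends
by `e_descentT_main`.
-/
import Fermat.Agent.S37.RAInterfaces
import Fermat.Agent.S18.EDescentT

set_option autoImplicit false

open ModularCurve AlgebraicCurve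

namespace Fermat.Agent.S37

open Fermat.Agent.S18

set_option synthInstance.maxHeartbeats 400000

/-- Integrality over a subring in terms of an explicit monic equation. -/
theorem rab_isIntegral_iff {F : Type} [CommRing F] (R : Subring F) (x : F) :
    IsIntegral ↥R x ↔ ∃ (n : ℕ) (a : ℕ → F), (∀ k, a k ∈ R) ∧
      x ^ n + ∑ k ∈ Finset.range n, a k * x ^ k = 0 := by
  constructor
  · rintro ⟨p, hp, hpx⟩
    refine ⟨p.natDegree, fun k => ((p.coeff k : ↥R) : F), fun k => (p.coeff k).2, ?_⟩
    rw [Polynomial.eval₂_eq_sum_range, Finset.sum_range_succ, hp.coeff_natDegree, map_one,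
      one_mul] at hpx
    rw [add_comm]
    exact hpx
  · rintro ⟨n, a, ha, hx⟩
    refine ⟨Polynomial.X ^ n + ∑ k : Fin n, Polynomial.C (⟨a k, ha k⟩ : ↥R) *
      Polynomial.X ^ (k : ℕ), Polynomial.monic_X_pow_add (Polynomial.degree_sum_fin_lt _), ?_⟩
    rw [Polynomial.eval₂_add, Polynomial.eval₂_finsetSum, Polynomial.eval₂_X_pow]
    simp only [Polynomial.eval₂_mul, Polynomial.eval₂_C, Polynomial.eval₂_X_pow]
    rw [← hx, Finset.sum_range]
    rfl

/-- The coefficientwise embedding maps the chart generator over `L` to the one over `Qb`. -/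
theorem rab_dEmb_val_t (N : ℕ) [NeZero N] (i : Bool) {L : Type} [Field L] [Algebra ℚ L]
    (ι : L →+* Qb) : dEmb N ι (val_t i L N) = val_t i Qb N := by
  unfold val_t
  split_ifs
  · exact dEmb_jF N ι
  · rw [map_inv₀, dEmb_jF]

/-- Finite support of the elements of `A[t]`: every `x ∈ A[t]` descends to `W[t_L]` for every
datum `(L, ι)` whose field contains a suitable finite set. -/
theorem rab_supp (N : ℕ) [NeZero N] (A : ValuationSubring Qb) (i : Bool) (x : ↥(FL Qb N))
    (hx : x ∈ val_baseRing N A (val_t i Qb N)) :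
    ∃ T : Finset Qb, ∀ (L : Type) [Field L] [Algebra ℚ L] (ι : L →+* Qb),
      (∀ s ∈ T, ∃ c : L, ι c = s) →
      ∃ x' : ↥(FL L N), x' ∈ baseRing (dW A ι) N {val_t i L N} ∧ dEmb N ι x' = x := by
  classical
  unfold val_baseRing at hx
  induction hx using Subring.closure_induction with
  | mem y hy =>
      rcases hy with ⟨a, rfl⟩ | hy
      · refine ⟨{(a : Qb)}, fun L _ _ ι hT => ?_⟩
        obtain ⟨c, hc⟩ := hT (a : Qb) (Finset.mem_singleton_self _)
        have hcW : c ∈ dW A ι := by
          show ι c ∈ A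
          rw [hc]
          exact a.2
        refine ⟨cW (dW A ι) N ⟨c, hcW⟩, Subring.subset_closure (Or.inl ⟨_, rfl⟩), ?_⟩
        show dEmb N ι (algebraMap L ↥(FL L N) c) = _
        rw [dEmb_algebraMap, hc]
        rfl
      · rw [Set.mem_singleton_iff] at hy
        subst hy
        exact ⟨∅, fun L _ _ ι _ =>
          ⟨val_t i L N, Subring.subset_closure (Or.inr rfl), rab_dEmb_val_t N i ι⟩⟩
  | zero => exact ⟨∅, fun L _ _ ι _ => ⟨0, zero_mem _, map_zero _⟩⟩
  | one => exact ⟨∅, fun L _ _ ι _ => ⟨1, one_mem _, map_one _⟩⟩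
  | add x y _ _ hx hy =>
      obtain ⟨Tx, hTx⟩ := hx
      obtain ⟨Ty, hTy⟩ := hy
      refine ⟨Tx ∪ Ty, fun L _ _ ι hT => ?_⟩
      obtain ⟨x', hx', hxe⟩ := hTx L ι (fun s hs => hT s (Finset.mem_union_left _ hs))
      obtain ⟨y', hy', hye⟩ := hTy L ι (fun s hs => hT s (Finset.mem_union_right _ hs))
      exact ⟨x' + y', add_mem hx' hy', by rw [map_add, hxe, hye]⟩
  | neg x _ hx =>
      obtain ⟨Tx, hTx⟩ := hx
      refine ⟨Tx, fun L _ _ ι hT => ?_⟩
      obtain ⟨x', hx', hxe⟩ := hTx L ι hT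
      exact ⟨-x', neg_mem hx', by rw [map_neg, hxe]⟩
  | mul x y _ _ hx hy =>
      obtain ⟨Tx, hTx⟩ := hx
      obtain ⟨Ty, hTy⟩ := hy
      refine ⟨Tx ∪ Ty, fun L _ _ ι hT => ?_⟩
      obtain ⟨x', hx', hxe⟩ := hTx L ι (fun s hs => hT s (Finset.mem_union_left _ hs))
      obtain ⟨y', hy', hye⟩ := hTy L ι (fun s hs => hT s (Finset.mem_union_right _ hs))
      exact ⟨x' * y', mul_mem hx' hy', by rw [map_mul, hxe, hye]⟩

/-- (Bridge) Every element of the `A`-level chart descends to the chart of every datum whose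
field contains a suitable finite set. -/
theorem rab_main : BridgeStatement := by
  classical
  intro N _ A i b hb
  rw [val_mem_chart_iff, rab_isIntegral_iff] at hb
  obtain ⟨n, a, ha, hab⟩ := hb
  obtain ⟨S, hS⟩ := e_descentT_main N (b : LaurentSeries Qb) b.2
  have hsupp := fun k => rab_supp N A i (a k) (ha k)
  choose T hT using hsupp
  refine ⟨S ∪ (Finset.range n).biUnion T, fun L _ _ ι hι => ?_⟩
  obtain ⟨gL, hgL, hg⟩ := hS L ι (fun s hs => hι s (Finset.mem_union_left _ hs))
  have hgb : dEmb N ι ⟨gL, hgL⟩ = b := Subtype.ext hg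
  have hc : ∀ k, ∃ c : ↥(FL L N), c ∈ baseRing (dW A ι) N {val_t i L N} ∧
      (k < n → dEmb N ι c = a k) := by
    intro k
    by_cases hk : k < n
    · obtain ⟨c, hc, hce⟩ := hT k L ι (fun s hs => hι s (Finset.mem_union_right _
        (Finset.mem_biUnion.mpr ⟨k, Finset.mem_range.mpr hk, hs⟩)))
      exact ⟨c, hc, fun _ => hce⟩
    · exact ⟨0, zero_mem _, fun h => absurd h hk⟩
  choose c hc hce using hc
  refine ⟨⟨gL, hgL⟩, ?_, hgb⟩
  rw [mem_chart_iff, rab_isIntegral_iff]
  refine ⟨n, c, hc, ?_⟩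
  apply (dEmb N ι).injective
  rw [map_add, map_pow, map_sum, map_zero, hgb, ← hab]
  congr 1
  refine Finset.sum_congr rfl (fun k hk => ?_)
  rw [map_mul, map_pow, hce k (Finset.mem_range.mp hk), hgb]

end Fermat.Agent.S37
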