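/-
S37, block RA — ASSEMBLY: hypothesis-free proofs of (RA1) `val_SpecAStatement` and (RA2)
`val_RedRhoStatement` (inputs of block VAL), and of the bridge.  Namespace `Fermat.Agent.S37`,
prefix `ra_`.
-/
import Fermat.Agent.S37.RMain
import Fermat.Agent.S37.RA1
import Fermat.Agent.S37.RA2B
import Fermat.Agent.S37.RAB

set_option autoImplicit false

namespace Fermat.Agent.S37

open Fermat.Agent.S18

/-- (RA2) On the Gauss ring of a datum, `ρ` is the Gauss-local reduction. -/
theorem ra_redRho : val_RedRhoStatement := ra2b_main ga_meqV ga_gauss r_datumExists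

/-- (Bridge) Elements of the `A`-level charts descend to the charts of data. -/
theorem ra_bridge : BridgeStatement := rab_main

/-- (RA1) The `A`-level SPEC. -/
theorem ra_specA : val_SpecAStatement := ra1_main ra_bridge r_datumExists ra_redRho ga_chart

end Fermat.Agent.S37
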