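/-
S37, block VAL, package VALCharpolyInt (general algebra), file A.

`vci_main : val_CharpolyIntegralStatement`: if `x : F'` is integral over `φ(R)`, `R` a subring of
the field `F` and `φ : F → F'` a finite extension, then the coefficients of the characteristic
polynomial of (multiplication by) `x` over `F` are integral over `R`.

Proof.  Lift a monic integrality equation of `x` over `φ(R)` to a monic `q ∈ R[X]`; its image
`g ∈ F[X]` annihilates the multiplication map `f` of `x`.  Over an algebraic closure of `F` every
root of the characteristic polynomial `χ` of `f` is a root of `g` (spectral mapping), and `χ`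
splits, so `χ ∣ g ^ k` for some `k`; this divisibility descends to `F[X]`.  Finally a monic factor
of the image of a monic polynomial over `R` has coefficients integral over `R`
(`Polynomial.isIntegral_coeff_of_dvd`).
-/
import Fermat.Agent.S37.VALInterfaces

set_option autoImplicit false

open AlgebraicCurve Polynomial

namespace Fermat.Agent.S37

noncomputable section

/-- A root of the characteristic polynomial of a matrix `A` over a field is a root of every
polynomial annihilating `A`. -/
theorem vci_isRoot_of_aeval_eq_zero {E n : Type} [Field E] [Fintype n] [DecidableEq n]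
    (A : Matrix n n E) (g : E[X]) (hg : aeval A g = 0) (μ : E) (hμ : A.charpoly.IsRoot μ) :
    g.IsRoot μ := by
  have h2 : μ ∈ spectrum E A := Matrix.mem_spectrum_iff_isRoot_charpoly.mpr hμ
  have _ : Nontrivial (Matrix n n E) := by
    by_contra hN
    rw [not_nontrivial_iff_subsingleton] at hN
    rw [spectrum.of_subsingleton] at h2
    exact h2
  have h3 : eval μ g ∈ spectrum E (aeval A g) :=
    spectrum.subset_polynomial_aeval A g ⟨μ, h2, rfl⟩
  rw [hg, spectrum.zero_eq] at h3
  exact h3

/-- Over an algebraically closed field, the characteristic polynomial of a matrix `A` divides a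
power of every polynomial annihilating `A`. -/
theorem vci_charpoly_dvd_pow_algClosed {E n : Type} [Field E] [IsAlgClosed E] [Fintype n]
    [DecidableEq n] (A : Matrix n n E) (g : E[X]) (hg : aeval A g = 0) :
    A.charpoly ∣ g ^ (Multiset.card A.charpoly.roots) := by
  have hsplit : A.charpoly.Splits := IsAlgClosed.splits _
  have hprod := hsplit.eq_prod_roots_of_monic (Matrix.charpoly_monic A)
  have h1 : (A.charpoly.roots.map (fun μ => X - C μ)).prod ∣
      (A.charpoly.roots.map (fun _ => g)).prod := by
    refine Multiset.prod_dvd_prod_of_dvd _ _ (fun μ hμ => ?_)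
    exact Polynomial.dvd_iff_isRoot.mpr
      (vci_isRoot_of_aeval_eq_zero A g hg μ (Polynomial.isRoot_of_mem_roots hμ))
  rw [Multiset.map_const', Multiset.prod_replicate] at h1
  exact (dvd_of_eq hprod).trans h1

/-- The characteristic polynomial of a matrix `M` over a field divides a power of every
polynomial annihilating `M`. -/
theorem vci_matrix_charpoly_dvd_pow {F n : Type} [Field F] [Fintype n] [DecidableEq n]
    (M : Matrix n n F) (g : F[X]) (hg : aeval M g = 0) : ∃ k : ℕ, M.charpoly ∣ g ^ k := by
  have hA : (M.map (algebraMap F (AlgebraicClosure F))).charpoly =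
      M.charpoly.map (algebraMap F (AlgebraicClosure F)) := Matrix.charpoly_map M _
  have hgA : aeval (M.map (algebraMap F (AlgebraicClosure F)))
      (g.map (algebraMap F (AlgebraicClosure F))) = 0 := by
    rw [Polynomial.aeval_map_algebraMap]
    have h1 := Polynomial.aeval_algHom_apply
      ((Algebra.ofId F (AlgebraicClosure F)).mapMatrix (m := n)) M g
    rw [hg, map_zero] at h1
    exact h1
  have h := vci_charpoly_dvd_pow_algClosed _ _ hgA
  refine ⟨Multiset.card (M.map (algebraMap F (AlgebraicClosure F))).charpoly.roots, ?_⟩
  rw [← Polynomial.map_dvd_map' (algebraMap F (AlgebraicClosure F)), Polynomial.map_pow, ← hA]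
  exact h

/-- The characteristic polynomial of an endomorphism `f` of a finite-dimensional vector space
divides a power of every polynomial annihilating `f`. -/
theorem vci_linearMap_charpoly_dvd_pow {F V : Type} [Field F] [AddCommGroup V] [Module F V]
    [Module.Finite F V] (f : V →ₗ[F] V) (g : F[X]) (hg : aeval f g = 0) :
    ∃ k : ℕ, f.charpoly ∣ g ^ k := by
  classical
  have h1 := Polynomial.aeval_algHom_apply
    (LinearMap.toMatrixAlgEquiv (Module.Free.chooseBasis F V)) f g
  rw [hg, map_zero] at h1
  rw [← LinearMap.charpoly_toMatrix f (Module.Free.chooseBasis F V)]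
  exact vci_matrix_charpoly_dvd_pow _ g h1

/-- WP `VALCharpolyInt`: the coefficients of the characteristic polynomial of an element integral
over `φ(R)` are integral over `R`. -/
theorem vci_main : val_CharpolyIntegralStatement := by
  intro K F F' _ _ _ _ _ _ φ hfin R x hx n
  obtain ⟨p, hpm, hpx⟩ := hx
  let ψ : ↥R →+* ↥(R.map (φ : F →+* F')) :=
    (φ : F →+* F').restrict R (R.map (φ : F →+* F'))
      (fun y hy => Subring.mem_map.mpr ⟨y, hy, rfl⟩)
  have hψ : Function.Surjective ψ := by
    rintro ⟨y, hy⟩
    obtain ⟨z, hz, rfl⟩ := Subring.mem_map.mp hy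
    exact ⟨⟨z, hz⟩, Subtype.ext rfl⟩
  have hlift : p ∈ Polynomial.lifts ψ := by
    obtain ⟨q, hq⟩ := Polynomial.map_surjective ψ hψ p
    exact (Polynomial.mem_lifts p).mpr ⟨q, hq⟩
  obtain ⟨q, hqp, -, hqm⟩ := Polynomial.lifts_and_natDegree_eq_and_monic hlift hpm
  let _ : Algebra F F' := algebraAlong φ
  have _ : Module.Finite F F' := hfin
  have hx0 : aeval x (q.map (algebraMap ↥R F)) = 0 := by
    rw [Polynomial.aeval_def, Polynomial.eval₂_map]
    rw [← hqp, Polynomial.eval₂_map] at hpx
    exact hpx
  have hf0 : aeval (LinearMap.mulLeft F x) (q.map (algebraMap ↥R F)) = 0 := by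
    have h1 := Polynomial.aeval_algHom_apply (Algebra.lmul F F') x (q.map (algebraMap ↥R F))
    rw [hx0, map_zero] at h1
    exact h1
  obtain ⟨k, hk⟩ := vci_linearMap_charpoly_dvd_pow (LinearMap.mulLeft F x) _ hf0
  have hk' : (LinearMap.mulLeft F x).charpoly ∣ (q ^ k).map (algebraMap ↥R F) := by
    rw [Polynomial.map_pow]
    exact hk
  exact Polynomial.isIntegral_coeff_of_dvd (q ^ k) _ (hqm.pow k)
    (LinearMap.charpoly_monic _) hk' n

end

end Fermat.Agent.S37
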