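/-
S37, block VAL, package `VALChartA` (twin A).

* `vca_main : val_ChartAStatement` — the coefficientwise embedding `dEmb N ι : F_L → F` maps the
  chart `chart (dW A ι) N {t}` of any `(L, ι)` into the `A`-level chart `val_chart N A t`
  (`t = j` or `1/j`).
* `vca_bridge` — conversely every element of the `A`-level chart comes from the chart of `(L, ι)`
  as soon as `ι(L)` contains a suitable finite subset of `Qb`.

Both are formal: `dEmb` maps `W[t]` into `A[t]` (and every element of `A[t]` descends to `W[t]`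
once finitely many constants are available), and integrality is transported along the monic
polynomial.
-/
import Fermat.Agent.S37.VALInterfaces

set_option autoImplicit false

open ModularCurve AlgebraicCurve Polynomial

namespace Fermat.Agent.S37

open Fermat.Agent.S18

set_option synthInstance.maxHeartbeats 400000

/-! ### Generic algebra -/

/-- Integrality is preserved by a ring homomorphism mapping the base subring into another
subring. -/
theorem vca_isIntegral_map {R S : Type} [CommRing R] [CommRing S] (f : R →+* S) (B : Subring R)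
    (B' : Subring S) (h : ∀ x ∈ B, f x ∈ B') {x : R} (hx : IsIntegral ↥B x) :
    IsIntegral ↥B' (f x) :=
  IsIntegral.map_of_comp_eq (f.restrict B B' h) f (RingHom.ext fun _ => rfl) hx

/-- Descent of integrality along an injective ring homomorphism `f : R → S`: if `f x` is a root
of a monic polynomial over the subring `B'` of `S` all of whose coefficients are images of
elements of the subring `B` of `R`, then `x` is integral over `B`. -/
theorem vca_isIntegral_descend {R S : Type} [CommRing R] [CommRing S] (f : R →+* S)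
    (hf : Function.Injective f) (B : Subring R) (B' : Subring S) (x : R)
    (p : Polynomial ↥B') (hp : p.Monic) (hpx : Polynomial.eval₂ B'.subtype (f x) p = 0)
    (hcoeff : ∀ n : ℕ, ∃ y : R, y ∈ B ∧ f y = (p.coeff n : S)) :
    IsIntegral ↥B x := by
  have hl : p.map B'.subtype ∈ Polynomial.lifts (f.comp B.subtype) := by
    rw [Polynomial.lifts_iff_coeff_lifts]
    intro n
    rw [Polynomial.coeff_map]
    obtain ⟨y, hy, hfy⟩ := hcoeff n
    exact ⟨⟨y, hy⟩, hfy⟩
  obtain ⟨Q, hQ, -, hQm⟩ := Polynomial.lifts_and_natDegree_eq_and_monic hl (hp.map _)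
  refine ⟨Q, hQm, hf ?_⟩
  rw [map_zero, Polynomial.hom_eval₂]
  have e : f.comp (algebraMap ↥B R) = f.comp B.subtype := rfl
  rw [e, ← Polynomial.eval_map, hQ, Polynomial.eval_map]
  exact hpx

/-! ### `dEmb` and the base rings -/

/-- `dEmb` maps the chart generator over `L` to the chart generator over `Qb`. -/
theorem vca_dEmb_val_t (N : ℕ) [NeZero N] (i : Bool) (L : Type) [Field L] [Algebra ℚ L]
    (ι : L →+* Qb) : dEmb N ι (val_t i L N) = val_t i Qb N := by
  unfold val_t
  by_cases hi : i = true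
  · rw [if_pos hi, if_pos hi, dEmb_jF]
  · rw [if_neg hi, if_neg hi, map_inv₀, dEmb_jF]

/-- `dEmb` maps `W[t]` into `A[t]`. -/
theorem vca_dEmb_baseRing (N : ℕ) [NeZero N] (A : ValuationSubring Qb) (i : Bool) (L : Type)
    [Field L] [Algebra ℚ L] (ι : L →+* Qb) (x : ↥(FL L N))
    (hx : x ∈ baseRing (dW A ι) N {val_t i L N}) :
    dEmb N ι x ∈ val_baseRing N A (val_t i Qb N) := by
  have hle : baseRing (dW A ι) N {val_t i L N}
      ≤ (val_baseRing N A (val_t i Qb N)).comap (dEmb N ι) := by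
    unfold baseRing
    rw [Subring.closure_le]
    rintro y (⟨w, rfl⟩ | hy)
    · show dEmb N ι (cW (dW A ι) N w) ∈ val_baseRing N A (val_t i Qb N)
      have e : dEmb N ι (cW (dW A ι) N w) = algebraMap Qb ↥(FL Qb N) (ι (w : L)) :=
        dEmb_algebraMap N ι (w : L)
      rw [e]
      exact Subring.subset_closure (Or.inl ⟨⟨ι (w : L), w.2⟩, rfl⟩)
    · rw [Set.mem_singleton_iff] at hy
      show dEmb N ι y ∈ val_baseRing N A (val_t i Qb N)
      rw [hy, vca_dEmb_val_t]
      exact Subring.subset_closure (Or.inr rfl)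
  exact hle hx

/-- Every element of `A[t]` comes from `W[t]` as soon as `ι(L)` contains a suitable finite set. -/
theorem vca_baseRing_descend (N : ℕ) [NeZero N] (A : ValuationSubring Qb) (i : Bool)
    (y : ↥(FL Qb N)) (hy : y ∈ val_baseRing N A (val_t i Qb N)) :
    ∃ T : Finset Qb, ∀ (L : Type) [Field L] [Algebra ℚ L] (ι : L →+* Qb),
      (∀ s ∈ T, ∃ c : L, ι c = s) →
      ∃ y' : ↥(FL L N), y' ∈ baseRing (dW A ι) N {val_t i L N} ∧ dEmb N ι y' = y := by
  classical
  unfold val_baseRing at hy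
  induction hy using Subring.closure_induction with
  | mem y hy =>
    rcases hy with ⟨a, rfl⟩ | hy
    · refine ⟨{(a : Qb)}, fun L _ _ ι h => ?_⟩
      obtain ⟨c, hc⟩ := h (a : Qb) (Finset.mem_singleton_self _)
      have hcW : c ∈ dW A ι := by
        show ι c ∈ A
        rw [hc]
        exact a.2
      refine ⟨cW (dW A ι) N ⟨c, hcW⟩, Subring.subset_closure (Or.inl ⟨_, rfl⟩), ?_⟩
      have e : dEmb N ι (cW (dW A ι) N ⟨c, hcW⟩) = algebraMap Qb ↥(FL Qb N) (ι c) :=
        dEmb_algebraMap N ι c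
      rw [e, hc]
      rfl
    · rw [Set.mem_singleton_iff] at hy
      refine ⟨∅, fun L _ _ ι _ => ?_⟩
      exact ⟨val_t i L N, Subring.subset_closure (Or.inr rfl), by rw [hy, vca_dEmb_val_t]⟩
  | zero => exact ⟨∅, fun L _ _ ι _ => ⟨0, zero_mem _, map_zero _⟩⟩
  | one => exact ⟨∅, fun L _ _ ι _ => ⟨1, one_mem _, map_one _⟩⟩
  | add x y _ _ hx hy =>
    obtain ⟨S, hS⟩ := hx
    obtain ⟨T, hT⟩ := hy
    refine ⟨S ∪ T, fun L _ _ ι h => ?_⟩
    obtain ⟨a, ha, rfl⟩ := hS L ι (fun s hs => h s (Finset.mem_union_left _ hs))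
    obtain ⟨b, hb, rfl⟩ := hT L ι (fun s hs => h s (Finset.mem_union_right _ hs))
    exact ⟨a + b, add_mem ha hb, map_add _ _ _⟩
  | neg x _ hx =>
    obtain ⟨S, hS⟩ := hx
    refine ⟨S, fun L _ _ ι h => ?_⟩
    obtain ⟨a, ha, rfl⟩ := hS L ι h
    exact ⟨-a, neg_mem ha, map_neg _ _⟩
  | mul x y _ _ hx hy =>
    obtain ⟨S, hS⟩ := hx
    obtain ⟨T, hT⟩ := hy
    refine ⟨S ∪ T, fun L _ _ ι h => ?_⟩
    obtain ⟨a, ha, rfl⟩ := hS L ι (fun s hs => h s (Finset.mem_union_left _ hs))
    obtain ⟨b, hb, rfl⟩ := hT L ι (fun s hs => h s (Finset.mem_union_right _ hs))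
    exact ⟨a * b, mul_mem ha hb, map_mul _ _ _⟩

/-! ### The main statements -/

/-- (VAL-ChartA) The chart of a datum maps into the `A`-level chart. -/
theorem vca_main : val_ChartAStatement := by
  intro N _ A i L _ _ ι g hg
  rw [mem_chart_iff] at hg
  rw [val_mem_chart_iff]
  exact vca_isIntegral_map (dEmb N ι) _ _ (vca_dEmb_baseRing N A i L ι) hg

/-- Bridge: every element of the `A`-level chart comes from the chart of `(L, ι)` as soon as
`ι(L)` contains a suitable finite subset of `Qb`. -/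
theorem vca_bridge (N : ℕ) [NeZero N] (A : ValuationSubring Qb) (i : Bool) (b : ↥(FL Qb N))
    (hb : b ∈ val_chart N A (val_t i Qb N)) :
    ∃ T : Finset Qb, ∀ (L : Type) [Field L] [Algebra ℚ L] (ι : L →+* Qb),
      (∀ s ∈ T, ∃ c : L, ι c = s) →
      ∃ b' : ↥(FL L N), b' ∈ chart (dW A ι) N {val_t i L N} ∧ dEmb N ι b' = b := by
  classical
  rw [val_mem_chart_iff] at hb
  obtain ⟨p, hp, hpb⟩ := hb
  -- finitely many constants for the coefficients of `p`
  have hcoef : ∀ n : ℕ, ∃ T : Finset Qb, ∀ (L : Type) [Field L] [Algebra ℚ L] (ι : L →+* Qb),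
      (∀ s ∈ T, ∃ c : L, ι c = s) →
      ∃ y' : ↥(FL L N), y' ∈ baseRing (dW A ι) N {val_t i L N} ∧
        dEmb N ι y' = ((p.coeff n : ↥(val_baseRing N A (val_t i Qb N))) : ↥(FL Qb N)) :=
    fun n => vca_baseRing_descend N A i _ (p.coeff n).2
  choose T₁ hT₁ using hcoef
  -- finitely many constants for `b`
  obtain ⟨T₂, hT₂⟩ := e_descentT_main N (b : LaurentSeries Qb) b.2
  refine ⟨(Finset.range (p.natDegree + 1)).biUnion T₁ ∪ T₂, fun L _ _ ι h => ?_⟩
  obtain ⟨xL, hxL, hxb⟩ := hT₂ L ι (fun s hs => h s (Finset.mem_union_right _ hs))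
  have hbb : dEmb N ι ⟨xL, hxL⟩ = b := Subtype.ext hxb
  refine ⟨⟨xL, hxL⟩, ?_, hbb⟩
  rw [mem_chart_iff]
  refine vca_isIntegral_descend (dEmb N ι) (dEmb N ι).injective _
    (val_baseRing N A (val_t i Qb N)) _ p hp ?_ ?_
  · rw [hbb]
    exact hpb
  · intro n
    by_cases hn : n ∈ Finset.range (p.natDegree + 1)
    · exact hT₁ n L ι (fun s hs => h s (Finset.mem_union_left _
        (Finset.mem_biUnion.mpr ⟨n, hn, hs⟩)))
    · have h0 : p.coeff n = 0 := by
        apply Polynomial.coeff_eq_zero_of_natDegree_lt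
        rw [Finset.mem_range] at hn
        omega
      refine ⟨0, zero_mem _, ?_⟩
      rw [h0, map_zero]
      rfl

end Fermat.Agent.S37
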