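/-
S37, block VAL, package `VALChartPres` (file A): (V1) the two degeneracy maps preserve the chart.

`vcp_main : kr_ModEqIntStatement → ValQStatement → InChartStatement → val_ChartPresStatement`.

For a place `Q` of `F' = F_{Nq}` put `J = α(j) = j(q)` and `J' = β(j) = j(q^q)`.  The place
`α_* Q` (resp. `β_* Q`) lies in the first chart iff `J` (resp. `J'`) has a value in `A` at `Q`
(`vcp_hasValue_restrictAlong`).  The modular polynomial `Φ` (monic in `X`, coefficients algebraic
integers, hence in `A`) satisfies `Φ(J, J') = 0` and `Φ(J', J) = 0`; so if one of `J`, `J'` has a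
value in `A` at `Q`, the other one is integral over the valuation ring of `Q`, has a value `c`, and
`c` is a root of a monic polynomial with coefficients in `A`, so `c ∈ A` (`vcp_key`).  The second
chart is the complement of the first (`InChartStatement`).
-/
import Fermat.Agent.S37.VALInterfaces
import Fermat.Agent.S37.HV
import Fermat.Agent.S28.Subst

set_option autoImplicit false

open ModularCurve AlgebraicCurve Polynomial
open Fermat.Agent.S28 (scale evalL)

namespace Fermat.Agent.S37

open Fermat.Agent.S18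

set_option synthInstance.maxHeartbeats 400000

/-! ## General lemmas -/

/-- Nonunits of the comap of a valuation subring along a field homomorphism. -/
theorem vcp_mem_nonunits_comap {K L : Type} [Field K] [Field L] (A : ValuationSubring L)
    (f : K →+* L) (x : K) : x ∈ (A.comap f).nonunits ↔ f x ∈ A.nonunits := by
  rw [ValuationSubring.mem_nonunits_iff_or, ValuationSubring.mem_nonunits_iff_or,
    ValuationSubring.mem_comap, map_inv₀, map_eq_zero]

/-- Values at the restriction of a place along `φ`: `s` has the value `c` at `φ_* Q` iff `φ s` has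
the value `c` at `Q`. -/
theorem vcp_hasValue_restrictAlong {K F F' : Type} [Field K] [Field F] [Field F'] [Algebra K F]
    [Algebra K F'] (φ : F →ₐ[K] F') (hφ : φ.toRingHom.IsIntegral) (Q : Place K F') (s : F)
    (c : K) : HasValue (Q.restrictAlong φ hφ) s c ↔ HasValue Q (φ s) c := by
  have h1 : (Q.restrictAlong φ hφ).toValuationSubring =
      Q.toValuationSubring.comap φ.toRingHom := rfl
  have h2 : φ.toRingHom (s - algebraMap K F c) = φ s - algebraMap K F' c := by
    rw [map_sub]
    congr 1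
    exact φ.commutes c
  unfold HasValue
  rw [h1, vcp_mem_nonunits_comap, h2]

/-- A root of a monic polynomial with coefficients in a valuation subring lies in it. -/
theorem vcp_root_mem {L : Type} [Field L] (V : ValuationSubring L) (p : Polynomial L)
    (hp : p.Monic) (hcoeff : ∀ i, p.coeff i ∈ V) (z : L) (hz : p.eval z = 0) : z ∈ V := by
  have hsub : (↑p.coeffs : Set L) ⊆ V.toSubring := by
    intro a ha
    obtain ⟨i, -, rfl⟩ := Polynomial.mem_coeffs_iff.mp ha
    exact hcoeff i
  have hint : IsIntegral ↥V z := by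
    refine ⟨p.toSubring V.toSubring hsub, (Polynomial.monic_toSubring _ _ _).mpr hp, ?_⟩
    have h1 : (p.toSubring V.toSubring hsub).map (algebraMap ↥V L) = p :=
      Polynomial.map_toSubring _ _ _
    rw [← Polynomial.eval_map, h1]
    exact hz
  obtain ⟨y, hy⟩ := IsIntegrallyClosed.isIntegral_iff.mp hint
  rw [← hy]
  exact y.2

/-- Algebraic integers lie in every valuation subring. -/
theorem vcp_integral_mem {L : Type} [Field L] (V : ValuationSubring L) (a : L)
    (ha : IsIntegral ℤ a) : a ∈ V := by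
  obtain ⟨p, hp, hpa⟩ := ha
  refine vcp_root_mem V (p.map (Int.castRingHom L)) (hp.map _) (fun i => ?_) a ?_
  · rw [Polynomial.coeff_map]
    exact intCast_mem V _
  · rw [Polynomial.eval_map]
    exact hpa

/-- The key step: if `Φ(x, y) = 0` for a polynomial `Φ ∈ K[T][X]`, monic in `X`, with coefficients
in the valuation subring `A` of `K`, and `y` has a value in `A` at the place `Q`, then so does
`x` (provided every element of the valuation ring of `Q` has a value). -/
theorem vcp_key {K F' : Type} [Field K] [Field F'] [Algebra K F'] (A : ValuationSubring K)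
    (Q : Place K F') (hval : ∀ s : F', s ∈ Q.toValuationSubring → ∃ c : K, HasValue Q s c)
    (Φ : Polynomial (Polynomial K)) (hmon : Φ.Monic) (hA : ∀ i j : ℕ, (Φ.coeff i).coeff j ∈ A)
    (x y : F')
    (hxy : Φ.eval₂ (Polynomial.aeval y : Polynomial K →ₐ[K] F').toRingHom x = 0)
    (c' : K) (hc' : c' ∈ A) (hy : HasValue Q y c') : ∃ c : K, c ∈ A ∧ HasValue Q x c := by
  have hco : ∀ i : ℕ, HasValue Q ((Polynomial.aeval y : Polynomial K →ₐ[K] F').toRingHom
      (Φ.coeff i)) ((Polynomial.evalRingHom c') (Φ.coeff i)) := fun i => hv_aeval hy _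
  -- `x` lies in the valuation ring of `Q`
  have hx : x ∈ Q.toValuationSubring := by
    refine vcp_root_mem Q.toValuationSubring
      (Φ.map (Polynomial.aeval y : Polynomial K →ₐ[K] F').toRingHom) (hmon.map _)
      (fun i => ?_) x ?_
    · rw [Polynomial.coeff_map]
      exact hv_mem (hco i)
    · rw [Polynomial.eval_map]
      exact hxy
  obtain ⟨c, hc⟩ := hval x hx
  refine ⟨c, ?_, hc⟩
  -- `Φ(c, c') = 0`
  have hval0 : HasValue Q (Φ.eval₂ (Polynomial.aeval y : Polynomial K →ₐ[K] F').toRingHom x)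
      (Φ.eval₂ (Polynomial.evalRingHom c') c) := by
    rw [Polynomial.eval₂_eq_sum_range, Polynomial.eval₂_eq_sum_range]
    exact hv_sum _ _ _ fun i _ => hv_mul (hco i) (hv_pow hc i)
  rw [hxy] at hval0
  have h0 : Φ.eval₂ (Polynomial.evalRingHom c') c = 0 := hv_unique hval0 (hv_zero Q)
  refine vcp_root_mem A (Φ.map (Polynomial.evalRingHom c')) (hmon.map _) (fun i => ?_) c ?_
  · rw [Polynomial.coeff_map, Polynomial.coe_evalRingHom, Polynomial.eval_eq_sum_range]
    exact sum_mem fun j _ => mul_mem (hA i j) (pow_mem hc' j)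
  · rw [Polynomial.eval_map]
    exact h0

/-- Evaluation of a two-variable polynomial in a subfield of `K((q))`, in terms of `evalL`. -/
theorem vcp_coe_eval₂ {K : Type} [Field K] (E : IntermediateField K (LaurentSeries K))
    (Φ : Polynomial (Polynomial K)) (x y : ↥E) :
    ((Φ.eval₂ (Polynomial.aeval y : Polynomial K →ₐ[K] ↥E).toRingHom x : ↥E) :
        LaurentSeries K) =
      (Φ.map (evalL (y : LaurentSeries K))).eval (x : LaurentSeries K) := by
  have hcomp : (algebraMap ↥E (LaurentSeries K)).comp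
      (Polynomial.aeval y : Polynomial K →ₐ[K] ↥E).toRingHom = evalL (y : LaurentSeries K) := by
    refine Polynomial.ringHom_ext (fun a => ?_) ?_
    · rw [Fermat.Agent.S28.subst_evalL_C, HahnSeries.C_apply]
      show algebraMap ↥E (LaurentSeries K) (Polynomial.aeval y (C a)) = _
      rw [Polynomial.aeval_C, ← IsScalarTower.algebraMap_apply,
        algebraMap_laurentSeries_eq_single]
    · rw [Fermat.Agent.S28.subst_evalL_X]
      show algebraMap ↥E (LaurentSeries K) (Polynomial.aeval y X) = _
      rw [Polynomial.aeval_X]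
      rfl
  rw [Polynomial.eval_map, ← hcomp]
  exact Polynomial.hom_eval₂ Φ _ (algebraMap ↥E (LaurentSeries K)) x

/-- `ℚ̄` contains a primitive `q`-th root of unity. -/
theorem vcp_exists_primitiveRoot (q : ℕ) [NeZero q] : ∃ ζ : Qb, IsPrimitiveRoot ζ q := by
  have : NeZero (q : Qb) := ⟨Nat.cast_ne_zero.mpr (NeZero.ne q)⟩
  obtain ⟨ζ, hζ⟩ := IsAlgClosed.exists_root (Polynomial.cyclotomic q Qb) (by
    rw [Polynomial.degree_cyclotomic]
    exact_mod_cast (Nat.totient_pos.mpr (NeZero.pos q)).ne')
  exact ⟨ζ, Polynomial.isRoot_cyclotomic_iff.mp hζ⟩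

/-! ## The main theorem -/

/-- (V1), first chart: `β_* Q` lies in the first chart iff `α_* Q` does. -/
theorem vcp_chart1 (hME : kr_ModEqIntStatement) (hVal : ValQStatement) (N q : ℕ) [NeZero N]
    [NeZero q] (hq : q.Prime) (A : ValuationSubring Qb) (hα : HeckeAlphaBarIntegral Qb N q)
    (hβ : HeckeBetaBarIntegral Qb N q) (Q : Place Qb ↥(FL Qb (N * q))) :
    InChart1 N A (Q.restrictAlong (heckeBetaBar Qb N q) hβ) ↔
      InChart1 N A (Q.restrictAlong (heckeAlphaBar Qb N q) hα) := by
  obtain ⟨ζ, hζ⟩ := vcp_exists_primitiveRoot q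
  obtain ⟨Φ, hmon, -, hint, -, hE1, hE2⟩ := hME q hq ζ hζ
  have hA : ∀ i j : ℕ, (Φ.coeff i).coeff j ∈ A := fun i j => vcp_integral_mem A _ (hint i j)
  have hJc : ((heckeAlphaBar Qb N q (jF Qb N) : ↥(FL Qb (N * q))) : LaurentSeries Qb) =
      jqModC Qb := coe_heckeAlphaBar N q (jF Qb N)
  have hJ'c : ((heckeBetaBar Qb N q (jF Qb N) : ↥(FL Qb (N * q))) : LaurentSeries Qb) =
      qExpand Qb q (jqModC Qb) := coe_heckeBetaBar N q (jF Qb N)
  have h1 : Φ.eval₂ (Polynomial.aeval (heckeBetaBar Qb N q (jF Qb N)) :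
      Polynomial Qb →ₐ[Qb] ↥(FL Qb (N * q))).toRingHom (heckeAlphaBar Qb N q (jF Qb N)) = 0 := by
    apply Subtype.ext
    rw [vcp_coe_eval₂, hJc, hJ'c]
    exact hE1
  have h2 : Φ.eval₂ (Polynomial.aeval (heckeAlphaBar Qb N q (jF Qb N)) :
      Polynomial Qb →ₐ[Qb] ↥(FL Qb (N * q))).toRingHom (heckeBetaBar Qb N q (jF Qb N)) = 0 := by
    apply Subtype.ext
    rw [vcp_coe_eval₂, hJc, hJ'c]
    exact hE2
  have hvalQ : ∀ s : ↥(FL Qb (N * q)), s ∈ Q.toValuationSubring → ∃ c : Qb, HasValue Q s c :=
    fun s hs => hVal (N * q) Q s hs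
  constructor
  · rintro ⟨c', hc', hv⟩
    have hv0 : HasValue Q (heckeBetaBar Qb N q (jF Qb N)) c' :=
      (vcp_hasValue_restrictAlong (heckeBetaBar Qb N q) hβ Q (jF Qb N) c').mp hv
    obtain ⟨c, hc, hv'⟩ := vcp_key A Q hvalQ Φ hmon hA _ _ h1 c' hc' hv0
    exact ⟨c, hc, (vcp_hasValue_restrictAlong (heckeAlphaBar Qb N q) hα Q (jF Qb N) c).mpr hv'⟩
  · rintro ⟨c', hc', hv⟩
    have hv0 : HasValue Q (heckeAlphaBar Qb N q (jF Qb N)) c' :=
      (vcp_hasValue_restrictAlong (heckeAlphaBar Qb N q) hα Q (jF Qb N) c').mp hv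
    obtain ⟨c, hc, hv'⟩ := vcp_key A Q hvalQ Φ hmon hA _ _ h2 c' hc' hv0
    exact ⟨c, hc, (vcp_hasValue_restrictAlong (heckeBetaBar Qb N q) hβ Q (jF Qb N) c).mpr hv'⟩

/-- (VAL-ChartPres, (V1)). -/
theorem vcp_main :
    kr_ModEqIntStatement → ValQStatement → InChartStatement → val_ChartPresStatement := by
  intro hME hVal hIn N q _ _ hq A hα hβ Q i
  have hC1 := vcp_chart1 hME hVal N q hq A hα hβ Q
  have hC2 : ∀ P : Place Qb ↥(FL Qb N), InChart2 N A P ↔ ¬ InChart1 N A P := by
    intro P
    have h := hIn N A P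
    constructor
    · intro h2 h1
      exact h.2 ⟨h1, h2⟩
    · intro h1
      exact h.1.resolve_left h1
  unfold val_InChart
  rw [hC2, hC2, hC1]

end Fermat.Agent.S37
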