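/-
S37, block VAL, package VALFinal: the outputs (R3) and (R4) from the core statements
`val_R3CoreStatement`, `val_R4CoreStatement`, the pure-algebra kernel lemma `val_KernelStatement`
and the description `hi_HeckeDivSingleStatement` of the Hecke correspondence on a single place.

Prefix `vfn_`.
-/
import Fermat.Agent.S37.VALInterfaces

set_option autoImplicit false

open ModularCurve AlgebraicCurve Polynomial

namespace Fermat.Agent.S37

open Fermat.Agent.S18

noncomputable section

set_option synthInstance.maxHeartbeats 400000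

/-- Pure algebra: pushing forward an `ℤ`-valued sum of single points with natural-number
multiplicities is the `ℤ`-cast of the `ℕ`-valued sum of the pushed-forward points. -/
theorem vfn_mapDomain_sum {X Y I : Type} (r : X → Y) (s : Finset I) (f : I → X) (e : I → ℕ) :
    Finsupp.mapDomain r (∑ Q ∈ s, Finsupp.single (f Q) ((e Q : ℕ) : ℤ)) =
      Finsupp.mapRange (Nat.cast : ℕ → ℤ) Nat.cast_zero
        (∑ Q ∈ s, Finsupp.single (r (f Q)) (e Q)) := by
  classical
  rw [Finsupp.mapDomain_finsetSum]
  have hmr : ∀ v : Y →₀ ℕ, Finsupp.mapRange (Nat.cast : ℕ → ℤ) Nat.cast_zero v =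
      Finsupp.mapRange.addMonoidHom (Nat.castAddMonoidHom ℤ) v := fun _ => rfl
  rw [hmr, map_sum]
  refine Finset.sum_congr rfl fun Q _ => ?_
  rw [Finsupp.mapDomain_single, ← hmr, Finsupp.mapRange_single]

/-- `r_*(T_q [P])` is the `ℤ`-cast of the multiset `val_heckeMult`. -/
theorem vfn_mapDomain_heckeDiv (hs : hi_HeckeDivSingleStatement) (N q : ℕ) [NeZero N] [NeZero q]
    (A : ValuationSubring Qb) (r : Place Qb ↥(FL Qb N) → Place (kA A) ↥(Fk (kA A) N))
    (hα : HeckeAlphaBarIntegral Qb N q) (hβ : HeckeBetaBarIntegral Qb N q)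
    [HasPrincipalDivisors Qb ↥(FL Qb (N * q))] (P : Place Qb ↥(FL Qb N)) :
    Finsupp.mapDomain r (heckeDivBar hα hβ (Finsupp.single P (1 : ℤ))) =
      Finsupp.mapRange (Nat.cast : ℕ → ℤ) Nat.cast_zero (val_heckeMult N q A r hα hβ P) := by
  have h1 : heckeDivBar hα hβ (Finsupp.single P (1 : ℤ)) =
      ∑ Q ∈ Place.fiberAlong (heckeBetaBar Qb N q) hβ P,
        Finsupp.single (Q.restrictAlong (heckeAlphaBar Qb N q) hα)
          ((Q.ramificationIndexAlong (heckeBetaBar Qb N q) : ℕ) : ℤ) := hs N q hα hβ P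
  rw [h1]
  exact vfn_mapDomain_sum r _ _ _

/-- (R3) from the core statement, the kernel lemma and the single-place formula. -/
theorem vfn_r3 :
    hi_HeckeDivSingleStatement → val_KernelStatement → val_R3CoreStatement → R3Statement := by
  intro hs hker hcore N ℓ _ _ hℓN A hA r hr q _ hq h D hD
  have := h.snd.snd.fst
  refine hker _ _ r (heckeDivBar h.fst h.snd.fst) ?_ D hD
  intro P P' hPP'
  rw [vfn_mapDomain_heckeDiv hs N q A r h.fst h.snd.fst P,
    vfn_mapDomain_heckeDiv hs N q A r h.fst h.snd.fst P',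
    hcore N ℓ hℓN A hA r hr q hq h.fst h.snd.fst P P' hPP']

/-- (R4) from the core statement and the single-place formula. -/
theorem vfn_r4 : hi_HeckeDivSingleStatement → val_R4CoreStatement → R4Statement := by
  intro hs hcore N ℓ _ _ _ hℓN A hA r hr h τ hτ P
  have := h.snd.snd.fst
  show Finsupp.mapDomain r (heckeDivBar h.fst h.snd.fst (Finsupp.single P (1 : ℤ))) =
    Finsupp.single (coeffAut (kA A) N τ • r P) (1 : ℤ)
      + Finsupp.single ((coeffAut (kA A) N τ)⁻¹ • r P) (ℓ : ℤ)
  rw [vfn_mapDomain_heckeDiv hs N ℓ A r h.fst h.snd.fst P,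
    hcore N ℓ hℓN A hA r hr h.fst h.snd.fst τ hτ P,
    Finsupp.mapRange_add Nat.cast_add, Finsupp.mapRange_single, Finsupp.mapRange_single,
    Nat.cast_one]

end

end Fermat.Agent.S37
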