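/-
S37, block VAL, package `VALIntegrality` (twin A): (V2), the coefficients of `χ_g` lie in the local
ring of the `A`-level chart.

Deliverable:
`vin_main : kr_ModEqIntStatement → val_CharpolyIntegralStatement → val_IntegralityStatement`.

Sketch.  `F = F_N`, `F' = F_{Nq}`, `α, β : F → F'`, `J = α j`, `J' = β j`, `Φ` the modular equation
(`Φ(J, J') = 0 = Φ(J', J)`, coefficients in `A`).
* Chart of `j`: `J` is integral over `β(A[j]) = A[J']` (root of `Φ(X, J')`), so `α g` is integral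
  over `β(A[j])` for `g` integral over `A[j]`, and the black box `val_CharpolyIntegralStatement`
  gives the integrality of the coefficients of `χ_g` over `A[j]`.
* Chart of `u = 1/j`: inverting both variables in `Φ(J', J) = 0` shows that `α u = 1/J` satisfies
  a polynomial equation over `β(A[u])` with leading coefficient `β(s₀)`,
  `s₀ = ∑_i (Φ_i)(0) u^(d-i) ∈ 1 + u A[u]`.  Hence `α g` is integral over `β(A[u][1/s₀])`, the
  coefficients of `χ_g` are integral over `A[u][1/s₀]`, and become integral over `A[u]` after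
  multiplication by a power of `s₀`, whose value at a place with `u ↦ c₀ ∈ m_A` is a unit of `A`.
-/
import Fermat.Agent.S37.VALInterfaces
import Fermat.Agent.S37.HV
import Fermat.Agent.S28.Subst

set_option autoImplicit false

open ModularCurve AlgebraicCurve Polynomial
open Fermat.Agent.S28 (evalL)

namespace Fermat.Agent.S37

open Fermat.Agent.S18

/-! ## Integrality over subrings -/

/-- Elements of a subring are integral over it. -/
theorem vin_isIntegral_of_mem {B : Type} [CommRing B] (S : Subring B) {x : B} (hx : x ∈ S) :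
    IsIntegral ↥S x :=
  isIntegral_algebraMap (R := ↥S) (A := B) (x := ⟨x, hx⟩)

/-- A root of a monic polynomial with coefficients in the subring `S` is integral over `S`. -/
theorem vin_isIntegral_of_lifts {B : Type} [CommRing B] [Nontrivial B] (S : Subring B) (p : B[X])
    (hp : p.Monic) (hl : p ∈ Polynomial.lifts S.subtype) (x : B) (hx : p.eval x = 0) :
    IsIntegral ↥S x := by
  obtain ⟨q, hq, -, hqm⟩ := Polynomial.lifts_and_natDegree_eq_and_monic hl hp
  refine ⟨q, hqm, ?_⟩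
  have h : Polynomial.eval₂ S.subtype x q = 0 := by rw [← Polynomial.eval_map, hq, hx]
  exact h

/-- An element integral over the subring `S` is a root of a monic polynomial with coefficients in
`S`. -/
theorem vin_exists_lifts {B : Type} [CommRing B] (S : Subring B) {x : B} (hx : IsIntegral ↥S x) :
    ∃ p : B[X], p.Monic ∧ p ∈ Polynomial.lifts S.subtype ∧ p.eval x = 0 := by
  obtain ⟨q, hqm, hq⟩ := hx
  refine ⟨q.map S.subtype, hqm.map _, (Polynomial.mem_lifts _).mpr ⟨q, rfl⟩, ?_⟩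
  rw [Polynomial.eval_map]
  exact hq

/-- Integrality is preserved by ring homomorphisms. -/
theorem vin_isIntegral_map {B B' : Type} [CommRing B] [CommRing B'] (f : B →+* B') (S : Subring B)
    (S' : Subring B') (h : S.map f ≤ S') {x : B} (hx : IsIntegral ↥S x) : IsIntegral ↥S' (f x) := by
  refine IsIntegral.map_of_comp_eq
    ((f.comp S.subtype).codRestrict S' (fun y => h (Subring.mem_map.mpr ⟨y, y.2, rfl⟩))) f ?_ hx
  ext y
  rfl

/-- Transitivity of integrality for subrings. -/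
theorem vin_isIntegral_trans {B : Type} [CommRing B] (S S' : Subring B)
    (h : ∀ y ∈ S', IsIntegral ↥S y) {x : B} (hx : IsIntegral ↥S' x) : IsIntegral ↥S x := by
  have h1 : IsIntegral ↥(integralClosure ↥S B) x := by
    refine IsIntegral.map_of_comp_eq
      (S'.subtype.codRestrict (integralClosure ↥S B) (fun y => h y y.2)) (RingHom.id B) ?_ hx
    ext y
    rfl
  exact isIntegral_trans x h1

/-! ## Clearing denominators -/

/-- Every element of `S₀[1/s]` becomes an element of `S₀` after multiplication by a power of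
`s`. -/
theorem vin_denominators {B : Type} [Field B] (S₀ : Subring B) (s : B) (hs : s ∈ S₀)
    (hs0 : s ≠ 0) (r : B) (hr : r ∈ Subring.closure ((S₀ : Set B) ∪ {s⁻¹})) :
    ∃ k : ℕ, s ^ k * r ∈ S₀ := by
  induction hr using Subring.closure_induction with
  | mem x hx =>
    rcases hx with hx | hx
    · exact ⟨0, by rw [pow_zero, one_mul]; exact hx⟩
    · refine ⟨1, ?_⟩
      rw [Set.mem_singleton_iff.mp hx, pow_one, mul_inv_cancel₀ hs0]
      exact S₀.one_mem
  | zero => exact ⟨0, by rw [mul_zero]; exact S₀.zero_mem⟩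
  | one => exact ⟨0, by rw [mul_one, pow_zero]; exact S₀.one_mem⟩
  | add x y _ _ hx hy =>
    obtain ⟨k₁, h₁⟩ := hx
    obtain ⟨k₂, h₂⟩ := hy
    refine ⟨k₁ + k₂, ?_⟩
    have e : s ^ (k₁ + k₂) * (x + y) = s ^ k₂ * (s ^ k₁ * x) + s ^ k₁ * (s ^ k₂ * y) := by ring
    rw [e]
    exact S₀.add_mem (S₀.mul_mem (S₀.pow_mem hs _) h₁) (S₀.mul_mem (S₀.pow_mem hs _) h₂)
  | neg x _ hx =>
    obtain ⟨k, h⟩ := hx
    exact ⟨k, by rw [mul_neg]; exact S₀.neg_mem h⟩
  | mul x y _ _ hx hy =>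
    obtain ⟨k₁, h₁⟩ := hx
    obtain ⟨k₂, h₂⟩ := hy
    refine ⟨k₁ + k₂, ?_⟩
    have e : s ^ (k₁ + k₂) * (x * y) = (s ^ k₁ * x) * (s ^ k₂ * y) := by ring
    rw [e]
    exact S₀.mul_mem h₁ h₂

/-- A common denominator for the coefficients of a polynomial over `S₀[1/s]`. -/
theorem vin_common_denominator {B : Type} [Field B] (S₀ : Subring B) (s : B) (hs : s ∈ S₀)
    (hs0 : s ≠ 0) (p : B[X])
    (hp : ∀ n, p.coeff n ∈ Subring.closure ((S₀ : Set B) ∪ {s⁻¹})) :
    ∃ k : ℕ, ∀ n, s ^ k * p.coeff n ∈ S₀ := by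
  choose k hk using fun n => vin_denominators S₀ s hs hs0 (p.coeff n) (hp n)
  refine ⟨∑ n ∈ Finset.range (p.natDegree + 1), k n, fun n => ?_⟩
  by_cases hn : n ∈ Finset.range (p.natDegree + 1)
  · have hle : k n ≤ ∑ m ∈ Finset.range (p.natDegree + 1), k m :=
      Finset.single_le_sum (fun _ _ => Nat.zero_le _) hn
    rw [← Nat.sub_add_cancel hle, pow_add, mul_assoc]
    exact S₀.mul_mem (S₀.pow_mem hs _) (hk n)
  · have h0 : p.coeff n = 0 := by
      apply Polynomial.coeff_eq_zero_of_natDegree_lt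
      rw [Finset.mem_range] at hn
      omega
    rw [h0, mul_zero]
    exact S₀.zero_mem

/-- An element integral over `S₀[1/s]` becomes integral over `S₀` after multiplication by a power
of `s`. -/
theorem vin_scale {B : Type} [Field B] (S₀ : Subring B) (s : B) (hs : s ∈ S₀) (hs0 : s ≠ 0)
    {x : B} (hx : IsIntegral ↥(Subring.closure ((S₀ : Set B) ∪ {s⁻¹})) x) :
    ∃ M : ℕ, IsIntegral ↥S₀ (s ^ M * x) := by
  obtain ⟨p, hpm, hpl, hpx⟩ := vin_exists_lifts _ hx
  have hcoef : ∀ n, p.coeff n ∈ Subring.closure ((S₀ : Set B) ∪ {s⁻¹}) := by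
    intro n
    obtain ⟨y, hy⟩ := (Polynomial.lifts_iff_coeff_lifts p).mp hpl n
    rw [← hy]
    exact y.2
  obtain ⟨k, hk⟩ := vin_common_denominator S₀ s hs hs0 p hcoef
  refine ⟨k, vin_isIntegral_of_lifts S₀ (Polynomial.scaleRoots p (s ^ k))
    ((Polynomial.monic_scaleRoots_iff _).mpr hpm) ?_ _ ?_⟩
  · rw [Polynomial.lifts_iff_coeff_lifts]
    intro n
    rw [Polynomial.coeff_scaleRoots]
    have hmem : p.coeff n * (s ^ k) ^ (p.natDegree - n) ∈ S₀ := by
      rcases lt_trichotomy n p.natDegree with hlt | heq | hgt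
      · obtain ⟨e, he⟩ : ∃ e, p.natDegree - n = e + 1 := ⟨p.natDegree - n - 1, by omega⟩
        have e1 : p.coeff n * (s ^ k) ^ (e + 1) = (s ^ k * p.coeff n) * (s ^ k) ^ e := by ring
        rw [he, e1]
        exact S₀.mul_mem (hk n) (S₀.pow_mem (S₀.pow_mem hs k) e)
      · rw [heq, Nat.sub_self, pow_zero, mul_one, hpm.coeff_natDegree]
        exact S₀.one_mem
      · rw [Polynomial.coeff_eq_zero_of_natDegree_lt hgt, zero_mul]
        exact S₀.zero_mem
    exact ⟨⟨_, hmem⟩, rfl⟩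
  · rw [Polynomial.scaleRoots_eval_mul, hpx, mul_zero]

/-! ## Relations -/

/-- Inverting both variables in a polynomial relation. -/
theorem vin_rel {B : Type} [Field B] (x x' : B) (hx : x ≠ 0) (hx' : x' ≠ 0) (n D : ℕ)
    (a : ℕ → ℕ → B)
    (h : ∑ i ∈ Finset.range (n + 1), (∑ m ∈ Finset.range (D + 1), a i m * x ^ m) * x' ^ i = 0) :
    ∑ m ∈ Finset.range (D + 1),
      (∑ i ∈ Finset.range (n + 1), a i m * x'⁻¹ ^ (n - i)) * x⁻¹ ^ (D - m) = 0 := by
  have key : ∀ i ∈ Finset.range (n + 1), ∀ m ∈ Finset.range (D + 1),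
      a i m * x'⁻¹ ^ (n - i) * x⁻¹ ^ (D - m) = (a i m * x ^ m * x' ^ i) * (x⁻¹ ^ D * x'⁻¹ ^ n) := by
    intro i hi m hm
    have hi' : i ≤ n := Nat.lt_succ_iff.mp (Finset.mem_range.mp hi)
    have hm' : m ≤ D := Nat.lt_succ_iff.mp (Finset.mem_range.mp hm)
    have e1 : x ^ m * x⁻¹ ^ m = 1 := by rw [← mul_pow, mul_inv_cancel₀ hx, one_pow]
    have e2 : x' ^ i * x'⁻¹ ^ i = 1 := by rw [← mul_pow, mul_inv_cancel₀ hx', one_pow]
    rw [← pow_sub_mul_pow x⁻¹ hm', ← pow_sub_mul_pow x'⁻¹ hi']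
    linear_combination (-(a i m * x'⁻¹ ^ (n - i) * x⁻¹ ^ (D - m) * (x' ^ i * x'⁻¹ ^ i))) * e1
      - (a i m * x'⁻¹ ^ (n - i) * x⁻¹ ^ (D - m)) * e2
  calc ∑ m ∈ Finset.range (D + 1),
        (∑ i ∈ Finset.range (n + 1), a i m * x'⁻¹ ^ (n - i)) * x⁻¹ ^ (D - m)
      = ∑ m ∈ Finset.range (D + 1), ∑ i ∈ Finset.range (n + 1),
          a i m * x'⁻¹ ^ (n - i) * x⁻¹ ^ (D - m) := by
        refine Finset.sum_congr rfl fun m _ => ?_
        rw [Finset.sum_mul]
    _ = ∑ i ∈ Finset.range (n + 1), ∑ m ∈ Finset.range (D + 1),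
          a i m * x'⁻¹ ^ (n - i) * x⁻¹ ^ (D - m) := Finset.sum_comm
    _ = ∑ i ∈ Finset.range (n + 1), ∑ m ∈ Finset.range (D + 1),
          (a i m * x ^ m * x' ^ i) * (x⁻¹ ^ D * x'⁻¹ ^ n) :=
        Finset.sum_congr rfl fun i hi => Finset.sum_congr rfl fun m hm => key i hi m hm
    _ = (∑ i ∈ Finset.range (n + 1), (∑ m ∈ Finset.range (D + 1), a i m * x ^ m) * x' ^ i) *
          (x⁻¹ ^ D * x'⁻¹ ^ n) := by
        rw [Finset.sum_mul]
        refine Finset.sum_congr rfl fun i _ => ?_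
        rw [Finset.sum_mul, Finset.sum_mul]
    _ = 0 := by rw [h, zero_mul]

/-- Integrality from a relation whose leading coefficient is invertible in the subring. -/
theorem vin_isIntegral_of_rel {B : Type} [Field B] (S : Subring B) (y : B) (D : ℕ) (b : ℕ → B)
    (hb : ∀ m, b m ∈ S) (hb0 : b 0 ≠ 0) (hb0' : (b 0)⁻¹ ∈ S)
    (h : ∑ m ∈ Finset.range (D + 1), b m * y ^ (D - m) = 0) : IsIntegral ↥S y := by
  have hdeg : (∑ m ∈ Finset.range D,
      C (b (m + 1) * (b 0)⁻¹) * (X : B[X]) ^ (D - (m + 1))).degree < (D : WithBot ℕ) := by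
    refine lt_of_le_of_lt (Polynomial.degree_sum_le _ _) ?_
    refine (Finset.sup_lt_iff ?_).mpr fun m hm => ?_
    · exact WithBot.bot_lt_coe D
    · refine lt_of_le_of_lt (Polynomial.degree_C_mul_X_pow_le _ _) ?_
      have hm' : m < D := Finset.mem_range.mp hm
      exact_mod_cast (show D - (m + 1) < D by omega)
  refine vin_isIntegral_of_lifts S
    (X ^ D + ∑ m ∈ Finset.range D, C (b (m + 1) * (b 0)⁻¹) * (X : B[X]) ^ (D - (m + 1)))
    (Polynomial.monic_X_pow_add hdeg) ?_ y ?_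
  · refine Subsemiring.add_mem _ (Polynomial.X_pow_mem_lifts _ _)
      (Subsemiring.sum_mem _ fun m _ => ?_)
    exact Polynomial.base_mul_mem_lifts (⟨b (m + 1) * (b 0)⁻¹, S.mul_mem (hb _) hb0'⟩ : ↥S)
      (Polynomial.X_pow_mem_lifts _ _)
  · rw [Finset.sum_range_succ'] at h
    simp only [Polynomial.eval_add, Polynomial.eval_pow, Polynomial.eval_X,
      Polynomial.eval_finsetSum, Polynomial.eval_mul, Polynomial.eval_C]
    have e : y ^ D + ∑ m ∈ Finset.range D, b (m + 1) * (b 0)⁻¹ * y ^ (D - (m + 1))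
        = (b 0)⁻¹ * (∑ m ∈ Finset.range D, b (m + 1) * y ^ (D - (m + 1)) + b 0 * y ^ (D - 0)) := by
      rw [mul_add, Finset.mul_sum, Nat.sub_zero, ← mul_assoc, inv_mul_cancel₀ hb0, one_mul, add_comm]
      congr 1
      refine Finset.sum_congr rfl fun m _ => ?_
      ring
    rw [e, h, mul_zero]

/-! ## Units of a valuation subring -/

theorem vin_nu_add {K : Type} [Field K] (A : ValuationSubring K) {x y : K} (hx : x ∈ A.nonunits)
    (hy : y ∈ A.nonunits) : x + y ∈ A.nonunits := by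
  rw [ValuationSubring.mem_nonunits_iff] at *
  exact Valuation.map_add_lt _ hx hy

theorem vin_nu_neg {K : Type} [Field K] (A : ValuationSubring K) {x : K} (hx : x ∈ A.nonunits) :
    -x ∈ A.nonunits := by
  rw [ValuationSubring.mem_nonunits_iff] at *
  rwa [Valuation.map_neg]

theorem vin_nu_zero {K : Type} [Field K] (A : ValuationSubring K) : (0 : K) ∈ A.nonunits := by
  rw [ValuationSubring.mem_nonunits_iff, map_zero]
  exact zero_lt_one

theorem vin_nu_one {K : Type} [Field K] (A : ValuationSubring K) : (1 : K) ∉ A.nonunits := by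
  rw [ValuationSubring.mem_nonunits_iff, map_one]
  exact lt_irrefl _

theorem vin_nu_mul_mem {K : Type} [Field K] (A : ValuationSubring K) {x y : K}
    (hx : x ∈ A.nonunits) (hy : y ∈ A) : x * y ∈ A.nonunits := by
  rw [ValuationSubring.mem_nonunits_iff] at *
  rw [map_mul]
  have hy' : A.valuation y ≤ 1 := (ValuationSubring.valuation_le_one_iff _ _).2 hy
  calc A.valuation x * A.valuation y ≤ A.valuation x * 1 := mul_le_mul_right hy' _
    _ = A.valuation x := mul_one _
    _ < 1 := hx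

theorem vin_nu_sum {K : Type} [Field K] (A : ValuationSubring K) (t : Finset ℕ) (f : ℕ → K)
    (h : ∀ i ∈ t, f i ∈ A.nonunits) : ∑ i ∈ t, f i ∈ A.nonunits := by
  classical
  induction t using Finset.induction_on with
  | empty => rw [Finset.sum_empty]; exact vin_nu_zero A
  | insert a t ha ih =>
    rw [Finset.sum_insert ha]
    exact vin_nu_add A (h a (Finset.mem_insert_self a t))
      (ih fun i hi => h i (Finset.mem_insert_of_mem hi))

/-- `1 + (nonunit)` is a unit: the value of `λ`. -/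
theorem vin_unit_value {K : Type} [Field K] (A : ValuationSubring K) (n : ℕ) (a : ℕ → K)
    (ha : ∀ i, a i ∈ A) (han : a n = 1) (c₀ : K) (hc₀ : c₀ ∈ A.nonunits) :
    (∑ i ∈ Finset.range (n + 1), a i * c₀ ^ (n - i)) ∈ A ∧
      (∑ i ∈ Finset.range (n + 1), a i * c₀ ^ (n - i)) ∉ A.nonunits := by
  have hc₀A : c₀ ∈ A := ValuationSubring.nonunits_subset hc₀
  have hT : ∑ i ∈ Finset.range n, a i * c₀ ^ (n - i) ∈ A.nonunits := by
    refine vin_nu_sum A _ _ fun i hi => ?_
    have hi' : i < n := Finset.mem_range.mp hi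
    obtain ⟨e, he⟩ : ∃ e, n - i = e + 1 := ⟨n - i - 1, by omega⟩
    have e1 : a i * c₀ ^ (e + 1) = c₀ * (a i * c₀ ^ e) := by ring
    rw [he, e1]
    exact vin_nu_mul_mem A hc₀ (A.mul_mem _ _ (ha i) (pow_mem hc₀A e))
  rw [Finset.sum_range_succ, han, Nat.sub_self, pow_zero, mul_one]
  refine ⟨A.add_mem _ _ (ValuationSubring.nonunits_subset hT) A.one_mem, fun hcon => ?_⟩
  have h1 : (1 : K) ∈ A.nonunits := by
    have := vin_nu_add A hcon (vin_nu_neg A hT)
    rwa [add_neg_cancel_comm] at this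
  exact vin_nu_one A h1

theorem vin_pow_not_nu {K : Type} [Field K] (A : ValuationSubring K) {c : K} (hc : c ∉ A.nonunits)
    (M : ℕ) : c ^ M ∉ A.nonunits := by
  rw [ValuationSubring.mem_nonunits_iff, not_lt] at *
  rw [map_pow]
  exact one_le_pow₀ hc


/-- An algebraic integer lies in every valuation subring. -/
theorem vin_mem_of_isIntegral {K : Type} [Field K] (A : ValuationSubring K) {x : K}
    (hx : IsIntegral ℤ x) : x ∈ A := by
  have h1 : IsIntegral ↥A x := hx.tower_top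
  obtain ⟨y, hy⟩ := IsIntegrallyClosed.isIntegral_iff.mp h1
  rw [← hy]
  exact y.2

/-! ## The abstract statement -/

section Abstract

variable {K F F' : Type} [Field K] [Field F] [Field F'] [Algebra K F] [Algebra K F']

/-- `A[t] ⊆ F` (generic version of `val_baseRing`). -/
def vin_base (A : ValuationSubring K) (t : F) : Subring F :=
  Subring.closure (Set.range ((algebraMap K F).comp A.subtype) ∪ {t})

theorem vin_base_const (A : ValuationSubring K) (t : F) {a : K} (ha : a ∈ A) :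
    algebraMap K F a ∈ vin_base A t :=
  Subring.subset_closure (Or.inl ⟨⟨a, ha⟩, rfl⟩)

theorem vin_base_gen (A : ValuationSubring K) (t : F) : t ∈ vin_base A t :=
  Subring.subset_closure (Or.inr rfl)

/-- Polynomial expressions with coefficients in `A`. -/
theorem vin_aeval_mem (A : ValuationSubring K) (S : Subring F)
    (hS : ∀ a ∈ A, algebraMap K F a ∈ S) {t : F} (ht : t ∈ S) (φ : K[X])
    (hφ : ∀ m, φ.coeff m ∈ A) : Polynomial.aeval t φ ∈ S := by
  rw [Polynomial.aeval_eq_sum_range]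
  refine S.sum_mem fun m _ => ?_
  rw [Algebra.smul_def]
  exact S.mul_mem (hS _ (hφ m)) (S.pow_mem ht m)

/-- The image of `A[t]` under a `K`-algebra homomorphism `φ` is contained in every subring
containing the constants from `A` and `φ t`. -/
theorem vin_base_map_le (A : ValuationSubring K) (t : F) (φ : F →ₐ[K] F') (T : Subring F')
    (h1 : ∀ a ∈ A, algebraMap K F' a ∈ T) (h2 : φ t ∈ T) :
    (vin_base A t).map (φ : F →+* F') ≤ T := by
  rw [Subring.map_le_iff_le_comap, vin_base, Subring.closure_le]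
  rintro x (⟨a, rfl⟩ | hx)
  · show φ (algebraMap K F (a : K)) ∈ T
    rw [φ.commutes]
    exact h1 a a.2
  · rw [Set.mem_singleton_iff.mp hx]
    exact h2

/-- The chart of `j`. -/
theorem vin_case_true (hCI : val_CharpolyIntegralStatement) [CharZero K] (A : ValuationSubring K)
    (α β : F →ₐ[K] F') (hfin : FiniteAlong K β) (j : F)
    (Φ : Polynomial (Polynomial K)) (hΦm : Φ.Monic) (hΦA : ∀ i m, (Φ.coeff i).coeff m ∈ A)
    (hΦ1 : (Φ.map (Polynomial.aeval (β j) : Polynomial K →ₐ[K] F').toRingHom).eval (α j) = 0)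
    (g : F) (hg : IsIntegral ↥(vin_base A j) g) (n : ℕ) :
    IsIntegral ↥(vin_base A j) ((hi_charpolyAlong β hfin (α g)).coeff n) := by
  -- constants and `β j` lie in `β(A[j])`
  have hconst : ∀ a ∈ A, algebraMap K F' a ∈ (vin_base A j).map (β : F →+* F') := by
    intro a ha
    rw [← β.commutes a]
    exact Subring.mem_map.mpr ⟨_, vin_base_const A j ha, rfl⟩
  have hβj : β j ∈ (vin_base A j).map (β : F →+* F') :=
    Subring.mem_map.mpr ⟨j, vin_base_gen A j, rfl⟩
  -- `α j` is integral over `β(A[j])`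
  have hαj : IsIntegral ↥((vin_base A j).map (β : F →+* F')) (α j) := by
    refine vin_isIntegral_of_lifts _ _ (hΦm.map _) ?_ _ hΦ1
    rw [Polynomial.lifts_iff_coeff_lifts]
    intro i
    rw [Polynomial.coeff_map]
    exact ⟨⟨_, vin_aeval_mem A _ hconst hβj (Φ.coeff i) (hΦA i)⟩, rfl⟩
  -- `α g` is integral over `α(A[j])`, hence over `β(A[j])`
  have h1 : IsIntegral ↥((vin_base A j).map (α : F →+* F')) (α g) :=
    vin_isIntegral_map (α : F →+* F') _ _ le_rfl hg
  have h2 : (vin_base A j).map (α : F →+* F') ≤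
      (integralClosure ↥((vin_base A j).map (β : F →+* F')) F').toSubring :=
    vin_base_map_le A j α _ (fun a ha => vin_isIntegral_of_mem _ (hconst a ha)) hαj
  have h3 : IsIntegral ↥((vin_base A j).map (β : F →+* F')) (α g) :=
    vin_isIntegral_trans _ _ (fun y hy => h2 hy) h1
  exact hCI K F F' β hfin (vin_base A j) (α g) h3 n

/-- The chart of `1/j`. -/
theorem vin_case_false (hCI : val_CharpolyIntegralStatement) [CharZero K] (A : ValuationSubring K)
    (α β : F →ₐ[K] F') (hfin : FiniteAlong K β) (j : F) (hj : j ≠ 0)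
    (Φ : Polynomial (Polynomial K)) (hΦm : Φ.Monic) (hΦA : ∀ i m, (Φ.coeff i).coeff m ∈ A)
    (hΦ2 : (Φ.map (Polynomial.aeval (α j) : Polynomial K →ₐ[K] F').toRingHom).eval (β j) = 0)
    (P : Place K F) (c₀ : K) (hc₀ : c₀ ∈ A.nonunits) (hP : HasValue P j⁻¹ c₀)
    (g : F) (hg : IsIntegral ↥(vin_base A j⁻¹) g) (n : ℕ) :
    ∃ s : F, s ∈ vin_base A j⁻¹ ∧
      IsIntegral ↥(vin_base A j⁻¹) (s * (hi_charpolyAlong β hfin (α g)).coeff n) ∧
      ∃ c : K, c ∈ A ∧ c ∉ A.nonunits ∧ HasValue P s c := by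
  -- a bound for the degrees in `T`
  obtain ⟨D, hD⟩ : ∃ D : ℕ, ∀ i, (Φ.coeff i).natDegree ≤ D := by
    refine ⟨(Finset.range (Φ.natDegree + 1)).sup fun i => (Φ.coeff i).natDegree, fun i => ?_⟩
    by_cases hi : i ∈ Finset.range (Φ.natDegree + 1)
    · exact Finset.le_sup (f := fun i => (Φ.coeff i).natDegree) hi
    · rw [Polynomial.coeff_eq_zero_of_natDegree_lt (by rw [Finset.mem_range] at hi; omega),
        Polynomial.natDegree_zero]
      exact Nat.zero_le _
  -- the denominator `s₀ = λ(u)` and its value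
  have hs₀mem : (∑ i ∈ Finset.range (Φ.natDegree + 1),
      algebraMap K F ((Φ.coeff i).coeff 0) * j⁻¹ ^ (Φ.natDegree - i)) ∈ vin_base A j⁻¹ :=
    Subring.sum_mem _ fun i _ => Subring.mul_mem _ (vin_base_const A _ (hΦA i 0))
      (Subring.pow_mem _ (vin_base_gen A _) _)
  have hv : HasValue P (∑ i ∈ Finset.range (Φ.natDegree + 1),
      algebraMap K F ((Φ.coeff i).coeff 0) * j⁻¹ ^ (Φ.natDegree - i))
      (∑ i ∈ Finset.range (Φ.natDegree + 1), (Φ.coeff i).coeff 0 * c₀ ^ (Φ.natDegree - i)) :=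
    hv_sum _ _ _ fun i _ => hv_mul (hv_algebraMap P _) (hv_pow hP _)
  have hc₁ := vin_unit_value A Φ.natDegree (fun i => (Φ.coeff i).coeff 0) (fun i => hΦA i 0)
    (by show (Φ.coeff Φ.natDegree).coeff 0 = 1
        rw [hΦm.coeff_natDegree, Polynomial.coeff_one_zero]) c₀ hc₀
  have hc₁0 : (∑ i ∈ Finset.range (Φ.natDegree + 1),
      (Φ.coeff i).coeff 0 * c₀ ^ (Φ.natDegree - i)) ≠ 0 := by
    intro h
    apply hc₁.2
    rw [h]
    exact vin_nu_zero A
  have hs₀0 : (∑ i ∈ Finset.range (Φ.natDegree + 1),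
      algebraMap K F ((Φ.coeff i).coeff 0) * j⁻¹ ^ (Φ.natDegree - i)) ≠ 0 := by
    intro h
    rw [h] at hv
    exact hc₁0 (hv_unique hv (hv_zero P))
  generalize hs₀def : (∑ i ∈ Finset.range (Φ.natDegree + 1),
      algebraMap K F ((Φ.coeff i).coeff 0) * j⁻¹ ^ (Φ.natDegree - i)) = s₀ at hs₀mem hv hs₀0
  generalize (∑ i ∈ Finset.range (Φ.natDegree + 1),
      (Φ.coeff i).coeff 0 * c₀ ^ (Φ.natDegree - i)) = c₁ at hv hc₁
  -- the relation `Φ(J', J) = 0` as a double sum, and its inverted form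
  have hJ : α j ≠ 0 := (map_ne_zero α).mpr hj
  have hJ' : β j ≠ 0 := (map_ne_zero β).mpr hj
  have hrel0 : ∑ i ∈ Finset.range (Φ.natDegree + 1),
      (∑ m ∈ Finset.range (D + 1), algebraMap K F' ((Φ.coeff i).coeff m) * (α j) ^ m) *
        (β j) ^ i = 0 := by
    rw [Polynomial.eval_map, Polynomial.eval₂_eq_sum_range] at hΦ2
    rw [← hΦ2]
    refine Finset.sum_congr rfl fun i _ => ?_
    congr 1
    show _ = Polynomial.aeval (α j) (Φ.coeff i)
    rw [Polynomial.aeval_eq_sum_range' (Nat.lt_succ_of_le (hD i))]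
    refine Finset.sum_congr rfl fun m _ => ?_
    rw [Algebra.smul_def]
  have hrel := vin_rel (α j) (β j) hJ hJ' Φ.natDegree D
    (fun i m => algebraMap K F' ((Φ.coeff i).coeff m)) hrel0
  -- the ring `R = A[u][1/s₀]`
  have hR : vin_base A j⁻¹ ≤ Subring.closure ((vin_base A j⁻¹ : Set F) ∪ {s₀⁻¹}) :=
    fun x hx => Subring.subset_closure (Or.inl hx)
  have hconst : ∀ a ∈ A, algebraMap K F' a ∈
      (Subring.closure ((vin_base A j⁻¹ : Set F) ∪ {s₀⁻¹})).map (β : F →+* F') := by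
    intro a ha
    rw [← β.commutes a]
    exact Subring.mem_map.mpr ⟨_, hR (vin_base_const A _ ha), rfl⟩
  have hβu : (β j)⁻¹ ∈
      (Subring.closure ((vin_base A j⁻¹ : Set F) ∪ {s₀⁻¹})).map (β : F →+* F') := by
    rw [← map_inv₀]
    exact Subring.mem_map.mpr ⟨_, hR (vin_base_gen A _), rfl⟩
  have hb : ∀ m, (∑ i ∈ Finset.range (Φ.natDegree + 1),
      algebraMap K F' ((Φ.coeff i).coeff m) * (β j)⁻¹ ^ (Φ.natDegree - i)) ∈
      (Subring.closure ((vin_base A j⁻¹ : Set F) ∪ {s₀⁻¹})).map (β : F →+* F') :=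
    fun m => Subring.sum_mem _ fun i _ => Subring.mul_mem _ (hconst _ (hΦA i m))
      (Subring.pow_mem _ hβu _)
  have hb0 : (∑ i ∈ Finset.range (Φ.natDegree + 1),
      algebraMap K F' ((Φ.coeff i).coeff 0) * (β j)⁻¹ ^ (Φ.natDegree - i)) = β s₀ := by
    rw [← hs₀def, map_sum]
    refine Finset.sum_congr rfl fun i _ => ?_
    rw [map_mul, map_pow, map_inv₀, β.commutes]
  have hb0ne : (∑ i ∈ Finset.range (Φ.natDegree + 1),
      algebraMap K F' ((Φ.coeff i).coeff 0) * (β j)⁻¹ ^ (Φ.natDegree - i)) ≠ 0 := by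
    rw [hb0]
    exact (map_ne_zero β).mpr hs₀0
  have hb0inv : (∑ i ∈ Finset.range (Φ.natDegree + 1),
      algebraMap K F' ((Φ.coeff i).coeff 0) * (β j)⁻¹ ^ (Φ.natDegree - i))⁻¹ ∈
      (Subring.closure ((vin_base A j⁻¹ : Set F) ∪ {s₀⁻¹})).map (β : F →+* F') := by
    rw [hb0, ← map_inv₀]
    exact Subring.mem_map.mpr ⟨s₀⁻¹, Subring.subset_closure (Or.inr rfl), rfl⟩
  -- `α u` is integral over `β(R)`
  have hU : IsIntegral
      ↥((Subring.closure ((vin_base A j⁻¹ : Set F) ∪ {s₀⁻¹})).map (β : F →+* F')) (α j)⁻¹ :=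
    vin_isIntegral_of_rel _ _ D
      (fun m => ∑ i ∈ Finset.range (Φ.natDegree + 1),
        algebraMap K F' ((Φ.coeff i).coeff m) * (β j)⁻¹ ^ (Φ.natDegree - i))
      hb hb0ne hb0inv hrel
  have hαu : IsIntegral
      ↥((Subring.closure ((vin_base A j⁻¹ : Set F) ∪ {s₀⁻¹})).map (β : F →+* F')) (α j⁻¹) := by
    rw [map_inv₀]
    exact hU
  -- `α g` is integral over `α(A[u])`, hence over `β(R)`
  have h1 : IsIntegral ↥((vin_base A j⁻¹).map (α : F →+* F')) (α g) :=
    vin_isIntegral_map (α : F →+* F') _ _ le_rfl hg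
  have h2 : (vin_base A j⁻¹).map (α : F →+* F') ≤ (integralClosure
      ↥((Subring.closure ((vin_base A j⁻¹ : Set F) ∪ {s₀⁻¹})).map (β : F →+* F')) F').toSubring :=
    vin_base_map_le A j⁻¹ α _ (fun a ha => vin_isIntegral_of_mem _ (hconst a ha)) hαu
  have h3 : IsIntegral
      ↥((Subring.closure ((vin_base A j⁻¹ : Set F) ∪ {s₀⁻¹})).map (β : F →+* F')) (α g) :=
    vin_isIntegral_trans _ _ (fun y hy => h2 hy) h1
  -- the black box, and clearing denominators
  have h4 : IsIntegral ↥(Subring.closure ((vin_base A j⁻¹ : Set F) ∪ {s₀⁻¹}))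
      ((hi_charpolyAlong β hfin (α g)).coeff n) :=
    hCI K F F' β hfin _ (α g) h3 n
  obtain ⟨M, hM⟩ := vin_scale (vin_base A j⁻¹) s₀ hs₀mem hs₀0 h4
  exact ⟨s₀ ^ M, Subring.pow_mem _ hs₀mem M, hM, c₁ ^ M, pow_mem hc₁.1 M,
    vin_pow_not_nu A hc₁.2 M, hv_pow hv M⟩

end Abstract

/-! ## The modular situation -/

/-- `evalL x` is evaluation at `x` in the `K`-algebra `K((q))`. -/
theorem vin_evalL_eq {K : Type} [Field K] (x : LaurentSeries K) :
    evalL x = (Polynomial.aeval x : Polynomial K →ₐ[K] LaurentSeries K).toRingHom := by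
  refine Polynomial.ringHom_ext (fun a => ?_) ?_
  · rw [Fermat.Agent.S28.subst_evalL_C]
    simp only [AlgHom.toRingHom_eq_coe, RingHom.coe_coe, aeval_C]
    rw [algebraMap_laurentSeries_eq_single, HahnSeries.C_apply]
  · rw [Fermat.Agent.S28.subst_evalL_X]
    simp only [AlgHom.toRingHom_eq_coe, RingHom.coe_coe, aeval_X]

/-- A relation between series lying in an intermediate field `E` of `K((q)) / K` holds in `E`. -/
theorem vin_descend {K : Type} [Field K] (E : IntermediateField K (LaurentSeries K)) (t x : ↥E)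
    (Φ : Polynomial (Polynomial K))
    (h : (Φ.map (evalL (t : LaurentSeries K))).eval (x : LaurentSeries K) = 0) :
    (Φ.map (Polynomial.aeval t : Polynomial K →ₐ[K] ↥E).toRingHom).eval x = 0 := by
  have hcomp : (algebraMap ↥E (LaurentSeries K)).comp
      (Polynomial.aeval t : Polynomial K →ₐ[K] ↥E).toRingHom = evalL (t : LaurentSeries K) := by
    rw [vin_evalL_eq]
    refine Polynomial.ringHom_ext (fun a => ?_) ?_
    · simp only [AlgHom.toRingHom_eq_coe, RingHom.coe_comp, RingHom.coe_coe,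
        Function.comp_apply, aeval_C]
      rfl
    · simp only [AlgHom.toRingHom_eq_coe, RingHom.coe_comp, RingHom.coe_coe,
        Function.comp_apply, aeval_X]
      rfl
  have h' := Polynomial.eval₂_at_apply
    (p := Φ.map (Polynomial.aeval t : Polynomial K →ₐ[K] ↥E).toRingHom)
    (algebraMap ↥E (LaurentSeries K)) x
  rw [← Polynomial.eval_map, Polynomial.map_map, hcomp] at h'
  apply Subtype.ext
  exact h'.symm.trans h

set_option synthInstance.maxHeartbeats 400000 in
theorem vin_base_eq (N : ℕ) (A : ValuationSubring Qb) (t : ↥(FL Qb N)) :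
    val_baseRing N A t = vin_base A t := rfl

set_option synthInstance.maxHeartbeats 400000 in
/-- (VAL-Integrality, (V2)). -/
theorem vin_main :
    kr_ModEqIntStatement → val_CharpolyIntegralStatement → val_IntegralityStatement := by
  intro hMod hCI N q _ _ hq A hfin i P hP g hg n
  obtain ⟨ζ, hζ⟩ := HasEnoughRootsOfUnity.exists_primitiveRoot Qb q
  obtain ⟨Φ, hmonic, -, hint, -, h5, h6⟩ := hMod q hq ζ hζ
  have hΦA : ∀ i m, (Φ.coeff i).coeff m ∈ A := fun i m => vin_mem_of_isIntegral A (hint i m)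
  -- the two relations in `F_{Nq}`
  have hΦ1 : (Φ.map (Polynomial.aeval (heckeBetaBar Qb N q (jF Qb N)) :
      Polynomial Qb →ₐ[Qb] ↥(FL Qb (N * q))).toRingHom).eval
      (heckeAlphaBar Qb N q (jF Qb N)) = 0 :=
    vin_descend (FL Qb (N * q)) _ _ Φ h5
  have hΦ2 : (Φ.map (Polynomial.aeval (heckeAlphaBar Qb N q (jF Qb N)) :
      Polynomial Qb →ₐ[Qb] ↥(FL Qb (N * q))).toRingHom).eval
      (heckeBetaBar Qb N q (jF Qb N)) = 0 :=
    vin_descend (FL Qb (N * q)) _ _ Φ h6
  unfold val_InLoc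
  rcases hP with ⟨rfl, hP⟩ | ⟨rfl, hP⟩
  · have ht : val_t true Qb N = jF Qb N := if_pos rfl
    rw [ht] at hg ⊢
    rw [val_mem_chart_iff, vin_base_eq] at hg
    refine ⟨_, 1, ?_, Subring.one_mem _, one_mul _, 1, A.one_mem, vin_nu_one A, hv_one P⟩
    rw [val_mem_chart_iff, vin_base_eq]
    exact vin_case_true hCI A _ _ hfin (jF Qb N) Φ hmonic hΦA hΦ1 g hg n
  · have ht : val_t false Qb N = (jF Qb N)⁻¹ := if_neg (by decide)
    rw [ht] at hg ⊢
    rw [val_mem_chart_iff, vin_base_eq] at hg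
    obtain ⟨c₀, hc₀, hPc⟩ := hP
    have hj : jF Qb N ≠ 0 := fun h =>
      jqModC_ne_zero_of_nontrivial Qb (congrArg Subtype.val h)
    obtain ⟨s, hs, hsa, c, hc, hcn, hv⟩ := vin_case_false hCI A _ _ hfin (jF Qb N) hj Φ hmonic
      hΦA hΦ2 P c₀ hc₀ hPc g hg n
    refine ⟨_, s, ?_, ?_, rfl, c, hc, hcn, hv⟩
    · rw [val_mem_chart_iff, vin_base_eq]
      exact hsa
    · rw [val_mem_chart_iff, vin_base_eq]
      exact vin_isIntegral_of_mem _ hs

end Fermat.Agent.S37
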