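/-
S37, block KR, package KRIntegral (KR3): the integral form of the Kronecker congruence.

`krin_main : kr_CharpolyStatement → kr_IntegralStatement`.
-/
import Fermat.Agent.S37.KRInterfaces
import Fermat.Agent.S28.EtaProdB
import Fermat.Prelude.Thm_ModularCurve_coeffMap_qExpand

set_option autoImplicit false

open AlgebraicCurve ModularCurve IntermediateField Polynomial
open Fermat.Agent.S28 (scale evalL)

namespace Fermat.Agent.S37

noncomputable section

/-! ### Frobenius on Laurent series -/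

/-- In characteristic `ℓ`, the `ℓ`-th power of a Laurent series `f(q)` is `f^φ(q^ℓ)`, where `φ`
is the Frobenius on coefficients. -/
theorem krin_frob_series (k : Type) [Field k] (ℓ : ℕ) [NeZero ℓ] (hℓ : ℓ.Prime) [CharP k ℓ]
    (φ : k →+* k) (hφ : ∀ x, φ x = x ^ ℓ) (f : LaurentSeries k) :
    f ^ ℓ = qExpand k ℓ (coeffMap φ f) := by
  have : Fact ℓ.Prime := ⟨hℓ⟩
  have hφ' : φ = frobenius k ℓ := RingHom.ext fun x => by rw [hφ, frobenius_def]
  have hps : ∀ g : PowerSeries k, (HahnSeries.ofPowerSeries ℤ k g) ^ ℓ =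
      qExpand k ℓ (coeffMap φ (HahnSeries.ofPowerSeries ℤ k g)) := by
    intro g
    rw [coeffMap_ofPowerSeries, Fermat.Agent.S28.etaProdB_qExpand_ofPS, ← map_pow, hφ',
      ← PowerSeries.map_expand]
    congr 1
    exact (MvPowerSeries.map_frobenius_expand ℓ (NeZero.ne ℓ)).symm
  conv_lhs => rw [← LaurentSeries.single_order_mul_powerSeriesPart f]
  conv_rhs => rw [← LaurentSeries.single_order_mul_powerSeriesPart f]
  rw [mul_pow, map_mul, map_mul, ← hps, coeffMap_single, qExpand_single, map_one φ,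
    HahnSeries.single_pow, one_pow, nsmul_eq_mul]

/-! ### Contraction `q^ℓ ↦ q` -/

/-- The Laurent series whose `n`-th coefficient is the `ℓ n`-th coefficient of `f`. -/
def krin_contract {R : Type} [CommRing R] (ℓ : ℕ) [NeZero ℓ] (f : LaurentSeries R) :
    LaurentSeries R :=
  HahnSeries.ofSuppBddBelow (fun n : ℤ => f.coeff ((ℓ : ℤ) * n))
    ⟨min f.order 0, fun n hn => by
      by_contra hlt
      rw [not_le] at hlt
      apply hn
      have h0 : n < 0 := lt_of_lt_of_le hlt (min_le_right _ _)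
      have h1 : n < f.order := lt_of_lt_of_le hlt (min_le_left _ _)
      have hℓ : (1 : ℤ) ≤ (ℓ : ℤ) := by exact_mod_cast Nat.pos_of_ne_zero (NeZero.ne ℓ)
      have h2 : (ℓ : ℤ) * n ≤ n := by nlinarith
      exact HahnSeries.coeff_eq_zero_of_lt_order (lt_of_le_of_lt h2 h1)⟩

theorem krin_contract_coeff {R : Type} [CommRing R] (ℓ : ℕ) [NeZero ℓ] (f : LaurentSeries R)
    (n : ℤ) : (krin_contract ℓ f).coeff n = f.coeff ((ℓ : ℤ) * n) := rfl

theorem krin_contract_qExpand {R : Type} [CommRing R] (ℓ : ℕ) [NeZero ℓ] (f : LaurentSeries R) :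
    krin_contract ℓ (qExpand R ℓ f) = f := by
  ext n
  rw [krin_contract_coeff, qExpand_coeff_mul]

theorem krin_coeffMap_contract {R S : Type} [CommRing R] [CommRing S] (ψ : R →+* S) (ℓ : ℕ)
    [NeZero ℓ] (f : LaurentSeries R) :
    coeffMap ψ (krin_contract ℓ f) = krin_contract ℓ (coeffMap ψ f) := by
  ext n
  rw [coeffMap_coeff, krin_contract_coeff, krin_contract_coeff, coeffMap_coeff]

/-! ### Scaling over the valuation ring -/

/-- The substitution `q ↦ c q` on Laurent series over a valuation subring `A`, for an element `c`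
all of whose integer powers lie in `A`. -/
def krin_scaleA {K : Type} [Field K] (A : ValuationSubring K) (c : K)
    (hc : ∀ n : ℤ, c ^ n ∈ A) (f : LaurentSeries ↥A) : LaurentSeries ↥A where
  coeff n := ⟨c ^ n, hc n⟩ * f.coeff n
  isPWO_support' := f.isPWO_support.mono fun n hn => by
    simp only [Function.mem_support, ne_eq] at hn ⊢
    exact fun h => hn (by rw [h, mul_zero])

theorem krin_scaleA_subtype {K : Type} [Field K] (A : ValuationSubring K) (c : K)
    (hc : ∀ n : ℤ, c ^ n ∈ A) (f : LaurentSeries ↥A) :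
    coeffMap A.subtype (krin_scaleA A c hc f) = scale c (coeffMap A.subtype f) := by
  ext n
  rfl

theorem krin_scaleA_residue {K : Type} [Field K] (A : ValuationSubring K) (c : K)
    (hc : ∀ n : ℤ, c ^ n ∈ A) (f : LaurentSeries ↥A)
    (h1 : ∀ n : ℤ, IsLocalRing.residue ↥A ⟨c ^ n, hc n⟩ = 1) :
    coeffMap (IsLocalRing.residue ↥A) (krin_scaleA A c hc f) =
      coeffMap (IsLocalRing.residue ↥A) f := by
  ext n
  rw [coeffMap_coeff, coeffMap_coeff]
  show IsLocalRing.residue ↥A (⟨c ^ n, hc n⟩ * f.coeff n) = _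
  rw [map_mul, h1 n, one_mul]

/-! ### The main theorem -/

/-- (KR3) The integral form of the Kronecker congruence, from the characteristic polynomial
formula (KR2). -/
theorem krin_main : kr_CharpolyStatement → kr_IntegralStatement := by
  intro hCP N ℓ _ _ hℓ hN hfin A hA φ hφ y hy w hw i
  have hFact : Fact ℓ.Prime := ⟨hℓ⟩
  -- the residue field has characteristic `ℓ`
  have hℓk : ((ℓ : ℕ) : IsLocalRing.ResidueField ↥A) = 0 := by
    have h1 : (((ℓ : ℕ) : ↥A) : AlgebraicClosure ℚ) ∈ A.nonunits := hA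
    have h2 : ((ℓ : ℕ) : ↥A) ∈ IsLocalRing.maximalIdeal ↥A := A.coe_mem_nonunits_iff.mp h1
    have h3 := (IsLocalRing.residue_eq_zero_iff _).mpr h2
    rwa [map_natCast] at h3
  have hChar : CharP (IsLocalRing.ResidueField ↥A) ℓ := (CharP.charP_iff_prime_eq_zero hℓ).mpr hℓk
  -- a primitive `ℓ`-th root of unity
  obtain ⟨ζ, hζ⟩ : ∃ ζ : AlgebraicClosure ℚ, IsPrimitiveRoot ζ ℓ := by
    have : NeZero ((ℓ : ℕ) : AlgebraicClosure ℚ) := ⟨Nat.cast_ne_zero.mpr (NeZero.ne ℓ)⟩
    exact HasEnoughRootsOfUnity.exists_primitiveRoot _ ℓ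
  -- `ℓ`-th roots of unity lie in `A` and reduce to `1`
  have hmem : ∀ c : AlgebraicClosure ℚ, c ^ ℓ = 1 → c ∈ A := by
    intro c hc
    rw [← A.valuation_le_one_iff]
    have h1 : A.valuation c ^ ℓ = 1 := by rw [← map_pow, hc, map_one]
    exact ((pow_eq_one_iff_of_nonneg zero_le (NeZero.ne ℓ)).mp h1).le
  have hres : ∀ a : ↥A, a ^ ℓ = 1 → IsLocalRing.residue ↥A a = 1 := by
    intro a ha
    have h1 : (IsLocalRing.residue ↥A a - 1) ^ ℓ = 0 := by
      rw [← hφ, map_sub, map_one, hφ, ← map_pow, ha, map_one, sub_self]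
    exact sub_eq_zero.mp (pow_eq_zero_iff (NeZero.ne ℓ) |>.mp h1)
  have hζpow : ∀ (b : ℕ) (n : ℤ), ((ζ ^ b) ^ n) ^ ℓ = 1 := by
    intro b n
    rw [← zpow_natCast, ← zpow_mul, mul_comm, zpow_mul, zpow_natCast, ← pow_mul, mul_comm,
      pow_mul, hζ.pow_eq_one, one_pow, one_zpow]
  have hc : ∀ (b : ℕ) (n : ℤ), (ζ ^ b) ^ n ∈ A := fun b n => hmem _ (hζpow b n)
  have hc1 : ∀ (b : ℕ) (n : ℤ), IsLocalRing.residue ↥A ⟨(ζ ^ b) ^ n, hc b n⟩ = 1 :=
    fun b n => hres _ (Subtype.ext (hζpow b n))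
  -- the polynomial over `A((q))`
  obtain ⟨PA, hPA⟩ : ∃ PA : Polynomial (LaurentSeries ↥A), PA =
      (X - C (qExpand ↥A (ℓ * ℓ) y)) *
        ∏ b ∈ Finset.range ℓ, (X - C (krin_scaleA A (ζ ^ b) (hc b) y)) := ⟨_, rfl⟩
  have hCP' := hCP N ℓ hℓ hN hfin ζ hζ ⟨coeffMap A.subtype y, hy⟩
  -- its image over `ℚ̄((q))`
  have hmapA : PA.map (coeffMap A.subtype) =
      (X - C (qExpand (AlgebraicClosure ℚ) (ℓ * ℓ) (coeffMap A.subtype y))) *
        ∏ b ∈ Finset.range ℓ, (X - C (scale (ζ ^ b) (coeffMap A.subtype y))) := by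
    rw [hPA, Polynomial.map_mul, Polynomial.map_prod, Polynomial.map_sub, Polynomial.map_X,
      Polynomial.map_C, coeffMap_qExpand]
    congr 1
    refine Finset.prod_congr rfl fun b _ => ?_
    rw [Polynomial.map_sub, Polynomial.map_X, Polynomial.map_C, krin_scaleA_subtype]
  -- its reduction
  have hmapρ : PA.map (coeffMap (IsLocalRing.residue ↥A)) =
      ((X - C (w ^ ℓ)) *
        (X ^ ℓ - C (coeffMap φ (coeffMap (IsLocalRing.residue ↥A) y)))).map
          (qExpand (IsLocalRing.ResidueField ↥A) ℓ) := by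
    have hCharL : CharP (LaurentSeries (IsLocalRing.ResidueField ↥A)) ℓ :=
      charP_of_injective_ringHom (f := (HahnSeries.C :
        IsLocalRing.ResidueField ↥A →+* LaurentSeries (IsLocalRing.ResidueField ↥A)))
        HahnSeries.C_injective ℓ
    have e1 : qExpand (IsLocalRing.ResidueField ↥A) ℓ (w ^ ℓ) =
        qExpand (IsLocalRing.ResidueField ↥A) (ℓ * ℓ) (coeffMap (IsLocalRing.residue ↥A) y) := by
      rw [krin_frob_series _ ℓ hℓ φ hφ w, qExpand_qExpand, hw]
    have e2 : qExpand (IsLocalRing.ResidueField ↥A) ℓ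
        (coeffMap φ (coeffMap (IsLocalRing.residue ↥A) y)) =
        (coeffMap (IsLocalRing.residue ↥A) y) ^ ℓ :=
      (krin_frob_series _ ℓ hℓ φ hφ _).symm
    rw [hPA, Polynomial.map_mul, Polynomial.map_prod, Polynomial.map_sub, Polynomial.map_X,
      Polynomial.map_C, coeffMap_qExpand, Polynomial.map_mul, Polynomial.map_sub,
      Polynomial.map_sub, Polynomial.map_X, Polynomial.map_C, Polynomial.map_pow,
      Polynomial.map_X, Polynomial.map_C, e1, e2]
    congr 1
    have e3 : ∀ b ∈ Finset.range ℓ,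
        (X - C (krin_scaleA A (ζ ^ b) (hc b) y)).map (coeffMap (IsLocalRing.residue ↥A)) =
          X - C (coeffMap (IsLocalRing.residue ↥A) y) := by
      intro b _
      rw [Polynomial.map_sub, Polynomial.map_X, Polynomial.map_C,
        krin_scaleA_residue A (ζ ^ b) (hc b) y (hc1 b)]
    rw [Finset.prod_congr rfl e3, Finset.prod_const, Finset.card_range, sub_pow_char, C_pow]
  refine ⟨krin_contract ℓ (PA.coeff i), ?_, ?_⟩
  · have h1 : qExpand (AlgebraicClosure ℚ) ℓ
        (((hi_charpolyAlong (heckeBetaBar (AlgebraicClosure ℚ) N ℓ) hfin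
            (heckeAlphaBar (AlgebraicClosure ℚ) N ℓ
              (⟨coeffMap A.subtype y, hy⟩ : ↥(modularFunctionFieldBar N)))).coeff i :
            ↥(modularFunctionFieldBar N)) : LaurentSeries (AlgebraicClosure ℚ)) =
        coeffMap A.subtype (PA.coeff i) := by
      rw [← Polynomial.coeff_map, hmapA, ← hCP', Polynomial.coeff_map]
      rfl
    rw [krin_coeffMap_contract, ← h1, krin_contract_qExpand]
  · rw [krin_coeffMap_contract, ← Polynomial.coeff_map, hmapρ, Polynomial.coeff_map,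
      krin_contract_qExpand]

end

end Fermat.Agent.S37
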