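/-
S37, block VAL, package VALKR3: the Kronecker congruence in Gauss-local form.

`vk3_main : kr_CharpolyStatement → val_RedCalcStatement → val_KR3Statement`.
-/
import Fermat.Agent.S37.VALInterfaces
import Fermat.Agent.S37.KRIntegralA
import Fermat.Agent.S28.Subst

set_option autoImplicit false

open AlgebraicCurve ModularCurve IntermediateField Polynomial
open Fermat.Agent.S28 (scale evalL)

namespace Fermat.Agent.S37

open Fermat.Agent.S18

noncomputable section

set_option synthInstance.maxHeartbeats 400000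

/-! ### Coefficientwise Gauss-local reduction of polynomials -/

/-- `pbar` is the coefficientwise Gauss-local reduction of the polynomial `p`. -/
def vk3_PRed (A : ValuationSubring Qb) (p : Polynomial (LaurentSeries Qb))
    (pbar : Polynomial (LaurentSeries (kA A))) : Prop :=
  ∀ n : ℕ, val_Red A (p.coeff n) (pbar.coeff n)

section vk3_calc

variable (A : ValuationSubring Qb)
  (hadd : ∀ (a a' : LaurentSeries Qb) (z z' : LaurentSeries (kA A)),
    val_Red A a z → val_Red A a' z' → val_Red A (a + a') (z + z'))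
  (hmul : ∀ (a a' : LaurentSeries Qb) (z z' : LaurentSeries (kA A)),
    val_Red A a z → val_Red A a' z' → val_Red A (a * a') (z * z'))
  (hneg : ∀ (a : LaurentSeries Qb) (z : LaurentSeries (kA A)), val_Red A a z → val_Red A (-a) (-z))
  (hincl : ∀ y : LaurentSeries ↥A,
    val_Red A (coeffMap A.subtype y) (coeffMap (IsLocalRing.residue ↥A) y))

include hincl in
theorem vk3_red_zero : val_Red A 0 0 := by
  have h := hincl 0
  rwa [map_zero, map_zero] at h

include hadd hincl in
theorem vk3_red_sum {ι : Type} (s : Finset ι) (f : ι → LaurentSeries Qb)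
    (fbar : ι → LaurentSeries (kA A)) (h : ∀ i ∈ s, val_Red A (f i) (fbar i)) :
    val_Red A (∑ i ∈ s, f i) (∑ i ∈ s, fbar i) := by
  classical
  induction s using Finset.induction_on with
  | empty =>
    rw [Finset.sum_empty, Finset.sum_empty]
    exact vk3_red_zero A hincl
  | insert a s ha ih =>
    rw [Finset.sum_insert ha, Finset.sum_insert ha]
    exact hadd _ _ _ _ (h a (Finset.mem_insert_self a s))
      (ih fun i hi => h i (Finset.mem_insert_of_mem hi))

include hincl in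
theorem vk3_pred_map (P : Polynomial (LaurentSeries ↥A)) :
    vk3_PRed A (P.map (coeffMap A.subtype)) (P.map (coeffMap (IsLocalRing.residue ↥A))) := by
  intro n
  rw [Polynomial.coeff_map, Polynomial.coeff_map]
  exact hincl _

include hadd hmul hincl in
theorem vk3_pred_mul (p p' : Polynomial (LaurentSeries Qb))
    (pbar pbar' : Polynomial (LaurentSeries (kA A))) (h : vk3_PRed A p pbar)
    (h' : vk3_PRed A p' pbar') : vk3_PRed A (p * p') (pbar * pbar') := by
  intro n
  rw [Polynomial.coeff_mul, Polynomial.coeff_mul]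
  exact vk3_red_sum A hadd hincl _ _ _ fun x _ => hmul _ _ _ _ (h x.1) (h' x.2)

include hadd hneg hincl in
theorem vk3_pred_X_sub_C (a : LaurentSeries Qb) (z : LaurentSeries (kA A)) (h : val_Red A a z) :
    vk3_PRed A (X - C a) (X - C z) := by
  intro n
  rw [Polynomial.coeff_sub, Polynomial.coeff_sub, sub_eq_add_neg, sub_eq_add_neg]
  refine hadd _ _ _ _ ?_ (hneg _ _ ?_)
  · have h1 := vk3_pred_map A hincl (X : Polynomial (LaurentSeries ↥A)) n
    rwa [Polynomial.map_X, Polynomial.map_X] at h1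
  · rw [Polynomial.coeff_C, Polynomial.coeff_C]
    split_ifs
    · exact h
    · exact vk3_red_zero A hincl

include hadd hmul hincl in
theorem vk3_pred_prod {ι : Type} (s : Finset ι) (p : ι → Polynomial (LaurentSeries Qb))
    (pbar : ι → Polynomial (LaurentSeries (kA A))) (h : ∀ i ∈ s, vk3_PRed A (p i) (pbar i)) :
    vk3_PRed A (∏ i ∈ s, p i) (∏ i ∈ s, pbar i) := by
  classical
  induction s using Finset.induction_on with
  | empty =>
    rw [Finset.prod_empty, Finset.prod_empty]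
    have h1 := vk3_pred_map A hincl (1 : Polynomial (LaurentSeries ↥A))
    rwa [Polynomial.map_one, Polynomial.map_one] at h1
  | insert a s ha ih =>
    rw [Finset.prod_insert ha, Finset.prod_insert ha]
    exact vk3_pred_mul A hadd hmul hincl _ _ _ _ (h a (Finset.mem_insert_self a s))
      (ih fun i hi => h i (Finset.mem_insert_of_mem hi))

end vk3_calc

/-! ### The main theorem -/

/-- (VAL-KR3) The Kronecker congruence in Gauss-local form. -/
theorem vk3_main : kr_CharpolyStatement → val_RedCalcStatement → val_KR3Statement := by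
  intro hCP hRC N ℓ _ _ hℓ hN hfin A hA τ hτ g gbar hg n
  obtain ⟨-, hadd, hmul, hneg, hincl, hqexp⟩ := hRC A
  have hFact : Fact ℓ.Prime := ⟨hℓ⟩
  have hτ' : ∀ x : kA A, (τ : kA A →+* kA A) x = x ^ ℓ := hτ
  -- the residue field has characteristic `ℓ`
  have hℓk : ((ℓ : ℕ) : kA A) = 0 := by
    have h1 : (((ℓ : ℕ) : ↥A) : Qb) ∈ A.nonunits := hA
    have h2 : ((ℓ : ℕ) : ↥A) ∈ IsLocalRing.maximalIdeal ↥A := A.coe_mem_nonunits_iff.mp h1
    have h3 := (IsLocalRing.residue_eq_zero_iff _).mpr h2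
    rwa [map_natCast] at h3
  have hChar : CharP (kA A) ℓ := (CharP.charP_iff_prime_eq_zero hℓ).mpr hℓk
  -- a primitive `ℓ`-th root of unity
  obtain ⟨ζ, hζ⟩ : ∃ ζ : Qb, IsPrimitiveRoot ζ ℓ := by
    have : NeZero ((ℓ : ℕ) : Qb) := ⟨Nat.cast_ne_zero.mpr (NeZero.ne ℓ)⟩
    exact HasEnoughRootsOfUnity.exists_primitiveRoot _ ℓ
  have hζ0 : ζ ≠ 0 := hζ.ne_zero (NeZero.ne ℓ)
  -- `ℓ`-th roots of unity lie in `A` and reduce to `1`
  have hmem : ∀ c : Qb, c ^ ℓ = 1 → c ∈ A := by
    intro c hc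
    rw [← A.valuation_le_one_iff]
    have h1 : A.valuation c ^ ℓ = 1 := by rw [← map_pow, hc, map_one]
    exact ((pow_eq_one_iff_of_nonneg zero_le (NeZero.ne ℓ)).mp h1).le
  have hres : ∀ a : ↥A, a ^ ℓ = 1 → IsLocalRing.residue ↥A a = 1 := by
    intro a ha
    have h1 : (IsLocalRing.residue ↥A a - 1) ^ ℓ = 0 := by
      rw [← hτ', map_sub, map_one, hτ', ← map_pow, ha, map_one, sub_self]
    exact sub_eq_zero.mp (pow_eq_zero_iff (NeZero.ne ℓ) |>.mp h1)
  have hζpow : ∀ (b : ℕ) (m : ℤ), ((ζ ^ b) ^ m) ^ ℓ = 1 := by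
    intro b m
    rw [← zpow_natCast, ← zpow_mul, mul_comm, zpow_mul, zpow_natCast, ← pow_mul, mul_comm,
      pow_mul, hζ.pow_eq_one, one_pow, one_zpow]
  have hc : ∀ (b : ℕ) (m : ℤ), (ζ ^ b) ^ m ∈ A := fun b m => hmem _ (hζpow b m)
  have hc1 : ∀ (b : ℕ) (m : ℤ), IsLocalRing.residue ↥A ⟨(ζ ^ b) ^ m, hc b m⟩ = 1 :=
    fun b m => hres _ (Subtype.ext (hζpow b m))
  have hCP' := hCP N ℓ hℓ hN hfin ζ hζ g
  -- (1) the factor `g(q^{ℓ²})`
  have h1 : val_Red A (qExpand Qb (ℓ * ℓ) (g : LaurentSeries Qb))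
      (qExpand (kA A) (ℓ * ℓ) gbar) := hqexp (ℓ * ℓ) _ _ hg
  -- (2) the factors `g(ζ^b q)`
  have h2 : ∀ b : ℕ, val_Red A (scale (ζ ^ b) (g : LaurentSeries Qb)) gbar := by
    intro b
    obtain ⟨u, w, hw0, hgw, hbar⟩ := hg
    refine ⟨krin_scaleA A (ζ ^ b) (hc b) u, krin_scaleA A (ζ ^ b) (hc b) w, ?_, ?_, ?_⟩
    · rw [krin_scaleA_residue A (ζ ^ b) (hc b) w (hc1 b)]
      exact hw0
    · rw [krin_scaleA_subtype, krin_scaleA_subtype,
        ← Fermat.Agent.S28.subst_scale_mul _ (pow_ne_zero b hζ0), hgw]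
    · rw [krin_scaleA_residue A (ζ ^ b) (hc b) w (hc1 b),
        krin_scaleA_residue A (ζ ^ b) (hc b) u (hc1 b)]
      exact hbar
  -- (3) the product reduces coefficientwise
  have h3 : vk3_PRed A
      ((X - C (qExpand Qb (ℓ * ℓ) (g : LaurentSeries Qb))) *
        ∏ b ∈ Finset.range ℓ, (X - C (scale (ζ ^ b) (g : LaurentSeries Qb))))
      ((X - C (qExpand (kA A) (ℓ * ℓ) gbar)) * ∏ _b ∈ Finset.range ℓ, (X - C gbar)) :=
    vk3_pred_mul A hadd hmul hincl _ _ _ _ (vk3_pred_X_sub_C A hadd hneg hincl _ _ h1)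
      (vk3_pred_prod A hadd hmul hincl _ _ _
        (fun b _ => vk3_pred_X_sub_C A hadd hneg hincl _ _ (h2 b)))
  -- (4) the reduction in closed form
  have h4 : (X - C (qExpand (kA A) (ℓ * ℓ) gbar)) * ∏ _b ∈ Finset.range ℓ, (X - C gbar) =
      ((X - C ((coeffMap (τ.symm : kA A →+* kA A) gbar) ^ ℓ)) *
        (X ^ ℓ - C (coeffMap (τ : kA A →+* kA A) gbar))).map (qExpand (kA A) ℓ) := by
    have hCharL : CharP (LaurentSeries (kA A)) ℓ :=
      charP_of_injective_ringHom (f := (HahnSeries.C : kA A →+* LaurentSeries (kA A)))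
        HahnSeries.C_injective ℓ
    have hww : coeffMap (τ : kA A →+* kA A) (coeffMap (τ.symm : kA A →+* kA A) gbar) = gbar := by
      rw [coeffMap_coeffMap]
      have hid : (τ : kA A →+* kA A).comp (τ.symm : kA A →+* kA A) = RingHom.id _ :=
        RingHom.ext fun x => τ.apply_symm_apply x
      rw [hid, coeffMap_id]
    have e1 : qExpand (kA A) ℓ ((coeffMap (τ.symm : kA A →+* kA A) gbar) ^ ℓ) =
        qExpand (kA A) (ℓ * ℓ) gbar := by
      rw [krin_frob_series _ ℓ hℓ (τ : kA A →+* kA A) hτ' _, qExpand_qExpand, hww]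
    have e2 : qExpand (kA A) ℓ (coeffMap (τ : kA A →+* kA A) gbar) = gbar ^ ℓ :=
      (krin_frob_series _ ℓ hℓ (τ : kA A →+* kA A) hτ' _).symm
    rw [Polynomial.map_mul, Polynomial.map_sub, Polynomial.map_sub, Polynomial.map_X,
      Polynomial.map_C, Polynomial.map_pow, Polynomial.map_X, Polynomial.map_C, e1, e2,
      Finset.prod_const, Finset.card_range, sub_pow_char, C_pow]
  have h5 : qExpand Qb ℓ
      (((hi_charpolyAlong (heckeBetaBar Qb N ℓ) hfin (heckeAlphaBar Qb N ℓ g)).coeff n :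
        ↥(FL Qb N)) : LaurentSeries Qb) =
      ((X - C (qExpand Qb (ℓ * ℓ) (g : LaurentSeries Qb))) *
        ∏ b ∈ Finset.range ℓ, (X - C (scale (ζ ^ b) (g : LaurentSeries Qb)))).coeff n := by
    rw [← hCP', Polynomial.coeff_map]
    rfl
  have h6 := h3 n
  rw [h4, Polynomial.coeff_map, ← h5] at h6
  exact h6

end

end Fermat.Agent.S37
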