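/-
S37, block VAL, package VALKernel (prefix `vkn_`): pure algebra.

Deliverables:
* `vkn_main : val_KernelStatement` — an additive endomorphism `T` of divisors such that
  `r_* (T [P])` only depends on `r P` preserves the kernel of `r_*`;
* `vkn_mapRange_sum` — casting a finite sum of `ℕ`-valued single divisors to `ℤ`.

Proof of the first.  Choose `m y := r_* (T [P])` for some `P` with `r P = y` (and `m y := 0` if
there is none), and let `Ψ` be the additive endomorphism of `Y →₀ ℤ` with `Ψ [y] = m y`.  The two
additive maps `D ↦ r_* (T D)` and `D ↦ Ψ (r_* D)` agree on every `[P]`, hence are equal; so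
`r_* D = 0` implies `r_* (T D) = Ψ 0 = 0`.
-/
import Fermat.Agent.S37.VALInterfaces

set_option autoImplicit false

namespace Fermat.Agent.S37

/-- The kernel lemma, unbundled form. -/
theorem vkn_kernel (X Y : Type) (r : X → Y) (T : (X →₀ ℤ) →+ (X →₀ ℤ))
    (h : ∀ P P' : X, r P = r P' →
      Finsupp.mapDomain r (T (Finsupp.single P 1)) =
        Finsupp.mapDomain r (T (Finsupp.single P' 1)))
    (D : X →₀ ℤ) (hD : Finsupp.mapDomain r D = 0) : Finsupp.mapDomain r (T D) = 0 := by
  classical
  -- a section of `r` on its image gives the value `m y` of `r_* (T [P])` for `r P = y`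
  let m : Y → (Y →₀ ℤ) := fun y =>
    if hy : ∃ P, r P = y then Finsupp.mapDomain r (T (Finsupp.single hy.choose 1)) else 0
  have hm : ∀ P : X, m (r P) = Finsupp.mapDomain r (T (Finsupp.single P 1)) := by
    intro P
    have hy : ∃ P', r P' = r P := ⟨P, rfl⟩
    show (if hy : ∃ P', r P' = r P then
      Finsupp.mapDomain r (T (Finsupp.single hy.choose 1)) else 0) = _
    rw [dif_pos hy]
    exact h _ _ hy.choose_spec
  -- the induced endomorphism `Ψ` downstairs
  let Ψ : (Y →₀ ℤ) →+ (Y →₀ ℤ) :=
    Finsupp.liftAddHom (fun y => zmultiplesHom (Y →₀ ℤ) (m y))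
  have key : (Finsupp.mapDomain.addMonoidHom r).comp T =
      Ψ.comp (Finsupp.mapDomain.addMonoidHom r) := by
    refine Finsupp.addHom_ext' fun P => AddMonoidHom.ext_int ?_
    show Finsupp.mapDomain r (T (Finsupp.single P 1)) =
      Finsupp.liftAddHom (fun y => zmultiplesHom (Y →₀ ℤ) (m y))
        (Finsupp.mapDomain r (Finsupp.single P 1))
    rw [Finsupp.mapDomain_single, Finsupp.liftAddHom_apply_single, zmultiplesHom_apply,
      one_zsmul, hm]
  have h1 : Finsupp.mapDomain r (T D) = Ψ (Finsupp.mapDomain r D) :=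
    DFunLike.congr_fun key D
  rw [h1, hD, map_zero]

/-- (VAL-Kernel) An additive endomorphism `T` of divisors such that `r_* (T [P])` only depends on
`r P` preserves the kernel of `r_*`. -/
theorem vkn_main : val_KernelStatement :=
  fun X Y r T h D hD => vkn_kernel X Y r T h D hD

/-- Casting a finite sum of `ℕ`-valued single divisors to `ℤ`. -/
theorem vkn_mapRange_sum {X Y : Type} (s : Finset X) (f : X → Y) (e : X → ℕ) :
    Finsupp.mapRange (Nat.cast : ℕ → ℤ) Nat.cast_zero (∑ Q ∈ s, Finsupp.single (f Q) (e Q))
      = ∑ Q ∈ s, Finsupp.single (f Q) ((e Q : ℕ) : ℤ) := by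
  classical
  induction s using Finset.induction_on with
  | empty => simp
  | insert a s ha ih =>
    rw [Finset.sum_insert ha, Finset.sum_insert ha, Finsupp.mapRange_add Nat.cast_add,
      Finsupp.mapRange_single, ih]

end Fermat.Agent.S37
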