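/-
S37, block VAL, package VALMultiset ((V4): the multiset lemma).

Two finite multisets `M`, `M'` of places of `F_k` in the chart `i` with
`∏_y (X - ḡ(y))^{M y} = ∏_y (X - ḡ(y))^{M' y}` for every `g` in the chart `i` of one datum are
equal.

Proof.  Every place `y` in the supports comes from a maximal ideal `m_y` of the chart
(`ChartSurjStatement`), and `y ↦ m_y` is injective.  Fix `y₀`.  By prime avoidance there is `g` in
the chart with `g ∈ m_{y₀}` and `g ∉ m_y` for the other `y`; its reduction has the value `0` at `y₀`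
and nonzero values at the other `y`.  Comparing the multiplicity of the root `0` of the two
products gives `M y₀ = M' y₀`.
-/
import Fermat.Agent.S37.VALInterfaces
import Fermat.Agent.S37.HV
import Fermat.Agent.S18.GAMainChart

set_option autoImplicit false

open ModularCurve AlgebraicCurve Polynomial

namespace Fermat.Agent.S37

open Fermat.Agent.S18

/-- Prime avoidance for finitely many pairwise distinct maximal ideals. -/
theorem vms_avoid {R ι : Type} [CommRing R] (Y : Finset ι) (m : ι → Ideal R)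
    (hmax : ∀ y ∈ Y, (m y).IsMaximal)
    (hinj : ∀ y ∈ Y, ∀ y' ∈ Y, m y = m y' → y = y')
    (y₀ : ι) (hy₀ : y₀ ∈ Y) : ∃ g : R, g ∈ m y₀ ∧ ∀ y ∈ Y, y ≠ y₀ → g ∉ m y := by
  classical
  have hnot : ¬ ((m y₀ : Set R) ⊆ ⋃ y ∈ ((Y.erase y₀ : Finset ι) : Set ι), m y) := by
    intro h
    have hp : ∀ y ∈ Y.erase y₀, y ≠ y₀ → y ≠ y₀ → (m y).IsPrime := fun y hy _ _ =>
      (hmax y (Finset.mem_of_mem_erase hy)).isPrime
    obtain ⟨y, hy, hle⟩ := (Ideal.subset_union_prime y₀ y₀ hp).mp h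
    have hyY : y ∈ Y := Finset.mem_of_mem_erase hy
    have heq : m y₀ = m y :=
      (hmax y₀ hy₀).eq_of_le (hmax y hyY).ne_top hle
    exact Finset.ne_of_mem_erase hy (hinj y hyY y₀ hy₀ heq.symm)
  rw [Set.not_subset] at hnot
  obtain ⟨g, hg, hg'⟩ := hnot
  refine ⟨g, hg, fun y hy hne hgy => hg' ?_⟩
  rw [Set.mem_iUnion₂]
  exact ⟨y, Finset.mem_coe.mpr (Finset.mem_erase.mpr ⟨hne, hy⟩), hgy⟩

/-- The multiplicity of the root `0` of `∏_y (X - v y) ^ M y` when `v y = 0` only for `y = y₀`. -/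
theorem vms_rootMult {k ι : Type} [Field k] (s : Finset ι) (v : ι → k) (M : ι → ℕ) (y₀ : ι)
    (h0 : v y₀ = 0) (hne : ∀ y ∈ s, y ≠ y₀ → v y ≠ 0) (hM : y₀ ∉ s → M y₀ = 0) :
    (∏ y ∈ s, (X - C (v y)) ^ M y).rootMultiplicity 0 = M y₀ := by
  classical
  have hprod : ∏ y ∈ s, (X - C (v y)) ^ M y ≠ 0 :=
    Finset.prod_ne_zero_iff.mpr fun y _ => pow_ne_zero _ (X_sub_C_ne_zero _)
  rw [← count_roots, roots_prod _ _ hprod, Multiset.count_bind]
  have hterm : ∀ y ∈ s, Multiset.count (0 : k) ((X - C (v y)) ^ M y).roots =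
      if y = y₀ then M y₀ else 0 := by
    intro y hy
    rw [roots_pow, roots_X_sub_C, Multiset.count_nsmul, Multiset.count_singleton]
    by_cases hyy : y = y₀
    · subst hyy
      rw [if_pos h0.symm, if_pos rfl, mul_one]
    · rw [if_neg (fun h => hne y hy hyy h.symm), if_neg hyy, mul_zero]
  rw [← Finset.sum_eq_multiset_sum, Finset.sum_congr rfl hterm, Finset.sum_ite_eq']
  split_ifs with h
  · rfl
  · exact (hM h).symm

/-- The abstract multiset lemma. -/
theorem vms_abstract {k P R : Type} [Field k] [CommRing R] (M M' : P →₀ ℕ)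
    (m : P → Ideal R) (V : P → R → k → Prop)
    (hmax : ∀ y, (y ∈ M.support ∨ y ∈ M'.support) → (m y).IsMaximal)
    (hinj : ∀ y y', (y ∈ M.support ∨ y ∈ M'.support) → (y' ∈ M.support ∨ y' ∈ M'.support) →
      m y = m y' → y = y')
    (hex : ∀ y, (y ∈ M.support ∨ y ∈ M'.support) → ∀ g : R, ∃ c : k, V y g c)
    (hzero : ∀ y, (y ∈ M.support ∨ y ∈ M'.support) → ∀ g : R, V y g 0 ↔ g ∈ m y)
    (huniq : ∀ y (g : R) (c d : k), V y g c → V y g d → c = d)
    (H : ∀ (g : R) (v : P → k), (∀ y, (y ∈ M.support ∨ y ∈ M'.support) → V y g (v y)) →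
      ∏ y ∈ M.support, (X - C (v y)) ^ M y = ∏ y ∈ M'.support, (X - C (v y)) ^ M' y) :
    M = M' := by
  classical
  ext y₀
  by_cases hy₀ : y₀ ∈ M.support ∨ y₀ ∈ M'.support
  swap
  · rw [not_or] at hy₀
    rw [Finsupp.notMem_support_iff.mp hy₀.1, Finsupp.notMem_support_iff.mp hy₀.2]
  obtain ⟨g, hg0, hg⟩ := vms_avoid (M.support ∪ M'.support) m
    (fun y hy => hmax y (Finset.mem_union.mp hy))
    (fun y hy y' hy' h => hinj y y' (Finset.mem_union.mp hy) (Finset.mem_union.mp hy') h)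
    y₀ (Finset.mem_union.mpr hy₀)
  have hex' : ∀ y, (y ∈ M.support ∨ y ∈ M'.support) → ∃ c : k, V y g c := fun y hy => hex y hy g
  choose! v hv using hex'
  have hv0 : v y₀ = 0 := huniq y₀ g _ _ (hv y₀ hy₀) ((hzero y₀ hy₀ g).mpr hg0)
  have hvne : ∀ y, (y ∈ M.support ∨ y ∈ M'.support) → y ≠ y₀ → v y ≠ 0 := by
    intro y hy hne h0
    apply hg y (Finset.mem_union.mpr hy) hne
    rw [← hzero y hy g, ← h0]
    exact hv y hy
  have h := H g v hv
  have h1 := vms_rootMult M.support v M y₀ hv0 (fun y hy => hvne y (Or.inl hy))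
    (fun h => Finsupp.notMem_support_iff.mp h)
  have h2 := vms_rootMult M'.support v M' y₀ hv0 (fun y hy => hvne y (Or.inr hy))
    (fun h => Finsupp.notMem_support_iff.mp h)
  rw [← h1, ← h2, h]

set_option synthInstance.maxHeartbeats 400000

/-- (VAL-Multiset, (V4)). -/
theorem vms_main :
    ChartSurjStatement → ValKStatement → DatumExistsStatement → val_MultisetStatement := by
  intro hCS hVK hDE N ℓ _ _ hℓN A hA L _ _ ι _ ϖ hBD hH ρ hρ i M M' hchart H
  obtain ⟨hac, hcp, -⟩ := hDE N ℓ hℓN A hA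
  have := hac
  have := hcp
  -- the chart is one of the two standard charts, hence contained in the Gauss ring
  have hS : ({val_t i L N} : Set ↥(FL L N)) = {jF L N} ∨
      ({val_t i L N} : Set ↥(FL L N)) = {(jF L N)⁻¹} := by
    cases i
    · right
      rfl
    · left
      rfl
  have hle : chart (dW A ι) N {val_t i L N} ≤ gaussV (dW A ι) (dRes A ι) N :=
    (ga_chart N ℓ L (dW A ι) (kA A) (dRes A ι) ϖ hBD _ (hS.imp_right Or.inl)).1
  have hV : ∀ g : ↥(chart (dW A ι) N {val_t i L N}),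
      (g : ↥(FL L N)) ∈ gaussV (dW A ι) (dRes A ι) N := fun g => hle g.2
  have hk : ∀ g : ↥(chart (dW A ι) N {val_t i L N}),
      ρ ⟨(g : ↥(FL L N)), hV g⟩ ∈ Fk (kA A) N := fun g => (hρ.range _).mpr ⟨_, rfl⟩
  -- the maximal ideals attached to the places in the supports
  have hex : ∀ y : Place (kA A) ↥(Fk (kA A) N), (y ∈ M.support ∨ y ∈ M'.support) →
      ∃ m : Ideal ↥(chart (dW A ι) N {val_t i L N}), m.IsMaximal ∧
        (∀ z : ↥(Fk (kA A) N), z ∈ y.toValuationSubring ↔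
          ∃ (g : ↥(FL L N)) (a s : ↥(chart (dW A ι) N {val_t i L N}))
            (hV' : g ∈ gaussV (dW A ι) (dRes A ι) N), s ∉ m ∧
              g * (s : ↥(FL L N)) = (a : ↥(FL L N)) ∧
              ρ ⟨g, hV'⟩ = (z : LaurentSeries (kA A))) ∧
        (∀ g : ↥(chart (dW A ι) N {val_t i L N}),
          (⟨ρ ⟨(g : ↥(FL L N)), hV g⟩, hk g⟩ : ↥(Fk (kA A) N)) ∈ y.toValuationSubring ∧
          ((⟨ρ ⟨(g : ↥(FL L N)), hV g⟩, hk g⟩ : ↥(Fk (kA A) N)) ∈
            y.toValuationSubring.nonunits ↔ g ∈ m)) := by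
    intro y hy
    have hcond : (({val_t i L N} : Set ↥(FL L N)) = {jF L N} ∧
          jk (kA A) N ∈ y.toValuationSubring) ∨
        (({val_t i L N} : Set ↥(FL L N)) = {(jF L N)⁻¹} ∧
          (jk (kA A) N)⁻¹ ∈ y.toValuationSubring) := by
      rcases hchart y hy with ⟨hi, h⟩ | ⟨hi, h⟩
      · left
        subst hi
        exact ⟨rfl, h⟩
      · right
        subst hi
        exact ⟨rfl, ValuationSubring.nonunits_subset h⟩
    obtain ⟨m, hm, ϖc, -, -, hA', hB'⟩ :=
      hCS N ℓ L (dW A ι) (kA A) (dRes A ι) ϖ hBD hH ρ hρ y _ hcond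
    refine ⟨m, hm, ?_, fun g => hB' g (hV g) (hk g)⟩
    intro z
    rw [hA' z]
    constructor
    · rintro ⟨g, ⟨a, s, hs, hgs⟩, hV', hz⟩
      exact ⟨g, a, s, hV', hs, hgs, hz⟩
    · rintro ⟨g, a, s, hV', hs, hgs, hz⟩
      exact ⟨g, ⟨a, s, hs, hgs⟩, hV', hz⟩
  choose! m hm using hex
  refine vms_abstract M M' m
    (fun y g c => HasValue y (⟨ρ ⟨(g : ↥(FL L N)), hV g⟩, hk g⟩ : ↥(Fk (kA A) N)) c)
    (fun y hy => (hm y hy).1) ?_ ?_ ?_ ?_ ?_
  · -- `y ↦ m y` is injective on the supports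
    intro y y' hy hy' h
    apply Place.ext
    apply ValuationSubring.ext
    intro z
    rw [(hm y hy).2.1 z, (hm y' hy').2.1 z, h]
  · -- existence of values
    intro y hy g
    exact hVK N ℓ hℓN (kA A) y _ ((hm y hy).2.2 g).1
  · -- the value is zero iff `g ∈ m y`
    intro y hy g
    exact hv_zero_iff.trans ((hm y hy).2.2 g).2
  · -- uniqueness of values
    intro y g c d hc hd
    exact hv_unique hc hd
  · -- the hypothesis on the products
    intro g v hv
    exact H (g : ↥(FL L N)) g.2 (hV g) (hk g) v hv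

end Fermat.Agent.S37
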