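/-
S37, block VAL, package VALR3Core (twin A): for `r` with SPEC and a prime `q` with Hecke inputs,
the multiset `r_*(T_q P)` only depends on `r P`.

Assembly of the block inputs: both places lie in the same chart (`vr3_same_chart`), the supports of
the two multisets lie in that chart (`vr3_support_chart`), and the two products
`∏_y (X - ḡ(y))^{M y}` have the same coefficients because both are the reduction of the
coefficients of the characteristic polynomial `χ_g` (`vr3_coeff`).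
-/
import Fermat.Agent.S37.VALInterfaces
import Fermat.Agent.S37.HV

set_option autoImplicit false

open ModularCurve AlgebraicCurve Polynomial

namespace Fermat.Agent.S37

open Fermat.Agent.S18

noncomputable section

set_option synthInstance.maxHeartbeats 400000

/-- A point of the support of a finite sum of single-point masses is one of the points. -/
theorem vr3_support_sum {X Y : Type} (s : Finset X) (f : X → Y) (n : X → ℕ) (y : Y)
    (hy : y ∈ (∑ Q ∈ s, Finsupp.single (f Q) (n Q)).support) : ∃ Q ∈ s, y = f Q := by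
  classical
  by_contra hcon
  rw [Finsupp.mem_support_iff] at hy
  apply hy
  rw [Finsupp.finsetSum_apply]
  refine Finset.sum_eq_zero fun Q hQ => ?_
  rw [Finsupp.single_apply, if_neg (fun h => hcon ⟨Q, hQ, h.symm⟩)]

/-- `j̄ ∈ O_x` and `1/j̄ ∈ m_x` exclude each other. -/
theorem vr3_excl (k : Type) [Field k] (N : ℕ) (x : Place k ↥(Fk k N))
    (h1 : jk k N ∈ x.toValuationSubring) (h2 : (jk k N)⁻¹ ∈ x.toValuationSubring.nonunits) :
    False := by
  have hjk : jk k N ≠ 0 := by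
    intro h0
    have h3 : ((jk k N : ↥(Fk k N)) : LaurentSeries k) = 0 := by rw [h0]; rfl
    rw [coe_jk] at h3
    exact jqModC_ne_zero_of_nontrivial k h3
  have h3 := hv_nonunits_mul_mem x h2 h1
  rw [inv_mul_cancel₀ hjk, hv_nonunits_iff, map_one] at h3
  exact lt_irrefl _ h3

/-- Two places of `F` with the same reduction lie in the same chart. -/
theorem vr3_same_chart (hSC : SpecChartStatement) (hIC : InChartStatement) (N ℓ : ℕ) [NeZero N]
    [Fact ℓ.Prime] (hℓN : ¬ ℓ ∣ N) (A : ValuationSubring Qb) (hA : A.LiesOverPrime ℓ)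
    (r : Place Qb ↥(FL Qb N) → Place (kA A) ↥(Fk (kA A) N)) (hr : Spec N ℓ A r)
    (P P' : Place Qb ↥(FL Qb N)) (h : r P = r P') :
    ∃ i : Bool, val_InChart i N A P ∧ val_InChart i N A P' := by
  obtain ⟨hP, -⟩ := hIC N A P
  obtain ⟨hP', -⟩ := hIC N A P'
  have hS := hSC N ℓ hℓN A hA r hr P
  have hS' := hSC N ℓ hℓN A hA r hr P'
  rcases hP with h1 | h2
  · rcases hP' with h1' | h2'
    · exact ⟨true, Or.inl ⟨rfl, h1⟩, Or.inl ⟨rfl, h1'⟩⟩
    · exact (vr3_excl (kA A) N (r P) (hS.1 h1) (h ▸ hS'.2 h2')).elim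
  · rcases hP' with h1' | h2'
    · exact (vr3_excl (kA A) N (r P') (hS'.1 h1') (h ▸ hS.2 h2)).elim
    · exact ⟨false, Or.inr ⟨rfl, h2⟩, Or.inr ⟨rfl, h2'⟩⟩

/-- The support of `r_*(T_q P)` lies in the chart of `P`. -/
theorem vr3_support_chart (hSC : SpecChartStatement) (hCP : val_ChartPresStatement) (N ℓ : ℕ)
    [NeZero N] [Fact ℓ.Prime] (hℓN : ¬ ℓ ∣ N) (A : ValuationSubring Qb) (hA : A.LiesOverPrime ℓ)
    (r : Place Qb ↥(FL Qb N) → Place (kA A) ↥(Fk (kA A) N)) (hr : Spec N ℓ A r)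
    (q : ℕ) [NeZero q] (hq : q.Prime)
    (hα : HeckeAlphaBarIntegral Qb N q) (hβ : HeckeBetaBarIntegral Qb N q)
    [HasPrincipalDivisors Qb ↥(FL Qb (N * q))] (i : Bool) (P : Place Qb ↥(FL Qb N))
    (hP : val_InChart i N A P) (y : Place (kA A) ↥(Fk (kA A) N))
    (hy : y ∈ (val_heckeMult N q A r hα hβ P).support) : val_InChartK i (kA A) N y := by
  obtain ⟨Q, hQ, rfl⟩ := vr3_support_sum _ _ _ y hy
  have hQP : Q.restrictAlong (heckeBetaBar Qb N q) hβ = P := Place.mem_fiberAlong.mp hQ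
  have h1 : val_InChart i N A (Q.restrictAlong (heckeAlphaBar Qb N q) hα) :=
    (hCP N q hq A hα hβ Q i).mp (hQP ▸ hP)
  have hS := hSC N ℓ hℓN A hA r hr (Q.restrictAlong (heckeAlphaBar Qb N q) hα)
  rcases h1 with ⟨hi, h1⟩ | ⟨hi, h2⟩
  · exact Or.inl ⟨hi, hS.1 h1⟩
  · exact Or.inr ⟨hi, hS.2 h2⟩

/-- The values at `P` and `P'` of a coefficient of `χ_g` have the same residue. -/
theorem vr3_coeff (hInt : val_IntegralityStatement) (hSA : val_SpecAStatement)
    (hRC : val_RedCalcStatement) (N ℓ : ℕ) [NeZero N] [Fact ℓ.Prime] (hℓN : ¬ ℓ ∣ N)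
    (A : ValuationSubring Qb) (hA : A.LiesOverPrime ℓ)
    (r : Place Qb ↥(FL Qb N) → Place (kA A) ↥(Fk (kA A) N)) (hr : Spec N ℓ A r)
    (q : ℕ) [NeZero q] (hq : q.Prime) (hfin : FiniteAlong Qb (heckeBetaBar Qb N q)) (i : Bool)
    (P P' : Place Qb ↥(FL Qb N)) (hP : val_InChart i N A P) (hP' : val_InChart i N A P')
    (h : r P = r P') (g : ↥(FL Qb N)) (hg : g ∈ val_chart N A (val_t i Qb N)) (n : ℕ)
    (c c' : ↥A)
    (hc : HasValue P ((hi_charpolyAlong (heckeBetaBar Qb N q) hfin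
      (heckeAlphaBar Qb N q g)).coeff n) (c : Qb))
    (hc' : HasValue P' ((hi_charpolyAlong (heckeBetaBar Qb N q) hfin
      (heckeAlphaBar Qb N q g)).coeff n) (c' : Qb)) :
    IsLocalRing.residue ↥A c = IsLocalRing.residue ↥A c' := by
  obtain ⟨c₁, z, h1, h2, h3⟩ := hSA N ℓ hℓN A hA r hr i P hP _
    (hInt N q hq A hfin i P hP g hg n)
  obtain ⟨c₁', z', h1', h2', h3'⟩ := hSA N ℓ hℓN A hA r hr i P' hP' _
    (hInt N q hq A hfin i P' hP' g hg n)
  have hz : z = z' := Subtype.ext ((hRC A).1 _ _ _ h3 h3')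
  have e1 : c₁ = c := Subtype.ext (hv_unique h1 hc)
  have e2 : c₁' = c' := Subtype.ext (hv_unique h1' hc')
  rw [← e1, ← e2]
  rw [← h, ← hz] at h2'
  exact hv_unique h2 h2'

/-- (VAL-R3-core) `r_*(T_q P)` only depends on `r P`. -/
theorem vr3_main : SpecChartStatement → InChartStatement → DatumExistsStatement → hi_FinStatement →
    val_ChartPresStatement → val_ChartAStatement → val_IntegralityStatement → val_SpecAStatement →
    val_RedCalcStatement → val_KeyStatement → val_MultisetStatement → val_R3CoreStatement := by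
  intro hSC hIC hDE hFin hCP hCA hInt hSA hRC hKey hMul N ℓ _ _ hℓN A hA r hr q _ hq hα hβ _ P P' h
  have hfin : FiniteAlong Qb (heckeBetaBar Qb N q) := (hFin N q).2.2.2
  obtain ⟨i, hP, hP'⟩ := vr3_same_chart hSC hIC N ℓ hℓN A hA r hr P P' h
  obtain ⟨-, -, hD⟩ := hDE N ℓ hℓN A hA
  obtain ⟨L, _, _, ι, _, ϖ, hBD, hHor, -, ρ, hρ⟩ := hD ∅
  refine hMul N ℓ hℓN A hA L ι ϖ hBD hHor ρ hρ i _ _ ?_ ?_
  · rintro y (hy | hy)
    · exact vr3_support_chart hSC hCP N ℓ hℓN A hA r hr q hq hα hβ i P hP y hy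
    · exact vr3_support_chart hSC hCP N ℓ hℓN A hA r hr q hq hα hβ i P' hP' y hy
  · intro g hg hV hk v hv
    ext n
    obtain ⟨c, hc, hcn⟩ := hKey N ℓ hℓN A hA r hr q hq hα hβ hfin i P hP L ι ϖ hBD ρ hρ g hg hV
      hk v (fun y hy => hv y (Or.inl hy)) n
    obtain ⟨c', hc', hcn'⟩ := hKey N ℓ hℓN A hA r hr q hq hα hβ hfin i P' hP' L ι ϖ hBD ρ hρ g hg
      hV hk v (fun y hy => hv y (Or.inr hy)) n
    rw [← hcn, ← hcn']
    exact vr3_coeff hInt hSA hRC N ℓ hℓN A hA r hr q hq hfin i P P' hP hP' h (dEmb N ι g)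
      (hCA N A i L ι g hg) n c c' hc hc'

end

end Fermat.Agent.S37
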