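/-
S37, block VAL, package VALR4Core (twin B): (R4-core) — for `r` with SPEC,
`r_*(T_ℓ P) = [Φ(r P)] + ℓ [Φ⁻¹(r P)]`.  Namespace `Fermat.Agent.S37`, prefix `vs4_`.
-/
import Fermat.Agent.S37.VALInterfaces
import Fermat.Agent.S37.HV

set_option autoImplicit false

open ModularCurve AlgebraicCurve Polynomial

namespace Fermat.Agent.S37

open Fermat.Agent.S18

noncomputable section

set_option synthInstance.maxHeartbeats 400000

/-! ## Coefficientwise values of polynomials -/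

section CV

variable {K F : Type} [Field K] [Field F] [Algebra K F] (P : Place K F)

/-- The polynomial `p' ∈ K[X]` gives the values at `P` of the coefficients of `p ∈ F[X]`. -/
def vs4_CV (p : Polynomial F) (p' : Polynomial K) : Prop :=
  ∀ n : ℕ, HasValue P (p.coeff n) (p'.coeff n)

theorem vs4_CV_mul {p q : Polynomial F} {p' q' : Polynomial K} (hp : vs4_CV P p p')
    (hq : vs4_CV P q q') : vs4_CV P (p * q) (p' * q') := by
  intro n
  rw [Polynomial.coeff_mul, Polynomial.coeff_mul]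
  exact hv_sum _ _ _ fun x _ => hv_mul (hp x.1) (hq x.2)

theorem vs4_CV_sub {p q : Polynomial F} {p' q' : Polynomial K} (hp : vs4_CV P p p')
    (hq : vs4_CV P q q') : vs4_CV P (p - q) (p' - q') := by
  intro n
  rw [Polynomial.coeff_sub, Polynomial.coeff_sub]
  exact hv_sub (hp n) (hq n)

theorem vs4_CV_C {a : F} {c : K} (h : HasValue P a c) : vs4_CV P (C a) (C c) := by
  intro n
  rw [Polynomial.coeff_C, Polynomial.coeff_C]
  by_cases hn : n = 0
  · rw [if_pos hn, if_pos hn]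
    exact h
  · rw [if_neg hn, if_neg hn]
    exact hv_zero P

theorem vs4_CV_X_pow (m : ℕ) : vs4_CV P (X ^ m : Polynomial F) (X ^ m : Polynomial K) := by
  intro n
  rw [Polynomial.coeff_X_pow, Polynomial.coeff_X_pow]
  by_cases hn : n = m
  · rw [if_pos hn, if_pos hn]
    exact hv_one P
  · rw [if_neg hn, if_neg hn]
    exact hv_zero P

theorem vs4_CV_X : vs4_CV P (X : Polynomial F) (X : Polynomial K) := by
  have h := vs4_CV_X_pow P 1
  rwa [pow_one, pow_one] at h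

/-- The coefficientwise values of `(X - a) (X ^ m - b)`. -/
theorem vs4_CV_R {a b : F} {c d : K} (ha : HasValue P a c) (hb : HasValue P b d) (m : ℕ) :
    vs4_CV P ((X - C a) * (X ^ m - C b)) ((X - C c) * (X ^ m - C d)) :=
  vs4_CV_mul P (vs4_CV_sub P (vs4_CV_X P) (vs4_CV_C P ha))
    (vs4_CV_sub P (vs4_CV_X_pow P m) (vs4_CV_C P hb))

end CV

/-- Mapping the polynomial `(X - a) (X ^ m - b)`. -/
theorem vs4_map_R {S T : Type} [CommRing S] [CommRing T] (φ : S →+* T) (a b : S) (m : ℕ) :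
    ((X - C a) * (X ^ m - C b)).map φ = (X - C (φ a)) * (X ^ m - C (φ b)) := by
  rw [Polynomial.map_mul, Polynomial.map_sub, Polynomial.map_sub, Polynomial.map_pow,
    Polynomial.map_X, Polynomial.map_C, Polynomial.map_C]

/-- In characteristic `ℓ`: `(X - c) ^ ℓ = X ^ ℓ - c ^ ℓ`. -/
theorem vs4_frob (k : Type) [Field k] (ℓ : ℕ) [Fact ℓ.Prime] [CharP k ℓ] (c : k) :
    (X - C c : Polynomial k) ^ ℓ = X ^ ℓ - C (c ^ ℓ) := by
  rw [sub_pow_char, ← C_pow]

/-- The product over the support of `[a] + ℓ [b]`. -/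
theorem vs4_prod_M' {Y R : Type} [CommRing R] (a b : Y) (ℓ : ℕ) (f : Y → R) :
    ∏ y ∈ (Finsupp.single a 1 + Finsupp.single b ℓ : Y →₀ ℕ).support,
        f y ^ (Finsupp.single a 1 + Finsupp.single b ℓ : Y →₀ ℕ) y
      = f a * f b ^ ℓ := by
  have h := Finsupp.prod_add_index' (f := (Finsupp.single a 1 : Y →₀ ℕ))
    (g := (Finsupp.single b ℓ : Y →₀ ℕ)) (h := fun y n => f y ^ n)
    (fun y => pow_zero (f y)) (fun y m n => pow_add (f y) m n)
  rw [Finsupp.prod_single_index (h := fun y n => f y ^ n) (pow_zero (f a)),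
    Finsupp.prod_single_index (h := fun y n => f y ^ n) (pow_zero (f b)), pow_one] at h
  exact h

/-! ## Charts -/

/-- Existence of the chart of a place. -/
theorem vs4_exists_chart (hIC : InChartStatement) (N : ℕ) [NeZero N] (A : ValuationSubring Qb)
    (P : Place Qb ↥(FL Qb N)) : ∃ i : Bool, val_InChart i N A P := by
  rcases (hIC N A P).1 with h | h
  · exact ⟨true, Or.inl ⟨rfl, h⟩⟩
  · exact ⟨false, Or.inr ⟨rfl, h⟩⟩

/-- `r` preserves the charts. -/
theorem vs4_chartK (hSC : SpecChartStatement) (N ℓ : ℕ) [NeZero N] [Fact ℓ.Prime] (hℓN : ¬ ℓ ∣ N)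
    (A : ValuationSubring Qb) (hA : A.LiesOverPrime ℓ)
    (r : Place Qb ↥(FL Qb N) → Place (kA A) ↥(Fk (kA A) N)) (hr : Spec N ℓ A r)
    (i : Bool) (P : Place Qb ↥(FL Qb N)) (hi : val_InChart i N A P) :
    val_InChartK i (kA A) N (r P) := by
  rcases hi with ⟨h1, h2⟩ | ⟨h1, h2⟩
  · exact Or.inl ⟨h1, (hSC N ℓ hℓN A hA r hr P).1 h2⟩
  · exact Or.inr ⟨h1, (hSC N ℓ hℓN A hA r hr P).2 h2⟩

/-- The support of `r_*(T_q P)`. -/
theorem vs4_supp (N q : ℕ) [NeZero N] [NeZero q] (A : ValuationSubring Qb)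
    (r : Place Qb ↥(FL Qb N) → Place (kA A) ↥(Fk (kA A) N))
    (hα : HeckeAlphaBarIntegral Qb N q) (hβ : HeckeBetaBarIntegral Qb N q)
    [HasPrincipalDivisors Qb ↥(FL Qb (N * q))] (P : Place Qb ↥(FL Qb N))
    (y : Place (kA A) ↥(Fk (kA A) N)) (hy : y ∈ (val_heckeMult N q A r hα hβ P).support) :
    ∃ Q : Place Qb ↥(FL Qb (N * q)), Q.restrictAlong (heckeBetaBar Qb N q) hβ = P ∧
      y = r (Q.restrictAlong (heckeAlphaBar Qb N q) hα) := by
  classical
  unfold val_heckeMult at hy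
  have h1 := Finsupp.support_finsetSum hy
  rw [Finset.mem_biUnion] at h1
  obtain ⟨Q, hQ, hyQ⟩ := h1
  have h2 := Finsupp.support_single_subset hyQ
  rw [Finset.mem_singleton] at h2
  exact ⟨Q, Place.mem_fiberAlong.1 hQ, h2⟩

/-- The support of `[a] + ℓ [b]`. -/
theorem vs4_supp' {Y : Type} (a b y : Y) (ℓ : ℕ)
    (hy : y ∈ (Finsupp.single a 1 + Finsupp.single b ℓ : Y →₀ ℕ).support) : y = a ∨ y = b := by
  classical
  have h1 := Finsupp.support_add hy
  rw [Finset.mem_union] at h1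
  rcases h1 with h | h
  · have h2 := Finsupp.support_single_subset h
    rw [Finset.mem_singleton] at h2
    exact Or.inl h2
  · have h2 := Finsupp.support_single_subset h
    rw [Finset.mem_singleton] at h2
    exact Or.inr h2

theorem vs4_mem_supp_left {Y : Type} (a b : Y) (ℓ : ℕ) :
    a ∈ (Finsupp.single a 1 + Finsupp.single b ℓ : Y →₀ ℕ).support := by
  classical
  rw [Finsupp.mem_support_iff, Finsupp.add_apply, Finsupp.single_eq_same]
  omega

theorem vs4_mem_supp_right {Y : Type} (a b : Y) (ℓ : ℕ) (hℓ : ℓ ≠ 0) :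
    b ∈ (Finsupp.single a 1 + Finsupp.single b ℓ : Y →₀ ℕ).support := by
  classical
  rw [Finsupp.mem_support_iff, Finsupp.add_apply, Finsupp.single_eq_same]
  omega

/-! ## The main theorem -/

set_option maxHeartbeats 1000000 in
/-- (VAL-R4-core) For `r` with SPEC: `r_*(T_ℓ P) = [Φ(r P)] + ℓ [Φ⁻¹(r P)]`. -/
theorem vs4_main : SpecChartStatement → InChartStatement → DatumExistsStatement → hi_FinStatement →
    val_ChartPresStatement → val_ChartAStatement → val_IntegralityStatement → val_SpecAStatement →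
    val_RedRhoStatement → val_RedCalcStatement → val_KeyStatement → val_MultisetStatement →
    val_TwistStatement → val_KR3Statement → val_R4CoreStatement := by
  intro hSC hIC hDE hFin hCP hCA hInt hSA hRR hRC hKey hMS hTw hKR3 N ℓ _ _ _ hℓN A hA r hr hα hβ _
    τ hτ P
  have hℓ : ℓ.Prime := Fact.out
  obtain ⟨hAC, hCh, hD⟩ := hDE N ℓ hℓN A hA
  have := hAC
  have := hCh
  obtain ⟨L, _, _, ι, _, ϖ, hBD, hHor, -, ρ, hρ⟩ := hD ∅
  have hfin : FiniteAlong Qb (heckeBetaBar Qb N ℓ) := (hFin N ℓ).2.2.2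
  obtain ⟨i, hi⟩ := vs4_exists_chart hIC N A P
  have hx : val_InChartK i (kA A) N (r P) := vs4_chartK hSC N ℓ hℓN A hA r hr i P hi
  have hinv : (coeffAut (kA A) N τ)⁻¹ = coeffAut (kA A) N τ.symm := (hTw (kA A) N τ (r P)).2.2
  refine hMS N ℓ hℓN A hA L ι ϖ hBD hHor ρ hρ i _ _ ?_ ?_
  · -- supports
    intro y hy
    rcases hy with hy | hy
    · obtain ⟨Q, hQ, rfl⟩ := vs4_supp N ℓ A r hα hβ P y hy
      refine vs4_chartK hSC N ℓ hℓN A hA r hr i _ ?_
      refine (hCP N ℓ hℓ A hα hβ Q i).1 ?_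
      rw [hQ]
      exact hi
    · rcases vs4_supp' _ _ y ℓ hy with rfl | rfl
      · exact (hTw (kA A) N τ (r P)).2.1 i hx
      · rw [hinv]
        exact (hTw (kA A) N τ.symm (r P)).2.1 i hx
  · intro g hg hV hk v hv
    rw [vs4_prod_M' _ _ ℓ (fun y => X - C (v y))]
    -- values of the twists at `r P`
    have hp : HasValue (r P)
        (coeffRingAut (kA A) N τ.symm (⟨ρ ⟨g, hV⟩, hk⟩ : ↥(Fk (kA A) N)) ^ ℓ)
        (v (coeffAut (kA A) N τ • r P)) := by
      have h1 := (hTw (kA A) N τ.symm (coeffAut (kA A) N τ • r P)).1 _ _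
        (hv _ (Or.inr (vs4_mem_supp_left _ _ ℓ)))
      rw [← hinv, inv_smul_smul] at h1
      have h2 := hv_pow h1 ℓ
      rwa [← hτ, RingEquiv.apply_symm_apply] at h2
    have hm : HasValue (r P)
        (coeffRingAut (kA A) N τ (⟨ρ ⟨g, hV⟩, hk⟩ : ↥(Fk (kA A) N)))
        (v ((coeffAut (kA A) N τ)⁻¹ • r P) ^ ℓ) := by
      have h1 := (hTw (kA A) N τ ((coeffAut (kA A) N τ)⁻¹ • r P)).1 _ _
        (hv _ (Or.inr (vs4_mem_supp_right _ _ ℓ hℓ.ne_zero)))
      rw [smul_inv_smul, hτ] at h1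
      exact h1
    have hCV := vs4_CV_R (r P) hp hm ℓ
    rw [vs4_frob (kA A) ℓ]
    ext n
    obtain ⟨c, hc1, hc2⟩ := hKey N ℓ hℓN A hA r hr ℓ hℓ hα hβ hfin i P hi L ι ϖ hBD ρ hρ g hg hV
      hk v (fun y hy => hv y (Or.inl hy)) n
    rw [← hc2]
    have hg' := hCA N A i L ι g hg
    have hloc := hInt N ℓ hℓ A hfin i P hi (dEmb N ι g) hg' n
    obtain ⟨c', z, h1, h2, h3⟩ := hSA N ℓ hℓN A hA r hr i P hi _ hloc
    have hcc : c' = c := Subtype.ext (hv_unique h1 hc1)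
    rw [hcc] at h2
    have hρred := hRR N ℓ hℓN A hA L ι ϖ hBD ρ hρ g hV
    have hkr := hKR3 N ℓ hℓ hℓN hfin A hA τ hτ (dEmb N ι g) (ρ ⟨g, hV⟩) hρred n
    have h4 := (hRC A).2.2.2.2.2 ℓ _ _ h3
    have h5 := (hRC A).1 _ _ _ h4 hkr
    have h6 := qExpand_injective ℓ h5
    have hz : z = ((X - C (coeffRingAut (kA A) N τ.symm
          (⟨ρ ⟨g, hV⟩, hk⟩ : ↥(Fk (kA A) N)) ^ ℓ)) *
        (X ^ ℓ - C (coeffRingAut (kA A) N τ (⟨ρ ⟨g, hV⟩, hk⟩ : ↥(Fk (kA A) N))))).coeff n := by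
      apply Subtype.ext
      rw [h6]
      have hmap := vs4_map_R (algebraMap ↥(Fk (kA A) N) (LaurentSeries (kA A)))
        (coeffRingAut (kA A) N τ.symm (⟨ρ ⟨g, hV⟩, hk⟩ : ↥(Fk (kA A) N)) ^ ℓ)
        (coeffRingAut (kA A) N τ (⟨ρ ⟨g, hV⟩, hk⟩ : ↥(Fk (kA A) N))) ℓ
      have hcoe := congrArg (fun p => p.coeff n) hmap
      rw [Polynomial.coeff_map] at hcoe
      exact hcoe.symm
    rw [hz] at h2
    exact hv_unique h2 (hCV n)

end

end Fermat.Agent.S37
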