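/-
S37, block VAL, work package `VALRedCalc`: calculus of the Gauss-local reduction `val_Red`
(uniqueness, ring operations, integral series, substitutions `q ↦ q^m`).
-/
import Fermat.Agent.S37.VALInterfaces

set_option autoImplicit false

open ModularCurve

namespace Fermat.Agent.S37

/-- `coeffMap` along an injective ring homomorphism is injective. -/
theorem vrc_coeffMap_injective {R S : Type} [CommRing R] [CommRing S] (f : R →+* S)
    (hf : Function.Injective f) : Function.Injective (coeffMap f) := by
  intro x x' h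
  ext n
  apply hf
  have h1 := congrArg (fun s : LaurentSeries S => s.coeff n) h
  simpa only [coeffMap_coeff] using h1

/-- Uniqueness of the Gauss-local reduction. -/
theorem vrc_unique (A : ValuationSubring Qb) (a : LaurentSeries Qb) (z z' : LaurentSeries (kA A))
    (h : val_Red A a z) (h' : val_Red A a z') : z = z' := by
  obtain ⟨u, w, hw, hau, hzu⟩ := h
  obtain ⟨u', w', hw', hau', hzu'⟩ := h'
  have h1 : u * w' = u' * w := by
    apply vrc_coeffMap_injective A.subtype A.subtype_injective
    rw [map_mul, map_mul, ← hau, ← hau']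
    ring
  have h2 : coeffMap (IsLocalRing.residue ↥A) u * coeffMap (IsLocalRing.residue ↥A) w' =
      coeffMap (IsLocalRing.residue ↥A) u' * coeffMap (IsLocalRing.residue ↥A) w := by
    rw [← map_mul, ← map_mul, h1]
  have h3 : z * (coeffMap (IsLocalRing.residue ↥A) w * coeffMap (IsLocalRing.residue ↥A) w') =
      z' * (coeffMap (IsLocalRing.residue ↥A) w * coeffMap (IsLocalRing.residue ↥A) w') := by
    calc z * (coeffMap (IsLocalRing.residue ↥A) w * coeffMap (IsLocalRing.residue ↥A) w')
        = (z * coeffMap (IsLocalRing.residue ↥A) w) * coeffMap (IsLocalRing.residue ↥A) w' := by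
          ring
      _ = (z' * coeffMap (IsLocalRing.residue ↥A) w') * coeffMap (IsLocalRing.residue ↥A) w := by
          rw [hzu, hzu', h2]
      _ = z' * (coeffMap (IsLocalRing.residue ↥A) w * coeffMap (IsLocalRing.residue ↥A) w') := by
          ring
  exact mul_right_cancel₀ (mul_ne_zero hw hw') h3

/-- Sums. -/
theorem vrc_add (A : ValuationSubring Qb) (a a' : LaurentSeries Qb) (z z' : LaurentSeries (kA A))
    (h : val_Red A a z) (h' : val_Red A a' z') : val_Red A (a + a') (z + z') := by
  obtain ⟨u, w, hw, hau, hzu⟩ := h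
  obtain ⟨u', w', hw', hau', hzu'⟩ := h'
  refine ⟨u * w' + u' * w, w * w', ?_, ?_, ?_⟩
  · rw [map_mul]
    exact mul_ne_zero hw hw'
  · rw [map_mul, map_add, map_mul, map_mul, ← hau, ← hau']
    ring
  · rw [map_mul, map_add, map_mul, map_mul, ← hzu, ← hzu']
    ring

/-- Products. -/
theorem vrc_mul (A : ValuationSubring Qb) (a a' : LaurentSeries Qb) (z z' : LaurentSeries (kA A))
    (h : val_Red A a z) (h' : val_Red A a' z') : val_Red A (a * a') (z * z') := by
  obtain ⟨u, w, hw, hau, hzu⟩ := h
  obtain ⟨u', w', hw', hau', hzu'⟩ := h'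
  refine ⟨u * u', w * w', ?_, ?_, ?_⟩
  · rw [map_mul]
    exact mul_ne_zero hw hw'
  · rw [map_mul, map_mul, ← hau, ← hau']
    ring
  · rw [map_mul, map_mul, ← hzu, ← hzu']
    ring

/-- Negation. -/
theorem vrc_neg (A : ValuationSubring Qb) (a : LaurentSeries Qb) (z : LaurentSeries (kA A))
    (h : val_Red A a z) : val_Red A (-a) (-z) := by
  obtain ⟨u, w, hw, hau, hzu⟩ := h
  refine ⟨-u, w, hw, ?_, ?_⟩
  · rw [map_neg, ← hau]
    ring
  · rw [map_neg, ← hzu]
    ring

/-- Series with coefficients in `A`. -/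
theorem vrc_integral (A : ValuationSubring Qb) (y : LaurentSeries ↥A) :
    val_Red A (coeffMap A.subtype y) (coeffMap (IsLocalRing.residue ↥A) y) := by
  refine ⟨y, 1, ?_, ?_, ?_⟩
  · rw [map_one]
    exact one_ne_zero
  · rw [map_one, mul_one]
  · rw [map_one, mul_one]

/-- Substitutions `q ↦ q ^ m`. -/
theorem vrc_qExpand (A : ValuationSubring Qb) (m : ℕ) [NeZero m] (a : LaurentSeries Qb)
    (z : LaurentSeries (kA A)) (h : val_Red A a z) :
    val_Red A (qExpand Qb m a) (qExpand (kA A) m z) := by
  obtain ⟨u, w, hw, hau, hzu⟩ := h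
  refine ⟨qExpand ↥A m u, qExpand ↥A m w, ?_, ?_, ?_⟩
  · rw [coeffMap_qExpand]
    intro h0
    apply hw
    apply qExpand_injective m
    rw [h0, map_zero]
  · rw [coeffMap_qExpand, coeffMap_qExpand, ← map_mul, hau]
  · rw [coeffMap_qExpand, coeffMap_qExpand, ← map_mul, hzu]

/-- WP `VALRedCalc`. -/
theorem vrc_main : val_RedCalcStatement := by
  intro A
  exact ⟨vrc_unique A, vrc_add A, vrc_mul A, vrc_neg A, vrc_integral A,
    fun m _ a z h => vrc_qExpand A m a z h⟩

end Fermat.Agent.S37
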