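/-
S37, block VAL, package VALTwist: values and charts under the coefficientwise automorphism `τ`
of `F_k`.

`vtw_main : val_TwistStatement`.

The general part (for an arbitrary semilinear automorphism `g` of a function field `F / K` and a
place `y`): `g` maps the valuation ring of `y` isomorphically onto that of `g • y`, hence maps
non-units to non-units, and values to (twisted) values.
-/
import Fermat.Agent.S37.VALInterfaces

set_option autoImplicit false

open ModularCurve AlgebraicCurve Polynomial

namespace Fermat.Agent.S37

open Fermat.Agent.S18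

noncomputable section

set_option synthInstance.maxHeartbeats 400000

open scoped Pointwise

/-- A semilinear automorphism maps the non-units of a valuation subring `B` to the non-units of
`g • B`. -/
theorem vtw_nonunits_smul {K F : Type} [Field K] [Field F] [Algebra K F]
    (g : SemilinearAut K F) (B : ValuationSubring F) {x : F} (hx : x ∈ B.nonunits) :
    SemilinearAut.toRingAut g x ∈ (g • B : ValuationSubring F).nonunits := by
  rw [ValuationSubring.mem_nonunits_iff_exists_mem_maximalIdeal] at hx ⊢
  obtain ⟨hxB, hxm⟩ := hx
  refine ⟨ValuationSubring.smul_mem_pointwise_smul g x B hxB, ?_⟩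
  rw [IsLocalRing.mem_maximalIdeal, mem_nonunits_iff] at hxm ⊢
  intro hu
  apply hxm
  have hu' : IsUnit (SemilinearAut.smulValuationSubringEquiv g B ⟨x, hxB⟩) := hu
  exact (MulEquiv.isUnit_map (SemilinearAut.smulValuationSubringEquiv g B)).mp hu'

/-- A semilinear automorphism maps the valuation ring of `y` into that of `g • y`. -/
theorem vtw_mem_smul {K F : Type} [Field K] [Field F] [Algebra K F]
    (g : SemilinearAut K F) (y : Place K F) {x : F} (hx : x ∈ y.toValuationSubring) :
    SemilinearAut.toRingAut g x ∈ (g • y).toValuationSubring :=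
  ValuationSubring.smul_mem_pointwise_smul g x y.toValuationSubring hx

/-- A semilinear automorphism maps the maximal ideal of `y` into that of `g • y`. -/
theorem vtw_mem_nonunits_smul {K F : Type} [Field K] [Field F] [Algebra K F]
    (g : SemilinearAut K F) (y : Place K F) {x : F} (hx : x ∈ y.toValuationSubring.nonunits) :
    SemilinearAut.toRingAut g x ∈ (g • y).toValuationSubring.nonunits :=
  vtw_nonunits_smul g y.toValuationSubring hx

/-- Values under a semilinear automorphism: if `h` has the value `c` at `y`, then `g h` has the
value `g c` at `g • y`. -/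
theorem vtw_hasValue_smul {K F : Type} [Field K] [Field F] [Algebra K F]
    (g : SemilinearAut K F) (y : Place K F) (h : F) (c : K) (hv : HasValue y h c) :
    HasValue (g • y) (SemilinearAut.toRingAut g h) (SemilinearAut.baseAut g c) := by
  unfold HasValue at hv ⊢
  have h1 := vtw_mem_nonunits_smul g y hv
  rw [map_sub, SemilinearAut.commutes] at h1
  exact h1

/-- The coefficientwise automorphism fixes `j̄`. -/
theorem vtw_coeffRingAut_jk (k : Type) [Field k] (N : ℕ) [NeZero N] (τ : k ≃+* k) :
    coeffRingAut k N τ (jk k N) = jk k N :=
  Subtype.ext (coeffMap_jqModC (τ : k →+* k))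

/-- (VAL-Twist) -/
theorem vtw_main : val_TwistStatement := by
  intro k _ N _ τ y
  refine ⟨?_, ?_, ?_⟩
  · intro h c hv
    exact vtw_hasValue_smul (coeffAut k N τ) y h c hv
  · intro i hi
    rcases hi with ⟨hi, hm⟩ | ⟨hi, hm⟩
    · refine Or.inl ⟨hi, ?_⟩
      have h1 := vtw_mem_smul (coeffAut k N τ) y hm
      rw [toRingAut_coeffAut, vtw_coeffRingAut_jk] at h1
      exact h1
    · refine Or.inr ⟨hi, ?_⟩
      have h1 := vtw_mem_nonunits_smul (coeffAut k N τ) y hm
      rw [toRingAut_coeffAut, map_inv₀, vtw_coeffRingAut_jk] at h1
      exact h1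
  · exact Subtype.ext (Prod.ext (RingEquiv.ext fun x => rfl) rfl)

end

end Fermat.Agent.S37
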