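/-
S37, block VAL, work package `VALValuesMod`: the values lemma for `β : F_N → F_{Nq}` in
`HasValue` form, as the specialisation of the general values lemma `hi_ValuesStatement`.

* `vvm_isValue_iff`: the two value conventions agree, `hi_IsValue v x c ↔ HasValue v x c`;
* `vvm_main : hi_ValuesStatement → val_ValuesModStatement`.
-/
import Fermat.Agent.S37.VALInterfaces
import Fermat.Agent.S37.HV
import Fermat.Agent.S24.Dict
import Fermat.Agent.S28.CMain

set_option autoImplicit false

open ModularCurve AlgebraicCurve Polynomial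

namespace Fermat.Agent.S37

open Fermat.Agent.S18

/-- An element of `F` is zero or has positive order at the place `v` iff it lies in the maximal
ideal of the valuation ring of `v`. -/
theorem vvm_zero_or_ord_pos_iff {K F : Type} [Field K] [Field F] [Algebra K F] (v : Place K F)
    (y : F) : (y = 0 ∨ 0 < v.ord y) ↔ y ∈ v.toValuationSubring.nonunits := by
  constructor
  · rintro (rfl | hpos)
    · exact hv_nonunits_zero v
    · have hy : y ∈ v.toValuationSubring :=
        (Fermat.Agent.S24.Dict.mem_iff_ord_nonneg v).mpr hpos.le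
      rw [ValuationSubring.mem_nonunits_iff_exists_mem_maximalIdeal]
      exact ⟨hy, ((Fermat.Agent.S24.Dict.ord_pos_iff_mem_maximalIdeal v ⟨y, hy⟩).mp hpos).2⟩
  · intro h
    rw [ValuationSubring.mem_nonunits_iff_exists_mem_maximalIdeal] at h
    obtain ⟨hy, hmem⟩ := h
    rcases eq_or_ne y 0 with h0 | h0
    · exact Or.inl h0
    · refine Or.inr ((Fermat.Agent.S24.Dict.ord_pos_iff_mem_maximalIdeal v ⟨y, hy⟩).mpr
        ⟨fun h1 => h0 (congrArg Subtype.val h1), hmem⟩)

/-- The two value conventions agree. -/
theorem vvm_isValue_iff {K F : Type} [Field K] [Field F] [Algebra K F] (v : Place K F) (x : F)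
    (c : K) : hi_IsValue v x c ↔ HasValue v x c :=
  vvm_zero_or_ord_pos_iff v (x - algebraMap K F c)

set_option synthInstance.maxHeartbeats 400000 in
/-- (VAL-ValuesMod) The values lemma for `β : F_N → F_{Nq}` in `HasValue` form. -/
theorem vvm_main : hi_ValuesStatement → val_ValuesModStatement := by
  intro hV N q _ _ hβ hfin _ P h c hc n
  obtain ⟨htr, hfd, -⟩ := Fermat.Agent.S28.c_modelCounts N
  have key := hV Qb ↥(FL Qb N) ↥(FL Qb (N * q)) (Fermat.Agent.S24.jBar N) htr hfd
    (heckeBetaBar Qb N q) hβ hfin P h c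
    (fun Q hQ => (vvm_isValue_iff Q h (c Q)).mpr (hc Q hQ)) n
  exact (vvm_isValue_iff _ _ _).mp key

end Fermat.Agent.S37
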