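import Fermat.Agent.S37.CNInterfaces
import Fermat.Agent.S18.GAMainChart
set_option autoImplicit false

/-!
# S37 / block CN, package ChartAt (twin T)

Chart data of a place `Q` of `F_k`, from block R's `ChartSurjStatement`.
-/

open ModularCurve AlgebraicCurve

namespace Fermat.Agent.S37

open Fermat.Agent.S18

/-- Unit criterion in `locSub A P`: `x = a / s` (`s ∉ P`) is a unit iff `a ∉ P`. -/
theorem cn_chartatT_unit {F : Type*} [Field F] (A : Subring F) (P : Ideal ↥A) [hP : P.IsPrime]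
    (x : F) (a s : ↥A) (hs : s ∉ P) (h : x * (s : F) = (a : F)) :
    (∃ y ∈ locSub A P, x * y = 1) ↔ a ∉ P := by
  constructor
  · rintro ⟨y, ⟨a', s', hs', hy⟩, hxy⟩ ha
    have h1 : a * a' = s * s' := by
      apply Subtype.ext
      push_cast
      rw [← h, ← hy]
      linear_combination (s : F) * s' * hxy
    have hmem : s * s' ∈ P := h1 ▸ P.mul_mem_right _ ha
    exact (hP.mem_or_mem hmem).elim hs hs'
  · intro ha
    have ha0 : (a : F) ≠ 0 := by
      intro h0
      apply ha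
      have : a = 0 := Subtype.ext h0
      rw [this]
      exact P.zero_mem
    refine ⟨(s : F) / a, ⟨s, a, ha, by field_simp⟩, ?_⟩
    rw [← mul_div_assoc, h, div_self ha0]

/-- Valuation-ring bookkeeping: if `x * s = a`, `s` is a unit of the valuation ring, then `x` is a
non-unit iff `a` is. -/
theorem cn_chartatT_nonunits {K : Type*} [Field K] (O : ValuationSubring K) (x s a : K)
    (hs : s ∈ O) (hs' : s ∉ O.nonunits) (h : x * s = a) :
    x ∈ O.nonunits ↔ a ∈ O.nonunits := by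
  have h1 : O.valuation s = 1 := by
    have hle := (O.valuation_le_one_iff s).2 hs
    rw [ValuationSubring.mem_nonunits_iff] at hs'
    exact le_antisymm hle (not_lt.1 hs')
  rw [ValuationSubring.mem_nonunits_iff, ValuationSubring.mem_nonunits_iff, ← h, map_mul, h1,
    mul_one]

/-- If `z ∉ O` then `z⁻¹` is a non-unit of `O`. -/
theorem cn_chartatT_inv_nonunit {K : Type*} [Field K] (O : ValuationSubring K) (z : K)
    (hz : z ∉ O) : z⁻¹ ∈ O.nonunits := by
  rw [ValuationSubring.mem_nonunits_iff, map_inv₀]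
  have h1 : 1 < O.valuation z := by
    rw [← not_le]
    exact fun h => hz ((O.valuation_le_one_iff z).1 h)
  exact inv_lt_one_of_one_lt₀ h1

theorem cn_chartatT_nonunit_mem {K : Type*} [Field K] (O : ValuationSubring K) (z : K)
    (hz : z ∈ O.nonunits) : z ∈ O := by
  rw [ValuationSubring.mem_nonunits_iff] at hz
  exact (O.valuation_le_one_iff z).1 hz.le

set_option synthInstance.maxHeartbeats 400000 in
/-- (ChartAt) Every place `Q` of `F_k` has chart data. -/
theorem cn_chartatT_main : ChartSurjStatement → cn_ChartAtStatement := by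
  intro hCS N _ ℓ _ L _ _ W _ k _ _ _ res ϖ hB hH ρ hρ Q
  obtain ⟨S, hrule, hS⟩ : ∃ S : Set ↥(FL L N),
      ((S = {jF L N} ∧ jk k N ∈ Q.toValuationSubring) ∨
        (S = {(jF L N)⁻¹} ∧ (jk k N)⁻¹ ∈ Q.toValuationSubring.nonunits)) ∧
      (S = {jF L N} ∨ S = {(jF L N)⁻¹}) := by
    by_cases hj : jk k N ∈ Q.toValuationSubring
    · exact ⟨_, Or.inl ⟨rfl, hj⟩, Or.inl rfl⟩
    · exact ⟨_, Or.inr ⟨rfl, cn_chartatT_inv_nonunit _ _ hj⟩, Or.inr rfl⟩
  have hrule' : (S = {jF L N} ∧ jk k N ∈ Q.toValuationSubring) ∨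
      (S = {(jF L N)⁻¹} ∧ (jk k N)⁻¹ ∈ Q.toValuationSubring) :=
    hrule.imp_right fun h => ⟨h.1, cn_chartatT_nonunit_mem _ _ h.2⟩
  obtain ⟨m, hm, ϖc, hϖc, hϖm, hring, hchart⟩ := hCS N ℓ L W k res ϖ hB hH ρ hρ Q S hrule'
  have := hm
  have hle : chart W N S ≤ gaussV W res N :=
    (ga_chart N ℓ L W k res ϖ hB S (hS.imp_right Or.inl)).1
  refine ⟨S, m, hm, ⟨hrule, ?_, ?_, ?_⟩⟩
  · intro ϖc' h'
    have : ϖc' = ϖc := Subtype.ext (h'.trans hϖc.symm)
    rw [this]
    exact hϖm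
  · intro z
    rw [hring z]
    constructor
    · rintro ⟨g, hg, hV, h⟩
      exact ⟨⟨g, hV⟩, hg, Subtype.ext h⟩
    · rintro ⟨x, hx, h⟩
      exact ⟨(x : ↥(FL L N)), hx, x.2, by rw [← h]; rfl⟩
  · intro x hx
    obtain ⟨a, s, hs, h⟩ := hx
    have hxs : x * (⟨(s : ↥(FL L N)), hle s.2⟩ : ↥(gaussV W res N)) =
        (⟨(a : ↥(FL L N)), hle a.2⟩ : ↥(gaussV W res N)) := Subtype.ext h
    have hρxs := congrArg (cn_red W res N ϖ ρ hρ) hxs
    rw [map_mul] at hρxs
    have hsQ := hchart s (hle s.2) (cn_red W res N ϖ ρ hρ ⟨(s : ↥(FL L N)), hle s.2⟩).2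
    have haQ := hchart a (hle a.2) (cn_red W res N ϖ ρ hρ ⟨(a : ↥(FL L N)), hle a.2⟩).2
    rw [cn_chartatT_nonunits Q.toValuationSubring _ _ _ hsQ.1 (fun h' => hs (hsQ.2.1 h')) hρxs,
      cn_chartatT_unit (chart W N S) m (x : ↥(FL L N)) a s hs h, not_not]
    exact haQ.2

end Fermat.Agent.S37
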