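/-
S37, block CN, package RatUniq (twin file): uniqueness of the place above a rational discrete
valuation (abstract statement `cn_RatUniqStatement`).
-/
import Fermat.Agent.S37.CNInterfaces
import Fermat.Agent.S37.HV

set_option autoImplicit false

open AlgebraicCurve

namespace Fermat.Agent.S37

section

variable {K F E L : Type} [Field K] [Field F] [Algebra K F] [Field E] [Field L]

/-- Reduction step: a nontrivial `ι(L)`-linear relation between the coefficients gives a
representation with one term less. -/
theorem cn_ratuniqT_shorten (ι : L →+* K) (φ : E →+* F) (cE : L →+* E)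
    (hc : ∀ c : L, φ (cE c) = algebraMap K F (ι c)) (m : ℕ) (lam : Fin (m + 1) → K)
    (s : Fin (m + 1) → E) (c : Fin (m + 1) → L) (i₀ : Fin (m + 1)) (hi₀ : c i₀ ≠ 0)
    (hdep : ∑ i, ι (c i) * lam i = 0) :
    ∃ (lam' : Fin m → K) (s' : Fin m → E),
      ∑ i, algebraMap K F (lam i) * φ (s i) = ∑ j, algebraMap K F (lam' j) * φ (s' j) := by
  refine ⟨fun j => lam (i₀.succAbove j),
    fun j => s (i₀.succAbove j) - cE (c (i₀.succAbove j) / c i₀) * s i₀, ?_⟩
  rw [Fin.sum_univ_succAbove _ i₀] at hdep ⊢
  have hι : ι (c i₀) ≠ 0 := (map_ne_zero ι).2 hi₀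
  have h1 : lam i₀ = - ∑ j, ι (c (i₀.succAbove j) / c i₀) * lam (i₀.succAbove j) := by
    simp only [map_div₀]
    rw [eq_neg_iff_add_eq_zero]
    have : lam i₀ + ∑ j, ι (c (i₀.succAbove j)) / ι (c i₀) * lam (i₀.succAbove j)
        = (ι (c i₀) * lam i₀ + ∑ j, ι (c (i₀.succAbove j)) * lam (i₀.succAbove j))
          / ι (c i₀) := by
      rw [add_div, Finset.sum_div]
      congr 1
      · field_simp
      · apply Finset.sum_congr rfl
        intros
        ring
    rw [this, hdep, zero_div]
  rw [h1]
  simp only [map_sub, map_mul, hc, map_neg, map_sum, mul_sub, Finset.sum_sub_distrib, neg_mul,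
    Finset.sum_mul]
  rw [neg_add_eq_sub]
  congr 1
  apply Finset.sum_congr rfl
  intros
  ring

/-- The inductive step: an element of `O_P` with a representation of length `n` lies in `O_P'`. -/
theorem cn_ratuniqT_mem (ι : L →+* K) (φ : E →+* F) (cE : L →+* E)
    (hc : ∀ c : L, φ (cE c) = algebraMap K F (ι c))
    (P P' : Place K F) (t : E) (ht0 : t ≠ 0) (ht : φ t ∈ P.toValuationSubring.nonunits)
    (hfact : ∀ s : E, s ≠ 0 → ∃ (n : ℤ) (u : E), φ u ∈ P.toValuationSubring ∧
        φ u⁻¹ ∈ P.toValuationSubring ∧ s = t ^ n * u)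
    (hrat : ∀ s : E, φ s ∈ P.toValuationSubring → ∃ c : L, HasValue P (φ s) (ι c))
    (hle : ∀ s : E, φ s ∈ P.toValuationSubring → φ s ∈ P'.toValuationSubring) :
    ∀ (n : ℕ) (lam : Fin n → K) (s : Fin n → E),
      ∑ i, algebraMap K F (lam i) * φ (s i) ∈ P.toValuationSubring →
      ∑ i, algebraMap K F (lam i) * φ (s i) ∈ P'.toValuationSubring := by
  classical
  intro n
  induction n with
  | zero =>
    intro lam s _
    simp
  | succ m ih =>
    intro lam s hf
    by_cases hdep : ∃ c : Fin (m + 1) → L, (∃ i₀, c i₀ ≠ 0) ∧ ∑ i, ι (c i) * lam i = 0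
    · obtain ⟨c, ⟨i₀, hi₀⟩, hsum⟩ := hdep
      obtain ⟨lam', s', h⟩ := cn_ratuniqT_shorten ι φ cE hc m lam s c i₀ hi₀ hsum
      rw [h] at hf ⊢
      exact ih lam' s' hf
    · by_cases hall : ∀ i, s i = 0
      · simp [hall]
      rw [not_forall] at hall
      have hφt0 : φ t ≠ 0 := (map_ne_zero φ).2 ht0
      have htO : φ t ∈ P.toValuationSubring := ValuationSubring.nonunits_subset ht
      choose! nn uu hu1 hu2 hu3 using hfact
      have hne : (Finset.univ.filter (fun i => s i ≠ 0)).Nonempty := by
        obtain ⟨i, hi⟩ := hall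
        exact ⟨i, by simp [hi]⟩
      obtain ⟨i₁, hi₁, hmin⟩ := Finset.exists_min_image _ (fun i => nn (s i)) hne
      have hsi₁ : s i₁ ≠ 0 := by simpa using hi₁
      obtain ⟨e, he⟩ : ∃ e : ℤ, e = nn (s i₁) := ⟨_, rfl⟩
      obtain ⟨s', hs'⟩ : ∃ s' : Fin (m + 1) → E, ∀ i, s' i = s i * t ^ (-e) := ⟨_, fun _ => rfl⟩
      have hs'eq : ∀ i, s i ≠ 0 → s' i = t ^ (nn (s i) - e) * uu (s i) := by
        intro i hsi
        rw [hs']
        conv_lhs => rw [hu3 (s i) hsi]
        rw [mul_right_comm, ← zpow_add₀ ht0, ← sub_eq_add_neg]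
      have hs'mem : ∀ i, φ (s' i) ∈ P.toValuationSubring := by
        intro i
        by_cases hsi : s i = 0
        · rw [hs', hsi, zero_mul, map_zero]
          exact zero_mem _
        · have hle' : e ≤ nn (s i) := he ▸ hmin i (by simp [hsi])
          obtain ⟨k, hk⟩ := Int.eq_ofNat_of_zero_le (sub_nonneg.2 hle')
          rw [hs'eq i hsi, hk, zpow_natCast, map_mul, map_pow]
          exact mul_mem (pow_mem htO _) (hu1 _ hsi)
      have hs'i₁ : s' i₁ = uu (s i₁) := by
        rw [hs'eq i₁ hsi₁, he, sub_self, zpow_zero, one_mul]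
      choose c hcv using fun i => hrat (s' i) (hs'mem i)
      have hci₁ : c i₁ ≠ 0 := by
        intro h0
        have h := hcv i₁
        rw [h0, map_zero, hv_zero_iff, hs'i₁, ValuationSubring.mem_nonunits_iff_or] at h
        rcases h with h | h
        · rw [map_eq_zero] at h
          apply hsi₁
          rw [hu3 (s i₁) hsi₁, h, mul_zero]
        · apply h
          rw [← map_inv₀]
          exact hu2 _ hsi₁
      obtain ⟨g, hg⟩ : ∃ g : F, g = ∑ i, algebraMap K F (lam i) * φ (s' i) := ⟨_, rfl⟩
      have hgv : HasValue P g (∑ i, lam i * ι (c i)) := by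
        rw [hg]
        exact hv_sum _ _ _ (fun i _ => hv_mul (hv_algebraMap P _) (hcv i))
      have hκ : ∑ i, lam i * ι (c i) ≠ 0 := by
        intro h0
        apply hdep
        refine ⟨c, ⟨i₁, hci₁⟩, ?_⟩
        rw [← h0]
        exact Finset.sum_congr rfl fun i _ => mul_comm _ _
      have hg0 : g ≠ 0 := by
        rintro rfl
        exact hκ (hv_unique hgv (hv_zero P))
      have hginv : g⁻¹ ∈ P.toValuationSubring := hv_mem (hv_inv hgv hκ)
      have hfg : ∑ i, algebraMap K F (lam i) * φ (s i) = φ t ^ e * g := by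
        rw [hg, Finset.mul_sum]
        refine Finset.sum_congr rfl fun i _ => ?_
        have : s i = s' i * t ^ e := by
          rw [hs', mul_assoc, ← zpow_add₀ ht0, neg_add_cancel, zpow_zero, mul_one]
        conv_lhs => rw [this]
        rw [map_mul, map_zpow₀]
        ring
      have hte : φ t ^ e ∈ P.toValuationSubring := by
        have : φ t ^ e = (∑ i, algebraMap K F (lam i) * φ (s i)) * g⁻¹ := by
          rw [hfg, mul_assoc, mul_inv_cancel₀ hg0, mul_one]
        rw [this]
        exact mul_mem hf hginv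
      have he0 : 0 ≤ e := by
        by_contra hneg
        rw [not_le] at hneg
        obtain ⟨k, hk⟩ : ∃ k : ℕ, -e = (k : ℤ) + 1 := by
          obtain ⟨k, hk⟩ := Int.eq_ofNat_of_zero_le (show 0 ≤ -e - 1 by omega)
          exact ⟨k, by omega⟩
        have hnu : φ t ^ (k + 1) ∈ P.toValuationSubring.nonunits := by
          rw [pow_succ']
          exact hv_nonunits_mul_mem P ht (pow_mem htO k)
        rw [ValuationSubring.mem_nonunits_iff_or] at hnu
        rcases hnu with h | h
        · exact pow_ne_zero _ hφt0 h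
        · apply h
          have : (φ t ^ (k + 1))⁻¹ = φ t ^ e := by
            rw [← zpow_natCast, ← zpow_neg]
            congr 1
            push_cast
            omega
          rw [this]
          exact hte
      obtain ⟨k, hk⟩ := Int.eq_ofNat_of_zero_le he0
      rw [hfg, hk, zpow_natCast, hg]
      exact mul_mem (pow_mem (hle t htO) k)
        (sum_mem fun i _ => mul_mem (P'.algebraMap_mem' _) (hle _ (hs'mem i)))

end

theorem cn_ratuniqT_main : cn_RatUniqStatement := by
  intro K F E L _ _ _ _ _ ι φ cE hc hspan P P' t ht hfact hrat hle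
  have key : P.toValuationSubring ≤ P'.toValuationSubring := by
    by_cases ht0 : t = 0
    · exfalso
      apply P'.ne_top'
      have hall : ∀ s : E, φ s ∈ P.toValuationSubring := by
        intro s
        by_cases hs : s = 0
        · rw [hs, map_zero]
          exact zero_mem _
        · obtain ⟨n, u, hu, -, rfl⟩ := hfact s hs
          have hn : n = 0 := by
            by_contra hn
            apply hs
            rw [ht0, zero_zpow n hn, zero_mul]
          subst hn
          simpa using hu
      refine eq_top_iff.2 fun f _ => ?_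
      obtain ⟨n, lam, s, rfl⟩ := hspan f
      exact sum_mem fun i _ => mul_mem (P'.algebraMap_mem' _) (hle _ (hall _))
    · intro f hf
      obtain ⟨n, lam, s, rfl⟩ := hspan f
      exact cn_ratuniqT_mem ι φ cE hc P P' t ht0 ht hfact hrat hle n lam s hf
  exact (Place.ext (ValuationSubring.eq_of_le_of_ne_top _ key P'.ne_top')).symm

end Fermat.Agent.S37
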