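/-
S37, block HI, package HIFi (twin B): the fundamental identity
`∑_{w ∣ v} e(w ∣ v) * deg w = [F' : F] * deg v` for a finite extension of function fields of one
variable over an algebraically closed field of characteristic zero.

Method: all places have degree one (`Fermat.Agent.S24.Places.degOneStatement`), and for a place
`v` of `F` with valuation ring `A`, the places of `F'` above `v` are the places attached to the
nonzero primes of the integral closure `B` of `A` in `F'` (a Dedekind domain, finite and flat over
`A`); the ramification indices agree, the inertia degrees are one, and Mathlib's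
`Ideal.sum_ramification_inertia_eq_finrank` gives the result.
-/
import Fermat.Agent.S37.HIInterfaces
import Fermat.Agent.S24.Zeros
import Fermat.Agent.S24.Places

set_option autoImplicit false

open AlgebraicCurve IsDedekindDomain IntermediateField

namespace Fermat.Agent.S37

noncomputable section

/-- If `F` is finite over `K(t)` and `F'` is finite over `F` along `φ`, then `F'` is finite over
`K(φ t)`. -/
theorem hifb_finiteDimensional_map {K F F' : Type} [Field K] [Field F] [Field F'] [Algebra K F]
    [Algebra K F'] (t : F) (hfinF : FiniteDimensional K⟮t⟯ F) (φ : F →ₐ[K] F')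
    (hfin : FiniteAlong K φ) : FiniteDimensional K⟮φ t⟯ F' := by
  let _ := algebraAlong φ
  have : Module.Finite F F' := hfin
  have hmem : ∀ x : K⟮t⟯, φ (x : F) ∈ K⟮φ t⟯ := by
    intro x
    have h1 : φ (x : F) ∈ (K⟮t⟯).map φ := ⟨x, x.2, rfl⟩
    rw [IntermediateField.adjoin_map, Set.image_singleton] at h1
    exact h1
  let ψ : K⟮t⟯ →+* K⟮φ t⟯ :=
    { toFun := fun x => ⟨φ (x : F), hmem x⟩
      map_one' := Subtype.ext (map_one φ)
      map_mul' := fun x y => Subtype.ext (map_mul φ _ _)
      map_zero' := Subtype.ext (map_zero φ)
      map_add' := fun x y => Subtype.ext (map_add φ _ _) }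
  let _ : Algebra K⟮t⟯ K⟮φ t⟯ := ψ.toAlgebra
  let _ : Algebra K⟮t⟯ F' := ((algebraMap F F').comp (algebraMap K⟮t⟯ F)).toAlgebra
  have : IsScalarTower K⟮t⟯ F F' := IsScalarTower.of_algebraMap_eq (fun _ => rfl)
  have : IsScalarTower K⟮t⟯ K⟮φ t⟯ F' := IsScalarTower.of_algebraMap_eq (fun _ => rfl)
  have : Module.Finite K⟮t⟯ F' := Module.Finite.trans F F'
  exact Module.Finite.of_restrictScalars_finite K⟮t⟯ K⟮φ t⟯ F'

/-! ### The local dictionary at a place `v` of `F`

`A = v.toValuationSubring`, and `B` is a Dedekind domain with fraction field `F'`, integral over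
`A` (in the application: the integral closure of `A` in `F'`). -/

section Abstract

variable {K F F' B : Type} [Field K] [Field F] [Field F'] [Algebra K F] [Algebra K F']
  [Algebra F F'] [IsScalarTower K F F'] [Algebra.IsIntegral F F']
  (v : Place K F) [Algebra v.toValuationSubring F'] [IsScalarTower v.toValuationSubring F F']
  [CommRing B] [IsDedekindDomain B] [Algebra K B] [Algebra v.toValuationSubring B] [Algebra B F']
  [IsScalarTower v.toValuationSubring B F'] [IsScalarTower K B F'] [IsFractionRing B F']

/-- The place attached to a nonzero prime of `B` lies above `v`. -/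
theorem hifb_restrict_ofHeightOneSpectrum (P : HeightOneSpectrum B) :
    (Place.ofHeightOneSpectrum (K := K) (F := F') P).restrict F = v := by
  symm
  apply S24.Dict.ext_of_le
  intro x hx
  have h : P.valuation F' (algebraMap B F' (algebraMap v.toValuationSubring B ⟨x, hx⟩)) ≤ 1 :=
    P.valuation_le_one (K := F') (algebraMap v.toValuationSubring B ⟨x, hx⟩)
  rw [← IsScalarTower.algebraMap_apply v.toValuationSubring B F',
    IsScalarTower.algebraMap_apply v.toValuationSubring F F'] at h
  exact h

theorem hifb_restrict_placeOver (π : v.toValuationSubring)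
    (ha : algebraMap v.toValuationSubring B π ≠ 0) (q : (Ideal.span {π}).primesOver B) :
    (S24.Zeros.placeOver K F' π ha q).restrict F = v :=
  hifb_restrict_ofHeightOneSpectrum v _

/-- The places of `F'` above `v` are exactly the places attached to the primes of `B` over the
maximal ideal of `A`. -/
theorem hifb_range_placeOver [Algebra.IsIntegral v.toValuationSubring B]
    (π : v.toValuationSubring) (hπ : Irreducible π)
    (ha : algebraMap v.toValuationSubring B π ≠ 0) :
    Set.range (S24.Zeros.placeOver K F' π ha) = {w : Place K F' | w.restrict F = v} := by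
  ext w
  constructor
  · rintro ⟨q, rfl⟩
    exact hifb_restrict_placeOver v π ha q
  · intro hw
    rw [Set.mem_ofPred_eq] at hw
    have hA : ∀ x : v.toValuationSubring,
        0 ≤ w.ord (algebraMap v.toValuationSubring F' x) := by
      intro x
      apply S24.Dict.ord_nonneg_of_mem
      have hx : (x : F) ∈ (w.restrict F).toValuationSubring := by
        rw [hw]
        exact x.2
      rw [IsScalarTower.algebraMap_apply v.toValuationSubring F F']
      exact hx
    have hB : ∀ b : B, 0 ≤ w.ord (algebraMap B F' b) := by
      intro b
      apply S24.Dict.ord_nonneg_of_isIntegral w hA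
      have hb : IsIntegral v.toValuationSubring b := Algebra.IsIntegral.isIntegral b
      exact hb.map (IsScalarTower.toAlgHom v.toValuationSubring B F')
    have hpos : 0 < w.ord (algebraMap B F' (algebraMap v.toValuationSubring B π)) := by
      rw [← IsScalarTower.algebraMap_apply v.toValuationSubring B F',
        IsScalarTower.algebraMap_apply v.toValuationSubring F F']
      have h1 := w.ord_restrict (F := F) (π : F)
      rw [hw, v.ord_coe_irreducible hπ, mul_one] at h1
      have h2 := w.ramificationIndex_pos (F := F)
      have h3 : w.ord (algebraMap F F' (algebraMap v.toValuationSubring F π))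
          = (w.ramificationIndex F : ℤ) := h1
      rw [h3]
      exact_mod_cast h2
    obtain ⟨P, hP, hmem⟩ := S24.Dict.exists_eq_ofHeightOneSpectrum w hB
      ⟨algebraMap v.toValuationSubring B π, ha, hpos⟩
    have haP : algebraMap v.toValuationSubring B π ∈ P.asIdeal := (hmem _ ha).mpr hpos
    have hle : Ideal.span {π} ≤ P.asIdeal.under v.toValuationSubring := by
      rw [Ideal.span_le, Set.singleton_subset_iff]
      exact haP
    have hmax : (Ideal.span {π} : Ideal v.toValuationSubring).IsMaximal :=
      PrincipalIdealRing.isMaximal_of_irreducible hπ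
    have hover : P.asIdeal.LiesOver (Ideal.span {π}) :=
      ⟨hmax.eq_of_le (Ideal.IsPrime.under v.toValuationSubring P.asIdeal).ne_top hle⟩
    refine ⟨⟨P.asIdeal, P.isPrime, hover⟩, ?_⟩
    rw [hP]
    rfl

variable [IsScalarTower K v.toValuationSubring F'] [IsScalarTower K v.toValuationSubring B]

/-- The ramification index of the place attached to a prime of `B` over `v` is the ramification
index of the prime. -/
theorem hifb_ramificationIndex_placeOver (π : v.toValuationSubring) (hπ : Irreducible π)
    (ha : algebraMap v.toValuationSubring B π ≠ 0) (q : (Ideal.span {π}).primesOver B) :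
    ((S24.Zeros.placeOver K F' π ha q).ramificationIndex F : ℤ) =
      (q.1.ramificationIdx v.toValuationSubring : ℤ) := by
  have h1 := S24.Zeros.ord_placeOver (K := K) (F := F') π ha q
  rw [IsScalarTower.algebraMap_apply v.toValuationSubring F F'] at h1
  have h2 := (S24.Zeros.placeOver K F' π ha q).ord_restrict (F := F) (π : F)
  rw [hifb_restrict_placeOver v π ha q, v.ord_coe_irreducible hπ, mul_one] at h2
  rw [← h2]
  exact h1

/-- The sum of the ramification indices over the fibre of `v` is the rank of `B` over `A`. -/
theorem hifb_sum_abstract [IsAlgClosed K] [HasPrincipalDivisors K F']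
    [Module.Finite v.toValuationSubring B] [Module.Flat v.toValuationSubring B]
    (hres : ∀ a : v.toValuationSubring, ∃ c : K,
      algebraMap K v.ResidueField c = IsLocalRing.residue v.toValuationSubring a) :
    ∑ w ∈ v.fiber F', (w.ramificationIndex F : ℤ) =
      (Module.finrank v.toValuationSubring B : ℤ) := by
  classical
  obtain ⟨π, hπ⟩ := IsDiscreteValuationRing.exists_irreducible v.toValuationSubring
  have ha : algebraMap v.toValuationSubring B π ≠ 0 := by
    intro h
    have h1 := congrArg (algebraMap B F') h
    rw [← IsScalarTower.algebraMap_apply v.toValuationSubring B F',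
      IsScalarTower.algebraMap_apply v.toValuationSubring F F', map_zero] at h1
    have h2 : algebraMap v.toValuationSubring F π = 0 :=
      (algebraMap F F').injective (by rw [h1, map_zero])
    exact hπ.ne_zero (Subtype.ext h2)
  have hmax : (Ideal.span {π} : Ideal v.toValuationSubring).IsMaximal :=
    PrincipalIdealRing.isMaximal_of_irreducible hπ
  have hK : ∀ x : v.toValuationSubring,
      ∃ k : K, x - algebraMap K v.toValuationSubring k ∈ Ideal.span {π} := by
    intro x
    obtain ⟨c, hc⟩ := hres x
    refine ⟨c, ?_⟩
    rw [← hπ.maximalIdeal_eq, ← IsLocalRing.residue_eq_zero_iff, map_sub, ← hc]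
    exact sub_self _
  have hfin : Finite ((Ideal.span {π}).primesOver B) :=
    (Algebra.QuasiFinite.finite_primesOver (Ideal.span {π})).to_subtype
  have := Fintype.ofFinite ((Ideal.span {π}).primesOver B)
  have hfib : v.fiber F' = Finset.univ.image (S24.Zeros.placeOver K F' π ha) := by
    ext w
    have h := Set.ext_iff.mp (hifb_range_placeOver v π hπ ha) w
    rw [Set.mem_range, Set.mem_ofPred_eq] at h
    rw [Place.mem_fiber, ← h]
    simp
  rw [hfib, Finset.sum_image (fun q _ q' _ h => S24.Zeros.placeOver_injective π ha h),
    ← Ideal.sum_ramification_inertia_eq_finrank (Ideal.span {π}) B, Nat.cast_sum]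
  refine Finset.sum_congr rfl fun q _ => ?_
  rw [hifb_ramificationIndex_placeOver v π hπ ha q,
    S24.Zeros.inertiaDeg_eq_one (K := K) π hmax hK q.1, mul_one]

end Abstract

/-- The sum of the ramification indices over the fibre of a place `v` with residue field `K` is
the degree of the extension. -/
theorem hifb_sum_ramificationIndex {K F F' : Type} [Field K] [Field F] [Field F'] [Algebra K F]
    [Algebra K F'] [Algebra F F'] [IsScalarTower K F F'] [Algebra.IsIntegral F F']
    [IsAlgClosed K] [CharZero K] [Module.Finite F F'] [HasPrincipalDivisors K F']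
    (v : Place K F)
    (hres : ∀ a : v.toValuationSubring, ∃ c : K,
      algebraMap K v.ResidueField c = IsLocalRing.residue v.toValuationSubring a) :
    ∑ w ∈ v.fiber F', (w.ramificationIndex F : ℤ) = (Module.finrank F F' : ℤ) := by
  let _ : Algebra v.toValuationSubring F' :=
    ((algebraMap F F').comp (algebraMap v.toValuationSubring F)).toAlgebra
  have : IsScalarTower v.toValuationSubring F F' := IsScalarTower.of_algebraMap_eq (fun _ => rfl)
  have : IsScalarTower K v.toValuationSubring F' :=
    IsScalarTower.of_algebraMap_eq (fun k => IsScalarTower.algebraMap_apply K F F' k)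
  have hinj : Function.Injective (algebraMap v.toValuationSubring F') := fun x y hxy =>
    Subtype.ext ((algebraMap F F').injective hxy)
  have : FaithfulSMul v.toValuationSubring F' :=
    (faithfulSMul_iff_algebraMap_injective _ _).mpr hinj
  have : CharZero F := charZero_of_injective_algebraMap (algebraMap K F).injective
  have : Algebra.IsSeparable F F' := inferInstance
  have : IsDedekindDomain (integralClosure v.toValuationSubring F') :=
    IsIntegralClosure.isDedekindDomain v.toValuationSubring F F' _
  have : IsFractionRing (integralClosure v.toValuationSubring F') F' :=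
    integralClosure.isFractionRing_of_finite_extension F F'
  have : Module.Finite v.toValuationSubring (integralClosure v.toValuationSubring F') :=
    IsIntegralClosure.finite v.toValuationSubring F F' _
  have : Module.Flat v.toValuationSubring (integralClosure v.toValuationSubring F') :=
    inferInstance
  have key := hifb_sum_abstract (F' := F') (B := integralClosure v.toValuationSubring F') v hres
  rw [key, IsFractionRing.finrank_eq v.toValuationSubring F
    (integralClosure v.toValuationSubring F') F']

/-- (HI-FI) The fundamental identity. -/
theorem hifb_main : hi_FIStatement := by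
  intro K F F' _ _ _ _ _ _ _ _ t ht hfinF φ hφ hfin
  have ht' : Transcendental K (φ t) := fun h =>
    ht ((isAlgebraic_algHom_iff φ φ.toRingHom.injective).mp h)
  have hfinF' : FiniteDimensional K⟮φ t⟯ F' := hifb_finiteDimensional_map t hfinF φ hfin
  have hdegF : ∀ v : Place K F, v.deg = 1 := S24.Places.degOneStatement K F t ht hfinF
  have hdegF' : ∀ w : Place K F', w.deg = 1 :=
    S24.Places.degOneStatement K F' (φ t) ht' hfinF'
  let _ := algebraAlong φ
  have := isScalarTower_along φ
  have := isIntegral_along φ hφ
  have : Module.Finite F F' := hfin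
  show FundamentalIdentity K F F'
  refine ⟨fun v => ?_⟩
  have h1 : ∑ w ∈ v.fiber F', (w.ramificationIndex F : ℤ) * (w.deg : ℤ) =
      ∑ w ∈ v.fiber F', (w.ramificationIndex F : ℤ) :=
    Finset.sum_congr rfl fun w _ => by rw [hdegF' w, Nat.cast_one, mul_one]
  rw [h1, hdegF v, Nat.cast_one, mul_one]
  exact hifb_sum_ramificationIndex v fun a => S24.Places.exists_residue_eq v ht hfinF a

end

end Fermat.Agent.S37
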