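/-
S37 (Eichler–Shimura congruence relation), block HI, work package HIFin (file B):
finiteness facts for the modular function fields `F_M` over `ℚ̄`.

* `hifm_fin : hi_FinStatement` — the two degeneracy maps `α, β : F_N → F_{Nℓ}` are integral and
  finite;
* `hifm_principal : hi_PrincipalStatement` — principal divisors of `F_M` have finite support and
  degree zero;
* `hifm_degOne : hi_DegOneStatement` — every place of `F_M` has degree one.

Everything is deduced from the S24 results on function fields of one variable (`F_M` is finite over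
`ℚ̄(j)` with `j` transcendental: `Fermat.Agent.S28.c_modelCounts`).
-/
import Fermat.Agent.S37.HIInterfaces
import Fermat.Agent.S28.CMain

set_option autoImplicit false

open AlgebraicCurve ModularCurve IntermediateField Polynomial

namespace Fermat.Agent.S37

/-! ## Generic lemmas -/

/-- If `F'` is finite over the subfield `K(φ t)` for some `t : F`, then `F'` is finite along
`φ : F →ₐ[K] F'`. -/
theorem hifm_finiteAlong_of_adjoin {K F F' : Type} [Field K] [Field F] [Field F'] [Algebra K F]
    [Algebra K F'] (φ : F →ₐ[K] F') (t : F) (h : FiniteDimensional K⟮φ t⟯ F') :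
    FiniteAlong K φ := by
  let _ : Algebra F F' := algebraAlong φ
  show Module.Finite F F'
  have hle : K⟮φ t⟯ ≤ φ.fieldRange := by
    rw [IntermediateField.adjoin_simple_le_iff]
    exact ⟨t, rfl⟩
  obtain ⟨S, hS⟩ := Module.finite_def.mp h
  have key : ∀ x ∈ Submodule.span K⟮φ t⟯ (S : Set F'), x ∈ Submodule.span F (S : Set F') := by
    intro x hx
    induction hx using Submodule.span_induction with
    | mem y hy => exact Submodule.subset_span hy
    | zero => exact Submodule.zero_mem _
    | add y z _ _ hy hz => exact Submodule.add_mem _ hy hz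
    | smul c y _ hy =>
      obtain ⟨d, hd⟩ := hle c.2
      have hcy : c • y = d • y := by
        rw [Algebra.smul_def, Algebra.smul_def]
        show (c : F') * y = φ d * y
        rw [← hd]
        rfl
      rw [hcy]
      exact Submodule.smul_mem _ d hy
  refine Module.finite_def.mpr ⟨S, ?_⟩
  rw [eq_top_iff]
  intro x _
  exact key x (by rw [hS]; exact Submodule.mem_top)

/-- A `K`-embedding along which the target is finite is integral. -/
theorem hifm_isIntegral_of_finiteAlong {K F F' : Type} [Field K] [Field F] [Field F']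
    [Algebra K F] [Algebra K F'] (φ : F →ₐ[K] F') (h : FiniteAlong K φ) :
    φ.toRingHom.IsIntegral := by
  let _ : Algebra F F' := algebraAlong φ
  have _ : Module.Finite F F' := h
  intro x
  exact Algebra.IsIntegral.isIntegral (R := F) x

/-- The image of a transcendental element under a `K`-embedding of fields is transcendental. -/
theorem hifm_transcendental_map {K F F' : Type} [Field K] [Field F] [Field F'] [Algebra K F]
    [Algebra K F'] (φ : F →ₐ[K] F') {t : F} (ht : Transcendental K t) :
    Transcendental K (φ t) := fun halg =>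
  ht ((isAlgebraic_algHom_iff φ φ.toRingHom.injective).mp halg)

/-! ## The modular function fields -/

/-- The degeneracy map `α` (the inclusion) maps `j` to `j`. -/
theorem hifm_alpha_jBar (N ℓ : ℕ) [NeZero N] [NeZero ℓ] :
    heckeAlphaBar (AlgebraicClosure ℚ) N ℓ (Fermat.Agent.S24.jBar N)
      = Fermat.Agent.S24.jBar (N * ℓ) :=
  Subtype.ext (by rw [coe_heckeAlphaBar]; rfl)

/-- (HI-Fin) The two degeneracy maps `α, β : F_N → F_{Nℓ}` are integral and finite. -/
theorem hifm_fin : hi_FinStatement := by
  intro N ℓ _ _
  obtain ⟨htrN, -, -⟩ := Fermat.Agent.S28.c_modelCounts N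
  obtain ⟨htrNl, hfinNl, -⟩ := Fermat.Agent.S28.c_modelCounts (N * ℓ)
  have hα : FiniteAlong (AlgebraicClosure ℚ) (heckeAlphaBar (AlgebraicClosure ℚ) N ℓ) := by
    apply hifm_finiteAlong_of_adjoin _ (Fermat.Agent.S24.jBar N)
    rw [hifm_alpha_jBar]
    exact hfinNl
  have hβ : FiniteAlong (AlgebraicClosure ℚ) (heckeBetaBar (AlgebraicClosure ℚ) N ℓ) :=
    hifm_finiteAlong_of_adjoin _ (Fermat.Agent.S24.jBar N)
      (Fermat.Agent.S24.Places.finiteDimensional_adjoin_of_transcendental htrNl hfinNl
        (hifm_transcendental_map (heckeBetaBar (AlgebraicClosure ℚ) N ℓ) htrN))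
  exact ⟨hifm_isIntegral_of_finiteAlong _ hα, hifm_isIntegral_of_finiteAlong _ hβ, hα, hβ⟩

/-- (HI-DegOne) Every place of `F_M` has degree one. -/
theorem hifm_degOne : hi_DegOneStatement := by
  intro M _ P
  obtain ⟨htr, hfin, -⟩ := Fermat.Agent.S28.c_modelCounts M
  exact Fermat.Agent.S24.Places.degOneStatement _ _ (Fermat.Agent.S24.jBar M) htr hfin P

/-- (HI-Princ) Principal divisors of `F_M` have finite support and degree zero. -/
theorem hifm_principal : hi_PrincipalStatement := by
  intro M _
  obtain ⟨htr, hfin, -⟩ := Fermat.Agent.S28.c_modelCounts M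
  have hPrin : Fermat.Agent.S24.PrincipalStatement :=
    Fermat.Agent.S24.Places.principalStatement Fermat.Agent.S24.Zeros.zerosStatement
      Fermat.Agent.S24.Zeros.polesStatement
  refine ⟨fun f hf => ?_⟩
  obtain ⟨hsupp, hsum⟩ := hPrin (AlgebraicClosure ℚ) ↥(modularFunctionFieldBar M)
    (Fermat.Agent.S24.jBar M) htr hfin f hf
  let D : Divisor (AlgebraicClosure ℚ) ↥(modularFunctionFieldBar M) :=
    Finsupp.ofSupportFinite (fun w => w.ord f) hsupp
  have hD : ∀ w : Place (AlgebraicClosure ℚ) ↥(modularFunctionFieldBar M), D w = w.ord f :=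
    fun _ => rfl
  refine ⟨D, hD, ?_⟩
  have hdeg : Divisor.degree D = ∑ᶠ w, D w := by
    rw [finsum_eq_sum_of_support_subset _ (Finsupp.fun_support_eq D).subset,
      Divisor.degree, Finsupp.liftAddHom_apply, Finsupp.sum]
    refine Finset.sum_congr rfl (fun w _ => ?_)
    rw [AddMonoidHom.mulRight_apply, hifm_degOne M w]
    simp
  rw [hdeg, finsum_congr hD]
  exact hsum

end Fermat.Agent.S37
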