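/-
S37, block HI, package HINf (norm formula): `ord_v (N_{F'/F} f) = ∑_{w ∣ v} ord_w f` for a finite
extension `F'/F` of function fields of one variable over an algebraically closed field of
characteristic zero, in the prelude's form `Divisor.PushforwardNormFormula`.

Proof.  Local dictionary at `v`: `A` = the valuation ring of `v` (a discrete valuation ring),
`B` = the integral closure of `A` in `F'` (a Dedekind domain, finite over `A`).  The places of `F'`
above `v` are the places attached to the height-one primes `P` of `B`; all of them lie over the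
maximal ideal `m` of `A`, with inertia degree one, so `Ideal.relNorm A P = m`.  For `b ∈ B`,
`b ≠ 0`: `(N b) = relNorm (b) = m ^ (number of prime factors of (b))`, hence
`ord_v (N b) = ∑_P ord_P b`.  The general case follows by writing `f = b₁ / b₂`.
-/
import Fermat.Agent.S37.HIInterfaces
import Fermat.Agent.S24.Zeros
import Fermat.Agent.S24.Places

set_option autoImplicit false
set_option linter.unusedSectionVars false

open AlgebraicCurve IsDedekindDomain IntermediateField

namespace Fermat.Agent.S37

noncomputable section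

open Fermat.Agent.S24

/-! ### Transport of the transcendental parameter along `φ` -/

theorem hinb_transcendental {K F F' : Type} [Field K] [Field F] [Field F'] [Algebra K F]
    [Algebra K F'] (φ : F →ₐ[K] F') {t : F} (ht : Transcendental K t) :
    Transcendental K (φ t) :=
  fun h => ht ((isAlgebraic_algHom_iff φ φ.toRingHom.injective).mp h)

theorem hinb_finiteDimensional {K F F' : Type} [Field K] [Field F] [Field F'] [Algebra K F]
    [Algebra K F'] (φ : F →ₐ[K] F') (hfin : FiniteAlong K φ) {t : F}
    (hfinF : FiniteDimensional K⟮t⟯ F) : FiniteDimensional K⟮φ t⟯ F' := by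
  let := algebraAlong φ
  have : Module.Finite F F' := hfin
  let : Algebra K⟮t⟯ F' := ((algebraMap F F').comp (algebraMap K⟮t⟯ F)).toAlgebra
  have : IsScalarTower K⟮t⟯ F F' := IsScalarTower.of_algebraMap_eq fun _ => rfl
  have : Module.Finite K⟮t⟯ F' := Module.Finite.trans F F'
  have hmem : ∀ x : K⟮t⟯, φ (x : F) ∈ K⟮φ t⟯ := by
    intro x
    have h1 : φ (x : F) ∈ (K⟮t⟯).map φ := ⟨x, x.2, rfl⟩
    rw [IntermediateField.adjoin_map, Set.image_singleton] at h1
    exact h1
  let ψ : K⟮t⟯ →+* K⟮φ t⟯ :=
    { toFun := fun x => ⟨φ (x : F), hmem x⟩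
      map_one' := Subtype.ext (map_one φ)
      map_mul' := fun x y => Subtype.ext (map_mul φ _ _)
      map_zero' := Subtype.ext (map_zero φ)
      map_add' := fun x y => Subtype.ext (map_add φ _ _) }
  let : Algebra K⟮t⟯ K⟮φ t⟯ := ψ.toAlgebra
  have : IsScalarTower K⟮t⟯ K⟮φ t⟯ F' := IsScalarTower.of_algebraMap_eq fun _ => rfl
  exact Module.Finite.of_restrictScalars_finite K⟮t⟯ K⟮φ t⟯ F'

theorem hinb_ord_div {K F : Type} [Field K] [Field F] [Algebra K F] (w : Place K F) {x y : F}
    (hx : x ≠ 0) (hy : y ≠ 0) : w.ord (x / y) = w.ord x - w.ord y := by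
  rw [div_eq_mul_inv, w.ord_mul hx (inv_ne_zero hy), w.ord_inv]
  ring

/-! ### Abstract version: a discrete valuation ring `A` and a Dedekind domain `B` finite over it -/

section Abstract

variable {K F F' A B : Type} [Field K] [Field F] [Field F'] [Algebra K F] [Algebra K F']
  [Algebra F F'] [IsScalarTower K F F'] [Module.Finite F F']
  [CommRing A] [IsDomain A] [IsDiscreteValuationRing A] [Algebra K A] [Algebra A F]
  [IsScalarTower K A F] [IsFractionRing A F] [Algebra A F'] [IsScalarTower A F F']
  [CommRing B] [IsDedekindDomain B] [Algebra K B] [Algebra A B] [Algebra B F']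
  [IsScalarTower K A B] [IsScalarTower A B F'] [IsScalarTower K B F'] [IsFractionRing B F']
  [IsIntegralClosure B A F'] [Module.Finite A B] [Module.IsTorsionFree A B]

/-- Every height-one prime of `B` lies over the maximal ideal of the discrete valuation ring
`A`. -/
theorem hinb_liesOver (P : HeightOneSpectrum B) :
    P.asIdeal.LiesOver (IsLocalRing.maximalIdeal A) := by
  have := P.isPrime
  obtain ⟨x, hxP, hx0⟩ := Submodule.exists_mem_ne_zero_of_ne_bot P.ne_bot
  have hne : P.asIdeal.under A ≠ ⊥ :=
    Ideal.comap_ne_bot_of_integral_mem hx0 hxP (Algebra.IsIntegral.isIntegral x)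
  have hmax : (P.asIdeal.under A).IsMaximal := Ideal.IsPrime.isMaximal inferInstance hne
  exact ⟨(IsLocalRing.eq_maximalIdeal hmax).symm⟩

/-- All inertia degrees are one. -/
theorem hinb_inertiaDeg [IsAlgClosed K]
    (hK : ∀ x : A, ∃ k : K, x - algebraMap K A k ∈ IsLocalRing.maximalIdeal A)
    (P : HeightOneSpectrum B) : P.asIdeal.inertiaDeg A = 1 := by
  obtain ⟨ϖ, hϖ⟩ := IsDiscreteValuationRing.exists_irreducible A
  have hm : IsLocalRing.maximalIdeal A = Ideal.span {ϖ} := hϖ.maximalIdeal_eq
  have := P.isPrime
  have : P.asIdeal.LiesOver (Ideal.span {ϖ}) := hm ▸ hinb_liesOver (A := A) P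
  have hmax : (Ideal.span {ϖ}).IsMaximal := hm ▸ IsLocalRing.maximalIdeal.isMaximal A
  exact Zeros.inertiaDeg_eq_one (K := K) ϖ hmax (fun x => hm ▸ hK x) P.asIdeal

/-- The relative norm of a height-one prime of `B` is the maximal ideal of `A`. -/
theorem hinb_relNorm_prime [IsAlgClosed K] [CharZero K]
    (hK : ∀ x : A, ∃ k : K, x - algebraMap K A k ∈ IsLocalRing.maximalIdeal A)
    (P : HeightOneSpectrum B) : Ideal.relNorm A P.asIdeal = IsLocalRing.maximalIdeal A := by
  have : CharZero A := charZero_of_injective_algebraMap (algebraMap K A).injective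
  have : CharZero (FractionRing A) :=
    charZero_of_injective_algebraMap (IsFractionRing.injective A (FractionRing A))
  have := hinb_liesOver (A := A) P
  have := P.isMaximal
  rw [Ideal.relNorm_eq_pow_of_isMaximal P.asIdeal (IsLocalRing.maximalIdeal A),
    hinb_inertiaDeg hK P, pow_one]

/-- The relative norm of a nonzero ideal of `B`. -/
theorem hinb_relNorm [IsAlgClosed K] [CharZero K]
    (hK : ∀ x : A, ∃ k : K, x - algebraMap K A k ∈ IsLocalRing.maximalIdeal A)
    (I : Ideal B) (hI : I ≠ ⊥) :
    Ideal.relNorm A I =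
      IsLocalRing.maximalIdeal A ^ (UniqueFactorizationMonoid.normalizedFactors I).card := by
  conv_lhs => rw [← Ideal.prod_normalizedFactors_eq_self hI]
  rw [map_multiset_prod]
  have h : (UniqueFactorizationMonoid.normalizedFactors I).map (Ideal.relNorm A) =
      (UniqueFactorizationMonoid.normalizedFactors I).map
        (fun _ => IsLocalRing.maximalIdeal A) := by
    refine Multiset.map_congr rfl fun Q hQ => ?_
    have hQp : Prime Q := UniqueFactorizationMonoid.prime_of_normalized_factor Q hQ
    exact hinb_relNorm_prime hK ⟨Q, Ideal.isPrime_of_prime hQp, hQp.ne_zero⟩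
  rw [h, Multiset.map_const', Multiset.prod_replicate]

/-- A uniformiser of `v` inside `A`. -/
theorem hinb_exists_unif (v : Place K F)
    (hv : ∀ x : F, x ∈ v.toValuationSubring ↔ ∃ a : A, algebraMap A F a = x) :
    ∃ a : A, a ≠ 0 ∧ v.ord (algebraMap A F a) = 1 := by
  obtain ⟨π, hπ⟩ := IsDiscreteValuationRing.exists_irreducible v.toValuationSubring
  obtain ⟨a, ha⟩ := (hv (π : F)).mp π.2
  refine ⟨a, ?_, ?_⟩
  · rintro rfl
    rw [map_zero] at ha
    exact hπ.ne_zero (Subtype.ext ha.symm)
  · rw [ha, v.ord_coe_irreducible hπ]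

/-- The order at `v` of an element of `A` is the exponent of the maximal ideal in the ideal it
generates. -/
theorem hinb_ord_algebraMap (v : Place K F)
    (hv : ∀ x : F, x ∈ v.toValuationSubring ↔ ∃ a : A, algebraMap A F a = x) {a : A}
    (ha : a ≠ 0) :
    v.ord (algebraMap A F a) =
      (multiplicity (IsLocalRing.maximalIdeal A) (Ideal.span {a}) : ℤ) := by
  have h1 : ∀ a : A, 0 ≤ v.ord (algebraMap A F a) := fun a =>
    Dict.ord_nonneg_of_mem v ((hv _).mpr ⟨a, rfl⟩)
  have h2 : ∃ a : A, a ≠ 0 ∧ 0 < v.ord (algebraMap A F a) := by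
    obtain ⟨a, ha0, ha⟩ := hinb_exists_unif v hv
    exact ⟨a, ha0, by rw [ha]; exact one_pos⟩
  obtain ⟨p, hp, -⟩ := Dict.exists_eq_ofHeightOneSpectrum v h1 h2
  have hpm : p.asIdeal = IsLocalRing.maximalIdeal A := IsLocalRing.eq_maximalIdeal p.isMaximal
  rw [hp, Dict.ord_ofHeightOneSpectrum_algebraMap p ha, hpm]

/-- The order at `v` of the norm of an element of `B` is the number of prime factors of the ideal
it generates. -/
theorem hinb_ord_norm [IsAlgClosed K] [CharZero K] (v : Place K F)
    (hv : ∀ x : F, x ∈ v.toValuationSubring ↔ ∃ a : A, algebraMap A F a = x)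
    (hK : ∀ x : A, ∃ k : K, x - algebraMap K A k ∈ IsLocalRing.maximalIdeal A) {b : B}
    (hb : b ≠ 0) :
    v.ord (Algebra.norm F (algebraMap B F' b)) =
      ((UniqueFactorizationMonoid.normalizedFactors (Ideal.span {b})).card : ℤ) := by
  have hN := Algebra.algebraMap_intNorm (A := A) (K := F) (L := F') (B := B) b
  have hb' : algebraMap B F' b ≠ 0 := by
    simpa using (IsFractionRing.injective B F').ne hb
  have hn0 : Algebra.intNorm A B b ≠ 0 := by
    intro h0
    rw [h0, map_zero] at hN
    exact (Algebra.norm_ne_zero_iff.mpr hb') hN.symm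
  have hI : Ideal.span {b} ≠ ⊥ := by rwa [Ne, Ideal.span_singleton_eq_bot]
  rw [← hN, hinb_ord_algebraMap v hv hn0, ← Ideal.relNorm_singleton, hinb_relNorm hK _ hI,
    multiplicity_pow_self_of_prime
      (Ideal.prime_of_isPrime (IsDiscreteValuationRing.not_a_field A) inferInstance)]

/-- `B` has finitely many height-one primes. -/
theorem hinb_finite (A : Type) {B : Type} [CommRing A] [IsDomain A] [IsDiscreteValuationRing A]
    [CommRing B] [IsDedekindDomain B] [Algebra A B] [Module.Finite A B]
    [Module.IsTorsionFree A B] : Finite (HeightOneSpectrum B) := by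
  obtain ⟨ϖ, hϖ⟩ := IsDiscreteValuationRing.exists_irreducible A
  have hinj : Function.Injective (algebraMap A B) := FaithfulSMul.algebraMap_injective A B
  have hϖB : algebraMap A B ϖ ≠ 0 := fun h => hϖ.ne_zero (hinj (by rw [h, map_zero]))
  have hI : Ideal.span {algebraMap A B ϖ} ≠ 0 := by
    rw [Ne, Ideal.zero_eq_bot, Ideal.span_singleton_eq_bot]
    exact hϖB
  have hfin := Ideal.finite_factors hI
  have huniv : {P : HeightOneSpectrum B | P.asIdeal ∣ Ideal.span {algebraMap A B ϖ}} =
      Set.univ := by
    ext P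
    simp only [Set.mem_ofPred_eq, Set.mem_univ, iff_true]
    rw [Ideal.dvd_span_singleton]
    have := hinb_liesOver (A := A) P
    rw [← Ideal.mem_of_liesOver P.asIdeal (IsLocalRing.maximalIdeal A), hϖ.maximalIdeal_eq]
    exact Ideal.subset_span rfl
  rw [huniv] at hfin
  exact Set.finite_univ_iff.mp hfin

/-- The multiplicities of the height-one primes in a multiset of primes add up to its
cardinality. -/
theorem hinb_sum_count [Fintype (HeightOneSpectrum B)] [DecidableEq (Ideal B)]
    (s : Multiset (Ideal B)) (hs : ∀ Q ∈ s, Prime Q) :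
    ∑ P : HeightOneSpectrum B, s.count P.asIdeal = s.card := by
  classical
  rw [← Multiset.toFinset_sum_count_eq s]
  have hinj : Function.Injective (fun P : HeightOneSpectrum B => P.asIdeal) :=
    fun P Q h => HeightOneSpectrum.ext h
  rw [← Finset.sum_image (s := Finset.univ) (g := fun P : HeightOneSpectrum B => P.asIdeal)
    (f := fun Q => s.count Q) (fun P _ Q _ h => hinj h)]
  symm
  apply Finset.sum_subset
  · intro Q hQ
    rw [Multiset.mem_toFinset] at hQ
    have hQp := hs Q hQ
    exact Finset.mem_image.mpr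
      ⟨⟨Q, Ideal.isPrime_of_prime hQp, hQp.ne_zero⟩, Finset.mem_univ _, rfl⟩
  · intro Q _ hQ
    rw [Multiset.mem_toFinset] at hQ
    exact Multiset.count_eq_zero_of_notMem hQ

/-- The norm formula for nonzero elements of `B`. -/
theorem hinb_ord_norm_eq_sum [IsAlgClosed K] [CharZero K] [Fintype (HeightOneSpectrum B)]
    (v : Place K F)
    (hv : ∀ x : F, x ∈ v.toValuationSubring ↔ ∃ a : A, algebraMap A F a = x)
    (hK : ∀ x : A, ∃ k : K, x - algebraMap K A k ∈ IsLocalRing.maximalIdeal A) {b : B}
    (hb : b ≠ 0) :
    v.ord (Algebra.norm F (algebraMap B F' b)) =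
      ∑ P : HeightOneSpectrum B,
        (Place.ofHeightOneSpectrum (K := K) (F := F') P).ord (algebraMap B F' b) := by
  rw [hinb_ord_norm v hv hK hb]
  simp_rw [Dict.ord_ofHeightOneSpectrum_algebraMap_eq_count (K := K) (F := F') _ hb]
  rw [← Nat.cast_sum, hinb_sum_count _
    (fun Q hQ => UniqueFactorizationMonoid.prime_of_normalized_factor Q hQ)]

/-- The norm formula for nonzero elements of `F'`. -/
theorem hinb_ord_norm_eq_sum' [IsAlgClosed K] [CharZero K] [Fintype (HeightOneSpectrum B)]
    (v : Place K F)
    (hv : ∀ x : F, x ∈ v.toValuationSubring ↔ ∃ a : A, algebraMap A F a = x)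
    (hK : ∀ x : A, ∃ k : K, x - algebraMap K A k ∈ IsLocalRing.maximalIdeal A) {f : F'}
    (hf : f ≠ 0) :
    v.ord (Algebra.norm F f) =
      ∑ P : HeightOneSpectrum B, (Place.ofHeightOneSpectrum (K := K) (F := F') P).ord f := by
  obtain ⟨x, y, hy, rfl⟩ := IsFractionRing.div_surjective (A := B) f
  have hy0 : y ≠ 0 := nonZeroDivisors.ne_zero hy
  have hx0 : x ≠ 0 := by
    rintro rfl
    simp at hf
  have hxF : algebraMap B F' x ≠ 0 := by
    simpa using (IsFractionRing.injective B F').ne hx0
  have hyF : algebraMap B F' y ≠ 0 := by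
    simpa using (IsFractionRing.injective B F').ne hy0
  have hmul : Algebra.norm F (algebraMap B F' x / algebraMap B F' y) *
      Algebra.norm F (algebraMap B F' y) = Algebra.norm F (algebraMap B F' x) := by
    rw [← map_mul, div_mul_cancel₀ _ hyF]
  have h1 := v.ord_mul (Algebra.norm_ne_zero_iff.mpr hf) (Algebra.norm_ne_zero_iff.mpr hyF)
  rw [hmul, hinb_ord_norm_eq_sum v hv hK hx0, hinb_ord_norm_eq_sum v hv hK hy0] at h1
  rw [eq_sub_of_add_eq h1.symm, ← Finset.sum_sub_distrib]
  refine Finset.sum_congr rfl fun P _ => ?_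
  rw [hinb_ord_div _ hxF hyF]

/-- The place attached to a height-one prime of `B` restricts to `v`. -/
theorem hinb_restrict_ofHeightOneSpectrum (v : Place K F)
    (hv : ∀ x : F, x ∈ v.toValuationSubring ↔ ∃ a : A, algebraMap A F a = x)
    (P : HeightOneSpectrum B) :
    (Place.ofHeightOneSpectrum (K := K) (F := F') P).restrict F = v := by
  symm
  apply Dict.ext_of_le
  intro x hx
  obtain ⟨a, rfl⟩ := (hv x).mp hx
  rw [Place.restrict_toValuationSubring, ValuationSubring.mem_comap,
    ← IsScalarTower.algebraMap_apply A F F', IsScalarTower.algebraMap_apply A B F']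
  exact (Dict.mem_ofHeightOneSpectrum_iff P _).mpr (P.valuation_le_one _)

/-- Every place of `F'` restricting to `v` is attached to a height-one prime of `B`. -/
theorem hinb_exists_ofHeightOneSpectrum (v : Place K F)
    (hv : ∀ x : F, x ∈ v.toValuationSubring ↔ ∃ a : A, algebraMap A F a = x)
    (w : Place K F') (hw : w.restrict F = v) :
    ∃ P : HeightOneSpectrum B, w = Place.ofHeightOneSpectrum (K := K) (F := F') P := by
  have hA : ∀ a : A, 0 ≤ w.ord (algebraMap A F' a) := by
    intro a
    rw [IsScalarTower.algebraMap_apply A F F']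
    apply Dict.ord_nonneg_of_mem
    have h : algebraMap A F a ∈ (w.restrict F).toValuationSubring := by
      rw [hw]
      exact (hv _).mpr ⟨a, rfl⟩
    exact h
  have h1 : ∀ b : B, 0 ≤ w.ord (algebraMap B F' b) := fun b =>
    Dict.ord_nonneg_of_isIntegral w hA
      ((Algebra.IsIntegral.isIntegral (R := A) b).map (IsScalarTower.toAlgHom A B F'))
  obtain ⟨a, ha0, ha⟩ := hinb_exists_unif v hv
  have h2 : ∃ b : B, b ≠ 0 ∧ 0 < w.ord (algebraMap B F' b) := by
    refine ⟨algebraMap A B a, ?_, ?_⟩
    · intro h0
      have h := congrArg (algebraMap B F') h0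
      rw [← IsScalarTower.algebraMap_apply A B F', IsScalarTower.algebraMap_apply A F F',
        map_zero, map_eq_zero] at h
      exact ha0 (IsFractionRing.injective A F (by rw [h, map_zero]))
    · rw [← IsScalarTower.algebraMap_apply A B F', IsScalarTower.algebraMap_apply A F F',
        w.ord_restrict, hw, ha, mul_one]
      exact_mod_cast w.ramificationIndex_pos (F := F)
  obtain ⟨P, hP, -⟩ := Dict.exists_eq_ofHeightOneSpectrum w h1 h2
  exact ⟨P, hP⟩

include B in
/-- The norm formula at `v`, abstract version. -/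
theorem hinb_pushforward [IsAlgClosed K] [CharZero K] (v : Place K F)
    (hv : ∀ x : F, x ∈ v.toValuationSubring ↔ ∃ a : A, algebraMap A F a = x)
    (hK : ∀ x : A, ∃ k : K, x - algebraMap K A k ∈ IsLocalRing.maximalIdeal A)
    (hdeg : ∀ w : Place K F', w.inertiaDeg F = 1) {f : F'} (hf : f ≠ 0) (D : Divisor K F')
    (hD : ∀ w, D w = w.ord f) :
    Divisor.pushforward F D v = v.ord (Algebra.norm F f) := by
  classical
  have : Finite (HeightOneSpectrum B) := hinb_finite A
  let : Fintype (HeightOneSpectrum B) := Fintype.ofFinite _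
  have hinj := Dict.ofHeightOneSpectrum_injective (K := K) (F := F') (B := B)
  rw [Divisor.pushforward_apply, hinb_ord_norm_eq_sum' (A := A) (B := B) v hv hK hf,
    ← Finset.sum_filter,
    ← Finset.sum_image (s := Finset.univ)
      (g := Place.ofHeightOneSpectrum (K := K) (F := F') (R := B))
      (f := fun w => w.ord f) (fun P _ Q _ h => hinj h)]
  have e1 : ∑ w ∈ D.support.filter (fun w => w.restrict F = v), D w * (w.inertiaDeg F : ℤ)
      = ∑ w ∈ D.support.filter (fun w => w.restrict F = v), w.ord f :=
    Finset.sum_congr rfl fun w _ => by rw [hdeg w, hD w, Nat.cast_one, mul_one]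
  rw [e1]
  apply Finset.sum_subset
  · intro w hw
    rw [Finset.mem_filter] at hw
    obtain ⟨P, hP⟩ := hinb_exists_ofHeightOneSpectrum (A := A) (B := B) v hv w hw.2
    exact Finset.mem_image.mpr ⟨P, Finset.mem_univ _, hP.symm⟩
  · intro w hw hw'
    obtain ⟨P, -, rfl⟩ := Finset.mem_image.mp hw
    rw [Finset.mem_filter, not_and_or] at hw'
    rcases hw' with h | h
    · rw [Finsupp.mem_support_iff, not_not] at h
      rw [← hD]
      exact h
    · exact absurd (hinb_restrict_ofHeightOneSpectrum (A := A) v hv P) h

end Abstract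

/-! ### The concrete case: `A` the valuation ring of `v`, `B` its integral closure in `F'` -/

section Concrete

variable {K F F' : Type} [Field K] [Field F] [Field F'] [Algebra K F] [Algebra K F']
  [Algebra F F'] [IsScalarTower K F F'] [Module.Finite F F'] [IsAlgClosed K] [CharZero K]

theorem hinb_concrete {t : F} (ht : Transcendental K t) (hfinF : FiniteDimensional K⟮t⟯ F)
    (hdeg' : ∀ w : Place K F', w.deg = 1) {f : F'} (hf : f ≠ 0) (D : Divisor K F')
    (hD : ∀ w, D w = w.ord f) (v : Place K F) :
    Divisor.pushforward F D v = v.ord (Algebra.norm F f) := by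
  have : CharZero F := charZero_of_injective_algebraMap (algebraMap K F).injective
  have : Algebra.IsSeparable F F' := inferInstance
  have : IsScalarTower K v.toValuationSubring F' := IsScalarTower.of_algebraMap_eq fun a => by
    rw [IsScalarTower.algebraMap_apply K F F']
    rfl
  have : IsDedekindDomain (integralClosure v.toValuationSubring F') :=
    integralClosure.isDedekindDomain v.toValuationSubring F F'
  have : IsFractionRing (integralClosure v.toValuationSubring F') F' :=
    integralClosure.isFractionRing_of_finite_extension F F'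
  have : Module.Finite v.toValuationSubring (integralClosure v.toValuationSubring F') :=
    IsIntegralClosure.finite v.toValuationSubring F F' (integralClosure v.toValuationSubring F')
  have : Module.IsTorsionFree v.toValuationSubring F' :=
    .trans_faithfulSMul v.toValuationSubring F F'
  refine hinb_pushforward (A := v.toValuationSubring)
    (B := integralClosure v.toValuationSubring F') v ?_ ?_ ?_ hf D hD
  · intro x
    exact ⟨fun hx => ⟨⟨x, hx⟩, rfl⟩, by rintro ⟨a, rfl⟩; exact a.2⟩
  · intro x
    obtain ⟨c, hc⟩ := Places.exists_residue_eq v ht hfinF x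
    refine ⟨c, ?_⟩
    rw [← IsLocalRing.residue_eq_zero_iff, map_sub, ← hc]
    exact sub_self _
  · intro w
    have h := w.deg_restrict_mul_inertiaDeg (F := F)
    rw [hdeg' w, Places.degOneStatement K F t ht hfinF (w.restrict F), one_mul] at h
    exact h

end Concrete

/-- (HI-NF) The norm formula. -/
theorem hinb_main : hi_NFStatement := by
  intro K F F' _ _ _ _ _ _ _ t ht hfinF φ hfin
  let := algebraAlong φ
  have := isScalarTower_along φ
  have : Module.Finite F F' := hfin
  have hdeg' : ∀ w : Place K F', w.deg = 1 :=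
    Places.degOneStatement K F' (φ t) (hinb_transcendental φ ht)
      (hinb_finiteDimensional φ hfin hfinF)
  intro f hf D hD v
  exact hinb_concrete ht hfinF hdeg' hf D hD v

end

end Fermat.Agent.S37
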