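/-
S37, block HI, package `HINormVal` (file A): the norm form of the values lemma
(`hi_NormValueStatement`).

Let `v` be a place of `F`, `A = O_v` its valuation ring (a DVR with uniformiser `π` and residue
field `K`), `B` the integral closure of `A` in `F'` (a Dedekind domain, finite free over `A`).
The places of `F'` above `v` are the places attached to the nonzero primes `P` of `B` (all of
them contain `π`), with `e(w_P | v)` = the multiplicity of `P` in `π B`.

* `hinva_det_step`, `hinva_det_quot`: linear algebra.  For an ideal `I ≠ 0` of a Dedekind domain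
  `B` such that `B ⧸ I` is a finite-dimensional algebra over a field `κ` and all primes above `I`
  have residue field `κ`, the determinant of the multiplication by `b` on `B ⧸ I` is the product
  over the prime factors `P` of `I` (with multiplicity) of the value of `b` at `P`.  (Filtration
  of `B ⧸ I` by the images of the partial products of the prime factors of `I`; each step has
  dimension one.)
* `hinva_norm_mod`, `hinva_norm_congr`: for `A` local with maximal ideal `p`, the norm of `b`
  modulo `p` is the determinant of the multiplication by `b` on `B ⧸ pB`; hence the congruence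
  `N(b) ≡ ∏_P d_P ^ e_P (mod p)`.
* `hinva_aux`, `hinva_main`: the dictionary at `v` and the statement.
-/
import Fermat.Agent.S37.HIInterfaces2
import Fermat.Agent.S24.Zeros
import Fermat.Agent.S24.Places

set_option autoImplicit false

open AlgebraicCurve IntermediateField Polynomial Module

namespace Fermat.Agent.S37

/-- Determinant on a two-step filtration: if `T` maps `W` into `W' ≤ W` up to the scalar `δ`,
then `det (T|W) = det (T|W') * δ ^ (dim W - dim W')`. -/
theorem hinva_det_step {κ V : Type} [Field κ] [AddCommGroup V] [Module κ V]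
    [FiniteDimensional κ V]
    (T : V →ₗ[κ] V) (W W' : Submodule κ V) (hle : W' ≤ W) (hW : W ≤ W.comap T)
    (hW' : W' ≤ W'.comap T) (δ : κ) (hδ : ∀ x ∈ W, T x - δ • x ∈ W') :
    LinearMap.det (T.restrict hW) =
      LinearMap.det (T.restrict hW') * δ ^ (finrank κ W - finrank κ W') := by
  have heU : W'.submoduleOf W ≤ (W'.submoduleOf W).comap (T.restrict hW) := by
    intro x hx
    exact hW' hx
  rw [LinearMap.det_eq_det_mul_det (W'.submoduleOf W) (T.restrict hW) heU]
  congr 1
  · rw [← LinearMap.det_conj ((T.restrict hW).restrict heU) (Submodule.submoduleOfEquivOfLe hle)]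
    congr 1
  · have h3 : (W'.submoduleOf W).mapQ (W'.submoduleOf W) (T.restrict hW) heU
        = δ • LinearMap.id := by
      apply LinearMap.ext
      intro y
      obtain ⟨x, rfl⟩ := Submodule.Quotient.mk_surjective _ y
      rw [Submodule.mapQ_apply, LinearMap.smul_apply, LinearMap.id_apply,
        ← Submodule.Quotient.mk_smul, Submodule.Quotient.eq]
      exact hδ x.1 x.2
    rw [h3, LinearMap.det_smul, LinearMap.det_id, mul_one]
    congr 1
    have h1 := (W'.submoduleOf W).finrank_quotient_add_finrank
    have h2 : finrank κ (W'.submoduleOf W) = finrank κ W' :=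
      (Submodule.submoduleOfEquivOfLe hle).finrank_eq
    omega

theorem hinva_det_restrict_top {κ V : Type} [CommRing κ] [AddCommGroup V] [Module κ V]
    (T : V →ₗ[κ] V) (W : Submodule κ V) (hW : W ≤ W.comap T) (htop : W = ⊤) :
    LinearMap.det (T.restrict hW) = LinearMap.det T := by
  subst htop
  rw [← LinearMap.det_conj (T.restrict hW) (Submodule.topEquiv : (⊤ : Submodule κ V) ≃ₗ[κ] V)]
  congr 1

theorem hinva_det_restrict_bot {κ V : Type} [CommRing κ] [AddCommGroup V] [Module κ V]
    (T : V →ₗ[κ] V) (W : Submodule κ V) (hW : W ≤ W.comap T) (hbot : W = ⊥) :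
    LinearMap.det (T.restrict hW) = 1 := by
  subst hbot
  exact LinearMap.det_eq_one_of_subsingleton _

section Quot

variable {B : Type} (κ : Type) [CommRing B] [Field κ] (I : Ideal B) [Algebra κ (B ⧸ I)]

/-- The image of the ideal `J` in `B ⧸ I`, as a `κ`-subspace. -/
def hinva_W (J : Ideal B) : Submodule κ (B ⧸ I) :=
  (J.map (Ideal.Quotient.mk I)).restrictScalars κ

/-- Multiplication by `b` preserves the image of `J`. -/
theorem hinva_W_inv (b : B) (J : Ideal B) :
    hinva_W κ I J ≤ (hinva_W κ I J).comap (LinearMap.mulLeft κ (Ideal.Quotient.mk I b)) :=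
  fun _ hx => Ideal.mul_mem_left _ _ hx

/-- The determinant of multiplication by `b` on the image of `J` in `B ⧸ I`. -/
noncomputable def hinva_D (b : B) (J : Ideal B) : κ :=
  LinearMap.det ((LinearMap.mulLeft κ (Ideal.Quotient.mk I b)).restrict (hinva_W_inv κ I b J))

theorem hinva_D_step [IsDedekindDomain B] [FiniteDimensional κ (B ⧸ I)] (hI : I ≠ ⊥) (b : B)
    (J P : Ideal B) (hP : P.IsPrime) (hIJP : I ≤ J * P) (δ : κ)
    (hδ : Ideal.Quotient.mk I b - algebraMap κ (B ⧸ I) δ ∈ P.map (Ideal.Quotient.mk I))
    (hdeg : ∀ c : B, ∃ γ : κ,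
      Ideal.Quotient.mk I c - algebraMap κ (B ⧸ I) γ ∈ P.map (Ideal.Quotient.mk I)) :
    hinva_D κ I b J = hinva_D κ I b (J * P) * δ := by
  have hle : hinva_W κ I (J * P) ≤ hinva_W κ I J :=
    fun x hx => Ideal.map_mono Ideal.mul_le_left hx
  have hstep := hinva_det_step (LinearMap.mulLeft κ (Ideal.Quotient.mk I b)) (hinva_W κ I J)
    (hinva_W κ I (J * P)) hle (hinva_W_inv κ I b J) (hinva_W_inv κ I b (J * P)) δ ?_
  · have hJP0 : J * P ≠ ⊥ := fun h => hI (le_bot_iff.mp (h ▸ hIJP))
    have hJ0 : J ≠ ⊥ := fun h => hJP0 (by rw [h, Ideal.bot_mul])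
    obtain ⟨a, ha⟩ := IsDedekindDomain.exists_sup_span_eq (Ideal.mul_le_left : J * P ≤ J) hJP0
    have haJ : a ∈ J := ha ▸ Ideal.mem_sup_right (Ideal.mem_span_singleton_self a)
    have hsup : hinva_W κ I J ≤
        hinva_W κ I (J * P) ⊔ Submodule.span κ {Ideal.Quotient.mk I a} := by
      intro x hx
      obtain ⟨j, hj, rfl⟩ :=
        (Ideal.mem_map_iff_of_surjective _ Ideal.Quotient.mk_surjective).mp hx
      rw [← ha] at hj
      obtain ⟨y, hy, z, hz, rfl⟩ := Submodule.mem_sup.mp hj
      obtain ⟨c, rfl⟩ := Ideal.mem_span_singleton'.mp hz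
      obtain ⟨γ, hγ⟩ := hdeg c
      have e : Ideal.Quotient.mk I (y + c * a) =
          (Ideal.Quotient.mk I y + (Ideal.Quotient.mk I c - algebraMap κ (B ⧸ I) γ)
            * Ideal.Quotient.mk I a) + γ • Ideal.Quotient.mk I a := by
        rw [Algebra.smul_def, map_add, map_mul]
        ring1
      rw [e]
      refine Submodule.add_mem_sup (Submodule.add_mem _ ?_ ?_)
        (Submodule.smul_mem _ _ (Submodule.mem_span_singleton_self _))
      · exact Ideal.mem_map_of_mem _ hy
      · show _ ∈ (J * P).map (Ideal.Quotient.mk I)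
        rw [Ideal.map_mul, mul_comm (J.map _)]
        exact Ideal.mul_mem_mul hγ (Ideal.mem_map_of_mem _ haJ)
    have h1 : finrank κ (hinva_W κ I J) ≤ finrank κ (hinva_W κ I (J * P)) + 1 := by
      calc finrank κ (hinva_W κ I J)
          ≤ finrank κ ↥(hinva_W κ I (J * P) ⊔ Submodule.span κ {Ideal.Quotient.mk I a}) :=
            Submodule.finrank_mono hsup
        _ ≤ finrank κ (hinva_W κ I (J * P))
              + finrank κ (Submodule.span κ {Ideal.Quotient.mk I a}) :=
            Submodule.finrank_add_le_finrank_add_finrank _ _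
        _ ≤ finrank κ (hinva_W κ I (J * P)) + 1 := by
            gcongr
            by_cases h0 : Ideal.Quotient.mk I a = 0
            · rw [h0, Submodule.span_zero_singleton, finrank_bot]
              exact Nat.zero_le 1
            · exact (finrank_span_singleton h0).le
    have hlt : hinva_W κ I (J * P) < hinva_W κ I J := by
      refine lt_of_le_of_ne hle ?_
      intro heq
      have h2 : (J * P).map (Ideal.Quotient.mk I) = J.map (Ideal.Quotient.mk I) :=
        Submodule.restrictScalars_injective κ _ _ heq
      have h3 := congrArg (Ideal.comap (Ideal.Quotient.mk I)) h2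
      rw [Ideal.comap_map_of_surjective _ Ideal.Quotient.mk_surjective,
        Ideal.comap_map_of_surjective _ Ideal.Quotient.mk_surjective,
        ← RingHom.ker_eq_comap_bot, Ideal.mk_ker, sup_eq_left.mpr hIJP,
        sup_eq_left.mpr (hIJP.trans Ideal.mul_le_left)] at h3
      have h4 : J * P = J * 1 := by rw [h3, mul_one]
      have h5 : P = 1 := mul_left_cancel₀ hJ0 h4
      exact hP.ne_top (by rw [h5, Ideal.one_eq_top])
    have h2 := Submodule.finrank_lt_finrank_of_lt hlt
    have hdim : finrank κ (hinva_W κ I J) - finrank κ (hinva_W κ I (J * P)) = 1 := by omega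
    rw [hdim, pow_one] at hstep
    exact hstep
  · intro x hx
    have e : (LinearMap.mulLeft κ (Ideal.Quotient.mk I b)) x - δ • x =
        (Ideal.Quotient.mk I b - algebraMap κ (B ⧸ I) δ) * x := by
      rw [LinearMap.mulLeft_apply, Algebra.smul_def, sub_mul]
    rw [e]
    show _ ∈ (J * P).map (Ideal.Quotient.mk I)
    rw [Ideal.map_mul, mul_comm (J.map _)]
    exact Ideal.mul_mem_mul hδ hx

theorem hinva_D_chain [IsDedekindDomain B] [FiniteDimensional κ (B ⧸ I)] (hI : I ≠ ⊥) (b : B)
    (δ : Ideal B → κ)
    (hδ : ∀ P : Ideal B, P.IsPrime → I ≤ P →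
      Ideal.Quotient.mk I b - algebraMap κ (B ⧸ I) (δ P) ∈ P.map (Ideal.Quotient.mk I))
    (hdeg : ∀ P : Ideal B, P.IsPrime → I ≤ P → ∀ c : B, ∃ γ : κ,
      Ideal.Quotient.mk I c - algebraMap κ (B ⧸ I) γ ∈ P.map (Ideal.Quotient.mk I)) :
    ∀ L : List (Ideal B), (∀ P ∈ L, P.IsPrime) → ∀ J : Ideal B, I ≤ J * L.prod →
      hinva_D κ I b J = hinva_D κ I b (J * L.prod) * (L.map δ).prod := by
  intro L
  induction L with
  | nil =>
    intro _ J _
    simp
  | cons P L ih =>
    intro hL J hJ
    have e1 : J * (P :: L).prod = J * P * L.prod := by rw [List.prod_cons, mul_assoc]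
    rw [e1] at hJ ⊢
    have hP : P.IsPrime := hL P List.mem_cons_self
    have hIJP : I ≤ J * P := hJ.trans Ideal.mul_le_left
    have hIP : I ≤ P := hIJP.trans Ideal.mul_le_right
    rw [hinva_D_step κ I hI b J P hP hIJP (δ P) (hδ P hP hIP) (hdeg P hP hIP),
      ih (fun Q hQ => hL Q (List.mem_cons_of_mem _ hQ)) (J * P) hJ, List.map_cons,
      List.prod_cons]
    ring

theorem hinva_det_quot [IsDedekindDomain B] [FiniteDimensional κ (B ⧸ I)] (hI : I ≠ ⊥) (b : B)
    (δ : Ideal B → κ)
    (hδ : ∀ P : Ideal B, P.IsPrime → I ≤ P →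
      Ideal.Quotient.mk I b - algebraMap κ (B ⧸ I) (δ P) ∈ P.map (Ideal.Quotient.mk I))
    (hdeg : ∀ P : Ideal B, P.IsPrime → I ≤ P → ∀ c : B, ∃ γ : κ,
      Ideal.Quotient.mk I c - algebraMap κ (B ⧸ I) γ ∈ P.map (Ideal.Quotient.mk I)) :
    LinearMap.det (LinearMap.mulLeft κ (Ideal.Quotient.mk I b)) =
      ((UniqueFactorizationMonoid.normalizedFactors I).map δ).prod := by
  have hchain := hinva_D_chain κ I hI b δ hδ hdeg
    (UniqueFactorizationMonoid.normalizedFactors I).toList ?_ ⊤ ?_
  · rw [Multiset.prod_toList, Ideal.prod_normalizedFactors_eq_self hI, Ideal.top_mul] at hchain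
    have h1 : hinva_D κ I b ⊤ = LinearMap.det (LinearMap.mulLeft κ (Ideal.Quotient.mk I b)) := by
      apply hinva_det_restrict_top
      unfold hinva_W
      rw [Ideal.map_top, Submodule.restrictScalars_top]
    have h2 : hinva_D κ I b I = 1 := by
      apply hinva_det_restrict_bot
      unfold hinva_W
      rw [Ideal.map_quotient_self, Submodule.restrictScalars_bot]
    rw [h1, h2, one_mul] at hchain
    rw [hchain, ← Multiset.prod_coe, ← Multiset.map_coe, Multiset.coe_toList]
  · intro P hP
    rw [Multiset.mem_toList] at hP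
    exact ((Ideal.mem_normalizedFactors_iff hI).mp hP).1
  · rw [Multiset.prod_toList, Ideal.prod_normalizedFactors_eq_self hI, Ideal.top_mul]

end Quot

section Local

variable {A B : Type} [CommRing A] [CommRing B] [Algebra A B] [IsLocalRing A]
  [Module.Finite A B] [Module.Free A B]

open IsLocalRing in
/-- The norm modulo the maximal ideal is the determinant of the multiplication on `B ⧸ pB`. -/
theorem hinva_norm_mod (b : B) :
    Ideal.Quotient.mk (maximalIdeal A) (Algebra.norm A b) =
      LinearMap.det (LinearMap.mulLeft (A ⧸ maximalIdeal A)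
        (Ideal.Quotient.mk ((maximalIdeal A).map (algebraMap A B)) b)) := by
  classical
  let bas := Module.Free.chooseBasis A B
  rw [Algebra.norm_eq_matrix_det bas, RingHom.map_det,
    ← LinearMap.det_toMatrix (IsLocalRing.basisQuotient bas)]
  congr 1
  ext i j
  rw [RingHom.mapMatrix_apply, Matrix.map_apply, Algebra.leftMulMatrix_eq_repr_mul,
    LinearMap.toMatrix_apply, LinearMap.mulLeft_apply, IsLocalRing.basisQuotient_apply,
    ← map_mul, IsLocalRing.basisQuotient_repr]

open IsLocalRing UniqueFactorizationMonoid in
/-- The norm of `b` is congruent modulo `p` to the product of the values of `b` at the primes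
above `p` (with multiplicities), when all residue degrees are one. -/
theorem hinva_norm_congr [IsDedekindDomain B]
    (hp : (maximalIdeal A).map (algebraMap A B) ≠ ⊥) (b : B) (d : Ideal B → A)
    (hd : ∀ P : Ideal B, P.IsPrime → (maximalIdeal A).map (algebraMap A B) ≤ P →
      b - algebraMap A B (d P) ∈ P)
    (hdeg : ∀ P : Ideal B, P.IsPrime → (maximalIdeal A).map (algebraMap A B) ≤ P →
      ∀ c : B, ∃ α : A, c - algebraMap A B α ∈ P) :
    Algebra.norm A b -
        ((normalizedFactors ((maximalIdeal A).map (algebraMap A B))).map d).prod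
      ∈ maximalIdeal A := by
  let _ := Ideal.Quotient.field (maximalIdeal A)
  have : FiniteDimensional (A ⧸ maximalIdeal A)
      (B ⧸ (maximalIdeal A).map (algebraMap A B)) :=
    Module.Finite.of_restrictScalars_finite A _ _
  rw [← Ideal.Quotient.eq, hinva_norm_mod b,
    hinva_det_quot (A ⧸ maximalIdeal A) _ hp b (fun P => Ideal.Quotient.mk _ (d P)) ?_ ?_,
    map_multiset_prod, Multiset.map_map]
  · rfl
  · intro P hP hle
    rw [Ideal.Quotient.algebraMap_quotient_map_quotient, ← map_sub]
    exact Ideal.mem_map_of_mem _ (hd P hP hle)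
  · intro P hP hle c
    obtain ⟨α, hα⟩ := hdeg P hP hle c
    refine ⟨Ideal.Quotient.mk _ α, ?_⟩
    rw [Ideal.Quotient.algebraMap_quotient_map_quotient, ← map_sub]
    exact Ideal.mem_map_of_mem _ hα

end Local

/-- Residue degree one: over an algebraically closed field of constants, every element of `B` is
congruent to a constant modulo a prime lying over a maximal ideal with residue field `K`. -/
theorem hinva_exists_const {K A B : Type} [Field K] [IsAlgClosed K] [CommRing A] [Algebra K A]
    [CommRing B] [Algebra K B] [Algebra A B] [IsScalarTower K A B] [Algebra.IsIntegral A B]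
    (p : Ideal A) [p.IsMaximal] (hK : ∀ x : A, ∃ k : K, x - algebraMap K A k ∈ p)
    (q : Ideal B) [q.IsPrime] [q.LiesOver p] (c : B) : ∃ k : K, c - algebraMap K B k ∈ q := by
  have : q.IsMaximal := Ideal.IsMaximal.of_liesOver_isMaximal q p
  have hsurjK : Function.Surjective (algebraMap K (A ⧸ p)) := by
    intro x
    obtain ⟨x, rfl⟩ := Ideal.Quotient.mk_surjective x
    obtain ⟨k, hk⟩ := hK x
    refine ⟨k, ?_⟩
    rw [IsScalarTower.algebraMap_apply K A (A ⧸ p)]
    exact (Ideal.Quotient.eq.mpr hk).symm
  have : Algebra.IsIntegral K (A ⧸ p) := Algebra.isIntegral_of_surjective hsurjK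
  have : Algebra.IsIntegral K (B ⧸ q) := Algebra.IsIntegral.trans (A ⧸ p)
  have hbij : Function.Bijective (algebraMap K (B ⧸ q)) :=
    IsAlgClosed.algebraMap_bijective_of_isIntegral
  obtain ⟨k, hk⟩ := hbij.2 (Ideal.Quotient.mk q c)
  refine ⟨k, ?_⟩
  rw [← Ideal.Quotient.eq, ← hk, IsScalarTower.algebraMap_apply K B (B ⧸ q)]
  rfl

open IsDedekindDomain UniqueFactorizationMonoid Fermat.Agent.S24 in
/-- The norm form of the values lemma, for an extension of fields given by an `Algebra`
instance. -/
theorem hinva_aux {K F F' : Type} [Field K] [Field F] [Field F'] [Algebra K F] [Algebra K F']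
    [Algebra F F'] [IsScalarTower K F F'] [Algebra.IsIntegral F F'] [Module.Finite F F']
    [IsAlgClosed K] [CharZero K] [HasPrincipalDivisors K F'] (t : F) (ht : Transcendental K t)
    (hfin : FiniteDimensional K⟮t⟯ F) (v : Place K F) (b : F') (d : Place K F' → K)
    (hb : ∀ w ∈ Place.fiber F' v, hi_IsValue w b (d w)) :
    hi_IsValue v (Algebra.norm F b)
      (∏ w ∈ Place.fiber F' v, d w ^ (w.ramificationIndex F)) := by
  classical
  have hsc : IsScalarTower K v.toValuationSubring F' :=
    IsScalarTower.of_algebraMap_eq fun k => by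
      rw [IsScalarTower.algebraMap_apply K F F']
      rfl
  have : CharZero F := charZero_of_injective_algebraMap (algebraMap K F).injective
  have : Algebra.IsSeparable F F' := inferInstance
  let B := integralClosure v.toValuationSubring F'
  have : IsDedekindDomain B := IsIntegralClosure.isDedekindDomain v.toValuationSubring F F' B
  have : IsFractionRing B F' := integralClosure.isFractionRing_of_finite_extension F F'
  have : Module.Finite v.toValuationSubring B :=
    IsIntegralClosure.finite v.toValuationSubring F F' B
  have : Module.Free v.toValuationSubring B :=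
    IsIntegralClosure.module_free v.toValuationSubring F F' B
  have : IsLocalization
      (Algebra.algebraMapSubmonoid B (nonZeroDivisors v.toValuationSubring)) F' :=
    IsIntegralClosure.isLocalization v.toValuationSubring F F' B
  have : Algebra.IsIntegral v.toValuationSubring B :=
    IsIntegralClosure.isIntegral_algebra v.toValuationSubring F'
  -- a uniformiser
  obtain ⟨π, hπ⟩ := IsDiscreteValuationRing.exists_irreducible v.toValuationSubring
  have hπord : v.ord (π : F) = 1 := v.ord_coe_irreducible hπ
  have hmax : IsLocalRing.maximalIdeal v.toValuationSubring = Ideal.span {π} := hπ.maximalIdeal_eq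
  have hπB_F' : algebraMap B F' (algebraMap v.toValuationSubring B π) = algebraMap F F' (π : F) :=
    rfl
  have hπB0 : algebraMap v.toValuationSubring B π ≠ 0 := by
    intro h
    have h1 := congrArg (algebraMap B F') h
    rw [hπB_F', map_zero, map_eq_zero] at h1
    exact hπ.ne_zero (Subtype.ext h1)
  have hpB : (IsLocalRing.maximalIdeal v.toValuationSubring).map
      (algebraMap v.toValuationSubring B) = Ideal.span {algebraMap v.toValuationSubring B π} := by
    rw [hmax, Ideal.map_span, Set.image_singleton]
  have hpB0 : (IsLocalRing.maximalIdeal v.toValuationSubring).map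
      (algebraMap v.toValuationSubring B) ≠ ⊥ := by
    rw [hpB]
    exact Ideal.span_singleton_eq_bot.not.mpr hπB0
  -- the dictionary
  have hD1 : ∀ P : HeightOneSpectrum B,
      (Place.ofHeightOneSpectrum (K := K) (F := F') P).restrict F = v := by
    intro P
    symm
    apply Dict.ext_of_le
    intro f hf
    exact P.valuation_le_one (algebraMap v.toValuationSubring B ⟨f, hf⟩)
  have hD2 : ∀ w : Place K F', w.restrict F = v →
      ∃ P : HeightOneSpectrum B, w = Place.ofHeightOneSpectrum (K := K) (F := F') P := by
    intro w hw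
    have hA : ∀ a : v.toValuationSubring,
        0 ≤ w.ord (algebraMap v.toValuationSubring F' a) := by
      intro a
      apply Dict.ord_nonneg_of_mem
      have h1 : (a : F) ∈ (w.restrict F).toValuationSubring := hw ▸ a.2
      exact h1
    have h1 : ∀ x : B, 0 ≤ w.ord (algebraMap B F' x) := fun x =>
      Dict.ord_nonneg_of_isIntegral w hA x.2
    have h2 : ∃ x : B, x ≠ 0 ∧ 0 < w.ord (algebraMap B F' x) := by
      refine ⟨algebraMap v.toValuationSubring B π, hπB0, ?_⟩
      rw [hπB_F', w.ord_restrict, hw, hπord, mul_one]
      exact_mod_cast w.ramificationIndex_pos (F := F)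
    obtain ⟨P, hP, -⟩ := Dict.exists_eq_ofHeightOneSpectrum w h1 h2
    exact ⟨P, hP⟩
  have hD3 : ∀ P : HeightOneSpectrum B,
      ((Place.ofHeightOneSpectrum (K := K) (F := F') P).ramificationIndex F : ℤ) =
        ((normalizedFactors (Ideal.span {algebraMap v.toValuationSubring B π})).count
          P.asIdeal : ℤ) := by
    intro P
    have h1 := (Place.ofHeightOneSpectrum (K := K) (F := F') P).ord_restrict (F := F) (π : F)
    rw [hD1 P, hπord, mul_one] at h1
    rw [← h1, ← hπB_F']
    exact Dict.ord_ofHeightOneSpectrum_algebraMap_eq_count P hπB0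
  -- `b` is integral
  have hmem : ∀ P : HeightOneSpectrum B,
      hi_IsValue (Place.ofHeightOneSpectrum (K := K) (F := F') P) b
        (d (Place.ofHeightOneSpectrum (K := K) (F := F') P)) :=
    fun P => hb _ (Place.mem_fiber.mpr (hD1 P))
  have hbB : b ∈ (algebraMap B F').range := by
    apply HeightOneSpectrum.mem_integers_of_valuation_le_one
    intro P
    have h1 : b - algebraMap K F' (d (Place.ofHeightOneSpectrum (K := K) (F := F') P)) ∈
        (Place.ofHeightOneSpectrum (K := K) (F := F') P).toValuationSubring := by
      rcases hmem P with h | h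
      · rw [h]
        exact zero_mem _
      · exact Dict.mem_of_ord_nonneg _ h.le
    have h2 := add_mem h1 ((Place.ofHeightOneSpectrum (K := K) (F := F') P).algebraMap_mem'
      (d (Place.ofHeightOneSpectrum (K := K) (F := F') P)))
    rw [sub_add_cancel] at h2
    exact h2
  obtain ⟨b₀, hb₀⟩ := hbB
  have hval : ∀ P : HeightOneSpectrum B,
      b₀ - algebraMap K B (d (Place.ofHeightOneSpectrum (K := K) (F := F') P)) ∈ P.asIdeal := by
    intro P
    have e : algebraMap B F' (b₀ - algebraMap K B
        (d (Place.ofHeightOneSpectrum (K := K) (F := F') P))) =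
        b - algebraMap K F' (d (Place.ofHeightOneSpectrum (K := K) (F := F') P)) := by
      rw [map_sub, hb₀, ← IsScalarTower.algebraMap_apply]
    by_cases h0 : b₀ - algebraMap K B (d (Place.ofHeightOneSpectrum (K := K) (F := F') P)) = 0
    · rw [h0]
      exact zero_mem _
    · rw [Dict.mem_asIdeal_iff_ord_pos (K := K) (F := F') P h0, e]
      rcases hmem P with h | h
      · exfalso
        apply h0
        apply IsFractionRing.injective B F'
        rw [e, h, map_zero]
      · exact h
  -- the residue field of `v` is `K`
  have hK : ∀ x : v.toValuationSubring, ∃ k : K,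
      x - algebraMap K v.toValuationSubring k ∈ IsLocalRing.maximalIdeal v.toValuationSubring := by
    intro x
    obtain ⟨c, hc⟩ := Places.exists_residue_eq v ht hfin x
    refine ⟨c, ?_⟩
    rw [← IsLocalRing.residue_eq_zero_iff, map_sub, ← hc]
    exact sub_self _
  -- the congruence for the norm
  let d' : Ideal B → v.toValuationSubring := fun P =>
    if h : P.IsPrime ∧ P ≠ ⊥ then
      algebraMap K v.toValuationSubring
        (d (Place.ofHeightOneSpectrum (K := K) (F := F') ⟨P, h.1, h.2⟩))
    else 0
  have hcongr := hinva_norm_congr (A := v.toValuationSubring) (B := B) hpB0 b₀ d' ?_ ?_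
  · have hS : ∀ P ∈ (normalizedFactors ((IsLocalRing.maximalIdeal v.toValuationSubring).map
        (algebraMap v.toValuationSubring B))).toFinset, P.IsPrime ∧ P ≠ ⊥ := by
      intro P hP
      have h1 := (Ideal.mem_normalizedFactors_iff hpB0).mp (Multiset.mem_toFinset.mp hP)
      exact ⟨h1.1, fun h => hpB0 (le_bot_iff.mp (h ▸ h1.2))⟩
    have hprod : ((normalizedFactors ((IsLocalRing.maximalIdeal v.toValuationSubring).map
        (algebraMap v.toValuationSubring B))).map d').prod =
        algebraMap K v.toValuationSubring
          (∏ w ∈ Place.fiber F' v, d w ^ (w.ramificationIndex F)) := by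
      rw [Finset.prod_multiset_map_count, map_prod]
      refine Finset.prod_bij (fun P hP => Place.ofHeightOneSpectrum (K := K) (F := F')
        ⟨P, (hS P hP).1, (hS P hP).2⟩) ?_ ?_ ?_ ?_
      · intro P hP
        exact Place.mem_fiber.mpr (hD1 _)
      · intro P₁ h₁ P₂ h₂ h
        exact congrArg HeightOneSpectrum.asIdeal
          (Dict.ofHeightOneSpectrum_injective (K := K) (F := F') h)
      · intro w hw
        obtain ⟨Q, hQ⟩ := hD2 w (Place.mem_fiber.mp hw)
        have hQmem : Q.asIdeal ∈ (normalizedFactors
            ((IsLocalRing.maximalIdeal v.toValuationSubring).map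
              (algebraMap v.toValuationSubring B))).toFinset := by
          rw [Multiset.mem_toFinset, Ideal.mem_normalizedFactors_iff hpB0]
          refine ⟨Q.isPrime, ?_⟩
          rw [hpB, Ideal.span_le, Set.singleton_subset_iff, SetLike.mem_coe,
            Dict.mem_asIdeal_iff_ord_pos (K := K) (F := F') Q hπB0, hπB_F', Place.ord_restrict,
            hD1 Q, hπord, mul_one]
          exact_mod_cast (Place.ofHeightOneSpectrum (K := K) (F := F') Q).ramificationIndex_pos
            (F := F)
        exact ⟨Q.asIdeal, hQmem, hQ.symm⟩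
      · intro P hP
        have hd' : d' P = algebraMap K v.toValuationSubring
            (d (Place.ofHeightOneSpectrum (K := K) (F := F') ⟨P, (hS P hP).1, (hS P hP).2⟩)) :=
          dif_pos (hS P hP)
        have hcount : (normalizedFactors ((IsLocalRing.maximalIdeal v.toValuationSubring).map
            (algebraMap v.toValuationSubring B))).count P =
            (Place.ofHeightOneSpectrum (K := K) (F := F')
              ⟨P, (hS P hP).1, (hS P hP).2⟩).ramificationIndex F := by
          have h3 := hD3 ⟨P, (hS P hP).1, (hS P hP).2⟩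
          rw [← hpB] at h3
          exact_mod_cast h3.symm
        rw [hd', hcount, map_pow]
    rw [hprod] at hcongr
    have hnorm : Algebra.norm F b =
        algebraMap v.toValuationSubring F (Algebra.norm v.toValuationSubring b₀) := by
      rw [← hb₀]
      exact Algebra.norm_localization v.toValuationSubring
        (nonZeroDivisors v.toValuationSubring) b₀
    have hxF : Algebra.norm F b - algebraMap K F
        (∏ w ∈ Place.fiber F' v, d w ^ (w.ramificationIndex F)) =
        ((Algebra.norm v.toValuationSubring b₀ - algebraMap K v.toValuationSubring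
          (∏ w ∈ Place.fiber F' v, d w ^ (w.ramificationIndex F)) : v.toValuationSubring) : F) := by
      rw [hnorm]
      rfl
    unfold hi_IsValue
    rw [hxF]
    by_cases hx0 : Algebra.norm v.toValuationSubring b₀ - algebraMap K v.toValuationSubring
        (∏ w ∈ Place.fiber F' v, d w ^ (w.ramificationIndex F)) = 0
    · left
      rw [hx0]
      rfl
    · right
      exact (Dict.ord_pos_iff_mem_maximalIdeal v _).mpr ⟨hx0, hcongr⟩
  · intro P hP hle
    have hne : P ≠ ⊥ := fun h => hpB0 (le_bot_iff.mp (h ▸ hle))
    have hd' : d' P = algebraMap K v.toValuationSubring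
        (d (Place.ofHeightOneSpectrum (K := K) (F := F') ⟨P, hP, hne⟩)) := dif_pos ⟨hP, hne⟩
    rw [hd', ← IsScalarTower.algebraMap_apply]
    exact hval ⟨P, hP, hne⟩
  · intro P hP hle c
    have hover : P.LiesOver (IsLocalRing.maximalIdeal v.toValuationSubring) :=
      ⟨((IsLocalRing.maximalIdeal.isMaximal v.toValuationSubring).eq_of_le
        (Ideal.IsPrime.under v.toValuationSubring P).ne_top (Ideal.map_le_iff_le_comap.mp hle))⟩
    obtain ⟨k, hk⟩ := hinva_exists_const (K := K)
      (IsLocalRing.maximalIdeal v.toValuationSubring) hK P c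
    refine ⟨algebraMap K v.toValuationSubring k, ?_⟩
    rw [← IsScalarTower.algebraMap_apply]
    exact hk

/-- (HI-NormValue) The norm form of the values lemma. -/
theorem hinva_main : hi_NormValueStatement := by
  intro K F F' _ _ _ _ _ _ _ _ t ht hfin φ hφ hfin' v b d hb
  let _ := algebraAlong φ
  have := isScalarTower_along φ
  have := isIntegral_along φ hφ
  have : Module.Finite F F' := hfin'
  exact hinva_aux t ht hfin v b d hb

end Fermat.Agent.S37
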