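/-
S37, block HI, work package `HINormVal` (file B): the norm form of the values lemma.

If `b : F'` has the value `d w` at every place `w` of `F'` above the place `v` of `F`, then the
norm of `b` has the value `∏_{w ∣ v} (d w) ^ e(w ∣ v)` at `v`.

Structure of the proof:
* `hinvb_det_blockDiagonal'`, `hinvb_det_pi`: the determinant of a "diagonal" endomorphism of a
  finite product of free modules (dependent version of `LinearMap.det_pi`);
* `hinvb_det_sub_nilpotent`: `det (c - N) = c ^ dim` for a nilpotent endomorphism `N`;
* `hinvb_norm_quotient_mk`: the norm commutes with reduction modulo the maximal ideal;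
* `hinvb_norm_mod`: the commutative algebra core (norm modulo the maximal ideal through the
  Chinese remainder decomposition of `B ⧸ 𝔪 B`);
* `hinvb_dict`: the local dictionary between the places above `v` and the primes of the
  integral closure of the valuation ring of `v`;
* `hinvb_main`: the statement.
-/
import Fermat.Agent.S37.HIInterfaces2
import Fermat.Agent.S24.Zeros
import Fermat.Agent.S24.Places

set_option autoImplicit false
set_option linter.deprecated false

open AlgebraicCurve IsDedekindDomain IntermediateField

namespace Fermat.Agent.S37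

/-- The determinant of a block diagonal matrix with blocks of varying sizes. -/
theorem hinvb_det_blockDiagonal' {o : Type} [Fintype o] [DecidableEq o] {n : o → Type}
    [∀ i, Fintype (n i)] [∀ i, DecidableEq (n i)] {R : Type} [CommRing R]
    (d : ∀ i, Matrix (n i) (n i) R) :
    (Matrix.blockDiagonal' d).det = ∏ i, (d i).det := by
  classical
  let _ : LinearOrder o := LinearOrder.lift' (Fintype.equivFin o) (Fintype.equivFin o).injective
  rw [(Matrix.blockTriangular_blockDiagonal' d).det_fintype]
  refine Finset.prod_congr rfl fun k _ => ?_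
  let e : {a : Σ i, n i // a.fst = k} ≃ n k :=
    { toFun := fun a => a.2 ▸ a.1.2
      invFun := fun x => ⟨⟨k, x⟩, rfl⟩
      left_inv := by rintro ⟨⟨i, x⟩, rfl⟩; rfl
      right_inv := fun x => rfl }
  rw [← Matrix.det_reindex_self e]
  congr 1
  ext x y
  simp [e, Matrix.toSquareBlock_def, Matrix.blockDiagonal'_apply_eq]

/-- Dependent version of `LinearMap.det_pi`. -/
theorem hinvb_det_pi {R : Type} [CommRing R] {ι : Type} [Fintype ι] [DecidableEq ι]
    {M : ι → Type} [∀ i, AddCommGroup (M i)] [∀ i, Module R (M i)] [∀ i, Module.Free R (M i)]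
    [∀ i, Module.Finite R (M i)] (f : ∀ i, M i →ₗ[R] M i) :
    LinearMap.det (LinearMap.pi (fun i => (f i).comp (LinearMap.proj i))) =
      ∏ i, LinearMap.det (f i) := by
  classical
  let b := fun i => Module.Free.chooseBasis R (M i)
  rw [← LinearMap.det_toMatrix (Pi.basis b)]
  have key : LinearMap.toMatrix (Pi.basis b) (Pi.basis b)
      (LinearMap.pi (fun i => (f i).comp (LinearMap.proj i))) =
      Matrix.blockDiagonal' (fun i => LinearMap.toMatrix (b i) (b i) (f i)) := by
    ext ⟨i₁, i₂⟩ ⟨j₁, j₂⟩
    rw [LinearMap.toMatrix_apply, Matrix.blockDiagonal'_apply, Pi.basis_apply, Pi.basis_repr]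
    simp only [LinearMap.pi_apply, LinearMap.coe_comp, Function.comp_apply, LinearMap.coe_proj,
      Function.eval]
    split_ifs with h
    · subst h
      simp [LinearMap.toMatrix_apply]
    · rw [Pi.single_eq_of_ne h]
      simp
  rw [key, hinvb_det_blockDiagonal']
  exact Finset.prod_congr rfl fun i _ => LinearMap.det_toMatrix (b i) (f i)

/-- The determinant of `c - N` for a nilpotent endomorphism `N`. -/
theorem hinvb_det_sub_nilpotent {k V : Type} [Field k] [AddCommGroup V] [Module k V]
    [Module.Finite k V] (c : k) (N : Module.End k V) (hN : IsNilpotent N) :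
    LinearMap.det (algebraMap k (Module.End k V) c - N) = c ^ Module.finrank k V := by
  rw [← LinearMap.eval_charpoly, hN.charpoly_eq_X_pow_finrank]
  simp

open IsLocalRing in
/-- The norm commutes with reduction modulo the maximal ideal of a local ring. -/
theorem hinvb_norm_quotient_mk {R S : Type} [CommRing R] [CommRing S] [Algebra R S]
    [IsLocalRing R] [Module.Free R S] [Module.Finite R S] (x : S) :
    Algebra.norm (R ⧸ maximalIdeal R)
        (Ideal.Quotient.mk ((maximalIdeal R).map (algebraMap R S)) x) =
      Ideal.Quotient.mk (maximalIdeal R) (Algebra.norm R x) := by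
  classical
  let _ := Ideal.Quotient.field (maximalIdeal R)
  let ι := Module.Free.ChooseBasisIndex R S
  let b : Module.Basis ι R S := Module.Free.chooseBasis R S
  rw [Algebra.norm_eq_matrix_det b, Algebra.norm_eq_matrix_det (basisQuotient b),
    RingHom.map_det]
  congr 1
  ext i j
  simp only [Algebra.leftMulMatrix_apply, Algebra.coe_lmul_eq_mul, LinearMap.toMatrix_apply,
    basisQuotient_apply, LinearMap.mul_apply', Matrix.map_apply, ← map_mul,
    basisQuotient_repr, RingHom.mapMatrix_apply]

open UniqueFactorizationMonoid IsLocalRing in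
/-- The norm of an element of a Dedekind domain, finite free over a local ring, modulo the
maximal ideal, in terms of the residues of the element at the primes above (all assumed of
inertia degree one). -/
theorem hinvb_norm_mod {A B : Type} [CommRing A] [IsLocalRing A] [CommRing B]
    [IsDedekindDomain B] [Algebra A B] [Module.Free A B] [Module.Finite A B]
    (hp : (maximalIdeal A).map (algebraMap A B) ≠ ⊥) (b : B)
    (δ : (factors ((maximalIdeal A).map (algebraMap A B))).toFinset → A)
    (hδ : ∀ P : (factors ((maximalIdeal A).map (algebraMap A B))).toFinset,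
      b - algebraMap A B (δ P) ∈ (P : Ideal B))
    (hf : ∀ P : (factors ((maximalIdeal A).map (algebraMap A B))).toFinset,
      Ideal.inertiaDeg' (maximalIdeal A) (P : Ideal B) = 1) :
    Algebra.norm A b -
        ∏ P, δ P ^ Ideal.ramificationIdx' (maximalIdeal A) (P : Ideal B) ∈ maximalIdeal A := by
  classical
  let _ := Ideal.Quotient.field (maximalIdeal A)
  rw [← Ideal.Quotient.eq, ← hinvb_norm_quotient_mk (S := B), map_prod]
  simp only [map_pow]
  rw [Algebra.norm_apply]
  let E := Ideal.Factors.piQuotientLinearEquiv B (maximalIdeal A) hp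
  let g : ∀ P : (factors ((maximalIdeal A).map (algebraMap A B))).toFinset,
      Module.End (A ⧸ maximalIdeal A)
        (B ⧸ (P : Ideal B) ^ Ideal.ramificationIdx' (maximalIdeal A) (P : Ideal B)) :=
    fun P => Algebra.lmul (A ⧸ maximalIdeal A) _ (Ideal.Quotient.mk _ b)
  have hconj : (E : _ →ₗ[A ⧸ maximalIdeal A] _) ∘ₗ
      (Algebra.lmul (A ⧸ maximalIdeal A) (B ⧸ (maximalIdeal A).map (algebraMap A B))
        (Ideal.Quotient.mk _ b)) ∘ₗ (E.symm : _ →ₗ[A ⧸ maximalIdeal A] _) =
      LinearMap.pi (fun P => (g P).comp (LinearMap.proj P)) := by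
    refine LinearMap.ext fun x => funext fun P => ?_
    obtain ⟨y, rfl⟩ := E.surjective x
    obtain ⟨y, rfl⟩ := Ideal.Quotient.mk_surjective y
    have hE : ∀ z, E z = Ideal.Factors.piQuotientEquiv (maximalIdeal A) hp z := fun z => rfl
    simp only [LinearMap.coe_comp, LinearEquiv.coe_coe, Function.comp_apply,
      LinearEquiv.symm_apply_apply, Algebra.coe_lmul_eq_mul, LinearMap.mul_apply',
      LinearMap.pi_apply, LinearMap.coe_proj, Function.eval, g]
    rw [hE, hE, map_mul, Pi.mul_apply, Ideal.Factors.piQuotientEquiv_mk]
  rw [← LinearMap.det_conj _ E, hconj, hinvb_det_pi]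
  refine Finset.prod_congr rfl fun P _ => ?_
  have hnil : IsNilpotent (Algebra.lmul (A ⧸ maximalIdeal A)
      (B ⧸ (P : Ideal B) ^ Ideal.ramificationIdx' (maximalIdeal A) (P : Ideal B))
      (Ideal.Quotient.mk _ (algebraMap A B (δ P) - b))) := by
    refine IsNilpotent.map ⟨Ideal.ramificationIdx' (maximalIdeal A) (P : Ideal B), ?_⟩ _
    rw [← map_pow, Ideal.Quotient.eq_zero_iff_mem]
    refine Ideal.pow_mem_pow ?_ _
    have := (P : Ideal B).neg_mem (hδ P)
    rwa [neg_sub] at this
  have hg : g P = algebraMap (A ⧸ maximalIdeal A) (Module.End (A ⧸ maximalIdeal A) _)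
      (Ideal.Quotient.mk _ (δ P)) - Algebra.lmul (A ⧸ maximalIdeal A)
      (B ⧸ (P : Ideal B) ^ Ideal.ramificationIdx' (maximalIdeal A) (P : Ideal B))
      (Ideal.Quotient.mk _ (algebraMap A B (δ P) - b)) := by
    refine LinearMap.ext fun x => ?_
    obtain ⟨x, rfl⟩ := Ideal.Quotient.mk_surjective x
    simp only [g, Algebra.coe_lmul_eq_mul, LinearMap.mul_apply', LinearMap.sub_apply,
      Module.algebraMap_end_apply, Algebra.smul_def,
      Ideal.Quotient.algebraMap_quotient_pow_ramificationIdx, ← map_mul, ← map_sub]
    congr 1
    ring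
  rw [hg, hinvb_det_sub_nilpotent _ _ hnil, Ideal.Factors.finrank_pow_ramificationIdx, hf P,
    mul_one]


section Dictionary

open UniqueFactorizationMonoid Fermat.Agent.S24

/-- The local dictionary at `v`: the norm form of the values lemma, in terms of a Dedekind
domain `B` which is the integral closure of the valuation ring of `v` in `F'`. -/
theorem hinvb_dict {K F F' : Type} [Field K] [Field F] [Field F'] [Algebra K F] [Algebra K F']
    [Algebra F F'] [IsScalarTower K F F'] [Algebra.IsIntegral F F'] [HasPrincipalDivisors K F']
    [Module.Finite F F'] [IsAlgClosed K] (v : Place K F)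
    (B : Type) [CommRing B] [IsDedekindDomain B] [Algebra v.toValuationSubring B] [Algebra B F']
    [IsScalarTower v.toValuationSubring B F'] [IsIntegralClosure B v.toValuationSubring F']
    [IsFractionRing B F'] [Algebra K B] [IsScalarTower K B F']
    [IsScalarTower K v.toValuationSubring B] [Module.Finite v.toValuationSubring B]
    [Module.Free v.toValuationSubring B]
    (hK : ∀ x : v.toValuationSubring, ∃ k : K,
      x - algebraMap K v.toValuationSubring k ∈ IsLocalRing.maximalIdeal v.toValuationSubring)
    (b : F') (d : Place K F' → K)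
    (hb : ∀ w ∈ v.fiber F', hi_IsValue w b (d w)) :
    hi_IsValue v (Algebra.norm F b) (∏ w ∈ v.fiber F', d w ^ w.ramificationIndex F) := by
  classical
  obtain ⟨π, hπ⟩ := IsDiscreteValuationRing.exists_irreducible v.toValuationSubring
  have hπF : (π : F) ≠ 0 := by
    simpa [ne_eq, ZeroMemClass.coe_eq_zero] using hπ.ne_zero
  have hvπ : v.ord (π : F) = 1 := v.ord_coe_irreducible hπ
  have hAF' : ∀ a : v.toValuationSubring,
      algebraMap B F' (algebraMap v.toValuationSubring B a) = algebraMap F F' (a : F) := by
    intro a
    rw [← IsScalarTower.algebraMap_apply v.toValuationSubring B F',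
      IsScalarTower.algebraMap_apply v.toValuationSubring F F']
    rfl
  have hKB : ∀ c : K, algebraMap B F' (algebraMap K B c) = algebraMap K F' c :=
    fun c => (IsScalarTower.algebraMap_apply K B F' c).symm
  -- the place attached to a prime of `B` lies above `v`
  have hrestr : ∀ P : HeightOneSpectrum B,
      (Place.ofHeightOneSpectrum (K := K) (F := F') P).restrict F = v := by
    intro P
    symm
    apply Dict.ext_of_le
    intro a ha
    show algebraMap F F' a ∈ (Place.ofHeightOneSpectrum (K := K) (F := F') P).toValuationSubring
    have h := hAF' ⟨a, ha⟩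
    rw [← h]
    exact P.valuation_le_one _
  -- every place above `v` comes from a prime of `B`
  have hexP : ∀ w : Place K F', w.restrict F = v →
      ∃ P : HeightOneSpectrum B, w = Place.ofHeightOneSpectrum (K := K) (F := F') P := by
    intro w hw
    have hA : ∀ a : v.toValuationSubring,
        0 ≤ w.ord (algebraMap v.toValuationSubring F' a) := by
      intro a
      apply Dict.ord_nonneg_of_mem
      have ha : (a : F) ∈ (w.restrict F).toValuationSubring := by rw [hw]; exact a.2
      rw [IsScalarTower.algebraMap_apply v.toValuationSubring F F']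
      exact ha
    have h1 : ∀ x : B, 0 ≤ w.ord (algebraMap B F' x) := by
      intro x
      apply Dict.ord_nonneg_of_isIntegral w hA
      exact IsIntegralClosure.isIntegral_iff.mpr ⟨x, rfl⟩
    have h2 : ∃ x : B, x ≠ 0 ∧ 0 < w.ord (algebraMap B F' x) := by
      refine ⟨algebraMap _ B π, ?_, ?_⟩
      · intro h
        have h' := congrArg (algebraMap B F') h
        rw [hAF', map_zero] at h'
        exact hπF ((map_eq_zero _).mp h')
      · rw [hAF', w.ord_restrict, hw, hvπ, mul_one]
        exact_mod_cast w.ramificationIndex_pos (F := F)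
    obtain ⟨P, hP, -⟩ := Dict.exists_eq_ofHeightOneSpectrum w h1 h2
    exact ⟨P, hP⟩
  -- `b` lies in `B`
  have hbO : ∀ P : HeightOneSpectrum B, P.valuation F' b ≤ 1 := by
    intro P
    have hw : Place.ofHeightOneSpectrum (K := K) (F := F') P ∈ v.fiber F' :=
      Place.mem_fiber.mpr (hrestr P)
    have hd := (Place.ofHeightOneSpectrum (K := K) (F := F') P).algebraMap_mem'
      (d (Place.ofHeightOneSpectrum (K := K) (F := F') P))
    have hmem : b ∈ (Place.ofHeightOneSpectrum (K := K) (F := F') P).toValuationSubring := by
      rcases hb _ hw with h | h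
      · rw [sub_eq_zero.mp h]
        exact hd
      · have h' := add_mem (Dict.mem_of_ord_nonneg _ h.le) hd
        rwa [sub_add_cancel] at h'
    exact hmem
  obtain ⟨b₀, hb₀⟩ := HeightOneSpectrum.mem_integers_of_valuation_le_one F' b hbO
  -- the maximal ideal of the valuation ring and its extension to `B`
  have hm : IsLocalRing.maximalIdeal v.toValuationSubring = Ideal.span {π} := hπ.maximalIdeal_eq
  have hmB : (IsLocalRing.maximalIdeal v.toValuationSubring).map
      (algebraMap v.toValuationSubring B) = Ideal.span {algebraMap v.toValuationSubring B π} := by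
    rw [hm, Ideal.map_span, Set.image_singleton]
  have hπB : algebraMap v.toValuationSubring B π ≠ 0 := by
    intro h
    have h' := congrArg (algebraMap B F') h
    rw [hAF', map_zero] at h'
    exact hπF ((map_eq_zero _).mp h')
  have hp : (IsLocalRing.maximalIdeal v.toValuationSubring).map
      (algebraMap v.toValuationSubring B) ≠ ⊥ := by
    rw [hmB]
    exact Submodule.span_singleton_eq_bot.mp.mt hπB
  have hordπ : ∀ P : HeightOneSpectrum B,
      (Place.ofHeightOneSpectrum (K := K) (F := F') P).ord
        (algebraMap B F' (algebraMap v.toValuationSubring B π)) =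
      ((Place.ofHeightOneSpectrum (K := K) (F := F') P).ramificationIndex F : ℤ) := by
    intro P
    rw [hAF', (Place.ofHeightOneSpectrum (K := K) (F := F') P).ord_restrict, hrestr P, hvπ,
      mul_one]
  have hmemP : ∀ P : HeightOneSpectrum B, P.asIdeal ∈
      (factors ((IsLocalRing.maximalIdeal v.toValuationSubring).map
        (algebraMap v.toValuationSubring B))).toFinset := by
    intro P
    rw [Multiset.mem_toFinset, factors_eq_normalizedFactors, Ideal.mem_normalizedFactors_iff hp]
    refine ⟨P.isPrime, ?_⟩
    rw [hmB, Ideal.span_le, Set.singleton_subset_iff, SetLike.mem_coe,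
      Dict.mem_asIdeal_iff_ord_pos (K := K) (F := F') P hπB, hordπ]
    exact_mod_cast (Place.ofHeightOneSpectrum (K := K) (F := F') P).ramificationIndex_pos (F := F)
  have he : ∀ P : HeightOneSpectrum B,
      Ideal.ramificationIdx' (IsLocalRing.maximalIdeal v.toValuationSubring) P.asIdeal =
        (Place.ofHeightOneSpectrum (K := K) (F := F') P).ramificationIndex F := by
    intro P
    rw [Ideal.IsDedekindDomain.ramificationIdx'_eq_normalizedFactors_count hp P.isPrime P.ne_bot,
      hmB]
    have h1 := Dict.ord_ofHeightOneSpectrum_algebraMap_eq_count (K := K) (F := F') P hπB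
    rw [hordπ] at h1
    exact_mod_cast h1.symm
  -- the primes above the maximal ideal, as height one primes
  let Pof : (factors ((IsLocalRing.maximalIdeal v.toValuationSubring).map
      (algebraMap v.toValuationSubring B))).toFinset → HeightOneSpectrum B :=
    fun P => ⟨P.1, Ideal.Factors.isPrime _ P, Ideal.Factors.ne_bot _ P⟩
  let δ : (factors ((IsLocalRing.maximalIdeal v.toValuationSubring).map
      (algebraMap v.toValuationSubring B))).toFinset → v.toValuationSubring :=
    fun P => algebraMap K v.toValuationSubring
      (d (Place.ofHeightOneSpectrum (K := K) (F := F') (Pof P)))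
  have hδ : ∀ P : (factors ((IsLocalRing.maximalIdeal v.toValuationSubring).map
      (algebraMap v.toValuationSubring B))).toFinset,
      b₀ - algebraMap v.toValuationSubring B (δ P) ∈ (P : Ideal B) := by
    intro P
    have hw : Place.ofHeightOneSpectrum (K := K) (F := F') (Pof P) ∈ v.fiber F' :=
      Place.mem_fiber.mpr (hrestr _)
    show b₀ - algebraMap v.toValuationSubring B (algebraMap K v.toValuationSubring
      (d (Place.ofHeightOneSpectrum (K := K) (F := F') (Pof P)))) ∈ (Pof P).asIdeal
    rw [← IsScalarTower.algebraMap_apply K v.toValuationSubring B]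
    by_cases hx : b₀ - algebraMap K B (d (Place.ofHeightOneSpectrum (K := K) (F := F') (Pof P))) = 0
    · rw [hx]
      exact Ideal.zero_mem _
    · rw [Dict.mem_asIdeal_iff_ord_pos (K := K) (F := F') (Pof P) hx, map_sub, hb₀, hKB]
      rcases hb _ hw with h | h
      · exfalso
        apply hx
        apply IsFractionRing.injective B F'
        rw [map_sub, hb₀, hKB, h, map_zero]
      · exact h
  have hmax : (Ideal.span {π}).IsMaximal := by
    rw [← hm]
    infer_instance
  have hK' : ∀ x : v.toValuationSubring, ∃ k : K,
      x - algebraMap K v.toValuationSubring k ∈ Ideal.span {π} := by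
    intro x
    obtain ⟨k, hk⟩ := hK x
    exact ⟨k, hm ▸ hk⟩
  have hintAB : Algebra.IsIntegral v.toValuationSubring B :=
    IsIntegralClosure.isIntegral_algebra v.toValuationSubring F'
  have hf : ∀ P : (factors ((IsLocalRing.maximalIdeal v.toValuationSubring).map
      (algebraMap v.toValuationSubring B))).toFinset,
      Ideal.inertiaDeg' (IsLocalRing.maximalIdeal v.toValuationSubring) (P : Ideal B) = 1 := by
    intro P
    have hPmax : (P : Ideal B).IsMaximal :=
      (Ideal.Factors.isPrime _ P).isMaximal (Ideal.Factors.ne_bot _ P)
    rw [Ideal.inertiaDeg'_eq_inertiaDeg]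
    have hlies : (P : Ideal B).LiesOver (Ideal.span {π}) := by
      rw [← hm]
      infer_instance
    exact Zeros.inertiaDeg_eq_one (K := K) π hmax hK' (P : Ideal B)
  have key := hinvb_norm_mod hp b₀ δ hδ hf
  -- translate back
  have hnorm : Algebra.norm F b =
      ((Algebra.norm v.toValuationSubring b₀ : v.toValuationSubring) : F) := by
    have hloc := IsIntegralClosure.isLocalization v.toValuationSubring F F' B
    rw [← hb₀]
    exact Algebra.norm_localization (R := v.toValuationSubring) (Rₘ := F) (S := B) (Sₘ := F')
      (nonZeroDivisors v.toValuationSubring) b₀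
  have hprod : algebraMap K F (∏ w ∈ v.fiber F', d w ^ w.ramificationIndex F) =
      ((∏ P, δ P ^ Ideal.ramificationIdx' (IsLocalRing.maximalIdeal v.toValuationSubring)
        (P : Ideal B) : v.toValuationSubring) : F) := by
    rw [map_prod]
    push_cast
    symm
    refine Finset.prod_bij (fun P _ => Place.ofHeightOneSpectrum (K := K) (F := F') (Pof P))
      (fun P _ => Place.mem_fiber.mpr (hrestr _)) ?_ ?_ ?_
    · intro P₁ _ P₂ _ h
      have h' := Dict.ofHeightOneSpectrum_injective (K := K) (F := F') h
      exact Subtype.ext (congrArg HeightOneSpectrum.asIdeal h')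
    · intro w hw
      obtain ⟨P, rfl⟩ := hexP w (Place.mem_fiber.mp hw)
      exact ⟨⟨P.asIdeal, hmemP P⟩, Finset.mem_univ _, rfl⟩
    · intro P _
      rw [← he (Pof P)]
      rfl
  unfold hi_IsValue
  rw [hnorm, hprod, ← AddSubgroupClass.coe_sub]
  by_cases hx0 : Algebra.norm v.toValuationSubring b₀ -
      ∏ P, δ P ^ Ideal.ramificationIdx' (IsLocalRing.maximalIdeal v.toValuationSubring)
        (P : Ideal B) = 0
  · left
    rw [hx0]
    rfl
  · right
    exact (Dict.ord_pos_iff_mem_maximalIdeal v _).mpr ⟨hx0, key⟩

end Dictionary

/-- (HI-NormValue) The norm form of the values lemma. -/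
theorem hinvb_main : hi_NormValueStatement := by
  intro K F F' _ _ _ _ _ _ _ _ t ht hfin φ hφ hfinφ v b d hb
  let _ := algebraAlong φ
  have := isScalarTower_along φ
  have := isIntegral_along φ hφ
  have : Module.Finite F F' := hfinφ
  have : CharZero F := charZero_of_injective_algebraMap (algebraMap K F).injective
  have : Algebra.IsSeparable F F' := inferInstance
  have : IsScalarTower K v.toValuationSubring F' :=
    IsScalarTower.of_algebraMap_eq fun k => by
      rw [IsScalarTower.algebraMap_apply K F F',
        IsScalarTower.algebraMap_apply v.toValuationSubring F F']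
      rfl
  have : IsDedekindDomain (integralClosure v.toValuationSubring F') :=
    IsIntegralClosure.isDedekindDomain v.toValuationSubring F F' _
  have : IsFractionRing (integralClosure v.toValuationSubring F') F' :=
    integralClosure.isFractionRing_of_finite_extension F F'
  have : Module.Finite v.toValuationSubring (integralClosure v.toValuationSubring F') :=
    IsIntegralClosure.finite v.toValuationSubring F F' _
  have : Module.Free v.toValuationSubring (integralClosure v.toValuationSubring F') :=
    Module.free_of_finite_type_torsion_free'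
  have hK : ∀ x : v.toValuationSubring, ∃ k : K,
      x - algebraMap K v.toValuationSubring k ∈
        IsLocalRing.maximalIdeal v.toValuationSubring := by
    intro x
    obtain ⟨c, hc⟩ := Fermat.Agent.S24.Places.exists_residue_eq v ht hfin x
    refine ⟨c, ?_⟩
    rw [← IsLocalRing.residue_eq_zero_iff, map_sub, ← hc]
    exact sub_self _
  exact hinvb_dict v (integralClosure v.toValuationSubring F') hK b d hb

end Fermat.Agent.S37
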