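/-
S37, block HI, package HINormVal (file C): the norm form of the values lemma.

`hinvc_main : hi_NormValueStatement`: let `F'` be a finite extension (along `φ`) of the function
field `F` of one variable over the algebraically closed field `K` of characteristic zero, `v` a
place of `F` and `b : F'` an element having the value `d w : K` at every place `w` of `F'` over `v`.
Then the norm of `b` has the value `∏_{w ∣ v} d w ^ e(w ∣ v)` at `v`.

Structure of the proof.
* Part 1 (pure algebra).  `A` is a local `K`-algebra with residue field `K`, `B` a Dedekind domain,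
  finite free over `A`.  The norm of `b : B` modulo the maximal ideal `m` of `A` is the determinant
  of multiplication by `b` on the `K`-vector space `B ⧸ m B` (`hinvc_norm_quot`).  If
  `m B = ∏ P i ^ e i`, the Chinese remainder theorem (two coprime factors at a time) and the
  multiplicativity of the determinant on products reduce the computation to `B ⧸ P ^ e`
  (`hinvc_det_quot_prod`), which has dimension `e` over `K` (`hinvc_finrank_quot_pow`) and on which
  `b` is a scalar plus a nilpotent endomorphism (`hinvc_det_quot_pow`).  Result: `hinvc_core`.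
* Part 2 (dictionary).  `A` is the valuation ring of `v` and `B` the integral closure of `A` in
  `F'`: the places of `F'` over `v` correspond bijectively to the nonzero primes of `B`, the
  ramification index is the exponent of the prime in `m B`, and `b` lies in `B`
  (`hinvc_dict_main`).  Finally the norm of `F' / F` restricts to the norm of `B / A`.
-/
import Fermat.Agent.S37.HIInterfaces2
import Fermat.Agent.S24.Zeros
import Fermat.Agent.S24.Places

set_option autoImplicit false

open AlgebraicCurve ModularCurve IntermediateField Polynomial IsDedekindDomain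

namespace Fermat.Agent.S37

/-! ### Part 1: pure algebra -/

/-- (L1) The determinant of "scalar plus nilpotent". -/
theorem hinvc_det_add_nilpotent {K V : Type} [Field K] [AddCommGroup V] [Module K V]
    [Module.Finite K V] (c : K) (N : V →ₗ[K] V) (hN : IsNilpotent N) :
    LinearMap.det (algebraMap K (Module.End K V) c + N) = c ^ Module.finrank K V := by
  have h1 : IsNilpotent (-N) := hN.neg
  have h2 := IsNilpotent.charpoly_eq_X_pow_finrank h1
  have h3 := LinearMap.eval_charpoly (-N) c
  rw [h2, Polynomial.eval_pow, Polynomial.eval_X, sub_neg_eq_add] at h3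
  exact h3.symm

/-- (L2) The dimension of `B ⧸ P ^ e` over a field `K` mapping onto `B ⧸ P`. -/
theorem hinvc_finrank_quot_pow {K B : Type} [Field K] [CommRing B] [IsDedekindDomain B]
    [Algebra K B] (P : Ideal B) [hPp : P.IsPrime] (hP : P ≠ ⊥)
    (hres : ∀ x : B, ∃ k : K, x - algebraMap K B k ∈ P) (e : ℕ) :
    Module.Finite K (B ⧸ P ^ e) ∧ Module.finrank K (B ⧸ P ^ e) = e := by
  induction e with
  | zero =>
    have hsub : Subsingleton (B ⧸ P ^ 0) := by
      rw [pow_zero, Ideal.one_eq_top]
      exact Ideal.Quotient.subsingleton_iff.mpr rfl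
    exact ⟨inferInstance, Module.finrank_zero_of_subsingleton⟩
  | succ e ih =>
    obtain ⟨hfin, hrank⟩ := ih
    have hle : P ^ (e + 1) ≤ P ^ e := Ideal.pow_le_pow_right (Nat.le_succ e)
    let g : (B ⧸ P ^ (e + 1)) →ₗ[K] (B ⧸ P ^ e) := (Ideal.Quotient.factorₐ K hle).toLinearMap
    have hg : Function.Surjective g := Ideal.Quotient.factor_surjective hle
    have hgmk : ∀ x : B, g (Ideal.Quotient.mk (P ^ (e + 1)) x) = Ideal.Quotient.mk (P ^ e) x :=
      fun x => rfl
    obtain ⟨ϖ, hϖ1, hϖ2⟩ := SetLike.exists_of_lt (Ideal.pow_succ_lt_pow hP e)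
    have hϖ0 : Ideal.Quotient.mk (P ^ (e + 1)) ϖ ≠ 0 := by
      rw [ne_eq, Ideal.Quotient.eq_zero_iff_mem]
      exact hϖ2
    have hker : LinearMap.ker g = K ∙ (Ideal.Quotient.mk (P ^ (e + 1)) ϖ) := by
      apply le_antisymm
      · intro x hx
        obtain ⟨c, rfl⟩ := Ideal.Quotient.mk_surjective x
        rw [LinearMap.mem_ker, hgmk, Ideal.Quotient.eq_zero_iff_mem] at hx
        obtain ⟨d, r, hr, hdr⟩ := Ideal.exists_mul_add_mem_pow_succ hP ϖ c hϖ1 hϖ2 hx
        obtain ⟨k, hk⟩ := hres d
        rw [Submodule.mem_span_singleton]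
        refine ⟨k, ?_⟩
        rw [Algebra.smul_def, ← hdr]
        have h1 : algebraMap K (B ⧸ P ^ (e + 1)) k =
            Ideal.Quotient.mk (P ^ (e + 1)) (algebraMap K B k) := rfl
        rw [h1, ← map_mul, eq_comm, Ideal.Quotient.eq]
        have h2 : ϖ * d + r - algebraMap K B k * ϖ = ϖ * (d - algebraMap K B k) + r := by ring
        rw [h2]
        refine Ideal.add_mem _ ?_ hr
        rw [pow_succ]
        exact Ideal.mul_mem_mul hϖ1 hk
      · rw [Submodule.span_singleton_le_iff_mem, LinearMap.mem_ker, hgmk,
          Ideal.Quotient.eq_zero_iff_mem]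
        exact hϖ1
    have hfinker : Module.Finite K (LinearMap.ker g) := by
      rw [hker]
      infer_instance
    have hrankker : Module.finrank K (LinearMap.ker g) = 1 := by
      rw [hker]
      exact finrank_span_singleton hϖ0
    let eq : ((B ⧸ P ^ (e + 1)) ⧸ LinearMap.ker g) ≃ₗ[K] (B ⧸ P ^ e) :=
      g.quotKerEquivOfSurjective hg
    have hfinq : Module.Finite K ((B ⧸ P ^ (e + 1)) ⧸ LinearMap.ker g) :=
      Module.Finite.equiv eq.symm
    have hfinall : Module.Finite K (B ⧸ P ^ (e + 1)) :=
      Module.Finite.of_submodule_quotient (LinearMap.ker g)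
    refine ⟨hfinall, ?_⟩
    have h3 := (LinearMap.ker g).finrank_quotient_add_finrank
    rw [hrankker, eq.finrank_eq, hrank] at h3
    exact h3.symm

/-- (L3) The determinant of multiplication by `b` on `B ⧸ P ^ e`, when `b ≡ d` modulo `P`. -/
theorem hinvc_det_quot_pow {K B : Type} [Field K] [CommRing B] [IsDedekindDomain B]
    [Algebra K B] (P : Ideal B) [hPp : P.IsPrime] (hP : P ≠ ⊥)
    (hres : ∀ x : B, ∃ k : K, x - algebraMap K B k ∈ P) (e : ℕ) (b : B) (d : K)
    (hbd : b - algebraMap K B d ∈ P) :
    LinearMap.det (LinearMap.mulLeft K (Ideal.Quotient.mk (P ^ e) b)) = d ^ e := by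
  obtain ⟨hfin, hrank⟩ := hinvc_finrank_quot_pow P hP hres e
  have hnil : IsNilpotent
      (LinearMap.mulLeft K (Ideal.Quotient.mk (P ^ e) (b - algebraMap K B d))) := by
    rw [LinearMap.isNilpotent_mulLeft_iff]
    refine ⟨e, ?_⟩
    rw [← map_pow, Ideal.Quotient.eq_zero_iff_mem]
    exact Ideal.pow_mem_pow hbd e
  have h1 := hinvc_det_add_nilpotent d _ hnil
  rw [hrank] at h1
  have hmap : LinearMap.mulLeft K (Ideal.Quotient.mk (P ^ e) b) =
      algebraMap K (Module.End K (B ⧸ P ^ e)) d +
        LinearMap.mulLeft K (Ideal.Quotient.mk (P ^ e) (b - algebraMap K B d)) := by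
    refine LinearMap.ext fun x => ?_
    rw [LinearMap.add_apply, LinearMap.mulLeft_apply, LinearMap.mulLeft_apply,
      Module.algebraMap_end_apply, Algebra.smul_def, ← add_mul]
    congr 1
    have h2 : algebraMap K (B ⧸ P ^ e) d = Ideal.Quotient.mk (P ^ e) (algebraMap K B d) := rfl
    rw [h2, ← map_add]
    congr 1
    ring
  rw [hmap, h1]

/-- (L4) The determinant of multiplication by `b` on `B ⧸ ∏ P i ^ e i`. -/
theorem hinvc_det_quot_prod {K B ι : Type} [Field K] [CommRing B] [IsDedekindDomain B]
    [Algebra K B] (P : ι → Ideal B) (e : ι → ℕ) (d : ι → K) (b : B) (s : Finset ι)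
    (hprime : ∀ i ∈ s, (P i).IsPrime) (hne : ∀ i ∈ s, P i ≠ ⊥)
    (hinj : ∀ i ∈ s, ∀ j ∈ s, i ≠ j → P i ≠ P j)
    (hres : ∀ i ∈ s, ∀ x : B, ∃ k : K, x - algebraMap K B k ∈ P i)
    (hbd : ∀ i ∈ s, b - algebraMap K B (d i) ∈ P i) :
    ∀ J : Ideal B, J = ∏ i ∈ s, P i ^ e i →
      Module.Finite K (B ⧸ J) ∧
        LinearMap.det (LinearMap.mulLeft K (Ideal.Quotient.mk J b)) = ∏ i ∈ s, d i ^ e i := by
  classical
  induction s using Finset.induction_on with
  | empty =>
    intro J hJ
    rw [Finset.prod_empty, Ideal.one_eq_top] at hJ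
    subst hJ
    have hsub : Subsingleton (B ⧸ (⊤ : Ideal B)) := Ideal.Quotient.subsingleton_iff.mpr rfl
    refine ⟨inferInstance, ?_⟩
    rw [Finset.prod_empty]
    exact LinearMap.det_eq_one_of_subsingleton _
  | insert j s hj ih =>
    intro J hJ
    rw [Finset.prod_insert hj] at hJ
    subst hJ
    have hjs : j ∈ insert j s := Finset.mem_insert_self j s
    have hsub : ∀ i ∈ s, i ∈ insert j s := fun i hi => Finset.mem_insert_of_mem hi
    obtain ⟨hfin2, hdet2⟩ := ih (fun i hi => hprime i (hsub i hi)) (fun i hi => hne i (hsub i hi))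
      (fun i hi k hk => hinj i (hsub i hi) k (hsub k hk)) (fun i hi => hres i (hsub i hi))
      (fun i hi => hbd i (hsub i hi)) (∏ i ∈ s, P i ^ e i) rfl
    have hjp : (P j).IsPrime := hprime j hjs
    obtain ⟨hfin1, -⟩ := hinvc_finrank_quot_pow (P j) (hne j hjs) (hres j hjs) (e j)
    have hdet1 := hinvc_det_quot_pow (P j) (hne j hjs) (hres j hjs) (e j) b (d j) (hbd j hjs)
    have hcop : IsCoprime (P j ^ e j) (∏ i ∈ s, P i ^ e i) := by
      refine IsCoprime.prod_right fun i hi => IsCoprime.pow ?_
      have : (P j).IsMaximal := Ideal.IsPrime.isMaximal hjp (hne j hjs)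
      have : (P i).IsMaximal := Ideal.IsPrime.isMaximal (hprime i (hsub i hi)) (hne i (hsub i hi))
      refine Ideal.isCoprime_of_isMaximal (hinj j hjs i (hsub i hi) ?_)
      rintro rfl
      exact hj hi
    let Φ : (B ⧸ P j ^ e j * ∏ i ∈ s, P i ^ e i) ≃ₐ[K]
        ((B ⧸ P j ^ e j) × (B ⧸ ∏ i ∈ s, P i ^ e i)) :=
      { __ := Ideal.quotientMulEquivQuotientProd (P j ^ e j) (∏ i ∈ s, P i ^ e i) hcop
        commutes' := fun _ => rfl }
    have hΦmk : ∀ x : B, Φ (Ideal.Quotient.mk _ x) =
        (Ideal.Quotient.mk _ x, Ideal.Quotient.mk _ x) := fun x => rfl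
    have hfin : Module.Finite K (B ⧸ P j ^ e j * ∏ i ∈ s, P i ^ e i) :=
      Module.Finite.equiv Φ.toLinearEquiv.symm
    refine ⟨hfin, ?_⟩
    rw [Finset.prod_insert hj, ← hdet1, ← hdet2, ← LinearMap.det_prodMap,
      ← LinearMap.det_conj _ Φ.toLinearEquiv]
    congr 1
    refine LinearMap.ext fun x => ?_
    obtain ⟨y, rfl⟩ := Φ.surjective x
    obtain ⟨z, rfl⟩ := Ideal.Quotient.mk_surjective y
    have h1 : Φ.toLinearEquiv.symm (Φ (Ideal.Quotient.mk _ z)) = Ideal.Quotient.mk _ z :=
      Φ.symm_apply_apply _
    have h2 : (Φ.toLinearEquiv : _ →ₗ[K] _) ((LinearMap.mulLeft K (Ideal.Quotient.mk _ b))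
        (Φ.toLinearEquiv.symm (Φ (Ideal.Quotient.mk _ z)))) =
        Φ (Ideal.Quotient.mk _ b * Ideal.Quotient.mk _ z) := by
      rw [h1]
      rfl
    rw [LinearMap.comp_apply, LinearMap.comp_apply]
    refine h2.trans ?_
    rw [← map_mul, hΦmk, hΦmk, map_mul, map_mul]
    rfl

/-- (L5a) A local `K`-algebra `A` with residue field `K`: the special fibre `B ⧸ m B` of a finite
free `A`-algebra has a `K`-basis induced by an `A`-basis of `B`. -/
theorem hinvc_exists_basis {K A B : Type} [Field K] [CommRing A] [IsLocalRing A] [Algebra K A]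
    (hK : ∀ a : A, ∃ k : K, a - algebraMap K A k ∈ IsLocalRing.maximalIdeal A)
    [CommRing B] [Algebra A B] [Algebra K B] [IsScalarTower K A B]
    [Module.Free A B] [Module.Finite A B] :
    ∃ (f : (A ⧸ IsLocalRing.maximalIdeal A) ≃+* K)
      (bK : Module.Basis (Module.Free.ChooseBasisIndex A B) K
        (B ⧸ (IsLocalRing.maximalIdeal A).map (algebraMap A B))),
      (∀ c : A ⧸ IsLocalRing.maximalIdeal A,
        algebraMap K (A ⧸ IsLocalRing.maximalIdeal A) (f c) = c) ∧
      (∀ i, bK i = Ideal.Quotient.mk _ (Module.Free.chooseBasis A B i)) ∧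
      (∀ (x : B) i, bK.repr (Ideal.Quotient.mk _ x) i =
        f (Ideal.Quotient.mk _ ((Module.Free.chooseBasis A B).repr x i))) := by
  classical
  have hbij : Function.Bijective (algebraMap K (A ⧸ IsLocalRing.maximalIdeal A)) := by
    constructor
    · exact (algebraMap K (A ⧸ IsLocalRing.maximalIdeal A)).injective
    · intro x
      obtain ⟨a, rfl⟩ := Ideal.Quotient.mk_surjective x
      obtain ⟨k, hk⟩ := hK a
      exact ⟨k, (Ideal.Quotient.eq.mpr hk).symm⟩
  let f0 : K ≃+* (A ⧸ IsLocalRing.maximalIdeal A) := RingEquiv.ofBijective _ hbij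
  have hf0 : ∀ k : K, f0 k = algebraMap K (A ⧸ IsLocalRing.maximalIdeal A) k := fun k => rfl
  have hsm : ∀ (c : A ⧸ IsLocalRing.maximalIdeal A)
      (x : B ⧸ (IsLocalRing.maximalIdeal A).map (algebraMap A B)), f0.symm c • x = c • x := by
    intro c x
    obtain ⟨k, rfl⟩ := f0.surjective c
    rw [f0.symm_apply_apply, hf0]
    obtain ⟨y, rfl⟩ := Ideal.Quotient.mk_surjective x
    have h1 : algebraMap K (A ⧸ IsLocalRing.maximalIdeal A) k =
        Ideal.Quotient.mk _ (algebraMap K A k) := rfl
    rw [h1, Ideal.Quotient.mk_smul_mk_quotient_map_quotient, Algebra.smul_def,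
      ← IsScalarTower.algebraMap_apply K A B, map_mul]
    rfl
  refine ⟨f0.symm, (IsLocalRing.basisQuotient (Module.Free.chooseBasis A B)).mapCoeffs
    f0.symm hsm, fun c => f0.apply_symm_apply c, fun i => ?_, fun x i => ?_⟩
  · rw [Module.Basis.mapCoeffs_apply, IsLocalRing.basisQuotient_apply]
  · rw [← IsLocalRing.basisQuotient_repr]
    simp [Module.Basis.mapCoeffs]
    rfl

/-- (L5b) The special fibre is finite-dimensional over `K`. -/
theorem hinvc_finite_quot {K A B : Type} [Field K] [CommRing A] [IsLocalRing A] [Algebra K A]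
    (hK : ∀ a : A, ∃ k : K, a - algebraMap K A k ∈ IsLocalRing.maximalIdeal A)
    [CommRing B] [Algebra A B] [Algebra K B] [IsScalarTower K A B]
    [Module.Free A B] [Module.Finite A B] :
    Module.Finite K (B ⧸ (IsLocalRing.maximalIdeal A).map (algebraMap A B)) := by
  obtain ⟨f, bK, -, -, -⟩ := hinvc_exists_basis (K := K) (A := A) (B := B) hK
  exact Module.Finite.of_basis bK

/-- (L5c) The norm of `b` modulo the maximal ideal is the determinant of multiplication by `b`
on the special fibre. -/
theorem hinvc_norm_quot {K A B : Type} [Field K] [CommRing A] [IsLocalRing A] [Algebra K A]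
    (hK : ∀ a : A, ∃ k : K, a - algebraMap K A k ∈ IsLocalRing.maximalIdeal A)
    [CommRing B] [Algebra A B] [Algebra K B] [IsScalarTower K A B]
    [Module.Free A B] [Module.Finite A B] (b : B) :
    Ideal.Quotient.mk (IsLocalRing.maximalIdeal A) (Algebra.norm A b) =
      algebraMap K (A ⧸ IsLocalRing.maximalIdeal A)
        (LinearMap.det (LinearMap.mulLeft K
          (Ideal.Quotient.mk ((IsLocalRing.maximalIdeal A).map (algebraMap A B)) b))) := by
  classical
  obtain ⟨f, bK, hf, hbK, hrepr⟩ := hinvc_exists_basis (K := K) (A := A) (B := B) hK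
  have hmat : LinearMap.toMatrix bK bK (LinearMap.mulLeft K
      (Ideal.Quotient.mk ((IsLocalRing.maximalIdeal A).map (algebraMap A B)) b)) =
      ((f : (A ⧸ IsLocalRing.maximalIdeal A) →+* K).comp
        (Ideal.Quotient.mk (IsLocalRing.maximalIdeal A))).mapMatrix
        (Algebra.leftMulMatrix (Module.Free.chooseBasis A B) b) := by
    ext i j
    rw [LinearMap.toMatrix_apply, hbK, LinearMap.mulLeft_apply, ← map_mul, hrepr,
      RingHom.mapMatrix_apply, Matrix.map_apply, Algebra.leftMulMatrix_eq_repr_mul]
    rfl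
  rw [← LinearMap.det_toMatrix bK, hmat, ← RingHom.map_det,
    ← Algebra.norm_eq_matrix_det (Module.Free.chooseBasis A B) b]
  exact (hf _).symm

/-- (L6) Residue fields of the primes of `B` above the maximal ideal of `A` are `K`. -/
theorem hinvc_residue {K A B : Type} [Field K] [IsAlgClosed K] [CommRing A] [IsLocalRing A]
    [Algebra K A]
    (hK : ∀ a : A, ∃ k : K, a - algebraMap K A k ∈ IsLocalRing.maximalIdeal A)
    [CommRing B] [Algebra A B] [Algebra K B] [IsScalarTower K A B]
    [Module.Free A B] [Module.Finite A B]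
    (P : Ideal B) [hP : P.IsPrime] (hle : (IsLocalRing.maximalIdeal A).map (algebraMap A B) ≤ P)
    (x : B) : ∃ k : K, x - algebraMap K B k ∈ P := by
  have hfin := hinvc_finite_quot (K := K) (A := A) (B := B) hK
  have hfinP : Module.Finite K (B ⧸ P) :=
    Module.Finite.of_surjective (Ideal.Quotient.factorₐ K hle).toLinearMap
      (Ideal.Quotient.factor_surjective hle)
  have hint : Algebra.IsIntegral K (B ⧸ P) := Algebra.IsIntegral.of_finite K (B ⧸ P)
  have hdom : IsDomain (B ⧸ P) := Ideal.Quotient.isDomain P
  obtain ⟨k, hk⟩ := (IsAlgClosed.algebraMap_bijective_of_isIntegral (k := K) (K := B ⧸ P)).2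
    (Ideal.Quotient.mk P x)
  refine ⟨k, ?_⟩
  rw [← Ideal.Quotient.eq]
  exact hk.symm

/-- (CL) The core lemma: let `A` be a local `K`-algebra with residue field `K` (algebraically
closed), `B` a Dedekind domain, finite free over `A`, whose special fibre ideal `m B` factors as
`∏ P i ^ e i` with distinct nonzero primes `P i`, and let `b : B` be congruent to the constant
`d i` modulo `P i`.  Then the norm of `b` is congruent to `∏ d i ^ e i` modulo `m`. -/
theorem hinvc_core {K A B ι : Type} [Field K] [IsAlgClosed K] [CommRing A] [IsLocalRing A]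
    [Algebra K A]
    (hK : ∀ a : A, ∃ k : K, a - algebraMap K A k ∈ IsLocalRing.maximalIdeal A)
    [CommRing B] [IsDedekindDomain B] [Algebra A B] [Algebra K B] [IsScalarTower K A B]
    [Module.Free A B] [Module.Finite A B]
    (P : ι → Ideal B) (e : ι → ℕ) (d : ι → K) (b : B) (s : Finset ι)
    (hprime : ∀ i ∈ s, (P i).IsPrime) (hne : ∀ i ∈ s, P i ≠ ⊥)
    (hinj : ∀ i ∈ s, ∀ j ∈ s, i ≠ j → P i ≠ P j)
    (hle : ∀ i ∈ s, (IsLocalRing.maximalIdeal A).map (algebraMap A B) ≤ P i)
    (hprod : ∏ i ∈ s, P i ^ e i = (IsLocalRing.maximalIdeal A).map (algebraMap A B))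
    (hbd : ∀ i ∈ s, b - algebraMap K B (d i) ∈ P i) :
    Algebra.norm A b - algebraMap K A (∏ i ∈ s, d i ^ e i) ∈ IsLocalRing.maximalIdeal A := by
  have hres : ∀ i ∈ s, ∀ x : B, ∃ k : K, x - algebraMap K B k ∈ P i := fun i hi x =>
    have := hprime i hi
    hinvc_residue hK (P i) (hle i hi) x
  obtain ⟨-, hdet⟩ := hinvc_det_quot_prod P e d b s hprime hne hinj hres hbd _ hprod.symm
  have h1 := hinvc_norm_quot (K := K) hK b
  rw [hdet] at h1
  rw [← Ideal.Quotient.eq]
  exact h1

/-! ### Part 2: the local dictionary at a place -/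

section hinvc_dict

variable {K F F' B : Type} [Field K] [Field F] [Field F'] [Algebra K F] [Algebra K F']
  [Algebra F F'] [IsScalarTower K F F'] [Algebra.IsIntegral F F']
  (v : Place K F) [CommRing B] [IsDedekindDomain B] [Algebra v.toValuationSubring B]
  [Algebra B F'] [IsScalarTower v.toValuationSubring B F'] [Algebra K B] [IsScalarTower K B F']
  [IsFractionRing B F']

omit [Algebra K F'] [IsScalarTower K F F'] [Algebra.IsIntegral F F'] [IsDedekindDomain B]
  [Algebra K B] [IsScalarTower K B F'] [IsFractionRing B F'] in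
theorem hinvc_algebraMap_comp (a : v.toValuationSubring) :
    algebraMap B F' (algebraMap v.toValuationSubring B a) = algebraMap F F' (a : F) := by
  rw [← IsScalarTower.algebraMap_apply v.toValuationSubring B F']
  rfl

omit [IsDedekindDomain B] [Algebra K B] [IsScalarTower K B F'] [IsFractionRing B F'] in
theorem hinvc_ord_nonneg [Algebra.IsIntegral v.toValuationSubring B] {w : Place K F'}
    (hw : w.restrict F = v) (x : B) : 0 ≤ w.ord (algebraMap B F' x) := by
  refine Fermat.Agent.S24.Dict.ord_nonneg_of_isIntegral w (A := v.toValuationSubring) ?_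
    ((Algebra.IsIntegral.isIntegral (R := v.toValuationSubring) x).algebraMap)
  intro a
  have h1 : algebraMap v.toValuationSubring F' a = algebraMap F F' (a : F) := rfl
  rw [h1, Place.ord_restrict, hw]
  exact mul_nonneg (Int.natCast_nonneg _) (Fermat.Agent.S24.Dict.ord_nonneg_of_mem v a.2)

omit [IsDedekindDomain B] [Algebra K B] [IsScalarTower K B F'] [IsFractionRing B F'] in
theorem hinvc_ord_uniformizer {π : v.toValuationSubring} (hπ : Irreducible π) {w : Place K F'}
    (hw : w.restrict F = v) :
    w.ord (algebraMap B F' (algebraMap v.toValuationSubring B π)) = (w.ramificationIndex F : ℤ) := by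
  rw [hinvc_algebraMap_comp, Place.ord_restrict, hw, v.ord_coe_irreducible hπ, mul_one]

omit [Algebra K F'] [IsScalarTower K F F'] [Algebra.IsIntegral F F'] [IsDedekindDomain B]
  [Algebra K B] [IsScalarTower K B F'] [IsFractionRing B F'] in
theorem hinvc_uniformizer_ne_zero {π : v.toValuationSubring} (hπ : Irreducible π) :
    algebraMap B F' (algebraMap v.toValuationSubring B π) ≠ 0 := by
  rw [hinvc_algebraMap_comp]
  refine (map_ne_zero (algebraMap F F')).mpr fun h2 => ?_
  exact hπ.ne_zero (Subtype.ext h2)

/-- A place of `F'` over `v` is the place of a (unique) nonzero prime of `B`. -/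
theorem hinvc_exists_prime [Algebra.IsIntegral v.toValuationSubring B] {w : Place K F'}
    (hw : w.restrict F = v) :
    ∃ Q : HeightOneSpectrum B, w = Place.ofHeightOneSpectrum (K := K) (F := F') Q ∧
      ∀ x : B, x ≠ 0 → (x ∈ Q.asIdeal ↔ 0 < w.ord (algebraMap B F' x)) := by
  obtain ⟨π, hπ⟩ := IsDiscreteValuationRing.exists_irreducible v.toValuationSubring
  refine Fermat.Agent.S24.Dict.exists_eq_ofHeightOneSpectrum w (hinvc_ord_nonneg v hw)
    ⟨algebraMap v.toValuationSubring B π,
      fun h0 => hinvc_uniformizer_ne_zero (F' := F') v hπ (by rw [h0, map_zero]), ?_⟩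
  rw [hinvc_ord_uniformizer v hπ hw]
  exact_mod_cast w.ramificationIndex_pos (F := F)

/-- The place of a nonzero prime of `B` lies over `v`. -/
theorem hinvc_restrict_ofHeightOneSpectrum (Q : HeightOneSpectrum B) :
    (Place.ofHeightOneSpectrum (K := K) (F := F') Q).restrict F = v := by
  symm
  apply Fermat.Agent.S24.Dict.ext_of_le
  intro f hf
  rw [Place.restrict_toValuationSubring, ValuationSubring.mem_comap]
  have h1 := Q.valuation_le_one (K := F') (algebraMap v.toValuationSubring B ⟨f, hf⟩)
  have h2 := hinvc_algebraMap_comp (F' := F') (B := B) v ⟨f, hf⟩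
  rw [← h2]
  exact h1

/-- An element of `F'` which is integral at all places over `v` lies in `B`. -/
theorem hinvc_mem_range [HasPrincipalDivisors K F'] (b : F')
    (hb : ∀ w ∈ v.fiber F', b ∈ w.toValuationSubring) : ∃ b' : B, algebraMap B F' b' = b := by
  have h := HeightOneSpectrum.mem_integers_of_valuation_le_one (R := B) F' b (fun Q =>
    hb _ (Place.mem_fiber.mpr (hinvc_restrict_ofHeightOneSpectrum v Q)))
  exact RingHom.mem_range.mp h

/-- The local dictionary at `v`, combined with the core lemma: the norm of `b` over the valuation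
ring of `v` is congruent to `∏ d w ^ e w` modulo the maximal ideal. -/
theorem hinvc_dict_main [IsAlgClosed K] [HasPrincipalDivisors K F']
    [IsScalarTower K v.toValuationSubring B]
    [Module.Free v.toValuationSubring B] [Module.Finite v.toValuationSubring B]
    (hK : ∀ a : v.toValuationSubring, ∃ k : K,
      a - algebraMap K v.toValuationSubring k ∈ IsLocalRing.maximalIdeal v.toValuationSubring)
    (b : F') (d : Place K F' → K) (hval : ∀ w ∈ v.fiber F', hi_IsValue w b (d w)) :
    ∃ b' : B, algebraMap B F' b' = b ∧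
      Algebra.norm v.toValuationSubring b' -
          algebraMap K v.toValuationSubring
            (∏ w ∈ v.fiber F', d w ^ (w.ramificationIndex F)) ∈
        IsLocalRing.maximalIdeal v.toValuationSubring := by
  classical
  have hint : Algebra.IsIntegral v.toValuationSubring B := inferInstance
  obtain ⟨π, hπ⟩ := IsDiscreteValuationRing.exists_irreducible v.toValuationSubring
  have hbmem : ∀ w ∈ v.fiber F', b ∈ w.toValuationSubring := by
    intro w hw
    have h1 : 0 ≤ w.ord (b - algebraMap K F' (d w)) := by
      rcases hval w hw with h | h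
      · rw [h, Place.ord_zero]
      · exact h.le
    have h2 := Fermat.Agent.S24.Dict.mem_of_ord_nonneg w h1
    have h3 := add_mem h2 (w.algebraMap_mem' (d w))
    rwa [sub_add_cancel] at h3
  obtain ⟨b', hb'⟩ := hinvc_mem_range (B := B) v b hbmem
  refine ⟨b', hb', ?_⟩
  choose Q hQ1 hQ2 using fun (w : Place K F') (hw : w ∈ v.fiber F') =>
    hinvc_exists_prime (B := B) v (Place.mem_fiber.mp hw)
  have hx0 : algebraMap v.toValuationSubring B π ≠ 0 := fun h0 =>
    hinvc_uniformizer_ne_zero (F' := F') v hπ (by rw [h0, map_zero])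
  have hmap : (IsLocalRing.maximalIdeal v.toValuationSubring).map
      (algebraMap v.toValuationSubring B) = Ideal.span {algebraMap v.toValuationSubring B π} := by
    rw [hπ.maximalIdeal_eq, Ideal.map_span, Set.image_singleton]
  have hmemQ : ∀ w (hw : w ∈ v.fiber F'),
      algebraMap v.toValuationSubring B π ∈ (Q w hw).asIdeal := by
    intro w hw
    rw [hQ2 w hw _ hx0, hinvc_ord_uniformizer v hπ (Place.mem_fiber.mp hw)]
    exact_mod_cast w.ramificationIndex_pos (F := F)
  have hQinj : ∀ w (hw : w ∈ v.fiber F') w' (hw' : w' ∈ v.fiber F'),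
      Q w hw = Q w' hw' → w = w' := by
    intro w hw w' hw' h
    rw [hQ1 w hw, hQ1 w' hw', h]
  have hQsurj : ∀ Q' : HeightOneSpectrum B, ∃ w, ∃ hw : w ∈ v.fiber F', Q w hw = Q' := by
    intro Q'
    have hw : Place.ofHeightOneSpectrum (K := K) (F := F') Q' ∈ v.fiber F' :=
      Place.mem_fiber.mpr (hinvc_restrict_ofHeightOneSpectrum v Q')
    exact ⟨_, hw, Fermat.Agent.S24.Dict.ofHeightOneSpectrum_injective (K := K) (F := F')
      (hQ1 _ hw).symm⟩
  have hprod : ∏ w ∈ (v.fiber F').attach, (Q w.1 w.2).asIdeal ^ (w.1.ramificationIndex F) =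
      (IsLocalRing.maximalIdeal v.toValuationSubring).map (algebraMap v.toValuationSubring B) := by
    rw [hmap]
    have hI : Ideal.span {algebraMap v.toValuationSubring B π} ≠ (⊥ : Ideal B) := by
      rw [ne_eq, Ideal.span_singleton_eq_bot]
      exact hx0
    have hfac := Ideal.finprod_heightOneSpectrum_pow_multiplicity hI
    have hmult : ∀ w (hw : w ∈ v.fiber F'), multiplicity (Q w hw).asIdeal
        (Ideal.span {algebraMap v.toValuationSubring B π}) = w.ramificationIndex F := by
      intro w hw
      have h1 := Fermat.Agent.S24.Dict.ord_ofHeightOneSpectrum_algebraMap (K := K) (F := F')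
        (Q w hw) hx0
      rw [← hQ1 w hw, hinvc_ord_uniformizer v hπ (Place.mem_fiber.mp hw)] at h1
      exact_mod_cast h1.symm
    rw [finprod_eq_finsetProd_of_mulSupport_subset
      (s := (v.fiber F').attach.image (fun w => Q w.1 w.2))] at hfac
    · rw [Finset.prod_image] at hfac
      · rw [← hfac]
        refine Finset.prod_congr rfl fun w _ => ?_
        rw [hmult w.1 w.2]
      · intro w _ w' _ h
        exact Subtype.ext (hQinj _ _ _ _ h)
    · intro Q' _
      obtain ⟨w, hw, rfl⟩ := hQsurj Q'
      exact Finset.mem_coe.mpr (Finset.mem_image.mpr ⟨⟨w, hw⟩, Finset.mem_attach _ _, rfl⟩)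
  have hbd : ∀ w ∈ (v.fiber F').attach, b' - algebraMap K B (d w.1) ∈ (Q w.1 w.2).asIdeal := by
    intro w _
    by_cases hx : b' - algebraMap K B (d w.1) = 0
    · rw [hx]
      exact Ideal.zero_mem _
    · rw [hQ2 w.1 w.2 _ hx]
      have h1 : algebraMap B F' (b' - algebraMap K B (d w.1)) = b - algebraMap K F' (d w.1) := by
        rw [map_sub, hb', ← IsScalarTower.algebraMap_apply K B F']
      rw [h1]
      rcases hval w.1 w.2 with h | h
      · exfalso
        apply hx
        apply IsFractionRing.injective B F'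
        rw [h1, h, map_zero]
      · exact h
  have key := hinvc_core (K := K) (A := v.toValuationSubring) (B := B) hK
    (fun w : {w // w ∈ v.fiber F'} => (Q w.1 w.2).asIdeal)
    (fun w => w.1.ramificationIndex F) (fun w => d w.1) b' (v.fiber F').attach
    (fun w _ => (Q w.1 w.2).isPrime) (fun w _ => (Q w.1 w.2).ne_bot)
    (fun w _ w' _ hne h => hne (Subtype.ext (hQinj _ _ _ _ (HeightOneSpectrum.ext h))))
    (fun w _ => by
      rw [hmap, Ideal.span_singleton_le_iff_mem]
      exact hmemQ w.1 w.2)
    hprod hbd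
  rw [Finset.prod_attach (v.fiber F') (fun w => d w ^ (w.ramificationIndex F))] at key
  exact key

end hinvc_dict

/-- The norm form of the values lemma, with `F'` an `F`-algebra. -/
theorem hinvc_aux {K F F' : Type} [Field K] [Field F] [Field F'] [Algebra K F] [Algebra K F']
    [IsAlgClosed K] [CharZero K] [Algebra F F'] [IsScalarTower K F F'] [Algebra.IsIntegral F F']
    [Module.Finite F F'] [HasPrincipalDivisors K F'] (t : F) (ht : Transcendental K t)
    (hfinF : FiniteDimensional K⟮t⟯ F) (v : Place K F) (b : F') (d : Place K F' → K)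
    (hval : ∀ w ∈ v.fiber F', hi_IsValue w b (d w)) :
    hi_IsValue v (Algebra.norm F b) (∏ w ∈ v.fiber F', d w ^ (w.ramificationIndex F)) := by
  have hchar : CharZero F := charZero_of_injective_algebraMap (algebraMap K F).injective
  have hsep : Algebra.IsSeparable F F' := inferInstance
  have : IsDedekindDomain (integralClosure v.toValuationSubring F') :=
    IsIntegralClosure.isDedekindDomain v.toValuationSubring F F' _
  have : IsFractionRing (integralClosure v.toValuationSubring F') F' :=
    integralClosure.isFractionRing_of_finite_extension F F'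
  have : Module.Finite v.toValuationSubring (integralClosure v.toValuationSubring F') :=
    IsIntegralClosure.finite v.toValuationSubring F F' _
  have : Module.Free v.toValuationSubring (integralClosure v.toValuationSubring F') :=
    Module.free_of_finite_type_torsion_free'
  let : Algebra K (integralClosure v.toValuationSubring F') :=
    ((algebraMap v.toValuationSubring (integralClosure v.toValuationSubring F')).comp
      (algebraMap K v.toValuationSubring)).toAlgebra
  have : IsScalarTower K v.toValuationSubring (integralClosure v.toValuationSubring F') :=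
    IsScalarTower.of_algebraMap_eq (fun _ => rfl)
  have : IsScalarTower K (integralClosure v.toValuationSubring F') F' :=
    IsScalarTower.of_algebraMap_eq (fun k => by
      rw [IsScalarTower.algebraMap_apply K F F']
      rfl)
  have hK : ∀ a : v.toValuationSubring, ∃ k : K,
      a - algebraMap K v.toValuationSubring k ∈
        IsLocalRing.maximalIdeal v.toValuationSubring := by
    intro a
    obtain ⟨c, hc⟩ := Fermat.Agent.S24.Places.exists_residue_eq v ht hfinF a
    refine ⟨c, ?_⟩
    rw [← IsLocalRing.residue_eq_zero_iff, map_sub, ← hc]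
    exact sub_self _
  obtain ⟨b', hb', hmem⟩ :=
    hinvc_dict_main (B := integralClosure v.toValuationSubring F') v hK b d hval
  have : IsLocalization (Algebra.algebraMapSubmonoid (integralClosure v.toValuationSubring F')
      (nonZeroDivisors v.toValuationSubring)) F' :=
    IsIntegralClosure.isLocalization v.toValuationSubring F F' _
  have hnorm : Algebra.norm F b =
      algebraMap v.toValuationSubring F (Algebra.norm v.toValuationSubring b') := by
    rw [← hb']
    exact Algebra.norm_localization v.toValuationSubring (nonZeroDivisors v.toValuationSubring) b'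
  unfold hi_IsValue
  have hx : Algebra.norm F b - algebraMap K F (∏ w ∈ v.fiber F', d w ^ (w.ramificationIndex F)) =
      ((Algebra.norm v.toValuationSubring b' - algebraMap K v.toValuationSubring
        (∏ w ∈ v.fiber F', d w ^ (w.ramificationIndex F)) : v.toValuationSubring) : F) := by
    rw [hnorm]
    rfl
  rw [hx]
  by_cases h0 : Algebra.norm v.toValuationSubring b' - algebraMap K v.toValuationSubring
      (∏ w ∈ v.fiber F', d w ^ (w.ramificationIndex F)) = 0
  · left
    rw [h0]
    rfl
  · right
    exact (Fermat.Agent.S24.Dict.ord_pos_iff_mem_maximalIdeal v _).mpr ⟨h0, hmem⟩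

/-- (HI-NormValue) The norm form of the values lemma. -/
theorem hinvc_main : hi_NormValueStatement := by
  intro K F F' _ _ _ _ _ _ _ _ t ht hfinF φ hφ hfin v b d hval
  let := algebraAlong φ
  have := isScalarTower_along φ
  have := isIntegral_along φ hφ
  have : Module.Finite F F' := hfin
  exact hinvc_aux t ht hfinF v b d hval

end Fermat.Agent.S37
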