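/-
S37, block HI, package HIVal: the values lemma from its norm form.

`hival_main : hi_NormValueStatement → hi_ValuesStatement`.

Let `h : F'` have the value `c w` at every place `w` of `F'` above the place `v` of `F`, let
`χ` be the characteristic polynomial of `h` over `F` and `p = ∏_{w ∣ v} (X - c w) ^ e(w ∣ v)`.
For every constant `a : K` the norm of `a - h` is `χ(a)`, and `a - h` has the value `a - c w` at
every `w ∣ v`; by the norm form of the values lemma, `χ(a)` has the value `p(a)` at `v`.  The
elements `x` of `F` with `x = 0` or `0 < ord_v x` form a `K`-subspace `M` of `F`, so the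
polynomial `g = χ - p` (with `p` mapped to `F[X]`) takes values in `M` at all constants.  By
Lagrange interpolation at the nodes `0, 1, …, deg g` (which lie in `K`, so that the Lagrange basis
polynomials have coefficients in `K`), every coefficient of `g` is a `K`-linear combination of the
values `g(k)`, hence lies in `M`.
-/
import Fermat.Agent.S37.HIInterfaces2
import Fermat.Agent.S24.Dict

set_option autoImplicit false

open AlgebraicCurve Polynomial

namespace Fermat.Agent.S37

noncomputable section

/-- The set `{x | x = 0 ∨ 0 < ord_v x}` (the maximal ideal of the valuation ring of `v`), as a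
`K`-subspace of `F`. -/
def hival_maxSub {K F : Type} [Field K] [Field F] [Algebra K F] (v : Place K F) :
    Submodule K F where
  carrier := {x | x = 0 ∨ 0 < v.ord x}
  add_mem' := by
    intro x y hx hy
    by_cases hxy : x + y = 0
    · exact Or.inl hxy
    rcases hx with rfl | hx
    · rw [zero_add]
      exact hy
    rcases hy with rfl | hy
    · rw [add_zero]
      exact Or.inr hx
    have hx0 : x ≠ 0 := by
      rintro rfl
      simp at hx
    have hy0 : y ≠ 0 := by
      rintro rfl
      simp at hy
    exact Or.inr (lt_of_lt_of_le (lt_min hx hy)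
      (Fermat.Agent.S24.Dict.ord_add_ge v hx0 hy0 hxy))
  zero_mem' := Or.inl rfl
  smul_mem' := by
    intro a x hx
    rcases hx with rfl | hx
    · exact Or.inl (smul_zero a)
    by_cases ha : a = 0
    · exact Or.inl (by rw [ha, zero_smul])
    have hx0 : x ≠ 0 := by
      rintro rfl
      simp at hx
    refine Or.inr ?_
    rw [Algebra.smul_def, v.ord_mul ((_root_.map_ne_zero _).mpr ha) hx0,
      Fermat.Agent.S24.Dict.ord_algebraMap, zero_add]
    exact hx

/-- `c` is the value of `x` at `v` iff `x - c` lies in the subspace `hival_maxSub v`. -/
theorem hival_isValue_iff {K F : Type} [Field K] [Field F] [Algebra K F] (v : Place K F)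
    (x : F) (c : K) : hi_IsValue v x c ↔ x - algebraMap K F c ∈ hival_maxSub v :=
  Iff.rfl

/-- The linear factors of the Lagrange basis polynomials for nodes in `K` have coefficients
in `K`. -/
theorem hival_basisDivisor_map {K F : Type} [Field K] [Field F] [Algebra K F] (x y : K) :
    Lagrange.basisDivisor (algebraMap K F x) (algebraMap K F y) =
      (Lagrange.basisDivisor x y).map (algebraMap K F) := by
  have e : algebraMap K F ((x - y)⁻¹) = (algebraMap K F x - algebraMap K F y)⁻¹ := by
    rw [map_inv₀, map_sub]
  unfold Lagrange.basisDivisor
  rw [Polynomial.map_mul, Polynomial.map_sub, Polynomial.map_C, Polynomial.map_C,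
    Polynomial.map_X, e]

/-- The Lagrange basis polynomials for nodes in `K` have coefficients in `K`. -/
theorem hival_basis_map {K F : Type} [Field K] [Field F] [Algebra K F] (s : Finset ℕ)
    (a : ℕ → K) (k : ℕ) :
    Lagrange.basis s (fun j => algebraMap K F (a j)) k =
      (Lagrange.basis s a k).map (algebraMap K F) := by
  unfold Lagrange.basis
  rw [Polynomial.map_prod]
  exact Finset.prod_congr rfl (fun j _ => hival_basisDivisor_map (a k) (a j))

/-- If a polynomial `g` over `F` takes values in a `K`-subspace `M` of `F` at all constants,
then all coefficients of `g` lie in `M`. -/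
theorem hival_coeff_mem {K F : Type} [Field K] [Field F] [Algebra K F] [CharZero K]
    (M : Submodule K F) (g : F[X]) (hg : ∀ a : K, g.eval (algebraMap K F a) ∈ M) (i : ℕ) :
    g.coeff i ∈ M := by
  classical
  have hinj : Set.InjOn (fun k : ℕ => algebraMap K F (k : K))
      (Finset.range (g.natDegree + 1) : Set ℕ) := by
    intro k _ l _ hkl
    have h1 : ((k : ℕ) : K) = (l : K) := (algebraMap K F).injective hkl
    exact Nat.cast_injective h1
  have hdeg : g.degree < ((Finset.range (g.natDegree + 1)).card : WithBot ℕ) := by
    rw [Finset.card_range]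
    exact lt_of_le_of_lt Polynomial.degree_le_natDegree
      (by exact_mod_cast Nat.lt_succ_self _)
  have hint := Lagrange.eq_interpolate hinj hdeg
  have hcoeff : g.coeff i = ∑ k ∈ Finset.range (g.natDegree + 1),
      g.eval (algebraMap K F (k : K)) *
        (Lagrange.basis (Finset.range (g.natDegree + 1))
          (fun k : ℕ => algebraMap K F (k : K)) k).coeff i := by
    conv_lhs => rw [hint, Lagrange.interpolate_apply]
    rw [Polynomial.finsetSum_coeff]
    refine Finset.sum_congr rfl (fun k _ => ?_)
    rw [Polynomial.coeff_C_mul]
  rw [hcoeff]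
  refine Submodule.sum_mem _ (fun k _ => ?_)
  rw [hival_basis_map (Finset.range (g.natDegree + 1)) (fun k : ℕ => (k : K)) k,
    Polynomial.coeff_map, mul_comm, ← Algebra.smul_def]
  exact M.smul_mem _ (hg (k : K))

/-- For a finite extension `S` of a field `R`: the norm of `x - h` (with `x : R`) is the value
at `x` of the characteristic polynomial of `h`. -/
theorem hival_norm_eq_eval_aux {R S : Type} [Field R] [Field S] [Algebra R S]
    [Module.Finite R S] (h : S) (x : R) :
    Algebra.norm R (algebraMap R S x - h) = (LinearMap.mulLeft R h).charpoly.eval x := by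
  rw [LinearMap.eval_charpoly, Algebra.norm_apply]
  congr 1
  ext y
  simp [Algebra.smul_def]

/-- The norm of `a - h` (for a constant `a`) is the value at `a` of the characteristic
polynomial of `h`. -/
theorem hival_norm_eq_eval {K F F' : Type} [Field K] [Field F] [Field F'] [Algebra K F]
    [Algebra K F'] (φ : F →ₐ[K] F') (hfin : FiniteAlong K φ) (h : F') (a : K) :
    hi_normAlong φ (algebraMap K F' a - h) =
      (hi_charpolyAlong φ hfin h).eval (algebraMap K F a) := by
  let _ : Algebra F F' := algebraAlong φ
  have _ : Module.Finite F F' := hfin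
  have e : algebraMap F F' (algebraMap K F a) = algebraMap K F' a := φ.commutes a
  have h1 := hival_norm_eq_eval_aux (R := F) (S := F') h (algebraMap K F a)
  rw [e] at h1
  exact h1

/-- WP `HIVal`: the values lemma follows from its norm form. -/
theorem hival_main : hi_NormValueStatement → hi_ValuesStatement := by
  intro hNV K F F' _ _ _ _ _ _ _ _ t ht hfd φ hφ hfin v h c hc i
  have key : ∀ a : K,
      ((hi_charpolyAlong φ hfin h) -
        (∏ w ∈ Place.fiberAlong φ hφ v,
          (X - C (c w)) ^ (w.ramificationIndexAlong φ)).map (algebraMap K F)).eval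
        (algebraMap K F a) ∈ hival_maxSub v := by
    intro a
    have h1 : ∀ w ∈ Place.fiberAlong φ hφ v,
        hi_IsValue w (algebraMap K F' a - h) (a - c w) := by
      intro w hw
      have h2 := hc w hw
      have e : algebraMap K F' a - h - algebraMap K F' (a - c w) =
          -(h - algebraMap K F' (c w)) := by
        rw [map_sub]
        ring
      unfold hi_IsValue at h2 ⊢
      rw [e]
      rcases h2 with h2 | h2
      · exact Or.inl (by rw [h2, neg_zero])
      · exact Or.inr (by rw [Fermat.Agent.S24.Dict.ord_neg]; exact h2)
    have h3 := hNV K F F' t ht hfd φ hφ hfin v (algebraMap K F' a - h) (fun w => a - c w) h1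
    rw [hival_norm_eq_eval φ hfin h a] at h3
    have e2 : (∏ w ∈ Place.fiberAlong φ hφ v, (a - c w) ^ (w.ramificationIndexAlong φ)) =
        (∏ w ∈ Place.fiberAlong φ hφ v,
          (X - C (c w)) ^ (w.ramificationIndexAlong φ)).eval a := by
      rw [Polynomial.eval_prod]
      refine Finset.prod_congr rfl (fun w _ => ?_)
      rw [Polynomial.eval_pow, Polynomial.eval_sub, Polynomial.eval_X, Polynomial.eval_C]
    rw [e2] at h3
    rw [Polynomial.eval_sub, Polynomial.eval_map, Polynomial.eval₂_at_apply]
    exact h3
  have h4 := hival_coeff_mem (hival_maxSub v) _ key i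
  rw [Polynomial.coeff_sub, Polynomial.coeff_map] at h4
  exact h4

end

end Fermat.Agent.S37
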