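/-
S37, block KR, package KRCharAsm (twin B): KR2 (the characteristic polynomial of `α(g)` along `β`)
from its pieces: the general embedding formula for characteristic polynomials (`kr_EmbCharpoly`),
the extra embedding `s_∞` (`kr_SInf`) and the degree `[F_{Nℓ} : β(F_N)] = ℓ + 1` (`kr_Finrank`).

The `ℓ + 1` embeddings of `F_{Nℓ}` into `Ω = ℚ̄((q))` over `F_N` (through `β` on the source and
through `g ↦ g(q^ℓ)` on the target) are `x ↦ x(ζ^b q)` for `b < ℓ`, and `s_∞`.
-/
import Fermat.Agent.S37.KRInterfaces2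
import Fermat.Agent.S28.Subst
import Fermat.Agent.S18.Interfaces

set_option autoImplicit false

open AlgebraicCurve ModularCurve IntermediateField Polynomial
open Fermat.Agent.S28 (scale evalL)

namespace Fermat.Agent.S37

noncomputable section

/-- The general embedding formula, phrased with ring homomorphisms: if `F'` has degree `n` along
`φ : F → F'` and `s i : F' →+* Ω` are `n` distinct ring homomorphisms with `s i ∘ φ = ι`, then
the characteristic polynomial of `h : F'` along `φ` becomes `∏ i, (X - s i h)` after applying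
`ι` to its coefficients. -/
theorem krcb_general (hEmb : kr_EmbCharpolyStatement)
    (K F F' Ω : Type) [Field K] [Field F] [Field F'] [Field Ω] [Algebra K F] [Algebra K F']
    (φ : F →ₐ[K] F') (hfin : FiniteAlong K φ) (ι : F →+* Ω) (n : ℕ)
    (s : Fin n → (F' →+* Ω)) (hs : ∀ i f, s i (φ f) = ι f) (hinj : Function.Injective s)
    (hrank : finrankAlong K φ = n) (h : F') :
    (hi_charpolyAlong φ hfin h).map ι = ∏ i, (X - C (s i h)) := by
  let _ := algebraAlong φ
  let _ : Algebra F Ω := ι.toAlgebra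
  have : Module.Finite F F' := hfin
  let σ : Fin n → (F' →ₐ[F] Ω) := fun i => { s i with commutes' := fun f => hs i f }
  have hσ : Function.Injective σ := by
    intro i j hij
    apply hinj
    have e : (σ i : F' →+* Ω) = (σ j : F' →+* Ω) := by rw [hij]
    exact e
  exact hEmb F F' Ω n σ hσ hrank h

/-- The embedding `x ↦ x(c q)` of `F_M` into `Ω`, as a ring homomorphism. -/
def krcb_sc (M : ℕ) (c : AlgebraicClosure ℚ) (hc : c ≠ 0) :
    ↥(modularFunctionFieldBar M) →+* LaurentSeries (AlgebraicClosure ℚ) :=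
  (Fermat.Agent.S28.subst_scaleHom c hc).comp
    (algebraMap ↥(modularFunctionFieldBar M) (LaurentSeries (AlgebraicClosure ℚ)))

theorem krcb_sc_apply (M : ℕ) (c : AlgebraicClosure ℚ) (hc : c ≠ 0)
    (x : ↥(modularFunctionFieldBar M)) :
    krcb_sc M c hc x = scale c (x : LaurentSeries (AlgebraicClosure ℚ)) := rfl

/-- `scale c j = scale c' j` forces `c = c'`. -/
theorem krcb_scale_j_inj (c c' : AlgebraicClosure ℚ) (hc : c ≠ 0) (hc' : c' ≠ 0)
    (h : scale c (jqModC (AlgebraicClosure ℚ)) = scale c' (jqModC (AlgebraicClosure ℚ))) :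
    c = c' := by
  have e : ∀ d : AlgebraicClosure ℚ,
      Fermat.Agent.S28.jsub (AlgebraicClosure ℚ) d 1 = scale d (jqModC (AlgebraicClosure ℚ)) :=
    fun d => by rw [Fermat.Agent.S28.jsub, qExpand_one_apply]
  exact (Fermat.Agent.S28.subst_jsub_eq_iff (AlgebraicClosure ℚ) c c' hc hc' 1 1
    (by rw [e, e, h])).2

/-- `j(q^a) = scale c j` forces `a = 1`. -/
theorem krcb_qExpand_j_ne (a : ℕ) [NeZero a] (c : AlgebraicClosure ℚ) (hc : c ≠ 0)
    (h : qExpand (AlgebraicClosure ℚ) a (jqModC (AlgebraicClosure ℚ))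
      = scale c (jqModC (AlgebraicClosure ℚ))) : a = 1 := by
  have e : Fermat.Agent.S28.jsub (AlgebraicClosure ℚ) c 1 = scale c (jqModC (AlgebraicClosure ℚ)) := by
    rw [Fermat.Agent.S28.jsub, qExpand_one_apply]
  exact (Fermat.Agent.S28.subst_jsub_eq_iff (AlgebraicClosure ℚ) 1 c one_ne_zero hc a 1
    (by rw [e, Fermat.Agent.S28.subst_jsub_one, h])).1

/-- (KR2) from its pieces. -/
theorem krcb_main : kr_EmbCharpolyStatement → kr_SInfStatement → kr_FinrankStatement →
    kr_CharpolyStatement := by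
  intro hEmb hSInf hFin N ℓ _ _ hℓ hN hfin ζ hζ g
  obtain ⟨sinf, hsβ, hsα⟩ := hSInf N ℓ hℓ hN
  have hζ0 : ∀ b : ℕ, ζ ^ b ≠ 0 := fun b => pow_ne_zero b (hζ.ne_zero (NeZero.ne ℓ))
  -- the `ℓ + 1` embeddings
  obtain ⟨s, hs⟩ : ∃ s : Fin (ℓ + 1) →
      (↥(modularFunctionFieldBar (N * ℓ)) →+* LaurentSeries (AlgebraicClosure ℚ)),
      s = Fin.cons sinf (fun b : Fin ℓ => krcb_sc (N * ℓ) (ζ ^ (b : ℕ)) (hζ0 b)) := ⟨_, rfl⟩
  have hs0 : s 0 = sinf := by rw [hs, Fin.cons_zero]
  have hsS : ∀ b : Fin ℓ, s b.succ = krcb_sc (N * ℓ) (ζ ^ (b : ℕ)) (hζ0 b) := fun b => by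
    rw [hs, Fin.cons_succ]
  -- they are compatible with `β` and `q ↦ q ^ ℓ`
  have hcompat : ∀ (i : Fin (ℓ + 1)) (f : ↥(modularFunctionFieldBar N)),
      s i (heckeBetaBar (AlgebraicClosure ℚ) N ℓ f) =
        ((qExpand (AlgebraicClosure ℚ) ℓ).comp
          (algebraMap ↥(modularFunctionFieldBar N) (LaurentSeries (AlgebraicClosure ℚ)))) f := by
    intro i f
    refine Fin.cases ?_ (fun b => ?_) i
    · rw [hs0, hsβ]
      rfl
    · rw [hsS, krcb_sc_apply, coe_heckeBetaBar, Fermat.Agent.S28.subst_scale_qExpand, ← pow_mul,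
        mul_comm, pow_mul, hζ.pow_eq_one, one_pow, Fermat.Agent.S28.subst_scale_one]
      rfl
  -- they are pairwise distinct: evaluate at `j`
  have hjα : Fermat.Agent.S18.jF (AlgebraicClosure ℚ) (N * ℓ) =
      heckeAlphaBar (AlgebraicClosure ℚ) N ℓ (Fermat.Agent.S18.jF (AlgebraicClosure ℚ) N) :=
    Subtype.ext (by rw [coe_heckeAlphaBar]; rfl)
  have hval0 : s 0 (Fermat.Agent.S18.jF (AlgebraicClosure ℚ) (N * ℓ)) =
      qExpand (AlgebraicClosure ℚ) (ℓ * ℓ) (jqModC (AlgebraicClosure ℚ)) := by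
    rw [hs0, hjα, hsα]
    rfl
  have hvalS : ∀ b : Fin ℓ, s b.succ (Fermat.Agent.S18.jF (AlgebraicClosure ℚ) (N * ℓ)) =
      scale (ζ ^ (b : ℕ)) (jqModC (AlgebraicClosure ℚ)) := fun b => by
    rw [hsS, krcb_sc_apply]
    rfl
  have hℓℓ : ℓ * ℓ ≠ 1 := by
    intro h1
    have h2 := hℓ.two_le
    nlinarith
  have hinj : Function.Injective s := by
    intro i i' hii
    have hj : s i (Fermat.Agent.S18.jF (AlgebraicClosure ℚ) (N * ℓ)) =
        s i' (Fermat.Agent.S18.jF (AlgebraicClosure ℚ) (N * ℓ)) := by rw [hii]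
    revert hj
    refine Fin.cases ?_ (fun b => ?_) i <;> refine Fin.cases ?_ (fun b' => ?_) i'
    · intro _
      rfl
    · intro hj
      rw [hval0, hvalS] at hj
      exact absurd (krcb_qExpand_j_ne (ℓ * ℓ) _ (hζ0 b') hj) hℓℓ
    · intro hj
      rw [hval0, hvalS] at hj
      exact absurd (krcb_qExpand_j_ne (ℓ * ℓ) _ (hζ0 b) hj.symm) hℓℓ
    · intro hj
      rw [hvalS, hvalS] at hj
      have h1 := krcb_scale_j_inj _ _ (hζ0 b) (hζ0 b') hj
      have h2 : (b : ℕ) = (b' : ℕ) := hζ.pow_inj b.2 b'.2 h1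
      rw [Fin.ext h2]
  -- conclusion
  rw [krcb_general hEmb (AlgebraicClosure ℚ) _ _ _ (heckeBetaBar (AlgebraicClosure ℚ) N ℓ) hfin
    ((qExpand (AlgebraicClosure ℚ) ℓ).comp
      (algebraMap ↥(modularFunctionFieldBar N) (LaurentSeries (AlgebraicClosure ℚ)))) (ℓ + 1) s
    hcompat hinj (hFin N ℓ hℓ hN) (heckeAlphaBar (AlgebraicClosure ℚ) N ℓ g),
    Fin.prod_univ_succ, hs0, hsα]
  congr 1
  rw [← Fin.prod_univ_eq_prod_range
    (fun b : ℕ => ((X - C (scale (ζ ^ b) (g : LaurentSeries (AlgebraicClosure ℚ)))) :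
      Polynomial (LaurentSeries (AlgebraicClosure ℚ)))) ℓ]
  refine Finset.prod_congr rfl (fun b _ => ?_)
  rw [hsS, krcb_sc_apply, coe_heckeAlphaBar]

end

end Fermat.Agent.S37
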