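/-
S37, block KR, work package `KREmb` (general field theory).

If the finite field extension `L / E` of degree `n` has `n` distinct `E`-embeddings `σ i` into a
field `Ω`, then the characteristic polynomial over `E` of the multiplication by any `h : L`
becomes `∏ i, (X - σ i h)` over `Ω`.

Proof: for an `E`-basis `b` of `L` the matrix `M = (σ i (b j))` is invertible by Dedekind's lemma on
the linear independence of characters, and it conjugates the matrix of the multiplication by `h`
(with entries mapped to `Ω`) to the diagonal matrix with entries `σ i h`.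
-/
import Fermat.Agent.S37.KRInterfaces2

set_option autoImplicit false

open Polynomial

namespace Fermat.Agent.S37

/-- Dedekind: the matrix `(σ i (b j))` attached to `n` distinct embeddings and a basis of length
`n` is invertible. -/
theorem kren_isUnit_embMatrix (E L Ω : Type) [Field E] [Field L] [Field Ω] [Algebra E L]
    [Algebra E Ω] (n : ℕ) (σ : Fin n → (L →ₐ[E] Ω)) (hσ : Function.Injective σ)
    (b : Module.Basis (Fin n) E L) :
    IsUnit (Matrix.of (fun i j => σ i (b j)) : Matrix (Fin n) (Fin n) Ω) := by
  classical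
  have hli : LinearIndependent Ω (fun i : Fin n => (σ i).toLinearMap) :=
    (linearIndependent_toLinearMap E L Ω).comp σ hσ
  rw [← Matrix.linearIndependent_rows_iff_isUnit, Fintype.linearIndependent_iff]
  intro c hc i
  have h0 : ∑ i, c i • (σ i).toLinearMap = 0 := by
    apply b.ext
    intro j
    have hj := congrFun hc j
    simpa [Matrix.row] using hj
  exact Fintype.linearIndependent_iff.mp hli c h0 i

/-- The matrix `(σ i (b j))` intertwines the matrix of the multiplication by `h` with the diagonal
matrix of the conjugates `σ i h`. -/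
theorem kren_intertwine (E L Ω : Type) [Field E] [Field L] [Field Ω] [Algebra E L]
    [Algebra E Ω] (n : ℕ) (σ : Fin n → (L →ₐ[E] Ω)) (b : Module.Basis (Fin n) E L) (h : L) :
    Matrix.diagonal (fun i => σ i h) * (Matrix.of (fun i j => σ i (b j)) :
        Matrix (Fin n) (Fin n) Ω) =
      (Matrix.of (fun i j => σ i (b j)) : Matrix (Fin n) (Fin n) Ω) *
        (Algebra.leftMulMatrix b h).map (algebraMap E Ω) := by
  classical
  ext i j
  rw [Matrix.diagonal_mul, Matrix.mul_apply]
  have h1 : h * b j = ∑ k, Algebra.leftMulMatrix b h k j • b k := by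
    have h3 : ∀ k, Algebra.leftMulMatrix b h k j = b.repr (h * b j) k :=
      fun k => Algebra.leftMulMatrix_eq_repr_mul b h k j
    simp only [h3]
    exact (b.sum_repr (h * b j)).symm
  have h2 := congrArg (σ i) h1
  rw [map_mul, map_sum] at h2
  simp only [Matrix.of_apply, Matrix.map_apply]
  rw [h2]
  refine Finset.sum_congr rfl (fun k _ => ?_)
  rw [Algebra.smul_def, map_mul, AlgHom.commutes, mul_comm]

/-- (KR-Emb) -/
theorem kren_main : kr_EmbCharpolyStatement := by
  intro E L Ω _ _ _ _ _ _ n σ hσ hn h
  classical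
  obtain ⟨b⟩ : Nonempty (Module.Basis (Fin n) E L) := ⟨Module.finBasisOfFinrankEq E L hn⟩
  obtain ⟨M, hM⟩ : ∃ M : Matrix (Fin n) (Fin n) Ω, M = Matrix.of (fun i j => σ i (b j)) :=
    ⟨_, rfl⟩
  obtain ⟨H, hH⟩ : ∃ H : Matrix (Fin n) (Fin n) E, H = Algebra.leftMulMatrix b h := ⟨_, rfl⟩
  obtain ⟨D, hD⟩ : ∃ D : Matrix (Fin n) (Fin n) Ω, D = Matrix.diagonal (fun i => σ i h) :=
    ⟨_, rfl⟩
  have hunit : IsUnit M := by
    rw [hM]
    exact kren_isUnit_embMatrix E L Ω n σ hσ b
  have hdet : IsUnit M.det := (Matrix.isUnit_iff_isUnit_det M).mp hunit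
  have hcomm : D * M = M * H.map (algebraMap E Ω) := by
    rw [hD, hM, hH]
    exact kren_intertwine E L Ω n σ b h
  obtain ⟨U, hU⟩ := hunit
  have hconj : D = U.val * H.map (algebraMap E Ω) * U.val⁻¹ := by
    rw [hU, ← hcomm, mul_assoc, Matrix.mul_nonsing_inv M hdet, mul_one]
  calc (LinearMap.mulLeft E h).charpoly.map (algebraMap E Ω)
      = (H.charpoly).map (algebraMap E Ω) := by
        rw [← LinearMap.charpoly_toMatrix (LinearMap.mulLeft E h) b, hH, Algebra.toMatrix_lmul_eq]
    _ = (H.map (algebraMap E Ω)).charpoly := (Matrix.charpoly_map H _).symm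
    _ = D.charpoly := by rw [hconj, Matrix.charpoly_units_conj]
    _ = ∏ i, (X - C (σ i h)) := by rw [hD]; exact Matrix.charpoly_diagonal _

end Fermat.Agent.S37
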