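/-
S37, block KR, package KRFinrank (KR1), twin B: for a prime `ℓ ∤ N` the field `F_{Nℓ}` has degree
`ℓ + 1` over `β(F_N)`.

Deliverable: `krfs_main : kr_PsiDegStatement → kr_PrimeDegStatement → kr_FinrankStatement`.

Sketch.  All fields are subfields of `Ω = ℚ̄((q))`; `j = j(q)`, `j' = j(q^ℓ)`.
`[F_{Nℓ} : ℚ̄(j)] = ψ(Nℓ) = ψ(N)(ℓ + 1)`, and `E = F_ℓ = ℚ̄(j', j)` has degree `ψ(ℓ) = ℓ + 1` over
`ℚ̄(j)` and degree `ℓ + 1` over `ℚ̄(j')`, so `[F_{Nℓ} : ℚ̄(j')] = [F_{Nℓ} : ℚ̄(j)] = ψ(N)(ℓ + 1)`.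
The tower `ℚ̄(j) ⊆ F_N → F_{Nℓ}` along `β` gives `ψ(N) · [F_{Nℓ} : β(F_N)] = [F_{Nℓ} : ℚ̄(j')]`.
-/
import Fermat.Agent.S37.KRInterfaces
import Fermat.Agent.S24.ModelLemmas
import Fermat.Agent.S28.TAStep

set_option autoImplicit false

open AlgebraicCurve ModularCurve IntermediateField

namespace Fermat.Agent.S37

/-! ## Abstract field theory -/

section Abstract

variable {K F F' : Type} [Field K] [Field F] [Field F'] [Algebra K F] [Algebra K F']

/-- Tower law along an embedding `β : F → F'`: for a subfield `A` of `F`,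
`[F : A] · [F' : β(F)] = [F' : β(A)]`. -/
theorem krfs_finrank_map (β : F →ₐ[K] F') (A : IntermediateField K F) :
    Module.finrank A F * finrankAlong K β = Module.finrank (A.map β) F' := by
  unfold finrankAlong
  let _ : Algebra F F' := algebraAlong β
  let _ : Algebra A F' := (β.toRingHom.comp (algebraMap A F)).toAlgebra
  have : IsScalarTower A F F' := IsScalarTower.of_algebraMap_eq fun _ => rfl
  rw [Module.finrank_mul_finrank A F F']
  refine Algebra.finrank_eq_of_equiv_equiv (IntermediateField.equivMap A β).toRingEquiv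
    (RingEquiv.refl F') ?_
  ext x
  rfl

variable {Ω : Type} [Field Ω] [Algebra K Ω]

/-- The degree inside a subfield `L ⊆ Ω` equals the relative degree in `Ω`. -/
theorem krfs_finrank_eq_relfinrank (L : IntermediateField K Ω) (A : IntermediateField K L) :
    Module.finrank A L = relfinrank (A.map L.val) L := by
  have h := relfinrank_map_map A (⊤ : IntermediateField K L) L.val
  rw [relfinrank_top_right] at h
  rw [← h]
  congr 1
  exact (AlgHom.fieldRange_eq_map L.val).symm.trans L.fieldRange_val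

/-- If `E` has the same degree over `A` and over `A'`, so has every `G ⊇ E`. -/
theorem krfs_relfinrank_swap {A A' E G : IntermediateField K Ω} (hA : A ≤ E) (hA' : A' ≤ E)
    (hEG : E ≤ G) (h : relfinrank A E = relfinrank A' E) :
    relfinrank A G = relfinrank A' G := by
  rw [← relfinrank_mul_relfinrank hA hEG, ← relfinrank_mul_relfinrank hA' hEG, h]

/-- `[K(y, x) : K(y)]` is the degree of the minimal polynomial of `x` over `K(y)`. -/
theorem krfs_relfinrank_adjoin_pair (x y : Ω) (hx : IsIntegral K⟮y⟯ x) :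
    relfinrank K⟮y⟯ K⟮y, x⟯ = (minpoly K⟮y⟯ x).natDegree := by
  have hle : K⟮y⟯ ≤ K⟮y, x⟯ := adjoin.mono K _ _ (by simp)
  rw [relfinrank_eq_finrank_of_le hle, ← IntermediateField.adjoin.finrank hx]
  have h : extendScalars hle = K⟮y⟯⟮x⟯ := by
    apply restrictScalars_injective K
    rw [extendScalars_restrictScalars, adjoin_simple_adjoin_simple]
  rw [h]

end Abstract

/-! ## The modular function fields -/

/-- `j(q^d)` with rational coefficients, read over `ℚ̄`, is `j(q^d)`. -/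
theorem krfs_coeffEmb_qExpand (d : ℕ) [NeZero d] :
    coeffEmb (AlgebraicClosure ℚ) (qExpand ℚ d jq) =
      qExpand (AlgebraicClosure ℚ) d (jqModC (AlgebraicClosure ℚ)) := by
  rw [coeffEmb, coeffMap_qExpand, ← jqModC_rat, coeffMap_jqModC]

/-- `j` with rational coefficients, read over `ℚ̄`, is `j`. -/
theorem krfs_coeffEmb_jq :
    coeffEmb (AlgebraicClosure ℚ) jq = jqModC (AlgebraicClosure ℚ) := by
  rw [coeffEmb, ← jqModC_rat, coeffMap_jqModC]

/-- `j(q^d) ∈ F_M` for `d ∣ M`. -/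
theorem krfs_qExpand_mem (M d : ℕ) [NeZero M] [NeZero d] (hd : d ∣ M) :
    qExpand (AlgebraicClosure ℚ) d (jqModC (AlgebraicClosure ℚ)) ∈ modularFunctionFieldBar M := by
  rw [← krfs_coeffEmb_qExpand]
  exact coeffEmb_mem_laurentBaseChange (AlgebraicClosure ℚ) (jqd_mem_full M hd)

/-- `j ∈ F_M`. -/
theorem krfs_j_mem (M : ℕ) [NeZero M] :
    jqModC (AlgebraicClosure ℚ) ∈ modularFunctionFieldBar M := by
  have h := krfs_qExpand_mem M 1 (one_dvd M)
  rwa [qExpand_one_apply] at h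

/-- For a prime `ℓ`, `F_ℓ = ℚ̄(j(q^ℓ), j)`. -/
theorem krfs_prime_field (ℓ : ℕ) [NeZero ℓ] (hℓ : ℓ.Prime) :
    modularFunctionFieldBar ℓ =
      (AlgebraicClosure ℚ)⟮qExpand (AlgebraicClosure ℚ) ℓ (jqModC (AlgebraicClosure ℚ)),
        jqModC (AlgebraicClosure ℚ)⟯ := by
  rw [Fermat.Agent.S24.ModelLemmas.modularFunctionFieldBar_eq_adjoin]
  congr 1
  ext x
  constructor
  · rintro ⟨d, hd, hdvd, rfl⟩
    rcases (Nat.dvd_prime hℓ).mp hdvd with rfl | rfl
    · right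
      rw [krfs_coeffEmb_qExpand, qExpand_one_apply]
      rfl
    · left
      exact krfs_coeffEmb_qExpand d
  · rintro (rfl | rfl)
    · exact ⟨ℓ, inferInstance, dvd_rfl, (krfs_coeffEmb_qExpand ℓ).symm⟩
    · refine ⟨1, inferInstance, one_dvd _, ?_⟩
      rw [krfs_coeffEmb_qExpand, qExpand_one_apply]

/-- `[F_M : ℚ̄(j)]`, computed inside `ℚ̄((q))`. -/
theorem krfs_relfinrank_j (M : ℕ) [NeZero M] :
    relfinrank (AlgebraicClosure ℚ)⟮jqModC (AlgebraicClosure ℚ)⟯ (modularFunctionFieldBar M) =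
      Module.finrank (AlgebraicClosure ℚ)⟮Fermat.Agent.S24.jBar M⟯
        ↥(modularFunctionFieldBar M) := by
  rw [krfs_finrank_eq_relfinrank, adjoin_map, Set.image_singleton]
  congr 3
  exact krfs_coeffEmb_jq.symm

/-- `ψ(ℓ) = ℓ + 1`. -/
theorem krfs_psi_prime {ℓ : ℕ} (hℓ : ℓ.Prime) : dedekindPsi ℓ = ℓ + 1 := by
  have h := Fermat.Agent.S28.ta_step_psi_prime_pow hℓ 0
  simpa using h

/-- `ψ(Nℓ) = ψ(N)(ℓ + 1)` for a prime `ℓ ∤ N`. -/
theorem krfs_psi_mul_prime {N ℓ : ℕ} (hℓ : ℓ.Prime) (hℓN : ¬ ℓ ∣ N) :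
    dedekindPsi (N * ℓ) = dedekindPsi N * (ℓ + 1) := by
  rw [Fermat.Agent.S28.ta_step_psi_mul ((Nat.Prime.coprime_iff_not_dvd hℓ).mpr hℓN).symm,
    krfs_psi_prime hℓ]

/-- (KR1) For a prime `ℓ ∤ N` the field `F_{Nℓ}` has degree `ℓ + 1` over `β(F_N)`. -/
theorem krfs_main : kr_PsiDegStatement → kr_PrimeDegStatement → kr_FinrankStatement := by
  intro hPsi hPrime N ℓ _ _ hℓ hℓN
  obtain ⟨-, hfdN, hN⟩ := hPsi N
  obtain ⟨-, -, hNℓ⟩ := hPsi (N * ℓ)
  obtain ⟨-, -, hℓ1⟩ := hPsi ℓ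
  have hdeg := hPrime ℓ hℓ
  -- `j` is integral over `ℚ̄(j')`
  have hint : IsIntegral
      (AlgebraicClosure ℚ)⟮qExpand (AlgebraicClosure ℚ) ℓ (jqModC (AlgebraicClosure ℚ))⟯
      (jqModC (AlgebraicClosure ℚ)) := by
    by_contra hni
    rw [minpoly.eq_zero hni] at hdeg
    simp at hdeg
  -- degrees inside `ℚ̄((q))`
  have h2 := (krfs_relfinrank_j (N * ℓ)).trans (hNℓ.trans (krfs_psi_mul_prime hℓ hℓN))
  have h3 := (krfs_relfinrank_j ℓ).trans (hℓ1.trans (krfs_psi_prime hℓ))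
  have h4 : relfinrank
      (AlgebraicClosure ℚ)⟮qExpand (AlgebraicClosure ℚ) ℓ (jqModC (AlgebraicClosure ℚ))⟯
      (modularFunctionFieldBar ℓ) = ℓ + 1 := by
    rw [krfs_prime_field ℓ hℓ, krfs_relfinrank_adjoin_pair _ _ hint, hdeg]
  have hle : modularFunctionFieldBar ℓ ≤ modularFunctionFieldBar (N * ℓ) := by
    rw [krfs_prime_field ℓ hℓ, adjoin_le_iff]
    rintro x (rfl | rfl)
    · exact krfs_qExpand_mem (N * ℓ) ℓ (dvd_mul_left ℓ N)
    · exact krfs_j_mem (N * ℓ)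
  have hj'le : (AlgebraicClosure ℚ)⟮qExpand (AlgebraicClosure ℚ) ℓ
      (jqModC (AlgebraicClosure ℚ))⟯ ≤ modularFunctionFieldBar ℓ := by
    rw [adjoin_simple_le_iff]
    exact krfs_qExpand_mem ℓ ℓ dvd_rfl
  have hjle : (AlgebraicClosure ℚ)⟮jqModC (AlgebraicClosure ℚ)⟯ ≤ modularFunctionFieldBar ℓ := by
    rw [adjoin_simple_le_iff]
    exact krfs_j_mem ℓ
  have h5 := krfs_relfinrank_swap hj'le hjle hle (h4.trans h3.symm)
  -- the tower along `β`
  have h1 := krfs_finrank_map (heckeBetaBar (AlgebraicClosure ℚ) N ℓ)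
    (AlgebraicClosure ℚ)⟮Fermat.Agent.S24.jBar N⟯
  rw [hN, krfs_finrank_eq_relfinrank, IntermediateField.map_map, adjoin_map,
    Set.image_singleton] at h1
  have hβj : ((modularFunctionFieldBar (N * ℓ)).val.comp
      (heckeBetaBar (AlgebraicClosure ℚ) N ℓ)) (Fermat.Agent.S24.jBar N) =
      qExpand (AlgebraicClosure ℚ) ℓ (jqModC (AlgebraicClosure ℚ)) := by
    show qExpand (AlgebraicClosure ℚ) ℓ (coeffEmb (AlgebraicClosure ℚ) jq) = _
    rw [krfs_coeffEmb_jq]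
  rw [hβj, h5, h2] at h1
  have hpos : 0 < dedekindPsi N := by
    rw [← hN]
    exact Module.finrank_pos
  exact Nat.eq_of_mul_eq_mul_left hpos h1

end Fermat.Agent.S37
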