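/-
S37, block KR, package KRIntegral (KR3), twin B: the integral form of the Kronecker congruence.

`krio_main : kr_CharpolyStatement → kr_IntegralStatement`.

Sketch.  Let `ζ ∈ ℚ̄` be a primitive `ℓ`-th root of unity; it is a unit of the valuation ring `A` and
its residue is `1` (characteristic `ℓ`).  By `kr_CharpolyStatement`, after `q ↦ q^ℓ` the characteristic
polynomial `χ` equals `Π = (X - g(q^{ℓ²})) ∏_{b<ℓ} (X - g(ζ^b q))`, which is the image of the polynomial
`Π_A = (X - y(q^{ℓ²})) ∏_{b<ℓ} (X - y(ζ^b q))` over `A((q))`.  Hence the coefficients of `χ` are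
`A`-integral, and the reduction of `Π_A` is `(X - ȳ(q^{ℓ²})) (X - ȳ)^ℓ = (X - ȳ(q^{ℓ²})) (X^ℓ - ȳ^ℓ)`,
which is the image under `q ↦ q^ℓ` of `(X - w^ℓ) (X^ℓ - φ(ȳ))` by the Frobenius identity
`f^ℓ = (φ f)(q^ℓ)` for Laurent series in characteristic `ℓ`.
-/
import Fermat.Agent.S37.KRInterfaces
import Mathlib.RingTheory.PowerSeries.Expand
import Mathlib.RingTheory.RootsOfUnity.AlgebraicallyClosed

set_option autoImplicit false

open AlgebraicCurve ModularCurve IntermediateField Polynomial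
open Fermat.Agent.S28 (scale evalL)

namespace Fermat.Agent.S37

noncomputable section

/-! ## Generalities on Laurent series -/

/-- `coeffMap` commutes with `qExpand`. -/
theorem krio_coeffMap_qExpand {R S : Type} [CommRing R] [CommRing S] (f : R →+* S) (n : ℕ)
    [NeZero n] (x : LaurentSeries R) :
    coeffMap f (qExpand R n x) = qExpand S n (coeffMap f x) := by
  ext k
  by_cases hk : (n : ℤ) ∣ k
  · obtain ⟨m, rfl⟩ := hk
    rw [coeffMap_coeff, qExpand_coeff_mul, qExpand_coeff_mul, coeffMap_coeff]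
  · rw [coeffMap_coeff, qExpand_coeff_of_not_dvd n _ hk, qExpand_coeff_of_not_dvd n _ hk,
      map_zero]

/-- `coeffMap` along an injective ring homomorphism is injective. -/
theorem krio_coeffMap_injective {R S : Type} [CommRing R] [CommRing S] (f : R →+* S)
    (hf : Function.Injective f) : Function.Injective (coeffMap f) := by
  intro x x' h
  ext n
  apply hf
  have := congrArg (fun s : LaurentSeries S => s.coeff n) h
  simpa only [coeffMap_coeff] using this

/-- The substitution `q ↦ u q` for a unit `u` of the coefficient ring. -/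
def krio_twist {R : Type} [CommRing R] (u : Rˣ) (f : LaurentSeries R) : LaurentSeries R where
  coeff n := ((u ^ n : Rˣ) : R) * f.coeff n
  isPWO_support' := f.isPWO_support.mono fun n hn => by
    simp only [Function.mem_support, ne_eq] at hn ⊢
    exact fun h => hn (by rw [h, mul_zero])

theorem krio_twist_coeff {R : Type} [CommRing R] (u : Rˣ) (f : LaurentSeries R) (n : ℤ) :
    (krio_twist u f).coeff n = ((u ^ n : Rˣ) : R) * f.coeff n := rfl

theorem krio_coeffMap_twist {R S : Type} [CommRing R] [CommRing S] (h : R →+* S) (u : Rˣ)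
    (f : LaurentSeries R) :
    coeffMap h (krio_twist u f) = krio_twist (Units.map (h : R →* S) u) (coeffMap h f) := by
  ext n
  rw [coeffMap_coeff, krio_twist_coeff, krio_twist_coeff, coeffMap_coeff, map_mul, ← map_zpow,
    Units.coe_map]
  rfl

theorem krio_twist_one {R : Type} [CommRing R] (f : LaurentSeries R) : krio_twist 1 f = f := by
  ext n
  rw [krio_twist_coeff, one_zpow, Units.val_one, one_mul]

theorem krio_twist_eq_scale {K : Type} [Field K] (u : Kˣ) (f : LaurentSeries K) :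
    krio_twist u f = scale (u : K) f := by
  ext n
  rw [krio_twist_coeff, Fermat.Agent.S28.scale_coeff, Units.val_zpow_eq_zpow_val]

/-! ## Frobenius on series -/

/-- The coefficients of the `ℓ`-th power of a power series in characteristic `ℓ`. -/
theorem krio_ps_coeff_pow {k : Type} [CommRing k] (ℓ : ℕ) (hℓ : ℓ.Prime) [CharP k ℓ]
    (P : PowerSeries k) (n : ℕ) :
    PowerSeries.coeff n (P ^ ℓ) = if ℓ ∣ n then (PowerSeries.coeff (n / ℓ) P) ^ ℓ else 0 := by
  have : Fact ℓ.Prime := ⟨hℓ⟩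
  have : ExpChar k ℓ := ExpChar.prime hℓ
  have h2 : PowerSeries.map (frobenius k ℓ) (PowerSeries.expand ℓ hℓ.ne_zero P) = P ^ ℓ :=
    MvPowerSeries.map_frobenius_expand ℓ hℓ.ne_zero (f := (P : MvPowerSeries Unit k))
  rw [← h2, PowerSeries.coeff_map, PowerSeries.coeff_expand, frobenius_def]
  split_ifs
  · rfl
  · exact zero_pow hℓ.ne_zero

/-- Frobenius on power series viewed as Laurent series. -/
theorem krio_frob_ofPowerSeries {k : Type} [CommRing k] (ℓ : ℕ) [NeZero ℓ] (hℓ : ℓ.Prime)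
    [CharP k ℓ] (φ : k →+* k) (hφ : ∀ x, φ x = x ^ ℓ) (P : PowerSeries k) :
    (HahnSeries.ofPowerSeries ℤ k P) ^ ℓ =
      qExpand k ℓ (coeffMap φ (HahnSeries.ofPowerSeries ℤ k P)) := by
  rw [← map_pow, coeffMap_ofPowerSeries]
  ext n
  by_cases hn : (ℓ : ℤ) ∣ n
  · obtain ⟨m, rfl⟩ := hn
    rw [qExpand_coeff_mul, PowerSeries.coeff_coe, PowerSeries.coeff_coe, krio_ps_coeff_pow ℓ hℓ,
      PowerSeries.coeff_map, hφ]
    have hpos : (0 : ℤ) < (ℓ : ℤ) := by exact_mod_cast hℓ.pos
    have h1 : ((ℓ : ℤ) * m < 0) ↔ m < 0 := by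
      constructor
      · intro h
        by_contra hm
        exact absurd h (not_lt.mpr (mul_nonneg hpos.le (not_lt.mp hm)))
      · intro h
        exact mul_neg_of_pos_of_neg hpos h
    have h2 : ((ℓ : ℤ) * m).natAbs = ℓ * m.natAbs := by
      rw [Int.natAbs_mul, Int.natAbs_natCast]
    by_cases hm : m < 0
    · rw [if_pos hm, if_pos (h1.mpr hm)]
    · rw [if_neg hm, if_neg (fun h => hm (h1.mp h)), h2, if_pos (dvd_mul_right _ _),
        Nat.mul_div_cancel_left _ hℓ.pos]
  · rw [qExpand_coeff_of_not_dvd ℓ _ hn, PowerSeries.coeff_coe, krio_ps_coeff_pow ℓ hℓ]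
    have h1 : ¬ ℓ ∣ n.natAbs := fun h => hn (Int.natCast_dvd.mpr h)
    rw [if_neg h1, ite_self]

/-- FROBENIUS ON LAURENT SERIES: in characteristic `ℓ`, `f ^ ℓ = (φ f)(q ^ ℓ)`. -/
theorem krio_frob {k : Type} [CommRing k] (ℓ : ℕ) [NeZero ℓ] (hℓ : ℓ.Prime) [CharP k ℓ]
    (φ : k →+* k) (hφ : ∀ x, φ x = x ^ ℓ) (f : LaurentSeries k) :
    f ^ ℓ = qExpand k ℓ (coeffMap φ f) := by
  obtain ⟨o, P, rfl⟩ : ∃ (o : ℤ) (P : PowerSeries k),
      f = HahnSeries.single o 1 * HahnSeries.ofPowerSeries ℤ k P :=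
    ⟨_, _, (LaurentSeries.single_order_mul_powerSeriesPart f).symm⟩
  rw [mul_pow, map_mul, map_mul, ← krio_frob_ofPowerSeries ℓ hℓ φ hφ, coeffMap_single,
    qExpand_single, HahnSeries.single_pow, map_one, one_pow, nsmul_eq_mul]

/-! ## The main theorem -/

theorem krio_main : kr_CharpolyStatement → kr_IntegralStatement := by
  intro hCh N ℓ _ _ hℓ hℓN hfin A hA φ hφ y hy w hw i
  classical
  have hFact : Fact ℓ.Prime := ⟨hℓ⟩
  -- the residue field has characteristic `ℓ`
  have hchar : CharP (IsLocalRing.ResidueField ↥A) ℓ := by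
    rw [CharP.charP_iff_prime_eq_zero hℓ]
    obtain ⟨ha, hmem⟩ := (ValuationSubring.mem_nonunits_iff_exists_mem_maximalIdeal).1 hA
    have h0 : IsLocalRing.residue ↥A ⟨(ℓ : AlgebraicClosure ℚ), ha⟩ = 0 :=
      (IsLocalRing.residue_eq_zero_iff _).2 hmem
    have h1 : (⟨(ℓ : AlgebraicClosure ℚ), ha⟩ : ↥A) = ((ℓ : ℕ) : ↥A) := Subtype.ext rfl
    rw [h1, map_natCast] at h0
    exact h0
  have hcharL : CharP (LaurentSeries (IsLocalRing.ResidueField ↥A)) ℓ :=
    charP_of_injective_ringHom (HahnSeries.C_injective) ℓ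
  -- a primitive `ℓ`-th root of unity, a unit of `A` with residue `1`
  obtain ⟨ζ, hζ⟩ := HasEnoughRootsOfUnity.exists_primitiveRoot (AlgebraicClosure ℚ) ℓ
  have hζpow : ζ ^ ℓ = 1 := hζ.pow_eq_one
  have hℓ1 : ℓ - 1 + 1 = ℓ := Nat.sub_add_cancel hℓ.pos
  have hζA : ζ ∈ A := by
    rcases A.mem_or_inv_mem ζ with h | h
    · exact h
    · have h2 : ζ = (ζ⁻¹) ^ (ℓ - 1) := by
        rw [inv_pow]
        exact eq_inv_of_mul_eq_one_left (by rw [← pow_succ', hℓ1, hζpow])
      rw [h2]
      exact pow_mem h _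
  let ζA : ↥A := ⟨ζ, hζA⟩
  have hζApow : ζA ^ ℓ = 1 := Subtype.ext (by simpa [ζA] using hζpow)
  let u : (↥A)ˣ := Units.mkOfMulEqOne ζA (ζA ^ (ℓ - 1)) (by rw [← pow_succ', hℓ1, hζApow])
  have hu : ((Units.map (A.subtype : ↥A →* AlgebraicClosure ℚ) u : (AlgebraicClosure ℚ)ˣ) :
      AlgebraicClosure ℚ) = ζ := rfl
  have hures : Units.map (IsLocalRing.residue ↥A : ↥A →* IsLocalRing.ResidueField ↥A) u = 1 := by
    apply Units.ext
    rw [Units.coe_map, Units.val_one]
    have h1 : (IsLocalRing.residue ↥A ζA) ^ ℓ = 1 := by rw [← map_pow, hζApow, map_one]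
    have h2 : (IsLocalRing.residue ↥A ζA - 1) ^ ℓ = 0 := by
      rw [sub_pow_char, h1, one_pow, sub_self]
    have h3 := pow_eq_zero_iff (hℓ.ne_zero) |>.1 h2
    exact sub_eq_zero.1 h3
  -- the polynomial over `A((q))`
  obtain ⟨PA, hPA⟩ : ∃ PA : Polynomial (LaurentSeries ↥A),
      PA = (X - C (qExpand ↥A (ℓ * ℓ) y)) *
        ∏ b ∈ Finset.range ℓ, (X - C (krio_twist (u ^ b) y)) := ⟨_, rfl⟩
  have h1 : PA.map (coeffMap A.subtype) =
      (X - C (qExpand (AlgebraicClosure ℚ) (ℓ * ℓ) (coeffMap A.subtype y))) *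
        ∏ b ∈ Finset.range ℓ, (X - C (scale (ζ ^ b) (coeffMap A.subtype y))) := by
    rw [hPA, Polynomial.map_mul, Polynomial.map_sub, Polynomial.map_X, Polynomial.map_C,
      Polynomial.map_prod, krio_coeffMap_qExpand]
    congr 1
    refine Finset.prod_congr rfl fun b _ => ?_
    rw [Polynomial.map_sub, Polynomial.map_X, Polynomial.map_C, krio_coeffMap_twist,
      krio_twist_eq_scale, map_pow, Units.val_pow_eq_pow_val, hu]
  have h2 : PA.map (coeffMap (IsLocalRing.residue ↥A)) =
      ((X - C (w ^ ℓ)) *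
        (X ^ ℓ - C (coeffMap φ (coeffMap (IsLocalRing.residue ↥A) y)))).map
          (qExpand (IsLocalRing.ResidueField ↥A) ℓ) := by
    have e1 : ∀ b ∈ Finset.range ℓ,
        (X - C (krio_twist (u ^ b) y)).map (coeffMap (IsLocalRing.residue ↥A)) =
          X - C (coeffMap (IsLocalRing.residue ↥A) y) := by
      intro b _
      rw [Polynomial.map_sub, Polynomial.map_X, Polynomial.map_C, krio_coeffMap_twist, map_pow,
        hures, one_pow, krio_twist_one]
    rw [hPA, Polynomial.map_mul, Polynomial.map_sub, Polynomial.map_X, Polynomial.map_C,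
      Polynomial.map_prod, krio_coeffMap_qExpand, Finset.prod_congr rfl e1, Finset.prod_const,
      Finset.card_range, sub_pow_char, ← map_pow,
      Polynomial.map_mul, Polynomial.map_sub, Polynomial.map_X, Polynomial.map_C,
      Polynomial.map_sub, Polynomial.map_pow, Polynomial.map_X, Polynomial.map_C,
      ← krio_frob ℓ hℓ φ hφ (coeffMap (IsLocalRing.residue ↥A) y),
      krio_frob ℓ hℓ φ hφ w, qExpand_qExpand, hw]
  -- the Kronecker factorisation
  have h3 := hCh N ℓ hℓ hℓN hfin ζ hζ ⟨coeffMap A.subtype y, hy⟩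
  have h4 : qExpand (AlgebraicClosure ℚ) ℓ
      ((((hi_charpolyAlong (heckeBetaBar (AlgebraicClosure ℚ) N ℓ) hfin
            (heckeAlphaBar (AlgebraicClosure ℚ) N ℓ
              (⟨coeffMap A.subtype y, hy⟩ : ↥(modularFunctionFieldBar N)))).coeff i :
            ↥(modularFunctionFieldBar N)) : LaurentSeries (AlgebraicClosure ℚ))) =
      coeffMap A.subtype (PA.coeff i) := by
    have h := congrArg (fun p => Polynomial.coeff p i) (h3.trans h1.symm)
    simp only [Polynomial.coeff_map] at h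
    exact h
  obtain ⟨c, hc⟩ : ∃ c : LaurentSeries (AlgebraicClosure ℚ), c =
      ((((hi_charpolyAlong (heckeBetaBar (AlgebraicClosure ℚ) N ℓ) hfin
            (heckeAlphaBar (AlgebraicClosure ℚ) N ℓ
              (⟨coeffMap A.subtype y, hy⟩ : ↥(modularFunctionFieldBar N)))).coeff i :
            ↥(modularFunctionFieldBar N)) : LaurentSeries (AlgebraicClosure ℚ))) := ⟨_, rfl⟩
  rw [← hc] at h4 ⊢
  have h5 : ∀ n : ℤ, c.coeff n ∈ A := by
    intro n
    have h := congrArg (fun s : LaurentSeries (AlgebraicClosure ℚ) => s.coeff ((ℓ : ℤ) * n)) h4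
    simp only [qExpand_coeff_mul, coeffMap_coeff] at h
    rw [h]
    exact ((PA.coeff i).coeff ((ℓ : ℤ) * n)).2
  let z : LaurentSeries ↥A :=
    { coeff := fun n => ⟨c.coeff n, h5 n⟩
      isPWO_support' := c.isPWO_support.mono fun n hn => by
        simp only [Function.mem_support, ne_eq] at hn ⊢
        exact fun h => hn (Subtype.ext h) }
  have hz : coeffMap A.subtype z = c := by
    ext n
    rfl
  refine ⟨z, hz.symm, ?_⟩
  have h6 : qExpand ↥A ℓ z = PA.coeff i := by
    apply krio_coeffMap_injective A.subtype A.subtype_injective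
    rw [krio_coeffMap_qExpand, hz, h4]
  apply qExpand_injective ℓ
  rw [← krio_coeffMap_qExpand, h6, ← Polynomial.coeff_map, h2, Polynomial.coeff_map]

end

end Fermat.Agent.S37
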