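/-
S37, block KR, package KRModEqInt (file B): the modular equation of prime level `r` over `ℚ̄` with
integral coefficients.

The polynomial `Φ` is the one provided by the S28 library (analytic construction over `ℂ`, descent
to `ℤ[ζ_r]`, base change to `ℚ̄`); the integrality of its coefficients is obtained from the product
identity by the triangular argument `ctri_main`, applied to the inclusion of the ring of algebraic
integers `integralClosure ℤ ℚ̄` (which contains `ζ`) into `ℚ̄`.
-/
import Fermat.Agent.S37.KRInterfaces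
import Fermat.Agent.S28.CTri
import Fermat.Agent.S28.CModEqCT
import Fermat.Agent.S28.CModEqDescT
import Fermat.Agent.S28.Subst

set_option autoImplicit false

open AlgebraicCurve ModularCurve IntermediateField Polynomial
open Fermat.Agent.S28 (scale evalL)

namespace Fermat.Agent.S37

/-- The modular equation of prime level over `ℚ̄` (from the S28 library). -/
theorem krmf_modEqAt (r : ℕ) [NeZero r] (hr : r.Prime) (ζ : AlgebraicClosure ℚ)
    (hζ : IsPrimitiveRoot ζ r) : Fermat.Agent.S28.ModEqAt (AlgebraicClosure ℚ) r ζ :=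
  Fermat.Agent.S28.cmedt_main Fermat.Agent.S28.ctri_main r hr _
    (Complex.isPrimitiveRoot_exp r hr.ne_zero) (Fermat.Agent.S28.cmect_main r hr)
    (AlgebraicClosure ℚ) ζ hζ

/-- Integrality of the coefficients of a polynomial satisfying the product identity of the
modular equation over `ℚ̄`. -/
theorem krmf_integral (r : ℕ) [NeZero r] (ζ : AlgebraicClosure ℚ) (hζ : IsPrimitiveRoot ζ r)
    (Φ : Polynomial (Polynomial (AlgebraicClosure ℚ)))
    (hΦ : Φ.map (evalL (qExpand (AlgebraicClosure ℚ) r (jqModC (AlgebraicClosure ℚ)))) =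
      (X - C (qExpand (AlgebraicClosure ℚ) (r * r) (jqModC (AlgebraicClosure ℚ)))) *
        ∏ b ∈ Finset.range r, (X - C (scale (ζ ^ b) (jqModC (AlgebraicClosure ℚ)))))
    (i j : ℕ) : IsIntegral ℤ ((Φ.coeff i).coeff j) := by
  -- the ring of algebraic integers, its inclusion into `ℚ̄`, and the unit `ζ`
  have hζint : IsIntegral ℤ ζ := hζ.isIntegral (NeZero.pos r)
  have hι : Function.Injective
      ((integralClosure ℤ (AlgebraicClosure ℚ)).val.toRingHom) := Subtype.val_injective
  have hζA : (⟨ζ, hζint⟩ : ↥(integralClosure ℤ (AlgebraicClosure ℚ))) ^ r = 1 :=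
    Subtype.ext hζ.pow_eq_one
  have hu : (integralClosure ℤ (AlgebraicClosure ℚ)).val.toRingHom
      ((Units.ofPowEqOne (⟨ζ, hζint⟩ : ↥(integralClosure ℤ (AlgebraicClosure ℚ))) r hζA
        (NeZero.ne r) : (↥(integralClosure ℤ (AlgebraicClosure ℚ)))ˣ) :
          ↥(integralClosure ℤ (AlgebraicClosure ℚ))) = ζ := rfl
  -- the triangular argument
  have hmap := Fermat.Agent.S28.cmedt_rhs_map r
    (Units.ofPowEqOne (⟨ζ, hζint⟩ : ↥(integralClosure ℤ (AlgebraicClosure ℚ))) r hζA
      (NeZero.ne r)) ((integralClosure ℤ (AlgebraicClosure ℚ)).val.toRingHom)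
  rw [hu, ← hΦ] at hmap
  obtain ⟨p₀, hp₀, -⟩ := Fermat.Agent.S28.ctri_main.2
    ↥(integralClosure ℤ (AlgebraicClosure ℚ)) (AlgebraicClosure ℚ)
    ((integralClosure ℤ (AlgebraicClosure ℚ)).val.toRingHom) hι r
    ((Fermat.Agent.S28.cmedt_rhs r
      (Units.ofPowEqOne (⟨ζ, hζint⟩ : ↥(integralClosure ℤ (AlgebraicClosure ℚ))) r hζA
        (NeZero.ne r))).coeff i) (Φ.coeff i)
    (by rw [← Polynomial.coeff_map, ← Polynomial.coeff_map, hmap])
  rw [← hp₀, Polynomial.coeff_map]
  exact (p₀.coeff j).2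

/-- (KR-ModEqInt) The modular equation of prime level with integral coefficients. -/
theorem krmf_main : kr_ModEqIntStatement := by
  intro r _ hr ζ hζ
  obtain ⟨Φ, hmon, hdeg, hΦ⟩ := krmf_modEqAt r hr ζ hζ
  refine ⟨Φ, hmon, hdeg, fun i j => krmf_integral r ζ hζ Φ hΦ i j, hΦ, ?_,
    Fermat.Agent.S28.subst_modEq_swap (AlgebraicClosure ℚ) r ζ Φ hΦ⟩
  rw [hΦ, Polynomial.eval_mul, Polynomial.eval_prod]
  have h0 : (0 : ℕ) ∈ Finset.range r := Finset.mem_range.mpr (NeZero.pos r)
  rw [Finset.prod_eq_zero h0, mul_zero]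
  rw [Polynomial.eval_sub, Polynomial.eval_X, Polynomial.eval_C, pow_zero,
    Fermat.Agent.S28.subst_scale_one, sub_self]

end Fermat.Agent.S37
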