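/-
S37, block KR, package PrimeDeg (twin B): for a prime `ℓ` the series `j(q)` has degree `ℓ + 1`
over `ℚ̄(j(q^ℓ))`.

Deliverable: `krpe_main : kr_PsiDegStatement → kr_ModEqIntStatement → kr_PrimeDegStatement`.

Sketch.  Let `F = F_ℓ = ℚ̄(j, j')` with `j' = j(q^ℓ)`, and `K₀ = ℚ̄(j) ⊆ F`.  By the degree
statement `[F : K₀] = ψ(ℓ) = ℓ + 1`, so the minimal polynomial of `j'` over `K₀` has degree
`ℓ + 1`; it is therefore equal to `Φ(X, j)` (`Φ` the modular polynomial), which is thus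
irreducible over `K₀`.  The substitution `q ↦ q ^ ℓ` is an isomorphism of `K₀` onto `ℚ̄(j')`
mapping `Φ(X, j)` to `Φ(X, j')`; hence the latter is irreducible, monic of degree `ℓ + 1`, and
it vanishes at `j`: it is the minimal polynomial of `j` over `ℚ̄(j')`.
-/
import Fermat.Agent.S37.KRInterfaces
import Fermat.Agent.S18.GBFin
import Fermat.Agent.S28.Subst

set_option autoImplicit false

open AlgebraicCurve ModularCurve IntermediateField Polynomial
open Fermat.Agent.S28 (scale evalL)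

namespace Fermat.Agent.S37

noncomputable section

/-- `ψ(ℓ) = ℓ + 1` for a prime `ℓ`. -/
theorem krpe_dedekindPsi_prime (ℓ : ℕ) (hℓ : ℓ.Prime) : dedekindPsi ℓ = ℓ + 1 := by
  have hfilter : (ℓ.divisors.filter fun d => Squarefree d) = {1, ℓ} := by
    rw [hℓ.divisors]
    refine Finset.filter_true_of_mem fun d hd => ?_
    rcases Finset.mem_insert.mp hd with rfl | hd
    · exact squarefree_one
    · rw [Finset.mem_singleton.mp hd]
      exact hℓ.prime.squarefree
  rw [dedekindPsi, hfilter, Finset.sum_pair hℓ.one_lt.ne, Nat.div_one, Nat.div_self hℓ.pos,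
    add_comm]

/-- The generators of `F_ℓ` for a prime `ℓ` are `j(q)` and `j(q^ℓ)`. -/
theorem krpe_divisorExpansionsC_prime (K : Type) [Field K] (ℓ : ℕ) [NeZero ℓ] (hℓ : ℓ.Prime) :
    divisorExpansionsC K ℓ = {jqModC K, qExpand K ℓ (jqModC K)} := by
  ext x
  constructor
  · rintro ⟨d, hd0, hd, rfl⟩
    rcases (Nat.dvd_prime hℓ).mp hd with rfl | rfl
    · left
      exact qExpand_one_apply _
    · right
      rfl
  · rintro (rfl | rfl)
    · exact ⟨1, inferInstance, one_dvd _, (qExpand_one_apply _).symm⟩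
    · exact ⟨ℓ, inferInstance, dvd_rfl, rfl⟩

/-- `F_ℓ = ℚ̄(j(q), j(q^ℓ))` for a prime `ℓ`. -/
theorem krpe_bar_eq_adjoin (ℓ : ℕ) [NeZero ℓ] (hℓ : ℓ.Prime) :
    modularFunctionFieldBar ℓ =
      IntermediateField.adjoin (AlgebraicClosure ℚ)
        {jqModC (AlgebraicClosure ℚ),
          qExpand (AlgebraicClosure ℚ) ℓ (jqModC (AlgebraicClosure ℚ))} := by
  have h := Fermat.Agent.S18.gb_finl_FL_eq ℓ (AlgebraicClosure ℚ)
  rw [modularFunctionFieldFullC, krpe_divisorExpansionsC_prime (AlgebraicClosure ℚ) ℓ hℓ] at h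
  exact h

/-- The underlying series of `jBar`. -/
theorem krpe_coe_jBar (M : ℕ) [NeZero M] :
    ((Fermat.Agent.S24.jBar M : ↥(modularFunctionFieldBar M)) :
      LaurentSeries (AlgebraicClosure ℚ)) = jqModC (AlgebraicClosure ℚ) :=
  Fermat.Agent.S18.coeffEmb_jq (AlgebraicClosure ℚ)

/-- The structure map `k → k((q))` is the embedding of the constants. -/
theorem krpe_algebraMap_eq_C (k : Type) [Field k] :
    algebraMap k (LaurentSeries k) = (HahnSeries.C : k →+* LaurentSeries k) := by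
  ext1 c
  rw [algebraMap_laurentSeries_eq_single]
  rfl

/-- Evaluation of polynomials at a Laurent series, as the ring homomorphism underlying
`Polynomial.aeval`. -/
theorem krpe_aeval_toRingHom (k : Type) [Field k] (x : LaurentSeries k) :
    (Polynomial.aeval x : Polynomial k →ₐ[k] LaurentSeries k).toRingHom = evalL x := by
  refine Polynomial.ringHom_ext (fun a => ?_) ?_
  · show Polynomial.aeval x (Polynomial.C a) = Polynomial.eval₂ HahnSeries.C x (Polynomial.C a)
    rw [Polynomial.aeval_C, Polynomial.eval₂_C, krpe_algebraMap_eq_C]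
  · show Polynomial.aeval x Polynomial.X = Polynomial.eval₂ HahnSeries.C x Polynomial.X
    rw [Polynomial.aeval_X, Polynomial.eval₂_X]

/-- The abstract core.  Let `F = k(x, y) ⊆ Ω` with `[F : k(x)] = n`, and let `Φ ∈ k[T][X]` be
monic of degree `n` in `X` with `Φ(y, x) = 0`.  If `σ` is a `k`-endomorphism of `Ω` and
`Φ(z, σ x) = 0`, then `z` has degree `n` over `k(σ x)`. -/
theorem krpe_core {k Ω : Type} [Field k] [Field Ω] [Algebra k Ω] (F : IntermediateField k Ω)
    (σ : Ω →ₐ[k] Ω) (x y : ↥F) (x' x'' z : Ω) (n : ℕ) (hx : (x : Ω) = x') (hσx : σ x' = x'')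
    (hfd : FiniteDimensional ↥(k⟮x⟯) ↥F) (hfr : Module.finrank ↥(k⟮x⟯) ↥F = n)
    (hgen : F = IntermediateField.adjoin k {x', (y : Ω)})
    (Φ : Polynomial (Polynomial k)) (hΦm : Φ.Monic) (hΦd : Φ.natDegree = n)
    (h1 : Polynomial.eval₂ (Polynomial.aeval x' : Polynomial k →ₐ[k] Ω).toRingHom (y : Ω) Φ = 0)
    (h2 : Polynomial.eval₂ (Polynomial.aeval x'' : Polynomial k →ₐ[k] Ω).toRingHom z Φ = 0) :
    (minpoly ↥(IntermediateField.adjoin k {x''}) z).natDegree = n := by
  subst hx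
  subst hσx
  -- `F = k(x)(y)`
  have htop : (k⟮x⟯)⟮y⟯ = ⊤ := by
    rw [← IntermediateField.restrictScalars_eq_top_iff (K := k),
      IntermediateField.adjoin_adjoin_left]
    apply IntermediateField.lift_injective F
    rw [IntermediateField.lift_adjoin, IntermediateField.lift_top, Set.image_union,
      Set.image_singleton, Set.image_singleton, Set.singleton_union]
    exact hgen.symm
  -- the degree of `y` over `k(x)`
  have hint : IsIntegral ↥(k⟮x⟯) y := IsIntegral.of_finite ↥(k⟮x⟯) y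
  have hdeg : (minpoly ↥(k⟮x⟯) y).natDegree = n := by
    rw [← IntermediateField.adjoin.finrank hint, htop, IntermediateField.finrank_top', hfr]
  -- `x` as an element of `k(x)`, and `Φ(X, x)` as a polynomial over `k(x)`
  let xK : ↥(k⟮x⟯) := ⟨x, IntermediateField.mem_adjoin_simple_self k x⟩
  let e0 : Polynomial k →+* ↥(k⟮x⟯) := (Polynomial.aeval xK).toRingHom
  have hPBm : (Φ.map e0).Monic := hΦm.map e0
  have hPBd : (Φ.map e0).natDegree = n := by rw [hΦm.natDegree_map e0, hΦd]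
  have hPBroot : Polynomial.aeval y (Φ.map e0) = 0 := by
    have hcomp : (algebraMap ↥F Ω).comp ((algebraMap ↥(k⟮x⟯) ↥F).comp e0) =
        (Polynomial.aeval (x : Ω) : Polynomial k →ₐ[k] Ω).toRingHom := by
      refine Polynomial.ringHom_ext (fun a => ?_) ?_
      · show algebraMap ↥F Ω (algebraMap ↥(k⟮x⟯) ↥F (Polynomial.aeval xK (Polynomial.C a))) =
          Polynomial.aeval (x : Ω) (Polynomial.C a)
        rw [Polynomial.aeval_C, Polynomial.aeval_C]
        rfl
      · show algebraMap ↥F Ω (algebraMap ↥(k⟮x⟯) ↥F (Polynomial.aeval xK Polynomial.X)) =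
          Polynomial.aeval (x : Ω) Polynomial.X
        rw [Polynomial.aeval_X, Polynomial.aeval_X]
        rfl
    have h0 : algebraMap ↥F Ω (Polynomial.aeval y (Φ.map e0)) = 0 := by
      rw [Polynomial.aeval_def, Polynomial.eval₂_map, Polynomial.hom_eval₂, hcomp]
      exact h1
    exact (map_eq_zero (algebraMap ↥F Ω)).mp h0
  have hPBeq : Φ.map e0 = minpoly ↥(k⟮x⟯) y :=
    Polynomial.eq_of_monic_of_dvd_of_natDegree_le (minpoly.monic hint) hPBm
      (minpoly.dvd ↥(k⟮x⟯) y hPBroot) (by rw [hPBd, hdeg])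
  have hPBirr : Irreducible (Φ.map e0) := by
    rw [hPBeq]
    exact minpoly.irreducible hint
  -- the isomorphism `k(x) ≅ k(σ x)` induced by `σ`
  have hmap : (k⟮x⟯).map (σ.comp F.val) = IntermediateField.adjoin k {σ (x : Ω)} := by
    rw [IntermediateField.adjoin_map, Set.image_singleton]
    rfl
  let θ : ↥(k⟮x⟯) ≃ₐ[k] ↥(IntermediateField.adjoin k {σ (x : Ω)}) :=
    ((k⟮x⟯).equivMap (σ.comp F.val)).trans (IntermediateField.equivOfEq hmap)
  let θr : ↥(k⟮x⟯) ≃+* ↥(IntermediateField.adjoin k {σ (x : Ω)}) := θ.toRingEquiv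
  let τ : ↥(k⟮x⟯) →+* ↥(IntermediateField.adjoin k {σ (x : Ω)}) := θr.toRingHom
  have hθ : ∀ u : ↥(k⟮x⟯),
      ((τ u : ↥(IntermediateField.adjoin k {σ (x : Ω)})) : Ω) = σ ((u : ↥F) : Ω) :=
    fun u => rfl
  -- `Φ(X, σ x)` as a polynomial over `k(σ x)`
  have hQBirr : Irreducible ((Φ.map e0).map τ) := by
    have h := (MulEquiv.irreducible_iff (Polynomial.mapEquiv θr).toMulEquiv).mpr hPBirr
    exact h
  have hQBm : ((Φ.map e0).map τ).Monic := hPBm.map _
  have hQBd : ((Φ.map e0).map τ).natDegree = n := by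
    rw [hPBm.natDegree_map, hPBd]
  have hQBroot : Polynomial.aeval z ((Φ.map e0).map τ) = 0 := by
    have hcomp : ((algebraMap ↥(IntermediateField.adjoin k {σ (x : Ω)}) Ω).comp
        τ).comp e0 =
        (Polynomial.aeval (σ (x : Ω)) : Polynomial k →ₐ[k] Ω).toRingHom := by
      refine Polynomial.ringHom_ext (fun a => ?_) ?_
      · show ((τ (Polynomial.aeval xK (Polynomial.C a)) :
            ↥(IntermediateField.adjoin k {σ (x : Ω)})) : Ω) =
          Polynomial.aeval (σ (x : Ω)) (Polynomial.C a)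
        rw [hθ, Polynomial.aeval_C, Polynomial.aeval_C]
        exact σ.commutes a
      · show ((τ (Polynomial.aeval xK Polynomial.X) :
            ↥(IntermediateField.adjoin k {σ (x : Ω)})) : Ω) =
          Polynomial.aeval (σ (x : Ω)) Polynomial.X
        rw [hθ, Polynomial.aeval_X, Polynomial.aeval_X]
    rw [Polynomial.aeval_def, Polynomial.eval₂_map, Polynomial.eval₂_map, hcomp]
    exact h2
  rw [← minpoly.eq_of_irreducible_of_monic hQBirr hQBroot hQBm, hQBd]

/-- (KR-PrimeDeg) from the degree statement and the modular equation. -/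
theorem krpe_main : kr_PsiDegStatement → kr_ModEqIntStatement → kr_PrimeDegStatement := by
  intro hPsi hMod ℓ _ hℓ
  -- the modular polynomial
  have hℓ0 : NeZero ((ℓ : ℕ) : AlgebraicClosure ℚ) := ⟨Nat.cast_ne_zero.mpr hℓ.ne_zero⟩
  obtain ⟨ζ, hζ⟩ := HasEnoughRootsOfUnity.exists_primitiveRoot (AlgebraicClosure ℚ) ℓ
  obtain ⟨Φ, hΦm, hΦd, -, -, hΦ1, hΦ2⟩ := hMod ℓ hℓ ζ hζ
  -- the degree of `F_ℓ` over `ℚ̄(j)`
  obtain ⟨-, hfd, hfr⟩ := hPsi ℓ
  rw [krpe_dedekindPsi_prime ℓ hℓ] at hfr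
  -- the elements `j`, `j'` of `F_ℓ`
  have hFeq := krpe_bar_eq_adjoin ℓ hℓ
  have hj'F : qExpand (AlgebraicClosure ℚ) ℓ (jqModC (AlgebraicClosure ℚ)) ∈
      modularFunctionFieldBar ℓ := by
    rw [hFeq]
    exact IntermediateField.subset_adjoin _ _ (Set.mem_insert_of_mem _ rfl)
  refine krpe_core (modularFunctionFieldBar ℓ) (qExpandAlgHomC (AlgebraicClosure ℚ) ℓ)
    (Fermat.Agent.S24.jBar ℓ) ⟨_, hj'F⟩ (jqModC (AlgebraicClosure ℚ))
    (qExpand (AlgebraicClosure ℚ) ℓ (jqModC (AlgebraicClosure ℚ))) (jqModC (AlgebraicClosure ℚ))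
    (ℓ + 1) (krpe_coe_jBar ℓ) rfl hfd hfr hFeq Φ hΦm hΦd ?_ ?_
  · rw [krpe_aeval_toRingHom, ← Polynomial.eval_map]
    exact hΦ2
  · rw [krpe_aeval_toRingHom, ← Polynomial.eval_map]
    exact hΦ1

end

end Fermat.Agent.S37
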