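/-
S37, block KR, package KRSInf (twin A): the extra embedding `s_∞`.

Deliverable: `krsi_main : kr_FinrankStatement → kr_ModEqIntStatement → kr_SInfStatement`.

Sketch.  `F_N = ℚ̄(j(q^d) : d ∣ N) ⊆ Ω = ℚ̄((q))`, `L = F_{Nℓ}` is an `F_N`-algebra along
`β : f(q) ↦ f(q^ℓ)` and `Ω` is an `F_N`-algebra along `ι : f ↦ f(q^ℓ)`; `[L : F_N] = ℓ + 1`.
The `ℓ` substitutions `σ_b : q ↦ ζ^b q` (`b < ℓ`) are `F_N`-embeddings `L → Ω`.  For `d ∣ N` the
element `x_d = j(q^d)` of `L` is a root of `P_d = Φ(X, j(q^d)) ∈ F_N[X]` (monic of degree `ℓ + 1`),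
the `ℓ` values `σ_b x_d = j(ζ^{bd} q^d)` are pairwise distinct, hence `P_d` is the minimal
polynomial of `x_d` and `x_d` is a primitive element of `L / F_N`.  As `y_1 = j(q^{ℓ²})` is a root
of `P_1^ι`, there is an `F_N`-embedding `s : L → Ω` with `s x_1 = y_1`.  For every `d ∣ N`,
`s x_d` is one of the `ℓ + 1` distinct roots `y_d = j(q^{dℓ²})`, `σ_b x_d` of `P_d^ι`, and
`s x_d = σ_b x_d` is impossible (it would force `s = σ_b`, but `s x_1 = y_1 ≠ σ_b x_1`).  So
`s ∘ α` and `q ↦ q^{ℓ²}` agree on the generators of `F_N`.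
-/
import Fermat.Agent.S37.KRInterfaces2
import Fermat.Agent.S28.Subst
import Fermat.Agent.S18.GBFin

set_option autoImplicit false

open AlgebraicCurve ModularCurve IntermediateField Polynomial
open Fermat.Agent.S28 (scale evalL)

namespace Fermat.Agent.S37

noncomputable section

/-! ## Abstract field theory -/

/-- A power basis with prescribed generator, for a primitive element. -/
theorem krsi_exists_pb {E L : Type} [Field E] [Field L] [Algebra E L] (x : L)
    (hx : IsIntegral E x) (h : E⟮x⟯ = ⊤) : ∃ pb : PowerBasis E L, pb.gen = x :=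
  ⟨(IntermediateField.adjoin.powerBasis hx).map
      ((IntermediateField.equivOfEq h).trans IntermediateField.topEquiv), rfl⟩

/-- If a finite extension `L / E` of degree `n + 1` (`n ≥ 2`) has `E`-embeddings `σ b`, `b < n`,
into `Ω` which take pairwise distinct values at `x`, then the minimal polynomial of `x` has
degree `n + 1`. -/
theorem krsi_minpoly_natDegree {E L Ω : Type} [Field E] [Field L] [Field Ω] [Algebra E L]
    [Algebra E Ω] [FiniteDimensional E L] (n : ℕ) (hn : 2 ≤ n)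
    (hfin : Module.finrank E L = n + 1) (σ : ℕ → (L →ₐ[E] Ω)) (x : L)
    (hinj : ∀ b < n, ∀ b' < n, σ b x = σ b' x → b = b') :
    (minpoly E x).natDegree = n + 1 := by
  classical
  have hint : IsIntegral E x := IsIntegral.of_finite E x
  have hdvd : (minpoly E x).natDegree ∣ n + 1 := hfin ▸ minpoly.degree_dvd hint
  have hge : n ≤ (minpoly E x).natDegree := by
    have hne : (minpoly E x).map (algebraMap E Ω) ≠ 0 :=
      (Polynomial.map_ne_zero_iff (algebraMap E Ω).injective).mpr (minpoly.ne_zero hint)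
    have hsub : ((Finset.range n).image (fun b => σ b x)).val ⊆
        ((minpoly E x).map (algebraMap E Ω)).roots := by
      intro z hz
      rw [Finset.mem_val, Finset.mem_image] at hz
      obtain ⟨b, -, rfl⟩ := hz
      rw [Polynomial.mem_roots hne, Polynomial.IsRoot.def, Polynomial.eval_map,
        ← Polynomial.aeval_def, Polynomial.aeval_algHom_apply, minpoly.aeval, map_zero]
    have hcard := Polynomial.card_le_degree_of_subset_roots hsub
    rw [Finset.card_image_of_injOn, Finset.card_range, Polynomial.natDegree_map] at hcard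
    · exact hcard
    · intro b hb b' hb' h
      exact hinj b (Finset.mem_range.mp hb) b' (Finset.mem_range.mp hb') h
  obtain ⟨c, hc⟩ := hdvd
  have hc1 : c = 1 := by
    rcases c with _ | _ | c
    · omega
    · rfl
    · exfalso
      nlinarith
  rw [hc, hc1, mul_one]

/-- The data `(x, P, y)`: `P` is monic of degree `n + 1` with `P^β(x) = 0`, `P^ι(y) = 0`, and
the values `σ b x`, `b < n`, are pairwise distinct and different from `y`. -/
def krsi_Good {E L Ω : Type} [Field E] [Field L] [Field Ω] (β : E →+* L) (ι : E →+* Ω) (n : ℕ)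
    (σ : ℕ → (L →+* Ω)) (x : L) (P : E[X]) (y : Ω) : Prop :=
  P.Monic ∧ P.natDegree = n + 1 ∧ P.eval₂ β x = 0 ∧ P.eval₂ ι y = 0 ∧
    (∀ b < n, σ b x ≠ y) ∧ (∀ b < n, ∀ b' < n, σ b x = σ b' x → b = b')

theorem krsi_abstract_alg {E L Ω : Type} [Field E] [Field L] [Field Ω] [Algebra E L]
    [Algebra E Ω] (n : ℕ) (hn : 2 ≤ n) (hfin : Module.finrank E L = n + 1)
    (σ : ℕ → (L →ₐ[E] Ω)) (x₀ : L) (P₀ : E[X]) (y₀ : Ω)
    (h₀ : krsi_Good (algebraMap E L) (algebraMap E Ω) n (fun b => (σ b : L →+* Ω)) x₀ P₀ y₀) :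
    ∃ s : L →ₐ[E] Ω, ∀ (x : L) (P : E[X]) (y : Ω),
      krsi_Good (algebraMap E L) (algebraMap E Ω) n (fun b => (σ b : L →+* Ω)) x P y →
        s x = y := by
  classical
  have hfd : FiniteDimensional E L := Module.finite_of_finrank_pos (by rw [hfin]; omega)
  -- primitive elements
  have hprim : ∀ (x : L) (P : E[X]) (y : Ω),
      krsi_Good (algebraMap E L) (algebraMap E Ω) n (fun b => (σ b : L →+* Ω)) x P y →
      minpoly E x = P ∧ ∃ pb : PowerBasis E L, pb.gen = x := by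
    rintro x P y ⟨hP, hdeg, hroot, -, -, hinj⟩
    have hm := krsi_minpoly_natDegree n hn hfin σ x hinj
    have hint : IsIntegral E x := IsIntegral.of_finite E x
    refine ⟨?_, krsi_exists_pb x hint
      ((Field.primitive_element_iff_minpoly_natDegree_eq E x).mpr (hm.trans hfin.symm))⟩
    have hdvd : minpoly E x ∣ P := minpoly.dvd E x (by rw [Polynomial.aeval_def]; exact hroot)
    exact (Polynomial.eq_of_monic_of_dvd_of_natDegree_le (minpoly.monic hint) hP hdvd
      (by rw [hm, hdeg])).symm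
  obtain ⟨hm₀, pb₀, hpb₀⟩ := hprim x₀ P₀ y₀ h₀
  obtain ⟨hP₀, hdeg₀, hroot₀, hy₀, hne₀, hinj₀⟩ := h₀
  have hy₀' : Polynomial.aeval y₀ (minpoly E pb₀.gen) = 0 := by
    rw [hpb₀, hm₀, Polynomial.aeval_def]
    exact hy₀
  have hs₀ : pb₀.lift y₀ hy₀' x₀ = y₀ := by
    conv_lhs => rw [← hpb₀]
    exact pb₀.lift_gen y₀ hy₀'
  refine ⟨pb₀.lift y₀ hy₀', ?_⟩
  intro x P y hG
  obtain ⟨-, pb, hpb⟩ := hprim x P y hG
  obtain ⟨hP, hdeg, hroot, hy, hne, hinj⟩ := hG
  by_contra hsx
  have hne0 : P.map (algebraMap E Ω) ≠ 0 := (hP.map _).ne_zero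
  have hrs : (P.map (algebraMap E Ω)).IsRoot (pb₀.lift y₀ hy₀' x) := by
    rw [Polynomial.IsRoot.def, Polynomial.eval_map, ← Polynomial.aeval_def,
      Polynomial.aeval_algHom_apply, Polynomial.aeval_def, hroot, map_zero]
  have hrσ : ∀ b, (P.map (algebraMap E Ω)).IsRoot (σ b x) := by
    intro b
    rw [Polynomial.IsRoot.def, Polynomial.eval_map, ← Polynomial.aeval_def,
      Polynomial.aeval_algHom_apply, Polynomial.aeval_def, hroot, map_zero]
  have hry : (P.map (algebraMap E Ω)).IsRoot y := by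
    rw [Polynomial.IsRoot.def, Polynomial.eval_map]
    exact hy
  have hsσ : ∀ b < n, σ b x ≠ pb₀.lift y₀ hy₀' x := by
    intro b hb h
    have heq : σ b = pb₀.lift y₀ hy₀' := pb.algHom_ext (by rw [hpb]; exact h)
    apply hne₀ b hb
    show σ b x₀ = y₀
    rw [heq]
    exact hs₀
  have hZsub : (insert (pb₀.lift y₀ hy₀' x)
      (insert y ((Finset.range n).image (fun b => σ b x)))).val ⊆
      (P.map (algebraMap E Ω)).roots := by
    intro z hz
    rw [Finset.mem_val] at hz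
    rw [Polynomial.mem_roots hne0]
    simp only [Finset.mem_insert, Finset.mem_image, Finset.mem_range] at hz
    rcases hz with rfl | rfl | ⟨b, -, rfl⟩
    · exact hrs
    · exact hry
    · exact hrσ b
  have hZcard : (insert (pb₀.lift y₀ hy₀' x)
      (insert y ((Finset.range n).image (fun b => σ b x)))).card = n + 2 := by
    rw [Finset.card_insert_of_notMem, Finset.card_insert_of_notMem,
      Finset.card_image_of_injOn, Finset.card_range]
    · intro b hb b' hb' h
      exact hinj b (Finset.mem_range.mp hb) b' (Finset.mem_range.mp hb') h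
    · simp only [Finset.mem_image, Finset.mem_range, not_exists, not_and]
      intro b hb h
      exact hne b hb h
    · simp only [Finset.mem_insert, Finset.mem_image, Finset.mem_range, not_or, not_exists,
        not_and]
      exact ⟨hsx, fun b hb h => hsσ b hb h⟩
  have hcard := Polynomial.card_le_degree_of_subset_roots hZsub
  rw [hZcard, hP.natDegree_map, hdeg] at hcard
  omega

/-- Ring-homomorphism form of `krsi_abstract_alg`. -/
theorem krsi_abstract {E L Ω : Type} [Field E] [Field L] [Field Ω]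
    (β : E →+* L) (ι : E →+* Ω) (n : ℕ) (hn : 2 ≤ n)
    (hfin : @Module.finrank E L _ _ β.toAlgebra.toModule = n + 1)
    (σ : ℕ → (L →+* Ω)) (hσ : ∀ b, (σ b).comp β = ι)
    (x₀ : L) (P₀ : E[X]) (y₀ : Ω) (h₀ : krsi_Good β ι n σ x₀ P₀ y₀) :
    ∃ s : L →+* Ω, s.comp β = ι ∧
      ∀ (x : L) (P : E[X]) (y : Ω), krsi_Good β ι n σ x P y → s x = y := by
  let _instL : Algebra E L := β.toAlgebra
  let _instΩ : Algebra E Ω := ι.toAlgebra
  let σ' : ℕ → (L →ₐ[E] Ω) := fun b =>
    { toRingHom := σ b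
      commutes' := fun r => RingHom.congr_fun (hσ b) r }
  obtain ⟨s, hs⟩ := krsi_abstract_alg n hn hfin σ' x₀ P₀ y₀ h₀
  refine ⟨s.toRingHom, ?_, fun x P y hG => hs x P y hG⟩
  ext r
  exact s.commutes r

/-! ## The concrete objects -/

/-- `j(q^d)` lies in `F_M` for `d ∣ M`. -/
theorem krsi_mem (M d : ℕ) [NeZero d] (hd : d ∣ M) :
    qExpand (AlgebraicClosure ℚ) d (jqModC (AlgebraicClosure ℚ)) ∈ modularFunctionFieldBar M := by
  rw [← Fermat.Agent.S18.gb_finl_coeffEmb_qExpand]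
  exact coeffEmb_mem_laurentBaseChange _ (jqd_mem_full M hd)

/-- `j(q^d)` as an element of `F_M`. -/
def krsi_x (M d : ℕ) [NeZero d] (hd : d ∣ M) : ↥(modularFunctionFieldBar M) :=
  ⟨qExpand (AlgebraicClosure ℚ) d (jqModC (AlgebraicClosure ℚ)), krsi_mem M d hd⟩

/-- `ι : F_N → Ω`, `f ↦ f(q^ℓ)`. -/
def krsi_iota (N ℓ : ℕ) [NeZero ℓ] :
    ↥(modularFunctionFieldBar N) →+* LaurentSeries (AlgebraicClosure ℚ) :=
  (qExpand (AlgebraicClosure ℚ) ℓ).comp
    (algebraMap ↥(modularFunctionFieldBar N) (LaurentSeries (AlgebraicClosure ℚ)))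

/-- `σ_c : F_M → Ω`, `f ↦ f(c q)`. -/
def krsi_sigma (M : ℕ) (c : AlgebraicClosure ℚ) (hc : c ≠ 0) :
    ↥(modularFunctionFieldBar M) →+* LaurentSeries (AlgebraicClosure ℚ) :=
  (Fermat.Agent.S28.subst_scaleHom c hc).comp
    (algebraMap ↥(modularFunctionFieldBar M) (LaurentSeries (AlgebraicClosure ℚ)))

/-- Evaluation `ℚ̄[T] → F_N`, `T ↦ j(q^d)`. -/
def krsi_ev (N d : ℕ) [NeZero d] (hd : d ∣ N) :
    Polynomial (AlgebraicClosure ℚ) →+* ↥(modularFunctionFieldBar N) :=
  Polynomial.eval₂RingHom (algebraMap (AlgebraicClosure ℚ) ↥(modularFunctionFieldBar N))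
    (krsi_x N d hd)

theorem krsi_algebraMap_eq_C (a : AlgebraicClosure ℚ) :
    algebraMap (AlgebraicClosure ℚ) (LaurentSeries (AlgebraicClosure ℚ)) a = HahnSeries.C a := by
  rw [algebraMap_laurentSeries_eq_single, HahnSeries.C_apply]

theorem krsi_coe_ev (N d : ℕ) [NeZero d] (hd : d ∣ N) :
    (algebraMap ↥(modularFunctionFieldBar N) (LaurentSeries (AlgebraicClosure ℚ))).comp
        (krsi_ev N d hd) =
      evalL (qExpand (AlgebraicClosure ℚ) d (jqModC (AlgebraicClosure ℚ))) := by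
  refine Polynomial.ringHom_ext (fun a => ?_) ?_
  · rw [RingHom.comp_apply, Fermat.Agent.S28.subst_evalL_C, krsi_ev,
      Polynomial.coe_eval₂RingHom, Polynomial.eval₂_C, ← krsi_algebraMap_eq_C]
    rfl
  · rw [RingHom.comp_apply, Fermat.Agent.S28.subst_evalL_X, krsi_ev,
      Polynomial.coe_eval₂RingHom, Polynomial.eval₂_X]
    rfl

theorem krsi_iota_ev (N ℓ d : ℕ) [NeZero ℓ] [NeZero d] (hd : d ∣ N) :
    (krsi_iota N ℓ).comp (krsi_ev N d hd) =
      evalL (qExpand (AlgebraicClosure ℚ) (ℓ * d) (jqModC (AlgebraicClosure ℚ))) := by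
  rw [krsi_iota, RingHom.comp_assoc, krsi_coe_ev,
    Fermat.Agent.S28.subst_comp_evalL _ (fun a => qExpand_C ℓ a), qExpand_qExpand]

/-- Substituting `q ↦ q^a` in a vanishing statement `Φ(v, u) = 0`. -/
theorem krsi_eval₂_qExpand (a : ℕ) [NeZero a]
    (Φ : Polynomial (Polynomial (AlgebraicClosure ℚ)))
    (u v : LaurentSeries (AlgebraicClosure ℚ)) (h : Φ.eval₂ (evalL u) v = 0) :
    Φ.eval₂ (evalL (qExpand (AlgebraicClosure ℚ) a u)) (qExpand (AlgebraicClosure ℚ) a v) = 0 := by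
  have h' := congrArg (qExpand (AlgebraicClosure ℚ) a) h
  rwa [Polynomial.hom_eval₂, Fermat.Agent.S28.subst_comp_evalL _ (fun c => qExpand_C a c),
    map_zero] at h'

theorem krsi_sigma_beta (N ℓ : ℕ) [NeZero N] [NeZero ℓ] (c : AlgebraicClosure ℚ) (hc : c ≠ 0)
    (hcℓ : c ^ ℓ = 1) :
    (krsi_sigma (N * ℓ) c hc).comp (heckeBetaBar (AlgebraicClosure ℚ) N ℓ).toRingHom =
      krsi_iota N ℓ := by
  ext1 f
  show scale c (qExpand (AlgebraicClosure ℚ) ℓ (f : LaurentSeries (AlgebraicClosure ℚ))) =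
    qExpand (AlgebraicClosure ℚ) ℓ (f : LaurentSeries (AlgebraicClosure ℚ))
  rw [Fermat.Agent.S28.subst_scale_qExpand, hcℓ, Fermat.Agent.S28.subst_scale_one]

theorem krsi_sigma_x (M d : ℕ) [NeZero d] (hd : d ∣ M) (c : AlgebraicClosure ℚ) (hc : c ≠ 0) :
    krsi_sigma M c hc (krsi_x M d hd) = Fermat.Agent.S28.jsub (AlgebraicClosure ℚ) (c ^ d) d := by
  show scale c (qExpand (AlgebraicClosure ℚ) d (jqModC (AlgebraicClosure ℚ))) = _
  rw [Fermat.Agent.S28.subst_scale_qExpand]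
  rfl

/-- Two ring homomorphisms on `F_N` which agree on the constants and on the generators
`j(q^d)`, `d ∣ N`, are equal. -/
theorem krsi_ringHom_ext (N : ℕ) [NeZero N]
    (f g : ↥(modularFunctionFieldBar N) →+* LaurentSeries (AlgebraicClosure ℚ))
    (hc : ∀ c : AlgebraicClosure ℚ,
      f (algebraMap (AlgebraicClosure ℚ) ↥(modularFunctionFieldBar N) c) =
        g (algebraMap (AlgebraicClosure ℚ) ↥(modularFunctionFieldBar N) c))
    (hd : ∀ (d : ℕ) [NeZero d] (_ : d ∣ N)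
      (hmem : qExpand (AlgebraicClosure ℚ) d (jqModC (AlgebraicClosure ℚ)) ∈
        modularFunctionFieldBar N), f ⟨_, hmem⟩ = g ⟨_, hmem⟩) :
    f = g := by
  have hFL := Fermat.Agent.S18.gb_finl_FL_eq N (AlgebraicClosure ℚ)
  have hle : ∀ z : LaurentSeries (AlgebraicClosure ℚ),
      z ∈ IntermediateField.adjoin (AlgebraicClosure ℚ) (divisorExpansionsC (AlgebraicClosure ℚ) N) →
        z ∈ modularFunctionFieldBar N := by
    intro z hz
    have hz' : z ∈ Fermat.Agent.S18.FL (AlgebraicClosure ℚ) N := by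
      rw [hFL]
      exact hz
    exact hz'
  have key : ∀ (z : LaurentSeries (AlgebraicClosure ℚ))
      (_ : z ∈ IntermediateField.adjoin (AlgebraicClosure ℚ)
        (divisorExpansionsC (AlgebraicClosure ℚ) N))
      (hz' : z ∈ modularFunctionFieldBar N), f ⟨z, hz'⟩ = g ⟨z, hz'⟩ := by
    intro z hz
    induction hz using IntermediateField.adjoin_induction with
    | mem y hy =>
      obtain ⟨d, hd0, hdN, rfl⟩ := hy
      intro hz'
      have := hd0
      exact hd d hdN hz'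
    | algebraMap c =>
      intro hz'
      exact hc c
    | add y z hy hz ihy ihz =>
      intro h
      have e : (⟨y + z, h⟩ : ↥(modularFunctionFieldBar N)) = ⟨y, hle y hy⟩ + ⟨z, hle z hz⟩ := rfl
      rw [e, map_add, map_add, ihy, ihz]
    | inv y hy ih =>
      intro h
      have e : (⟨y⁻¹, h⟩ : ↥(modularFunctionFieldBar N)) = (⟨y, hle y hy⟩)⁻¹ := rfl
      rw [e, map_inv₀, map_inv₀, ih]
    | mul y z hy hz ihy ihz =>
      intro h
      have e : (⟨y * z, h⟩ : ↥(modularFunctionFieldBar N)) = ⟨y, hle y hy⟩ * ⟨z, hle z hz⟩ := rfl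
      rw [e, map_mul, map_mul, ihy, ihz]
  ext1 x
  have hx : (x : LaurentSeries (AlgebraicClosure ℚ)) ∈
      IntermediateField.adjoin (AlgebraicClosure ℚ) (divisorExpansionsC (AlgebraicClosure ℚ) N) := by
    have hx' : (x : LaurentSeries (AlgebraicClosure ℚ)) ∈
        modularFunctionFieldFullC (AlgebraicClosure ℚ) N := by
      rw [← hFL]
      exact x.2
    exact hx'
  exact key x hx x.2

theorem krsi_main : kr_FinrankStatement → kr_ModEqIntStatement → kr_SInfStatement := by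
  intro hFin hMod N ℓ _ _ hℓ hN
  obtain ⟨ζ, hζ⟩ := HasEnoughRootsOfUnity.exists_primitiveRoot (AlgebraicClosure ℚ) ℓ
  obtain ⟨Φ, hΦm, hΦd, -, -, hΦ1, hΦ2⟩ := hMod ℓ hℓ ζ hζ
  have hζ0 : ∀ b : ℕ, ζ ^ b ≠ 0 := fun b => pow_ne_zero b (hζ.ne_zero (NeZero.ne ℓ))
  have hζℓ : ∀ b : ℕ, (ζ ^ b) ^ ℓ = 1 := fun b => by
    rw [← pow_mul, mul_comm, pow_mul, hζ.pow_eq_one, one_pow]
  have h1 : Φ.eval₂ (evalL (qExpand (AlgebraicClosure ℚ) ℓ (jqModC (AlgebraicClosure ℚ))))
      (jqModC (AlgebraicClosure ℚ)) = 0 := by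
    rw [← Polynomial.eval_map]
    exact hΦ1
  have h2 : Φ.eval₂ (evalL (jqModC (AlgebraicClosure ℚ)))
      (qExpand (AlgebraicClosure ℚ) ℓ (jqModC (AlgebraicClosure ℚ))) = 0 := by
    rw [← Polynomial.eval_map]
    exact hΦ2
  -- the good triples
  have hgood : ∀ (d : ℕ) [NeZero d] (hd : d ∣ N),
      krsi_Good (heckeBetaBar (AlgebraicClosure ℚ) N ℓ).toRingHom (krsi_iota N ℓ) ℓ
        (fun b => krsi_sigma (N * ℓ) (ζ ^ b) (hζ0 b))
        (krsi_x (N * ℓ) d (hd.mul_right ℓ)) (Φ.map (krsi_ev N d hd))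
        (qExpand (AlgebraicClosure ℚ) (ℓ * ℓ)
          (qExpand (AlgebraicClosure ℚ) d (jqModC (AlgebraicClosure ℚ)))) := by
    intro d _ hd
    refine ⟨hΦm.map _, by rw [hΦm.natDegree_map, hΦd], ?_, ?_, ?_, ?_⟩
    · -- `x_d` is a root of `P_d` along `β`
      apply (algebraMap ↥(modularFunctionFieldBar (N * ℓ))
        (LaurentSeries (AlgebraicClosure ℚ))).injective
      rw [Polynomial.hom_eval₂, map_zero, Polynomial.eval₂_map]
      have e1 : (algebraMap ↥(modularFunctionFieldBar (N * ℓ))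
          (LaurentSeries (AlgebraicClosure ℚ))).comp
            (heckeBetaBar (AlgebraicClosure ℚ) N ℓ).toRingHom = krsi_iota N ℓ := rfl
      rw [e1, krsi_iota_ev]
      have h3 := krsi_eval₂_qExpand d Φ _ _ h1
      rw [qExpand_qExpand] at h3
      rw [qExpand_congr (mul_comm ℓ d)]
      exact h3
    · -- `y_d` is a root of `P_d` along `ι`
      rw [Polynomial.eval₂_map, krsi_iota_ev]
      have h3 := krsi_eval₂_qExpand (ℓ * d) Φ _ _ h2
      rw [qExpand_qExpand] at h3
      rw [qExpand_qExpand, qExpand_congr (show ℓ * ℓ * d = ℓ * d * ℓ by ring)]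
      exact h3
    · -- `σ_b x_d ≠ y_d`
      intro b hb h
      have h' : Fermat.Agent.S28.jsub (AlgebraicClosure ℚ) ((ζ ^ b) ^ d) d =
          Fermat.Agent.S28.jsub (AlgebraicClosure ℚ) 1 (ℓ * ℓ * d) := by
        rw [← krsi_sigma_x (N * ℓ) d (hd.mul_right ℓ) (ζ ^ b) (hζ0 b),
          Fermat.Agent.S28.subst_jsub_one, ← qExpand_qExpand]
        exact h
      have h3 := (Fermat.Agent.S28.subst_jsub_eq_iff (AlgebraicClosure ℚ) _ _
        (pow_ne_zero d (hζ0 b)) one_ne_zero _ _ h').1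
      have hd0 : 0 < d := Nat.pos_of_ne_zero (NeZero.ne d)
      have hℓ2 := hℓ.two_le
      have h4 : 4 ≤ ℓ * ℓ := Nat.mul_le_mul hℓ2 hℓ2
      have h5 : 4 * d ≤ ℓ * ℓ * d := Nat.mul_le_mul_right d h4
      omega
    · -- injectivity
      intro b hb b' hb' h
      have h' : Fermat.Agent.S28.jsub (AlgebraicClosure ℚ) ((ζ ^ b) ^ d) d =
          Fermat.Agent.S28.jsub (AlgebraicClosure ℚ) ((ζ ^ b') ^ d) d := by
        rw [← krsi_sigma_x (N * ℓ) d (hd.mul_right ℓ) (ζ ^ b) (hζ0 b),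
          ← krsi_sigma_x (N * ℓ) d (hd.mul_right ℓ) (ζ ^ b') (hζ0 b')]
        exact h
      have h3 := (Fermat.Agent.S28.subst_jsub_eq_iff (AlgebraicClosure ℚ) _ _
        (pow_ne_zero d (hζ0 b)) (pow_ne_zero d (hζ0 b')) _ _ h').2
      have hcop : Nat.Coprime d ℓ :=
        Nat.Coprime.symm ((Nat.Prime.coprime_iff_not_dvd hℓ).mpr (fun h => hN (h.trans hd)))
      have hprim : IsPrimitiveRoot (ζ ^ d) ℓ := hζ.pow_of_coprime d hcop
      rw [← pow_mul, ← pow_mul, mul_comm b d, mul_comm b' d, pow_mul, pow_mul] at h3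
      exact hprim.pow_inj hb hb' h3
  obtain ⟨s, hsβ, hs⟩ := krsi_abstract (heckeBetaBar (AlgebraicClosure ℚ) N ℓ).toRingHom
    (krsi_iota N ℓ) ℓ hℓ.two_le (hFin N ℓ hℓ hN)
    (fun b => krsi_sigma (N * ℓ) (ζ ^ b) (hζ0 b))
    (fun b => krsi_sigma_beta N ℓ _ (hζ0 b) (hζℓ b)) _ _ _ (hgood 1 (one_dvd N))
  refine ⟨s, fun f => RingHom.congr_fun hsβ f, fun g => ?_⟩
  have heq : s.comp (heckeAlphaBar (AlgebraicClosure ℚ) N ℓ).toRingHom =
      (qExpand (AlgebraicClosure ℚ) (ℓ * ℓ)).comp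
        (algebraMap ↥(modularFunctionFieldBar N) (LaurentSeries (AlgebraicClosure ℚ))) := by
    apply krsi_ringHom_ext N
    · intro c
      show s (heckeAlphaBar (AlgebraicClosure ℚ) N ℓ
          (algebraMap (AlgebraicClosure ℚ) ↥(modularFunctionFieldBar N) c)) =
        qExpand (AlgebraicClosure ℚ) (ℓ * ℓ)
          (algebraMap (AlgebraicClosure ℚ) (LaurentSeries (AlgebraicClosure ℚ)) c)
      rw [AlgHom.commutes, ← (heckeBetaBar (AlgebraicClosure ℚ) N ℓ).commutes c]
      have h3 := RingHom.congr_fun hsβ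
        (algebraMap (AlgebraicClosure ℚ) ↥(modularFunctionFieldBar N) c)
      rw [show s (heckeBetaBar (AlgebraicClosure ℚ) N ℓ
          (algebraMap (AlgebraicClosure ℚ) ↥(modularFunctionFieldBar N) c)) =
        krsi_iota N ℓ (algebraMap (AlgebraicClosure ℚ) ↥(modularFunctionFieldBar N) c) from h3]
      show qExpand (AlgebraicClosure ℚ) ℓ
          (algebraMap (AlgebraicClosure ℚ) (LaurentSeries (AlgebraicClosure ℚ)) c) =
        qExpand (AlgebraicClosure ℚ) (ℓ * ℓ)
          (algebraMap (AlgebraicClosure ℚ) (LaurentSeries (AlgebraicClosure ℚ)) c)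
      rw [krsi_algebraMap_eq_C, qExpand_C, qExpand_C]
    · intro d _ hd hmem
      exact hs _ _ _ (hgood d hd)
  exact RingHom.congr_fun heq g

end

end Fermat.Agent.S37
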