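/-
S37, block KR, package KRSInf (twin C, prefix `krsk_`): the extra embedding `s_∞`.

Deliverable: `krsk_main : kr_FinrankStatement → kr_ModEqIntStatement → kr_SInfStatement`.

Sketch.  `E = F_N`, `L = F_{Nℓ}` (an `E`-algebra along `β`), `Ω = ℚ̄((q))` (an `E`-algebra along
`ι : f ↦ f(q^ℓ)`), `[L : E] = ℓ + 1`.
* Abstract part (`krsk_exists_ringHom`): given `n ≥ 2` ring homomorphisms `σ_b : L → Ω` over `E`
  (`b < n = [L : E] - 1`) and `x₀ ∈ L` with pairwise distinct `σ_b x₀`, killed by a monic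
  `P₀ ∈ E[X]` of degree `n + 1` having a further root `y₀ ≠ σ_b x₀` in `Ω`, there is a ring
  homomorphism `s : L → Ω` over `E` with `s x₀ = y₀`; moreover `s x = y` whenever the `σ_b x` are
  pairwise distinct and `x` is killed by some `P ∈ E[X]` which becomes
  `(X - y) ∏_b (X - z_b)` over `Ω` with every `z_b` among the `σ_{b'} x`.
  (`E(x) = L` by counting embeddings; `s x = z_b = σ_{b'} x` would force `s = σ_{b'}`.)
* Application: `σ_b = ` substitution `q ↦ ζ^b q`, `x = j(q^d)` (`d ∣ N`), `y = j(q^{dℓ²})`,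
  `P = Φ(X, j(q^d))` with `Φ` the modular polynomial of level `ℓ`, `z_b = j(ζ^b q^d)`.
  Finally `s ∘ α` and `g ↦ g(q^{ℓ²})` agree on `ℚ̄` and on the generators `j(q^d)` of `F_N`.
-/
import Fermat.Agent.S37.KRInterfaces2
import Fermat.Agent.S28.Subst
import Fermat.Agent.S18.GBFin

set_option autoImplicit false

open AlgebraicCurve ModularCurve IntermediateField Polynomial
open Fermat.Agent.S28 (scale evalL jsub)

namespace Fermat.Agent.S37

noncomputable section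

/-! ## Abstract field theory -/

section krsk_abstract

variable {E L Ω : Type} [Field E] [Field L] [Field Ω] [Algebra E L] [Algebra E Ω]

/-- If `n ≥ 2` embeddings separate `x` and `[L : E] = n + 1`, then `E(x) = L`. -/
theorem krsk_adjoin_eq_top [FiniteDimensional E L] {n : ℕ} (hn : 2 ≤ n)
    (hfin : Module.finrank E L = n + 1) (τ : Fin n → (L →ₐ[E] Ω)) (x : L)
    (hinj : Function.Injective fun i => τ i x) :
    (minpoly E x).natDegree = n + 1 ∧ Algebra.adjoin E {x} = ⊤ := by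
  have hx : IsIntegral E x := IsIntegral.of_finite E x
  have hmon := minpoly.monic hx
  have h1 : n ≤ (minpoly E x).natDegree := by
    classical
    have hmap : ((minpoly E x).map (algebraMap E Ω)).Monic := hmon.map _
    have hsub : (Finset.univ.image fun i => τ i x).val ⊆
        ((minpoly E x).map (algebraMap E Ω)).roots := by
      intro y hy
      rw [Finset.mem_val, Finset.mem_image] at hy
      obtain ⟨i, -, rfl⟩ := hy
      rw [Polynomial.mem_roots hmap.ne_zero, Polynomial.IsRoot.def,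
        Polynomial.eval_map_algebraMap, Polynomial.aeval_algHom_apply, minpoly.aeval, map_zero]
    have h2 := Polynomial.card_le_degree_of_subset_roots hsub
    rw [Finset.card_image_of_injective _ hinj, Finset.card_univ, Fintype.card_fin,
      hmon.natDegree_map] at h2
    exact h2
  have h3 : Module.finrank E E⟮x⟯ = (minpoly E x).natDegree := IntermediateField.adjoin.finrank hx
  have h4 : Module.finrank E E⟮x⟯ * Module.finrank E⟮x⟯ L = Module.finrank E L :=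
    Module.finrank_mul_finrank E E⟮x⟯ L
  rw [h3, hfin] at h4
  have h5 : (minpoly E x).natDegree = n + 1 := by
    generalize (minpoly E x).natDegree = m at h1 h4
    generalize Module.finrank E⟮x⟯ L = c at h4
    rcases Nat.lt_or_ge c 2 with hc | hc
    · interval_cases c
      · omega
      · omega
    · have h6 : m * 2 ≤ m * c := Nat.mul_le_mul_left m hc
      omega
  refine ⟨h5, ?_⟩
  have h6 : E⟮x⟯ = ⊤ := by
    apply IntermediateField.eq_of_le_of_finrank_eq le_top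
    rw [h3, h5, IntermediateField.finrank_top', hfin]
  rw [← IntermediateField.adjoin_simple_eq_top_iff_of_isAlgebraic hx.isAlgebraic]
  exact h6

/-- The extra embedding, algebra version. -/
theorem krsk_exists_algHom [FiniteDimensional E L] {n : ℕ} (hn : 2 ≤ n)
    (hfin : Module.finrank E L = n + 1) (τ : Fin n → (L →ₐ[E] Ω))
    (x₀ : L) (y₀ : Ω) (P₀ : Polynomial E)
    (hinj₀ : Function.Injective fun i => τ i x₀)
    (hP₀ : Polynomial.aeval x₀ P₀ = 0) (hmonic : P₀.Monic) (hdeg : P₀.natDegree = n + 1)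
    (hroot₀ : Polynomial.aeval y₀ P₀ = 0)
    (hy : ∀ i, y₀ ≠ τ i x₀) :
    ∃ s : L →ₐ[E] Ω, s x₀ = y₀ ∧
      ∀ (x : L) (y : Ω) (P : Polynomial E) (z : ℕ → Ω),
        (Function.Injective fun i => τ i x) →
        Polynomial.aeval x P = 0 →
        P.map (algebraMap E Ω) = (X - C y) * ∏ b ∈ Finset.range n, (X - C (z b)) →
        (∀ b < n, ∃ i, z b = τ i x) →
        s x = y := by
  obtain ⟨hdeg₀, htop₀⟩ := krsk_adjoin_eq_top hn hfin τ x₀ hinj₀
  have hx₀ : IsIntegral E x₀ := IsIntegral.of_finite E _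
  have hmin : minpoly E x₀ = P₀ :=
    (Polynomial.eq_of_monic_of_dvd_of_natDegree_le (minpoly.monic hx₀) hmonic
      (minpoly.dvd E _ hP₀) (by rw [hdeg, hdeg₀])).symm
  let pb := PowerBasis.ofAdjoinEqTop hx₀ htop₀
  have hy₀ : Polynomial.aeval y₀ (minpoly E pb.gen) = 0 := by
    show Polynomial.aeval y₀ (minpoly E x₀) = 0
    rw [hmin]; exact hroot₀
  have hs₀ : pb.lift y₀ hy₀ x₀ = y₀ := pb.lift_gen y₀ hy₀
  refine ⟨pb.lift y₀ hy₀, hs₀, fun x y P z hinj hP hPfac hz => ?_⟩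
  have h1 : Polynomial.aeval (pb.lift y₀ hy₀ x) P = 0 := by
    rw [Polynomial.aeval_algHom_apply, hP, map_zero]
  rw [← Polynomial.eval_map_algebraMap, hPfac, Polynomial.eval_mul, Polynomial.eval_sub,
    Polynomial.eval_X, Polynomial.eval_C, Polynomial.eval_prod, mul_eq_zero, sub_eq_zero,
    Finset.prod_eq_zero_iff] at h1
  rcases h1 with h | ⟨b, hb, h⟩
  · exact h
  · exfalso
    rw [Polynomial.eval_sub, Polynomial.eval_X, Polynomial.eval_C, sub_eq_zero] at h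
    obtain ⟨i, hi⟩ := hz b (Finset.mem_range.mp hb)
    rw [hi] at h
    obtain ⟨-, htop⟩ := krsk_adjoin_eq_top hn hfin τ x hinj
    have heq : pb.lift y₀ hy₀ = τ i := by
      apply AlgHom.ext_of_adjoin_eq_top htop
      intro w hw
      rw [Set.mem_singleton_iff] at hw
      subst hw
      exact h
    apply hy i
    rw [← hs₀, heq]

end krsk_abstract

/-- The extra embedding, ring homomorphism version. -/
theorem krsk_exists_ringHom {E L Ω : Type} [Field E] [Field L] [Field Ω] (φ : E →+* L)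
    (ι : E →+* Ω) {n : ℕ} (hn : 2 ≤ n)
    (hfin : letI := φ.toAlgebra; Module.finrank E L = n + 1)
    (σ : ℕ → (L →+* Ω)) (hσ : ∀ b < n, (σ b).comp φ = ι)
    (x₀ : L) (y₀ : Ω) (P₀ : Polynomial E)
    (hinj₀ : ∀ b < n, ∀ b' < n, σ b x₀ = σ b' x₀ → b = b')
    (hP₀ : P₀.eval₂ φ x₀ = 0) (hmonic : P₀.Monic) (hdeg : P₀.natDegree = n + 1)
    (hroot₀ : (P₀.map ι).eval y₀ = 0)
    (hy : ∀ b < n, y₀ ≠ σ b x₀) :
    ∃ s : L →+* Ω, s.comp φ = ι ∧ s x₀ = y₀ ∧
      ∀ (x : L) (y : Ω) (P : Polynomial E) (z : ℕ → Ω),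
        (∀ b < n, ∀ b' < n, σ b x = σ b' x → b = b') →
        P.eval₂ φ x = 0 →
        P.map ι = (X - C y) * ∏ b ∈ Finset.range n, (X - C (z b)) →
        (∀ b < n, ∃ b' < n, z b = σ b' x) →
        s x = y := by
  let _ : Algebra E L := φ.toAlgebra
  let _ : Algebra E Ω := ι.toAlgebra
  have : FiniteDimensional E L := Module.finite_of_finrank_pos (by rw [hfin]; omega)
  let τ : Fin n → (L →ₐ[E] Ω) := fun i =>
    { σ i with
      commutes' := fun e => by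
        show σ i (φ e) = ι e
        rw [← hσ i i.2]; rfl }
  have hτ : ∀ (i : Fin n) (w : L), τ i w = σ i w := fun _ _ => rfl
  obtain ⟨s, hs₀, hs⟩ := krsk_exists_algHom hn hfin τ x₀ y₀ P₀
    (fun i i' h => Fin.ext (hinj₀ i i.2 i' i'.2 h)) hP₀ hmonic hdeg
    (by rw [← Polynomial.eval_map_algebraMap]; exact hroot₀) (fun i => hy i i.2)
  refine ⟨s.toRingHom, ?_, hs₀, fun x y P z hinj hP hPfac hz => ?_⟩
  · ext e
    exact s.commutes e
  · refine hs x y P z (fun i i' h => Fin.ext (hinj i i.2 i' i'.2 h)) hP hPfac ?_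
    intro b hb
    obtain ⟨b', hb', h⟩ := hz b hb
    exact ⟨⟨b', hb'⟩, h⟩

/-! ## `q`-series computations over a field -/

section krsk_series

variable {k : Type} [Field k]

theorem krsk_algebraMap_eq_C (a : k) :
    algebraMap k (LaurentSeries k) a = HahnSeries.C a := by
  rw [algebraMap_laurentSeries_eq_single, HahnSeries.C_apply]

/-- Evaluation homomorphisms followed by a ring homomorphism to `k((q))` fixing the constants. -/
theorem krsk_comp_eval₂ {R : Type} [CommRing R] (f : k →+* R) (g : R)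
    (ψ : R →+* LaurentSeries k) (hψ : ∀ a, ψ (f a) = HahnSeries.C a) :
    ψ.comp (Polynomial.eval₂RingHom f g) = evalL (ψ g) := by
  refine Polynomial.ringHom_ext (fun a => ?_) ?_
  · rw [RingHom.comp_apply, Polynomial.coe_eval₂RingHom, Polynomial.eval₂_C, hψ,
      Fermat.Agent.S28.subst_evalL_C]
  · rw [RingHom.comp_apply, Polynomial.coe_eval₂RingHom, Polynomial.eval₂_X,
      Fermat.Agent.S28.subst_evalL_X]

theorem krsk_scale_pow_qExpand (ζ : k) (ℓ : ℕ) [NeZero ℓ] (hζ : ζ ^ ℓ = 1) (b : ℕ)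
    (f : LaurentSeries k) : scale (ζ ^ b) (qExpand k ℓ f) = qExpand k ℓ f := by
  rw [Fermat.Agent.S28.subst_scale_qExpand, pow_right_comm, hζ, one_pow,
    Fermat.Agent.S28.subst_scale_one]

theorem krsk_scale_jd (c : k) (d : ℕ) [NeZero d] :
    scale c (qExpand k d (jqModC k)) = jsub k (c ^ d) d := by
  rw [Fermat.Agent.S28.subst_scale_qExpand, jsub]

theorem krsk_jsub_one_pow (m a : ℕ) [NeZero a] :
    jsub k (1 ^ m) a = qExpand k a (jqModC k) := by
  rw [one_pow, Fermat.Agent.S28.subst_jsub_one]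

/-- `Φ(j(q^d), j(q^{dℓ})) = 0`. -/
theorem krsk_modEq_vanish (ℓ d : ℕ) [NeZero ℓ] [NeZero d] (Φ : Polynomial (Polynomial k))
    (h0 : (Φ.map (evalL (qExpand k ℓ (jqModC k)))).eval (jqModC k) = 0) :
    Φ.eval₂ (evalL (qExpand k ℓ (qExpand k d (jqModC k)))) (qExpand k d (jqModC k)) = 0 := by
  have h1 := congrArg (qExpand k d) h0
  rw [map_zero, Polynomial.eval_map, Polynomial.hom_eval₂,
    Fermat.Agent.S28.subst_comp_evalL (qExpand k d) (fun a => qExpand_C d a),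
    qExpand_qExpand] at h1
  rw [qExpand_qExpand, qExpand_congr (mul_comm ℓ d)]
  exact h1

/-- The factorisation of `Φ(X, j(q^{dℓ}))`. -/
theorem krsk_modEq_fac (ℓ d : ℕ) [NeZero ℓ] [NeZero d] (ζ : k) (Φ : Polynomial (Polynomial k))
    (h : Φ.map (evalL (qExpand k ℓ (jqModC k))) =
      (X - C (qExpand k (ℓ * ℓ) (jqModC k))) *
        ∏ b ∈ Finset.range ℓ, (X - C (scale (ζ ^ b) (jqModC k)))) :
    Φ.map (evalL (qExpand k ℓ (qExpand k d (jqModC k)))) =
      (X - C (qExpand k (ℓ * ℓ) (qExpand k d (jqModC k)))) *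
        ∏ b ∈ Finset.range ℓ, (X - C (jsub k (ζ ^ b) d)) := by
  have h1 := Fermat.Agent.S28.subst_modEq k ℓ ζ Φ h 1 one_ne_zero d
  rw [krsk_jsub_one_pow, krsk_jsub_one_pow] at h1
  rw [qExpand_qExpand, qExpand_qExpand, qExpand_congr (mul_comm ℓ d),
    qExpand_congr (mul_comm (ℓ * ℓ) d), h1]
  congr 1
  refine Finset.prod_congr rfl fun b _ => ?_
  rw [mul_one]

theorem krsk_pow_inj (ζ : k) (ℓ d : ℕ) (hζ : IsPrimitiveRoot ζ ℓ) (hd : Nat.Coprime d ℓ)
    (b b' : ℕ) (hb : b < ℓ) (hb' : b' < ℓ) (h : (ζ ^ b) ^ d = (ζ ^ b') ^ d) : b = b' := by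
  have h1 : IsPrimitiveRoot (ζ ^ d) ℓ := hζ.pow_of_coprime d hd
  apply h1.pow_inj hb hb'
  rw [pow_right_comm ζ d b, h, pow_right_comm ζ b' d]

theorem krsk_exists_pow (ζ : k) (ℓ d : ℕ) [NeZero ℓ] (hζ : IsPrimitiveRoot ζ ℓ)
    (hd : Nat.Coprime d ℓ) (b : ℕ) : ∃ b' < ℓ, ζ ^ b = (ζ ^ b') ^ d := by
  have h1 : IsPrimitiveRoot (ζ ^ d) ℓ := hζ.pow_of_coprime d hd
  obtain ⟨i, hi, h⟩ := h1.eq_pow_of_pow_eq_one (ξ := ζ ^ b)
    (by rw [pow_right_comm, hζ.pow_eq_one, one_pow])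
  exact ⟨i, hi, by rw [← h, pow_right_comm]⟩

/-- Two ring homomorphisms on `k(S)` agreeing on `k` and on `S` are equal. -/
theorem krsk_ringHom_ext {A B : Type} [Field A] [Algebra k A] [Field B] (S : Set A)
    (F : IntermediateField k A) (hF : F = IntermediateField.adjoin k S) (f g : ↥F →+* B)
    (hk : ∀ c : k, f (algebraMap k ↥F c) = g (algebraMap k ↥F c))
    (hS : ∀ (x : A) (hx : x ∈ F), x ∈ S → f ⟨x, hx⟩ = g ⟨x, hx⟩) : f = g := by
  subst hF
  ext ⟨x, hx⟩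
  induction hx using IntermediateField.adjoin_induction with
  | mem y hy => exact hS y _ hy
  | algebraMap c => exact hk c
  | add y z hy hz ihy ihz =>
    have e : (⟨y + z, add_mem hy hz⟩ : ↥(IntermediateField.adjoin k S)) = ⟨y, hy⟩ + ⟨z, hz⟩ := rfl
    rw [e, map_add, map_add, ihy, ihz]
  | inv y hy ihy =>
    have e : (⟨y⁻¹, inv_mem hy⟩ : ↥(IntermediateField.adjoin k S)) = ⟨y, hy⟩⁻¹ := rfl
    rw [e, map_inv₀, map_inv₀, ihy]
  | mul y z hy hz ihy ihz =>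
    have e : (⟨y * z, mul_mem hy hz⟩ : ↥(IntermediateField.adjoin k S)) = ⟨y, hy⟩ * ⟨z, hz⟩ := rfl
    rw [e, map_mul, map_mul, ihy, ihz]

end krsk_series

/-! ## The modular function fields -/

section krsk_modular

theorem krsk_mem (N : ℕ) [NeZero N] (d : ℕ) [NeZero d] (hd : d ∣ N) :
    qExpand (AlgebraicClosure ℚ) d (jqModC (AlgebraicClosure ℚ)) ∈ modularFunctionFieldBar N := by
  have h := Fermat.Agent.S18.gb_finl_FL_eq N (AlgebraicClosure ℚ)
  show _ ∈ Fermat.Agent.S18.FL (AlgebraicClosure ℚ) N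
  rw [h]
  exact jqModCd_mem_full _ N hd

/-- The generator `j(q^d)` of `F_N`, `d ∣ N`. -/
def krsk_gen (N : ℕ) [NeZero N] (d : ℕ) [NeZero d] (hd : d ∣ N) :
    ↥(modularFunctionFieldBar N) :=
  ⟨qExpand (AlgebraicClosure ℚ) d (jqModC (AlgebraicClosure ℚ)), krsk_mem N d hd⟩

/-- `ι : F_N → Ω`, `f ↦ f(q^ℓ)`. -/
def krsk_iota (N ℓ : ℕ) [NeZero ℓ] :
    ↥(modularFunctionFieldBar N) →+* LaurentSeries (AlgebraicClosure ℚ) :=
  (qExpand (AlgebraicClosure ℚ) ℓ).comp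
    (algebraMap ↥(modularFunctionFieldBar N) (LaurentSeries (AlgebraicClosure ℚ)))

/-- `σ_b : F_M → Ω`, `x ↦ x(ζ^b q)`. -/
def krsk_sigma (M : ℕ) (ζ : AlgebraicClosure ℚ) (hζ : ζ ≠ 0) (b : ℕ) :
    ↥(modularFunctionFieldBar M) →+* LaurentSeries (AlgebraicClosure ℚ) :=
  (Fermat.Agent.S28.subst_scaleHom (ζ ^ b) (pow_ne_zero b hζ)).comp
    (algebraMap ↥(modularFunctionFieldBar M) (LaurentSeries (AlgebraicClosure ℚ)))

/-- `θ_d : ℚ̄[T] → F_N`, `T ↦ j(q^d)`. -/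
def krsk_theta (N : ℕ) [NeZero N] (d : ℕ) [NeZero d] (hd : d ∣ N) :
    Polynomial (AlgebraicClosure ℚ) →+* ↥(modularFunctionFieldBar N) :=
  Polynomial.eval₂RingHom (algebraMap (AlgebraicClosure ℚ) ↥(modularFunctionFieldBar N))
    (krsk_gen N d hd)

theorem krsk_sigma_comp_beta (N ℓ : ℕ) [NeZero N] [NeZero ℓ] (ζ : AlgebraicClosure ℚ)
    (hζ : ζ ≠ 0) (hζℓ : ζ ^ ℓ = 1) (b : ℕ) :
    (krsk_sigma (N * ℓ) ζ hζ b).comp (heckeBetaBar (AlgebraicClosure ℚ) N ℓ).toRingHom =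
      krsk_iota N ℓ := by
  ext1 f
  show scale (ζ ^ b) ((heckeBetaBar (AlgebraicClosure ℚ) N ℓ f :
      ↥(modularFunctionFieldBar (N * ℓ))) : LaurentSeries (AlgebraicClosure ℚ)) =
    qExpand (AlgebraicClosure ℚ) ℓ (f : LaurentSeries (AlgebraicClosure ℚ))
  rw [coe_heckeBetaBar, krsk_scale_pow_qExpand ζ ℓ hζℓ b]

theorem krsk_iota_comp_theta (N ℓ : ℕ) [NeZero N] [NeZero ℓ] (d : ℕ) [NeZero d] (hd : d ∣ N) :
    (krsk_iota N ℓ).comp (krsk_theta N d hd) =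
      evalL (qExpand (AlgebraicClosure ℚ) ℓ
        (qExpand (AlgebraicClosure ℚ) d (jqModC (AlgebraicClosure ℚ)))) := by
  refine krsk_comp_eval₂ _ (krsk_gen N d hd) (krsk_iota N ℓ) (fun a => ?_)
  show qExpand (AlgebraicClosure ℚ) ℓ
    (algebraMap (AlgebraicClosure ℚ) (LaurentSeries (AlgebraicClosure ℚ)) a) = HahnSeries.C a
  rw [krsk_algebraMap_eq_C, qExpand_C]

theorem krsk_sigma_gen (N ℓ : ℕ) [NeZero N] [NeZero ℓ] (ζ : AlgebraicClosure ℚ) (hζ : ζ ≠ 0)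
    (b : ℕ) (d : ℕ) [NeZero d] (hd : d ∣ N) :
    krsk_sigma (N * ℓ) ζ hζ b (heckeAlphaBar (AlgebraicClosure ℚ) N ℓ (krsk_gen N d hd)) =
      jsub (AlgebraicClosure ℚ) ((ζ ^ b) ^ d) d :=
  krsk_scale_jd (ζ ^ b) d

/-- `P_d(x_d) = 0` along `β`. -/
theorem krsk_hP0 (N ℓ : ℕ) [NeZero N] [NeZero ℓ] (d : ℕ) [NeZero d] (hd : d ∣ N)
    (Φ : Polynomial (Polynomial (AlgebraicClosure ℚ)))
    (hΦ0 : (Φ.map (evalL (qExpand (AlgebraicClosure ℚ) ℓ (jqModC (AlgebraicClosure ℚ))))).eval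
        (jqModC (AlgebraicClosure ℚ)) = 0) :
    (Φ.map (krsk_theta N d hd)).eval₂ (heckeBetaBar (AlgebraicClosure ℚ) N ℓ).toRingHom
      (heckeAlphaBar (AlgebraicClosure ℚ) N ℓ (krsk_gen N d hd)) = 0 := by
  apply (algebraMap ↥(modularFunctionFieldBar (N * ℓ))
    (LaurentSeries (AlgebraicClosure ℚ))).injective
  rw [map_zero, Polynomial.eval₂_map, Polynomial.hom_eval₂, ← RingHom.comp_assoc]
  have h1 : (algebraMap ↥(modularFunctionFieldBar (N * ℓ))
      (LaurentSeries (AlgebraicClosure ℚ))).comp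
        (heckeBetaBar (AlgebraicClosure ℚ) N ℓ).toRingHom = krsk_iota N ℓ :=
    RingHom.ext fun f => rfl
  rw [h1, krsk_iota_comp_theta]
  exact krsk_modEq_vanish ℓ d Φ hΦ0

/-- The factorisation of `P_d` over `Ω`. -/
theorem krsk_hPfac (N ℓ : ℕ) [NeZero N] [NeZero ℓ] (d : ℕ) [NeZero d] (hd : d ∣ N)
    (ζ : AlgebraicClosure ℚ) (Φ : Polynomial (Polynomial (AlgebraicClosure ℚ)))
    (hΦfac : Φ.map (evalL (qExpand (AlgebraicClosure ℚ) ℓ (jqModC (AlgebraicClosure ℚ)))) =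
        (X - C (qExpand (AlgebraicClosure ℚ) (ℓ * ℓ) (jqModC (AlgebraicClosure ℚ)))) *
          ∏ b ∈ Finset.range ℓ, (X - C (scale (ζ ^ b) (jqModC (AlgebraicClosure ℚ))))) :
    (Φ.map (krsk_theta N d hd)).map (krsk_iota N ℓ) =
      (X - C (qExpand (AlgebraicClosure ℚ) (ℓ * ℓ)
          (qExpand (AlgebraicClosure ℚ) d (jqModC (AlgebraicClosure ℚ))))) *
        ∏ b ∈ Finset.range ℓ, (X - C (jsub (AlgebraicClosure ℚ) (ζ ^ b) d)) := by
  rw [Polynomial.map_map, krsk_iota_comp_theta]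
  exact krsk_modEq_fac ℓ d ζ Φ hΦfac

theorem krsk_core (N ℓ : ℕ) [NeZero N] [NeZero ℓ] (hℓ : ℓ.Prime) (hℓN : ¬ ℓ ∣ N)
    (ζ : AlgebraicClosure ℚ) (hζ : IsPrimitiveRoot ζ ℓ)
    (Φ : Polynomial (Polynomial (AlgebraicClosure ℚ))) (hΦm : Φ.Monic)
    (hΦd : Φ.natDegree = ℓ + 1)
    (hΦfac : Φ.map (evalL (qExpand (AlgebraicClosure ℚ) ℓ (jqModC (AlgebraicClosure ℚ)))) =
        (X - C (qExpand (AlgebraicClosure ℚ) (ℓ * ℓ) (jqModC (AlgebraicClosure ℚ)))) *
          ∏ b ∈ Finset.range ℓ, (X - C (scale (ζ ^ b) (jqModC (AlgebraicClosure ℚ)))))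
    (hΦ0 : (Φ.map (evalL (qExpand (AlgebraicClosure ℚ) ℓ (jqModC (AlgebraicClosure ℚ))))).eval
        (jqModC (AlgebraicClosure ℚ)) = 0)
    (hfin : finrankAlong (AlgebraicClosure ℚ) (heckeBetaBar (AlgebraicClosure ℚ) N ℓ) = ℓ + 1) :
    ∃ s : ↥(modularFunctionFieldBar (N * ℓ)) →+* LaurentSeries (AlgebraicClosure ℚ),
      (∀ f : ↥(modularFunctionFieldBar N),
        s (heckeBetaBar (AlgebraicClosure ℚ) N ℓ f) =
          qExpand (AlgebraicClosure ℚ) ℓ (f : LaurentSeries (AlgebraicClosure ℚ))) ∧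
      (∀ g : ↥(modularFunctionFieldBar N),
        s (heckeAlphaBar (AlgebraicClosure ℚ) N ℓ g) =
          qExpand (AlgebraicClosure ℚ) (ℓ * ℓ) (g : LaurentSeries (AlgebraicClosure ℚ))) := by
  have hζ0 : ζ ≠ 0 := hζ.ne_zero (NeZero.ne ℓ)
  have hζℓ : ζ ^ ℓ = 1 := hζ.pow_eq_one
  have hcop : ∀ d : ℕ, d ∣ N → Nat.Coprime d ℓ := fun d hd =>
    ((Nat.Prime.coprime_iff_not_dvd hℓ).mpr fun h => hℓN (h.trans hd)).symm
  -- the hypotheses of the abstract theorem, for every `d ∣ N`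
  have hinj : ∀ (d : ℕ) [NeZero d] (hd : d ∣ N), ∀ b < ℓ, ∀ b' < ℓ,
      krsk_sigma (N * ℓ) ζ hζ0 b (heckeAlphaBar (AlgebraicClosure ℚ) N ℓ (krsk_gen N d hd)) =
        krsk_sigma (N * ℓ) ζ hζ0 b' (heckeAlphaBar (AlgebraicClosure ℚ) N ℓ (krsk_gen N d hd)) →
      b = b' := by
    intro d _ hd b hb b' hb' h
    rw [krsk_sigma_gen, krsk_sigma_gen] at h
    have h1 := (Fermat.Agent.S28.subst_jsub_eq_iff (AlgebraicClosure ℚ) _ _
      (pow_ne_zero d (pow_ne_zero b hζ0)) (pow_ne_zero d (pow_ne_zero b' hζ0)) d d h).2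
    exact krsk_pow_inj ζ ℓ d hζ (hcop d hd) b b' hb hb' h1
  have hz : ∀ (d : ℕ) [NeZero d] (hd : d ∣ N), ∀ b < ℓ, ∃ b' < ℓ,
      jsub (AlgebraicClosure ℚ) (ζ ^ b) d =
        krsk_sigma (N * ℓ) ζ hζ0 b' (heckeAlphaBar (AlgebraicClosure ℚ) N ℓ (krsk_gen N d hd)) := by
    intro d _ hd b _
    obtain ⟨b', hb', h⟩ := krsk_exists_pow ζ ℓ d hζ (hcop d hd) b
    exact ⟨b', hb', by rw [krsk_sigma_gen, h]⟩
  have hy : ∀ b < ℓ, qExpand (AlgebraicClosure ℚ) (ℓ * ℓ)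
      (qExpand (AlgebraicClosure ℚ) 1 (jqModC (AlgebraicClosure ℚ))) ≠
      krsk_sigma (N * ℓ) ζ hζ0 b
        (heckeAlphaBar (AlgebraicClosure ℚ) N ℓ (krsk_gen N 1 (one_dvd N))) := by
    intro b _ h
    rw [krsk_sigma_gen, qExpand_qExpand, ← Fermat.Agent.S28.subst_jsub_one] at h
    have h1 := (Fermat.Agent.S28.subst_jsub_eq_iff (AlgebraicClosure ℚ) _ _ one_ne_zero
      (pow_ne_zero 1 (pow_ne_zero b hζ0)) _ _ h).1
    have h2 := hℓ.two_le
    nlinarith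
  obtain ⟨s, hsι, -, hs⟩ := krsk_exists_ringHom
    (heckeBetaBar (AlgebraicClosure ℚ) N ℓ).toRingHom (krsk_iota N ℓ) hℓ.two_le hfin
    (krsk_sigma (N * ℓ) ζ hζ0) (fun b _ => krsk_sigma_comp_beta N ℓ ζ hζ0 hζℓ b)
    (heckeAlphaBar (AlgebraicClosure ℚ) N ℓ (krsk_gen N 1 (one_dvd N)))
    (qExpand (AlgebraicClosure ℚ) (ℓ * ℓ)
      (qExpand (AlgebraicClosure ℚ) 1 (jqModC (AlgebraicClosure ℚ))))
    (Φ.map (krsk_theta N 1 (one_dvd N)))
    (hinj 1 (one_dvd N)) (krsk_hP0 N ℓ 1 (one_dvd N) Φ hΦ0) (hΦm.map _)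
    (by rw [hΦm.natDegree_map, hΦd])
    (by rw [krsk_hPfac N ℓ 1 (one_dvd N) ζ Φ hΦfac, Polynomial.eval_mul, Polynomial.eval_sub,
      Polynomial.eval_X, Polynomial.eval_C, sub_self, zero_mul])
    hy
  refine ⟨s, fun f => RingHom.congr_fun hsι f, fun g => ?_⟩
  have hext : s.comp (heckeAlphaBar (AlgebraicClosure ℚ) N ℓ).toRingHom =
      (qExpand (AlgebraicClosure ℚ) (ℓ * ℓ)).comp
        (algebraMap ↥(modularFunctionFieldBar N) (LaurentSeries (AlgebraicClosure ℚ))) := by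
    apply krsk_ringHom_ext (divisorExpansionsC (AlgebraicClosure ℚ) N) (modularFunctionFieldBar N)
      (Fermat.Agent.S18.gb_finl_FL_eq N (AlgebraicClosure ℚ))
    · intro c
      have h1 : (heckeAlphaBar (AlgebraicClosure ℚ) N ℓ).toRingHom
            (algebraMap (AlgebraicClosure ℚ) ↥(modularFunctionFieldBar N) c) =
          (heckeBetaBar (AlgebraicClosure ℚ) N ℓ).toRingHom
            (algebraMap (AlgebraicClosure ℚ) ↥(modularFunctionFieldBar N) c) := by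
        show heckeAlphaBar (AlgebraicClosure ℚ) N ℓ
            (algebraMap (AlgebraicClosure ℚ) ↥(modularFunctionFieldBar N) c) =
          heckeBetaBar (AlgebraicClosure ℚ) N ℓ
            (algebraMap (AlgebraicClosure ℚ) ↥(modularFunctionFieldBar N) c)
        rw [AlgHom.commutes, AlgHom.commutes]
      rw [RingHom.comp_apply, h1, ← RingHom.comp_apply, hsι]
      show qExpand (AlgebraicClosure ℚ) ℓ
          (algebraMap (AlgebraicClosure ℚ) (LaurentSeries (AlgebraicClosure ℚ)) c) =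
        qExpand (AlgebraicClosure ℚ) (ℓ * ℓ)
          (algebraMap (AlgebraicClosure ℚ) (LaurentSeries (AlgebraicClosure ℚ)) c)
      rw [krsk_algebraMap_eq_C, qExpand_C, qExpand_C]
    · intro x hx hxS
      obtain ⟨d, hd0, hd, rfl⟩ := hxS
      have := hd0
      exact hs (heckeAlphaBar (AlgebraicClosure ℚ) N ℓ (krsk_gen N d hd)) _
        (Φ.map (krsk_theta N d hd)) (fun b => jsub (AlgebraicClosure ℚ) (ζ ^ b) d)
        (hinj d hd) (krsk_hP0 N ℓ d hd Φ hΦ0) (krsk_hPfac N ℓ d hd ζ Φ hΦfac) (hz d hd)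
  exact RingHom.congr_fun hext g

/-- (KR-SInf) The extra embedding `s_∞`. -/
theorem krsk_main : kr_FinrankStatement → kr_ModEqIntStatement → kr_SInfStatement := by
  intro hFin hMod N ℓ _ _ hℓ hℓN
  obtain ⟨ζ, hζ⟩ := HasEnoughRootsOfUnity.exists_primitiveRoot (AlgebraicClosure ℚ) ℓ
  obtain ⟨Φ, hΦm, hΦd, -, hΦfac, hΦ0, -⟩ := hMod ℓ hℓ ζ hζ
  exact krsk_core N ℓ hℓ hℓN ζ hζ Φ hΦm hΦd hΦfac hΦ0 (hFin N ℓ hℓ hℓN)

end krsk_modular

end

end Fermat.Agent.S37
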