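/-
S37, block RA, package RAB (twin B) — Bridge: every element of the `A`-level chart descends to the
chart of every datum whose field contains a suitable finite set.  `rabb_main : BridgeStatement`.
-/
import Fermat.Agent.S37.RAInterfaces
import Fermat.Agent.S18.EDescentT

set_option autoImplicit false

open ModularCurve AlgebraicCurve

namespace Fermat.Agent.S37

open Fermat.Agent.S18

set_option synthInstance.maxHeartbeats 400000

/-- Integrality over a subring `R` of a commutative ring `F`, in explicit form: `x` satisfies a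
monic equation `x ^ n + ∑_{k < n} a_k x ^ k = 0` with all `a_k ∈ R`. -/
theorem rabb_isIntegral_iff {F : Type} [CommRing F] (R : Subring F) (x : F) :
    IsIntegral ↥R x ↔ ∃ (n : ℕ) (a : Fin n → F), (∀ k, a k ∈ R) ∧
      x ^ n + ∑ k : Fin n, a k * x ^ (k : ℕ) = 0 := by
  constructor
  · rintro ⟨p, hp, hpx⟩
    refine ⟨p.natDegree, fun k => ((p.coeff k : ↥R) : F), fun k => (p.coeff k).2, ?_⟩
    have h2 := Polynomial.eval₂_eq_sum_range (algebraMap ↥R F) x (p := p)
    rw [Finset.sum_range_succ, hp.coeff_natDegree, map_one, one_mul, Finset.sum_range] at h2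
    rw [add_comm]
    rw [← hpx, h2]
    rfl
  · rintro ⟨n, a, ha, hx⟩
    refine ⟨Polynomial.X ^ n + ∑ k : Fin n, Polynomial.C (⟨a k, ha k⟩ : ↥R) * Polynomial.X ^ (k : ℕ),
      Polynomial.monic_X_pow_add (Polynomial.degree_sum_fin_lt _), ?_⟩
    rw [Polynomial.eval₂_add, Polynomial.eval₂_pow, Polynomial.eval₂_X,
      Polynomial.eval₂_finsetSum, ← hx]
    congr 1
    apply Finset.sum_congr rfl
    intro k _
    rw [Polynomial.eval₂_mul, Polynomial.eval₂_C, Polynomial.eval₂_pow, Polynomial.eval₂_X]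
    rfl

/-- `dEmb` maps the generator of the chart `i` over `L` to the generator over `Qb`. -/
theorem rabb_dEmb_t (N : ℕ) [NeZero N] (i : Bool) {L : Type} [Field L] [Algebra ℚ L]
    (ι : L →+* Qb) : dEmb N ι (val_t i L N) = val_t i Qb N := by
  unfold val_t
  split_ifs
  · exact dEmb_jF N ι
  · rw [map_inv₀, dEmb_jF]

/-- Finite support of the elements of the base ring `A[t]`: every `x ∈ A[t]` descends to
`W[t_L]` for every datum `(L, ι)` whose field contains a suitable finite set. -/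
theorem rabb_base (N : ℕ) [NeZero N] (A : ValuationSubring Qb) (i : Bool) (x : ↥(FL Qb N))
    (hx : x ∈ val_baseRing N A (val_t i Qb N)) :
    ∃ T : Finset Qb, ∀ (L : Type) [Field L] [Algebra ℚ L] (ι : L →+* Qb),
      (∀ s ∈ T, ∃ c : L, ι c = s) →
      ∃ x' : ↥(FL L N), x' ∈ baseRing (dW A ι) N {val_t i L N} ∧ dEmb N ι x' = x := by
  classical
  unfold val_baseRing at hx
  induction hx using Subring.closure_induction with
  | mem y hy =>
    rcases hy with ⟨a, rfl⟩ | hy
    · refine ⟨{(a : Qb)}, fun L _ _ ι hT => ?_⟩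
      obtain ⟨c, hc⟩ := hT (a : Qb) (Finset.mem_singleton_self _)
      have hcW : c ∈ dW A ι := by
        show ι c ∈ A
        rw [hc]
        exact a.2
      refine ⟨cW (dW A ι) N ⟨c, hcW⟩, Subring.subset_closure (Or.inl ⟨_, rfl⟩), ?_⟩
      show dEmb N ι (algebraMap L ↥(FL L N) c) = _
      rw [dEmb_algebraMap, hc]
      rfl
    · rw [Set.mem_singleton_iff] at hy
      subst hy
      exact ⟨∅, fun L _ _ ι _ =>
        ⟨val_t i L N, Subring.subset_closure (Or.inr rfl), rabb_dEmb_t N i ι⟩⟩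
  | zero => exact ⟨∅, fun L _ _ ι _ => ⟨0, Subring.zero_mem _, map_zero _⟩⟩
  | one => exact ⟨∅, fun L _ _ ι _ => ⟨1, Subring.one_mem _, map_one _⟩⟩
  | add x y _ _ hx hy =>
    obtain ⟨Tx, hTx⟩ := hx
    obtain ⟨Ty, hTy⟩ := hy
    refine ⟨Tx ∪ Ty, fun L _ _ ι hT => ?_⟩
    obtain ⟨x', hx', hxe⟩ := hTx L ι (fun s hs => hT s (Finset.mem_union_left _ hs))
    obtain ⟨y', hy', hye⟩ := hTy L ι (fun s hs => hT s (Finset.mem_union_right _ hs))
    exact ⟨x' + y', Subring.add_mem _ hx' hy', by rw [map_add, hxe, hye]⟩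
  | neg x _ hx =>
    obtain ⟨Tx, hTx⟩ := hx
    refine ⟨Tx, fun L _ _ ι hT => ?_⟩
    obtain ⟨x', hx', hxe⟩ := hTx L ι hT
    exact ⟨-x', Subring.neg_mem _ hx', by rw [map_neg, hxe]⟩
  | mul x y _ _ hx hy =>
    obtain ⟨Tx, hTx⟩ := hx
    obtain ⟨Ty, hTy⟩ := hy
    refine ⟨Tx ∪ Ty, fun L _ _ ι hT => ?_⟩
    obtain ⟨x', hx', hxe⟩ := hTx L ι (fun s hs => hT s (Finset.mem_union_left _ hs))
    obtain ⟨y', hy', hye⟩ := hTy L ι (fun s hs => hT s (Finset.mem_union_right _ hs))
    exact ⟨x' * y', Subring.mul_mem _ hx' hy', by rw [map_mul, hxe, hye]⟩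

/-- (Bridge) -/
theorem rabb_main : BridgeStatement := by
  intro N _ A i b hb
  classical
  rw [val_mem_chart_iff, rabb_isIntegral_iff] at hb
  obtain ⟨n, a, ha, hab⟩ := hb
  choose Tf hTf using fun k : Fin n => rabb_base N A i (a k) (ha k)
  obtain ⟨Sb, hSb⟩ := e_descentT_main N (b : LaurentSeries Qb) b.2
  refine ⟨Sb ∪ Finset.univ.biUnion Tf, fun L _ _ ι hT => ?_⟩
  obtain ⟨gL, hgL, hgb⟩ := hSb L ι (fun s hs => hT s (Finset.mem_union_left _ hs))
  have hk : ∀ k : Fin n, ∃ x' : ↥(FL L N),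
      x' ∈ baseRing (dW A ι) N {val_t i L N} ∧ dEmb N ι x' = a k :=
    fun k => hTf k L ι (fun s hs => hT s (Finset.mem_union_right _
      (Finset.mem_biUnion.mpr ⟨k, Finset.mem_univ _, hs⟩)))
  choose a' ha' hae using hk
  have hg : dEmb N ι ⟨gL, hgL⟩ = b := Subtype.ext hgb
  refine ⟨⟨gL, hgL⟩, ?_, hg⟩
  rw [mem_chart_iff, rabb_isIntegral_iff]
  refine ⟨n, a', ha', ?_⟩
  apply (dEmb N ι).injective
  rw [map_add, map_pow, map_sum, map_zero, ← hab, hg]
  congr 1
  apply Finset.sum_congr rfl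
  intro k _
  rw [map_mul, map_pow, hae, hg]

end Fermat.Agent.S37
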