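/-
S37, block R — package RCP (twin B): ChartPlace.  A maximal ideal `m ∋ ϖ` of a chart gives a place
of `F_k`.  Prefix `rcpb_`.

Part 1 is abstract: `F`, `K` fields, `V ⊆ F` a valuation ring with a surjective reduction map
`ρ : V →+* K` of kernel `ϖ V`, `R ⊆ V` a local subring with `R ∩ ϖ V = ϖ R`, `R / ϖ` a discrete
valuation ring and `V = R_(ϖ)`; then `ρ(R)` is a discrete valuation ring of `K`.
Part 2 instantiates this with `V = gaussV`, `R = locSub (chart) m`, `K = F_k`.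
-/
import Fermat.Agent.S37.RInterfaces
import Fermat.Agent.S37.HV
import Fermat.Agent.S18.EInterfaces4
import Fermat.Agent.S18.LocSubB
import Fermat.Agent.S18.EEGMainTDefs
import Fermat.Agent.S18.EEGMainTA
import Fermat.Agent.S18.EEGMainTLG
import Fermat.Agent.S18.EEGMainTBAlt

set_option autoImplicit false
set_option synthInstance.maxHeartbeats 400000

open ModularCurve AlgebraicCurve

namespace Fermat.Agent.S37

open Fermat.Agent.S18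

noncomputable section

/-! ## Part 1: the abstract statement -/

section Abstract

variable {F K : Type} [Field F] [Field K] (ϖ : F) (V R : Subring F) (ρ : ↥V →+* K)

/-- The restriction of `ρ` to `R`. -/
def rcpb_rhoR (hRV : R ≤ V) : ↥R →+* K := ρ.comp (Subring.inclusion hRV)

theorem rcpb_rhoR_apply (hRV : R ≤ V) (r : ↥R) :
    rcpb_rhoR V R ρ hRV r = ρ ⟨(r : F), hRV r.2⟩ := rfl

/-- The kernel of `ρ` on `R` is `ϖ R`. -/
theorem rcpb_ker (hϖV : ϖ⁻¹ ∉ V)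
    (hker : ∀ x : ↥V, ρ x = 0 ↔ ∃ x' : ↥V, (x : F) = ϖ * (x' : F))
    (hRV : R ≤ V) (hϖR : ϖ ∈ R) (hsat : ∀ x ∈ R, ϖ⁻¹ * x ∈ V → ϖ⁻¹ * x ∈ R) (r : ↥R) :
    rcpb_rhoR V R ρ hRV r = 0 ↔ r ∈ Ideal.span {(⟨ϖ, hϖR⟩ : ↥R)} := by
  have hϖ0 : ϖ ≠ 0 := by
    rintro rfl
    exact hϖV (by simp)
  rw [rcpb_rhoR_apply, Ideal.mem_span_singleton']
  constructor
  · intro h
    obtain ⟨x', hx'⟩ := (hker _).1 h
    change (r : F) = ϖ * (x' : F) at hx'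
    have h1 : ϖ⁻¹ * (r : F) = x' := by
      rw [hx', ← mul_assoc, inv_mul_cancel₀ hϖ0, one_mul]
    have h2 : ϖ⁻¹ * (r : F) ∈ R := hsat _ r.2 (h1 ▸ x'.2)
    refine ⟨⟨ϖ⁻¹ * (r : F), h2⟩, Subtype.ext ?_⟩
    change ϖ⁻¹ * (r : F) * ϖ = (r : F)
    field_simp
  · rintro ⟨a, rfl⟩
    refine (hker _).2 ⟨⟨(a : F), hRV a.2⟩, ?_⟩
    change (a : F) * ϖ = ϖ * (a : F)
    exact mul_comm _ _

/-- In `R / ϖ` (a valuation ring) one of two classes divides the other; in terms of `ρ`. -/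
theorem rcpb_total (hϖV : ϖ⁻¹ ∉ V)
    (hker : ∀ x : ↥V, ρ x = 0 ↔ ∃ x' : ↥V, (x : F) = ϖ * (x' : F))
    (hRV : R ≤ V) (hϖR : ϖ ∈ R) (hsat : ∀ x ∈ R, ϖ⁻¹ * x ∈ V → ϖ⁻¹ * x ∈ R)
    (hdvr : IsDVRQuot ↥R (⟨ϖ, hϖR⟩ : ↥R)) (a b : ↥R) :
    ∃ c : ↥R, rcpb_rhoR V R ρ hRV a = rcpb_rhoR V R ρ hRV b * rcpb_rhoR V R ρ hRV c ∨
      rcpb_rhoR V R ρ hRV b = rcpb_rhoR V R ρ hRV a * rcpb_rhoR V R ρ hRV c := by
  obtain ⟨hdom, hD⟩ := hdvr
  have key : ∀ x y c : ↥R, Ideal.Quotient.mk (Ideal.span {(⟨ϖ, hϖR⟩ : ↥R)}) y =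
      Ideal.Quotient.mk (Ideal.span {(⟨ϖ, hϖR⟩ : ↥R)}) x *
        Ideal.Quotient.mk (Ideal.span {(⟨ϖ, hϖR⟩ : ↥R)}) c →
      rcpb_rhoR V R ρ hRV y = rcpb_rhoR V R ρ hRV x * rcpb_rhoR V R ρ hRV c := by
    intro x y c h
    rw [← map_mul, Ideal.Quotient.eq] at h
    have h0 := (rcpb_ker ϖ V R ρ hϖV hker hRV hϖR hsat _).2 h
    rw [map_sub, sub_eq_zero, map_mul] at h0
    exact h0
  rcases ValuationRing.dvd_total (Ideal.Quotient.mk (Ideal.span {(⟨ϖ, hϖR⟩ : ↥R)}) a)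
    (Ideal.Quotient.mk (Ideal.span {(⟨ϖ, hϖR⟩ : ↥R)}) b) with ⟨d, hd⟩ | ⟨d, hd⟩
  · obtain ⟨c, rfl⟩ := Ideal.Quotient.mk_surjective d
    exact ⟨c, Or.inr (key a b c hd)⟩
  · obtain ⟨c, rfl⟩ := Ideal.Quotient.mk_surjective d
    exact ⟨c, Or.inl (key b a c hd)⟩

/-- `ρ(R)` is a valuation ring of `K`. -/
theorem rcpb_mem_or_inv_mem (hϖV : ϖ⁻¹ ∉ V)
    (hker : ∀ x : ↥V, ρ x = 0 ↔ ∃ x' : ↥V, (x : F) = ϖ * (x' : F))
    (hsurj : Function.Surjective ρ)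
    (hRV : R ≤ V) (hϖR : ϖ ∈ R) (hsat : ∀ x ∈ R, ϖ⁻¹ * x ∈ V → ϖ⁻¹ * x ∈ R)
    (hdvr : IsDVRQuot ↥R (⟨ϖ, hϖR⟩ : ↥R))
    (hden : ∀ x ∈ V, ∃ a ∈ R, ∃ b ∈ R, ϖ⁻¹ * b ∉ V ∧ x * b = a) (z : K) :
    z ∈ (rcpb_rhoR V R ρ hRV).range ∨ z⁻¹ ∈ (rcpb_rhoR V R ρ hRV).range := by
  have hϖ0 : ϖ ≠ 0 := by
    rintro rfl
    exact hϖV (by simp)
  obtain ⟨v, rfl⟩ := hsurj z
  obtain ⟨a, ha, b, hb, hbV, hab⟩ := hden (v : F) v.2
  have hρb : rcpb_rhoR V R ρ hRV ⟨b, hb⟩ ≠ 0 := by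
    intro h
    rw [rcpb_rhoR_apply] at h
    obtain ⟨x', hx'⟩ := (hker _).1 h
    change b = ϖ * (x' : F) at hx'
    apply hbV
    rw [hx', ← mul_assoc, inv_mul_cancel₀ hϖ0, one_mul]
    exact x'.2
  have hmul : ρ v * rcpb_rhoR V R ρ hRV ⟨b, hb⟩ = rcpb_rhoR V R ρ hRV ⟨a, ha⟩ := by
    rw [rcpb_rhoR_apply, rcpb_rhoR_apply, ← map_mul]
    congr 1
    exact Subtype.ext hab
  obtain ⟨c, hc | hc⟩ := rcpb_total ϖ V R ρ hϖV hker hRV hϖR hsat hdvr ⟨a, ha⟩ ⟨b, hb⟩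
  · left
    refine ⟨c, ?_⟩
    rw [hc, mul_comm] at hmul
    exact (mul_left_cancel₀ hρb hmul).symm
  · right
    refine ⟨c, ?_⟩
    have ha0 : rcpb_rhoR V R ρ hRV ⟨a, ha⟩ ≠ 0 := by
      intro h
      rw [h, zero_mul] at hc
      exact hρb hc
    have hc0 : rcpb_rhoR V R ρ hRV c ≠ 0 := by
      intro h
      rw [h, mul_zero] at hc
      exact hρb hc
    have hv0 : ρ v ≠ 0 := by
      intro h
      rw [h, zero_mul] at hmul
      exact ha0 hmul.symm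
    rw [hc, ← mul_assoc] at hmul
    have h1 : ρ v * rcpb_rhoR V R ρ hRV c = 1 := by
      have h2 : (ρ v * rcpb_rhoR V R ρ hRV c) * rcpb_rhoR V R ρ hRV ⟨a, ha⟩ =
          1 * rcpb_rhoR V R ρ hRV ⟨a, ha⟩ := by
        linear_combination hmul
      exact mul_right_cancel₀ ha0 h2
    exact (eq_inv_of_mul_eq_one_right h1)

/-- The valuation subring `ρ(R)` of `K`. -/
def rcpb_O (hϖV : ϖ⁻¹ ∉ V)
    (hker : ∀ x : ↥V, ρ x = 0 ↔ ∃ x' : ↥V, (x : F) = ϖ * (x' : F))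
    (hsurj : Function.Surjective ρ)
    (hRV : R ≤ V) (hϖR : ϖ ∈ R) (hsat : ∀ x ∈ R, ϖ⁻¹ * x ∈ V → ϖ⁻¹ * x ∈ R)
    (hdvr : IsDVRQuot ↥R (⟨ϖ, hϖR⟩ : ↥R))
    (hden : ∀ x ∈ V, ∃ a ∈ R, ∃ b ∈ R, ϖ⁻¹ * b ∉ V ∧ x * b = a) : ValuationSubring K :=
  { (rcpb_rhoR V R ρ hRV).range with
    mem_or_inv_mem' := rcpb_mem_or_inv_mem ϖ V R ρ hϖV hker hsurj hRV hϖR hsat hdvr hden }

/-- `ρ(R) ≅ R / ϖ` is a principal ideal ring. -/
theorem rcpb_pid (hϖV : ϖ⁻¹ ∉ V)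
    (hker : ∀ x : ↥V, ρ x = 0 ↔ ∃ x' : ↥V, (x : F) = ϖ * (x' : F))
    (hRV : R ≤ V) (hϖR : ϖ ∈ R) (hsat : ∀ x ∈ R, ϖ⁻¹ * x ∈ V → ϖ⁻¹ * x ∈ R)
    (hdvr : IsDVRQuot ↥R (⟨ϖ, hϖR⟩ : ↥R)) :
    IsPrincipalIdealRing ↥(rcpb_rhoR V R ρ hRV).range := by
  obtain ⟨hdom, hD⟩ := hdvr
  have hle : ∀ a : ↥R, a ∈ Ideal.span {(⟨ϖ, hϖR⟩ : ↥R)} →
      (rcpb_rhoR V R ρ hRV).rangeRestrict a = 0 := by
    intro a ha
    apply Subtype.ext
    exact (rcpb_ker ϖ V R ρ hϖV hker hRV hϖR hsat a).2 ha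
  exact IsPrincipalIdealRing.of_surjective
    (Ideal.Quotient.lift _ (rcpb_rhoR V R ρ hRV).rangeRestrict hle)
    (Ideal.Quotient.lift_surjective_of_surjective _ hle
      (rcpb_rhoR V R ρ hRV).rangeRestrict_surjective)

/-- `ρ(R)` is not all of `K`. -/
theorem rcpb_exists_not_mem (hϖV : ϖ⁻¹ ∉ V)
    (hker : ∀ x : ↥V, ρ x = 0 ↔ ∃ x' : ↥V, (x : F) = ϖ * (x' : F))
    (hRV : R ≤ V) (hϖR : ϖ ∈ R) (hsat : ∀ x ∈ R, ϖ⁻¹ * x ∈ V → ϖ⁻¹ * x ∈ R)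
    (hdvr : IsDVRQuot ↥R (⟨ϖ, hϖR⟩ : ↥R)) :
    ∃ z : K, z ∉ (rcpb_rhoR V R ρ hRV).range := by
  obtain ⟨hdom, hD⟩ := hdvr
  obtain ⟨π, hπ⟩ := IsDiscreteValuationRing.exists_irreducible (↥R ⧸ Ideal.span {(⟨ϖ, hϖR⟩ : ↥R)})
  obtain ⟨p, rfl⟩ := Ideal.Quotient.mk_surjective π
  refine ⟨(rcpb_rhoR V R ρ hRV p)⁻¹, ?_⟩
  rintro ⟨h, hh⟩
  have hp0 : rcpb_rhoR V R ρ hRV p ≠ 0 := by
    intro h0
    have := (rcpb_ker ϖ V R ρ hϖV hker hRV hϖR hsat p).1 h0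
    exact hπ.ne_zero (Ideal.Quotient.eq_zero_iff_mem.2 this)
  have h1 : rcpb_rhoR V R ρ hRV (p * h - 1) = 0 := by
    rw [map_sub, map_mul, map_one, hh, mul_inv_cancel₀ hp0, sub_self]
  have h2 := (rcpb_ker ϖ V R ρ hϖV hker hRV hϖR hsat _).1 h1
  have h3 : Ideal.Quotient.mk (Ideal.span {(⟨ϖ, hϖR⟩ : ↥R)}) p *
      Ideal.Quotient.mk (Ideal.span {(⟨ϖ, hϖR⟩ : ↥R)}) h = 1 := by
    rw [← map_mul, ← map_one (Ideal.Quotient.mk (Ideal.span {(⟨ϖ, hϖR⟩ : ↥R)})),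
      Ideal.Quotient.eq]
    exact h2
  exact hπ.not_isUnit (IsUnit.of_mul_eq_one _ h3)

/-- The maximal ideal of a valuation subring `O = ρ(R)`: `ρ(r) ∈ m_O ↔ r ∈ m_R`. -/
theorem rcpb_nonunits (hϖV : ϖ⁻¹ ∉ V)
    (hker : ∀ x : ↥V, ρ x = 0 ↔ ∃ x' : ↥V, (x : F) = ϖ * (x' : F))
    (hRV : R ≤ V) (hϖR : ϖ ∈ R) (hsat : ∀ x ∈ R, ϖ⁻¹ * x ∈ V → ϖ⁻¹ * x ∈ R)
    (hloc : IsLocalRing ↥R) (O : ValuationSubring K)
    (hO : ∀ z : K, z ∈ O ↔ ∃ r : ↥R, rcpb_rhoR V R ρ hRV r = z) (r : ↥R) :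
    rcpb_rhoR V R ρ hRV r ∈ O.nonunits ↔ r ∈ IsLocalRing.maximalIdeal ↥R := by
  rw [ValuationSubring.mem_nonunits_iff_or]
  constructor
  · intro h
    by_contra hr
    rw [IsLocalRing.mem_maximalIdeal, mem_nonunits_iff, not_not] at hr
    obtain ⟨s, hs⟩ := isUnit_iff_exists_inv.1 hr
    have h1 : rcpb_rhoR V R ρ hRV r * rcpb_rhoR V R ρ hRV s = 1 := by
      rw [← map_mul, hs, map_one]
    rcases h with h | h
    · rw [h, zero_mul] at h1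
      exact zero_ne_one h1
    · apply h
      rw [hO]
      exact ⟨s, eq_inv_of_mul_eq_one_right h1⟩
  · intro hr
    by_cases h0 : rcpb_rhoR V R ρ hRV r = 0
    · exact Or.inl h0
    · right
      intro hinv
      rw [hO] at hinv
      obtain ⟨s, hs⟩ := hinv
      have h1 : rcpb_rhoR V R ρ hRV (r * s - 1) = 0 := by
        rw [map_sub, map_mul, map_one, hs, mul_inv_cancel₀ h0, sub_self]
      have h2 := (rcpb_ker ϖ V R ρ hϖV hker hRV hϖR hsat _).1 h1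
      have hϖm : (⟨ϖ, hϖR⟩ : ↥R) ∈ IsLocalRing.maximalIdeal ↥R := by
        rw [IsLocalRing.mem_maximalIdeal, mem_nonunits_iff]
        intro hu
        obtain ⟨u, hu⟩ := isUnit_iff_exists_inv.1 hu
        apply hϖV
        have h3 : ϖ * (u : F) = 1 := congrArg Subtype.val hu
        rw [inv_eq_of_mul_eq_one_right h3]
        exact hRV u.2
      have h3 : r * s - 1 ∈ IsLocalRing.maximalIdeal ↥R :=
        (Ideal.span_singleton_le_iff_mem _).2 hϖm h2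
      have h4 : r * s ∈ IsLocalRing.maximalIdeal ↥R := Ideal.mul_mem_right _ _ hr
      have h5 : (1 : ↥R) ∈ IsLocalRing.maximalIdeal ↥R := by
        have := Ideal.sub_mem _ h4 h3
        rwa [sub_sub_cancel] at this
      exact (IsLocalRing.maximalIdeal.isMaximal ↥R).ne_top ((Ideal.eq_top_iff_one _).2 h5)

/-- The abstract statement: `ρ(R)` is a discrete valuation ring of `K` (a valuation subring,
`≠ ⊤`, principal ideal ring) whose maximal ideal is `ρ(m_R)`. -/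
theorem rcpb_abs (hϖV : ϖ⁻¹ ∉ V)
    (hker : ∀ x : ↥V, ρ x = 0 ↔ ∃ x' : ↥V, (x : F) = ϖ * (x' : F))
    (hsurj : Function.Surjective ρ)
    (hRV : R ≤ V) (hϖR : ϖ ∈ R) (hsat : ∀ x ∈ R, ϖ⁻¹ * x ∈ V → ϖ⁻¹ * x ∈ R)
    (hloc : IsLocalRing ↥R) (hdvr : IsDVRQuot ↥R (⟨ϖ, hϖR⟩ : ↥R))
    (hden : ∀ x ∈ V, ∃ a ∈ R, ∃ b ∈ R, ϖ⁻¹ * b ∉ V ∧ x * b = a) :
    ∃ O : ValuationSubring K, O ≠ ⊤ ∧ IsPrincipalIdealRing ↥O ∧
      (∀ z : K, z ∈ O ↔ ∃ r : ↥R, rcpb_rhoR V R ρ hRV r = z) ∧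
      (∀ r : ↥R, rcpb_rhoR V R ρ hRV r ∈ O.nonunits ↔ r ∈ IsLocalRing.maximalIdeal ↥R) := by
  have hmem : ∀ z : K, z ∈ rcpb_O ϖ V R ρ hϖV hker hsurj hRV hϖR hsat hdvr hden ↔
      ∃ r : ↥R, rcpb_rhoR V R ρ hRV r = z := fun z => Iff.rfl
  refine ⟨rcpb_O ϖ V R ρ hϖV hker hsurj hRV hϖR hsat hdvr hden, ?_, ?_, hmem, ?_⟩
  · intro htop
    obtain ⟨z, hz⟩ := rcpb_exists_not_mem ϖ V R ρ hϖV hker hRV hϖR hsat hdvr
    apply hz
    have h1 : z ∈ rcpb_O ϖ V R ρ hϖV hker hsurj hRV hϖR hsat hdvr hden := by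
      rw [htop]
      exact ValuationSubring.mem_top z
    exact h1
  · exact rcpb_pid ϖ V R ρ hϖV hker hRV hϖR hsat hdvr
  · exact rcpb_nonunits ϖ V R ρ hϖV hker hRV hϖR hsat hloc _ hmem

end Abstract

/-! ## Part 2: the charts -/

/-- For `g ∈ A`: `g ∈ m_{A_P} ↔ g ∈ P`. -/
theorem rcpb_mem_max_iff {F : Type} [Field F] (A : Subring F) (P : Ideal ↥A) [hP : P.IsPrime]
    (hloc : IsLocalRing ↥(locSub A P)) (g : ↥A) (hg : (g : F) ∈ locSub A P) :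
    (⟨(g : F), hg⟩ : ↥(locSub A P)) ∈ IsLocalRing.maximalIdeal ↥(locSub A P) ↔ g ∈ P := by
  have h := locSubB_mem_maximalIdeal_iff A P (⟨(g : F), hg⟩ : ↥(locSub A P))
  refine Iff.trans h ?_
  constructor
  · rintro ⟨a, s, ha, hs, h⟩
    have h1 : g * s = a := Subtype.ext h
    have h2 : g * s ∈ P := h1 ▸ ha
    exact (hP.mem_or_mem h2).resolve_right hs
  · intro hg'
    exact ⟨g, 1, hg', fun h1 => hP.ne_top ((Ideal.eq_top_iff_one P).2 h1), by simp⟩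

section Concrete

variable {L : Type} [Field L] [Algebra ℚ L] (W : ValuationSubring L) {k : Type} [Field k]
  (res : ↥W →+* k) (N : ℕ)

/-- Constants of `W` lie in every chart. -/
theorem rcpb_cW_mem_chart (S : Set ↥(FL L N)) (w : ↥W) : cW W N w ∈ chart W N S := by
  have h : cW W N w ∈ baseRing W N S := Subring.subset_closure (Or.inl ⟨w, rfl⟩)
  rw [mem_chart_iff]
  exact isIntegral_algebraMap (R := ↥(baseRing W N S)) (x := ⟨cW W N w, h⟩)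

variable [NeZero N] (ϖ : ↥W) (ρ : ↥(gaussV W res N) →+* LaurentSeries k)

/-- `ρ` with codomain restricted to `F_k`. -/
def rcpb_rho (hρ : IsGaussRed W res N ϖ ρ) : ↥(gaussV W res N) →+* ↥(Fk k N) where
  toFun x := ⟨ρ x, (hρ.range _).2 ⟨x, rfl⟩⟩
  map_one' := Subtype.ext (map_one ρ)
  map_mul' _ _ := Subtype.ext (map_mul ρ _ _)
  map_zero' := Subtype.ext (map_zero ρ)
  map_add' _ _ := Subtype.ext (map_add ρ _ _)

theorem rcpb_rho_coe (hρ : IsGaussRed W res N ϖ ρ) (x : ↥(gaussV W res N)) :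
    ((rcpb_rho W res N ϖ ρ hρ x : ↥(Fk k N)) : LaurentSeries k) = ρ x := rfl

theorem rcpb_rho_surjective (hρ : IsGaussRed W res N ϖ ρ) :
    Function.Surjective (rcpb_rho W res N ϖ ρ hρ) := by
  intro z
  obtain ⟨x, hx⟩ := (hρ.range _).1 z.2
  exact ⟨x, Subtype.ext hx⟩

theorem rcpb_rho_ker (hρ : IsGaussRed W res N ϖ ρ) (x : ↥(gaussV W res N)) :
    rcpb_rho W res N ϖ ρ hρ x = 0 ↔
      ∃ x' : ↥(gaussV W res N), (x : ↥(FL L N)) = cW W N ϖ * (x' : ↥(FL L N)) := by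
  rw [← hρ.ker]
  constructor
  · intro h
    exact congrArg Subtype.val h
  · intro h
    exact Subtype.ext h

/-- `ρ(c) = res c` for constants `c ∈ W`. -/
theorem rcpb_rho_cW (hρ : IsGaussRed W res N ϖ ρ) (w : ↥W) (hV : cW W N w ∈ gaussV W res N) :
    ρ ⟨cW W N w, hV⟩ = algebraMap k (LaurentSeries k) (res w) := by
  have h1 : coeffMap W.subtype (HahnSeries.single 0 w) =
      algebraMap L (LaurentSeries L) (w : L) := by
    rw [coeffMap_single, algebraMap_laurentSeries_eq_single]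
    rfl
  have h2 : coeffMap W.subtype (HahnSeries.single 0 w) ∈ FL L N := by
    rw [h1]
    exact (FL L N).algebraMap_mem _
  have h4 : (⟨coeffMap W.subtype (HahnSeries.single 0 w), h2⟩ : ↥(FL L N)) = cW W N w := by
    apply Subtype.ext
    exact h1
  have hV' : (⟨coeffMap W.subtype (HahnSeries.single 0 w), h2⟩ : ↥(FL L N)) ∈ gaussV W res N := by
    rw [h4]
    exact hV
  have h5 := hρ.red (HahnSeries.single 0 w) h2 hV'
  have h6 : coeffMap res (HahnSeries.single 0 w) = algebraMap k (LaurentSeries k) (res w) := by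
    rw [coeffMap_single, algebraMap_laurentSeries_eq_single]
  rw [← h6, ← h5]
  congr 1
  exact Subtype.ext h4.symm

end Concrete

set_option maxHeartbeats 1000000 in
/-- (ChartPlace) -/
theorem rcpb_main : SmStatement → GaussStatement → ChartGaussStatement → FinLStatement →
    e_IntFinStatement → e_LSFactStatement → ChartPlaceStatement := by
  intro hSm hG hCG hFin hIF hLS N _ ℓ _ L _ _ W _ k _ _ _ res ϖ hD hHoriz ρ hρ S hS m _ ϖc hϖc hϖm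
  -- the `V`-data
  obtain ⟨hi, hval, hϖV, -, -⟩ := hG N ℓ L W k res ϖ hD
  have hrange : ∀ x : ↥(gaussV W res N), ρ x ≠ 0 →
      ∃ x' : ↥(gaussV W res N), ρ x' = (ρ x)⁻¹ := by
    intro x _
    have h1 : ρ x ∈ Fk k N := (hρ.range _).2 ⟨x, rfl⟩
    exact (hρ.range _).1 ((Fk k N).inv_mem h1)
  have hVD := e_egmainTA_nonunit (gaussV W res N) (cW W N ϖ) hval hϖV ρ hρ.ker hrange
  obtain ⟨-, hϖ0, -, hnu⟩ := id hVD
  -- the chart
  obtain ⟨hAV, hsatA⟩ := hCG N ℓ L W k res ϖ hD S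
    (by rcases hS with h | h; exacts [Or.inl h, Or.inr (Or.inl h)])
  have hϖA : cW W N ϖ ∈ chart W N S := hϖc ▸ ϖc.2
  have hϖc' : ϖc = ⟨cW W N ϖ, hϖA⟩ := Subtype.ext hϖc
  have hm' : (⟨cW W N ϖ, hϖA⟩ : ↥(chart W N S)) ∈ m := hϖc' ▸ hϖm
  have hB : IsNoetherianRing ↥(chart W N S) ∧ e_IsFrac (chart W N S) := by
    rcases hS with rfl | rfl
    · exact (e_egmainT_balt_main hFin hIF N L W (jF L N) (Or.inl rfl)).2.2.2
    · exact (e_egmainT_balt_main hFin hIF N L W (jF L N)⁻¹ (Or.inr rfl)).2.2.2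
  obtain ⟨hnoeth, hfrac⟩ := hB
  -- the local ring `R = (A_i)_m`
  have hRV : locSub (chart W N S) m ≤ gaussV W res N :=
    e_egmainTLG_locSub_le (cW W N ϖ) (gaussV W res N) (chart W N S) hVD hAV hϖA hsatA m hm'
  have hϖR : cW W N ϖ ∈ locSub (chart W N S) m := le_locSub (chart W N S) m hϖA
  have hsatR := e_egmainTLG_locSub_sat (cW W N ϖ) (gaussV W res N) (chart W N S) hAV hsatA m
  have hdvr : IsDVRQuot ↥(locSub (chart W N S) m) ⟨cW W N ϖ, hϖR⟩ :=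
    (locSubB_main ↥(FL L N) (chart W N S) m ⟨cW W N ϖ, hϖA⟩ hϖR).1
      (hSm N ℓ L W k res ϖ hD hHoriz S hS m ⟨cW W N ϖ, hϖA⟩ rfl hm')
  have hloc : IsLocalRing ↥(locSub (chart W N S) m) := locSubB_isLocalRing (chart W N S) m
  have hnoethR : IsNoetherianRing ↥(locSub (chart W N S) m) :=
    locSubB_isNoetherianRing (chart W N S) m
  have hfracR : e_IsFrac (locSub (chart W N S) m) :=
    e_egmainTLG_locSub_isFrac (chart W N S) hfrac m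
  obtain ⟨-, -, hden⟩ := hLS ↥(FL L N) 2 1 (cW W N ϖ) (gaussV W res N) (locSub (chart W N S) m)
    Nat.prime_two one_ne_zero hval hϖ0 hϖV hnu hRV hϖR hsatR hloc hnoethR hfracR hdvr
    (Subring.one_mem _) (by rw [inv_one]; exact Subring.one_mem _)
    (fun O _ _ _ _ => ⟨1, one_ne_zero, by rw [one_pow, mul_one]; exact O.one_mem,
      by rw [one_pow, mul_one, inv_one]; exact O.one_mem⟩)
  -- the valuation ring `ρ(R)`
  obtain ⟨O, hOtop, hOpid, hOmem, hOnu⟩ := rcpb_abs (cW W N ϖ) (gaussV W res N)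
    (locSub (chart W N S) m) (rcpb_rho W res N ϖ ρ hρ) hϖV (rcpb_rho_ker W res N ϖ ρ hρ)
    (rcpb_rho_surjective W res N ϖ ρ hρ) hRV hϖR hsatR hloc hdvr hden
  have hconst : ∀ a : k, algebraMap k ↥(Fk k N) a ∈ O := by
    intro a
    obtain ⟨w, rfl⟩ := hD.res_surjective a
    rw [hOmem]
    refine ⟨⟨cW W N w, le_locSub (chart W N S) m (rcpb_cW_mem_chart W N S w)⟩, ?_⟩
    apply Subtype.ext
    exact rcpb_rho_cW W res N ϖ ρ hρ w _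
  refine ⟨⟨O, hconst, hOtop, hOpid⟩, ?_, ?_⟩
  · intro z
    refine Iff.trans (hOmem z) ?_
    constructor
    · rintro ⟨r, hr⟩
      exact ⟨(r : ↥(FL L N)), r.2, hRV r.2, congrArg Subtype.val hr⟩
    · rintro ⟨g, hg, hV, h⟩
      exact ⟨⟨g, hg⟩, Subtype.ext h⟩
  · intro g hV hk
    have hgR : (g : ↥(FL L N)) ∈ locSub (chart W N S) m := le_locSub (chart W N S) m g.2
    exact Iff.trans (hOnu ⟨(g : ↥(FL L N)), hgR⟩)
      (rcpb_mem_max_iff (chart W N S) m hloc g hgR)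

end

end Fermat.Agent.S37
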