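/-
S37, block R, package RDE (twin B), part 1: `DatumExists`.
`rdeb_datum : e_BaseRingStatement → GaussStatement → h_HorizAbsStatement → DatumExistsStatement`.
-/
import Fermat.Agent.S37.RInterfaces2
import Fermat.Agent.S18.EBaseRingT
import Fermat.Agent.S18.EInterfaces3

set_option autoImplicit false

open ModularCurve AlgebraicCurve

namespace Fermat.Agent.S37

open Fermat.Agent.S18

set_option synthInstance.maxHeartbeats 400000

/-- For `L₀ : IntermediateField ℚ Qb` the S18 residue map `e_res A L₀` is the S37 residue map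
`dRes A (algebraMap ↥L₀ Qb)`. -/
theorem rdeb_res_eq (A : ValuationSubring Qb) (L₀ : IntermediateField ℚ Qb) :
    e_res A L₀ = dRes A (algebraMap ↥L₀ Qb) :=
  RingHom.ext fun _ => rfl

/-- A datum over an intermediate field `L₀` of `Qb / ℚ` with `BaseData` (in the S18 form) gives a
datum in the S37 form, with `HorizAt` and a reduction map. -/
theorem rdeb_of_intermediate (hG : GaussStatement) (hH : h_HorizAbsStatement)
    (N ℓ : ℕ) [NeZero N] [Fact ℓ.Prime] (A : ValuationSubring Qb)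
    (hac : IsAlgClosed (kA A)) (hcp : CharP (kA A) ℓ)
    (L₀ : IntermediateField ℚ Qb) (hdvr : IsDiscreteValuationRing ↥(e_WL A L₀))
    (ϖ : ↥(e_WL A L₀)) (hB : BaseData N ℓ (e_WL A L₀) (e_res A L₀) ϖ) :
    ∃ (_ : IsDiscreteValuationRing ↥(dW A (algebraMap ↥L₀ Qb)))
      (ϖ' : ↥(dW A (algebraMap ↥L₀ Qb))),
      BaseData N ℓ (dW A (algebraMap ↥L₀ Qb)) (dRes A (algebraMap ↥L₀ Qb)) ϖ' ∧
      HorizAt ↥L₀ N ∧
      ∃ ρ : ↥(gaussV (dW A (algebraMap ↥L₀ Qb)) (dRes A (algebraMap ↥L₀ Qb)) N) →+*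
          LaurentSeries (kA A),
        IsGaussRed (dW A (algebraMap ↥L₀ Qb)) (dRes A (algebraMap ↥L₀ Qb)) N ϖ' ρ := by
  have hB' : BaseData N ℓ (dW A (algebraMap ↥L₀ Qb)) (dRes A (algebraMap ↥L₀ Qb)) ϖ := by
    rw [← rdeb_res_eq A L₀]
    exact hB
  have : IsDiscreteValuationRing ↥(dW A (algebraMap ↥L₀ Qb)) := hdvr
  have := hac
  have := hcp
  refine ⟨hdvr, ϖ, hB', hH N ↥L₀ (algebraMap ↥L₀ Qb), ?_⟩
  exact (hG N ℓ ↥L₀ (dW A (algebraMap ↥L₀ Qb)) (kA A) (dRes A (algebraMap ↥L₀ Qb)) ϖ hB').2.2.2.2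

/-- (DatumExists) -/
theorem rdeb_datum : e_BaseRingStatement → GaussStatement → h_HorizAbsStatement →
    DatumExistsStatement := by
  intro hE hG hH N ℓ _ _ hN A hA
  obtain ⟨hac, hcp, hS⟩ := hE N ℓ hN A hA
  refine ⟨hac, hcp, ?_⟩
  intro T
  obtain ⟨L₀, hT, hdvr, ϖ, hB⟩ := hS T
  obtain ⟨hdvr', ϖ', hB', hHor, ρ, hρ⟩ := rdeb_of_intermediate hG hH N ℓ A hac hcp L₀ hdvr ϖ hB
  exact ⟨↥L₀, inferInstance, inferInstance, algebraMap ↥L₀ Qb, hdvr', ϖ', hB', hHor,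
    fun s hs => ⟨⟨s, hT s hs⟩, rfl⟩, ρ, hρ⟩

end Fermat.Agent.S37
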