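/-
S37, block R, package RV (twin B): values, degrees, maximality of discrete valuation rings, the
chart dichotomy, transport of values under semilinear automorphisms.
Namespace `Fermat.Agent.S37`, prefix `rvb_`.
-/
import Fermat.Agent.S37.RInterfaces
import Fermat.Agent.S37.HV
import Fermat.Agent.S24.Places
import Fermat.Agent.S18.EK1T

set_option autoImplicit false
set_option synthInstance.maxHeartbeats 400000

open ModularCurve AlgebraicCurve

namespace Fermat.Agent.S37

open Fermat.Agent.S18

/-! ## General lemmas on places -/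

section General

variable {K F : Type} [Field K] [Field F] [Algebra K F]

/-- If the residue class of `a` is the constant `c`, then `a` has the value `c`. -/
theorem rvb_hasValue_of_residue (P : Place K F) (a : P.toValuationSubring) (c : K)
    (h : algebraMap K P.ResidueField c = IsLocalRing.residue P.toValuationSubring a) :
    HasValue P (a : F) c := by
  unfold HasValue
  rw [ValuationSubring.mem_nonunits_iff_exists_mem_maximalIdeal]
  refine ⟨sub_mem a.2 (P.algebraMap_mem' c), ?_⟩
  rw [← IsLocalRing.residue_eq_zero_iff]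
  have h1 : (⟨(a : F) - algebraMap K F c, sub_mem a.2 (P.algebraMap_mem' c)⟩ :
      P.toValuationSubring) = a - algebraMap K P.toValuationSubring c := rfl
  rw [h1, map_sub, ← h]
  exact sub_self _

/-- Values from the residue statement: if every residue class is a constant, every element of the
valuation ring has a value. -/
theorem rvb_exists_value (P : Place K F)
    (h : ∀ a : P.toValuationSubring, ∃ c : K,
      algebraMap K P.ResidueField c = IsLocalRing.residue P.toValuationSubring a)
    (s : F) (hs : s ∈ P.toValuationSubring) : ∃ c : K, HasValue P s c := by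
  obtain ⟨c, hc⟩ := h ⟨s, hs⟩
  exact ⟨c, rvb_hasValue_of_residue P ⟨s, hs⟩ c hc⟩

/-- Degree one from the residue statement. -/
theorem rvb_deg_eq_one (P : Place K F)
    (h : ∀ a : P.toValuationSubring, ∃ c : K,
      algebraMap K P.ResidueField c = IsLocalRing.residue P.toValuationSubring a) :
    P.deg = 1 := by
  have hsurj : Function.Surjective (algebraMap K P.ResidueField) := by
    intro x
    obtain ⟨a, rfl⟩ := IsLocalRing.residue_surjective x
    exact h a
  have hinj : Function.Injective (algebraMap K P.ResidueField) :=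
    (algebraMap K P.ResidueField).injective
  let e : K ≃ₗ[K] P.ResidueField :=
    LinearEquiv.ofBijective (Algebra.linearMap K P.ResidueField) ⟨hinj, hsurj⟩
  unfold Place.deg
  rw [← e.finrank_eq, Module.finrank_self]

end General

/-! ## Values and degrees for `F = F_Qb` and `F_k` -/

/-- The residue statement for places of `F = F_Qb`. -/
theorem rvb_residue_Q (hfin : FinLStatement) (N : ℕ) [NeZero N] (P : Place Qb ↥(FL Qb N))
    (a : P.toValuationSubring) :
    ∃ c : Qb, algebraMap Qb P.ResidueField c = IsLocalRing.residue P.toValuationSubring a := by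
  obtain ⟨htr, hfd⟩ := hfin N Qb
  exact Fermat.Agent.S24.Places.exists_residue_eq P htr hfd a

/-- The residue statement for places of `F_k`. -/
theorem rvb_residue_K (hsep : FkSepStatement) (N : ℕ) [NeZero N] (ℓ : ℕ) [Fact ℓ.Prime]
    (hℓ : ¬ ℓ ∣ N) (k : Type) [Field k] [CharP k ℓ] [IsAlgClosed k] (x : Place k ↥(Fk k N))
    (a : x.toValuationSubring) :
    ∃ c : k, algebraMap k x.ResidueField c = IsLocalRing.residue x.toValuationSubring a := by
  have htr : Transcendental k (⟨jqModC k, jqModC_mem_full k N⟩ : ↥(Fk k N)) := e_k1T_transc k N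
  have hsepF : ∀ x : ↥(Fk k N), IsSeparable
      ↥(IntermediateField.adjoin k {(⟨jqModC k, jqModC_mem_full k N⟩ : ↥(Fk k N))}) x := fun x =>
    e_k1T_isSeparable_transport k (LaurentSeries k) (Fk k N) _ x (hsep N ℓ hℓ k x.1 x.2)
  have hfd : FiniteDimensional
      ↥(IntermediateField.adjoin k {(⟨jqModC k, jqModC_mem_full k N⟩ : ↥(Fk k N))}) ↥(Fk k N) :=
    e_k1T_finiteDimensional_aux k ↥(Fk k N) _ _
      ((e_k1T_finite_gens k N).preimage Subtype.val_injective.injOn)
      (e_k1T_adjoin_top k (LaurentSeries k) (divisorExpansionsC k N))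
      (fun x => (hsepF x).isIntegral)
  exact Fermat.Agent.S24.Places.exists_residue_eq x htr hfd a

/-- Every element of the valuation ring of a place of `F = F_Qb` has a value in `Qb`. -/
theorem rvb_valQ : FinLStatement → ValQStatement := by
  intro hfin N _ P s hs
  exact rvb_exists_value P (rvb_residue_Q hfin N P) s hs

/-- Places of `F = F_Qb` have degree one. -/
theorem rvb_degQ : FinLStatement → DegQStatement := by
  intro hfin N _ P
  exact rvb_deg_eq_one P (rvb_residue_Q hfin N P)

/-- Every element of the valuation ring of a place of `F_k` has a value in `k`. -/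
theorem rvb_valK : FkSepStatement → ValKStatement := by
  intro hsep N _ ℓ _ hℓ k _ _ _ x s hs
  exact rvb_exists_value x (rvb_residue_K hsep N ℓ hℓ k x) s hs

/-- Places of `F_k` have degree one. -/
theorem rvb_degK : FkSepStatement → DegKStatement := by
  intro hsep N _ ℓ _ hℓ k _ _ _ x
  exact rvb_deg_eq_one x (rvb_residue_K hsep N ℓ hℓ k x)

/-! ## Maximality of discrete valuation rings -/

/-- A discrete valuation ring of a function field is a maximal proper subring: two places with
comparable valuation rings are equal. -/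
theorem rvb_placeMax : PlaceMaxStatement := by
  intro K F _ _ _ x y hxy
  apply Place.ext
  refine le_antisymm hxy ?_
  intro z hz
  by_contra hzx
  have hz0 : z ≠ 0 := fun h => hzx (h ▸ zero_mem _)
  obtain ⟨ϖ, hϖ⟩ := IsDiscreteValuationRing.exists_irreducible x.toValuationSubring
  have hϖ0 : (ϖ : F) ≠ 0 := by
    intro h
    exact hϖ.ne_zero (Subtype.ext h)
  obtain ⟨u, hu⟩ := x.exists_unit_mul_zpow hz0 hϖ
  -- the order of `z` at `x` is negative
  have hn : x.ord z < 0 := by
    by_contra hn
    have hn' : 0 ≤ x.ord z := not_lt.mp hn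
    apply hzx
    rw [hu]
    refine mul_mem (u : x.toValuationSubring).2 ?_
    obtain ⟨m, hm⟩ := Int.eq_ofNat_of_zero_le hn'
    rw [hm, zpow_natCast]
    exact pow_mem ϖ.2 m
  -- hence `ϖ⁻¹` lies in the valuation ring of `y`
  have hϖinv : (ϖ : F)⁻¹ ∈ y.toValuationSubring := by
    obtain ⟨m, hm⟩ := Int.eq_ofNat_of_zero_le (show 0 ≤ -x.ord z - 1 by omega)
    have hm' : x.ord z = -((m : ℤ) + 1) := by omega
    have hinv : (((u⁻¹ : (x.toValuationSubring)ˣ) : x.toValuationSubring) : F)
        * ((u : x.toValuationSubring) : F) = 1 := by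
      rw [← MulMemClass.coe_mul, Units.inv_mul, OneMemClass.coe_one]
    have key : (ϖ : F)⁻¹ = (((u⁻¹ : (x.toValuationSubring)ˣ) : x.toValuationSubring) : F)
        * z * (ϖ : F) ^ m := by
      have h1 : z * (ϖ : F) ^ m = ((u : x.toValuationSubring) : F) * (ϖ : F)⁻¹ := by
        rw [hu, hm', zpow_neg, mul_assoc]
        congr 1
        have h2 : (ϖ : F) ^ ((m : ℤ) + 1) = (ϖ : F) ^ m * (ϖ : F) := by
          rw [zpow_add₀ hϖ0, zpow_natCast, zpow_one]
        rw [h2, mul_inv, mul_comm ((ϖ : F) ^ m)⁻¹, mul_assoc,
          inv_mul_cancel₀ (pow_ne_zero m hϖ0), mul_one]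
      rw [mul_assoc, h1, ← mul_assoc, hinv, one_mul]
    rw [key]
    exact mul_mem (mul_mem (hxy (u⁻¹ : (x.toValuationSubring)ˣ).1.2) hz)
      (pow_mem (hxy ϖ.2) m)
  -- so the valuation ring of `y` is everything
  apply y.ne_top'
  rw [eq_top_iff]
  intro f _
  by_cases hf : f = 0
  · rw [hf]; exact zero_mem _
  obtain ⟨v, hv⟩ := x.exists_unit_mul_zpow hf hϖ
  rw [hv]
  refine mul_mem (hxy (v : x.toValuationSubring).2) ?_
  rcases le_or_gt 0 (x.ord f) with h0 | h0
  · obtain ⟨m, hm⟩ := Int.eq_ofNat_of_zero_le h0
    rw [hm, zpow_natCast]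
    exact pow_mem (hxy ϖ.2) m
  · obtain ⟨m, hm⟩ := Int.eq_ofNat_of_zero_le (show 0 ≤ -x.ord f by omega)
    have hm' : x.ord f = -(m : ℤ) := by omega
    rw [hm', zpow_neg, zpow_natCast, ← inv_pow]
    exact pow_mem hϖinv m

/-! ## The chart dichotomy -/

/-- `j ≠ 0` in `F = F_Qb`. -/
theorem rvb_jF_ne_zero (N : ℕ) [NeZero N] : jF Qb N ≠ 0 := by
  intro h
  have h1 := coeff_jqModC_neg_one Qb
  have h2 : jqModC Qb = 0 := congrArg Subtype.val h
  rw [h2] at h1
  simp at h1

/-- Every place of `F` lies in exactly one of the two charts. -/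
theorem rvb_inChart : ValQStatement → InChartStatement := by
  intro hval N _ A P
  constructor
  · by_cases hj : jF Qb N ∈ P.toValuationSubring
    · obtain ⟨c, hc⟩ := hval N P _ hj
      by_cases hcA : c ∈ A
      · exact Or.inl ⟨c, hcA, hc⟩
      · right
        have hc0 : c ≠ 0 := fun h => hcA (h ▸ zero_mem _)
        refine ⟨c⁻¹, ?_, hv_inv hc hc0⟩
        rw [ValuationSubring.inv_mem_nonunits_iff]
        exact Or.inr hcA
    · right
      refine ⟨0, A.nonunits.zero_mem, ?_⟩
      rw [hv_zero_iff, ValuationSubring.inv_mem_nonunits_iff]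
      exact Or.inr hj
  · rintro ⟨⟨c, hcA, hc⟩, ⟨d, hdA, hd⟩⟩
    have hj0 : jF Qb N ≠ 0 := rvb_jF_ne_zero N
    have h1 : HasValue P (jF Qb N * (jF Qb N)⁻¹) (c * d) := hv_mul hc hd
    rw [mul_inv_cancel₀ hj0] at h1
    have h2 : c * d = 1 := hv_unique h1 (hv_one P)
    have hd0 : d ≠ 0 := by
      rintro rfl
      rw [mul_zero] at h2
      exact zero_ne_one h2
    have hc' : c = d⁻¹ := eq_inv_of_mul_eq_one_left h2
    rw [ValuationSubring.mem_nonunits_iff_or] at hdA
    rcases hdA with hdA | hdA
    · exact hd0 hdA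
    · exact hdA (hc' ▸ hcA)

/-! ## Transport of values under semilinear automorphisms -/

/-- Transport of values under a semilinear automorphism (prelude `AlgebraicCurve.SemilinearAut`,
acting on `F` and on places). -/
theorem rvb_smul {K F : Type} [Field K] [Field F] [Algebra K F] (g : SemilinearAut K F)
    (P : Place K F) (s : F) (c : K) :
    HasValue (g • P) (g • s) (SemilinearAut.baseAut g c) ↔ HasValue P s c := by
  unfold HasValue
  rw [SemilinearAut.smul_toValuationSubring, ← SemilinearAut.smul_algebraMap, ← smul_sub,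
    ValuationSubring.mem_nonunits_iff_or, ValuationSubring.mem_nonunits_iff_or, ← smul_inv'',
    ValuationSubring.smul_mem_pointwise_smul_iff, smul_eq_zero_iff_eq]

end Fermat.Agent.S37
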