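/-
S37, block VAL, work package `VALCharpolyInt` (general algebra): if `x : F'` is integral over
`φ(R)`, `R` a subring of `F`, then the coefficients of the characteristic polynomial of `x` along
`φ : F → F'` are integral over `R`.

Proof.  Let `P ∈ R[X]` be monic with `P(x) = 0` and `Ω` an algebraic closure of `F`.  Every root
`r ∈ Ω` of the characteristic polynomial `χ` is an eigenvalue of the base change to `Ω` of the
multiplication by `x`, which is annihilated by `P`; hence `P(r) = 0` and `r` is integral over `R`.
As `χ` is monic and splits over `Ω` with roots in the integral closure of `R`, its coefficients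
are integral over `R` (in `Ω`, hence in `F`).
-/
import Fermat.Agent.S37.VALInterfaces

set_option autoImplicit false

open Polynomial AlgebraicCurve

namespace Fermat.Agent.S37

/-- The coefficients of the characteristic polynomial of the multiplication by `x` on a finite
field extension `F'` of `F` are integral over a subring `R` of `F` as soon as `x` is annihilated
by a monic polynomial with coefficients in `R`. -/
theorem vcj_core {F F' : Type} [Field F] [Field F'] [Algebra F F'] [Module.Finite F F']
    (R : Subring F) (x : F') (P : Polynomial ↥R) (hP : P.Monic)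
    (hx : Polynomial.eval₂ ((algebraMap F F').comp R.subtype) x P = 0) (n : ℕ) :
    IsIntegral ↥R ((LinearMap.mulLeft F x).charpoly.coeff n) := by
  classical
  let Ω := AlgebraicClosure F
  let f : Module.End F F' := LinearMap.mulLeft F x
  let Q : F[X] := P.map (algebraMap ↥R F)
  -- `Q` annihilates `x`, hence the multiplication by `x`
  have hQx : aeval x Q = 0 := by
    show eval₂ (algebraMap F F') x (P.map (algebraMap ↥R F)) = 0
    rw [eval₂_map]
    exact hx
  have hQf : aeval f Q = 0 := by
    have h := aeval_algHom_apply (Algebra.lmul F F') x Q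
    rw [hQx, map_zero] at h
    exact h
  -- every root of the characteristic polynomial in `Ω` is a root of `P`
  have hroot : ∀ r : Ω, (f.charpoly.map (algebraMap F Ω)).IsRoot r → IsIntegral ↥R r := by
    intro r hr
    rw [← LinearMap.charpoly_baseChange] at hr
    have hev := (Module.End.hasEigenvalue_iff_isRoot_charpoly (f.baseChange Ω) r).2 hr
    obtain ⟨v, hv⟩ := hev.exists_hasEigenvector
    have h1 : aeval (f.baseChange Ω) (Q.map (algebraMap F Ω)) = 0 := by
      rw [aeval_map_algebraMap]
      have h := aeval_algHom_apply (Module.End.baseChangeHom F Ω F') f Q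
      rw [hQf, map_zero] at h
      exact h
    have h2 := Module.End.aeval_apply_of_hasEigenvector (p := Q.map (algebraMap F Ω)) hv
    rw [h1, LinearMap.zero_apply] at h2
    have h3 : eval r (Q.map (algebraMap F Ω)) = 0 := by
      rcases smul_eq_zero.mp h2.symm with h | h
      · exact h
      · exact absurd h hv.2
    refine ⟨P, hP, ?_⟩
    rw [← h3, eval_map, eval₂_map]
    rfl
  -- the characteristic polynomial is monic and splits over `Ω`, with integral roots
  have hsplit : (f.charpoly.map (algebraMap F Ω)).Splits := IsAlgClosed.splits _
  have hmonic : (f.charpoly.map (algebraMap F Ω)).Monic := (LinearMap.charpoly_monic f).map _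
  have hlift := hsplit.mem_lift_of_roots_mem_range hmonic
    (algebraMap (integralClosure ↥R Ω) Ω) (by
      intro a ha
      have : IsIntegral ↥R a := hroot a (isRoot_of_mem_roots ha)
      exact ⟨⟨a, this⟩, rfl⟩)
  obtain ⟨y, hy⟩ := (lifts_iff_coeff_lifts _).1 hlift n
  rw [coeff_map] at hy
  have hy' : IsIntegral ↥R (algebraMap F Ω (f.charpoly.coeff n)) := by
    rw [← hy]
    exact y.2
  exact (isIntegral_algebraMap_iff (algebraMap F Ω).injective).1 hy'

/-- (VAL-CharpolyInt). -/
theorem vcj_main : val_CharpolyIntegralStatement := by
  intro K F F' _ _ _ _ _ _ φ hfin R x hx n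
  let _ : Algebra F F' := algebraAlong φ
  have _ : Module.Finite F F' := hfin
  obtain ⟨p, hp, hpx⟩ := hx
  let e : ↥R ≃+* ↥(R.map (φ : F →+* F')) :=
    R.equivMapOfInjective (φ : F →+* F') (φ : F →+* F').injective
  have hP : (p.map (e.symm : ↥(R.map (φ : F →+* F')) →+* ↥R)).Monic := hp.map _
  have hcomp : ((algebraMap F F').comp R.subtype).comp
      (e.symm : ↥(R.map (φ : F →+* F')) →+* ↥R) =
      algebraMap ↥(R.map (φ : F →+* F')) F' := by
    ext y
    have h := Subring.coe_equivMapOfInjective_apply R (φ : F →+* F')
      (φ : F →+* F').injective (e.symm y)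
    rw [show R.equivMapOfInjective (φ : F →+* F') (φ : F →+* F').injective = e from rfl,
      RingEquiv.apply_symm_apply] at h
    exact h.symm
  refine vcj_core R x (p.map (e.symm : ↥(R.map (φ : F →+* F')) →+* ↥R)) hP ?_ n
  rw [eval₂_map, hcomp]
  exact hpx

end Fermat.Agent.S37
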