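/-
S37 (Eichler–Shimura congruence relation), block VAL, work package VALChartA (file B).

* `vcb_main : val_ChartAStatement` — the coefficientwise embedding `dEmb N ι : F_L → F` maps the
  chart of any `(L, ι)` into the `A`-level chart;
* `vcb_bridge` — conversely, every element of the `A`-level chart comes from the chart of `(L, ι)`
  as soon as `ι(L)` contains a suitable finite subset of `Qb`.
-/
import Fermat.Agent.S37.VALInterfaces

set_option autoImplicit false

open ModularCurve AlgebraicCurve Polynomial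

namespace Fermat.Agent.S37

open Fermat.Agent.S18

noncomputable section

set_option synthInstance.maxHeartbeats 400000

/-- `dEmb` maps the generator of the chart `i` over `L` to the generator over `Qb`. -/
theorem vcb_dEmb_t (N : ℕ) [NeZero N] (i : Bool) {L : Type} [Field L] [Algebra ℚ L]
    (ι : L →+* Qb) : dEmb N ι (val_t i L N) = val_t i Qb N := by
  cases i
  · show dEmb N ι (jF L N)⁻¹ = (jF Qb N)⁻¹
    rw [map_inv₀, dEmb_jF]
  · show dEmb N ι (jF L N) = jF Qb N
    exact dEmb_jF N ι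

/-- `dEmb` maps `W[t]` into `A[t]`. -/
theorem vcb_dEmb_baseRing (N : ℕ) [NeZero N] (A : ValuationSubring Qb) (i : Bool) {L : Type}
    [Field L] [Algebra ℚ L] (ι : L →+* Qb) (x : ↥(FL L N))
    (hx : x ∈ baseRing (dW A ι) N {val_t i L N}) :
    dEmb N ι x ∈ val_baseRing N A (val_t i Qb N) := by
  induction hx using Subring.closure_induction with
  | mem y hy =>
      rcases hy with ⟨w, rfl⟩ | hy
      · show dEmb N ι (algebraMap L ↥(FL L N) (w : L)) ∈ val_baseRing N A (val_t i Qb N)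
        rw [dEmb_algebraMap]
        exact Subring.subset_closure (Or.inl ⟨⟨ι (w : L), w.2⟩, rfl⟩)
      · rw [Set.mem_singleton_iff] at hy
        rw [hy, vcb_dEmb_t]
        exact Subring.subset_closure (Or.inr rfl)
  | zero => rw [map_zero]; exact zero_mem _
  | one => rw [map_one]; exact one_mem _
  | add x y _ _ hx hy => rw [map_add]; exact add_mem hx hy
  | neg x _ hx => rw [map_neg]; exact neg_mem hx
  | mul x y _ _ hx hy => rw [map_mul]; exact mul_mem hx hy

/-- The restriction of `dEmb` to the base rings `W[t] → A[t]`. -/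
def vcb_phi (N : ℕ) [NeZero N] (A : ValuationSubring Qb) (i : Bool) {L : Type} [Field L]
    [Algebra ℚ L] (ι : L →+* Qb) :
    ↥(baseRing (dW A ι) N {val_t i L N}) →+* ↥(val_baseRing N A (val_t i Qb N)) :=
  (dEmb N ι).restrict _ _ (vcb_dEmb_baseRing N A i ι)

theorem vcb_phi_coe (N : ℕ) [NeZero N] (A : ValuationSubring Qb) (i : Bool) {L : Type} [Field L]
    [Algebra ℚ L] (ι : L →+* Qb) (x : ↥(baseRing (dW A ι) N {val_t i L N})) :
    ((vcb_phi N A i ι x : ↥(val_baseRing N A (val_t i Qb N))) : ↥(FL Qb N))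
      = dEmb N ι (x : ↥(FL L N)) := rfl

theorem vcb_phi_comp (N : ℕ) [NeZero N] (A : ValuationSubring Qb) (i : Bool) {L : Type} [Field L]
    [Algebra ℚ L] (ι : L →+* Qb) :
    (algebraMap ↥(val_baseRing N A (val_t i Qb N)) ↥(FL Qb N)).comp (vcb_phi N A i ι)
      = (dEmb N ι).comp (algebraMap ↥(baseRing (dW A ι) N {val_t i L N}) ↥(FL L N)) :=
  RingHom.ext fun _ => rfl

theorem vcb_phi_injective (N : ℕ) [NeZero N] (A : ValuationSubring Qb) (i : Bool) {L : Type}
    [Field L] [Algebra ℚ L] (ι : L →+* Qb) : Function.Injective (vcb_phi N A i ι) := by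
  intro u v huv
  apply Subtype.ext
  apply (dEmb N ι).injective
  exact congrArg Subtype.val huv

/-- (VAL-ChartA) The chart of a datum maps into the `A`-level chart. -/
theorem vcb_main : val_ChartAStatement := by
  intro N _ A i L _ _ ι g hg
  rw [val_mem_chart_iff]
  rw [mem_chart_iff] at hg
  exact IsIntegral.map_of_comp_eq (vcb_phi N A i ι) (dEmb N ι) (vcb_phi_comp N A i ι) hg

/-- Every element of `A[t]` comes from `W[t]` as soon as `ι(L)` contains a suitable finite set. -/
theorem vcb_descend_baseRing (N : ℕ) [NeZero N] (A : ValuationSubring Qb) (i : Bool)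
    (x : ↥(FL Qb N)) (hx : x ∈ val_baseRing N A (val_t i Qb N)) :
    ∃ T : Finset Qb, ∀ (L : Type) [Field L] [Algebra ℚ L] (ι : L →+* Qb),
      (∀ s ∈ T, ∃ c : L, ι c = s) →
      ∃ x' : ↥(FL L N), x' ∈ baseRing (dW A ι) N {val_t i L N} ∧ dEmb N ι x' = x := by
  classical
  induction hx using Subring.closure_induction with
  | mem y hy =>
      rcases hy with ⟨a, rfl⟩ | hy
      · refine ⟨{(a : Qb)}, fun L _ _ ι h => ?_⟩
        obtain ⟨c, hc⟩ := h (a : Qb) (Finset.mem_singleton_self _)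
        have hcW : c ∈ dW A ι := by
          show ι c ∈ A
          rw [hc]
          exact a.2
        refine ⟨cW (dW A ι) N ⟨c, hcW⟩, Subring.subset_closure (Or.inl ⟨_, rfl⟩), ?_⟩
        show dEmb N ι (algebraMap L ↥(FL L N) c) = algebraMap Qb ↥(FL Qb N) (a : Qb)
        rw [dEmb_algebraMap, hc]
      · rw [Set.mem_singleton_iff] at hy
        rw [hy]
        exact ⟨∅, fun L _ _ ι _ =>
          ⟨val_t i L N, Subring.subset_closure (Or.inr rfl), vcb_dEmb_t N i ι⟩⟩
  | zero => exact ⟨∅, fun L _ _ ι _ => ⟨0, zero_mem _, map_zero _⟩⟩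
  | one => exact ⟨∅, fun L _ _ ι _ => ⟨1, one_mem _, map_one _⟩⟩
  | add x y _ _ hx hy =>
      obtain ⟨S, hS⟩ := hx
      obtain ⟨T, hT⟩ := hy
      refine ⟨S ∪ T, fun L _ _ ι h => ?_⟩
      obtain ⟨a, ha, rfl⟩ := hS L ι (fun s hs => h s (Finset.mem_union_left _ hs))
      obtain ⟨b, hb, rfl⟩ := hT L ι (fun s hs => h s (Finset.mem_union_right _ hs))
      exact ⟨a + b, add_mem ha hb, map_add _ _ _⟩
  | neg x _ hx =>
      obtain ⟨S, hS⟩ := hx
      refine ⟨S, fun L _ _ ι h => ?_⟩
      obtain ⟨a, ha, rfl⟩ := hS L ι h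
      exact ⟨-a, neg_mem ha, map_neg _ _⟩
  | mul x y _ _ hx hy =>
      obtain ⟨S, hS⟩ := hx
      obtain ⟨T, hT⟩ := hy
      refine ⟨S ∪ T, fun L _ _ ι h => ?_⟩
      obtain ⟨a, ha, rfl⟩ := hS L ι (fun s hs => h s (Finset.mem_union_left _ hs))
      obtain ⟨b, hb, rfl⟩ := hT L ι (fun s hs => h s (Finset.mem_union_right _ hs))
      exact ⟨a * b, mul_mem ha hb, map_mul _ _ _⟩

/-- Every polynomial over `A[t]` comes from a polynomial over `W[t]` as soon as `ι(L)` contains a
suitable finite set. -/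
theorem vcb_descend_poly (N : ℕ) [NeZero N] (A : ValuationSubring Qb) (i : Bool)
    (p : Polynomial ↥(val_baseRing N A (val_t i Qb N))) :
    ∃ T : Finset Qb, ∀ (L : Type) [Field L] [Algebra ℚ L] (ι : L →+* Qb),
      (∀ s ∈ T, ∃ c : L, ι c = s) →
      ∃ p' : Polynomial ↥(baseRing (dW A ι) N {val_t i L N}),
        p'.map (vcb_phi N A i ι) = p := by
  classical
  induction p using Polynomial.induction_on' with
  | add p q hp hq =>
      obtain ⟨S, hS⟩ := hp
      obtain ⟨T, hT⟩ := hq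
      refine ⟨S ∪ T, fun L _ _ ι h => ?_⟩
      obtain ⟨a, rfl⟩ := hS L ι (fun s hs => h s (Finset.mem_union_left _ hs))
      obtain ⟨b, rfl⟩ := hT L ι (fun s hs => h s (Finset.mem_union_right _ hs))
      exact ⟨a + b, Polynomial.map_add _⟩
  | monomial n a =>
      obtain ⟨T, hT⟩ := vcb_descend_baseRing N A i (a : ↥(FL Qb N)) a.2
      refine ⟨T, fun L _ _ ι h => ?_⟩
      obtain ⟨a', ha', hdE⟩ := hT L ι h
      refine ⟨Polynomial.monomial n ⟨a', ha'⟩, ?_⟩
      rw [Polynomial.map_monomial]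
      congr 1
      exact Subtype.ext hdE

/-- BRIDGE: every element of the `A`-level chart comes from the chart of `(L, ι)` as soon as
`ι(L)` contains a suitable finite subset of `Qb`. -/
theorem vcb_bridge (N : ℕ) [NeZero N] (A : ValuationSubring Qb) (i : Bool) (b : ↥(FL Qb N))
    (hb : b ∈ val_chart N A (val_t i Qb N)) :
    ∃ T : Finset Qb, ∀ (L : Type) [Field L] [Algebra ℚ L] (ι : L →+* Qb), (∀ s ∈ T, ∃ c : L, ι c = s) →
      ∃ b' : ↥(FL L N), b' ∈ chart (dW A ι) N {val_t i L N} ∧ dEmb N ι b' = b := by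
  classical
  rw [val_mem_chart_iff] at hb
  obtain ⟨p, hpm, hpb⟩ := hb
  obtain ⟨T₁, hT₁⟩ := vcb_descend_poly N A i p
  obtain ⟨T₂, hT₂⟩ := e_descentT_main N (b : LaurentSeries Qb) b.2
  refine ⟨T₁ ∪ T₂, fun L _ _ ι h => ?_⟩
  obtain ⟨p', hp'⟩ := hT₁ L ι (fun s hs => h s (Finset.mem_union_left _ hs))
  obtain ⟨xL, hxL, hxLb⟩ := hT₂ L ι (fun s hs => h s (Finset.mem_union_right _ hs))
  have hb' : dEmb N ι ⟨xL, hxL⟩ = b := Subtype.ext hxLb
  refine ⟨⟨xL, hxL⟩, ?_, hb'⟩
  rw [mem_chart_iff]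
  have hp'm : p'.Monic := by
    apply Polynomial.monic_of_injective (vcb_phi_injective N A i ι)
    rw [hp']
    exact hpm
  refine ⟨p', hp'm, ?_⟩
  apply (dEmb N ι).injective
  rw [map_zero, Polynomial.hom_eval₂, hb', ← vcb_phi_comp, ← Polynomial.eval₂_map, hp']
  exact hpb

end

end Fermat.Agent.S37
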