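/-
S37, block VAL, package VALChartPres (file B), (V1): for a place `Q` of `F_{Nq}` the place `β_* Q`
lies in the chart `i` iff `α_* Q` does.

Proof.  `InChart1 (φ_* Q)` means that `φ(j)` has a value in `A` at `Q`.  The modular polynomial
`Φ` of level `q` (monic, with integral coefficients) satisfies `Φ(J, J') = 0 = Φ(J', J)` for
`J = α(j) = j(q)`, `J' = β(j) = j(q^q)`.  If one of `J`, `J'` has a value in `A` at `Q`, the other
one is integral over the valuation ring of `Q`, hence has a value, which is a root of a monic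
polynomial with coefficients in `A`, hence lies in `A`.  The second chart is the complement of
the first one.
-/
import Fermat.Agent.S37.VALInterfaces
import Fermat.Agent.S37.HV

set_option autoImplicit false

open ModularCurve AlgebraicCurve Polynomial

namespace Fermat.Agent.S37

open Fermat.Agent.S18
open Fermat.Agent.S28 (evalL)

set_option synthInstance.maxHeartbeats 400000

/-! ## Valuation subrings -/

/-- The nonunits of a valuation subring: `a = 0` or `a⁻¹ ∉ O`. -/
theorem vcq_mem_nonunits_iff {K : Type} [Field K] (O : ValuationSubring K) (a : K) :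
    a ∈ O.nonunits ↔ a = 0 ∨ a⁻¹ ∉ O := by
  rw [ValuationSubring.mem_nonunits_iff]
  rcases eq_or_ne a 0 with rfl | ha
  · rw [map_zero]
    exact ⟨fun _ => Or.inl rfl, fun _ => zero_lt_one⟩
  · have hv : O.valuation a ≠ 0 := (Valuation.ne_zero_iff _).mpr ha
    rw [← ValuationSubring.valuation_le_one_iff, map_inv₀, inv_le_one₀ (zero_lt_iff.mpr hv),
      not_le]
    exact ⟨fun h => Or.inr h, fun h => h.resolve_left ha⟩

/-- The nonunits of the preimage of a valuation subring under a field homomorphism. -/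
theorem vcq_mem_nonunits_comap {K L : Type} [Field K] [Field L] (O : ValuationSubring L)
    (f : K →+* L) (a : K) : a ∈ (O.comap f).nonunits ↔ f a ∈ O.nonunits := by
  rw [vcq_mem_nonunits_iff, vcq_mem_nonunits_iff, ValuationSubring.mem_comap, map_inv₀,
    map_eq_zero]

/-- Values at the restricted place `φ_* Q`. -/
theorem vcq_hasValue_restrictAlong {K F F' : Type} [Field K] [Field F] [Field F'] [Algebra K F]
    [Algebra K F'] (φ : F →ₐ[K] F') (hφ : φ.toRingHom.IsIntegral) (Q : Place K F') (s : F)
    (c : K) : HasValue (Q.restrictAlong φ hφ) s c ↔ HasValue Q (φ s) c := by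
  unfold HasValue
  have h1 : (Q.restrictAlong φ hφ).toValuationSubring
      = Q.toValuationSubring.comap φ.toRingHom := rfl
  have h2 : φ.toRingHom (s - algebraMap K F c) = φ s - algebraMap K F' c := by
    rw [map_sub]
    congr 1
    exact φ.commutes c
  rw [h1, vcq_mem_nonunits_comap, h2]

/-- A valuation subring contains the roots of the monic polynomials with coefficients in it. -/
theorem vcq_mem_of_root {K : Type} [Field K] (O : ValuationSubring K) (Ψ : Polynomial K)
    (hmon : Ψ.Monic) (hcoeff : ∀ i : ℕ, Ψ.coeff i ∈ O) (t : K) (ht : Ψ.eval t = 0) : t ∈ O := by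
  have hl : Ψ ∈ Polynomial.lifts (algebraMap ↥O K) := by
    rw [Polynomial.lifts_iff_coeff_lifts]
    intro i
    exact ⟨⟨Ψ.coeff i, hcoeff i⟩, rfl⟩
  obtain ⟨p, hp, -, hpmon⟩ := Polynomial.lifts_and_natDegree_eq_and_monic hl hmon
  have hint : IsIntegral ↥O t := ⟨p, hpmon, by rw [← Polynomial.eval_map, hp]; exact ht⟩
  obtain ⟨y, hy⟩ := IsIntegrallyClosed.isIntegral_iff.mp hint
  exact hy ▸ y.2

/-- A valuation subring contains the elements integral over `ℤ`. -/
theorem vcq_int_mem {K : Type} [Field K] (O : ValuationSubring K) (x : K)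
    (hx : IsIntegral ℤ x) : x ∈ O := by
  have h : IsIntegral ↥O x := hx.tower_top
  obtain ⟨y, hy⟩ := IsIntegrallyClosed.isIntegral_iff.mp h
  exact hy ▸ y.2

/-! ## Transfer of values along an integral algebraic relation -/

/-- Let `Φ ∈ Qb[T][X]` be monic in `X` with integral coefficients and `Φ(t, s) = 0` for `s, t`
in a function field `F`.  If `s` has a value `c ∈ A` at the place `Q` (and the elements of the
valuation ring of `Q` have values), then `t` has a value in `A` at `Q`. -/
theorem vcq_transfer {F : Type} [Field F] [Algebra Qb F] (A : ValuationSubring Qb)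
    (Q : Place Qb F) (hval : ∀ t : F, t ∈ Q.toValuationSubring → ∃ d : Qb, HasValue Q t d)
    (Φ : Polynomial (Polynomial Qb)) (hmon : Φ.Monic)
    (hint : ∀ i j : ℕ, IsIntegral ℤ ((Φ.coeff i).coeff j)) (s t : F)
    (hΦ : (Φ.map (Polynomial.aeval s : Polynomial Qb →ₐ[Qb] F).toRingHom).eval t = 0)
    (c : Qb) (hc : c ∈ A) (hs : HasValue Q s c) : ∃ d : Qb, d ∈ A ∧ HasValue Q t d := by
  -- the coefficients of `Φ(X, s)` have the values of the coefficients of `Φ(X, c)`
  have hco : ∀ i : ℕ,
      HasValue Q ((Φ.map (Polynomial.aeval s : Polynomial Qb →ₐ[Qb] F).toRingHom).coeff i)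
        ((Φ.map (Polynomial.evalRingHom c)).coeff i) := by
    intro i
    rw [Polynomial.coeff_map, Polynomial.coeff_map]
    exact hv_aeval hs (Φ.coeff i)
  -- `t` lies in the valuation ring of `Q`
  have ht : t ∈ Q.toValuationSubring :=
    vcq_mem_of_root Q.toValuationSubring _ (hmon.map _) (fun i => hv_mem (hco i)) t hΦ
  obtain ⟨d, hd⟩ := hval t ht
  refine ⟨d, ?_, hd⟩
  -- the value of `Φ(t, s) = 0` is `Φ(d, c)`
  have h0 : HasValue Q ((Φ.map (Polynomial.aeval s : Polynomial Qb →ₐ[Qb] F).toRingHom).eval t)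
      ((Φ.map (Polynomial.evalRingHom c)).eval d) := by
    rw [Polynomial.eval_eq_sum_range' (n := Φ.natDegree + 1)
        (Nat.lt_succ_of_le (Polynomial.natDegree_map_le)),
      Polynomial.eval_eq_sum_range' (n := Φ.natDegree + 1)
        (Nat.lt_succ_of_le (Polynomial.natDegree_map_le))]
    exact hv_sum _ _ _ fun i _ => hv_mul (hco i) (hv_pow hd i)
  rw [hΦ] at h0
  have hroot : (Φ.map (Polynomial.evalRingHom c)).eval d = 0 := hv_unique h0 (hv_zero Q)
  -- `d` is a root of a monic polynomial with coefficients in `A`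
  refine vcq_mem_of_root A _ (hmon.map _) (fun i => ?_) d hroot
  rw [Polynomial.coeff_map, Polynomial.coe_evalRingHom, Polynomial.eval_eq_sum_range]
  exact sum_mem fun j _ => mul_mem (vcq_int_mem A _ (hint i j)) (pow_mem hc j)

/-! ## From identities of Laurent series to identities in the function field -/

/-- Evaluation of polynomials at a Laurent series lying in an intermediate field. -/
theorem vcq_evalL_eq {L : Type} [Field L] (E : IntermediateField L (LaurentSeries L)) (s : ↥E) :
    evalL (s : LaurentSeries L)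
      = (E.val : ↥E →+* LaurentSeries L).comp
          (Polynomial.aeval s : Polynomial L →ₐ[L] ↥E).toRingHom := by
  refine Polynomial.ringHom_ext (fun a => ?_) ?_
  · rw [RingHom.comp_apply]
    show Polynomial.eval₂ _ _ _ = E.val (Polynomial.aeval s (Polynomial.C a))
    rw [Polynomial.eval₂_C, Polynomial.aeval_C, HahnSeries.C_apply]
    exact ((E.val.commutes a).trans (algebraMap_laurentSeries_eq_single L a)).symm
  · rw [RingHom.comp_apply]
    show Polynomial.eval₂ _ _ _ = E.val (Polynomial.aeval s Polynomial.X)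
    rw [Polynomial.eval₂_X, Polynomial.aeval_X]
    rfl

/-- A relation `Φ(t, s) = 0` between Laurent series lying in an intermediate field, as a relation
in the field. -/
theorem vcq_pull {L : Type} [Field L] (E : IntermediateField L (LaurentSeries L))
    (Φ : Polynomial (Polynomial L)) (s t : ↥E)
    (h : (Φ.map (evalL (s : LaurentSeries L))).eval (t : LaurentSeries L) = 0) :
    (Φ.map (Polynomial.aeval s : Polynomial L →ₐ[L] ↥E).toRingHom).eval t = 0 := by
  apply Subtype.val_injective
  rw [vcq_evalL_eq, ← Polynomial.map_map, Polynomial.eval_map] at h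
  have h' := Polynomial.eval₂_at_apply (p := Φ.map
    (Polynomial.aeval s : Polynomial L →ₐ[L] ↥E).toRingHom) (E.val : ↥E →+* LaurentSeries L) t
  exact h'.symm.trans h

/-! ## The main theorem -/

/-- (VAL-ChartPres, (V1)) The two degeneracy maps preserve the charts. -/
theorem vcq_main :
    kr_ModEqIntStatement → ValQStatement → InChartStatement → val_ChartPresStatement := by
  intro hME hValQ hIC N q _ _ hq A hα hβ Q i
  -- the modular polynomial of level `q`
  obtain ⟨ζ, hζ⟩ := HasEnoughRootsOfUnity.exists_primitiveRoot (AlgebraicClosure ℚ) q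
  obtain ⟨Φ, hmon, -, hint, -, h1, h2⟩ := hME q hq ζ hζ
  -- `Φ(J, J') = 0` and `Φ(J', J) = 0` in `F_{Nq}`, for `J = α(j)`, `J' = β(j)`
  have e1 : (Φ.map (Polynomial.aeval (heckeBetaBar Qb N q (jF Qb N)) :
      Polynomial Qb →ₐ[Qb] ↥(FL Qb (N * q))).toRingHom).eval
        (heckeAlphaBar Qb N q (jF Qb N)) = 0 :=
    vcq_pull (FL Qb (N * q)) Φ (heckeBetaBar Qb N q (jF Qb N))
      (heckeAlphaBar Qb N q (jF Qb N)) h1
  have e2 : (Φ.map (Polynomial.aeval (heckeAlphaBar Qb N q (jF Qb N)) :
      Polynomial Qb →ₐ[Qb] ↥(FL Qb (N * q))).toRingHom).eval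
        (heckeBetaBar Qb N q (jF Qb N)) = 0 :=
    vcq_pull (FL Qb (N * q)) Φ (heckeAlphaBar Qb N q (jF Qb N))
      (heckeBetaBar Qb N q (jF Qb N)) h2
  -- the first chart
  have key : InChart1 N A (Q.restrictAlong (heckeBetaBar Qb N q) hβ) ↔
      InChart1 N A (Q.restrictAlong (heckeAlphaBar Qb N q) hα) := by
    constructor
    · rintro ⟨c', hc', hv⟩
      obtain ⟨c, hc, hv'⟩ := vcq_transfer A Q (hValQ (N * q) Q) Φ hmon hint _ _ e1 c' hc'
        ((vcq_hasValue_restrictAlong (heckeBetaBar Qb N q) hβ Q (jF Qb N) c').mp hv)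
      exact ⟨c, hc, (vcq_hasValue_restrictAlong (heckeAlphaBar Qb N q) hα Q (jF Qb N) c).mpr hv'⟩
    · rintro ⟨c, hc, hv⟩
      obtain ⟨c', hc', hv'⟩ := vcq_transfer A Q (hValQ (N * q) Q) Φ hmon hint _ _ e2 c hc
        ((vcq_hasValue_restrictAlong (heckeAlphaBar Qb N q) hα Q (jF Qb N) c).mp hv)
      exact ⟨c', hc', (vcq_hasValue_restrictAlong (heckeBetaBar Qb N q) hβ Q (jF Qb N) c').mpr hv'⟩
  -- the second chart is the complement of the first one
  have compl : ∀ P : Place Qb ↥(FL Qb N), InChart2 N A P ↔ ¬ InChart1 N A P := fun P =>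
    ⟨fun h2' h1' => (hIC N A P).2 ⟨h1', h2'⟩, fun hn => (hIC N A P).1.resolve_left hn⟩
  have key2 : InChart2 N A (Q.restrictAlong (heckeBetaBar Qb N q) hβ) ↔
      InChart2 N A (Q.restrictAlong (heckeAlphaBar Qb N q) hα) := by
    rw [compl, compl, key]
  exact or_congr (and_congr Iff.rfl key) (and_congr Iff.rfl key2)

end Fermat.Agent.S37
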