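/-
S37, block VAL, package VALFinal (file B): the outputs (R3) and (R4) from the core statements.

* `vfo_r3 : hi_HeckeDivSingleStatement → val_KernelStatement → val_R3CoreStatement → R3Statement`
* `vfo_r4 : hi_HeckeDivSingleStatement → val_R4CoreStatement → R4Statement`

Both follow from the identity `r_*(T_q [P]) = (val_heckeMult … P : ℤ-valued)` (`vfo_mapDomain_hecke`).
-/
import Fermat.Agent.S37.VALInterfaces

set_option autoImplicit false

open ModularCurve AlgebraicCurve Polynomial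

namespace Fermat.Agent.S37

open Fermat.Agent.S18

noncomputable section

set_option synthInstance.maxHeartbeats 400000

/-- `Finsupp.mapRange Nat.cast` commutes with finite sums. -/
theorem vfo_mapRange_sum {ι X : Type} (s : Finset ι) (f : ι → X →₀ ℕ) :
    Finsupp.mapRange (Nat.cast : ℕ → ℤ) rfl (∑ i ∈ s, f i) =
      ∑ i ∈ s, Finsupp.mapRange (Nat.cast : ℕ → ℤ) rfl (f i) :=
  map_sum (Finsupp.mapRange.addMonoidHom (Nat.castAddMonoidHom ℤ)) f s

/-- `Finsupp.mapRange Nat.cast` is additive. -/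
theorem vfo_mapRange_add {X : Type} (f g : X →₀ ℕ) :
    Finsupp.mapRange (Nat.cast : ℕ → ℤ) rfl (f + g) =
      Finsupp.mapRange (Nat.cast : ℕ → ℤ) rfl f + Finsupp.mapRange (Nat.cast : ℕ → ℤ) rfl g :=
  map_add (Finsupp.mapRange.addMonoidHom (Nat.castAddMonoidHom ℤ)) f g

/-- `r_*(T_q [P])` is the `ℤ`-valued version of the multiset `val_heckeMult … P`. -/
theorem vfo_mapDomain_hecke (hS : hi_HeckeDivSingleStatement) (N q : ℕ) [NeZero N] [NeZero q]
    (A : ValuationSubring Qb)
    (r : Place Qb ↥(FL Qb N) → Place (kA A) ↥(Fk (kA A) N))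
    (hα : HeckeAlphaBarIntegral Qb N q) (hβ : HeckeBetaBarIntegral Qb N q)
    [HasPrincipalDivisors Qb ↥(FL Qb (N * q))] (P : Place Qb ↥(FL Qb N)) :
    Finsupp.mapDomain r (heckeDivBar hα hβ (Finsupp.single P (1 : ℤ))) =
      Finsupp.mapRange (Nat.cast : ℕ → ℤ) rfl (val_heckeMult N q A r hα hβ P) := by
  have h1 := hS N q hα hβ P
  rw [h1, Finsupp.mapDomain_finsetSum, val_heckeMult, vfo_mapRange_sum]
  refine Finset.sum_congr rfl fun Q _ => ?_
  rw [Finsupp.mapDomain_single, Finsupp.mapRange_single]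

/-- (R3) from the kernel lemma and the core statement. -/
theorem vfo_r3 : hi_HeckeDivSingleStatement → val_KernelStatement → val_R3CoreStatement →
    R3Statement := by
  intro hS hK hC N ℓ _ _ hℓN A hA r hr q _ hq h D hD
  have hP : HasPrincipalDivisors Qb ↥(FL Qb (N * q)) := h.snd.snd.fst
  refine hK _ _ r (heckeDivBar h.fst h.snd.fst) ?_ D hD
  intro P P' hPP'
  rw [vfo_mapDomain_hecke hS N q A r h.fst h.snd.fst P,
    vfo_mapDomain_hecke hS N q A r h.fst h.snd.fst P',
    hC N ℓ hℓN A hA r hr q hq h.fst h.snd.fst P P' hPP']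

/-- (R4) from the core statement. -/
theorem vfo_r4 : hi_HeckeDivSingleStatement → val_R4CoreStatement → R4Statement := by
  intro hS hC N ℓ _ _ _ hℓN A hA r hr h τ hτ P
  have hP : HasPrincipalDivisors Qb ↥(FL Qb (N * ℓ)) := h.snd.snd.fst
  rw [vfo_mapDomain_hecke hS N ℓ A r h.fst h.snd.fst P,
    hC N ℓ hℓN A hA r hr h.fst h.snd.fst τ hτ P, vfo_mapRange_add,
    Finsupp.mapRange_single, Finsupp.mapRange_single, Nat.cast_one]

end

end Fermat.Agent.S37
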