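/-
S37, block VAL, package Integrality (twin B), (V2): for `g` in the `A`-level chart `i` and `P` a
place in the chart `i`, the coefficients of the characteristic polynomial `χ_g` of `α(g)` along
`β` lie in the local ring of the chart at `P`.

Deliverable:
`vio_main : kr_ModEqIntStatement → val_CharpolyIntegralStatement → val_IntegralityStatement`.

Sketch.  `J = α(j) = j(q)`, `J' = β(j) = j(q^q)`, `Φ` the modular polynomial (coefficients in `A`).
Chart of `j`: `α(g)` is integral over `A[J]`, and `J` is integral over `A[J'] = β(A[j])` (root of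
`Φ(X, J')`), so `α(g)` is integral over `β(A[j])` and the coefficients of `χ_g` are integral over
`A[j]`.  Chart of `u = 1/j`: multiplying `Φ(J', J) = 0` by `U^D U'^(q+1)` (`U = 1/J`, `U' = 1/J'`)
gives a polynomial relation for `U` over `A[U']` of degree `D` whose top coefficient is
`λ(U') = 1 + U' μ(U')`; hence `U` is integral over `β(R)`, `R = A[u][1/λ(u)]`, the coefficients of
`χ_g` are integral over `R`, and become integral over `A[u]` after multiplication by a power of
`λ(u)`, which has a unit value at `P`.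
-/
import Fermat.Agent.S37.VALInterfaces
import Fermat.Agent.S37.HV

set_option autoImplicit false

open ModularCurve AlgebraicCurve Polynomial
open Fermat.Agent.S28 (evalL)

namespace Fermat.Agent.S37

open Fermat.Agent.S18

noncomputable section

set_option synthInstance.maxHeartbeats 400000

/-! ### Integrality over subrings -/

/-- A root of a monic polynomial whose coefficients come from `R₀` is integral over `R₀`. -/
theorem vio_isIntegral_of_lifts {R₀ B : Type} [CommRing R₀] [CommRing B] [Algebra R₀ B] (x : B)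
    (p : Polynomial B) (hp : p.Monic) (hc : ∀ i, p.coeff i ∈ Set.range (algebraMap R₀ B))
    (hx : p.eval x = 0) : IsIntegral R₀ x := by
  have hl : p ∈ Polynomial.lifts (algebraMap R₀ B) := (Polynomial.lifts_iff_coeff_lifts p).mpr hc
  obtain ⟨q, hq, -, hqm⟩ := Polynomial.lifts_and_natDegree_eq_and_monic hl hp
  refine ⟨q, hqm, ?_⟩
  rw [← Polynomial.eval_map, hq]
  exact hx

/-- A root of a monic polynomial with coefficients in the subring `R` is integral over `R`. -/
theorem vio_isIntegral_of_coeff_mem {B : Type} [CommRing B] (R : Subring B) (x : B)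
    (p : Polynomial B) (hp : p.Monic) (hc : ∀ i, p.coeff i ∈ R) (hx : p.eval x = 0) :
    IsIntegral ↥R x :=
  vio_isIntegral_of_lifts x p hp (fun i => ⟨⟨p.coeff i, hc i⟩, rfl⟩) hx

/-- An element integral over the subring `R` is a root of a monic polynomial with coefficients
in `R`. -/
theorem vio_exists_poly {B : Type} [CommRing B] (R : Subring B) (x : B) (h : IsIntegral ↥R x) :
    ∃ p : Polynomial B, p.Monic ∧ (∀ i, p.coeff i ∈ R) ∧ p.eval x = 0 := by
  obtain ⟨q, hqm, hq⟩ := h
  refine ⟨q.map R.subtype, hqm.map _, fun i => ?_, ?_⟩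
  · rw [Polynomial.coeff_map]
    exact (q.coeff i).2
  · rw [Polynomial.eval_map]
    exact hq

/-- Elements of a subring are integral over it. -/
theorem vio_isIntegral_of_mem {B : Type} [CommRing B] (R : Subring B) (x : B) (hx : x ∈ R) :
    IsIntegral ↥R x :=
  (isIntegral_algebraMap : IsIntegral ↥R (algebraMap ↥R B ⟨x, hx⟩))

/-- Integrality is preserved by ring homomorphisms. -/
theorem vio_isIntegral_map {B C : Type} [CommRing B] [CommRing C] (φ : B →+* C) (R : Subring B)
    (x : B) (h : IsIntegral ↥R x) : IsIntegral ↥(R.map φ) (φ x) := by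
  obtain ⟨p, hpm, hpc, hpx⟩ := vio_exists_poly R x h
  refine vio_isIntegral_of_coeff_mem (R.map φ) (φ x) (p.map φ) (hpm.map φ) (fun i => ?_) ?_
  · rw [Polynomial.coeff_map]
    exact Subring.mem_map.mpr ⟨_, hpc i, rfl⟩
  · rw [Polynomial.eval_map_apply, hpx, map_zero]

/-- Transitivity of integrality for subrings. -/
theorem vio_isIntegral_trans {B : Type} [CommRing B] (R S : Subring B)
    (hS : ∀ s ∈ S, IsIntegral ↥R s) (x : B) (hx : IsIntegral ↥S x) : IsIntegral ↥R x := by
  obtain ⟨p, hpm, hpc, hpx⟩ := vio_exists_poly S x hx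
  have h2 : IsIntegral ↥(integralClosure ↥R B) x :=
    vio_isIntegral_of_lifts x p hpm (fun i => ⟨⟨p.coeff i, hS _ (hpc i)⟩, rfl⟩) hpx
  exact isIntegral_trans x h2

/-- Transitivity of integrality for a subring generated by integral elements. -/
theorem vio_isIntegral_trans_closure {B : Type} [CommRing B] (R : Subring B) (G : Set B)
    (hG : ∀ s ∈ G, IsIntegral ↥R s) (x : B) (hx : IsIntegral ↥(Subring.closure G) x) :
    IsIntegral ↥R x :=
  vio_isIntegral_trans R (Subring.closure G) (IsIntegral.of_mem_closure' G hG) x hx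

/-- A root of a polynomial of degree at most `D` with coefficients in `R` whose `D`-th coefficient
is invertible in `R` is integral over `R`. -/
theorem vio_isIntegral_of_unit_coeff {B : Type} [CommRing B] (R : Subring B) (x : B)
    (H : Polynomial B) (D : ℕ) (hdeg : H.natDegree ≤ D) (hc : ∀ i, H.coeff i ∈ R) (v : B)
    (hv : v ∈ R) (hvD : v * H.coeff D = 1) (hx : H.eval x = 0) : IsIntegral ↥R x := by
  refine vio_isIntegral_of_coeff_mem R x (Polynomial.C v * H) ?_ (fun i => ?_) ?_
  · refine Polynomial.monic_of_natDegree_le_of_coeff_eq_one D ?_ ?_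
    · exact (Polynomial.natDegree_C_mul_le v H).trans hdeg
    · rw [Polynomial.coeff_C_mul]
      exact hvD
  · rw [Polynomial.coeff_C_mul]
    exact R.mul_mem hv (hc i)
  · rw [Polynomial.eval_mul, hx, mul_zero]

/-- Clearing denominators: elements of `R₀[1/s]` become elements of `R₀` after multiplication by
a high power of `s`. -/
theorem vio_exists_pow_mul_mem {B : Type} [CommRing B] (R₀ : Subring B) (s s' : B) (hs : s ∈ R₀)
    (hss' : s * s' = 1) (r : B) (hr : r ∈ Subring.closure ((R₀ : Set B) ∪ {s'})) :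
    ∃ M : ℕ, ∀ M' : ℕ, M ≤ M' → s ^ M' * r ∈ R₀ := by
  induction hr using Subring.closure_induction with
  | mem x hx =>
    rcases hx with hx | hx
    · exact ⟨0, fun M' _ => R₀.mul_mem (R₀.pow_mem hs M') hx⟩
    · rw [Set.mem_singleton_iff.mp hx]
      refine ⟨1, fun M' hM' => ?_⟩
      obtain ⟨k, rfl⟩ := Nat.exists_eq_add_of_le hM'
      rw [add_comm, pow_succ, mul_assoc, hss', mul_one]
      exact R₀.pow_mem hs k
  | zero => exact ⟨0, fun M' _ => by rw [mul_zero]; exact R₀.zero_mem⟩
  | one => exact ⟨0, fun M' _ => by rw [mul_one]; exact R₀.pow_mem hs M'⟩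
  | add x y _ _ hx hy =>
    obtain ⟨M₁, h₁⟩ := hx
    obtain ⟨M₂, h₂⟩ := hy
    refine ⟨max M₁ M₂, fun M' hM' => ?_⟩
    rw [mul_add]
    exact R₀.add_mem (h₁ M' ((le_max_left _ _).trans hM')) (h₂ M' ((le_max_right _ _).trans hM'))
  | neg x _ hx =>
    obtain ⟨M₁, h₁⟩ := hx
    refine ⟨M₁, fun M' hM' => ?_⟩
    rw [mul_neg]
    exact R₀.neg_mem (h₁ M' hM')
  | mul x y _ _ hx hy =>
    obtain ⟨M₁, h₁⟩ := hx
    obtain ⟨M₂, h₂⟩ := hy
    refine ⟨M₁ + M₂, fun M' hM' => ?_⟩
    obtain ⟨k, rfl⟩ := Nat.exists_eq_add_of_le hM'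
    have e : s ^ (M₁ + M₂ + k) * (x * y) = (s ^ M₁ * x) * (s ^ (M₂ + k) * y) := by
      rw [add_assoc, pow_add]
      ring
    rw [e]
    exact R₀.mul_mem (h₁ M₁ le_rfl) (h₂ (M₂ + k) (Nat.le_add_right _ _))

/-- Clearing denominators in an integrality relation. -/
theorem vio_isIntegral_clear {B : Type} [CommRing B] (R₀ : Subring B) (s s' : B) (hs : s ∈ R₀)
    (hss' : s * s' = 1) (a : B)
    (ha : IsIntegral ↥(Subring.closure ((R₀ : Set B) ∪ {s'})) a) :
    ∃ M : ℕ, IsIntegral ↥R₀ (s ^ M * a) := by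
  obtain ⟨p, hpm, hpc, hpa⟩ := vio_exists_poly _ a ha
  choose Mf hMf using fun i => vio_exists_pow_mul_mem R₀ s s' hs hss' (p.coeff i) (hpc i)
  let M : ℕ := ∑ i ∈ Finset.range (p.natDegree + 1), Mf i
  have hM : ∀ i, i ≤ p.natDegree → s ^ M * p.coeff i ∈ R₀ := fun i hi =>
    hMf i M (Finset.single_le_sum (f := Mf) (fun _ _ => Nat.zero_le _)
      (Finset.mem_range.mpr (Nat.lt_succ_of_le hi)))
  refine ⟨M, vio_isIntegral_of_coeff_mem R₀ _ (p.scaleRoots (s ^ M))
    ((Polynomial.monic_scaleRoots_iff _).mpr hpm) (fun i => ?_) ?_⟩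
  · rw [Polynomial.coeff_scaleRoots]
    rcases lt_trichotomy i p.natDegree with hi | hi | hi
    · obtain ⟨k, hk⟩ := Nat.exists_eq_add_of_lt hi
      have e : p.natDegree - i = k + 1 := by omega
      have e2 : p.coeff i * (s ^ M) ^ (k + 1) = (s ^ M * p.coeff i) * (s ^ M) ^ k := by ring
      rw [e, e2]
      exact R₀.mul_mem (hM i hi.le) (R₀.pow_mem (R₀.pow_mem hs M) k)
    · rw [hi, Nat.sub_self, pow_zero, mul_one, hpm.coeff_natDegree]
      exact R₀.one_mem
    · rw [Polynomial.coeff_eq_zero_of_natDegree_lt hi, zero_mul]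
      exact R₀.zero_mem
  · rw [Polynomial.scaleRoots_eval_mul, hpa, mul_zero]


/-! ### The rings `A[t]` -/

/-- `A[t] ⊆ F` for a valuation subring `A` of `K`: the subring generated by the constants from `A`
and `t`. -/
def vio_base {K F : Type} [Field K] [Field F] [Algebra K F] (A : ValuationSubring K) (t : F) :
    Subring F :=
  Subring.closure (Set.range ((algebraMap K F).comp A.subtype) ∪ {t})

theorem vio_base_const {K F : Type} [Field K] [Field F] [Algebra K F] (A : ValuationSubring K)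
    (t : F) (a : K) (ha : a ∈ A) : algebraMap K F a ∈ vio_base A t :=
  Subring.subset_closure (Or.inl ⟨⟨a, ha⟩, rfl⟩)

theorem vio_base_self {K F : Type} [Field K] [Field F] [Algebra K F] (A : ValuationSubring K)
    (t : F) : t ∈ vio_base A t :=
  Subring.subset_closure (Or.inr rfl)

/-- The image of `A[t]` under a `K`-algebra homomorphism `φ` is `A[φ t]`. -/
theorem vio_base_map {K F F' : Type} [Field K] [Field F] [Field F'] [Algebra K F] [Algebra K F']
    (φ : F →ₐ[K] F') (A : ValuationSubring K) (t : F) :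
    (vio_base A t).map (φ : F →+* F') = vio_base A (φ t) := by
  have h : (⇑(φ : F →+* F') ∘ ⇑((algebraMap K F).comp A.subtype)) =
      ⇑((algebraMap K F').comp A.subtype) := by
    funext a
    exact φ.commutes (a : K)
  unfold vio_base
  rw [RingHom.map_closure, Set.image_union, Set.image_singleton, ← Set.range_comp, h]
  rfl

/-- Polynomials in `t` with coefficients in `A` lie in `A[t]`. -/
theorem vio_aeval_mem {K F : Type} [Field K] [Field F] [Algebra K F] (A : ValuationSubring K)
    (t : F) (f : Polynomial K) (hf : ∀ m, f.coeff m ∈ A) :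
    Polynomial.aeval t f ∈ vio_base A t := by
  rw [Polynomial.aeval_eq_sum_range]
  refine Subring.sum_mem _ fun m _ => ?_
  rw [Algebra.smul_def]
  exact Subring.mul_mem _ (vio_base_const A t _ (hf m)) (Subring.pow_mem _ (vio_base_self A t) m)

/-! ### The chart of `j` -/

/-- Chart of `j`: if `g` is integral over `A[j]`, then `α g` is integral over `β(A[j])`. -/
theorem vio_case_true {K F F' : Type} [Field K] [Field F] [Field F'] [Algebra K F] [Algebra K F']
    (A : ValuationSubring K) (α β : F →ₐ[K] F') (j : F) (Φ : Polynomial (Polynomial K))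
    (hΦm : Φ.Monic) (hΦA : ∀ i m, (Φ.coeff i).coeff m ∈ A)
    (hE2 : Polynomial.eval₂ (Polynomial.aeval (β j) : Polynomial K →ₐ[K] F').toRingHom (α j) Φ = 0)
    (g : F) (hg : IsIntegral ↥(vio_base A j) g) :
    IsIntegral ↥((vio_base A j).map (β : F →+* F')) (α g) := by
  rw [vio_base_map]
  have h1 : IsIntegral ↥(vio_base A (α j)) (α g) := by
    have h := vio_isIntegral_map (α : F →+* F') (vio_base A j) g hg
    rwa [vio_base_map] at h
  refine vio_isIntegral_trans_closure (vio_base A (β j)) _ ?_ (α g) h1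
  rintro s (⟨a, rfl⟩ | hs)
  · exact vio_isIntegral_of_mem _ _ (vio_base_const A (β j) a a.2)
  · rw [Set.mem_singleton_iff.mp hs]
    refine vio_isIntegral_of_coeff_mem _ _
      (Φ.map (Polynomial.aeval (β j) : Polynomial K →ₐ[K] F').toRingHom) (hΦm.map _)
      (fun i => ?_) ?_
    · rw [Polynomial.coeff_map]
      exact vio_aeval_mem A (β j) (Φ.coeff i) (hΦA i)
    · rw [Polynomial.eval_map]
      exact hE2

/-! ### The chart of `1/j` -/

/-- The relation `Φ(J', J) = 0`, multiplied by `U^D U'^n` (`U = 1/J`, `U' = 1/J'`), shows that `U`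
is integral over every ring containing the constants from `A`, `U'` and the inverse of
`λ(U') = ∑ i, U'^(n - i) φ_i(0)`. -/
theorem vio_inv_integral {K F' : Type} [Field K] [Field F'] [Algebra K F'] (A : ValuationSubring K)
    (S : Subring F') (hS : ∀ a : K, a ∈ A → algebraMap K F' a ∈ S) (J J' : F') (hJ : J ≠ 0)
    (hJ' : J' ≠ 0) (n : ℕ) (Φ : Polynomial (Polynomial K)) (hΦd : Φ.natDegree = n)
    (hΦA : ∀ i m, (Φ.coeff i).coeff m ∈ A)
    (hE1 : Polynomial.eval₂ (Polynomial.aeval J : Polynomial K →ₐ[K] F').toRingHom J' Φ = 0)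
    (hU' : J'⁻¹ ∈ S) (v : F') (hv : v ∈ S)
    (hvl : v * ∑ i ∈ Finset.range (n + 1),
      J'⁻¹ ^ (n - i) * algebraMap K F' ((Φ.coeff i).coeff 0) = 1) :
    IsIntegral ↥S J⁻¹ := by
  classical
  let D : ℕ := ∑ i ∈ Finset.range (n + 1), (Φ.coeff i).natDegree
  have hD : ∀ i ∈ Finset.range (n + 1), (Φ.coeff i).natDegree ≤ D := fun i hi =>
    Finset.single_le_sum (f := fun i => (Φ.coeff i).natDegree) (fun _ _ => Nat.zero_le _) hi
  let H : Polynomial F' := ∑ i ∈ Finset.range (n + 1),
    Polynomial.C (J'⁻¹ ^ (n - i)) * ((Φ.coeff i).reflect D).map (algebraMap K F')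
  have hHc : ∀ e, H.coeff e = ∑ i ∈ Finset.range (n + 1),
      J'⁻¹ ^ (n - i) * algebraMap K F' ((Φ.coeff i).coeff (Polynomial.revAt D e)) := by
    intro e
    simp only [H, Polynomial.finsetSum_coeff, Polynomial.coeff_C_mul, Polynomial.coeff_map,
      Polynomial.coeff_reflect]
  refine vio_isIntegral_of_unit_coeff S J⁻¹ H D ?_ ?_ v hv ?_ ?_
  · rw [Polynomial.natDegree_le_iff_coeff_eq_zero]
    intro e he
    rw [hHc]
    refine Finset.sum_eq_zero fun i hi => ?_
    rw [Polynomial.revAt_eq_self_of_lt he,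
      Polynomial.coeff_eq_zero_of_natDegree_lt (lt_of_le_of_lt (hD i hi) he), map_zero, mul_zero]
  · intro e
    rw [hHc]
    exact Subring.sum_mem _ fun i _ =>
      Subring.mul_mem _ (Subring.pow_mem _ hU' _) (hS _ (hΦA i _))
  · rw [hHc]
    simp only [Polynomial.revAt_le le_rfl, Nat.sub_self]
    exact hvl
  · have hrefl : ∀ i ∈ Finset.range (n + 1),
        Polynomial.eval J⁻¹ (((Φ.coeff i).reflect D).map (algebraMap K F')) =
          Polynomial.aeval J (Φ.coeff i) * J⁻¹ ^ D := by
      intro i hi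
      let _ : Invertible J := invertibleOfNonzero hJ
      have h := Polynomial.eval₂_reflect_mul_pow (algebraMap K F') J D (Φ.coeff i) (hD i hi)
      rw [invOf_eq_inv] at h
      rw [Polynomial.eval_map, Polynomial.aeval_def, ← h, mul_assoc, ← mul_pow,
        mul_inv_cancel₀ hJ, one_pow, mul_one]
    have hsum : Polynomial.eval J⁻¹ H = J⁻¹ ^ D * J'⁻¹ ^ n *
        Polynomial.eval₂ (Polynomial.aeval J : Polynomial K →ₐ[K] F').toRingHom J' Φ := by
      rw [Polynomial.eval₂_eq_sum_range, hΦd, Polynomial.eval_finsetSum, Finset.mul_sum]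
      refine Finset.sum_congr rfl fun i hi => ?_
      rw [Polynomial.eval_mul, Polynomial.eval_C, hrefl i hi]
      have hi' : i ≤ n := Nat.lt_succ_iff.mp (Finset.mem_range.mp hi)
      have hpow : J'⁻¹ ^ (n - i) = J'⁻¹ ^ n * J' ^ i := by
        obtain ⟨k, rfl⟩ := Nat.exists_eq_add_of_le hi'
        rw [Nat.add_sub_cancel_left, pow_add, mul_comm (J'⁻¹ ^ i), mul_assoc, ← mul_pow,
          inv_mul_cancel₀ hJ', one_pow, mul_one]
      rw [hpow]
      show _ = _ * (Polynomial.aeval J (Φ.coeff i) * J' ^ i)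
      ring
    rw [hsum, hE1, mul_zero]

/-- In a valuation ring, a product of a nonunit and an element of the ring is a nonunit. -/
theorem vio_nonunits_mul {K : Type} [Field K] (A : ValuationSubring K) {x y : K}
    (hx : x ∈ A.nonunits) (hy : y ∈ A) : x * y ∈ A.nonunits := by
  rw [ValuationSubring.mem_nonunits_iff] at hx ⊢
  rw [map_mul]
  have hy' : A.valuation y ≤ 1 := (ValuationSubring.valuation_le_one_iff _ _).2 hy
  calc A.valuation x * A.valuation y ≤ A.valuation x * 1 := mul_le_mul_right hy' _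
    _ = A.valuation x := mul_one _
    _ < 1 := hx

/-- Chart of `u = 1/j`: if `g` is integral over `A[u]` and `u` has a value in the maximal ideal of
`A` at `P`, then `s * a` is integral over `A[u]` for some `s ∈ A[u]` with a unit value at `P`,
whenever integrality of `α g` over `β(R)` implies integrality of `a` over `R`. -/
theorem vio_case_false {K F F' : Type} [Field K] [Field F] [Field F'] [Algebra K F] [Algebra K F']
    (A : ValuationSubring K) (α β : F →ₐ[K] F') (j : F) (hj : j ≠ 0) (n : ℕ)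
    (Φ : Polynomial (Polynomial K)) (hΦm : Φ.Monic) (hΦd : Φ.natDegree = n)
    (hΦA : ∀ i m, (Φ.coeff i).coeff m ∈ A)
    (hE1 : Polynomial.eval₂ (Polynomial.aeval (α j) : Polynomial K →ₐ[K] F').toRingHom (β j) Φ = 0)
    (P : Place K F) (c₀ : K) (hc₀ : c₀ ∈ A.nonunits) (hP : HasValue P j⁻¹ c₀)
    (g a : F) (hg : IsIntegral ↥(vio_base A j⁻¹) g)
    (hCI : ∀ R : Subring F, IsIntegral ↥(R.map (β : F →+* F')) (α g) → IsIntegral ↥R a) :
    ∃ s : F, s ∈ vio_base A j⁻¹ ∧ IsIntegral ↥(vio_base A j⁻¹) (s * a) ∧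
      ∃ c : K, c ∈ A ∧ c ∉ A.nonunits ∧ HasValue P s c := by
  classical
  -- `λ(u)` and its value
  let lam : F := ∑ i ∈ Finset.range (n + 1), j⁻¹ ^ (n - i) * algebraMap K F ((Φ.coeff i).coeff 0)
  let lam₀ : K := ∑ i ∈ Finset.range (n + 1), c₀ ^ (n - i) * (Φ.coeff i).coeff 0
  have hc₀A : c₀ ∈ A := ValuationSubring.nonunits_subset hc₀
  have hlam_mem : lam ∈ vio_base A j⁻¹ := Subring.sum_mem _ fun i _ =>
    Subring.mul_mem _ (Subring.pow_mem _ (vio_base_self A j⁻¹) _) (vio_base_const A j⁻¹ _ (hΦA i 0))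
  have hlam_val : HasValue P lam lam₀ :=
    hv_sum _ _ _ fun i _ => hv_mul (hv_pow hP _) (hv_algebraMap P _)
  have hlam₀A : lam₀ ∈ A := sum_mem fun i _ => mul_mem (pow_mem hc₀A _) (hΦA i 0)
  have hlam₀v : A.valuation lam₀ = 1 := by
    have hsplit : lam₀ = 1 + ∑ i ∈ Finset.range n, c₀ ^ (n - i) * (Φ.coeff i).coeff 0 := by
      show (∑ i ∈ Finset.range (n + 1), c₀ ^ (n - i) * (Φ.coeff i).coeff 0) = _
      have hlast : (Φ.coeff n).coeff 0 = 1 := by
        rw [← hΦd, hΦm.coeff_natDegree, Polynomial.coeff_one_zero]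
      rw [Finset.sum_range_succ, Nat.sub_self, pow_zero, one_mul, hlast, add_comm]
    rw [hsplit]
    refine Valuation.map_one_add_of_lt _ (Valuation.map_sum_lt _ one_ne_zero fun i hi => ?_)
    have hi' : i < n := Finset.mem_range.mp hi
    obtain ⟨k, hk⟩ : ∃ k, n - i = k + 1 := ⟨n - i - 1, by omega⟩
    rw [← ValuationSubring.mem_nonunits_iff, hk, pow_succ, mul_comm (c₀ ^ k), mul_assoc]
    exact vio_nonunits_mul A hc₀ (mul_mem (pow_mem hc₀A k) (hΦA i 0))
  have hlam₀nu : lam₀ ∉ A.nonunits := fun h => by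
    rw [ValuationSubring.mem_nonunits_iff, hlam₀v] at h
    exact lt_irrefl _ h
  have hlam₀ne : lam₀ ≠ 0 := by
    intro h0
    rw [h0, map_zero] at hlam₀v
    exact zero_ne_one hlam₀v
  have hlam_ne : lam ≠ 0 := by
    intro h0
    rw [h0] at hlam_val
    exact hlam₀ne (hv_unique hlam_val (hv_zero P))
  -- the ring `R = A[u][1/λ(u)]`
  let R : Subring F := Subring.closure ((vio_base A j⁻¹ : Set F) ∪ {lam⁻¹})
  have hR₀R : ∀ x ∈ vio_base A j⁻¹, x ∈ R := fun x hx => Subring.subset_closure (Or.inl hx)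
  have hlamR : lam⁻¹ ∈ R := Subring.subset_closure (Or.inr rfl)
  -- `α g` is integral over `β(R)`
  have key : IsIntegral ↥(R.map (β : F →+* F')) (α g) := by
    have h1 : IsIntegral ↥(vio_base A (α j⁻¹)) (α g) := by
      have h := vio_isIntegral_map (α : F →+* F') (vio_base A j⁻¹) g hg
      rwa [vio_base_map] at h
    refine vio_isIntegral_trans_closure (R.map (β : F →+* F')) _ ?_ (α g) h1
    have hconst : ∀ a : K, a ∈ A → algebraMap K F' a ∈ R.map (β : F →+* F') := fun a ha =>
      Subring.mem_map.mpr ⟨algebraMap K F a, hR₀R _ (vio_base_const A j⁻¹ a ha), β.commutes a⟩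
    rintro s (⟨a, rfl⟩ | hs)
    · exact vio_isIntegral_of_mem _ _ (hconst a a.2)
    · rw [Set.mem_singleton_iff.mp hs, map_inv₀]
      refine vio_inv_integral A (R.map (β : F →+* F')) hconst (α j) (β j)
        ((map_ne_zero α).mpr hj) ((map_ne_zero β).mpr hj) n Φ hΦd hΦA hE1 ?_ (β lam⁻¹)
        (Subring.mem_map.mpr ⟨lam⁻¹, hlamR, rfl⟩) ?_
      · exact Subring.mem_map.mpr ⟨j⁻¹, hR₀R _ (vio_base_self A j⁻¹), map_inv₀ β j⟩
      · have hβlam : β lam = ∑ i ∈ Finset.range (n + 1),
            (β j)⁻¹ ^ (n - i) * algebraMap K F' ((Φ.coeff i).coeff 0) := by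
          show β (∑ i ∈ Finset.range (n + 1),
            j⁻¹ ^ (n - i) * algebraMap K F ((Φ.coeff i).coeff 0)) = _
          rw [map_sum]
          refine Finset.sum_congr rfl fun i _ => ?_
          rw [map_mul, map_pow, map_inv₀, β.commutes]
        rw [← hβlam, ← map_mul, inv_mul_cancel₀ hlam_ne, map_one]
  -- the coefficient is integral over `R`, clear denominators
  have ha : IsIntegral ↥R a := hCI R key
  obtain ⟨M, hM⟩ := vio_isIntegral_clear (vio_base A j⁻¹) lam lam⁻¹ hlam_mem
    (mul_inv_cancel₀ hlam_ne) a ha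
  refine ⟨lam ^ M, Subring.pow_mem _ hlam_mem M, hM, lam₀ ^ M, pow_mem hlam₀A M, ?_,
    hv_pow hlam_val M⟩
  intro h
  rw [ValuationSubring.mem_nonunits_iff, map_pow, hlam₀v, one_pow] at h
  exact lt_irrefl _ h

/-! ### The modular function fields -/

/-- Algebraic integers lie in every valuation subring. -/
theorem vio_mem_of_isIntegral_int {L : Type} [Field L] (A : ValuationSubring L) {x : L}
    (hx : IsIntegral ℤ x) : x ∈ A := by
  have h1 : IsIntegral ↥A x := hx.tower_top
  obtain ⟨y, rfl⟩ := IsIntegrallyClosed.isIntegral_iff.mp h1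
  exact y.2

/-- The structure map `k → k((q))` is the embedding of the constants. -/
theorem vio_algebraMap_eq_C (k : Type) [Field k] :
    algebraMap k (LaurentSeries k) = (HahnSeries.C : k →+* LaurentSeries k) := by
  ext1 c
  rw [algebraMap_laurentSeries_eq_single]
  rfl

/-- A two-variable polynomial relation between elements of a field of Laurent series, computed
on the level of series. -/
theorem vio_coe_eval₂ (k : Type) [Field k] (E : IntermediateField k (LaurentSeries k))
    (x y : ↥E) (Φ : Polynomial (Polynomial k)) :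
    ((Polynomial.eval₂ (Polynomial.aeval x : Polynomial k →ₐ[k] ↥E).toRingHom y Φ : ↥E) :
        LaurentSeries k) =
      (Φ.map (evalL (x : LaurentSeries k))).eval (y : LaurentSeries k) := by
  have hcomp : (algebraMap ↥E (LaurentSeries k)).comp
      (Polynomial.aeval x : Polynomial k →ₐ[k] ↥E).toRingHom = evalL (x : LaurentSeries k) := by
    refine Polynomial.ringHom_ext (fun a => ?_) ?_
    · show algebraMap ↥E (LaurentSeries k) (Polynomial.aeval x (Polynomial.C a)) =
        Polynomial.eval₂ HahnSeries.C (x : LaurentSeries k) (Polynomial.C a)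
      rw [Polynomial.aeval_C, Polynomial.eval₂_C, ← vio_algebraMap_eq_C]
      rfl
    · show algebraMap ↥E (LaurentSeries k) (Polynomial.aeval x Polynomial.X) =
        Polynomial.eval₂ HahnSeries.C (x : LaurentSeries k) Polynomial.X
      rw [Polynomial.aeval_X, Polynomial.eval₂_X]
      rfl
  rw [Polynomial.eval_map, ← hcomp]
  exact Polynomial.hom_eval₂ Φ (Polynomial.aeval x : Polynomial k →ₐ[k] ↥E).toRingHom
    (algebraMap ↥E (LaurentSeries k)) y

/-- `1` is not a nonunit of a valuation ring. -/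
theorem vio_one_not_mem_nonunits {K : Type} [Field K] (A : ValuationSubring K) :
    (1 : K) ∉ A.nonunits := fun h => by
  rw [ValuationSubring.mem_nonunits_iff, map_one] at h
  exact lt_irrefl _ h

/-- (VAL-Integrality, (V2)). -/
theorem vio_main :
    kr_ModEqIntStatement → val_CharpolyIntegralStatement → val_IntegralityStatement := by
  intro hMod hCI N q _ _ hq A hfin i P hP g hg n
  -- the modular polynomial
  have hq0 : NeZero ((q : ℕ) : Qb) := ⟨Nat.cast_ne_zero.mpr hq.ne_zero⟩
  obtain ⟨ζ, hζ⟩ := HasEnoughRootsOfUnity.exists_primitiveRoot Qb q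
  obtain ⟨Φ, hΦm, hΦd, hΦint, -, hΦ1, hΦ2⟩ := hMod q hq ζ hζ
  have hΦA : ∀ i m, (Φ.coeff i).coeff m ∈ A := fun i m => vio_mem_of_isIntegral_int A (hΦint i m)
  -- the two relations in `F_{Nq}`
  have hE1 : Polynomial.eval₂ (Polynomial.aeval (heckeAlphaBar Qb N q (jF Qb N)) :
      Polynomial Qb →ₐ[Qb] ↥(FL Qb (N * q))).toRingHom (heckeBetaBar Qb N q (jF Qb N)) Φ = 0 := by
    apply Subtype.ext
    rw [vio_coe_eval₂]
    exact hΦ2
  have hE2 : Polynomial.eval₂ (Polynomial.aeval (heckeBetaBar Qb N q (jF Qb N)) :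
      Polynomial Qb →ₐ[Qb] ↥(FL Qb (N * q))).toRingHom (heckeAlphaBar Qb N q (jF Qb N)) Φ = 0 := by
    apply Subtype.ext
    rw [vio_coe_eval₂]
    exact hΦ1
  rcases hP with ⟨rfl, -⟩ | ⟨rfl, h2⟩
  · -- the chart of `j`
    have hg' : IsIntegral ↥(vio_base A (jF Qb N)) g := hg
    have h := vio_case_true A (heckeAlphaBar Qb N q) (heckeBetaBar Qb N q) (jF Qb N) Φ hΦm hΦA
      hE2 g hg'
    have h4 : IsIntegral ↥(vio_base A (jF Qb N))
        ((hi_charpolyAlong (heckeBetaBar Qb N q) hfin (heckeAlphaBar Qb N q g)).coeff n) :=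
      hCI Qb _ _ (heckeBetaBar Qb N q) hfin (vio_base A (jF Qb N)) (heckeAlphaBar Qb N q g) h n
    exact ⟨_, 1, h4, Subring.one_mem _, one_mul _, 1, A.one_mem, vio_one_not_mem_nonunits A,
      hv_one P⟩
  · -- the chart of `1/j`
    obtain ⟨c₀, hc₀, hval⟩ := h2
    have hjne : jF Qb N ≠ 0 := by
      intro h0
      have h1 : ((jF Qb N : ↥(FL Qb N)) : LaurentSeries Qb) = 0 := by rw [h0]; rfl
      rw [coe_jF] at h1
      exact jqModC_ne_zero_of_nontrivial Qb h1
    have hg' : IsIntegral ↥(vio_base A (jF Qb N)⁻¹) g := hg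
    obtain ⟨s, hs, hsa, c, hcA, hcnu, hsc⟩ :=
      vio_case_false A (heckeAlphaBar Qb N q) (heckeBetaBar Qb N q) (jF Qb N) hjne (q + 1) Φ hΦm
        hΦd hΦA hE1 P c₀ hc₀ hval g
        ((hi_charpolyAlong (heckeBetaBar Qb N q) hfin (heckeAlphaBar Qb N q g)).coeff n) hg'
        (fun R hR => hCI Qb _ _ (heckeBetaBar Qb N q) hfin R (heckeAlphaBar Qb N q g) hR n)
    exact ⟨_, s, hsa, vio_isIntegral_of_mem _ _ hs, rfl, c, hcA, hcnu, hsc⟩

end

end Fermat.Agent.S37
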