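/-
S37, block VAL, package VALIntegrality ((V2)): for `g` in the `A`-level chart `i` and `P` a place in
the chart `i`, the coefficients of the characteristic polynomial `χ_g` of `α(g)` along `β` lie in
the local ring of the chart at `P`.

Method.  Integrality over a subring `ℤ[s]` of a field is tested on the valuation subrings
containing `s` (Mathlib: `iInf_valuationSubring_superset`).  With `J = α(j) = j(q)`,
`J' = β(j) = j(q^q)` and the modular equation `Φ(J, J') = 0 = Φ(J', J)` (`Φ` monic in `X` with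
coefficients in `A[T]`):
* chart of `j`: a valuation subring of `F'` containing `A` and `J'` contains `J`, hence `α(g)`;
* chart of `u = 1/j`: a valuation subring of `F'` containing `A`, `1/J'` and `1/λ(1/J')`, where
  `λ(T) = ∑ᵢ φᵢ(0) T^(q+1-i)`, `Φ = ∑ᵢ φᵢ(T) Xⁱ`, contains `1/J`, hence `α(g)`.
The general statement on characteristic polynomials then gives integrality of the coefficients of
`χ_g` over `A[j]` resp. `A[u][1/λ(u)]`; in the second case denominators are cleared by a power of
`λ(u)`, which has a unit value at `P`.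
-/
import Fermat.Agent.S37.VALInterfaces
import Fermat.Agent.S37.HV
import Fermat.Agent.S28.TABasic
import Fermat.Agent.Lib.FrobeniusExists

set_option autoImplicit false

open ModularCurve AlgebraicCurve Polynomial

namespace Fermat.Agent.S37

open Fermat.Agent.S18

noncomputable section

/-! ### Generalities on integrality and valuation subrings -/

section General

/-- The valuative criterion: integrality over the subring generated by a subset `s` of a field is
tested on the valuation subrings containing `s`. -/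
theorem vip_isIntegral_closure_iff {K : Type} [Field K] (s : Set K) (x : K) :
    IsIntegral ↥(Subring.closure s) x ↔ ∀ V : ValuationSubring K, s ⊆ (V : Set K) → x ∈ V := by
  have h := iInf_valuationSubring_superset (K := K) (s := s)
  constructor
  · intro hx V hV
    have h1 : x ∈ (integralClosure ↥(Subring.closure s) K).toSubring := hx
    rw [← h, Subring.mem_iInf] at h1
    exact h1 ⟨V, hV⟩
  · intro hx
    show x ∈ (integralClosure ↥(Subring.closure s) K).toSubring
    rw [← h, Subring.mem_iInf]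
    rintro ⟨V, hV⟩
    exact hx V hV

/-- The valuative criterion for the image of a generated subring. -/
theorem vip_isIntegral_map_closure_iff {K K' : Type} [Field K] [Field K'] (f : K →+* K')
    (s : Set K) (x : K') :
    IsIntegral ↥((Subring.closure s).map f) x ↔
      ∀ V : ValuationSubring K', f '' s ⊆ (V : Set K') → x ∈ V := by
  have key : ∀ T : Subring K', T = Subring.closure (f '' s) →
      (IsIntegral ↥T x ↔ ∀ V : ValuationSubring K', f '' s ⊆ (V : Set K') → x ∈ V) := by
    rintro T rfl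
    exact vip_isIntegral_closure_iff _ _
  exact key _ (RingHom.map_closure f s)

/-- A root of a monic polynomial whose coefficients lie in the image of `R` is integral over
`R`. -/
theorem vip_isIntegral_of_coeff_range {R S : Type} [CommRing R] [CommRing S] [Algebra R S]
    (p : S[X]) (hp : p.Monic) (hc : ∀ n, p.coeff n ∈ Set.range (algebraMap R S)) {x : S}
    (hx : p.eval x = 0) : IsIntegral R x := by
  obtain ⟨q, hq, -, hqm⟩ := lifts_and_natDegree_eq_and_monic ((lifts_iff_coeff_lifts p).mpr hc) hp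
  exact ⟨q, hqm, by rw [← eval_map, hq]; exact hx⟩

variable {K : Type} [Field K]

theorem vip_nonunits_mul (V : ValuationSubring K) {x y : K} (hx : x ∈ V.nonunits) (hy : y ∈ V) :
    x * y ∈ V.nonunits := by
  rw [V.mem_nonunits_iff] at hx ⊢
  rw [map_mul]
  have hy' : V.valuation y ≤ 1 := (V.valuation_le_one_iff _).mpr hy
  exact mul_lt_one_of_nonneg_of_lt_one_left zero_le hx hy'

theorem vip_one_not_mem_nonunits (V : ValuationSubring K) : (1 : K) ∉ V.nonunits := by
  rw [V.mem_nonunits_iff, map_one]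
  exact lt_irrefl _

/-- A root of a monic polynomial with coefficients in a valuation subring lies in it. -/
theorem vip_monic_root_mem (V : ValuationSubring K) (p : K[X]) (hp : p.Monic)
    (hc : ∀ n, p.coeff n ∈ V) {x : K} (hx : p.eval x = 0) : x ∈ V := by
  have h1 : IsIntegral ↥V x :=
    vip_isIntegral_of_coeff_range p hp (fun n => ⟨⟨p.coeff n, hc n⟩, rfl⟩) hx
  obtain ⟨y, rfl⟩ := IsIntegrallyClosed.isIntegral_iff.mp h1
  exact y.2

/-- Clearing denominators: an element integral over `ℤ[s₀][1/l]` (`l ∈ ℤ[s₀]`, `l ≠ 0`) becomes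
integral over `ℤ[s₀]` after multiplication by a power of `l`. -/
theorem vip_clear_denominators (s₀ : Set K) (l : K) (hl : l ∈ Subring.closure s₀) (hl0 : l ≠ 0)
    (x : K) (hx : IsIntegral ↥(Subring.closure (s₀ ∪ {l⁻¹})) x) :
    ∃ M : ℕ, IsIntegral ↥(Subring.closure s₀) (l ^ M * x) := by
  set R₀ : Subring K := Subring.closure s₀ with hR₀
  let l' : ↥R₀ := ⟨l, hl⟩
  have hunit : IsUnit (R₀.subtype l') := IsUnit.mk0 l hl0
  let f : Localization.Away l' →+* K := IsLocalization.Away.lift l' hunit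
  have hf : ∀ r : ↥R₀, f (algebraMap ↥R₀ (Localization.Away l') r) = (r : K) := fun r =>
    IsLocalization.Away.lift_eq l' hunit r
  let _ : Algebra (Localization.Away l') K := f.toAlgebra
  have : IsScalarTower ↥R₀ (Localization.Away l') K :=
    IsScalarTower.of_algebraMap_eq (fun r => (hf r).symm)
  have hrange : Subring.closure (s₀ ∪ {l⁻¹}) ≤ f.range := by
    rw [Subring.closure_le]
    rintro y (hy | hy)
    · exact ⟨algebraMap ↥R₀ (Localization.Away l') ⟨y, Subring.subset_closure hy⟩, hf _⟩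
    · rw [Set.mem_singleton_iff] at hy
      subst hy
      refine ⟨IsLocalization.Away.invSelf l', ?_⟩
      have h1 := congrArg f (IsLocalization.Away.mul_invSelf (S := Localization.Away l') l')
      rw [map_mul, map_one, hf] at h1
      exact eq_inv_of_mul_eq_one_right h1
  have hx' : IsIntegral (Localization.Away l') x := by
    obtain ⟨p, hp, hpx⟩ := hx
    refine vip_isIntegral_of_coeff_range
      (p.map (algebraMap ↥(Subring.closure (s₀ ∪ {l⁻¹})) K)) (hp.map _) (fun n => ?_) ?_
    · rw [coeff_map]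
      exact hrange (p.coeff n).2
    · rw [eval_map]
      exact hpx
  obtain ⟨⟨m, M, hM⟩, hm⟩ :=
    IsIntegral.exists_multiple_integral_of_isLocalization (Submonoid.powers l') x hx'
  refine ⟨M, ?_⟩
  have e : (⟨m, M, hM⟩ : Submonoid.powers l') • x = l ^ M * x := by
    show (m : K) * x = l ^ M * x
    rw [← show l' ^ M = m from hM]
    rfl
  rw [← e]
  exact hm

end General

/-! ### Polynomials with coefficients in `A` at points of a valuation subring -/

section Eval

variable {K F : Type} [Field K] [Field F] [Algebra K F]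

theorem vip_aeval_mem (A : ValuationSubring K) (V : ValuationSubring F)
    (hAV : ∀ a ∈ A, algebraMap K F a ∈ V) (φ : K[X]) (hφ : ∀ m, φ.coeff m ∈ A) {x : F}
    (hx : x ∈ V) : aeval x φ ∈ V := by
  rw [aeval_eq_sum_range]
  refine sum_mem fun m _ => ?_
  rw [Algebra.smul_def]
  exact mul_mem (hAV _ (hφ m)) (pow_mem hx m)

theorem vip_aeval_sub_mem_nonunits (A : ValuationSubring K) (V : ValuationSubring F)
    (hAV : ∀ a ∈ A, algebraMap K F a ∈ V) (φ : K[X]) (hφ : ∀ m, φ.coeff m ∈ A) {x : F}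
    (hx : x ∈ V.nonunits) : aeval x φ - algebraMap K F (φ.coeff 0) ∈ V.nonunits := by
  have h2 : aeval x φ = aeval x (divX φ) * x + algebraMap K F (φ.coeff 0) := by
    conv_lhs => rw [← divX_mul_X_add φ]
    rw [map_add, map_mul, aeval_X, aeval_C]
  rw [h2, add_sub_cancel_right, mul_comm]
  refine vip_nonunits_mul V hx (vip_aeval_mem A V hAV (divX φ) (fun m => ?_)
    (V.nonunits_subset hx))
  rw [coeff_divX]
  exact hφ _

end Eval

/-! ### The two charts, abstractly -/

section Charts

variable {K F F' : Type} [Field K] [Field F] [Field F'] [Algebra K F] [Algebra K F']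

/-- Chart of `j`: if `Φ(α j, β j) = 0` with `Φ` monic in `X` with coefficients in `A[T]`, and `g`
is integral over `A[j]`, then `α g` is integral over `β(A[j])`. -/
theorem vip_true_abs (A : ValuationSubring K) (α β : F →ₐ[K] F') (j : F) (Φ : K[X][X])
    (hΦm : Φ.Monic) (hΦA : ∀ i m, (Φ.coeff i).coeff m ∈ A)
    (hΦ : (Φ.map (aeval (β j) : K[X] →ₐ[K] F').toRingHom).eval (α j) = 0) (g : F)
    (hg : IsIntegral
      ↥(Subring.closure (Set.range ((algebraMap K F).comp A.subtype) ∪ {j})) g) :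
    IsIntegral
      ↥((Subring.closure (Set.range ((algebraMap K F).comp A.subtype) ∪ {j})).map
        (β : F →+* F')) (α g) := by
  rw [vip_isIntegral_map_closure_iff]
  intro V hV
  have hcA : ∀ a ∈ A, algebraMap K F' a ∈ V := by
    intro a ha
    have h1 : (β : F →+* F') (algebraMap K F a) ∈ (V : Set F') :=
      hV ⟨algebraMap K F a, Or.inl ⟨⟨a, ha⟩, rfl⟩, rfl⟩
    have h2 : (β : F →+* F') (algebraMap K F a) = algebraMap K F' a := β.commutes a
    rw [h2] at h1
    exact h1
  have hJ' : β j ∈ V := hV ⟨j, Or.inr rfl, rfl⟩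
  have hJ : α j ∈ V := by
    refine vip_monic_root_mem V _ (hΦm.map _) (fun i => ?_) hΦ
    rw [coeff_map]
    exact vip_aeval_mem A V hcA _ (hΦA i) hJ'
  have h3 := (vip_isIntegral_closure_iff _ g).mp hg (V.comap (α : F →+* F')) (by
    rintro y (⟨a, rfl⟩ | hy)
    · show (α : F →+* F') (algebraMap K F (a : K)) ∈ V
      have h2 : (α : F →+* F') (algebraMap K F (a : K)) = algebraMap K F' (a : K) :=
        α.commutes _
      rw [h2]
      exact hcA _ a.2
    · rw [Set.mem_singleton_iff] at hy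
      subst hy
      exact hJ)
  exact h3

/-- Chart of `u = 1/j`: if `Φ(β j, α j) = 0` with `Φ` of degree `d` in `X` with coefficients in
`A[T]`, `l = ∑ᵢ φᵢ(0) u^(d-i) ≠ 0`, and `g` is integral over `A[u]`, then `α g` is integral over
`β(A[u][1/l])`. -/
theorem vip_false_abs (A : ValuationSubring K) (α β : F →ₐ[K] F') (j : F) (hj : j ≠ 0)
    (Φ : K[X][X]) (d : ℕ) (hΦd : Φ.natDegree = d) (hΦA : ∀ i m, (Φ.coeff i).coeff m ∈ A)
    (hΦ : (Φ.map (aeval (α j) : K[X] →ₐ[K] F').toRingHom).eval (β j) = 0) (l : F)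
    (hl : l = ∑ i ∈ Finset.range (d + 1), algebraMap K F ((Φ.coeff i).coeff 0) * j⁻¹ ^ (d - i))
    (hl0 : l ≠ 0) (g : F)
    (hg : IsIntegral
      ↥(Subring.closure (Set.range ((algebraMap K F).comp A.subtype) ∪ {j⁻¹})) g) :
    IsIntegral
      ↥((Subring.closure
        (Set.range ((algebraMap K F).comp A.subtype) ∪ {j⁻¹} ∪ {l⁻¹})).map
        (β : F →+* F')) (α g) := by
  rw [vip_isIntegral_map_closure_iff]
  intro V hV
  have hcA : ∀ a ∈ A, algebraMap K F' a ∈ V := by
    intro a ha
    have h1 : (β : F →+* F') (algebraMap K F a) ∈ (V : Set F') :=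
      hV ⟨algebraMap K F a, Or.inl (Or.inl ⟨⟨a, ha⟩, rfl⟩), rfl⟩
    have h2 : (β : F →+* F') (algebraMap K F a) = algebraMap K F' a := β.commutes a
    rw [h2] at h1
    exact h1
  have hU' : (β j)⁻¹ ∈ V := by
    have h1 : (β : F →+* F') j⁻¹ ∈ (V : Set F') := hV ⟨j⁻¹, Or.inl (Or.inr rfl), rfl⟩
    have h2 : (β : F →+* F') j⁻¹ = (β j)⁻¹ := map_inv₀ β j
    rw [h2] at h1
    exact h1
  have hΛ : (β l)⁻¹ ∈ V := by
    have h1 : (β : F →+* F') l⁻¹ ∈ (V : Set F') := hV ⟨l⁻¹, Or.inr rfl, rfl⟩
    have h2 : (β : F →+* F') l⁻¹ = (β l)⁻¹ := map_inv₀ β l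
    rw [h2] at h1
    exact h1
  have hb : β j ≠ 0 := (map_ne_zero β).mpr hj
  have hU : (α j)⁻¹ ∈ V := by
    by_contra hU
    have hJ : α j ∈ V.nonunits := by
      have h1 := (V.inv_mem_nonunits_iff (x := (α j)⁻¹)).mpr (Or.inr hU)
      rwa [inv_inv] at h1
    have hrel : ∑ i ∈ Finset.range (d + 1), aeval (α j) (Φ.coeff i) * β j ^ i = 0 := by
      rw [eval_map, eval₂_eq_sum_range, hΦd] at hΦ
      exact hΦ
    have hrel2 : ∑ i ∈ Finset.range (d + 1),
        aeval (α j) (Φ.coeff i) * (β j)⁻¹ ^ (d - i) = 0 := by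
      have h1 : ∑ i ∈ Finset.range (d + 1), aeval (α j) (Φ.coeff i) * (β j)⁻¹ ^ (d - i) =
          (∑ i ∈ Finset.range (d + 1), aeval (α j) (Φ.coeff i) * β j ^ i) * (β j)⁻¹ ^ d := by
        rw [Finset.sum_mul]
        refine Finset.sum_congr rfl fun i hi => ?_
        have hi' : i ≤ d := Nat.lt_succ_iff.mp (Finset.mem_range.mp hi)
        obtain ⟨k, rfl⟩ := Nat.exists_eq_add_of_le hi'
        rw [Nat.add_sub_cancel_left, mul_assoc, pow_add, ← mul_assoc (β j ^ i), ← mul_pow,
          mul_inv_cancel₀ hb, one_pow, one_mul]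
      rw [h1, hrel, zero_mul]
    have hΛ' : β l ∈ V.nonunits := by
      have e : β l = ∑ i ∈ Finset.range (d + 1),
          (algebraMap K F' ((Φ.coeff i).coeff 0) - aeval (α j) (Φ.coeff i)) *
            (β j)⁻¹ ^ (d - i) := by
        simp only [sub_mul]
        rw [Finset.sum_sub_distrib, hrel2, sub_zero, hl, map_sum]
        refine Finset.sum_congr rfl fun i _ => ?_
        rw [map_mul, map_pow, map_inv₀, AlgHom.commutes]
      rw [e]
      refine sum_mem fun i _ => ?_
      refine vip_nonunits_mul V ?_ (pow_mem hU' _)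
      have h1 := vip_aeval_sub_mem_nonunits A V hcA (Φ.coeff i) (hΦA i) hJ
      rw [← neg_sub]
      exact neg_mem h1
    have h1 : (1 : F') ∈ V.nonunits := by
      have h2 := vip_nonunits_mul V hΛ' hΛ
      rwa [mul_inv_cancel₀ ((map_ne_zero β).mpr hl0)] at h2
    exact vip_one_not_mem_nonunits V h1
  have h3 := (vip_isIntegral_closure_iff _ g).mp hg (V.comap (α : F →+* F')) (by
    rintro y (⟨a, rfl⟩ | hy)
    · show (α : F →+* F') (algebraMap K F (a : K)) ∈ V
      have h2 : (α : F →+* F') (algebraMap K F (a : K)) = algebraMap K F' (a : K) :=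
        α.commutes _
      rw [h2]
      exact hcA _ a.2
    · rw [Set.mem_singleton_iff] at hy
      subst hy
      show (α : F →+* F') j⁻¹ ∈ V
      have h2 : (α : F →+* F') j⁻¹ = (α j)⁻¹ := map_inv₀ α j
      rw [h2]
      exact hU)
  exact h3

end Charts

/-! ### The modular function fields -/

/-- Transfer of a polynomial identity between series to an intermediate field of `K((q))`. -/
theorem vip_eval_transfer {K : Type} [Field K] (E : IntermediateField K (LaurentSeries K))
    (Φ : K[X][X]) (x y : ↥E)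
    (h : (Φ.map (Fermat.Agent.S28.evalL (y : LaurentSeries K))).eval (x : LaurentSeries K) = 0) :
    (Φ.map (aeval y : K[X] →ₐ[K] ↥E).toRingHom).eval x = 0 := by
  have e : (E.val : ↥E →+* LaurentSeries K).comp (aeval y : K[X] →ₐ[K] ↥E).toRingHom =
      (aeval (y : LaurentSeries K) : K[X] →ₐ[K] LaurentSeries K).toRingHom :=
    RingHom.ext fun p => (aeval_algHom_apply E.val y p).symm
  have hinj : Function.Injective (E.val : ↥E →+* LaurentSeries K) := RingHom.injective _
  apply hinj
  rw [map_zero, eval_map, hom_eval₂, e, ← h, eval_map, Fermat.Agent.S28.ta_evalL_eq_aeval']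
  rfl

set_option synthInstance.maxHeartbeats 400000

/-- (V2) -/
theorem vip_main :
    kr_ModEqIntStatement → val_CharpolyIntegralStatement → val_IntegralityStatement := by
  intro hmod hcp N q _ _ hq A hfin i P hP g hg n
  obtain ⟨ζ, hζ⟩ : ∃ ζ : Qb, IsPrimitiveRoot ζ q := by
    have : NeZero ((q : ℕ) : Qb) := ⟨Nat.cast_ne_zero.mpr (NeZero.ne q)⟩
    exact HasEnoughRootsOfUnity.exists_primitiveRoot _ q
  obtain ⟨Φ, hΦm, hΦd, hΦint, -, hΦ1, hΦ2⟩ := hmod q hq ζ hζ
  have hΦA : ∀ i m, (Φ.coeff i).coeff m ∈ A := fun i m =>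
    Fermat.Agent.Lib.FrobeniusExists.mem_of_isIntegral_int A (hΦint i m)
  have h1 : (Φ.map (aeval (heckeBetaBar Qb N q (jF Qb N)) :
      Qb[X] →ₐ[Qb] ↥(FL Qb (N * q))).toRingHom).eval (heckeAlphaBar Qb N q (jF Qb N)) = 0 :=
    vip_eval_transfer (FL Qb (N * q)) Φ _ _ hΦ1
  have h2 : (Φ.map (aeval (heckeAlphaBar Qb N q (jF Qb N)) :
      Qb[X] →ₐ[Qb] ↥(FL Qb (N * q))).toRingHom).eval (heckeBetaBar Qb N q (jF Qb N)) = 0 :=
    vip_eval_transfer (FL Qb (N * q)) Φ _ _ hΦ2
  cases i with
  | true =>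
    have ht : val_t true Qb N = jF Qb N := if_pos rfl
    rw [ht] at hg ⊢
    have hg' : IsIntegral ↥(val_baseRing N A (jF Qb N)) g := hg
    have h3 := vip_true_abs A (heckeAlphaBar Qb N q) (heckeBetaBar Qb N q) (jF Qb N) Φ hΦm hΦA h1
      g hg'
    have h4 := hcp Qb ↥(FL Qb N) ↥(FL Qb (N * q)) (heckeBetaBar Qb N q) hfin
      (val_baseRing N A (jF Qb N)) (heckeAlphaBar Qb N q g) h3 n
    exact ⟨_, 1, h4, Subring.one_mem _, one_mul _, 1, A.one_mem, vip_one_not_mem_nonunits A,
      hv_one P⟩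
  | false =>
    have ht : val_t false Qb N = (jF Qb N)⁻¹ := if_neg (by simp)
    rw [ht] at hg ⊢
    obtain ⟨c₀, hc₀, hv₀⟩ : InChart2 N A P := by
      rcases hP with ⟨h, -⟩ | ⟨-, h⟩
      · exact absurd h (by simp)
      · exact h
    -- the denominator `l = λ(u)` and its value `c₁`
    obtain ⟨l, hl⟩ : ∃ l : ↥(FL Qb N), l = ∑ i ∈ Finset.range (q + 1 + 1),
        algebraMap Qb ↥(FL Qb N) ((Φ.coeff i).coeff 0) * (jF Qb N)⁻¹ ^ (q + 1 - i) := ⟨_, rfl⟩
    obtain ⟨c₁, hc₁⟩ : ∃ c₁ : Qb, c₁ = ∑ i ∈ Finset.range (q + 1 + 1),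
        (Φ.coeff i).coeff 0 * c₀ ^ (q + 1 - i) := ⟨_, rfl⟩
    have hvl : HasValue P l c₁ := by
      rw [hl, hc₁]
      exact hv_sum _ _ _ fun i _ => hv_mul (hv_algebraMap P _) (hv_pow hv₀ _)
    have hc₀A : c₀ ∈ A := A.nonunits_subset hc₀
    have hc₁A : c₁ ∈ A := by
      rw [hc₁]
      exact sum_mem fun i _ => mul_mem (hΦA i 0) (pow_mem hc₀A _)
    have hc₁u : c₁ ∉ A.nonunits := by
      intro h
      rw [hc₁, Finset.sum_range_succ] at h
      have hlast : (Φ.coeff (q + 1)).coeff 0 * c₀ ^ (q + 1 - (q + 1)) = 1 := by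
        have h5 : Φ.coeff (q + 1) = 1 := by
          rw [← hΦd]
          exact hΦm.coeff_natDegree
        rw [h5, Nat.sub_self, pow_zero, mul_one, coeff_one_zero]
      rw [hlast] at h
      have hsum : ∑ i ∈ Finset.range (q + 1), (Φ.coeff i).coeff 0 * c₀ ^ (q + 1 - i) ∈
          A.nonunits := by
        refine sum_mem fun i hi => ?_
        have hi' : i < q + 1 := Finset.mem_range.mp hi
        obtain ⟨k, hk⟩ : ∃ k, q + 1 - i = k + 1 := ⟨q - i, by omega⟩
        rw [hk, pow_succ, ← mul_assoc, mul_comm]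
        exact vip_nonunits_mul A hc₀ (mul_mem (hΦA i 0) (pow_mem hc₀A _))
      have h6 : (1 : Qb) ∈ A.nonunits := by
        have h7 := sub_mem h hsum
        rwa [add_sub_cancel_left] at h7
      exact vip_one_not_mem_nonunits A h6
    have hc₁0 : c₁ ≠ 0 := fun h0 => hc₁u (h0 ▸ A.nonunits.zero_mem)
    have hl0 : l ≠ 0 := by
      intro h0
      rw [h0] at hvl
      exact hc₁0 (hv_unique hvl (hv_zero P))
    have hjne : jF Qb N ≠ 0 := by
      intro h0
      have h5 : jqModC Qb = 0 := congrArg Subtype.val h0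
      exact jqModC_ne_zero_of_nontrivial Qb h5
    have hg' : IsIntegral ↥(val_baseRing N A (jF Qb N)⁻¹) g := hg
    have h3 := vip_false_abs A (heckeAlphaBar Qb N q) (heckeBetaBar Qb N q) (jF Qb N) hjne Φ
      (q + 1) hΦd hΦA h2 l hl hl0 g hg'
    have h4 := hcp Qb ↥(FL Qb N) ↥(FL Qb (N * q)) (heckeBetaBar Qb N q) hfin
      (Subring.closure (Set.range ((algebraMap Qb ↥(FL Qb N)).comp A.subtype) ∪
        {(jF Qb N)⁻¹} ∪ {l⁻¹})) (heckeAlphaBar Qb N q g) h3 n
    have hmem1 : ∀ a : Qb, a ∈ A → algebraMap Qb ↥(FL Qb N) a ∈ Subring.closure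
        (Set.range ((algebraMap Qb ↥(FL Qb N)).comp A.subtype) ∪ {(jF Qb N)⁻¹}) :=
      fun a ha => Subring.subset_closure (Or.inl ⟨⟨a, ha⟩, rfl⟩)
    have hmem2 : (jF Qb N)⁻¹ ∈ Subring.closure
        (Set.range ((algebraMap Qb ↥(FL Qb N)).comp A.subtype) ∪ {(jF Qb N)⁻¹}) :=
      Subring.subset_closure (Or.inr rfl)
    have hlmem : l ∈ Subring.closure
        (Set.range ((algebraMap Qb ↥(FL Qb N)).comp A.subtype) ∪ {(jF Qb N)⁻¹}) := by
      rw [hl]
      exact sum_mem fun i _ => mul_mem (hmem1 _ (hΦA i 0)) (pow_mem hmem2 _)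
    obtain ⟨M, hM⟩ := vip_clear_denominators _ l hlmem hl0 _ h4
    refine ⟨_, l ^ M, hM, ?_, rfl, c₁ ^ M, pow_mem hc₁A M, ?_, hv_pow hvl M⟩
    · show IsIntegral ↥(val_baseRing N A (jF Qb N)⁻¹) (l ^ M)
      exact isIntegral_algebraMap (R := ↥(val_baseRing N A (jF Qb N)⁻¹))
        (x := ⟨l ^ M, pow_mem hlmem M⟩)
    · intro h
      rw [A.mem_nonunits_iff, map_pow] at h
      have h5 : A.valuation c₁ = 1 :=
        le_antisymm ((A.valuation_le_one_iff _).mpr hc₁A)
          (not_lt.mp fun h' => hc₁u (A.mem_nonunits_iff.mpr h'))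
      rw [h5, one_pow] at h
      exact lt_irrefl _ h

end

end Fermat.Agent.S37
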