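/-
S37, block VAL, package VALKR3 (twin B): the Kronecker congruence in Gauss-local form.

`vk4_main : kr_CharpolyStatement → val_RedCalcStatement → val_KR3Statement`.

Sketch.  Let `ζ ∈ Qb` be a primitive `ℓ`-th root of unity; it is a unit of the valuation ring `A`
with residue `1` (characteristic `ℓ`).  By `kr_CharpolyStatement`, the series `c_n(q^ℓ)` (`c_n` the
`n`-th coefficient of `χ_g`) is the `n`-th coefficient of
`Π = (X - g(q^{ℓ²})) ∏_{b<ℓ} (X - g(ζ^b q))`.  The Gauss-local reduction is compatible with sums and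
products, hence with coefficients of products of polynomials; `g(q^{ℓ²})` reduces to `ḡ(q^{ℓ²})` and
`g(ζ^b q)` reduces to `ḡ` (twist numerator and denominator by the unit `ζ^b`, whose residue is `1`).
So `Π` reduces coefficientwise to `(X - ḡ(q^{ℓ²})) (X - ḡ)^ℓ = (X - ḡ(q^{ℓ²})) (X^ℓ - ḡ^ℓ)`, which is
the image under `q ↦ q^ℓ` of `(X - (τ⁻¹ḡ)^ℓ) (X^ℓ - τ ḡ)` by the Frobenius identity
`f^ℓ = (τ f)(q^ℓ)` for Laurent series in characteristic `ℓ` (`krio_frob`).
-/
import Fermat.Agent.S37.VALInterfaces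
import Fermat.Agent.S37.KRIntegralB
import Fermat.Agent.S28.Subst

set_option autoImplicit false

open AlgebraicCurve ModularCurve IntermediateField Polynomial
open Fermat.Agent.S28 (scale evalL)
open Fermat.Agent.S18 (FL)

namespace Fermat.Agent.S37

noncomputable section

set_option synthInstance.maxHeartbeats 400000

/-! ## The residue field and roots of unity -/

/-- The residue field of a valuation subring above `ℓ` has characteristic `ℓ`. -/
theorem vk4_charP (ℓ : ℕ) (hℓ : ℓ.Prime) (A : ValuationSubring Qb) (hA : A.LiesOverPrime ℓ) :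
    CharP (kA A) ℓ := by
  rw [CharP.charP_iff_prime_eq_zero hℓ]
  obtain ⟨ha, hmem⟩ := (ValuationSubring.mem_nonunits_iff_exists_mem_maximalIdeal).1 hA
  have h0 : IsLocalRing.residue ↥A ⟨(ℓ : Qb), ha⟩ = 0 :=
    (IsLocalRing.residue_eq_zero_iff _).2 hmem
  have h1 : (⟨(ℓ : Qb), ha⟩ : ↥A) = ((ℓ : ℕ) : ↥A) := Subtype.ext rfl
  rw [h1, map_natCast] at h0
  exact h0

/-- An `ℓ`-th root of unity of `Qb` is a unit of `A`, and its residue is `1`. -/
theorem vk4_exists_unit (ℓ : ℕ) (hℓ : ℓ.Prime) (A : ValuationSubring Qb)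
    (hA : A.LiesOverPrime ℓ) (ζ : Qb) (hζpow : ζ ^ ℓ = 1) :
    ∃ u : (↥A)ˣ, ((u : ↥A) : Qb) = ζ ∧
      Units.map (IsLocalRing.residue ↥A : ↥A →* kA A) u = 1 := by
  have hFact : Fact ℓ.Prime := ⟨hℓ⟩
  have hchar : CharP (kA A) ℓ := vk4_charP ℓ hℓ A hA
  have hℓ1 : ℓ - 1 + 1 = ℓ := Nat.sub_add_cancel hℓ.pos
  have hζA : ζ ∈ A := by
    rcases A.mem_or_inv_mem ζ with h | h
    · exact h
    · have h2 : ζ = (ζ⁻¹) ^ (ℓ - 1) := by
        rw [inv_pow]
        exact eq_inv_of_mul_eq_one_left (by rw [← pow_succ', hℓ1, hζpow])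
      rw [h2]
      exact pow_mem h _
  obtain ⟨ζA, hζA'⟩ : ∃ ζA : ↥A, (ζA : Qb) = ζ := ⟨⟨ζ, hζA⟩, rfl⟩
  have hζApow : ζA ^ ℓ = 1 := Subtype.ext (by
    rw [SubmonoidClass.coe_pow, hζA', hζpow]
    rfl)
  refine ⟨Units.mkOfMulEqOne ζA (ζA ^ (ℓ - 1)) (by rw [← pow_succ', hℓ1, hζApow]), hζA', ?_⟩
  apply Units.ext
  rw [Units.coe_map, Units.val_one]
  have h1 : (IsLocalRing.residue ↥A ζA) ^ ℓ = 1 := by rw [← map_pow, hζApow, map_one]
  have h2 : (IsLocalRing.residue ↥A ζA - 1) ^ ℓ = 0 := by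
    rw [sub_pow_char, h1, one_pow, sub_self]
  exact sub_eq_zero.1 ((pow_eq_zero_iff hℓ.ne_zero).1 h2)

/-! ## Gauss-local reduction and the substitution `q ↦ u q` -/

/-- If `z` is the Gauss-local reduction of `a` and `u` is a unit of `A` with residue `1`, then `z`
is also the Gauss-local reduction of `a(u q)`. -/
theorem vk4_red_scale (A : ValuationSubring Qb) {a : LaurentSeries Qb}
    {z : LaurentSeries (kA A)} (h : val_Red A a z) (u : (↥A)ˣ)
    (hu : Units.map (IsLocalRing.residue ↥A : ↥A →* kA A) u = 1) :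
    val_Red A (scale ((u : ↥A) : Qb) a) z := by
  obtain ⟨U, W, hW, h1, h2⟩ := h
  have hc : ((u : ↥A) : Qb) ≠ 0 := (Units.map (A.subtype : ↥A →* Qb) u).ne_zero
  have e1 : ∀ V : LaurentSeries ↥A, coeffMap (IsLocalRing.residue ↥A) (krio_twist u V) =
      coeffMap (IsLocalRing.residue ↥A) V := by
    intro V
    rw [krio_coeffMap_twist, hu, krio_twist_one]
  have e2 : ∀ V : LaurentSeries ↥A, coeffMap A.subtype (krio_twist u V) =
      scale ((u : ↥A) : Qb) (coeffMap A.subtype V) := by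
    intro V
    rw [krio_coeffMap_twist, krio_twist_eq_scale]
    rfl
  refine ⟨krio_twist u U, krio_twist u W, ?_, ?_, ?_⟩
  · rw [e1]
    exact hW
  · rw [e2, e2, ← Fermat.Agent.S28.subst_scale_mul _ hc, h1]
  · rw [e1, e1, h2]

/-! ## Coefficientwise Gauss-local reduction of polynomials -/

/-- `pbar` is the coefficientwise Gauss-local reduction of the polynomial `p`. -/
def vk4_PRed (A : ValuationSubring Qb) (p : Polynomial (LaurentSeries Qb))
    (pbar : Polynomial (LaurentSeries (kA A))) : Prop :=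
  ∀ n : ℕ, val_Red A (p.coeff n) (pbar.coeff n)

theorem vk4_red_zero (hCalc : val_RedCalcStatement) (A : ValuationSubring Qb) :
    val_Red A 0 0 := by
  have h := (hCalc A).2.2.2.2.1 0
  rwa [map_zero, map_zero] at h

theorem vk4_red_one (hCalc : val_RedCalcStatement) (A : ValuationSubring Qb) :
    val_Red A 1 1 := by
  have h := (hCalc A).2.2.2.2.1 1
  rwa [map_one, map_one] at h

theorem vk4_PRed_mul (hCalc : val_RedCalcStatement) (A : ValuationSubring Qb)
    {p p' : Polynomial (LaurentSeries Qb)} {pbar pbar' : Polynomial (LaurentSeries (kA A))}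
    (h : vk4_PRed A p pbar) (h' : vk4_PRed A p' pbar') :
    vk4_PRed A (p * p') (pbar * pbar') := by
  intro n
  rw [Polynomial.coeff_mul, Polynomial.coeff_mul]
  refine Finset.sum_hom_rel (vk4_red_zero hCalc A) ?_
  intro x b c hbc
  exact (hCalc A).2.1 _ _ _ _ ((hCalc A).2.2.1 _ _ _ _ (h x.1) (h' x.2)) hbc

theorem vk4_PRed_one (hCalc : val_RedCalcStatement) (A : ValuationSubring Qb) :
    vk4_PRed A 1 1 := by
  intro n
  rw [Polynomial.coeff_one, Polynomial.coeff_one]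
  split_ifs
  · exact vk4_red_one hCalc A
  · exact vk4_red_zero hCalc A

theorem vk4_PRed_X_sub_C (hCalc : val_RedCalcStatement) (A : ValuationSubring Qb)
    {a : LaurentSeries Qb} {z : LaurentSeries (kA A)} (h : val_Red A a z) :
    vk4_PRed A (X - C a) (X - C z) := by
  intro n
  rw [Polynomial.coeff_sub, Polynomial.coeff_sub, sub_eq_add_neg, sub_eq_add_neg]
  refine (hCalc A).2.1 _ _ _ _ ?_ ((hCalc A).2.2.2.1 _ _ ?_)
  · rw [Polynomial.coeff_X, Polynomial.coeff_X]
    split_ifs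
    · exact vk4_red_one hCalc A
    · exact vk4_red_zero hCalc A
  · rw [Polynomial.coeff_C, Polynomial.coeff_C]
    split_ifs
    · exact h
    · exact vk4_red_zero hCalc A

theorem vk4_PRed_prod (hCalc : val_RedCalcStatement) (A : ValuationSubring Qb) (s : Finset ℕ)
    (f : ℕ → Polynomial (LaurentSeries Qb)) (fbar : ℕ → Polynomial (LaurentSeries (kA A)))
    (h : ∀ b, vk4_PRed A (f b) (fbar b)) :
    vk4_PRed A (∏ b ∈ s, f b) (∏ b ∈ s, fbar b) := by
  refine Finset.prod_hom_rel (vk4_PRed_one hCalc A) ?_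
  intro b p pbar hp
  exact vk4_PRed_mul hCalc A (h b) hp

/-! ## The reduced polynomial -/

/-- In characteristic `ℓ`: `(X - ḡ(q^{ℓ²})) (X - ḡ)^ℓ` is the image under `q ↦ q^ℓ` of
`(X - w^ℓ) (X^ℓ - φ ḡ)`, where `φ w = ḡ`. -/
theorem vk4_resid_poly {k : Type} [CommRing k] (ℓ : ℕ) [NeZero ℓ] (hℓ : ℓ.Prime) [CharP k ℓ]
    (φ : k →+* k) (hφ : ∀ x, φ x = x ^ ℓ) (gbar w : LaurentSeries k)
    (hw : coeffMap φ w = gbar) :
    ((X - C (w ^ ℓ)) * (X ^ ℓ - C (coeffMap φ gbar))).map (qExpand k ℓ) =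
      (X - C (qExpand k (ℓ * ℓ) gbar)) * ∏ _b ∈ Finset.range ℓ, (X - C gbar) := by
  have hFact : Fact ℓ.Prime := ⟨hℓ⟩
  have hcharL : CharP (LaurentSeries k) ℓ :=
    charP_of_injective_ringHom (HahnSeries.C_injective) ℓ
  rw [Finset.prod_const, Finset.card_range, sub_pow_char, ← map_pow,
    Polynomial.map_mul, Polynomial.map_sub, Polynomial.map_X, Polynomial.map_C,
    Polynomial.map_sub, Polynomial.map_pow, Polynomial.map_X, Polynomial.map_C,
    ← krio_frob ℓ hℓ φ hφ gbar, krio_frob ℓ hℓ φ hφ w, qExpand_qExpand, hw]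

/-! ## The main theorem -/

theorem vk4_main : kr_CharpolyStatement → val_RedCalcStatement → val_KR3Statement := by
  intro hCh hCalc N ℓ _ _ hℓ hℓN hfin A hA τ hτ g gbar hg n
  have hchar : CharP (kA A) ℓ := vk4_charP ℓ hℓ A hA
  obtain ⟨ζ, hζ⟩ := HasEnoughRootsOfUnity.exists_primitiveRoot Qb ℓ
  obtain ⟨u, hu, hures⟩ := vk4_exists_unit ℓ hℓ A hA ζ hζ.pow_eq_one
  -- the Kronecker factorisation
  have h3 := hCh N ℓ hℓ hℓN hfin ζ hζ g
  have h4 : qExpand Qb ℓ
      ((((hi_charpolyAlong (heckeBetaBar Qb N ℓ) hfin (heckeAlphaBar Qb N ℓ g)).coeff n :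
        ↥(FL Qb N)) : LaurentSeries Qb)) =
      ((X - C (qExpand Qb (ℓ * ℓ) (g : LaurentSeries Qb))) *
        ∏ b ∈ Finset.range ℓ, (X - C (scale (ζ ^ b) (g : LaurentSeries Qb)))).coeff n := by
    have h := congrArg (fun p => Polynomial.coeff p n) h3
    simp only [Polynomial.coeff_map] at h
    exact h
  -- the reduced polynomial
  have hw : coeffMap (τ : kA A →+* kA A) (coeffMap (τ.symm : kA A →+* kA A) gbar) = gbar := by
    rw [coeffMap_coeffMap,
      coeffMap_congr (g := RingHom.id (kA A)) (RingHom.ext fun a => τ.apply_symm_apply a) gbar,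
      coeffMap_id]
  have h5 := vk4_resid_poly ℓ hℓ (τ : kA A →+* kA A) hτ gbar
    (coeffMap (τ.symm : kA A →+* kA A) gbar) hw
  rw [h4, ← Polynomial.coeff_map, h5]
  -- coefficientwise reduction
  refine vk4_PRed_mul hCalc A
    (vk4_PRed_X_sub_C hCalc A ((hCalc A).2.2.2.2.2 (ℓ * ℓ) _ _ hg))
    (vk4_PRed_prod hCalc A _ _ _ fun b => vk4_PRed_X_sub_C hCalc A ?_) n
  have h6 := vk4_red_scale A hg (u ^ b) (by rw [map_pow, hures, one_pow])
  rwa [Units.val_pow_eq_pow_val, SubmonoidClass.coe_pow, hu] at h6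

end

end Fermat.Agent.S37
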