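/-
S37, block VAL, package VALKey (variant A): (V3), the values of the coefficients of the
characteristic polynomial `χ_g` of `α(g)` along `β`, and their residues.

For `Q` a place of `F_{Nq}` above `P` (along `β`), the place `α_* Q` lies in the same chart as `P`
(`val_ChartPresStatement`), hence by `Spec` the function `g` of the chart has a value `c_Q ∈ A` at
`α_* Q`, and `ρ(g)` has the value `π(c_Q)` at `r(α_* Q)`.  The values lemma
(`val_ValuesModStatement`) gives the value `(∏_Q (X - c_Q)^{e_Q}).coeff n` of the `n`-th coefficient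
of `χ_g` at `P`; its residue is the `n`-th coefficient of
`∏_Q (X - π(c_Q))^{e_Q} = ∏_y (X - v y)^{M y}`, `M = ∑_Q e_Q [r(α_* Q)]`.
-/
import Fermat.Agent.S37.VALInterfaces
import Fermat.Agent.S37.HV

set_option autoImplicit false

open ModularCurve AlgebraicCurve Polynomial

namespace Fermat.Agent.S37

open Fermat.Agent.S18

set_option synthInstance.maxHeartbeats 400000

/-- The nonunits of the preimage of a valuation subring under a homomorphism of fields. -/
theorem vky_mem_nonunits_comap {F F' : Type} [Field F] [Field F'] (f : F →+* F')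
    (B : ValuationSubring F') (x : F) : x ∈ (B.comap f).nonunits ↔ f x ∈ B.nonunits := by
  rw [ValuationSubring.mem_nonunits_iff_or, ValuationSubring.mem_nonunits_iff_or,
    ValuationSubring.mem_comap, map_inv₀, map_eq_zero]

/-- Values at the restriction of a place: `s` has the value `c` at `φ_* Q` iff `φ s` has the value
`c` at `Q`. -/
theorem vky_hasValue_restrictAlong {K F F' : Type} [Field K] [Field F] [Field F'] [Algebra K F]
    [Algebra K F'] (φ : F →ₐ[K] F') (hφ : φ.toRingHom.IsIntegral) (Q : Place K F') (s : F)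
    (c : K) : HasValue (Q.restrictAlong φ hφ) s c ↔ HasValue Q (φ s) c := by
  unfold HasValue
  have h1 : (Q.restrictAlong φ hφ).toValuationSubring
      = Q.toValuationSubring.comap φ.toRingHom := rfl
  have h2 : φ.toRingHom (s - algebraMap K F c) = φ s - algebraMap K F' c := by
    rw [map_sub]
    congr 1
    exact φ.commutes c
  rw [h1, vky_mem_nonunits_comap, h2]

/-- The chart `{val_t i}` of a place lying in the chart `i`, in the form required by `Spec`. -/
theorem vky_chart_cases (i : Bool) (N : ℕ) [NeZero N] (A : ValuationSubring Qb) (L : Type)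
    [Field L] [Algebra ℚ L] (P : Place Qb ↥(FL Qb N)) (h : val_InChart i N A P) :
    (({val_t i L N} : Set ↥(FL L N)) = {jF L N} ∧ InChart1 N A P) ∨
      (({val_t i L N} : Set ↥(FL L N)) = {(jF L N)⁻¹} ∧ InChart2 N A P) := by
  rcases h with ⟨rfl, h⟩ | ⟨rfl, h⟩
  · exact Or.inl ⟨by rw [val_t, if_pos rfl], h⟩
  · exact Or.inr ⟨by rw [val_t, if_neg Bool.false_ne_true], h⟩

/-- A product over an index set of powers of linear factors, regrouped along the finitely
supported function `∑ i, e i • [y i]`. -/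
theorem vky_prod_eq {ι Y R : Type} [CommRing R] (s : Finset ι) (y : ι → Y) (e : ι → ℕ)
    (w : ι → R) (v : Y → R)
    (hw : ∀ i ∈ s, y i ∈ (∑ j ∈ s, Finsupp.single (y j) (e j)).support → w i = v (y i)) :
    ∏ i ∈ s, (X - C (w i)) ^ e i =
      ∏ z ∈ (∑ j ∈ s, Finsupp.single (y j) (e j)).support,
        (X - C (v z)) ^ ((∑ j ∈ s, Finsupp.single (y j) (e j)) z) := by
  have h1 : ∏ i ∈ s, (X - C (w i)) ^ e i = ∏ i ∈ s, (X - C (v (y i))) ^ e i := by
    refine Finset.prod_congr rfl fun i hi => ?_
    by_cases he : e i = 0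
    · rw [he, pow_zero, pow_zero]
    · rw [hw i hi]
      rw [Finsupp.mem_support_iff, Finsupp.finsetSum_apply]
      intro h0
      have h2 := (Finset.sum_eq_zero_iff.mp h0) i hi
      rw [Finsupp.single_eq_same] at h2
      exact he h2
  have h2 := Finsupp.prod_finsetSum_index (s := s) (g := fun i => Finsupp.single (y i) (e i))
    (h := fun z m => (X - C (v z) : Polynomial R) ^ m) (fun _ => pow_zero _)
    (fun _ _ _ => pow_add _ _ _)
  rw [h1]
  refine Eq.trans ?_ h2
  refine Finset.prod_congr rfl fun i _ => ?_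
  exact (Finsupp.prod_single_index (a := y i) (b := e i)
    (h := fun z m => (X - C (v z) : Polynomial R) ^ m) (pow_zero _)).symm

/-- (VAL-Key, (V3)). -/
theorem vky_main : val_ValuesModStatement → val_ChartPresStatement → val_KeyStatement := by
  intro hVM hCP N ℓ _ _ hℓN A hA r hSpec q _ hq hα hβ _ hfin i P hP L _ _ ι _ ϖ hBD ρ hρ g hg hV hk
    v hv n
  -- the values `c_Q`
  have H : ∀ Q : Place Qb ↥(FL Qb (N * q)), ∃ c : ↥A,
      Q ∈ Place.fiberAlong (heckeBetaBar Qb N q) hβ P →
        (HasValue Q (heckeAlphaBar Qb N q (dEmb N ι g)) (c : Qb) ∧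
          HasValue (r (Q.restrictAlong (heckeAlphaBar Qb N q) hα))
            (⟨ρ ⟨g, hV⟩, hk⟩ : ↥(Fk (kA A) N)) (IsLocalRing.residue ↥A c)) := by
    intro Q
    by_cases hQ : Q ∈ Place.fiberAlong (heckeBetaBar Qb N q) hβ P
    · have hQP : Q.restrictAlong (heckeBetaBar Qb N q) hβ = P := Place.mem_fiberAlong.mp hQ
      have h1 : val_InChart i N A (Q.restrictAlong (heckeAlphaBar Qb N q) hα) :=
        (hCP N q hq A hα hβ Q i).mp (by rw [hQP]; exact hP)
      obtain ⟨c, hc1, hc2⟩ := hSpec L ι ϖ hBD ρ hρ (Q.restrictAlong (heckeAlphaBar Qb N q) hα)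
        {val_t i L N} (vky_chart_cases i N A L _ h1) g hg hV hk
      exact ⟨c, fun _ => ⟨(vky_hasValue_restrictAlong _ hα Q _ _).mp hc1, hc2⟩⟩
    · exact ⟨0, fun h => absurd h hQ⟩
  choose cA hcA using H
  -- the values lemma
  have hval := hVM N q hβ hfin P (heckeAlphaBar Qb N q (dEmb N ι g)) (fun Q => (cA Q : Qb))
    (fun Q hQ => (hcA Q hQ).1) n
  -- the polynomial over `A`
  have hmapA : (∏ Q ∈ Place.fiberAlong (heckeBetaBar Qb N q) hβ P,
        (X - C (cA Q)) ^ (Q.ramificationIndexAlong (heckeBetaBar Qb N q))).map A.subtype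
      = ∏ Q ∈ Place.fiberAlong (heckeBetaBar Qb N q) hβ P,
        (X - C (cA Q : Qb)) ^ (Q.ramificationIndexAlong (heckeBetaBar Qb N q)) := by
    rw [Polynomial.map_prod]
    refine Finset.prod_congr rfl fun Q _ => ?_
    rw [Polynomial.map_pow, Polynomial.map_sub, Polynomial.map_X, Polynomial.map_C]
    rfl
  have hmapk : (∏ Q ∈ Place.fiberAlong (heckeBetaBar Qb N q) hβ P,
        (X - C (cA Q)) ^ (Q.ramificationIndexAlong (heckeBetaBar Qb N q))).map
          (IsLocalRing.residue ↥A)
      = ∏ Q ∈ Place.fiberAlong (heckeBetaBar Qb N q) hβ P,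
        (X - C (IsLocalRing.residue ↥A (cA Q))) ^
          (Q.ramificationIndexAlong (heckeBetaBar Qb N q)) := by
    rw [Polynomial.map_prod]
    refine Finset.prod_congr rfl fun Q _ => ?_
    rw [Polynomial.map_pow, Polynomial.map_sub, Polynomial.map_X, Polynomial.map_C]
  refine ⟨(∏ Q ∈ Place.fiberAlong (heckeBetaBar Qb N q) hβ P,
    (X - C (cA Q)) ^ (Q.ramificationIndexAlong (heckeBetaBar Qb N q))).coeff n, ?_, ?_⟩
  · rw [← hmapA, Polynomial.coeff_map] at hval
    exact hval
  · rw [← Polynomial.coeff_map, hmapk]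
    congr 1
    exact vky_prod_eq (Place.fiberAlong (heckeBetaBar Qb N q) hβ P)
      (fun Q => r (Q.restrictAlong (heckeAlphaBar Qb N q) hα))
      (fun Q => Q.ramificationIndexAlong (heckeBetaBar Qb N q))
      (fun Q => IsLocalRing.residue ↥A (cA Q)) v
      (fun Q hQ hy => hv_unique (hcA Q hQ).2 (hv _ hy))

end Fermat.Agent.S37
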