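/-
S37, block VAL, package VALKey ((V3)), twin B.

`vkz_main : val_ValuesModStatement → val_ChartPresStatement → val_KeyStatement`:
for `g` in the chart `i` of a datum and `P` in the chart `i`, the `n`-th coefficient of the
characteristic polynomial `χ_g` of `α g` along `β` has a value `c ∈ A` at `P`, and the residue of
`c` is the `n`-th coefficient of `∏_y (X - v y)^{mult y}`, `y` running over the support of
`r_*(T_q P)` and `v y` the value of `ρ(g)` at `y`.
-/
import Fermat.Agent.S37.VALInterfaces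
import Fermat.Agent.S37.HV

set_option autoImplicit false

open ModularCurve AlgebraicCurve Polynomial

namespace Fermat.Agent.S37

open Fermat.Agent.S18

noncomputable section

set_option synthInstance.maxHeartbeats 400000

/-! ### Values and restriction of places -/

/-- The nonunits of a valuation subring: `0` and the elements whose inverse is not in the ring. -/
theorem vkz_mem_nonunits_iff {F : Type} [Field F] (B : ValuationSubring F) (x : F) :
    x ∈ B.nonunits ↔ x = 0 ∨ x⁻¹ ∉ B := by
  rw [ValuationSubring.mem_nonunits_iff]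
  rcases eq_or_ne x 0 with rfl | hx
  · rw [map_zero]
    exact ⟨fun _ => Or.inl rfl, fun _ => zero_lt_one⟩
  · have h0 : B.valuation x ≠ 0 := (Valuation.ne_zero_iff _).mpr hx
    rw [← ValuationSubring.valuation_le_one_iff, map_inv₀, inv_le_one₀ (zero_lt_iff.mpr h0),
      not_le]
    exact ⟨fun h => Or.inr h, fun h => h.resolve_left hx⟩

/-- The nonunits of the preimage of a valuation subring under a field homomorphism. -/
theorem vkz_mem_nonunits_comap {F F' : Type} [Field F] [Field F'] (B : ValuationSubring F')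
    (f : F →+* F') (x : F) : x ∈ (B.comap f).nonunits ↔ f x ∈ B.nonunits := by
  rw [vkz_mem_nonunits_iff, vkz_mem_nonunits_iff, ValuationSubring.mem_comap, map_inv₀,
    map_eq_zero]

/-- `s` has the value `c` at the restriction of `Q` along `φ` iff `φ s` has the value `c` at
`Q`. -/
theorem vkz_hasValue_restrictAlong {K F F' : Type} [Field K] [Field F] [Field F'] [Algebra K F]
    [Algebra K F'] (φ : F →ₐ[K] F') (hφ : φ.toRingHom.IsIntegral) (Q : Place K F') (s : F)
    (c : K) : HasValue (Q.restrictAlong φ hφ) s c ↔ HasValue Q (φ s) c := by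
  unfold HasValue
  have h : (Q.restrictAlong φ hφ).toValuationSubring =
      Q.toValuationSubring.comap φ.toRingHom := rfl
  have h2 : φ.toRingHom (s - algebraMap K F c) = φ s - algebraMap K F' c := by
    rw [map_sub]
    congr 1
    exact φ.commutes c
  rw [h, vkz_mem_nonunits_comap, h2]

/-! ### Pure algebra -/

/-- Coefficients of a product of powers of linear factors under a ring homomorphism. -/
theorem vkz_coeff_map_prod {ι R S : Type} [CommRing R] [CommRing S] (f : R →+* S)
    (s : Finset ι) (c : ι → R) (e : ι → ℕ) (n : ℕ) :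
    f ((∏ Q ∈ s, (X - C (c Q)) ^ e Q).coeff n) = (∏ Q ∈ s, (X - C (f (c Q))) ^ e Q).coeff n := by
  rw [← Polynomial.coeff_map, Polynomial.map_prod]
  congr 1
  refine Finset.prod_congr rfl fun Q _ => ?_
  rw [Polynomial.map_pow, Polynomial.map_sub, Polynomial.map_X, Polynomial.map_C]

/-- A product over the support of a sum of singles. -/
theorem vkz_prod_support {ι Y R : Type} [CommMonoid R] (s : Finset ι) (f : ι → Y) (e : ι → ℕ)
    (G : Y → R) :
    ∏ y ∈ (∑ Q ∈ s, Finsupp.single (f Q) (e Q)).support,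
        G y ^ (∑ Q ∈ s, Finsupp.single (f Q) (e Q)) y
      = ∏ Q ∈ s, G (f Q) ^ e Q := by
  have h := Finsupp.prod_finsetSum_index (s := s) (g := fun Q => Finsupp.single (f Q) (e Q))
    (h := fun y n => G y ^ n) (fun a => pow_zero _) (fun a b₁ b₂ => pow_add _ _ _)
  have h' : (∏ y ∈ (∑ Q ∈ s, Finsupp.single (f Q) (e Q)).support,
        G y ^ (∑ Q ∈ s, Finsupp.single (f Q) (e Q)) y)
      = (∑ Q ∈ s, Finsupp.single (f Q) (e Q)).prod (fun y n => G y ^ n) := rfl
  rw [h', ← h]
  refine Finset.prod_congr rfl fun Q _ => ?_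
  exact Finsupp.prod_single_index (pow_zero _)

/-- A point with nonzero multiplicity lies in the support of a sum of singles. -/
theorem vkz_mem_support {ι Y : Type} (s : Finset ι) (f : ι → Y) (e : ι → ℕ) {Q : ι}
    (hQ : Q ∈ s) (he : e Q ≠ 0) : f Q ∈ (∑ Q ∈ s, Finsupp.single (f Q) (e Q)).support := by
  classical
  rw [Finsupp.mem_support_iff, Finsupp.finsetSum_apply]
  have h1 : (Finsupp.single (f Q) (e Q)) (f Q) ≤ ∑ Q' ∈ s, (Finsupp.single (f Q') (e Q')) (f Q) :=
    Finset.single_le_sum (f := fun Q' => (Finsupp.single (f Q') (e Q')) (f Q))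
      (fun _ _ => Nat.zero_le _) hQ
  rw [Finsupp.single_eq_same] at h1
  omega

/-- The algebraic core of (V3): residues of the coefficients. -/
theorem vkz_residue_coeff {ι Y R k : Type} [CommRing R] [CommRing k] (π : R →+* k)
    (s : Finset ι) (f : ι → Y) (e : ι → ℕ) (c : ι → R) (v : Y → k)
    (h : ∀ Q ∈ s, e Q ≠ 0 → π (c Q) = v (f Q)) (n : ℕ) :
    π ((∏ Q ∈ s, (X - C (c Q)) ^ e Q).coeff n) =
      (∏ y ∈ (∑ Q ∈ s, Finsupp.single (f Q) (e Q)).support,
        (X - C (v y)) ^ (∑ Q ∈ s, Finsupp.single (f Q) (e Q)) y).coeff n := by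
  rw [vkz_coeff_map_prod, vkz_prod_support s f e (fun y => X - C (v y))]
  congr 1
  refine Finset.prod_congr rfl fun Q hQ => ?_
  by_cases he : e Q = 0
  · rw [he, pow_zero, pow_zero]
  · rw [h Q hQ he]

/-! ### The key statement -/

/-- (VAL-Key, (V3)). -/
theorem vkz_main : val_ValuesModStatement → val_ChartPresStatement → val_KeyStatement := by
  intro hVM hCP N ℓ _ _ hℓN A hA r hr q _ hq hα hβ _ hfin i P hP L _ _ ι _ ϖ hBD ρ hρ g hg hV hk
    v hv n
  -- (1), (2): values of `α (dEmb g)` at the places of the fibre of `P` along `β`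
  have h1 : ∀ Q ∈ Place.fiberAlong (heckeBetaBar Qb N q) hβ P, ∃ c : ↥A,
      HasValue Q (heckeAlphaBar Qb N q (dEmb N ι g)) (c : Qb) ∧
      HasValue (r (Q.restrictAlong (heckeAlphaBar Qb N q) hα))
        (⟨ρ ⟨g, hV⟩, hk⟩ : ↥(Fk (kA A) N)) (IsLocalRing.residue ↥A c) := by
    intro Q hQ
    have hQP : Q.restrictAlong (heckeBetaBar Qb N q) hβ = P := Place.mem_fiberAlong.mp hQ
    have hch : val_InChart i N A (Q.restrictAlong (heckeAlphaBar Qb N q) hα) := by
      rw [← hCP N q hq A hα hβ Q i, hQP]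
      exact hP
    have hS : (({val_t i L N} : Set ↥(FL L N)) = {jF L N} ∧
          InChart1 N A (Q.restrictAlong (heckeAlphaBar Qb N q) hα)) ∨
        (({val_t i L N} : Set ↥(FL L N)) = {(jF L N)⁻¹} ∧
          InChart2 N A (Q.restrictAlong (heckeAlphaBar Qb N q) hα)) := by
      rcases hch with ⟨hi, h⟩ | ⟨hi, h⟩
      · left
        refine ⟨?_, h⟩
        rw [val_t, if_pos hi]
      · right
        refine ⟨?_, h⟩
        rw [val_t, if_neg (by rw [hi]; exact Bool.false_ne_true)]
    obtain ⟨c, hc1, hc2⟩ := hr L ι ϖ hBD ρ hρ (Q.restrictAlong (heckeAlphaBar Qb N q) hα)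
      {val_t i L N} hS g hg hV hk
    exact ⟨c, (vkz_hasValue_restrictAlong (heckeAlphaBar Qb N q) hα Q _ _).mp hc1, hc2⟩
  choose! cQ hcQ1 hcQ2 using h1
  -- (3): the value of the coefficient
  have h3 := hVM N q hβ hfin P (heckeAlphaBar Qb N q (dEmb N ι g)) (fun Q => ((cQ Q : ↥A) : Qb))
    (fun Q hQ => hcQ1 Q hQ) n
  refine ⟨(∏ Q ∈ Place.fiberAlong (heckeBetaBar Qb N q) hβ P,
    (X - C (cQ Q)) ^ (Q.ramificationIndexAlong (heckeBetaBar Qb N q))).coeff n, ?_, ?_⟩
  · have h4 := vkz_coeff_map_prod A.subtype (Place.fiberAlong (heckeBetaBar Qb N q) hβ P) cQ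
      (fun Q => Q.ramificationIndexAlong (heckeBetaBar Qb N q)) n
    have h5 : (((∏ Q ∈ Place.fiberAlong (heckeBetaBar Qb N q) hβ P,
        (X - C (cQ Q)) ^ (Q.ramificationIndexAlong (heckeBetaBar Qb N q))).coeff n : ↥A) : Qb) =
        (∏ Q ∈ Place.fiberAlong (heckeBetaBar Qb N q) hβ P,
          (X - C ((cQ Q : ↥A) : Qb)) ^ (Q.ramificationIndexAlong (heckeBetaBar Qb N q))).coeff n :=
      h4
    rw [h5]
    exact h3
  · -- (4): the residue
    exact vkz_residue_coeff (IsLocalRing.residue ↥A)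
      (Place.fiberAlong (heckeBetaBar Qb N q) hβ P)
      (fun Q => r (Q.restrictAlong (heckeAlphaBar Qb N q) hα))
      (fun Q => Q.ramificationIndexAlong (heckeBetaBar Qb N q)) cQ v
      (fun Q hQ he => hv_unique (hcQ2 Q hQ)
        (hv _ (vkz_mem_support (Place.fiberAlong (heckeBetaBar Qb N q) hβ P)
          (fun Q => r (Q.restrictAlong (heckeAlphaBar Qb N q) hα))
          (fun Q => Q.ramificationIndexAlong (heckeBetaBar Qb N q)) hQ he))) n

end

end Fermat.Agent.S37
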