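/-
S37, block VAL — hypothesis-free deliverables: `val_r3 : R3Statement`, `val_r4 : R4Statement`
(assembly of the VAL work packages with the outputs of the blocks R, RA, HI, KR).
-/
import Fermat.Agent.S37.RAMain
import Fermat.Agent.S37.HIMain
import Fermat.Agent.S37.KRMain
import Fermat.Agent.S37.HIValDirect
import Fermat.Agent.S37.VALRedCalcA
import Fermat.Agent.S37.VALChartPresA
import Fermat.Agent.S37.VALCharpolyIntA
import Fermat.Agent.S37.VALIntegralityA
import Fermat.Agent.S37.VALChartAA
import Fermat.Agent.S37.VALValuesModA
import Fermat.Agent.S37.VALKeyB
import Fermat.Agent.S37.VALMultisetA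
import Fermat.Agent.S37.VALTwistA
import Fermat.Agent.S37.VALKernel
import Fermat.Agent.S37.VALKR3A
import Fermat.Agent.S37.VALR3CoreA
import Fermat.Agent.S37.VALR4CoreB
import Fermat.Agent.S37.VALFinalA

set_option autoImplicit false

namespace Fermat.Agent.S37

/-- (HI-Val) the values lemma, hypothesis-free. -/
theorem hi_values : hi_ValuesStatement := hivd_main

theorem val_redCalc : val_RedCalcStatement := vrc_main

theorem val_chartPres : val_ChartPresStatement := vcp_main kr_modEqInt r_valQ r_inChart

theorem val_charpolyIntegral : val_CharpolyIntegralStatement := vci_main

theorem val_integrality : val_IntegralityStatement := vin_main kr_modEqInt val_charpolyIntegral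

theorem val_chartA : val_ChartAStatement := vca_main

theorem val_valuesMod : val_ValuesModStatement := vvm_main hi_values

theorem val_key : val_KeyStatement := vkz_main val_valuesMod val_chartPres

theorem val_multiset : val_MultisetStatement := vms_main r_chartSurj r_valK r_datumExists

theorem val_twist : val_TwistStatement := vtw_main

theorem val_kernel : val_KernelStatement := vkn_main

theorem val_kr3 : val_KR3Statement := vk3_main kr_charpoly val_redCalc

theorem val_r3Core : val_R3CoreStatement :=
  vr3_main r_specChart r_inChart r_datumExists hi_fin val_chartPres val_chartA val_integrality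
    ra_specA val_redCalc val_key val_multiset

theorem val_r4Core : val_R4CoreStatement :=
  vs4_main r_specChart r_inChart r_datumExists hi_fin val_chartPres val_chartA val_integrality
    ra_specA ra_redRho val_redCalc val_key val_multiset val_twist val_kr3

/-- Block VAL: (R3) for every `r` satisfying SPEC. -/
theorem val_r3 : R3Statement := vfn_r3 hi_heckeDivSingle val_kernel val_r3Core

/-- Block VAL (with KR): (R4) for every `r` satisfying SPEC. -/
theorem val_r4 : R4Statement := vfn_r4 hi_heckeDivSingle val_r4Core

end Fermat.Agent.S37
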