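/-
S37, block VAL, package VALMultiset ((V4): the multiset lemma).

Two finite multisets `M`, `M'` of places of `F_k` in the chart `i` with
`∏_y (X - ḡ(y))^{M y} = ∏_y (X - ḡ(y))^{M' y}` for every `g` in the chart `i` of one datum are
equal.

Proof.  Every place `y` in the supports comes from a maximal ideal `m_y` of the chart
(`ChartSurjStatement`), and `y ↦ m_y` is injective.  For `y₀` in the supports, prime avoidance
gives `g ∈ m_{y₀}` outside the other `m_y`; the value of `ρ(g)` is `0` at `y₀` and nonzero at the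
other places, and comparing the multiplicity of the root `0` in the two products gives
`M y₀ = M' y₀`.
-/
import Fermat.Agent.S37.VALInterfaces
import Fermat.Agent.S37.HV
import Fermat.Agent.S18.GAMainChart

set_option autoImplicit false

open ModularCurve AlgebraicCurve Polynomial

namespace Fermat.Agent.S37

open Fermat.Agent.S18

noncomputable section

set_option synthInstance.maxHeartbeats 400000

/-! ### Polynomial bookkeeping -/

/-- The multiplicity of the root `0` of `∏_y (X - v y)^{e y}`. -/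
theorem vmt_count_roots {ι k : Type} [Field k] [DecidableEq k] (s : Finset ι) (v : ι → k)
    (e : ι → ℕ) :
    (∏ y ∈ s, (X - C (v y)) ^ e y).roots.count 0 = ∑ y ∈ s, if v y = 0 then e y else 0 := by
  classical
  induction s using Finset.induction_on with
  | empty => simp
  | insert a s ha ih =>
    have hne : (X - C (v a)) ^ e a * ∏ y ∈ s, (X - C (v y)) ^ e y ≠ 0 :=
      mul_ne_zero (pow_ne_zero _ (X_sub_C_ne_zero _))
        (Finset.prod_ne_zero_iff.mpr fun y _ => pow_ne_zero _ (X_sub_C_ne_zero _))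
    rw [Finset.prod_insert ha, Finset.sum_insert ha, roots_mul hne, Multiset.count_add, ih,
      roots_pow, roots_X_sub_C, Multiset.count_nsmul, Multiset.count_singleton]
    congr 1
    by_cases h : v a = 0
    · rw [if_pos h, if_pos h.symm, mul_one]
    · rw [if_neg h, if_neg (fun h' => h h'.symm), mul_zero]

theorem vmt_sum_ite {ι k : Type} [Field k] [DecidableEq k] (M : ι →₀ ℕ) (v : ι → k) (y₀ : ι)
    (h0 : v y₀ = 0) (hne : ∀ y ∈ M.support, y ≠ y₀ → v y ≠ 0) :
    (∑ y ∈ M.support, if v y = 0 then M y else 0) = M y₀ := by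
  rw [Finset.sum_eq_single y₀ (fun y hy hyy => if_neg (hne y hy hyy))
    (fun hy => by rw [Finsupp.notMem_support_iff.mp hy, ite_self]), if_pos h0]

/-! ### Places of `F_k` and maximal ideals of a chart -/

section Datum

variable {N : ℕ} [NeZero N] {L : Type} [Field L] [Algebra ℚ L] {W : ValuationSubring L}
  {k : Type} [Field k] {res : ↥W →+* k}

/-- The place `y` of `F_k` comes from the maximal ideal `m` of the chart: `O_y = ρ((A_i)_m)`,
`ρ(A_i) ⊆ O_y` and `ρ(g) ∈ m_y ↔ g ∈ m`. -/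
def vmt_Rel (ρ : ↥(gaussV W res N) →+* LaurentSeries k) (S : Set ↥(FL L N))
    (y : Place k ↥(Fk k N)) (m : Ideal ↥(chart W N S)) : Prop :=
  ∃ hm : m.IsMaximal,
    (∀ z : ↥(Fk k N), z ∈ y.toValuationSubring ↔
      ∃ (g : ↥(FL L N)) (_ : g ∈ @locSub _ _ (chart W N S) m hm.isPrime)
        (hV : g ∈ gaussV W res N), ρ ⟨g, hV⟩ = (z : LaurentSeries k)) ∧
    (∀ (g : ↥(chart W N S)) (hV : (g : ↥(FL L N)) ∈ gaussV W res N)
      (hk : ρ ⟨(g : ↥(FL L N)), hV⟩ ∈ Fk k N),
        ((⟨ρ ⟨(g : ↥(FL L N)), hV⟩, hk⟩ : ↥(Fk k N)) ∈ y.toValuationSubring) ∧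
        ((⟨ρ ⟨(g : ↥(FL L N)), hV⟩, hk⟩ : ↥(Fk k N)) ∈ y.toValuationSubring.nonunits ↔ g ∈ m))

/-- The maximal ideal determines the place. -/
theorem vmt_Rel_inj {ρ : ↥(gaussV W res N) →+* LaurentSeries k} {S : Set ↥(FL L N)}
    {y y' : Place k ↥(Fk k N)} {m : Ideal ↥(chart W N S)} (h : vmt_Rel ρ S y m)
    (h' : vmt_Rel ρ S y' m) : y = y' := by
  obtain ⟨hm, hO, -⟩ := h
  obtain ⟨hm', hO', -⟩ := h'
  exact Place.ext (SetLike.ext fun z => (hO z).trans (hO' z).symm)

end Datum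

/-- The multiset lemma at datum level. -/
theorem vmt_core (hCS : ChartSurjStatement) (hVK : ValKStatement)
    (N : ℕ) [NeZero N] (ℓ : ℕ) [Fact ℓ.Prime] (L : Type) [Field L] [Algebra ℚ L]
    (W : ValuationSubring L) [IsDiscreteValuationRing ↥W] (k : Type) [Field k] [IsAlgClosed k]
    [CharP k ℓ] (res : ↥W →+* k) (ϖ : ↥W) (hBD : BaseData N ℓ W res ϖ) (hH : HorizAt L N)
    (ρ : ↥(gaussV W res N) →+* LaurentSeries k) (hρ : IsGaussRed W res N ϖ ρ)
    (S : Set ↥(FL L N)) (hS : S = {jF L N} ∨ S = {(jF L N)⁻¹})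
    (M M' : Place k ↥(Fk k N) →₀ ℕ)
    (hchart : ∀ y, (y ∈ M.support ∨ y ∈ M'.support) →
      ((S = {jF L N} ∧ jk k N ∈ y.toValuationSubring) ∨
        (S = {(jF L N)⁻¹} ∧ (jk k N)⁻¹ ∈ y.toValuationSubring)))
    (hprod : ∀ (g : ↥(FL L N)), g ∈ chart W N S →
      ∀ (hV : g ∈ gaussV W res N) (hk : ρ ⟨g, hV⟩ ∈ Fk k N) (v : Place k ↥(Fk k N) → k),
        (∀ y, (y ∈ M.support ∨ y ∈ M'.support) →
          HasValue y (⟨ρ ⟨g, hV⟩, hk⟩ : ↥(Fk k N)) (v y)) →
        ∏ y ∈ M.support, (X - C (v y)) ^ M y = ∏ y ∈ M'.support, (X - C (v y)) ^ M' y) :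
    M = M' := by
  classical
  have hle : chart W N S ≤ gaussV W res N :=
    (ga_chart N ℓ L W k res ϖ hBD S (hS.imp id Or.inl)).1
  -- the maximal ideals of the places in the supports
  have hex : ∀ y : Place k ↥(Fk k N), (y ∈ M.support ∨ y ∈ M'.support) →
      ∃ m : Ideal ↥(chart W N S), vmt_Rel ρ S y m := by
    intro y hy
    obtain ⟨m, hm, ϖc, -, -, hO, hm'⟩ := hCS N ℓ L W k res ϖ hBD hH ρ hρ y S (hchart y hy)
    exact ⟨m, hm, hO, hm'⟩
  choose! mf hmf using hex
  have key : ∀ y₀, (y₀ ∈ M.support ∨ y₀ ∈ M'.support) → M y₀ = M' y₀ := by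
    intro y₀ hy₀
    obtain ⟨hmax₀, -, hm₀⟩ := hmf y₀ hy₀
    -- prime avoidance
    obtain ⟨g, hg₀, hg⟩ : ∃ g : ↥(chart W N S), g ∈ mf y₀ ∧
        ∀ y, (y ∈ M.support ∨ y ∈ M'.support) → y ≠ y₀ → g ∉ mf y := by
      by_contra hcon
      have hsub : ((mf y₀ : Ideal ↥(chart W N S)) : Set ↥(chart W N S)) ⊆
          ⋃ y ∈ (((M.support ∪ M'.support).erase y₀ : Finset (Place k ↥(Fk k N))) :
            Set (Place k ↥(Fk k N))), ((mf y : Ideal ↥(chart W N S)) : Set ↥(chart W N S)) := by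
        intro g hg
        by_contra hgU
        apply hcon
        refine ⟨g, hg, fun y hy hne hgy => hgU ?_⟩
        exact Set.mem_biUnion
          (Finset.mem_coe.mpr (Finset.mem_erase.mpr ⟨hne, Finset.mem_union.mpr hy⟩)) hgy
      obtain ⟨y, hy, hle'⟩ := (Ideal.subset_union_prime y₀ y₀ (fun y hy _ _ => by
        rw [Finset.mem_erase, Finset.mem_union] at hy
        obtain ⟨hmy, -, -⟩ := hmf y hy.2
        exact hmy.isPrime)).mp hsub
      rw [Finset.mem_erase, Finset.mem_union] at hy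
      obtain ⟨hmy, -, -⟩ := hmf y hy.2
      have heq : mf y₀ = mf y := hmax₀.eq_of_le hmy.ne_top hle'
      have h1 : vmt_Rel ρ S y₀ (mf y) := by
        rw [← heq]
        exact hmf y₀ hy₀
      exact hy.1 (vmt_Rel_inj h1 (hmf y hy.2)).symm
    have hV : (g : ↥(FL L N)) ∈ gaussV W res N := hle g.2
    have hk : ρ ⟨(g : ↥(FL L N)), hV⟩ ∈ Fk k N := (hρ.range _).mpr ⟨_, rfl⟩
    -- the values of `ρ(g)` at the places in the supports
    have hval : ∀ y : Place k ↥(Fk k N), (y ∈ M.support ∨ y ∈ M'.support) →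
        ∃ c : k, HasValue y (⟨ρ ⟨(g : ↥(FL L N)), hV⟩, hk⟩ : ↥(Fk k N)) c := by
      intro y hy
      obtain ⟨-, -, hm'⟩ := hmf y hy
      exact hVK N ℓ hBD.not_dvd k y _ (hm' g hV hk).1
    choose! v hv using hval
    have h0 : v y₀ = 0 :=
      hv_unique (hv y₀ hy₀) (hv_zero_iff.mpr ((hm₀ g hV hk).2.mpr hg₀))
    have hne : ∀ y, (y ∈ M.support ∨ y ∈ M'.support) → y ≠ y₀ → v y ≠ 0 := by
      intro y hy hyy hvy
      obtain ⟨-, -, hm'⟩ := hmf y hy
      have h1 := hv y hy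
      rw [hvy] at h1
      exact hg y hy hyy ((hm' g hV hk).2.mp (hv_zero_iff.mp h1))
    have hP := hprod (g : ↥(FL L N)) g.2 hV hk v hv
    have hc := congrArg (fun p : Polynomial k => p.roots.count 0) hP
    rw [vmt_count_roots, vmt_count_roots,
      vmt_sum_ite M v y₀ h0 (fun y hy => hne y (Or.inl (by exact hy))),
      vmt_sum_ite M' v y₀ h0 (fun y hy => hne y (Or.inr (by exact hy)))] at hc
    exact hc
  ext y
  by_cases hy : y ∈ M.support ∨ y ∈ M'.support
  · exact key y hy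
  · rw [not_or] at hy
    rw [Finsupp.notMem_support_iff.mp hy.1, Finsupp.notMem_support_iff.mp hy.2]

/-- (VAL-Multiset, (V4)) The multiset lemma. -/
theorem vmt_main :
    ChartSurjStatement → ValKStatement → DatumExistsStatement → val_MultisetStatement := by
  intro hCS hVK hDE N ℓ _ _ hℓN A hA L _ _ ι _ ϖ hBD hH ρ hρ i M M' hchart hprod
  obtain ⟨hAC, hCP, -⟩ := hDE N ℓ hℓN A hA
  have := hAC
  have := hCP
  refine vmt_core hCS hVK N ℓ L (dW A ι) (kA A) (dRes A ι) ϖ hBD hH ρ hρ {val_t i L N} ?_ M M'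
    ?_ hprod
  · cases i
    · right
      rw [val_t, if_neg (by decide)]
    · left
      rw [val_t, if_pos rfl]
  · intro y hy
    rcases hchart y hy with ⟨rfl, h⟩ | ⟨rfl, h⟩
    · left
      exact ⟨by rw [val_t, if_pos rfl], h⟩
    · right
      exact ⟨by rw [val_t, if_neg (by decide)], ValuationSubring.nonunits_subset h⟩

end

end Fermat.Agent.S37
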