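/-
S37, block VAL, package VALMultiset ((V4): the multiset lemma), twin C.

Deliverable:
`vmu_main : ChartSurjStatement → ValKStatement → DatumExistsStatement → val_MultisetStatement`.

Sketch.  Every place `y` in the support of `M` or `M'` comes from a maximal ideal `m_y` of the
chart (`ChartSurjStatement`), and `y ↦ m_y` is injective since `O_y = ρ((A_i)_{m_y})`.  For a fixed
`y₀`, prime avoidance gives `g ∈ m_{y₀}` outside the other `m_y`; the value `v y` of `ρ(g)` at `y`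
vanishes exactly for `y = y₀`, so comparing the multiplicity of the root `0` in
`∏_y (X - v y)^{M y} = ∏_y (X - v y)^{M' y}` gives `M y₀ = M' y₀`.
-/
import Fermat.Agent.S37.VALInterfaces
import Fermat.Agent.S37.HV
import Fermat.Agent.S18.GAMainChart

set_option autoImplicit false

open ModularCurve AlgebraicCurve Polynomial

namespace Fermat.Agent.S37

open Fermat.Agent.S18

set_option synthInstance.maxHeartbeats 400000

/-! ## Abstract part -/

/-- The multiplicity of the root `0` of `∏_y (X - v y)^{M y}` when `v y = 0 ↔ y = y₀` on the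
support of `M`. -/
theorem vmu_count_roots {k ι : Type} [Field k] [DecidableEq k] (M : ι →₀ ℕ) (v : ι → k) (y₀ : ι)
    (hv : ∀ y ∈ M.support, (v y = 0 ↔ y = y₀)) :
    (∏ y ∈ M.support, (X - C (v y)) ^ M y).roots.count 0 = M y₀ := by
  classical
  have hne : ∏ y ∈ M.support, (X - C (v y)) ^ M y ≠ 0 :=
    Finset.prod_ne_zero_iff.mpr fun y _ => pow_ne_zero _ (X_sub_C_ne_zero _)
  rw [Polynomial.roots_prod _ _ hne, Multiset.count_bind, ← Finset.sum_eq_multiset_sum]
  have hterm : ∀ y ∈ M.support, Multiset.count 0 ((X - C (v y)) ^ M y).roots =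
      if y = y₀ then M y else 0 := by
    intro y hy
    rw [Polynomial.roots_pow, Polynomial.roots_X_sub_C, Multiset.count_nsmul,
      Multiset.count_singleton]
    by_cases h : y = y₀
    · rw [if_pos h, if_pos ((hv y hy).mpr h).symm, mul_one]
    · rw [if_neg h, if_neg fun h0 => h ((hv y hy).mp h0.symm), mul_zero]
  rw [Finset.sum_congr rfl hterm, Finset.sum_ite_eq' M.support y₀ fun y => M y]
  by_cases h : y₀ ∈ M.support
  · rw [if_pos h]
  · rw [if_neg h, Finsupp.notMem_support_iff.mp h]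

/-- The abstract multiset lemma: if the points `y` of the supports of `M`, `M'` correspond
injectively to maximal ideals `m` of a ring `R` (relation `Rel m y`), and for every `g : R` there are
"values" `v y` with `v y = 0 ↔ g ∈ m` and `∏_y (X - v y)^{M y} = ∏_y (X - v y)^{M' y}`, then
`M = M'`. -/
theorem vmu_abstract {R k ι : Type} [CommRing R] [Field k] (M M' : ι →₀ ℕ)
    (Rel : Ideal R → ι → Prop)
    (hex : ∀ y, (y ∈ M.support ∨ y ∈ M'.support) → ∃ m : Ideal R, m.IsMaximal ∧ Rel m y)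
    (hinj : ∀ m y y', Rel m y → Rel m y' → y = y')
    (hval : ∀ g : R, ∃ v : ι → k,
      (∀ y, (y ∈ M.support ∨ y ∈ M'.support) → ∀ m : Ideal R, m.IsMaximal → Rel m y →
        (v y = 0 ↔ g ∈ m)) ∧
      ∏ y ∈ M.support, (X - C (v y)) ^ M y = ∏ y ∈ M'.support, (X - C (v y)) ^ M' y) :
    M = M' := by
  classical
  choose! m hmax hrel using hex
  ext y₀
  by_cases hy₀ : y₀ ∈ M.support ∨ y₀ ∈ M'.support
  swap
  · rw [not_or] at hy₀
    rw [Finsupp.notMem_support_iff.mp hy₀.1, Finsupp.notMem_support_iff.mp hy₀.2]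
  -- prime avoidance
  obtain ⟨g, hg₀, hg⟩ : ∃ g : R, g ∈ m y₀ ∧
      ∀ y, (y ∈ M.support ∨ y ∈ M'.support) → y ≠ y₀ → g ∉ m y := by
    by_contra hcon
    have hsub : ((m y₀ : Ideal R) : Set R) ⊆
        ⋃ y ∈ (((M.support ∪ M'.support).erase y₀ : Finset ι) : Set ι), (m y : Set R) := by
      intro g hg
      by_contra hgU
      refine hcon ⟨g, hg, fun y hy hne hgy => hgU ?_⟩
      refine Set.mem_biUnion (x := y) ?_ hgy
      exact Finset.mem_coe.mpr (Finset.mem_erase.mpr ⟨hne, Finset.mem_union.mpr hy⟩)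
    rw [Ideal.subset_union_prime y₀ y₀ (fun y hy _ _ =>
      (hmax y (Finset.mem_union.mp (Finset.mem_of_mem_erase hy))).isPrime)] at hsub
    obtain ⟨y, hy, hle⟩ := hsub
    have hyY := Finset.mem_union.mp (Finset.mem_of_mem_erase hy)
    have heq : m y₀ = m y := (hmax y₀ hy₀).eq_of_le (hmax y hyY).ne_top hle
    have hrel₀ : Rel (m y) y₀ := heq ▸ hrel y₀ hy₀
    exact (Finset.mem_erase.mp hy).1 (hinj (m y) y y₀ (hrel y hyY) hrel₀)
  obtain ⟨v, hv, hprod⟩ := hval g
  have hv' : ∀ y, (y ∈ M.support ∨ y ∈ M'.support) → (v y = 0 ↔ y = y₀) := by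
    intro y hy
    rw [hv y hy (m y) (hmax y hy) (hrel y hy)]
    constructor
    · intro hgy
      by_contra hne
      exact hg y hy hne hgy
    · rintro rfl
      exact hg₀
  have h1 := vmu_count_roots M v y₀ fun y hy => hv' y (Or.inl hy)
  have h2 := vmu_count_roots M' v y₀ fun y hy => hv' y (Or.inr hy)
  rw [← h1, ← h2, hprod]

/-! ## The multiset lemma -/

/-- (VAL-Multiset, (V4)). -/
theorem vmu_main :
    ChartSurjStatement → ValKStatement → DatumExistsStatement → val_MultisetStatement := by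
  intro hCS hVK hDE N ℓ _ _ hℓN A hA L _ _ ι _ ϖ hBD hHor ρ hρ i M M' hchart hprod
  obtain ⟨hAC, hCP, -⟩ := hDE N ℓ hℓN A hA
  have := hAC
  have := hCP
  have hS : ({val_t i L N} : Set ↥(FL L N)) = {jF L N} ∨
      ({val_t i L N} : Set ↥(FL L N)) = {(jF L N)⁻¹} := by
    cases i
    · exact Or.inr rfl
    · exact Or.inl rfl
  have hle : chart (dW A ι) N {val_t i L N} ≤ gaussV (dW A ι) (dRes A ι) N :=
    (ga_chart N ℓ L (dW A ι) (kA A) (dRes A ι) ϖ hBD {val_t i L N}
      (hS.elim Or.inl fun h => Or.inr (Or.inl h))).1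
  have hCS' := fun (y : Place (kA A) ↥(Fk (kA A) N)) (hy : y ∈ M.support ∨ y ∈ M'.support) =>
    hCS N ℓ L (dW A ι) (kA A) (dRes A ι) ϖ hBD hHor ρ hρ y {val_t i L N} (by
      rcases hchart y hy with ⟨rfl, h⟩ | ⟨rfl, h⟩
      · exact Or.inl ⟨rfl, h⟩
      · exact Or.inr ⟨rfl, ValuationSubring.nonunits_subset h⟩)
  refine vmu_abstract (R := ↥(chart (dW A ι) N {val_t i L N})) (k := kA A) M M'
    (fun m y => ∃ hm : m.IsMaximal,
      (∀ z : ↥(Fk (kA A) N), z ∈ y.toValuationSubring ↔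
        ∃ (g : ↥(FL L N)) (_ : g ∈ @locSub _ _ (chart (dW A ι) N {val_t i L N}) m hm.isPrime)
          (hV : g ∈ gaussV (dW A ι) (dRes A ι) N), ρ ⟨g, hV⟩ = (z : LaurentSeries (kA A))) ∧
      (∀ (g : ↥(chart (dW A ι) N {val_t i L N}))
        (hV : (g : ↥(FL L N)) ∈ gaussV (dW A ι) (dRes A ι) N)
        (hk : ρ ⟨(g : ↥(FL L N)), hV⟩ ∈ Fk (kA A) N),
          ((⟨ρ ⟨(g : ↥(FL L N)), hV⟩, hk⟩ : ↥(Fk (kA A) N)) ∈ y.toValuationSubring) ∧
          ((⟨ρ ⟨(g : ↥(FL L N)), hV⟩, hk⟩ : ↥(Fk (kA A) N)) ∈ y.toValuationSubring.nonunits ↔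
            g ∈ m)))
    ?_ ?_ ?_
  · -- every place of the supports comes from a maximal ideal
    intro y hy
    obtain ⟨m, hm, ϖc, -, -, h1, h2⟩ := hCS' y hy
    exact ⟨m, hm, hm, h1, h2⟩
  · -- the maximal ideal determines the place
    rintro m y y' ⟨hm, h1, -⟩ ⟨hm', h1', -⟩
    apply Place.toValuationSubring_injective
    ext z
    rw [h1 z, h1' z]
  · -- values
    intro g
    have hV : (g : ↥(FL L N)) ∈ gaussV (dW A ι) (dRes A ι) N := hle g.2
    have hk : ρ ⟨(g : ↥(FL L N)), hV⟩ ∈ Fk (kA A) N := (hρ.range _).mpr ⟨_, rfl⟩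
    have hex : ∀ y : Place (kA A) ↥(Fk (kA A) N), ∃ c : kA A,
        (⟨ρ ⟨(g : ↥(FL L N)), hV⟩, hk⟩ : ↥(Fk (kA A) N)) ∈ y.toValuationSubring →
        HasValue y (⟨ρ ⟨(g : ↥(FL L N)), hV⟩, hk⟩ : ↥(Fk (kA A) N)) c := by
      intro y
      by_cases h : (⟨ρ ⟨(g : ↥(FL L N)), hV⟩, hk⟩ : ↥(Fk (kA A) N)) ∈ y.toValuationSubring
      · obtain ⟨c, hc⟩ := hVK N ℓ hℓN (kA A) y _ h
        exact ⟨c, fun _ => hc⟩
      · exact ⟨0, fun h' => absurd h' h⟩
    choose v hv using hex
    refine ⟨v, ?_, ?_⟩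
    · rintro y hy m hmax ⟨hm, h1, h2⟩
      have hval := hv y (h2 g hV hk).1
      have hiff := (h2 g hV hk).2
      constructor
      · intro h0
        rw [h0] at hval
        exact hiff.mp (hv_zero_iff.mp hval)
      · intro hgm
        exact hv_unique hval (hv_zero_iff.mpr (hiff.mpr hgm))
    · apply hprod g g.2 hV hk
      intro y hy
      obtain ⟨m, hm, ϖc, -, -, h1, h2⟩ := hCS' y hy
      exact hv y (h2 g hV hk).1

end Fermat.Agent.S37
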