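/-
S37, block VAL — package VALR3Core (twin B): `val_R3CoreStatement`.

For `r` with SPEC and a prime `q` with Hecke inputs: the multiset `r_*(T_q P)` only depends on
`r P`.  Namespace `Fermat.Agent.S37`, prefix `vs3_`.
-/
import Fermat.Agent.S37.VALInterfaces
import Fermat.Agent.S37.HV

set_option autoImplicit false

open ModularCurve AlgebraicCurve Polynomial

namespace Fermat.Agent.S37

open Fermat.Agent.S18

noncomputable section

set_option synthInstance.maxHeartbeats 400000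

/-- `j̄ ≠ 0` in `F_k`. -/
theorem vs3_jk_ne_zero (k : Type) [Field k] (N : ℕ) : jk k N ≠ 0 := fun h =>
  jqModC_ne_zero_of_nontrivial (R := k) (by rw [← coe_jk k N, h]; rfl)

/-- A place of `F_k` cannot lie in both charts. -/
theorem vs3_chartK_excl (k : Type) [Field k] (N : ℕ) (y : Place k ↥(Fk k N))
    (h1 : jk k N ∈ y.toValuationSubring)
    (h2 : (jk k N)⁻¹ ∈ y.toValuationSubring.nonunits) : False := by
  have h := hv_nonunits_mul_mem y h2 h1
  rw [inv_mul_cancel₀ (vs3_jk_ne_zero k N), hv_nonunits_iff, map_one] at h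
  exact lt_irrefl _ h

/-- Two places of `F` with the same image under `r` lie in a common chart. -/
theorem vs3_same_chart (hSC : SpecChartStatement) (hIC : InChartStatement)
    (N ℓ : ℕ) [NeZero N] [Fact ℓ.Prime] (hℓN : ¬ ℓ ∣ N)
    (A : ValuationSubring Qb) (hA : A.LiesOverPrime ℓ)
    (r : Place Qb ↥(FL Qb N) → Place (kA A) ↥(Fk (kA A) N)) (hr : Spec N ℓ A r)
    (P P' : Place Qb ↥(FL Qb N)) (hPP' : r P = r P') :
    ∃ i : Bool, val_InChart i N A P ∧ val_InChart i N A P' := by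
  rcases (hIC N A P).1 with h1 | h2
  · rcases (hIC N A P').1 with h1' | h2'
    · exact ⟨true, Or.inl ⟨rfl, h1⟩, Or.inl ⟨rfl, h1'⟩⟩
    · exfalso
      have a := (hSC N ℓ hℓN A hA r hr P).1 h1
      have b := (hSC N ℓ hℓN A hA r hr P').2 h2'
      rw [← hPP'] at b
      exact vs3_chartK_excl (kA A) N (r P) a b
  · rcases (hIC N A P').1 with h1' | h2'
    · exfalso
      have a := (hSC N ℓ hℓN A hA r hr P').1 h1'
      have b := (hSC N ℓ hℓN A hA r hr P).2 h2
      rw [hPP'] at b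
      exact vs3_chartK_excl (kA A) N (r P') a b
    · exact ⟨false, Or.inr ⟨rfl, h2⟩, Or.inr ⟨rfl, h2'⟩⟩

/-- Every place in the support of `r_*(T_q P)` lies in the chart of `P`. -/
theorem vs3_supp (hSC : SpecChartStatement) (hCP : val_ChartPresStatement)
    (N ℓ : ℕ) [NeZero N] [Fact ℓ.Prime] (hℓN : ¬ ℓ ∣ N)
    (A : ValuationSubring Qb) (hA : A.LiesOverPrime ℓ)
    (r : Place Qb ↥(FL Qb N) → Place (kA A) ↥(Fk (kA A) N)) (hr : Spec N ℓ A r)
    (q : ℕ) [NeZero q] (hq : q.Prime)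
    (hα : HeckeAlphaBarIntegral Qb N q) (hβ : HeckeBetaBarIntegral Qb N q)
    [HasPrincipalDivisors Qb ↥(FL Qb (N * q))] (i : Bool) (P : Place Qb ↥(FL Qb N))
    (hP : val_InChart i N A P) (y : Place (kA A) ↥(Fk (kA A) N))
    (hy : y ∈ (val_heckeMult N q A r hα hβ P).support) : val_InChartK i (kA A) N y := by
  classical
  unfold val_heckeMult at hy
  have h1 := Finsupp.support_finsetSum hy
  rw [Finset.mem_biUnion] at h1
  obtain ⟨Q, hQ, hyQ⟩ := h1
  have h2 := Finsupp.support_single_subset hyQ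
  rw [Finset.mem_singleton] at h2
  have hQ' : Q.restrictAlong (heckeBetaBar Qb N q) hβ = P := Place.mem_fiberAlong.1 hQ
  have h3 : val_InChart i N A (Q.restrictAlong (heckeBetaBar Qb N q) hβ) := by
    rw [hQ']; exact hP
  have h4 := (hCP N q hq A hα hβ Q i).1 h3
  rw [h2]
  rcases h4 with ⟨hi, h5⟩ | ⟨hi, h5⟩
  · exact Or.inl ⟨hi, (hSC N ℓ hℓN A hA r hr _).1 h5⟩
  · exact Or.inr ⟨hi, (hSC N ℓ hℓN A hA r hr _).2 h5⟩

/-- (VAL-R3-core). -/
theorem vs3_main : SpecChartStatement → InChartStatement → DatumExistsStatement → hi_FinStatement →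
    val_ChartPresStatement → val_ChartAStatement → val_IntegralityStatement → val_SpecAStatement →
    val_RedCalcStatement → val_KeyStatement → val_MultisetStatement → val_R3CoreStatement := by
  intro hSC hIC hDE hFin hCP hCA hInt hSA hRC hKey hMS N ℓ _ _ hℓN A hA r hr q _ hq hα hβ _ P P'
    hPP'
  have hfin : FiniteAlong Qb (heckeBetaBar Qb N q) := (hFin N q).2.2.2
  obtain ⟨i, hPi, hP'i⟩ := vs3_same_chart hSC hIC N ℓ hℓN A hA r hr P P' hPP'
  obtain ⟨-, -, hdat⟩ := hDE N ℓ hℓN A hA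
  obtain ⟨L, instL, instAlg, ι, instDVR, ϖ, hBD, hHoriz, -, ρ, hρ⟩ := hdat ∅
  refine hMS N ℓ hℓN A hA L ι ϖ hBD hHoriz ρ hρ i _ _ ?_ ?_
  · rintro y (hy | hy)
    · exact vs3_supp hSC hCP N ℓ hℓN A hA r hr q hq hα hβ i P hPi y hy
    · exact vs3_supp hSC hCP N ℓ hℓN A hA r hr q hq hα hβ i P' hP'i y hy
  · intro g hg hV hk v hv
    refine Polynomial.ext fun n => ?_
    obtain ⟨c1, hc1, hc1'⟩ := hKey N ℓ hℓN A hA r hr q hq hα hβ hfin i P hPi L ι ϖ hBD ρ hρ
      g hg hV hk v (fun y hy => hv y (Or.inl hy)) n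
    obtain ⟨c2, hc2, hc2'⟩ := hKey N ℓ hℓN A hA r hr q hq hα hβ hfin i P' hP'i L ι ϖ hBD ρ hρ
      g hg hV hk v (fun y hy => hv y (Or.inr hy)) n
    rw [← hc1', ← hc2']
    have hmem := hCA N A i L ι g hg
    have hloc1 := hInt N q hq A hfin i P hPi (dEmb N ι g) hmem n
    have hloc2 := hInt N q hq A hfin i P' hP'i (dEmb N ι g) hmem n
    obtain ⟨d1, z1, hd1, hz1, hred1⟩ := hSA N ℓ hℓN A hA r hr i P hPi _ hloc1
    obtain ⟨d2, z2, hd2, hz2, hred2⟩ := hSA N ℓ hℓN A hA r hr i P' hP'i _ hloc2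
    have hz : z1 = z2 := Subtype.ext ((hRC A).1 _ _ _ hred1 hred2)
    have e1 : d1 = c1 := Subtype.ext (hv_unique hd1 hc1)
    have e2 : d2 = c2 := Subtype.ext (hv_unique hd2 hc2)
    rw [← hPP', ← hz] at hz2
    have h := hv_unique hz1 hz2
    rw [← e1, ← e2]
    exact h

end

end Fermat.Agent.S37
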