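/-
S37, block VAL, package VALR4Core (twin A): `r_*(T_ℓ P) = [Φ(r P)] + ℓ [Φ⁻¹(r P)]`.

Deliverable: `vr4_main : SpecChartStatement → InChartStatement → DatumExistsStatement →
  hi_FinStatement → val_ChartPresStatement → val_ChartAStatement → val_IntegralityStatement →
  val_SpecAStatement → val_RedRhoStatement → val_RedCalcStatement → val_KeyStatement →
  val_MultisetStatement → val_TwistStatement → val_KR3Statement → val_R4CoreStatement`.

Sketch.  Both multisets are supported in the chart of `P`; by `val_MultisetStatement` it suffices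
to compare, for every `g` in the chart of a datum, the polynomials `∏_y (X - ḡ(y))^{mult y}`.
For the left side the coefficients are the reductions of the values at `P` of the coefficients
`a_n` of the characteristic polynomial of `α(g)` along `β` (`val_KeyStatement`).  By the Kronecker
congruence (`val_KR3Statement`) the Gauss-local reduction of `a_n` is the `n`-th coefficient of
`(X - (τ⁻¹ḡ)^ℓ)(X^ℓ - τḡ)`, whose value at `x = r P` is the `n`-th coefficient of
`(X - ḡ(Φ x))(X^ℓ - ḡ(Φ⁻¹ x)^ℓ) = (X - ḡ(Φ x))(X - ḡ(Φ⁻¹ x))^ℓ` (`val_TwistStatement`), and this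
value is the reduction of the value of `a_n` at `P` (`val_SpecAStatement`).
-/
import Fermat.Agent.S37.VALInterfaces
import Fermat.Agent.S37.HV

set_option autoImplicit false

open ModularCurve AlgebraicCurve Polynomial

namespace Fermat.Agent.S37

open Fermat.Agent.S18

noncomputable section

set_option synthInstance.maxHeartbeats 400000

/-! ## Coefficientwise values of polynomials -/

/-- The polynomial `p` over `F` has the coefficientwise values `q` at the place `x`. -/
def vr4_CV {K F : Type} [Field K] [Field F] [Algebra K F] (x : Place K F) (p : Polynomial F)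
    (q : Polynomial K) : Prop :=
  ∀ n : ℕ, HasValue x (p.coeff n) (q.coeff n)

theorem vr4_cv_mul {K F : Type} [Field K] [Field F] [Algebra K F] {x : Place K F}
    {p p' : Polynomial F} {q q' : Polynomial K} (h : vr4_CV x p q) (h' : vr4_CV x p' q') :
    vr4_CV x (p * p') (q * q') := by
  intro n
  rw [Polynomial.coeff_mul, Polynomial.coeff_mul]
  exact hv_sum _ _ _ (fun ij _ => hv_mul (h ij.1) (h' ij.2))

theorem vr4_cv_X_pow_sub_C {K F : Type} [Field K] [Field F] [Algebra K F] {x : Place K F}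
    (m : ℕ) {a : F} {c : K} (h : HasValue x a c) :
    vr4_CV x (X ^ m - C a) (X ^ m - C c) := by
  intro n
  rw [Polynomial.coeff_sub, Polynomial.coeff_sub, Polynomial.coeff_X_pow, Polynomial.coeff_C,
    Polynomial.coeff_X_pow, Polynomial.coeff_C]
  refine hv_sub ?_ ?_
  · by_cases hn : n = m
    · rw [if_pos hn, if_pos hn]
      exact hv_one x
    · rw [if_neg hn, if_neg hn]
      exact hv_zero x
  · by_cases hn : n = 0
    · rw [if_pos hn, if_pos hn]
      exact h
    · rw [if_neg hn, if_neg hn]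
      exact hv_zero x

theorem vr4_cv_X_sub_C {K F : Type} [Field K] [Field F] [Algebra K F] {x : Place K F}
    {a : F} {c : K} (h : HasValue x a c) : vr4_CV x (X - C a) (X - C c) := by
  have h1 := vr4_cv_X_pow_sub_C 1 h
  rwa [pow_one, pow_one] at h1

/-- The product attached to the multiset `[a] + m [b]`. -/
theorem vr4_prod_single_add {Y R : Type} [CommRing R] (a b : Y) (m : ℕ) (f : Y → R) :
    ∏ y ∈ (Finsupp.single a 1 + Finsupp.single b m : Y →₀ ℕ).support,
        f y ^ (Finsupp.single a 1 + Finsupp.single b m : Y →₀ ℕ) y = f a * f b ^ m := by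
  have h := Finsupp.prod_add_index' (f := Finsupp.single a 1) (g := Finsupp.single b m)
    (h := fun y n => f y ^ n) (fun y => pow_zero _) (fun y n₁ n₂ => pow_add _ _ _)
  have e1 : (Finsupp.single a 1 : Y →₀ ℕ).prod (fun y n => f y ^ n) = f a ^ 1 :=
    Finsupp.prod_single_index (h := fun y n => f y ^ n) (pow_zero _)
  have e2 : (Finsupp.single b m : Y →₀ ℕ).prod (fun y n => f y ^ n) = f b ^ m :=
    Finsupp.prod_single_index (h := fun y n => f y ^ n) (pow_zero _)
  rw [e1, e2, pow_one] at h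
  exact h

theorem vr4_mem_support_left {Y : Type} (a b : Y) (m : ℕ) :
    a ∈ (Finsupp.single a 1 + Finsupp.single b m : Y →₀ ℕ).support := by
  rw [Finsupp.mem_support_iff, Finsupp.add_apply, Finsupp.single_eq_same]
  omega

theorem vr4_mem_support_right {Y : Type} (a b : Y) (m : ℕ) (hm : m ≠ 0) :
    b ∈ (Finsupp.single a 1 + Finsupp.single b m : Y →₀ ℕ).support := by
  rw [Finsupp.mem_support_iff, Finsupp.add_apply, Finsupp.single_eq_same]
  omega

theorem vr4_support_subset {Y : Type} (a b : Y) (m : ℕ) (y : Y)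
    (hy : y ∈ (Finsupp.single a 1 + Finsupp.single b m : Y →₀ ℕ).support) : y = a ∨ y = b := by
  classical
  have hy' := Finsupp.support_add hy
  rw [Finset.mem_union] at hy'
  rcases hy' with h | h
  · left
    exact Finset.mem_singleton.mp (Finsupp.support_single_subset h)
  · right
    exact Finset.mem_singleton.mp (Finsupp.support_single_subset h)

/-- Coefficients of `(X - a ^ ℓ) (X ^ ℓ - b)` over a subfield `F ⊆ Ω`, computed in `Ω`. -/
theorem vr4_coeff_coe {K Ω : Type} [Field K] [Field Ω] [Algebra K Ω] (F : IntermediateField K Ω)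
    (a b : ↥F) (ℓ n : ℕ) :
    ((((X - C (a ^ ℓ)) * (X ^ ℓ - C b) : Polynomial ↥F).coeff n : ↥F) : Ω) =
      ((X - C ((a : Ω) ^ ℓ)) * (X ^ ℓ - C (b : Ω)) : Polynomial Ω).coeff n := by
  have e : ((X - C ((a : Ω) ^ ℓ)) * (X ^ ℓ - C (b : Ω)) : Polynomial Ω) =
      ((X - C (a ^ ℓ)) * (X ^ ℓ - C b) : Polynomial ↥F).map (algebraMap ↥F Ω) := by
    rw [Polynomial.map_mul, Polynomial.map_sub, Polynomial.map_sub, Polynomial.map_pow,
      Polynomial.map_X, Polynomial.map_C, Polynomial.map_C, map_pow (algebraMap ↥F Ω)]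
    rfl
  rw [e, Polynomial.coeff_map]
  rfl

/-- If `a ^ ℓ` and `b` have the values `ca`, `cb` at the place `x` of `F ⊆ Ω`, then an element
`z` of `F` which, in `Ω`, is the `n`-th coefficient of `(X - a ^ ℓ) (X ^ ℓ - b)` has the value
`((X - ca) (X ^ ℓ - cb))_n` at `x`. -/
theorem vr4_value_R {K Ω : Type} [Field K] [Field Ω] [Algebra K Ω] (F : IntermediateField K Ω)
    (x : Place K ↥F) (a b z : ↥F) (ca cb : K) (ℓ n : ℕ)
    (ha : HasValue x (a ^ ℓ) ca) (hb : HasValue x b cb)
    (hz : (z : Ω) = ((X - C ((a : Ω) ^ ℓ)) * (X ^ ℓ - C (b : Ω)) : Polynomial Ω).coeff n) :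
    HasValue x z (((X - C ca) * (X ^ ℓ - C cb) : Polynomial K).coeff n) := by
  have hzF : z = ((X - C (a ^ ℓ)) * (X ^ ℓ - C b) : Polynomial ↥F).coeff n :=
    Subtype.ext (hz.trans (vr4_coeff_coe F a b ℓ n).symm)
  rw [hzF]
  exact vr4_cv_mul (vr4_cv_X_sub_C ha) (vr4_cv_X_pow_sub_C ℓ hb) n

/-- `X ^ ℓ - c ^ ℓ = (X - c) ^ ℓ` in characteristic `ℓ`. -/
theorem vr4_frob_poly (k : Type) [Field k] (ℓ : ℕ) [Fact ℓ.Prime] [CharP k ℓ] (c : k) :
    (X ^ ℓ - C (c ^ ℓ) : Polynomial k) = (X - C c) ^ ℓ := by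
  rw [sub_pow_char, ← C_pow]

/-! ## The main theorem -/

set_option maxHeartbeats 1000000 in
theorem vr4_main : SpecChartStatement → InChartStatement → DatumExistsStatement → hi_FinStatement →
    val_ChartPresStatement → val_ChartAStatement → val_IntegralityStatement → val_SpecAStatement →
    val_RedRhoStatement → val_RedCalcStatement → val_KeyStatement → val_MultisetStatement →
    val_TwistStatement → val_KR3Statement → val_R4CoreStatement := by
  intro hSC hIC hDE hFin hCP hCA hInt hSA hRR hRC hKey hMS hTw hKR3 N ℓ _ _ hℓF hN A hA r hr hα hβ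
    _ τ hτ P
  classical
  have hℓ : ℓ.Prime := hℓF.out
  have hfin : FiniteAlong Qb (heckeBetaBar Qb N ℓ) := (hFin N ℓ).2.2.2
  obtain ⟨hAC, hChar, hex⟩ := hDE N ℓ hN A hA
  obtain ⟨L, iF, iAlg, ι, iDVR, ϖ, hD, hH, -, ρ, hρ⟩ := hex ∅
  -- the chart of `P`
  obtain ⟨i, hPi⟩ : ∃ i : Bool, val_InChart i N A P := by
    rcases (hIC N A P).1 with h | h
    · exact ⟨true, Or.inl ⟨rfl, h⟩⟩
    · exact ⟨false, Or.inr ⟨rfl, h⟩⟩
  -- `r` preserves the chart
  have hchart : ∀ P' : Place Qb ↥(FL Qb N), val_InChart i N A P' →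
      val_InChartK i (kA A) N (r P') := by
    intro P' h
    obtain ⟨h1, h2⟩ := hSC N ℓ hN A hA r hr P'
    rcases h with ⟨hi, h⟩ | ⟨hi, h⟩
    · exact Or.inl ⟨hi, h1 h⟩
    · exact Or.inr ⟨hi, h2 h⟩
  have hinv : (coeffAut (kA A) N τ)⁻¹ = coeffAut (kA A) N τ.symm := (hTw (kA A) N τ (r P)).2.2
  apply hMS N ℓ hN A hA L ι ϖ hD hH ρ hρ i
  · -- supports
    intro y hy
    rcases hy with hy | hy
    · have hsub := Finsupp.support_finsetSum
        (s := Place.fiberAlong (heckeBetaBar Qb N ℓ) hβ P)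
        (f := fun Q => Finsupp.single (r (Q.restrictAlong (heckeAlphaBar Qb N ℓ) hα))
          (Q.ramificationIndexAlong (heckeBetaBar Qb N ℓ)))
      have hy' := hsub hy
      rw [Finset.mem_biUnion] at hy'
      obtain ⟨Q, hQ, hyQ⟩ := hy'
      have hyQ' := Finset.mem_singleton.mp (Finsupp.support_single_subset hyQ)
      have hQ' : Q.restrictAlong (heckeBetaBar Qb N ℓ) hβ = P := Place.mem_fiberAlong.mp hQ
      rw [hyQ']
      apply hchart
      rw [← hCP N ℓ hℓ A hα hβ Q i, hQ']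
      exact hPi
    · rcases vr4_support_subset _ _ _ y hy with h | h
      · rw [h]
        exact (hTw (kA A) N τ (r P)).2.1 i (hchart P hPi)
      · rw [h, hinv]
        exact (hTw (kA A) N τ.symm (r P)).2.1 i (hchart P hPi)
  · -- products
    intro g hg hV hk v hv
    -- values of `ḡ` at `Φ • x` and `Φ⁻¹ • x`
    have hplus : HasValue (coeffAut (kA A) N τ • r P) (⟨ρ ⟨g, hV⟩, hk⟩ : ↥(Fk (kA A) N))
        (v (coeffAut (kA A) N τ • r P)) :=
      hv _ (Or.inr (vr4_mem_support_left _ _ _))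
    have hminus : HasValue ((coeffAut (kA A) N τ)⁻¹ • r P) (⟨ρ ⟨g, hV⟩, hk⟩ : ↥(Fk (kA A) N))
        (v ((coeffAut (kA A) N τ)⁻¹ • r P)) :=
      hv _ (Or.inr (vr4_mem_support_right _ _ _ hℓ.ne_zero))
    -- twisting back to `x = r P`
    have hw : HasValue (r P)
        (coeffRingAut (kA A) N τ.symm (⟨ρ ⟨g, hV⟩, hk⟩ : ↥(Fk (kA A) N)))
        (τ.symm (v (coeffAut (kA A) N τ • r P))) := by
      have h := (hTw (kA A) N τ.symm (coeffAut (kA A) N τ • r P)).1 _ _ hplus
      rwa [← hinv, inv_smul_smul] at h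
    have hw' : HasValue (r P)
        (coeffRingAut (kA A) N τ (⟨ρ ⟨g, hV⟩, hk⟩ : ↥(Fk (kA A) N)))
        (τ (v ((coeffAut (kA A) N τ)⁻¹ • r P))) := by
      have h := (hTw (kA A) N τ ((coeffAut (kA A) N τ)⁻¹ • r P)).1 _ _ hminus
      rwa [smul_inv_smul] at h
    have hwℓ : HasValue (r P)
        ((coeffRingAut (kA A) N τ.symm (⟨ρ ⟨g, hV⟩, hk⟩ : ↥(Fk (kA A) N))) ^ ℓ)
        (v (coeffAut (kA A) N τ • r P)) := by
      have h := hv_pow hw ℓ
      rwa [← hτ, RingEquiv.apply_symm_apply] at h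
    rw [hτ] at hw'
    -- the right-hand side
    have hRHS : ∏ y ∈ (Finsupp.single (coeffAut (kA A) N τ • r P) 1 +
          Finsupp.single ((coeffAut (kA A) N τ)⁻¹ • r P) ℓ :
            Place (kA A) ↥(Fk (kA A) N) →₀ ℕ).support,
        (X - C (v y)) ^ (Finsupp.single (coeffAut (kA A) N τ • r P) 1 +
          Finsupp.single ((coeffAut (kA A) N τ)⁻¹ • r P) ℓ :
            Place (kA A) ↥(Fk (kA A) N) →₀ ℕ) y =
        (X - C (v (coeffAut (kA A) N τ • r P))) *
          (X ^ ℓ - C ((v ((coeffAut (kA A) N τ)⁻¹ • r P)) ^ ℓ)) := by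
      rw [vr4_frob_poly (kA A) ℓ]
      exact vr4_prod_single_add _ _ ℓ (fun y => (X - C (v y) : Polynomial (kA A)))
    refine Eq.trans ?_ hRHS.symm
    apply Polynomial.ext
    intro n
    -- the left-hand side: the values of the coefficients of the characteristic polynomial
    obtain ⟨c, hc1, hc2⟩ := hKey N ℓ hN A hA r hr ℓ hℓ hα hβ hfin i P hPi L ι ϖ hD ρ hρ g hg hV
      hk v (fun y hy => hv y (Or.inl hy)) n
    rw [← hc2]
    -- the coefficient lies in the local ring of the chart: value and reduction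
    have hloc := hInt N ℓ hℓ A hfin i P hPi (dEmb N ι g) (hCA N A i L ι g hg) n
    obtain ⟨c', z, hc'1, hc'2, hred⟩ := hSA N ℓ hN A hA r hr i P hPi _ hloc
    have hcc' : c = c' := Subtype.ext (hv_unique hc1 hc'1)
    -- the reduction of the coefficient by the Kronecker congruence
    obtain ⟨hRuniq, -, -, -, -, hRq⟩ := hRC A
    have hred1 := hRq ℓ _ _ hred
    have hred2 := hKR3 N ℓ hℓ hN hfin A hA τ hτ (dEmb N ι g) (ρ ⟨g, hV⟩)
      (hRR N ℓ hN A hA L ι ϖ hD ρ hρ g hV) n
    have hz : (z : LaurentSeries (kA A)) =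
        ((X - C ((coeffMap (τ.symm : kA A →+* kA A) (ρ ⟨g, hV⟩)) ^ ℓ)) *
          (X ^ ℓ - C (coeffMap (τ : kA A →+* kA A) (ρ ⟨g, hV⟩)))).coeff n :=
      qExpand_injective ℓ (hRuniq _ _ _ hred1 hred2)
    have e1 : ((coeffRingAut (kA A) N τ.symm (⟨ρ ⟨g, hV⟩, hk⟩ : ↥(Fk (kA A) N)) :
        ↥(Fk (kA A) N)) : LaurentSeries (kA A)) =
        coeffMap (τ.symm : kA A →+* kA A) (ρ ⟨g, hV⟩) := rfl
    have e2 : ((coeffRingAut (kA A) N τ (⟨ρ ⟨g, hV⟩, hk⟩ : ↥(Fk (kA A) N)) :
        ↥(Fk (kA A) N)) : LaurentSeries (kA A)) =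
        coeffMap (τ : kA A →+* kA A) (ρ ⟨g, hV⟩) := rfl
    rw [← e1, ← e2] at hz
    have hval := vr4_value_R (Fk (kA A) N) (r P) _ _ z _ _ ℓ n hwℓ hw' hz
    rw [hcc']
    exact hv_unique hc'2 hval

end

end Fermat.Agent.S37
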