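/-
S37, block VAL, work package `VALRedCalc`: calculus of the Gauss-local reduction `val_Red`
(uniqueness, ring operations, constants, substitutions `q ↦ q^m`).

`val_Red A a z` says `a = ι(u) / ι(w)` and `z = ū / w̄` with `u, w ∈ A((q))`, `w̄ ≠ 0`, where
`ι = coeffMap A.subtype` and the bar is `coeffMap (residue A)`; everything follows from the facts
that `ι` and the bar are ring homomorphisms, `ι` is injective, `k((q))` is a domain and both maps
commute with `qExpand`.
-/
import Fermat.Agent.S37.VALInterfaces

set_option autoImplicit false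

open ModularCurve

namespace Fermat.Agent.S37

/-- `coeffMap` along an injective ring homomorphism is injective. -/
theorem vrd_coeffMap_injective {R S : Type} [CommRing R] [CommRing S] (f : R →+* S)
    (hf : Function.Injective f) : Function.Injective (coeffMap f) := by
  intro x x' h
  ext n
  apply hf
  have h' := congrArg (fun s : LaurentSeries S => s.coeff n) h
  simpa only [coeffMap_coeff] using h'

/-- Uniqueness of the Gauss-local reduction. -/
theorem vrd_unique (A : ValuationSubring Qb) (a : LaurentSeries Qb) (z z' : LaurentSeries (kA A))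
    (h : val_Red A a z) (h' : val_Red A a z') : z = z' := by
  obtain ⟨u, w, hw, ha, hz⟩ := h
  obtain ⟨u', w', hw', ha', hz'⟩ := h'
  have h1 : coeffMap A.subtype (u * w') = coeffMap A.subtype (u' * w) := by
    rw [map_mul, map_mul, ← ha, ← ha']
    ring
  have h2 : u * w' = u' * w := vrd_coeffMap_injective A.subtype A.subtype_injective h1
  have h3 := congrArg (coeffMap (IsLocalRing.residue ↥A)) h2
  rw [map_mul, map_mul, ← hz, ← hz'] at h3
  have h4 : (z - z') * (coeffMap (IsLocalRing.residue ↥A) w *
      coeffMap (IsLocalRing.residue ↥A) w') = 0 := by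
    linear_combination h3
  rcases mul_eq_zero.mp h4 with h5 | h5
  · exact sub_eq_zero.mp h5
  · exact absurd h5 (mul_ne_zero hw hw')

/-- The Gauss-local reduction is additive. -/
theorem vrd_add (A : ValuationSubring Qb) (a a' : LaurentSeries Qb) (z z' : LaurentSeries (kA A))
    (h : val_Red A a z) (h' : val_Red A a' z') : val_Red A (a + a') (z + z') := by
  obtain ⟨u, w, hw, ha, hz⟩ := h
  obtain ⟨u', w', hw', ha', hz'⟩ := h'
  refine ⟨u * w' + u' * w, w * w', ?_, ?_, ?_⟩
  · rw [map_mul]
    exact mul_ne_zero hw hw'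
  · rw [map_mul, map_add, map_mul, map_mul, ← ha, ← ha']
    ring
  · rw [map_mul, map_add, map_mul, map_mul, ← hz, ← hz']
    ring

/-- The Gauss-local reduction is multiplicative. -/
theorem vrd_mul (A : ValuationSubring Qb) (a a' : LaurentSeries Qb) (z z' : LaurentSeries (kA A))
    (h : val_Red A a z) (h' : val_Red A a' z') : val_Red A (a * a') (z * z') := by
  obtain ⟨u, w, hw, ha, hz⟩ := h
  obtain ⟨u', w', hw', ha', hz'⟩ := h'
  refine ⟨u * u', w * w', ?_, ?_, ?_⟩
  · rw [map_mul]
    exact mul_ne_zero hw hw'
  · rw [map_mul, map_mul, ← ha, ← ha']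
    ring
  · rw [map_mul, map_mul, ← hz, ← hz']
    ring

/-- The Gauss-local reduction commutes with negation. -/
theorem vrd_neg (A : ValuationSubring Qb) (a : LaurentSeries Qb) (z : LaurentSeries (kA A))
    (h : val_Red A a z) : val_Red A (-a) (-z) := by
  obtain ⟨u, w, hw, ha, hz⟩ := h
  refine ⟨-u, w, hw, ?_, ?_⟩
  · rw [map_neg, ← ha]
    ring
  · rw [map_neg, ← hz]
    ring

/-- A series with coefficients in `A` reduces to its coefficientwise residue. -/
theorem vrd_coe (A : ValuationSubring Qb) (y : LaurentSeries ↥A) :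
    val_Red A (coeffMap A.subtype y) (coeffMap (IsLocalRing.residue ↥A) y) := by
  refine ⟨y, 1, ?_, ?_, ?_⟩
  · rw [map_one]
    exact one_ne_zero
  · rw [map_one, mul_one]
  · rw [map_one, mul_one]

/-- The Gauss-local reduction commutes with the substitutions `q ↦ q^m`. -/
theorem vrd_qExpand (A : ValuationSubring Qb) (m : ℕ) [NeZero m] (a : LaurentSeries Qb)
    (z : LaurentSeries (kA A)) (h : val_Red A a z) :
    val_Red A (qExpand Qb m a) (qExpand (kA A) m z) := by
  obtain ⟨u, w, hw, ha, hz⟩ := h
  refine ⟨qExpand ↥A m u, qExpand ↥A m w, ?_, ?_, ?_⟩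
  · rw [coeffMap_qExpand]
    intro h0
    apply hw
    apply qExpand_injective m
    rw [h0, map_zero]
  · rw [coeffMap_qExpand, coeffMap_qExpand, ← map_mul, ha]
  · rw [coeffMap_qExpand, coeffMap_qExpand, ← map_mul, hz]

/-- (VAL-Red) Calculus of the Gauss-local reduction. -/
theorem vrd_main : val_RedCalcStatement := by
  intro A
  exact ⟨vrd_unique A, vrd_add A, vrd_mul A, vrd_neg A, vrd_coe A,
    fun m _ a z h => vrd_qExpand A m a z h⟩

end Fermat.Agent.S37
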