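/-
S37, block VAL, package VALTwist (twin B): values and charts under the coefficientwise
automorphism `τ` of `F_k`.

(1) If `h` has the value `c` at the place `y`, then `τ h` has the value `τ c` at `τ • y`.
(2) The charts (`j̄ ∈ O_y`, resp. `1/j̄ ∈ m_y`) are stable under `y ↦ τ • y`, because `τ j̄ = j̄`.
(3) The inverse of the semilinear automorphism attached to `τ` is the one attached to `τ⁻¹`.
-/
import Fermat.Agent.S37.VALInterfaces

set_option autoImplicit false

open ModularCurve AlgebraicCurve Polynomial

namespace Fermat.Agent.S37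

open Fermat.Agent.S18

noncomputable section

set_option synthInstance.maxHeartbeats 400000

open scoped Pointwise in
/-- Nonunits of a valuation ring are transported by a semilinear automorphism. -/
theorem vtx_smul_mem_nonunits {K F : Type} [Field K] [Field F] [Algebra K F]
    (g : SemilinearAut K F) (O : ValuationSubring F) {x : F} (hx : x ∈ O.nonunits) :
    g • x ∈ (g • O).nonunits := by
  rw [ValuationSubring.mem_nonunits_iff_or] at hx ⊢
  rcases hx with rfl | hx
  · left
    exact smul_zero g
  · right
    intro h
    apply hx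
    rw [← smul_inv''] at h
    exact ValuationSubring.smul_mem_pointwise_smul_iff.mp h

/-- (1) Values under the coefficientwise automorphism. -/
theorem vtx_hasValue (k : Type) [Field k] (N : ℕ) [NeZero N] (τ : k ≃+* k)
    (y : Place k ↥(Fk k N)) (h : ↥(Fk k N)) (c : k) (hv : HasValue y h c) :
    HasValue (coeffAut k N τ • y) (coeffRingAut k N τ h) (τ c) := by
  have h1 := vtx_smul_mem_nonunits (coeffAut k N τ) y.toValuationSubring hv
  have e : coeffAut k N τ • (h - algebraMap k ↥(Fk k N) c)
      = coeffRingAut k N τ h - algebraMap k ↥(Fk k N) (τ c) := by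
    rw [SemilinearAut.smul_def, toRingAut_coeffAut, map_sub, coeffRingAut_algebraMap]
  rw [e] at h1
  exact h1

/-- The coefficientwise automorphism fixes `j̄`. -/
theorem vtx_jk (k : Type) [Field k] (N : ℕ) [NeZero N] (τ : k ≃+* k) :
    coeffRingAut k N τ (jk k N) = jk k N :=
  Subtype.ext (coeffMap_jqModC (τ : k →+* k))

/-- (2) Charts under the coefficientwise automorphism. -/
theorem vtx_inChart (k : Type) [Field k] (N : ℕ) [NeZero N] (τ : k ≃+* k)
    (y : Place k ↥(Fk k N)) (i : Bool) (hi : val_InChartK i k N y) :
    val_InChartK i k N (coeffAut k N τ • y) := by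
  rcases hi with ⟨hi, hj⟩ | ⟨hi, hj⟩
  · left
    refine ⟨hi, ?_⟩
    have h1 := ValuationSubring.smul_mem_pointwise_smul (coeffAut k N τ) _ y.toValuationSubring hj
    rw [SemilinearAut.smul_def, toRingAut_coeffAut, vtx_jk] at h1
    exact h1
  · right
    refine ⟨hi, ?_⟩
    have h1 := vtx_smul_mem_nonunits (coeffAut k N τ) y.toValuationSubring hj
    rw [SemilinearAut.smul_def, toRingAut_coeffAut, map_inv₀, vtx_jk] at h1
    exact h1

/-- (3) The inverse of the coefficientwise automorphism. -/
theorem vtx_inv (k : Type) [Field k] (N : ℕ) [NeZero N] (τ : k ≃+* k) :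
    (coeffAut k N τ)⁻¹ = coeffAut k N τ.symm :=
  Subtype.ext (Prod.ext (RingEquiv.ext fun _ => rfl) rfl)

/-- (VAL-Twist). -/
theorem vtx_main : val_TwistStatement := by
  intro k _ N _ τ y
  exact ⟨fun h c hv => vtx_hasValue k N τ y h c hv, fun i hi => vtx_inChart k N τ y i hi,
    vtx_inv k N τ⟩

end

end Fermat.Agent.S37
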