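/-
S37, block VAL, package VALValuesMod: the values lemma for `β : F_N → F_{Nq}` in `HasValue` form.

* `vvn_isValue_iff`: `hi_IsValue v x c ↔ HasValue v x c` for a place `v` of a field `F` over `K`;
* `vvn_main : hi_ValuesStatement → val_ValuesModStatement`: the specialisation of the general
  values lemma to `K = ℚ̄`, `F = F_N`, `F' = F_{Nq}`, `φ = β`, `t = j`.
-/
import Fermat.Agent.S37.VALInterfaces
import Fermat.Agent.S37.HV
import Fermat.Agent.S24.Dict
import Fermat.Agent.S28.CMain

set_option autoImplicit false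

open AlgebraicCurve ModularCurve Polynomial

namespace Fermat.Agent.S37

open Fermat.Agent.S18

set_option synthInstance.maxHeartbeats 400000

/-- The two conventions for "`x` has the value `c` at the place `v`" agree. -/
theorem vvn_isValue_iff {K F : Type} [Field K] [Field F] [Algebra K F] (v : Place K F) (x : F)
    (c : K) : hi_IsValue v x c ↔ HasValue v x c := by
  unfold hi_IsValue HasValue
  generalize x - algebraMap K F c = y
  rw [ValuationSubring.mem_nonunits_iff_exists_mem_maximalIdeal]
  constructor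
  · rintro (rfl | hpos)
    · exact ⟨v.toValuationSubring.zero_mem, Submodule.zero_mem _⟩
    · have hy : y ∈ v.toValuationSubring :=
        (Fermat.Agent.S24.Dict.mem_iff_ord_nonneg v).mpr hpos.le
      exact ⟨hy, ((Fermat.Agent.S24.Dict.ord_pos_iff_mem_maximalIdeal v ⟨y, hy⟩).mp hpos).2⟩
  · rintro ⟨hy, hmem⟩
    by_cases h0 : y = 0
    · exact Or.inl h0
    · refine Or.inr ((Fermat.Agent.S24.Dict.ord_pos_iff_mem_maximalIdeal v ⟨y, hy⟩).mpr
        ⟨fun h => h0 (congrArg Subtype.val h), hmem⟩)

/-- (VAL-ValuesMod) The values lemma for `β : F_N → F_{Nq}` in `HasValue` form. -/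
theorem vvn_main : hi_ValuesStatement → val_ValuesModStatement := by
  intro hV N q _ _ hβ hfin _ P h c hc n
  obtain ⟨htr, hfd, -⟩ := Fermat.Agent.S28.c_modelCounts N
  have key := hV Qb ↥(FL Qb N) ↥(FL Qb (N * q)) (Fermat.Agent.S24.jBar N) htr hfd
    (heckeBetaBar Qb N q) hβ hfin P h c
    (fun Q hQ => (vvn_isValue_iff Q h (c Q)).mpr (hc Q hQ)) n
  exact (vvn_isValue_iff _ _ _).mp key

end Fermat.Agent.S37
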